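import Mathlib

/-!
# S34, package COMP-LOC-ABS: a component of the special fibre is Dedekind, from local data

Let `O` be a noetherian chart (a subalgebra of the field `F`), `V` a valuation subring of `F`
containing `O`, and `𝔭 = O ∩ 𝔪_V` the corresponding component of the special fibre.  Assume that
for every closed point `𝔫 ⊇ 𝔭` of `O` there is a subring `W ⊆ V` of `F` which is contained in
the local ring `O_𝔫`, whose reduction `W / (W ∩ 𝔪_V)` is a Dedekind domain and generates the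
residue field of `V` (residue degree one).  Then `O ⧸ 𝔭` is a Dedekind domain.

The point is that `W` need NOT be contained in `O` itself (for the second component of the
bad fibre, `W` is the image of a level-`M'` chart under the degeneracy map `β`, which has
horizontal poles outside the pole divisor of the chart coordinate).

* `cpl_dedekind_of_total`: a noetherian domain whose localisations at all maximal ideals are
  valuation rings (elementwise form) is a Dedekind domain.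
* `cpl_ded_total`: the elementwise valuation-ring property of a Dedekind domain at a prime.
* `cpl_dedekind`: the main statement.
-/

set_option autoImplicit false

namespace Fermat.Agent.S34

universe u

/-- A noetherian domain in which, at every maximal ideal, any two elements are comparable for
divisibility up to a factor outside the ideal, is a Dedekind domain. -/
theorem cpl_dedekind_of_total {D : Type*} [CommRing D] [IsDomain D] [IsNoetherianRing D]
    (H : ∀ 𝔫 : Ideal D, 𝔫.IsMaximal → ∀ a b : D, ∃ s, s ∉ 𝔫 ∧ ∃ c, a * c = s * b ∨ b * c = s * a) :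
    IsDedekindDomain D := by
  have hdvr : IsDedekindDomainDvr D := by
    refine { toIsNoetherian := inferInstance, is_dvr_at_nonzero_prime := ?_ }
    intro P hP0 hP
    obtain ⟨𝔫, h𝔫, hP𝔫⟩ := P.exists_le_maximal hP.ne_top
    have hnoeth : IsNoetherianRing (Localization.AtPrime P) :=
      IsLocalization.isNoetherianRing P.primeCompl _ inferInstance
    have hnf : ¬ IsField (Localization.AtPrime P) :=
      IsLocalization.AtPrime.not_isField D hP0 _
    have hpre : PreValuationRing (Localization.AtPrime P) := by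
      refine ⟨?_⟩
      intro x y
      obtain ⟨a, s₁, rfl⟩ := IsLocalization.exists_mk'_eq P.primeCompl x
      obtain ⟨b, s₂, rfl⟩ := IsLocalization.exists_mk'_eq P.primeCompl y
      obtain ⟨s, hs, c, hc⟩ := H 𝔫 h𝔫 (a * s₂) (b * s₁)
      have hsP : s ∈ P.primeCompl := fun h => hs (hP𝔫 h)
      rcases hc with hc | hc
      · refine ⟨IsLocalization.mk' _ c (⟨s, hsP⟩ : P.primeCompl), Or.inl ?_⟩
        rw [← IsLocalization.mk'_mul, IsLocalization.mk'_eq_iff_eq]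
        congr 1
        simp only [Submonoid.coe_mul]
        linear_combination hc
      · refine ⟨IsLocalization.mk' _ c (⟨s, hsP⟩ : P.primeCompl), Or.inr ?_⟩
        rw [← IsLocalization.mk'_mul, IsLocalization.mk'_eq_iff_eq]
        congr 1
        simp only [Submonoid.coe_mul]
        linear_combination hc
    have hval : ValuationRing (Localization.AtPrime P) := { toPreValuationRing := hpre }
    exact ((IsDiscreteValuationRing.TFAE (Localization.AtPrime P) hnf).out 0 1).mpr hval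
  exact IsDedekindDomainDvr.isDedekindDomain D

/-- The elementwise valuation-ring property of a Dedekind domain at a prime ideal. -/
theorem cpl_ded_total {B : Type*} [CommRing B] [IsDedekindDomain B] (q : Ideal B) [q.IsPrime]
    (β₁ β₂ : B) : ∃ σ, σ ∉ q ∧ ∃ γ, β₁ * γ = σ * β₂ ∨ β₂ * γ = σ * β₁ := by
  by_cases hq : q = ⊥
  · subst hq
    by_cases h1 : β₁ = 0
    · exact ⟨1, by simp, 0, Or.inr (by simp [h1])⟩
    · exact ⟨β₁, by simpa using h1, β₂, Or.inl rfl⟩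
  · have hdvr : IsDiscreteValuationRing (Localization.AtPrime q) :=
      IsLocalization.AtPrime.isDiscreteValuationRing_of_dedekind_domain B hq _
    have hinj : Function.Injective (algebraMap B (Localization.AtPrime q)) :=
      IsLocalization.injective _ q.primeCompl_le_nonZeroDivisors
    obtain ⟨c, hc⟩ := ValuationRing.cond (algebraMap B (Localization.AtPrime q) β₁)
      (algebraMap B (Localization.AtPrime q) β₂)
    obtain ⟨γ, s, rfl⟩ := IsLocalization.exists_mk'_eq q.primeCompl c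
    rcases hc with hc | hc
    · refine ⟨s, s.2, γ, Or.inl (hinj ?_)⟩
      have h2 := congrArg (fun z => z * algebraMap B (Localization.AtPrime q) (s : B)) hc
      simp only [mul_assoc, IsLocalization.mk'_spec] at h2
      rw [map_mul, map_mul, h2, mul_comm]
    · refine ⟨s, s.2, γ, Or.inr (hinj ?_)⟩
      have h2 := congrArg (fun z => z * algebraMap B (Localization.AtPrime q) (s : B)) hc
      simp only [mul_assoc, IsLocalization.mk'_spec] at h2
      rw [map_mul, map_mul, h2, mul_comm]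

section Main

variable {A F : Type*} [CommRing A] [Field F] [Algebra A F]

/-- `x ∈ 𝔪_V`, `y ∈ V` imply `x * y ∈ 𝔪_V`. -/
theorem cpl_nu_mul (V : ValuationSubring F) {x y : F} (hx : x ∈ V.nonunits) (hy : y ∈ V) :
    x * y ∈ V.nonunits := by
  rw [ValuationSubring.mem_nonunits_iff] at hx ⊢
  rw [← ValuationSubring.valuation_le_one_iff] at hy
  rw [map_mul]
  exact lt_of_le_of_lt (mul_le_of_le_one_right' hy) hx

/-- Cancellation of a unit of `V`. -/
theorem cpl_nu_cancel (V : ValuationSubring F) {x u : F} (hu : u ∈ V) (hu' : u ∉ V.nonunits)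
    (hx : x * u ∈ V.nonunits) : x ∈ V.nonunits := by
  rw [ValuationSubring.mem_nonunits_iff] at hx hu' ⊢
  rw [← ValuationSubring.valuation_le_one_iff] at hu
  have hu1 : V.valuation u = 1 := le_antisymm hu (not_lt.mp hu')
  rwa [map_mul, hu1, mul_one] at hx

/-- The key local statement: at a prime `𝔫 ⊇ 𝔭` of the chart `O`, any two elements of `O ⧸ 𝔭`
are comparable for divisibility up to a factor outside `𝔫`, as soon as the local ring `O_𝔫`
contains (the image of) a ring `R` with Dedekind reduction generating the residue field of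
`V`. -/
theorem cpl_key (O : Subalgebra A F) (V : ValuationSubring F)
    (hOV : ∀ x ∈ O, x ∈ V) (𝔭 : Ideal ↥O)
    (h𝔭 : ∀ x : ↥O, x ∈ 𝔭 ↔ (x : F) ∈ V.nonunits)
    (𝔫 : Ideal ↥O) [h𝔫 : 𝔫.IsPrime] (h𝔭𝔫 : 𝔭 ≤ 𝔫)
    {R : Type*} [CommRing R] {B : Type*} [CommRing B] [IsDedekindDomain B]
    (ψ : R →+* F) (π : R →+* B) (hπ : Function.Surjective π)
    (hψV : ∀ z : R, ψ z ∈ V)
    (hker : ∀ z : R, π z = 0 ↔ ψ z ∈ V.nonunits)
    (hres : ∀ x ∈ V, ∃ a s : R, ψ s ∉ V.nonunits ∧ x * ψ s - ψ a ∈ V.nonunits)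
    (hRO : ∀ z : R, ∃ s : ↥O, s ∉ 𝔫 ∧ (s : F) * ψ z ∈ O)
    (a b : ↥O) :
    ∃ s : ↥O, s ∉ 𝔫 ∧ ∃ c : ↥O, a * c - s * b ∈ 𝔭 ∨ b * c - s * a ∈ 𝔭 := by
  classical
  have h1𝔫 : (1 : ↥O) ∉ 𝔫 := fun h => h𝔫.ne_top ((Ideal.eq_top_iff_one _).mpr h)
  by_cases hb : b ∈ 𝔭
  · exact ⟨1, h1𝔫, 0, Or.inl (by simpa using 𝔭.neg_mem hb)⟩
  by_cases ha : a ∈ 𝔭
  · exact ⟨1, h1𝔫, 0, Or.inr (by simpa using 𝔭.neg_mem ha)⟩
  have haV : (a : F) ∈ V := hOV _ a.2
  have hbV : (b : F) ∈ V := hOV _ b.2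
  have ha' : (a : F) ∉ V.nonunits := fun h => ha ((h𝔭 a).mpr h)
  have hb' : (b : F) ∉ V.nonunits := fun h => hb ((h𝔭 b).mpr h)
  have hb0 : (b : F) ≠ 0 := fun h => hb' (by rw [h]; exact V.nonunits.zero_mem)
  have hb1 : V.valuation (b : F) = 1 := by
    rw [ValuationSubring.mem_nonunits_iff] at hb'
    exact le_antisymm ((V.valuation_le_one_iff _).mpr hbV) (not_lt.mp hb')
  have hxV : (a : F) / b ∈ V := by
    rw [← ValuationSubring.valuation_le_one_iff, map_div₀, hb1, div_one]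
    exact (V.valuation_le_one_iff _).mpr haV
  obtain ⟨w₁, w₂, hw₂, hw⟩ := hres _ hxV
  -- the prime of `R` below `𝔫`
  let J : Ideal R :=
    { carrier := {z | ∃ s : ↥O, s ∉ 𝔫 ∧ ∃ r : ↥O, r ∈ 𝔫 ∧ (s : F) * ψ z = (r : F)}
      add_mem' := by
        rintro z z' ⟨s, hs, r, hr, h⟩ ⟨s', hs', r', hr', h'⟩
        refine ⟨s * s', fun hss => (h𝔫.mem_or_mem hss).elim hs hs', s' * r + s * r',
          𝔫.add_mem (𝔫.mul_mem_left _ hr) (𝔫.mul_mem_left _ hr'), ?_⟩
        show ((s : F) * (s' : F)) * ψ (z + z') = (s' : F) * (r : F) + (s : F) * (r' : F)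
        rw [map_add, ← h, ← h']
        ring
      zero_mem' := ⟨1, h1𝔫, 0, 𝔫.zero_mem, by simp⟩
      smul_mem' := by
        rintro c z ⟨s, hs, r, hr, h⟩
        obtain ⟨sc, hsc, hcO⟩ := hRO c
        refine ⟨sc * s, fun hss => (h𝔫.mem_or_mem hss).elim hsc hs, ⟨_, hcO⟩ * r,
          𝔫.mul_mem_left _ hr, ?_⟩
        show ((sc : F) * (s : F)) * ψ (c • z) = ((sc : F) * ψ c) * (r : F)
        rw [smul_eq_mul, map_mul, ← h]
        ring }
  have hJmem : ∀ z : R, z ∈ J ↔ ∃ s : ↥O, s ∉ 𝔫 ∧ ∃ r : ↥O, r ∈ 𝔫 ∧ (s : F) * ψ z = (r : F) :=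
    fun z => Iff.rfl
  have hJprime : J.IsPrime := by
    refine ⟨fun htop => ?_, fun {z z'} hzz => ?_⟩
    · have h1 : (1 : R) ∈ J := by rw [htop]; exact Submodule.mem_top
      obtain ⟨s, hs, r, hr, h⟩ := (hJmem 1).mp h1
      rw [map_one, mul_one] at h
      exact hs (by rw [Subtype.ext h]; exact hr)
    · obtain ⟨s, hs, r, hr, h⟩ := (hJmem _).mp hzz
      obtain ⟨s₁, hs₁, h₁O⟩ := hRO z
      obtain ⟨s₂, hs₂, h₂O⟩ := hRO z'
      have hprod : (⟨_, h₁O⟩ : ↥O) * ⟨_, h₂O⟩ * s = s₁ * s₂ * r := by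
        apply Subtype.ext
        show ((s₁ : F) * ψ z) * ((s₂ : F) * ψ z') * (s : F) = (s₁ : F) * (s₂ : F) * (r : F)
        rw [← h, map_mul]
        ring
      have hmem : (⟨_, h₁O⟩ : ↥O) * ⟨_, h₂O⟩ * s ∈ 𝔫 := by
        rw [hprod]; exact 𝔫.mul_mem_left _ hr
      rcases h𝔫.mem_or_mem hmem with h12 | hs'
      · rcases h𝔫.mem_or_mem h12 with h1 | h2
        · exact Or.inl ((hJmem z).mpr ⟨s₁, hs₁, _, h1, rfl⟩)
        · exact Or.inr ((hJmem z').mpr ⟨s₂, hs₂, _, h2, rfl⟩)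
      · exact absurd hs' hs
  have hkerJ : RingHom.ker π ≤ J := by
    intro z hz
    have hzm : ψ z ∈ V.nonunits := (hker z).mp ((RingHom.mem_ker).mp hz)
    obtain ⟨s, hs, hsO⟩ := hRO z
    have hr : (⟨_, hsO⟩ : ↥O) ∈ 𝔭 := by
      rw [h𝔭]
      show (s : F) * ψ z ∈ V.nonunits
      rw [mul_comm]
      exact cpl_nu_mul V hzm (hOV _ s.2)
    exact (hJmem z).mpr ⟨s, hs, _, h𝔭𝔫 hr, rfl⟩
  have hmapprime : (J.map π).IsPrime := Ideal.map_isPrime_of_surjective hπ hkerJ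
  obtain ⟨σ, hσ, γ, hγ⟩ := cpl_ded_total (J.map π) (π w₁) (π w₂)
  obtain ⟨wσ, rfl⟩ := hπ σ
  obtain ⟨wγ, rfl⟩ := hπ γ
  have hwσJ : wσ ∉ J := fun h => hσ (Ideal.mem_map_of_mem π h)
  obtain ⟨sσ, hsσ, hsσO⟩ := hRO wσ
  obtain ⟨sγ, hsγ, hsγO⟩ := hRO wγ
  have hrσ : (⟨_, hsσO⟩ : ↥O) ∉ 𝔫 := fun h => hwσJ ((hJmem wσ).mpr ⟨sσ, hsσ, _, h, rfl⟩)
  have hsV : (sσ : F) * (sγ : F) ∈ V := mul_mem (hOV _ sσ.2) (hOV _ sγ.2)
  have hw₂V : ψ w₂ ∈ V := hψV w₂
  refine ⟨⟨_, hsσO⟩ * sγ, fun h => (h𝔫.mem_or_mem h).elim hrσ hsγ, ⟨_, hsγO⟩ * sσ, ?_⟩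
  rcases hγ with hγ | hγ
  · left
    have h1 : ψ w₁ * ψ wγ - ψ wσ * ψ w₂ ∈ V.nonunits := by
      have h0 : π (w₁ * wγ - wσ * w₂) = 0 := by
        rw [map_sub, map_mul, map_mul, hγ, sub_self]
      have := (hker _).mp h0
      rwa [map_sub, map_mul, map_mul] at this
    have h2 : ((a : F) / b * ψ wγ - ψ wσ) * ψ w₂ ∈ V.nonunits := by
      have e : ((a : F) / b * ψ wγ - ψ wσ) * ψ w₂
          = ((a : F) / b * ψ w₂ - ψ w₁) * ψ wγ + (ψ w₁ * ψ wγ - ψ wσ * ψ w₂) := by ring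
      rw [e]
      exact V.nonunits.add_mem (cpl_nu_mul V hw (hψV wγ)) h1
    have h3 : (a : F) / b * ψ wγ - ψ wσ ∈ V.nonunits := cpl_nu_cancel V hw₂V hw₂ h2
    rw [h𝔭]
    show (a : F) * (((sγ : F) * ψ wγ) * (sσ : F)) - (((sσ : F) * ψ wσ) * (sγ : F)) * (b : F)
      ∈ V.nonunits
    have e : (a : F) * (((sγ : F) * ψ wγ) * (sσ : F)) - (((sσ : F) * ψ wσ) * (sγ : F)) * (b : F)
        = ((a : F) / b * ψ wγ - ψ wσ) * ((b : F) * ((sσ : F) * (sγ : F))) := by
      field_simp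
    rw [e]
    exact cpl_nu_mul V h3 (mul_mem hbV hsV)
  · right
    have h1 : ψ w₂ * ψ wγ - ψ wσ * ψ w₁ ∈ V.nonunits := by
      have h0 : π (w₂ * wγ - wσ * w₁) = 0 := by
        rw [map_sub, map_mul, map_mul, hγ, sub_self]
      have := (hker _).mp h0
      rwa [map_sub, map_mul, map_mul] at this
    have h2 : (ψ wγ - ψ wσ * ((a : F) / b)) * ψ w₂ ∈ V.nonunits := by
      have e : (ψ wγ - ψ wσ * ((a : F) / b)) * ψ w₂
          = (ψ w₂ * ψ wγ - ψ wσ * ψ w₁) - ((a : F) / b * ψ w₂ - ψ w₁) * ψ wσ := by ring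
      rw [e]
      exact V.nonunits.sub_mem h1 (cpl_nu_mul V hw (hψV wσ))
    have h3 : ψ wγ - ψ wσ * ((a : F) / b) ∈ V.nonunits := cpl_nu_cancel V hw₂V hw₂ h2
    rw [h𝔭]
    show (b : F) * (((sγ : F) * ψ wγ) * (sσ : F)) - (((sσ : F) * ψ wσ) * (sγ : F)) * (a : F)
      ∈ V.nonunits
    have e : (b : F) * (((sγ : F) * ψ wγ) * (sσ : F)) - (((sσ : F) * ψ wσ) * (sγ : F)) * (a : F)
        = (ψ wγ - ψ wσ * ((a : F) / b)) * ((b : F) * ((sσ : F) * (sγ : F))) := by
      field_simp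
    rw [e]
    exact cpl_nu_mul V h3 (mul_mem hbV hsV)

/-- **COMP-LOC-ABS.**  The component `𝔭 = O ∩ 𝔪_V` of the special fibre of a noetherian chart
`O` has a Dedekind coordinate ring `O ⧸ 𝔭`, as soon as at every closed point `𝔫 ⊇ 𝔭` the local
ring `O_𝔫` contains the image (under a ring homomorphism `ψ` to `F`) of a ring `R` whose
reduction `B = R / ψ⁻¹(𝔪_V)` is a Dedekind domain generating the residue field of `V`. -/
theorem cpl_dedekind (O : Subalgebra A F) [IsNoetherianRing ↥O] (V : ValuationSubring F)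
    (hOV : ∀ x ∈ O, x ∈ V) (𝔭 : Ideal ↥O)
    (h𝔭 : ∀ x : ↥O, x ∈ 𝔭 ↔ (x : F) ∈ V.nonunits)
    (hloc : ∀ 𝔫 : Ideal ↥O, 𝔫.IsMaximal → 𝔭 ≤ 𝔫 →
      ∃ (R : Type u) (_ : CommRing R) (B : Type u) (_ : CommRing B) (_ : IsDedekindDomain B)
        (ψ : R →+* F) (π : R →+* B), Function.Surjective π ∧ (∀ z : R, ψ z ∈ V) ∧
        (∀ z : R, π z = 0 ↔ ψ z ∈ V.nonunits) ∧
        (∀ x ∈ V, ∃ a s : R, ψ s ∉ V.nonunits ∧ x * ψ s - ψ a ∈ V.nonunits) ∧
        (∀ z : R, ∃ s : ↥O, s ∉ 𝔫 ∧ (s : F) * ψ z ∈ O)) :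
    IsDedekindDomain (↥O ⧸ 𝔭) := by
  classical
  have hprime : 𝔭.IsPrime := by
    refine ⟨fun htop => ?_, fun {x y} hxy => ?_⟩
    · have h1 : (1 : ↥O) ∈ 𝔭 := by rw [htop]; exact Submodule.mem_top
      have h2 : (1 : F) ∈ V.nonunits := (h𝔭 1).mp h1
      rw [ValuationSubring.mem_nonunits_iff, map_one] at h2
      exact lt_irrefl _ h2
    · by_contra hcon
      rw [not_or] at hcon
      have hx : (x : F) ∉ V.nonunits := fun h => hcon.1 ((h𝔭 x).mpr h)
      have hy : (y : F) ∉ V.nonunits := fun h => hcon.2 ((h𝔭 y).mpr h)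
      have hxy' : (x : F) * (y : F) ∈ V.nonunits := (h𝔭 (x * y)).mp hxy
      exact hx (cpl_nu_cancel V (hOV _ y.2) hy hxy')
  have hdom : IsDomain (↥O ⧸ 𝔭) := Ideal.Quotient.isDomain 𝔭
  refine cpl_dedekind_of_total ?_
  intro 𝔫' h𝔫' a' b'
  obtain ⟨a, rfl⟩ := Ideal.Quotient.mk_surjective a'
  obtain ⟨b, rfl⟩ := Ideal.Quotient.mk_surjective b'
  have h𝔫max : (𝔫'.comap (Ideal.Quotient.mk 𝔭)).IsMaximal :=
    Ideal.comap_isMaximal_of_surjective _ Ideal.Quotient.mk_surjective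
  have h𝔭𝔫 : 𝔭 ≤ 𝔫'.comap (Ideal.Quotient.mk 𝔭) := by
    intro x hx
    rw [Ideal.mem_comap, Ideal.Quotient.eq_zero_iff_mem.mpr hx]
    exact 𝔫'.zero_mem
  obtain ⟨R, _, B, _, _, ψ, π, hπ, hψV, hker, hres, hRO⟩ := hloc _ h𝔫max h𝔭𝔫
  have hpr : (𝔫'.comap (Ideal.Quotient.mk 𝔭)).IsPrime := h𝔫max.isPrime
  obtain ⟨s, hs, c, hc⟩ := cpl_key O V hOV 𝔭 h𝔭 (𝔫'.comap (Ideal.Quotient.mk 𝔭)) h𝔭𝔫 ψ π hπ hψV
    hker hres hRO a b
  refine ⟨Ideal.Quotient.mk 𝔭 s, hs, Ideal.Quotient.mk 𝔭 c, ?_⟩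
  rcases hc with hc | hc
  · left
    rw [← map_mul, ← map_mul, Ideal.Quotient.eq]
    exact hc
  · right
    rw [← map_mul, ← map_mul, Ideal.Quotient.eq]
    exact hc

end Main

end Fermat.Agent.S34
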