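import Mathlib

/-!
# S34, package DOM (abstract half): domination of the swapped chart coordinate

`O` is an integrally closed chart (a subalgebra of the function field `F`), `n` a prime of `O`,
`Λ := O_n` (realised as a subring of `F`).  Given the Hauptmodul relation `j Q(h) = P(h)`, its
swapped image `j_q Q(h_q) = P(h_q)` and the two monic modular relations (`j_q` over `ℤ[j]`,
`j` over `ℤ[j_q]`), the swapped chart coordinate `T = (h_q - c₁)/(h_q - c₀)` or its inverse lies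
in `Λ`, at every prime `n` containing the residue characteristic (`dma_main`).
-/

set_option autoImplicit false

open Polynomial

namespace Fermat.Agent.S34

section DomAbs

variable {A F : Type*} [CommRing A] [Field F] [Algebra A F]

/-- the local ring `O_n` as a subring of `F` -/
def dmaLoc (O : Subalgebra A F) (n : Ideal O) [n.IsPrime] : Subring F where
  carrier := {x | ∃ a s : O, s ∉ n ∧ x * (s : F) = a}
  mul_mem' := by
    rintro x y ⟨a, s, hs, h⟩ ⟨a', s', hs', h'⟩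
    refine ⟨a * a', s * s', fun hmem => ?_, ?_⟩
    · rcases Ideal.IsPrime.mem_or_mem ‹n.IsPrime› hmem with h1 | h1
      · exact hs h1
      · exact hs' h1
    · push_cast
      rw [← h, ← h']
      ring
  one_mem' := ⟨1, 1, fun h1 => (Ideal.ne_top_iff_one n).mp (Ideal.IsPrime.ne_top ‹n.IsPrime›) h1,
    by simp⟩
  add_mem' := by
    rintro x y ⟨a, s, hs, h⟩ ⟨a', s', hs', h'⟩
    refine ⟨a * s' + a' * s, s * s', fun hmem => ?_, ?_⟩
    · rcases Ideal.IsPrime.mem_or_mem ‹n.IsPrime› hmem with h1 | h1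
      · exact hs h1
      · exact hs' h1
    · push_cast
      rw [← h, ← h']
      ring
  zero_mem' := ⟨0, 1, fun h1 => (Ideal.ne_top_iff_one n).mp (Ideal.IsPrime.ne_top ‹n.IsPrime›) h1,
    by simp⟩
  neg_mem' := by
    rintro x ⟨a, s, hs, h⟩
    exact ⟨-a, s, hs, by push_cast; rw [← h]; ring⟩

/-- the maximal ideal `n O_n`, as an additive subgroup of `F` -/
def dmaMax (O : Subalgebra A F) (n : Ideal O) [n.IsPrime] : AddSubgroup F where
  carrier := {x | ∃ a s : O, a ∈ n ∧ s ∉ n ∧ x * (s : F) = a}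
  add_mem' := by
    rintro x y ⟨a, s, ha, hs, h⟩ ⟨a', s', ha', hs', h'⟩
    refine ⟨a * s' + a' * s, s * s', n.add_mem (n.mul_mem_right _ ha) (n.mul_mem_right _ ha'),
      fun hmem => ?_, ?_⟩
    · rcases Ideal.IsPrime.mem_or_mem ‹n.IsPrime› hmem with h1 | h1
      · exact hs h1
      · exact hs' h1
    · push_cast
      rw [← h, ← h']
      ring
  zero_mem' := ⟨0, 1, n.zero_mem,
    fun h1 => (Ideal.ne_top_iff_one n).mp (Ideal.IsPrime.ne_top ‹n.IsPrime›) h1, by simp⟩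
  neg_mem' := by
    rintro x ⟨a, s, ha, hs, h⟩
    exact ⟨-a, s, n.neg_mem ha, hs, by push_cast; rw [← h]; ring⟩

variable (O : Subalgebra A F) (n : Ideal O) [n.IsPrime]

theorem mem_dmaLoc {x : F} : x ∈ dmaLoc O n ↔ ∃ a s : O, s ∉ n ∧ x * (s : F) = a := Iff.rfl

theorem mem_dmaMax {x : F} :
    x ∈ dmaMax O n ↔ ∃ a s : O, a ∈ n ∧ s ∉ n ∧ x * (s : F) = a := Iff.rfl

theorem dma_one_notMem : (1 : O) ∉ n :=
  fun h1 => (Ideal.ne_top_iff_one n).mp (Ideal.IsPrime.ne_top ‹n.IsPrime›) h1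

theorem dma_of_mem {x : F} (hx : x ∈ O) : x ∈ dmaLoc O n :=
  ⟨⟨x, hx⟩, 1, dma_one_notMem O n, by simp⟩

theorem dma_max_of_mem (x : O) (hx : x ∈ n) : (x : F) ∈ dmaMax O n :=
  ⟨x, 1, hx, dma_one_notMem O n, by simp⟩

theorem dma_max_le {x : F} (hx : x ∈ dmaMax O n) : x ∈ dmaLoc O n := by
  obtain ⟨a, s, -, hs, h⟩ := hx
  exact ⟨a, s, hs, h⟩

theorem dma_max_mul {x y : F} (hx : x ∈ dmaLoc O n) (hy : y ∈ dmaMax O n) :
    x * y ∈ dmaMax O n := by
  obtain ⟨a, s, hs, h⟩ := hx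
  obtain ⟨a', s', ha', hs', h'⟩ := hy
  refine ⟨a * a', s * s', n.mul_mem_left _ ha', fun hmem => ?_, ?_⟩
  · rcases Ideal.IsPrime.mem_or_mem ‹n.IsPrime› hmem with h1 | h1
    · exact hs h1
    · exact hs' h1
  · push_cast
    rw [← h, ← h']
    ring

theorem dma_one_notMem_max : (1 : F) ∉ dmaMax O n := by
  rintro ⟨a, s, ha, hs, h⟩
  rw [one_mul] at h
  have : s = a := Subtype.ext h
  exact hs (this ▸ ha)

/-- `O_n` is local: an element outside `n O_n` is a unit -/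
theorem dma_inv_mem {x : F} (hx : x ∈ dmaLoc O n) (hx' : x ∉ dmaMax O n) :
    x⁻¹ ∈ dmaLoc O n := by
  obtain ⟨a, s, hs, h⟩ := hx
  have ha : a ∉ n := fun ha => hx' ⟨a, s, ha, hs, h⟩
  have hx0 : x ≠ 0 := fun h0 => hx' (h0 ▸ (dmaMax O n).zero_mem)
  refine ⟨s, a, ha, ?_⟩
  rw [← h]
  field_simp

theorem dma_ne_zero {x : F} (hx' : x ∉ dmaMax O n) : x ≠ 0 :=
  fun h0 => hx' (h0 ▸ (dmaMax O n).zero_mem)

/-- a unit plus an element of the maximal ideal is not in the maximal ideal -/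
theorem dma_notMem_max_of_add {x y : F} (hx : x⁻¹ ∈ dmaLoc O n) (hx0 : x ≠ 0)
    (hy : y ∈ dmaMax O n) : x + y ∉ dmaMax O n := by
  intro h
  have h1 : x ∈ dmaMax O n := by
    have := (dmaMax O n).sub_mem h hy
    rwa [add_sub_cancel_right] at this
  have h2 := dma_max_mul O n hx h1
  rw [inv_mul_cancel₀ hx0] at h2
  exact dma_one_notMem_max O n h2

theorem dma_max_pow {x : F} (hx : x ∈ dmaMax O n) {k : ℕ} (hk : 0 < k) :
    x ^ k ∈ dmaMax O n := by
  obtain ⟨k, rfl⟩ := Nat.exists_eq_succ_of_ne_zero hk.ne'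
  rw [pow_succ]
  exact dma_max_mul O n ((dmaLoc O n).pow_mem (dma_max_le O n hx) k) hx

/-- the inclusion `O → O_n` -/
def dmaIncl : O →+* dmaLoc O n :=
  (algebraMap O F).codRestrict (dmaLoc O n) (fun x => dma_of_mem O n x.2)

theorem dmaIncl_coe (x : O) : ((dmaIncl O n x : dmaLoc O n) : F) = (x : F) := rfl

/-- `O_n` is integrally closed in `F` when `O` is -/
theorem dma_ic (hint : ∀ x : F, IsIntegral O x → x ∈ O) {x : F}
    (hx : IsIntegral (dmaLoc O n) x) : x ∈ dmaLoc O n := by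
  classical
  obtain ⟨p, hp, hpx⟩ := hx
  have hden : ∀ T : Finset ℕ, ∃ s : O, s ∉ n ∧
      ∀ i ∈ T, ∃ b : O, ((p.coeff i : dmaLoc O n) : F) * (s : F) = b := by
    intro T
    induction T using Finset.induction_on with
    | empty => exact ⟨1, dma_one_notMem O n, by simp⟩
    | insert i T hi ih =>
      obtain ⟨s, hs, h⟩ := ih
      obtain ⟨a, s', hs', h'⟩ := (p.coeff i).2
      refine ⟨s * s', fun hmem => ?_, fun k hk => ?_⟩
      · rcases Ideal.IsPrime.mem_or_mem ‹n.IsPrime› hmem with h1 | h1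
        exacts [hs h1, hs' h1]
      · rcases Finset.mem_insert.mp hk with rfl | hk
        · exact ⟨a * s, by push_cast; rw [← h']; ring⟩
        · obtain ⟨b, hb⟩ := h k hk
          exact ⟨b * s', by push_cast; rw [← hb]; ring⟩
  obtain ⟨s, hs, hcoef⟩ := hden (Finset.range (p.natDegree + 1))
  let s' : dmaLoc O n := dmaIncl O n s
  have hlift : p.scaleRoots s' ∈ Polynomial.lifts (dmaIncl O n) := by
    rw [lifts_iff_coeff_lifts]
    intro i
    rw [coeff_scaleRoots]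
    by_cases hi : i < p.natDegree
    · obtain ⟨b, hb⟩ := hcoef i (Finset.mem_range.mpr (by omega))
      refine ⟨b * s ^ (p.natDegree - i - 1), Subtype.ext ?_⟩
      show ((b * s ^ (p.natDegree - i - 1) : O) : F)
        = ((p.coeff i : dmaLoc O n) : F) * (s : F) ^ (p.natDegree - i)
      push_cast
      rw [← hb]
      conv_rhs => rw [show p.natDegree - i = (p.natDegree - i - 1) + 1 by omega, pow_succ]
      ring
    · by_cases hi' : i = p.natDegree
      · subst hi'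
        refine ⟨1, ?_⟩
        rw [Nat.sub_self, pow_zero, mul_one, hp.coeff_natDegree, map_one]
      · refine ⟨0, ?_⟩
        rw [coeff_eq_zero_of_natDegree_lt (by omega), zero_mul, map_zero]
  obtain ⟨q, hq, -, hqm⟩ :=
    lifts_and_natDegree_eq_and_monic hlift ((monic_scaleRoots_iff s').mpr hp)
  have hint' : IsIntegral O ((s : F) * x) := by
    refine ⟨q, hqm, ?_⟩
    have h1 : eval₂ (algebraMap (dmaLoc O n) F) ((s : F) * x) (p.scaleRoots s') = 0 := by
      have h2 := scaleRoots_eval₂_mul (p := p) (algebraMap (dmaLoc O n) F) x s'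
      have h3 : algebraMap (dmaLoc O n) F s' = (s : F) := rfl
      rw [h3] at h2
      rw [h2, hpx, mul_zero]
    rw [← hq, eval₂_map] at h1
    exact h1
  exact ⟨⟨_, hint _ hint'⟩, s, hs, by simp [mul_comm]⟩

/-- membership of a root of a monic polynomial over `O_n` -/
theorem dma_mem_of_monic (hint : ∀ x : F, IsIntegral O x → x ∈ O) {x : F}
    (p : (dmaLoc O n)[X]) (hp : p.Monic) (hx : eval₂ (dmaLoc O n).subtype x p = 0) :
    x ∈ dmaLoc O n :=
  dma_ic O n hint ⟨p, hp, hx⟩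

theorem dma_aeval_mem {x : F} (hx : x ∈ dmaLoc O n) (p : ℤ[X]) : aeval x p ∈ dmaLoc O n := by
  rw [aeval_eq_sum_range]
  exact (dmaLoc O n).sum_mem fun i _ => (dmaLoc O n).zsmul_mem ((dmaLoc O n).pow_mem hx i) _

theorem dma_eval₂_map {x : F} (p : ℤ[X]) :
    eval₂ (dmaLoc O n).subtype x (p.map (Int.castRingHom (dmaLoc O n))) = aeval x p := by
  rw [eval₂_map, aeval_def]
  congr 1

/-- a root `y ≠ 0` of a polynomial over `O_n` whose constant term is a unit of `O_n` has its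
inverse in `O_n` -/
theorem dma_inv_root (hint : ∀ x : F, IsIntegral O x → x ∈ O) (G : (dmaLoc O n)[X]) {y : F}
    (hy : y ≠ 0) (hG : eval₂ (dmaLoc O n).subtype y G = 0)
    (hu : eval₂ (dmaLoc O n).subtype 0 G ∉ dmaMax O n) : y⁻¹ ∈ dmaLoc O n := by
  rw [eval₂_at_zero] at hu
  have hg0 : G.coeff 0 ≠ 0 := by
    intro h0
    apply hu
    rw [h0, map_zero]
    exact (dmaMax O n).zero_mem
  have hinv := dma_inv_mem O n (G.coeff 0).2 hu
  let u : dmaLoc O n := ⟨_, hinv⟩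
  have hu1 : u * G.reverse.leadingCoeff = 1 := by
    rw [reverse_leadingCoeff, trailingCoeff,
      (natTrailingDegree_eq_zero.mpr (Or.inr hg0))]
    apply Subtype.ext
    show ((G.coeff 0 : dmaLoc O n) : F)⁻¹ * ((G.coeff 0 : dmaLoc O n) : F) = 1
    exact inv_mul_cancel₀ (fun h => hg0 (Subtype.ext h))
  have hmon : (C u * G.reverse).Monic := monic_C_mul_of_mul_leadingCoeff_eq_one hu1
  refine dma_mem_of_monic O n hint _ hmon ?_
  have := invertibleOfNonzero hy
  have h1 := eval₂_reverse_mul_pow (dmaLoc O n).subtype y G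
  rw [hG, invOf_eq_inv] at h1
  have h2 : eval₂ (dmaLoc O n).subtype y⁻¹ G.reverse = 0 := by
    rcases mul_eq_zero.mp h1 with h | h
    · exact h
    · exact absurd h (pow_ne_zero _ hy)
  rw [eval₂_mul, h2, mul_zero]

/-- `b` is a root of a monic polynomial with coefficients in `ℤ[a]`, `a ∈ O_n`: then `b ∈ O_n` -/
theorem dma_mem_of_rel (hint : ∀ x : F, IsIntegral O x → x ∈ O) {a b : F}
    (ha : a ∈ dmaLoc O n) (Φ : ℤ[X][X]) (hΦ : Φ.Monic)
    (h0 : Φ.eval₂ ((aeval a : ℤ[X] →ₐ[ℤ] F).toRingHom) b = 0) : b ∈ dmaLoc O n := by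
  refine dma_mem_of_monic O n hint
    (Φ.map ((aeval (⟨a, ha⟩ : dmaLoc O n) : ℤ[X] →ₐ[ℤ] dmaLoc O n).toRingHom)) (hΦ.map _) ?_
  rw [eval₂_map]
  have hhom : (dmaLoc O n).subtype.comp
      ((aeval (⟨a, ha⟩ : dmaLoc O n) : ℤ[X] →ₐ[ℤ] dmaLoc O n).toRingHom)
      = (aeval a : ℤ[X] →ₐ[ℤ] F).toRingHom := by
    refine Polynomial.ringHom_ext (fun c => ?_) ?_
    · simp
    · simp
  rw [hhom]
  exact h0

/-- cuspidality is swap-symmetric: if `1/j ∈ n O_n` and `j` is integral over `ℤ[j_q]`, then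
`1/j_q ∈ n O_n` -/
theorem dma_cusp_swap (hint : ∀ x : F, IsIntegral O x → x ∈ O) {j jq : F} (hj0 : j ≠ 0)
    (hjq0 : jq ≠ 0) (hu : j⁻¹ ∈ dmaMax O n) (Φ' : ℤ[X][X]) (hΦ' : Φ'.Monic)
    (h0 : Φ'.eval₂ ((aeval jq : ℤ[X] →ₐ[ℤ] F).toRingHom) j = 0) : jq⁻¹ ∈ dmaMax O n := by
  classical
  set m := Φ'.natDegree with hm
  let u : dmaLoc O n := ⟨j⁻¹, dma_max_le O n hu⟩
  let G : (dmaLoc O n)[X] := ∑ i ∈ Finset.range (m + 1),
    C (u ^ (m - i)) * (Φ'.coeff i).map (Int.castRingHom (dmaLoc O n))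
  have hev : ∀ y : F, eval₂ (dmaLoc O n).subtype y G
      = ∑ i ∈ Finset.range (m + 1), j⁻¹ ^ (m - i) * aeval y (Φ'.coeff i) := by
    intro y
    rw [eval₂_finsetSum]
    refine Finset.sum_congr rfl fun i _ => ?_
    rw [eval₂_mul, eval₂_C, dma_eval₂_map]
    rfl
  have hG : eval₂ (dmaLoc O n).subtype jq G = 0 := by
    rw [hev]
    have h1 : ∑ i ∈ Finset.range (m + 1), j⁻¹ ^ (m - i) * aeval jq (Φ'.coeff i)
        = j⁻¹ ^ m * ∑ i ∈ Finset.range (m + 1), aeval jq (Φ'.coeff i) * j ^ i := by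
      rw [Finset.mul_sum]
      refine Finset.sum_congr rfl fun i hi => ?_
      have hi' : i ≤ m := by
        have := Finset.mem_range.mp hi
        omega
      have h2 : j⁻¹ ^ m = j⁻¹ ^ (m - i) * j⁻¹ ^ i := by
        rw [← pow_add, Nat.sub_add_cancel hi']
      rw [h2]
      have h3 : j⁻¹ ^ i * j ^ i = 1 := by
        rw [← mul_pow, inv_mul_cancel₀ hj0, one_pow]
      linear_combination (-(j⁻¹ ^ (m - i) * aeval jq (Φ'.coeff i))) * h3
    rw [h1]
    rw [eval₂_eq_sum_range] at h0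
    have h4 : ∑ i ∈ Finset.range (m + 1), aeval jq (Φ'.coeff i) * j ^ i = 0 := h0
    rw [h4, mul_zero]
  have hu0 : eval₂ (dmaLoc O n).subtype 0 G ∉ dmaMax O n := by
    rw [hev, Finset.sum_range_succ, Nat.sub_self, pow_zero, one_mul, hm, hΦ'.coeff_natDegree,
      map_one, add_comm]
    refine dma_notMem_max_of_add O n ?_ one_ne_zero ?_
    · rw [inv_one]
      exact (dmaLoc O n).one_mem
    · refine (dmaMax O n).sum_mem fun i hi => ?_
      have hi' : 0 < Φ'.natDegree - i := by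
        have := Finset.mem_range.mp hi
        omega
      rw [mul_comm]
      exact dma_max_mul O n (dma_aeval_mem O n (dmaLoc O n).zero_mem _) (dma_max_pow O n hu hi')
  have hv : jq⁻¹ ∈ dmaLoc O n := dma_inv_root O n hint G hjq0 hG hu0
  by_contra hv'
  have hjq : jq ∈ dmaLoc O n := by
    have := dma_inv_mem O n hv hv'
    rwa [inv_inv] at this
  have hj : j ∈ dmaLoc O n := dma_mem_of_rel O n hint hjq Φ' hΦ' h0
  have h1 := dma_max_mul O n hj hu
  rw [mul_inv_cancel₀ hj0] at h1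
  exact dma_one_notMem_max O n h1

/-- the chart coordinate `t = (h - c₁)/(h - c₀) ∈ O`: at `n`, either `h ∈ O_n` or
`1/h ∈ n O_n` -/
theorem dma_h_dichotomy {h c0 c1 : F} (hc0 : c0 ∈ O) (hc1 : c1 ∈ O)
    (hc01 : (c0 - c1)⁻¹ ∈ O) (hc : c0 ≠ c1) (hh : h ≠ c0) (ht : (h - c1) / (h - c0) ∈ O) :
    h ∈ dmaLoc O n ∨ (h ≠ 0 ∧ h⁻¹ ∈ dmaMax O n) := by
  have hd : h - c0 ≠ 0 := sub_ne_zero.mpr hh
  have hc' : c0 - c1 ≠ 0 := sub_ne_zero.mpr hc
  set t := (h - c1) / (h - c0) with htdef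
  have ht1 : t - 1 = (c0 - c1) / (h - c0) := by
    rw [htdef]
    field_simp
    ring
  have ht10 : t - 1 ≠ 0 := by
    rw [ht1]
    exact div_ne_zero hc' hd
  have htS : t - 1 ∈ dmaLoc O n :=
    (dmaLoc O n).sub_mem (dma_of_mem O n ht) (dmaLoc O n).one_mem
  have hc0S := dma_of_mem O n hc0
  have hc1S := dma_of_mem O n hc1
  by_cases hm : t - 1 ∈ dmaMax O n
  · right
    have hw : c0 * (t - 1) + (c0 - c1) = h * (t - 1) := by
      rw [ht1]
      field_simp
      ring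
    have hwn : c0 - c1 + c0 * (t - 1) ∉ dmaMax O n :=
      dma_notMem_max_of_add O n (dma_of_mem O n hc01) hc' (dma_max_mul O n hc0S hm)
    rw [add_comm, hw] at hwn
    have hw0 : h * (t - 1) ≠ 0 := dma_ne_zero O n hwn
    have hh0 : h ≠ 0 := left_ne_zero_of_mul hw0
    refine ⟨hh0, ?_⟩
    have hwS : h * (t - 1) ∈ dmaLoc O n := by
      rw [← hw]
      exact (dmaLoc O n).add_mem ((dmaLoc O n).mul_mem hc0S htS)
        ((dmaLoc O n).sub_mem hc0S hc1S)
    have hinv := dma_inv_mem O n hwS hwn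
    have h2 := dma_max_mul O n hinv hm
    have h3 : (h * (t - 1))⁻¹ * (t - 1) = h⁻¹ := by
      field_simp
    rwa [h3] at h2
  · left
    have hinv := dma_inv_mem O n htS hm
    have h2 : h = c0 + (c0 - c1) * (t - 1)⁻¹ := by
      rw [ht1]
      field_simp
      ring
    rw [h2]
    exact (dmaLoc O n).add_mem hc0S ((dmaLoc O n).mul_mem ((dmaLoc O n).sub_mem hc0S hc1S) hinv)

/-- from `h ∈ O_n` and the Hauptmodul relation: `j ∈ O_n` or `1/j ∈ n O_n` -/
theorem dma_j_of_h_mem (ℓ : ℕ) (hℓ : (ℓ : O) ∈ n) (P Q U V W : ℤ[X])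
    (hUV : U * P + V * Q = 1 + C (ℓ : ℤ) * W) {h j : F} (hj0 : j ≠ 0)
    (hrel : j * aeval h Q = aeval h P) (hh : h ∈ dmaLoc O n) :
    j ∈ dmaLoc O n ∨ j⁻¹ ∈ dmaMax O n := by
  have hb : aeval h U * aeval h P + aeval h V * aeval h Q = 1 + (ℓ : F) * aeval h W := by
    have := congrArg (aeval h) hUV
    simpa using this
  have hℓm : (ℓ : F) ∈ dmaMax O n := by
    have := dma_max_of_mem O n (ℓ : O) hℓ
    simpa using this
  have hPS := dma_aeval_mem O n hh P
  have hQS := dma_aeval_mem O n hh Q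
  by_cases hQ : aeval h Q ∈ dmaMax O n
  · right
    have hPn : aeval h P ∉ dmaMax O n := by
      intro hPm
      have h1 : aeval h U * aeval h P + aeval h V * aeval h Q ∈ dmaMax O n :=
        (dmaMax O n).add_mem (dma_max_mul O n (dma_aeval_mem O n hh U) hPm)
          (dma_max_mul O n (dma_aeval_mem O n hh V) hQ)
      rw [hb] at h1
      refine dma_notMem_max_of_add O n ?_ one_ne_zero ?_ h1
      · rw [inv_one]
        exact (dmaLoc O n).one_mem
      · rw [mul_comm]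
        exact dma_max_mul O n (dma_aeval_mem O n hh W) hℓm
    have hP0 := dma_ne_zero O n hPn
    have hinv := dma_inv_mem O n hPS hPn
    have h2 := dma_max_mul O n hinv hQ
    have h3 : (aeval h P)⁻¹ * aeval h Q = j⁻¹ := by
      rw [← hrel]
      have hQ0 : aeval h Q ≠ 0 := by
        intro h0
        rw [h0, mul_zero] at hrel
        exact hP0 hrel.symm
      field_simp
    rwa [h3] at h2
  · left
    have hQ0 := dma_ne_zero O n hQ
    have hinv := dma_inv_mem O n hQS hQ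
    have h2 : j = aeval h P * (aeval h Q)⁻¹ := by
      rw [← hrel]
      field_simp
    rw [h2]
    exact (dmaLoc O n).mul_mem hPS hinv

/-- from `1/h ∈ n O_n` and the Hauptmodul relation (`P` monic of larger degree):
`1/j ∈ n O_n` -/
theorem dma_j_of_h_inv (P Q : ℤ[X]) (hP : P.Monic) (hdeg : Q.natDegree < P.natDegree)
    {h j : F} (hrel : j * aeval h Q = aeval h P) (hh0 : h ≠ 0)
    (hh : h⁻¹ ∈ dmaMax O n) : j⁻¹ ∈ dmaMax O n := by
  have hinvt := invertibleOfNonzero hh0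
  have hP' : aeval h⁻¹ P.reverse * h ^ P.natDegree = aeval h P := by
    have := eval₂_reverse_mul_pow (algebraMap ℤ F) h P
    rwa [invOf_eq_inv] at this
  have hQ' : aeval h⁻¹ Q.reverse * h ^ Q.natDegree = aeval h Q := by
    have := eval₂_reverse_mul_pow (algebraMap ℤ F) h Q
    rwa [invOf_eq_inv] at this
  have huS := dma_max_le O n hh
  -- the reversed numerator is a unit at `n`
  have hPr : aeval h⁻¹ P.reverse = 1 + aeval h⁻¹ P.reverse.divX * h⁻¹ := by
    have h1 := congrArg (aeval h⁻¹) (divX_mul_X_add P.reverse)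
    rw [map_add, map_mul, aeval_X, aeval_C, coeff_zero_reverse, hP.leadingCoeff, map_one] at h1
    rw [← h1]
    ring
  have hPrn : aeval h⁻¹ P.reverse ∉ dmaMax O n := by
    rw [hPr]
    refine dma_notMem_max_of_add O n ?_ one_ne_zero
      (dma_max_mul O n (dma_aeval_mem O n huS _) hh)
    rw [inv_one]
    exact (dmaLoc O n).one_mem
  have hPr0 := dma_ne_zero O n hPrn
  have hinv := dma_inv_mem O n (dma_aeval_mem O n huS _) hPrn
  have hk : 0 < P.natDegree - Q.natDegree := by omega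
  have h2 := dma_max_mul O n
    ((dmaLoc O n).mul_mem hinv (dma_aeval_mem O n huS Q.reverse)) (dma_max_pow O n hh hk)
  have h3 : (aeval h⁻¹ P.reverse)⁻¹ * aeval h⁻¹ Q.reverse * h⁻¹ ^ (P.natDegree - Q.natDegree)
      = j⁻¹ := by
    have h4 : h ^ P.natDegree = h ^ Q.natDegree * h ^ (P.natDegree - Q.natDegree) := by
      rw [← pow_add]
      congr 1
      omega
    have h5 : j * aeval h⁻¹ Q.reverse = aeval h⁻¹ P.reverse * h ^ (P.natDegree - Q.natDegree) := by
      have h6 : j * (aeval h⁻¹ Q.reverse * h ^ Q.natDegree)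
          = aeval h⁻¹ P.reverse * (h ^ Q.natDegree * h ^ (P.natDegree - Q.natDegree)) := by
        rw [hQ', ← h4, hP', hrel]
      have h7 : h ^ Q.natDegree ≠ 0 := pow_ne_zero _ hh0
      apply mul_right_cancel₀ h7
      linear_combination h6
    have h8 : h⁻¹ ^ (P.natDegree - Q.natDegree) * h ^ (P.natDegree - Q.natDegree) = 1 := by
      rw [← mul_pow, inv_mul_cancel₀ hh0, one_pow]
    have h9 : j * (aeval h⁻¹ Q.reverse * h⁻¹ ^ (P.natDegree - Q.natDegree))
        = aeval h⁻¹ P.reverse := by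
      linear_combination h⁻¹ ^ (P.natDegree - Q.natDegree) * h5 + aeval h⁻¹ P.reverse * h8
    rw [← h9]
    have hQr0 : aeval h⁻¹ Q.reverse * h⁻¹ ^ (P.natDegree - Q.natDegree) ≠ 0 := by
      intro h0
      rw [h0, mul_zero] at h9
      exact hPr0 h9.symm
    rw [mul_assoc, mul_inv, mul_assoc, inv_mul_cancel₀ hQr0, mul_one]
  rwa [h3] at h2

/-- the `j`-dichotomy at a prime `n` of the chart containing the residue characteristic -/
theorem dma_j_dichotomy (ℓ : ℕ) (hℓ : (ℓ : O) ∈ n) (P Q U V W : ℤ[X]) (hP : P.Monic)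
    (hdeg : Q.natDegree < P.natDegree) (hUV : U * P + V * Q = 1 + C (ℓ : ℤ) * W)
    {h j c0 c1 : F} (hj0 : j ≠ 0) (hrel : j * aeval h Q = aeval h P)
    (hc0 : c0 ∈ O) (hc1 : c1 ∈ O) (hc01 : (c0 - c1)⁻¹ ∈ O) (hc : c0 ≠ c1) (hh : h ≠ c0)
    (ht : (h - c1) / (h - c0) ∈ O) :
    j ∈ dmaLoc O n ∨ j⁻¹ ∈ dmaMax O n := by
  rcases dma_h_dichotomy O n hc0 hc1 hc01 hc hh ht with h1 | ⟨h1, h2⟩
  · exact dma_j_of_h_mem O n ℓ hℓ P Q U V W hUV hj0 hrel h1
  · exact Or.inr (dma_j_of_h_inv O n P Q hP hdeg hrel h1 h2)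

/-- case `j ∈ O_n`: the swapped Hauptmodul `h_q` lies in `O_n` -/
theorem dma_hq_mem (hint : ∀ x : F, IsIntegral O x → x ∈ O) (P Q : ℤ[X]) (hP : P.Monic)
    (hdeg : Q.natDegree < P.natDegree) {hq j jq : F}
    (hrelq : jq * aeval hq Q = aeval hq P) (Φ : ℤ[X][X]) (hΦ : Φ.Monic)
    (hΦ0 : Φ.eval₂ ((aeval j : ℤ[X] →ₐ[ℤ] F).toRingHom) jq = 0) (hj : j ∈ dmaLoc O n) :
    hq ∈ dmaLoc O n := by
  have hjq : jq ∈ dmaLoc O n := dma_mem_of_rel O n hint hj Φ hΦ hΦ0
  let jq' : dmaLoc O n := ⟨jq, hjq⟩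
  let p : (dmaLoc O n)[X] := P.map (Int.castRingHom (dmaLoc O n))
    - C jq' * Q.map (Int.castRingHom (dmaLoc O n))
  have hPm : (P.map (Int.castRingHom (dmaLoc O n))).Monic := hP.map _
  have hlt : (C jq' * Q.map (Int.castRingHom (dmaLoc O n))).degree
      < (P.map (Int.castRingHom (dmaLoc O n))).degree := by
    calc (C jq' * Q.map (Int.castRingHom (dmaLoc O n))).degree
        ≤ (C jq').degree + (Q.map (Int.castRingHom (dmaLoc O n))).degree := degree_mul_le _ _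
      _ ≤ 0 + (Q.map (Int.castRingHom (dmaLoc O n))).degree := add_le_add_left degree_C_le _
      _ = (Q.map (Int.castRingHom (dmaLoc O n))).degree := zero_add _
      _ ≤ Q.degree := degree_map_le
      _ < P.degree := degree_lt_degree hdeg
      _ = (P.map (Int.castRingHom (dmaLoc O n))).degree := (hP.degree_map _).symm
  have hpm : p.Monic := hPm.sub_of_left hlt
  refine dma_mem_of_monic O n hint p hpm ?_
  rw [eval₂_sub, eval₂_mul, eval₂_C, dma_eval₂_map, dma_eval₂_map]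
  show aeval hq P - jq * aeval hq Q = 0
  rw [hrelq, sub_self]

/-- **DOM, abstract form.**  At every prime `n` of an integrally closed chart `O` containing the
residue characteristic `ℓ`, the swapped chart coordinate `T = (h_q - c₁)/(h_q - c₀)` or its
inverse lies in the local ring `O_n`. -/
theorem dma_main (hint : ∀ x : F, IsIntegral O x → x ∈ O) (ℓ : ℕ) (hℓ : (ℓ : O) ∈ n)
    (P Q U V W : ℤ[X]) (hP : P.Monic) (hdeg : Q.natDegree < P.natDegree)
    (hUV : U * P + V * Q = 1 + C (ℓ : ℤ) * W)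
    (h hq j jq c0 c1 : F) (hj0 : j ≠ 0) (hjq0 : jq ≠ 0)
    (hrel : j * aeval h Q = aeval h P) (hrelq : jq * aeval hq Q = aeval hq P)
    (Φ Φ' : ℤ[X][X]) (hΦ : Φ.Monic)
    (hΦ0 : Φ.eval₂ ((aeval j : ℤ[X] →ₐ[ℤ] F).toRingHom) jq = 0) (hΦ' : Φ'.Monic)
    (hΦ'0 : Φ'.eval₂ ((aeval jq : ℤ[X] →ₐ[ℤ] F).toRingHom) j = 0)
    (hc0 : c0 ∈ O) (hc1 : c1 ∈ O) (hc01 : (c0 - c1)⁻¹ ∈ O) (hc : c0 ≠ c1)
    (hQ0 : (aeval c0 Q)⁻¹ ∈ O) (hQ0' : aeval c0 Q ≠ 0)
    (hh : h ≠ c0) (hhq0 : hq ≠ c0) (ht : (h - c1) / (h - c0) ∈ O) :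
    (∃ a s : O, s ∉ n ∧ (hq - c1) / (hq - c0) * (s : F) = a) ∨
      (∃ a s : O, s ∉ n ∧ ((hq - c1) / (hq - c0))⁻¹ * (s : F) = a) := by
  have hc0S := dma_of_mem O n hc0
  have hc1S := dma_of_mem O n hc1
  have hc' : c0 - c1 ≠ 0 := sub_ne_zero.mpr hc
  have hd0 : hq - c0 ≠ 0 := sub_ne_zero.mpr hhq0
  rcases dma_j_dichotomy O n ℓ hℓ P Q U V W hP hdeg hUV hj0 hrel hc0 hc1 hc01 hc hh ht
    with hj | hj
  · -- `j ∈ O_n`
    have hhq : hq ∈ dmaLoc O n := dma_hq_mem O n hint P Q hP hdeg hrelq Φ hΦ hΦ0 hj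
    have h0S : hq - c0 ∈ dmaLoc O n := (dmaLoc O n).sub_mem hhq hc0S
    have h1S : hq - c1 ∈ dmaLoc O n := (dmaLoc O n).sub_mem hhq hc1S
    by_cases h0 : hq - c0 ∈ dmaMax O n
    · right
      have h1 : hq - c1 ∉ dmaMax O n := by
        intro h1
        have h2 : c0 - c1 ∈ dmaMax O n := by
          have := (dmaMax O n).sub_mem h1 h0
          rwa [show hq - c1 - (hq - c0) = c0 - c1 by ring] at this
        have h3 := dma_max_mul O n (dma_of_mem O n hc01) h2
        rw [inv_mul_cancel₀ hc'] at h3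
        exact dma_one_notMem_max O n h3
      have hinv := dma_inv_mem O n h1S h1
      have hmem : ((hq - c1) / (hq - c0))⁻¹ ∈ dmaLoc O n := by
        rw [inv_div, div_eq_mul_inv]
        exact (dmaLoc O n).mul_mem h0S hinv
      exact hmem
    · left
      have hinv := dma_inv_mem O n h0S h0
      have hmem : (hq - c1) / (hq - c0) ∈ dmaLoc O n := by
        rw [div_eq_mul_inv]
        exact (dmaLoc O n).mul_mem h1S hinv
      exact hmem
  · -- `1/j ∈ n O_n`
    left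
    have hv : jq⁻¹ ∈ dmaMax O n := dma_cusp_swap O n hint hj0 hjq0 hj Φ' hΦ' hΦ'0
    let v' : dmaLoc O n := ⟨jq⁻¹, dma_max_le O n hv⟩
    let c0' : dmaLoc O n := ⟨c0, hc0S⟩
    let G : (dmaLoc O n)[X] := (C v' * P.map (Int.castRingHom (dmaLoc O n))
      - Q.map (Int.castRingHom (dmaLoc O n))).comp (X + C c0')
    have hev : ∀ y : F, eval₂ (dmaLoc O n).subtype y G
        = jq⁻¹ * aeval (y + c0) P - aeval (y + c0) Q := by
      intro y
      show eval₂ (dmaLoc O n).subtype y ((C v' * P.map (Int.castRingHom (dmaLoc O n))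
        - Q.map (Int.castRingHom (dmaLoc O n))).comp (X + C c0')) = _
      rw [eval₂_comp, eval₂_add, eval₂_X, eval₂_C, eval₂_sub, eval₂_mul, eval₂_C,
        dma_eval₂_map, dma_eval₂_map]
      rfl
    have hG : eval₂ (dmaLoc O n).subtype (hq - c0) G = 0 := by
      rw [hev, sub_add_cancel, ← hrelq]
      field_simp
      ring
    have hu : eval₂ (dmaLoc O n).subtype 0 G ∉ dmaMax O n := by
      rw [hev, zero_add]
      intro hmem
      have h1 : jq⁻¹ * aeval c0 P ∈ dmaMax O n := by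
        rw [mul_comm]
        exact dma_max_mul O n (dma_aeval_mem O n hc0S P) hv
      have h2 : aeval c0 Q ∈ dmaMax O n := by
        have := (dmaMax O n).sub_mem h1 hmem
        rwa [sub_sub_cancel] at this
      have h3 := dma_max_mul O n (dma_of_mem O n hQ0) h2
      rw [inv_mul_cancel₀ hQ0'] at h3
      exact dma_one_notMem_max O n h3
    have hz : (hq - c0)⁻¹ ∈ dmaLoc O n := dma_inv_root O n hint G hd0 hG hu
    have hmem : (hq - c1) / (hq - c0) ∈ dmaLoc O n := by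
      have h1 : (hq - c1) / (hq - c0) = 1 + (c0 - c1) * (hq - c0)⁻¹ := by
        field_simp
        ring
      rw [h1]
      exact (dmaLoc O n).add_mem (dmaLoc O n).one_mem
        ((dmaLoc O n).mul_mem ((dmaLoc O n).sub_mem hc0S hc1S) hz)
    exact hmem

end DomAbs

end Fermat.Agent.S34
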