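import Mathlib
import Fermat.Agent.S34.DomAbs
import Fermat.Agent.S34.CompLoc

/-!
# S34, package BRANCH-ABS: a branch of the special fibre through a closed point is a DVR
# with a prescribed uniformiser

`O` is a chart (a subalgebra of the field `F`), `𝔫` a prime of `O`, `Λ = O_𝔫 = dmaLoc O 𝔫`,
`𝔪 = 𝔫 O_𝔫 = dmaMax O 𝔫`.  `V` is a valuation subring of `F` containing `O` with
`O ∩ 𝔪_V ⊆ 𝔫` (a component of the special fibre through `𝔫`).  `β : E → F` is a ring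
homomorphism with `β(E) ⊆ Λ` (domination), `E ⧸ I` is a Dedekind domain with `β(I) ⊆ 𝔪_V`
generating the residue field of `V` (residue degree one).

`bra_main`: if `x ∈ 𝔪` is congruent modulo `𝔪_V` to `β ξ / β d` (`β d` a unit of `Λ`) and `ξ`
is a local generator modulo `I` of the maximal ideal of `E` below `𝔫`, then
`𝔪 ⊆ x Λ + (Λ ∩ 𝔪_V)`: the branch `Λ / (Λ ∩ 𝔪_V)` is a discrete valuation ring with
uniformiser the image of `x`.

Intended use (S34, NODE-INST (d)): branch 1: `V = V₁`, `β = α` (level `M'` chart),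
`x = h - h_q ^ q`; branch 2: `V = V₂`, `β` the second degeneracy map, `x = h ^ q - h_q`.
-/

set_option autoImplicit false

namespace Fermat.Agent.S34

section BranchAbs

variable {A F : Type*} [CommRing A] [Field F] [Algebra A F]
variable (O : Subalgebra A F) (𝔫 : Ideal ↥O) [𝔫.IsPrime]

/-- `O_𝔫 ⊆ V` when `O ⊆ V` and `O ∩ 𝔪_V ⊆ 𝔫`. -/
theorem bra_loc_le (V : ValuationSubring F) (hOV : ∀ x ∈ O, x ∈ V)
    (hp𝔫 : ∀ x : ↥O, (x : F) ∈ V.nonunits → x ∈ 𝔫) {y : F} (hy : y ∈ dmaLoc O 𝔫) : y ∈ V := by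
  obtain ⟨a, s, hs, h⟩ := hy
  have hsV : (s : F) ∈ V := hOV _ s.2
  have hs' : (s : F) ∉ V.nonunits := fun h' => hs (hp𝔫 s h')
  rw [← ValuationSubring.valuation_le_one_iff] at hsV ⊢
  rw [ValuationSubring.mem_nonunits_iff] at hs'
  have hs1 : V.valuation (s : F) = 1 := le_antisymm hsV (not_lt.mp hs')
  have hya : V.valuation y = V.valuation (a : F) := by
    rw [← h, map_mul, hs1, mul_one]
  rw [hya]
  exact (V.valuation_le_one_iff _).mpr (hOV _ a.2)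

/-- `O_𝔫 ∩ 𝔪_V ⊆ 𝔫 O_𝔫`. -/
theorem bra_max_of_nonunits (V : ValuationSubring F) (hOV : ∀ x ∈ O, x ∈ V)
    (hp𝔫 : ∀ x : ↥O, (x : F) ∈ V.nonunits → x ∈ 𝔫) {y : F} (hy : y ∈ dmaLoc O 𝔫)
    (hy' : y ∈ V.nonunits) : y ∈ dmaMax O 𝔫 := by
  obtain ⟨a, s, hs, h⟩ := hy
  refine ⟨a, s, hp𝔫 a ?_, hs, h⟩
  rw [← h]
  exact cpl_nu_mul V hy' (hOV _ s.2)

/-- **BRANCH-ABS.**  The branch through `𝔫` of the component cut out by `V` is a discrete
valuation ring with uniformiser the image of `x`: `𝔫 O_𝔫 ⊆ x O_𝔫 + (O_𝔫 ∩ 𝔪_V)`. -/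
theorem bra_main (V : ValuationSubring F) (hOV : ∀ x ∈ O, x ∈ V)
    (hp𝔫 : ∀ x : ↥O, (x : F) ∈ V.nonunits → x ∈ 𝔫)
    {E : Type*} [CommRing E] (β : E →+* F) (I : Ideal E) [IsDedekindDomain (E ⧸ I)]
    (hI : ∀ x : E, x ∈ I → β x ∈ V.nonunits)
    (hβn : ∀ x : E, β x ∈ dmaLoc O 𝔫)
    (hres : ∀ x ∈ V, ∃ a s : E, β s ∉ V.nonunits ∧ x * β s - β a ∈ V.nonunits)
    (x : F) (hx : x ∈ dmaMax O 𝔫) (ξ d : E)
    (hxξ : x * β d - β ξ ∈ V.nonunits)
    (hU : ∀ P : Ideal E, P.IsMaximal → I ≤ P → ξ ∈ P → (∀ z : E, z ∈ P ↔ β z ∈ dmaMax O 𝔫) →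
        ∀ z ∈ P, ∃ u : E, u ∉ P ∧ ∃ γ : E, u * z - ξ * γ ∈ I)
    (z : F) (hz : z ∈ dmaMax O 𝔫) :
    ∃ b : F, b ∈ dmaLoc O 𝔫 ∧ z - x * b ∈ V.nonunits := by
  classical
  have hLV : ∀ {y : F}, y ∈ dmaLoc O 𝔫 → y ∈ V := fun hy => bra_loc_le O 𝔫 V hOV hp𝔫 hy
  have hMV : ∀ {y : F}, y ∈ dmaLoc O 𝔫 → y ∈ V.nonunits → y ∈ dmaMax O 𝔫 :=
    fun hy hy' => bra_max_of_nonunits O 𝔫 V hOV hp𝔫 hy hy'
  have hunit : ∀ {y : F}, y ∈ dmaLoc O 𝔫 → y ∉ dmaMax O 𝔫 → y ∉ V.nonunits :=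
    fun hy hy' h => hy' (hMV hy h)
  -- the prime `J` of `E` below `𝔫`
  let J : Ideal E :=
    { carrier := {e | β e ∈ dmaMax O 𝔫}
      add_mem' := by
        intro e e' he he'
        show β (e + e') ∈ dmaMax O 𝔫
        rw [map_add]
        exact (dmaMax O 𝔫).add_mem he he'
      zero_mem' := by
        show β 0 ∈ dmaMax O 𝔫
        rw [map_zero]
        exact (dmaMax O 𝔫).zero_mem
      smul_mem' := by
        intro c e he
        show β (c • e) ∈ dmaMax O 𝔫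
        rw [smul_eq_mul, map_mul]
        exact dma_max_mul O 𝔫 (hβn c) he }
  have hJmem : ∀ e : E, e ∈ J ↔ β e ∈ dmaMax O 𝔫 := fun e => Iff.rfl
  have hJprime : J.IsPrime := by
    refine ⟨fun htop => ?_, fun {e e'} hee => ?_⟩
    · have h1 : (1 : E) ∈ J := by rw [htop]; exact Submodule.mem_top
      rw [hJmem, map_one] at h1
      exact dma_one_notMem_max O 𝔫 h1
    · by_contra hcon
      rw [not_or] at hcon
      have he : β e ∉ dmaMax O 𝔫 := fun h => hcon.1 ((hJmem e).mpr h)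
      have hinv := dma_inv_mem O 𝔫 (hβn e) he
      have h0 := dma_ne_zero O 𝔫 he
      have h1 : β (e * e') ∈ dmaMax O 𝔫 := (hJmem _).mp hee
      have h2 := dma_max_mul O 𝔫 hinv h1
      rw [map_mul, inv_mul_cancel_left₀ h0] at h2
      exact hcon.2 ((hJmem e').mpr h2)
  have hIJ : I ≤ J := fun e he => (hJmem e).mpr (hMV (hβn e) (hI e he))
  have hzL : z ∈ dmaLoc O 𝔫 := dma_max_le O 𝔫 hz
  have hzV : z ∈ V := hLV hzL
  obtain ⟨a, s, hs, has⟩ := hres z hzV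
  have hker : RingHom.ker (Ideal.Quotient.mk I) ≤ J := by rw [Ideal.mk_ker]; exact hIJ
  have hmapprime : (J.map (Ideal.Quotient.mk I)).IsPrime :=
    Ideal.map_isPrime_of_surjective Ideal.Quotient.mk_surjective hker
  obtain ⟨σ', hσ', γ', hγ'⟩ := cpl_ded_total (J.map (Ideal.Quotient.mk I))
    (Ideal.Quotient.mk I s) (Ideal.Quotient.mk I a)
  obtain ⟨σ, rfl⟩ := Ideal.Quotient.mk_surjective σ'
  obtain ⟨γ, rfl⟩ := Ideal.Quotient.mk_surjective γ'
  have hσJ : σ ∉ J := fun h => hσ' (Ideal.mem_map_of_mem _ h)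
  have hσM : β σ ∉ dmaMax O 𝔫 := fun h => hσJ ((hJmem σ).mpr h)
  have hsV : β s ∈ V := hLV (hβn s)
  have hA : β γ - β σ * z ∈ V.nonunits ∧ γ ∈ J := by
    rcases hγ' with h | h
    · have h1 : s * γ - σ * a ∈ I := by
        rw [← Ideal.Quotient.eq, map_mul, map_mul]
        exact h
      have h2 : β s * β γ - β σ * β a ∈ V.nonunits := by
        have := hI _ h1
        rwa [map_sub, map_mul, map_mul] at this
      have h3 : (β γ - β σ * z) * β s ∈ V.nonunits := by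
        have e : (β γ - β σ * z) * β s
            = (β s * β γ - β σ * β a) - (z * β s - β a) * β σ := by ring
        rw [e]
        exact V.nonunits.sub_mem h2 (cpl_nu_mul V has (hLV (hβn σ)))
      have h4 := cpl_nu_cancel V hsV hs h3
      refine ⟨h4, (hJmem γ).mpr ?_⟩
      have h5 : β γ - β σ * z ∈ dmaMax O 𝔫 :=
        hMV ((dmaLoc O 𝔫).sub_mem (hβn γ) ((dmaLoc O 𝔫).mul_mem (hβn σ) hzL)) h4
      have h6 : β σ * z ∈ dmaMax O 𝔫 := dma_max_mul O 𝔫 (hβn σ) hz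
      have h7 := (dmaMax O 𝔫).add_mem h5 h6
      rwa [sub_add_cancel] at h7
    · exfalso
      have h1 : a * γ - σ * s ∈ I := by
        rw [← Ideal.Quotient.eq, map_mul, map_mul]
        exact h
      have h2 : β a * β γ - β σ * β s ∈ V.nonunits := by
        have := hI _ h1
        rwa [map_sub, map_mul, map_mul] at this
      have h3 : (z * β γ - β σ) * β s ∈ V.nonunits := by
        have e : (z * β γ - β σ) * β s
            = (z * β s - β a) * β γ + (β a * β γ - β σ * β s) := by ring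
        rw [e]
        exact V.nonunits.add_mem (cpl_nu_mul V has (hLV (hβn γ))) h2
      have h4 := cpl_nu_cancel V hsV hs h3
      have h5 : z * β γ - β σ ∈ dmaMax O 𝔫 :=
        hMV ((dmaLoc O 𝔫).sub_mem ((dmaLoc O 𝔫).mul_mem hzL (hβn γ)) (hβn σ)) h4
      have h6 : z * β γ ∈ dmaMax O 𝔫 := by
        rw [mul_comm]
        exact dma_max_mul O 𝔫 (hβn γ) hz
      have h7 := (dmaMax O 𝔫).sub_mem h6 h5
      rw [sub_sub_cancel] at h7
      exact hσM h7
  obtain ⟨hcong, hγJ⟩ := hA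
  have hσinv : (β σ)⁻¹ ∈ dmaLoc O 𝔫 := dma_inv_mem O 𝔫 (hβn σ) hσM
  have hσ0 : β σ ≠ 0 := dma_ne_zero O 𝔫 hσM
  by_cases hbot : J.map (Ideal.Quotient.mk I) = ⊥
  · have hγI : γ ∈ I := by
      have h1 : Ideal.Quotient.mk I γ ∈ J.map (Ideal.Quotient.mk I) :=
        Ideal.mem_map_of_mem _ hγJ
      rw [hbot, Ideal.mem_bot] at h1
      exact Ideal.Quotient.eq_zero_iff_mem.mp h1
    refine ⟨0, (dmaLoc O 𝔫).zero_mem, ?_⟩
    rw [mul_zero, sub_zero]
    have h1 : z * β σ ∈ V.nonunits := by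
      have e : z * β σ = β γ - (β γ - β σ * z) := by ring
      rw [e]
      exact V.nonunits.sub_mem (hI γ hγI) hcong
    exact cpl_nu_cancel V (hLV (hβn σ)) (hunit (hβn σ) hσM) h1
  · have hmax' : (J.map (Ideal.Quotient.mk I)).IsMaximal := hmapprime.isMaximal hbot
    have hJmax : J.IsMaximal := by
      have h1 : (J.map (Ideal.Quotient.mk I)).comap (Ideal.Quotient.mk I) = J := by
        rw [Ideal.comap_map_of_surjective _ Ideal.Quotient.mk_surjective,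
          ← RingHom.ker_eq_comap_bot, Ideal.mk_ker]
        exact sup_eq_left.mpr hIJ
      rw [← h1]
      exact Ideal.comap_isMaximal_of_surjective _ Ideal.Quotient.mk_surjective
    have hξJ : ξ ∈ J := by
      rw [hJmem]
      have h0 : β ξ - x * β d ∈ V.nonunits := by
        have := V.nonunits.neg_mem hxξ
        rwa [neg_sub] at this
      have hxd : x * β d ∈ dmaMax O 𝔫 := by
        rw [mul_comm]
        exact dma_max_mul O 𝔫 (hβn d) hx
      have h1 : β ξ - x * β d ∈ dmaMax O 𝔫 :=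
        hMV ((dmaLoc O 𝔫).sub_mem (hβn ξ) (dma_max_le O 𝔫 hxd)) h0
      have h2 := (dmaMax O 𝔫).add_mem h1 hxd
      rwa [sub_add_cancel] at h2
    obtain ⟨u, hu, γ₂, hγ₂⟩ := hU J hJmax hIJ hξJ hJmem γ hγJ
    have huM : β u ∉ dmaMax O 𝔫 := fun h => hu ((hJmem u).mpr h)
    have huinv := dma_inv_mem O 𝔫 (hβn u) huM
    have hu0 := dma_ne_zero O 𝔫 huM
    have h1 : β u * β γ - β ξ * β γ₂ ∈ V.nonunits := by
      have := hI _ hγ₂
      rwa [map_sub, map_mul, map_mul] at this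
    refine ⟨β d * β γ₂ * (β u)⁻¹ * (β σ)⁻¹,
      (dmaLoc O 𝔫).mul_mem ((dmaLoc O 𝔫).mul_mem ((dmaLoc O 𝔫).mul_mem (hβn d) (hβn γ₂)) huinv)
        hσinv, ?_⟩
    have h2 : (z - x * (β d * β γ₂ * (β u)⁻¹ * (β σ)⁻¹)) * β σ * β u ∈ V.nonunits := by
      have e : (z - x * (β d * β γ₂ * (β u)⁻¹ * (β σ)⁻¹)) * β σ * β u
          = (β u * β γ - β ξ * β γ₂) - (β γ - β σ * z) * β u - (x * β d - β ξ) * β γ₂ := by
        field_simp
        ring
      rw [e]
      exact V.nonunits.sub_mem (V.nonunits.sub_mem h1 (cpl_nu_mul V hcong (hLV (hβn u))))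
        (cpl_nu_mul V hxξ (hLV (hβn γ₂)))
    have h3 := cpl_nu_cancel V (hLV (hβn u)) (hunit (hβn u) huM) h2
    exact cpl_nu_cancel V (hLV (hβn σ)) (hunit (hβn σ) hσM) h3

end BranchAbs

end Fermat.Agent.S34
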