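import Mathlib

/-!
# S34, BRANCH-INST, polynomial side (Mathlib only)

The chart coordinate is `t = (h - c₁) / (h - c₀)`, i.e. `h * (t - 1) = c₀ * t - c₁`.

* `brpG c₀ c₁ n`: the numerator of `h ^ n - h` in the coordinate `t`:
  `(h ^ n - h) * (t - 1) ^ n = brpG c₀ c₁ n (t)` (`brp_eval`).
* `brp_derivative`: `brpG' = (c₀ - c₁) (X - 1) ^ (n - 2) + n * (...)`; so modulo a prime
  containing `n` (`n = q ^ 2`, residue characteristic `q`) the derivative is
  `(c₀ - c₁) (t - 1) ^ (n - 2)`: `brp_derivative_aeval`, `brp_derivative_notMem`.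
* `brp_pow_sub_pow_nonunits`: `a ≡ b` implies `a ^ n ≡ b ^ n` modulo `𝔪_V`.
* `brp_hxxi₂`, `brp_hxxi₁`: the congruences `x * β d ≡ β ξ` of `bra_main` for the two branches
  (`x = h ^ q - h_q` on `V₂`, `x = h - h_q ^ q` on `V₁`).
* `brp_hU`: the conclusion of `unr_local` in the shape of the hypothesis `hU` of `bra_main`.
-/

set_option autoImplicit false

open Polynomial

namespace Fermat.Agent.S34

section BranchPoly

/-- The numerator of `h ^ n - h` in the chart coordinate `t = (h - c₁)/(h - c₀)`. -/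
noncomputable def brpG {R : Type*} [CommRing R] (c0 c1 : R) (n : ℕ) : R[X] :=
  (C c0 * X - C c1) ^ n - (C c0 * X - C c1) * (X - 1) ^ (n - 1)

theorem brp_map {R S : Type*} [CommRing R] [CommRing S] (f : R →+* S) (c0 c1 : R) (n : ℕ) :
    (brpG c0 c1 n).map f = brpG (f c0) (f c1) n := by
  simp [brpG]

theorem brp_aeval {R A : Type*} [CommRing R] [CommRing A] [Algebra R A] (c0 c1 : R) (n : ℕ)
    (t : A) :
    aeval t (brpG c0 c1 n) = (algebraMap R A c0 * t - algebraMap R A c1) ^ n -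
      (algebraMap R A c0 * t - algebraMap R A c1) * (t - 1) ^ (n - 1) := by
  simp [brpG]

/-- The rational identity: `(h ^ n - h) * (t - 1) ^ n = g(t)` when `h * (t - 1) = c₀ t - c₁`. -/
theorem brp_eval {A : Type*} [CommRing A] (c0 c1 t h : A) (n : ℕ) (hn : 1 ≤ n)
    (hh : h * (t - 1) = c0 * t - c1) :
    (h ^ n - h) * (t - 1) ^ n = (c0 * t - c1) ^ n - (c0 * t - c1) * (t - 1) ^ (n - 1) := by
  obtain ⟨m, rfl⟩ : ∃ m, n = m + 1 := ⟨n - 1, by omega⟩
  rw [Nat.add_sub_cancel]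
  have e : (h ^ (m + 1) - h) * (t - 1) ^ (m + 1)
      = (h * (t - 1)) ^ (m + 1) - (h * (t - 1)) * (t - 1) ^ m := by
    rw [mul_pow]; ring
  rw [e, hh]

theorem brp_derivative {R : Type*} [CommRing R] (c0 c1 : R) (n : ℕ) (hn : 2 ≤ n) :
    derivative (brpG c0 c1 n) = (C c0 - C c1) * (X - 1) ^ (n - 2) +
      C (n : R) * (C c0 * (C c0 * X - C c1) ^ (n - 1) - (C c0 * X - C c1) * (X - 1) ^ (n - 2)) := by
  obtain ⟨m, rfl⟩ : ∃ m, n = m + 2 := ⟨n - 2, by omega⟩
  have e1 : m + 2 - 1 = m + 1 := by omega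
  have e2 : m + 2 - 2 = m := by omega
  have e3 : m + 1 - 1 = m := by omega
  rw [brpG, e1, e2]
  have hL : derivative (C c0 * X - C c1 : R[X]) = C c0 := by
    simp
  have hM : derivative (X - 1 : R[X]) = 1 := by
    simp
  have hN : (C ((m + 2 : ℕ) : R) : R[X]) = (m : R[X]) + 2 := by
    rw [map_natCast, Nat.cast_add, Nat.cast_ofNat]
  have hN1 : (C ((m + 1 : ℕ) : R) : R[X]) = (m : R[X]) + 1 := by
    rw [map_natCast, Nat.cast_add, Nat.cast_one]
  rw [derivative_sub, derivative_mul, derivative_pow, derivative_pow, hL, hM, e1, e3, hN, hN1]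
  ring

/-- Modulo an ideal containing `n`, the derivative of `brpG` at `t` is
`(c₀ - c₁) * (t - 1) ^ (n - 2)`. -/
theorem brp_derivative_aeval {R A : Type*} [CommRing R] [CommRing A] [Algebra R A] (c0 c1 : R)
    (n : ℕ) (hn : 2 ≤ n) (t : A) (P : Ideal A) (hnP : (n : A) ∈ P) :
    aeval t (derivative (brpG c0 c1 n)) -
      (algebraMap R A c0 - algebraMap R A c1) * (t - 1) ^ (n - 2) ∈ P := by
  rw [brp_derivative c0 c1 n hn]
  simp only [map_add, map_mul, map_sub, map_pow, aeval_C, aeval_X, map_one, map_natCast,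
    add_sub_cancel_left]
  exact P.mul_mem_right _ hnP

/-- The derivative of `brpG` at `t` is outside a prime `P ∋ n` as soon as `c₀ - c₁` and `t - 1`
are outside `P`. -/
theorem brp_derivative_notMem {R A : Type*} [CommRing R] [CommRing A] [Algebra R A] (c0 c1 : R)
    (n : ℕ) (hn : 2 ≤ n) (t : A) (P : Ideal A) [hP : P.IsPrime] (hnP : (n : A) ∈ P)
    (hc : algebraMap R A c0 - algebraMap R A c1 ∉ P) (ht : t - 1 ∉ P) :
    aeval t (derivative (brpG c0 c1 n)) ∉ P := by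
  intro h
  have h1 := brp_derivative_aeval c0 c1 n hn t P hnP
  have h2 : (algebraMap R A c0 - algebraMap R A c1) * (t - 1) ^ (n - 2) ∈ P := by
    have := P.sub_mem h h1
    rwa [sub_sub_cancel] at this
  rcases hP.mem_or_mem h2 with h3 | h3
  · exact hc h3
  · exact ht (hP.mem_of_pow_mem _ h3)

variable {F : Type*} [Field F]

/-- `a ≡ b` modulo `𝔪_V` implies `a ^ n ≡ b ^ n`. -/
theorem brp_pow_sub_pow_nonunits (V : ValuationSubring F) {a b : F} (ha : a ∈ V) (hb : b ∈ V)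
    (hab : a - b ∈ V.nonunits) (n : ℕ) : a ^ n - b ^ n ∈ V.nonunits := by
  have h1 : (∑ i ∈ Finset.range n, a ^ i * b ^ (n - 1 - i)) * (a - b) = a ^ n - b ^ n :=
    (Commute.all a b).geom_sum₂_mul n
  have h2 : (∑ i ∈ Finset.range n, a ^ i * b ^ (n - 1 - i)) ∈ V :=
    sum_mem fun i _ => mul_mem (pow_mem ha i) (pow_mem hb _)
  rw [← h1, mul_comm]
  rw [ValuationSubring.mem_nonunits_iff] at hab ⊢
  rw [← ValuationSubring.valuation_le_one_iff] at h2
  rw [map_mul]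
  exact lt_of_le_of_lt (mul_le_of_le_one_right' h2) hab

/-- Branch 2 (`V = V₂`, where `h ≡ h_q ^ q`): with `x = h ^ q - h_q`, `T` the chart coordinate of
`h_q` and `n = q * q`: `x * (T - 1) ^ n ≡ g(T)` modulo `𝔪_V`. -/
theorem brp_hxxi₂ (V : ValuationSubring F) (c0 c1 : F) (q : ℕ) (hq : 1 ≤ q) (h hq' T : F)
    (hT : hq' * (T - 1) = c0 * T - c1) (hhV : h ∈ V) (hhqV : hq' ∈ V) (hTV : T ∈ V)
    (hcong : h - hq' ^ q ∈ V.nonunits) :
    (h ^ q - hq') * (T - 1) ^ (q * q) -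
      ((c0 * T - c1) ^ (q * q) - (c0 * T - c1) * (T - 1) ^ (q * q - 1)) ∈ V.nonunits := by
  have hn : 1 ≤ q * q := Nat.one_le_iff_ne_zero.mpr (Nat.mul_ne_zero (by omega) (by omega))
  rw [← brp_eval c0 c1 T hq' (q * q) hn hT]
  have e : (h ^ q - hq') * (T - 1) ^ (q * q) - (hq' ^ (q * q) - hq') * (T - 1) ^ (q * q)
      = (h ^ q - (hq' ^ q) ^ q) * (T - 1) ^ (q * q) := by
    rw [← pow_mul]; ring
  rw [e]
  have h1 := brp_pow_sub_pow_nonunits V hhV (pow_mem hhqV q) hcong q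
  have h2 : (T - 1) ^ (q * q) ∈ V := pow_mem (sub_mem hTV (one_mem V)) _
  rw [ValuationSubring.mem_nonunits_iff] at h1 ⊢
  rw [← ValuationSubring.valuation_le_one_iff] at h2
  rw [map_mul]
  exact lt_of_le_of_lt (mul_le_of_le_one_right' h2) h1

/-- Branch 1 (`V = V₁`, where `h_q ≡ h ^ q`): with `x = h - h_q ^ q`, `t` the chart coordinate
of `h` and `n = q * q`: `x * (t - 1) ^ n ≡ - g(t)` modulo `𝔪_V`. -/
theorem brp_hxxi₁ (V : ValuationSubring F) (c0 c1 : F) (q : ℕ) (hq : 1 ≤ q) (h hq' t : F)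
    (ht : h * (t - 1) = c0 * t - c1) (hhV : h ∈ V) (hhqV : hq' ∈ V) (htV : t ∈ V)
    (hcong : hq' - h ^ q ∈ V.nonunits) :
    (h - hq' ^ q) * (t - 1) ^ (q * q) -
      (-((c0 * t - c1) ^ (q * q) - (c0 * t - c1) * (t - 1) ^ (q * q - 1))) ∈ V.nonunits := by
  have hn : 1 ≤ q * q := Nat.one_le_iff_ne_zero.mpr (Nat.mul_ne_zero (by omega) (by omega))
  rw [← brp_eval c0 c1 t h (q * q) hn ht]
  have e : (h - hq' ^ q) * (t - 1) ^ (q * q) - (-((h ^ (q * q) - h) * (t - 1) ^ (q * q)))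
      = -((hq' ^ q - (h ^ q) ^ q) * (t - 1) ^ (q * q)) := by
    rw [← pow_mul]; ring
  rw [e]
  have h1 := brp_pow_sub_pow_nonunits V hhqV (pow_mem hhV q) hcong q
  have h2 : (t - 1) ^ (q * q) ∈ V := pow_mem (sub_mem htV (one_mem V)) _
  apply V.nonunits.neg_mem
  rw [ValuationSubring.mem_nonunits_iff] at h1 ⊢
  rw [← ValuationSubring.valuation_le_one_iff] at h2
  rw [map_mul]
  exact lt_of_le_of_lt (mul_le_of_le_one_right' h2) h1

end BranchPoly

/-- The conclusion of `unr_local` in the shape of the hypothesis `hU` of `bra_main`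
(`I = (τ)`). -/
theorem brp_hU {E : Type*} [CommRing E] (τ ξ : E) (P : Ideal E) (z : E)
    (h : ∃ s : E, s ∉ P ∧ s * z ∈ Ideal.span {τ, ξ}) :
    ∃ u : E, u ∉ P ∧ ∃ γ : E, u * z - ξ * γ ∈ Ideal.span {τ} := by
  obtain ⟨s, hs, hsz⟩ := h
  obtain ⟨a, b, hab⟩ := Ideal.mem_span_pair.mp hsz
  refine ⟨s, hs, b, ?_⟩
  rw [Ideal.mem_span_singleton]
  exact ⟨a, by rw [← hab]; ring⟩

end Fermat.Agent.S34
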