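import Mathlib
import Fermat.Agent.S18.ValExt

/-!
# S34, package CHART2 (part 1): the integrality lemma for several extensions of a valuation

`F` a field, `O : ValuationSubring F` a reference valuation subring, `L` a subfield with
`F / L` algebraic, `R` integrally closed with fraction field `L`.

* `valext2_coeff_mem`: if `x` is integral over `R` and lies in EVERY valuation subring of `F`
  with the same trace on `L` as `O`, then the coefficients of its minimal polynomial over `R`
  lie in `O`.
* `valext2_integral`: hence `x` is integral over any `R₀ → R` hitting `R ∩ O`.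

This is the version of `valext_coeff_mem` / `valext_integral` (S18) without uniqueness of the
extension: it applies to the two Gauss valuations at a prime of bad (semistable) reduction.
-/

set_option autoImplicit false

namespace Fermat.Agent.S34

open Polynomial Fermat.Agent.S18

section Integral

variable {R L F : Type*} [CommRing R] [IsDomain R] [IsIntegrallyClosed R] [Field L] [Field F]
  [Algebra R L] [IsFractionRing R L] [Algebra L F] [Algebra R F] [IsScalarTower R L F]
  [Algebra.IsAlgebraic L F]

theorem valext2_coeff_mem (O : ValuationSubring F) (x : F)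
    (hx : ∀ O' : ValuationSubring F,
      (∀ y : L, algebraMap L F y ∈ O' ↔ algebraMap L F y ∈ O) → x ∈ O')
    (hint : IsIntegral R x) (i : ℕ) :
    algebraMap R F ((minpoly R x).coeff i) ∈ O := by
  classical
  obtain ⟨W, hW⟩ := valext_exists (Ω := AlgebraicClosure F) O
  have hp : minpoly L x = (minpoly R x).map (algebraMap R L) :=
    minpoly.isIntegrallyClosed_eq_field_fractions' L hint
  have hmonic : (minpoly L x).Monic := minpoly.monic (Algebra.IsIntegral.isIntegral x)
  set q : (AlgebraicClosure F)[X] := (minpoly L x).map (algebraMap L (AlgebraicClosure F)) with hq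
  have hqmonic : q.Monic := hmonic.map _
  have hsplit : q.Splits := IsAlgClosed.splits q
  have hroots : ∀ y ∈ q.roots, y ∈ W := by
    intro y hy
    have hy0 : aeval y (minpoly L x) = 0 := by
      have := (mem_roots hqmonic.ne_zero).mp hy
      rwa [IsRoot.def, hq, eval_map_algebraMap] at this
    obtain ⟨φ, hφ⟩ := IntermediateField.exists_algHom_of_splits_of_aeval
      (F := L) (E := F) (K := AlgebraicClosure F)
      (fun s => ⟨Algebra.IsIntegral.isIntegral s, IsAlgClosed.splits _⟩) hy0
    have hO' : x ∈ W.comap φ.toRingHom := by
      apply hx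
      intro z
      rw [ValuationSubring.mem_comap, ← hW, ValuationSubring.mem_comap]
      have : φ.toRingHom (algebraMap L F z)
          = algebraMap F (AlgebraicClosure F) (algebraMap L F z) := by
        rw [AlgHom.toRingHom_eq_coe, RingHom.coe_coe, AlgHom.commutes,
          ← IsScalarTower.algebraMap_apply]
      rw [this]
    rw [ValuationSubring.mem_comap] at hO'
    rw [← hφ]
    exact hO'
  have hcoeff : ∀ k, q.coeff k ∈ W := by
    intro k
    by_cases hk : k ≤ q.natDegree
    · rw [coeff_eq_esymm_roots_of_splits hsplit hk, hqmonic.leadingCoeff, one_mul]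
      refine W.mul_mem _ _ ?_ (valext_esymm_mem W _ hroots _)
      exact W.toSubring.pow_mem (W.toSubring.neg_mem W.one_mem) _
    · rw [coeff_eq_zero_of_natDegree_lt (not_le.mp hk)]
      exact W.zero_mem
  have h1 : q.coeff i
      = algebraMap F (AlgebraicClosure F) (algebraMap R F ((minpoly R x).coeff i)) := by
    rw [hq, coeff_map, hp, coeff_map, IsScalarTower.algebraMap_apply R L F,
      ← IsScalarTower.algebraMap_apply L F (AlgebraicClosure F)]
  have h2 := hcoeff i
  rw [h1] at h2
  rw [← hW, ValuationSubring.mem_comap]
  exact h2

/-- The integrality lemma without uniqueness: an element integral over `R` which lies in every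
valuation subring of `F` with the trace of `O` on `L` is integral over any `R₀ → R` hitting
`R ∩ O`. -/
theorem valext2_integral (O : ValuationSubring F)
    {R₀ : Type*} [CommRing R₀] [Algebra R₀ R] [Algebra R₀ F] [IsScalarTower R₀ R F]
    (hR₀ : ∀ r : R, algebraMap R F r ∈ O → ∃ r₀ : R₀, algebraMap R₀ R r₀ = r)
    (x : F)
    (hx : ∀ O' : ValuationSubring F,
      (∀ y : L, algebraMap L F y ∈ O' ↔ algebraMap L F y ∈ O) → x ∈ O')
    (hint : IsIntegral R x) : IsIntegral R₀ x := by
  classical
  have hc := fun i => hR₀ _ (valext2_coeff_mem (L := L) O x hx hint i)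
  choose c hc using hc
  set d := (minpoly R x).natDegree with hd
  refine ⟨X ^ d + ∑ i ∈ Finset.range d, C (c i) * X ^ i, ?_, ?_⟩
  · refine monic_X_pow_add ?_
    rw [degree_lt_iff_coeff_zero]
    intro m hm
    rw [finsetSum_coeff]
    refine Finset.sum_eq_zero fun i hi => ?_
    rw [coeff_C_mul_X_pow, if_neg]
    have := Finset.mem_range.mp hi
    omega
  · have hmonic := minpoly.monic hint
    have h0 := minpoly.aeval R x
    rw [aeval_eq_sum_range, Finset.sum_range_succ, ← hd, hmonic.coeff_natDegree, one_smul] at h0
    rw [eval₂_add, eval₂_X_pow, eval₂_finsetSum, add_comm]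
    rw [← h0]
    congr 1
    refine Finset.sum_congr rfl fun i _ => ?_
    rw [eval₂_mul, eval₂_C, eval₂_X_pow, Algebra.smul_def, ← hc i,
      ← IsScalarTower.algebraMap_apply]

end Integral

end Fermat.Agent.S34
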