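import Mathlib
import Fermat.Agent.S18.Charts
import Fermat.Agent.S34.ValExt2

/-!
# S34, package CHART2 (part 2): integral-closure charts with several Gauss valuations

Setting of `S18/Charts.lean`: `A0` a DVR with uniformizer `τ` and fraction field `K0`, `F` a field
over `K0`, `t : F` the chart coordinate, `chtO A0 {t}` the integral closure of `A0[t]` in `F`,
`V` a valuation subring of `F` inducing the Gauss valuation on `K0(t)`.  Here `V` need NOT be the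
only such valuation subring (bad reduction: two components).

* `ChtSame V t O'` : `O'` has the same trace on `K0(t)` as `V`;
* `cht2_h5` : if `x ∈ O0` and `x / τ` lies in EVERY valuation subring with the trace of `V`,
  then `x / τ ∈ O0`;
* `cht2_h5_pair`, `cht2_hVtau_pair` : the same when these valuation subrings are `V₁` and `V₂`:
  `O0 ∩ m_{V₁} ∩ m_{V₂} = τ O0` (the special fibre of the chart is reduced);
* `cht2_same_inv` : the trace condition for `t` and for `t⁻¹` are the same;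
* `cht2_all` : the chart hypotheses of the abstract core for `O0 = chtO A0 {t}`,
  `O1 = chtO A0 {t⁻¹}` in the two-valuation situation.
-/

set_option autoImplicit false

namespace Fermat.Agent.S34

open Polynomial Fermat.Agent.S18

section Same

variable {K0 F : Type*} [Field K0] [Field F] [Algebra K0 F]

/-- `O'` has the same trace on `K0(t)` as `V`. -/
def ChtSame (K0 : Type*) {F : Type*} [Field K0] [Field F] [Algebra K0 F]
    (V : ValuationSubring F) (t : F) (O' : ValuationSubring F) : Prop :=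
  ∀ p q : K0[X], aeval t q ≠ 0 →
    (aeval t p / aeval t q ∈ O' ↔ aeval t p / aeval t q ∈ V)

theorem chtSame_refl (V : ValuationSubring F) (t : F) : ChtSame K0 V t V :=
  fun _ _ _ => Iff.rfl

/-- The trace condition for `t⁻¹` implies the trace condition for `t`. -/
theorem cht2_same_of_inv (V : ValuationSubring F) (t : F) (ht0 : t ≠ 0) (O' : ValuationSubring F)
    (h : ChtSame K0 V t⁻¹ O') : ChtSame K0 V t O' := by
  intro p q hq
  set N := max p.natDegree q.natDegree with hN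
  have hp' := cht_aeval_inv_reflect (R := K0) t ht0 N p (le_max_left _ _)
  have hq' := cht_aeval_inv_reflect (R := K0) t ht0 N q (le_max_right _ _)
  have key : aeval t p / aeval t q = aeval t⁻¹ (reflect N p) / aeval t⁻¹ (reflect N q) := by
    rw [hp', hq', mul_div_mul_right _ _ (pow_ne_zero _ (inv_ne_zero ht0))]
  rw [key]
  exact h _ _ (by rw [hq']; exact mul_ne_zero hq (pow_ne_zero _ (inv_ne_zero ht0)))

/-- The trace conditions for `t` and `t⁻¹` are equivalent. -/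
theorem cht2_same_inv (V : ValuationSubring F) (t : F) (ht0 : t ≠ 0) (O' : ValuationSubring F) :
    ChtSame K0 V t⁻¹ O' ↔ ChtSame K0 V t O' := by
  refine ⟨cht2_same_of_inv V t ht0 O', fun h => ?_⟩
  have h' : ChtSame K0 V t⁻¹⁻¹ O' := by rwa [inv_inv]
  exact cht2_same_of_inv V t⁻¹ (inv_ne_zero ht0) O' h'

end Same

section Main

variable {A0 K0 F : Type*} [CommRing A0] [IsDomain A0] [IsDiscreteValuationRing A0]
  [Field K0] [Algebra A0 K0] [IsFractionRing A0 K0]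
  [Field F] [Algebra A0 F] [Algebra K0 F] [IsScalarTower A0 K0 F]

/-- (h5) without uniqueness: if `x ∈ O0` and `x / τ` lies in every valuation subring of `F` with
the trace of `V` on `K0(t)`, then `x / τ ∈ O0`. -/
theorem cht2_h5 (V : ValuationSubring F) (hA : ∀ a : A0, algebraMap A0 F a ∈ V)
    {τ : A0} (hτ : Irreducible τ) (hτV : algebraMap A0 F τ ∈ V.nonunits) (t : F)
    (ht : Transcendental K0 t)
    (hG : ∀ p : A0[X], (∃ i, ¬ τ ∣ p.coeff i) → aeval t p ∉ V.nonunits)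
    (hfin : ∃ (n : ℕ) (β : Fin n → F), ∀ x : F, ∃ (a : Fin n → A0[X]) (d : A0[X]),
      aeval t d ≠ 0 ∧ aeval t d * x = ∑ i, aeval t (a i) * β i)
    {x : F} (hx : x ∈ chtO A0 {t})
    (hxV : ∀ O' : ValuationSubring F, ChtSame K0 V t O' → x * (algebraMap A0 F τ)⁻¹ ∈ O') :
    x * (algebraMap A0 F τ)⁻¹ ∈ chtO A0 {t} := by
  classical
  let _ : Algebra K0[X] F := (aeval t : K0[X] →ₐ[K0] F).toRingHom.toAlgebra
  have halgK : ∀ p : K0[X], algebraMap K0[X] F p = aeval t p := fun p => rfl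
  have hinj : Function.Injective (algebraMap K0[X] F) := transcendental_iff_injective.mp ht
  have : FaithfulSMul K0[X] F := (faithfulSMul_iff_algebraMap_injective _ _).mpr hinj
  let _ : Algebra (FractionRing K0[X]) F := FractionRing.liftAlgebra K0[X] F
  have : IsScalarTower K0[X] (FractionRing K0[X]) F :=
    FractionRing.isScalarTower_liftAlgebra K0[X] F
  have : FiniteDimensional (FractionRing K0[X]) F := by
    obtain ⟨n, β, hβ⟩ := hfin
    refine ⟨⟨Finset.univ.image β, ?_⟩⟩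
    rw [eq_top_iff]
    intro x _
    obtain ⟨a, d, hd, hx⟩ := hβ x
    have hx' : x = ∑ i, (algebraMap K0[X] (FractionRing K0[X]) ((a i).map (algebraMap A0 K0)) /
        algebraMap K0[X] (FractionRing K0[X]) (d.map (algebraMap A0 K0))) • β i := by
      have h1 : ∀ i, (algebraMap K0[X] (FractionRing K0[X]) ((a i).map (algebraMap A0 K0)) /
          algebraMap K0[X] (FractionRing K0[X]) (d.map (algebraMap A0 K0))) • β i =
          aeval t (a i) * β i / aeval t d := by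
        intro i
        rw [Algebra.smul_def, map_div₀, ← IsScalarTower.algebraMap_apply,
          ← IsScalarTower.algebraMap_apply, halgK, halgK, aeval_map_algebraMap,
          aeval_map_algebraMap]
        ring
      rw [Finset.sum_congr rfl fun i _ => h1 i, ← Finset.sum_div, ← hx]
      field_simp
    rw [hx']
    refine Submodule.sum_mem _ fun i _ => Submodule.smul_mem _ _ (Submodule.subset_span ?_)
    simp
  let _ : Algebra A0[X] K0[X] := (mapRingHom (algebraMap A0 K0)).toAlgebra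
  let _ : Algebra A0[X] F := (aeval t : A0[X] →ₐ[A0] F).toRingHom.toAlgebra
  have : IsScalarTower A0[X] K0[X] F := IsScalarTower.of_algebraMap_eq fun p => by
    show aeval t p = aeval t (p.map (algebraMap A0 K0))
    rw [aeval_map_algebraMap]
  have hxi : IsIntegral A0[X] x := (cht_isIntegral_adjoin_iff t x).mp (cht_mem_iff.mp hx)
  have hxK : IsIntegral K0[X] x := hxi.tower_top
  have hτi : (algebraMap A0 F τ)⁻¹ = algebraMap K0[X] F (C (algebraMap A0 K0 τ)⁻¹) := by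
    rw [halgK, aeval_C, map_inv₀, ← IsScalarTower.algebraMap_apply]
  have hyK : IsIntegral K0[X] (x * (algebraMap A0 F τ)⁻¹) := by
    rw [hτi]
    exact hxK.mul isIntegral_algebraMap
  have hU : ∀ O' : ValuationSubring F,
      (∀ y : FractionRing K0[X], algebraMap (FractionRing K0[X]) F y ∈ O' ↔
        algebraMap (FractionRing K0[X]) F y ∈ V) → x * (algebraMap A0 F τ)⁻¹ ∈ O' := by
    intro O' h
    apply hxV O'
    intro p q _
    have := h (algebraMap K0[X] (FractionRing K0[X]) p / algebraMap K0[X] (FractionRing K0[X]) q)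
    rw [map_div₀, ← IsScalarTower.algebraMap_apply, ← IsScalarTower.algebraMap_apply, halgK,
      halgK] at this
    exact this
  have hR₀ : ∀ r : K0[X], algebraMap K0[X] F r ∈ V →
      ∃ r₀ : A0[X], algebraMap A0[X] K0[X] r₀ = r := by
    intro r hr
    exact cht_gauss V hA hτ hτV t hG r hr
  have hfinal : IsIntegral A0[X] (x * (algebraMap A0 F τ)⁻¹) :=
    valext2_integral (L := FractionRing K0[X]) (R := K0[X]) V (R₀ := A0[X]) hR₀ _ hU hyK
  exact cht_mem_iff.mpr ((cht_isIntegral_adjoin_iff t _).mpr hfinal)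

/-- (h5) for two valuations: if every valuation subring of `F` with the trace of `V₁` on `K0(t)`
is `V₁` or `V₂`, then `x ∈ O0` with `x / τ ∈ V₁ ∩ V₂` has `x / τ ∈ O0`. -/
theorem cht2_h5_pair (V₁ V₂ : ValuationSubring F) (hA : ∀ a : A0, algebraMap A0 F a ∈ V₁)
    {τ : A0} (hτ : Irreducible τ) (hτV : algebraMap A0 F τ ∈ V₁.nonunits) (t : F)
    (ht : Transcendental K0 t)
    (hG : ∀ p : A0[X], (∃ i, ¬ τ ∣ p.coeff i) → aeval t p ∉ V₁.nonunits)
    (hfin : ∃ (n : ℕ) (β : Fin n → F), ∀ x : F, ∃ (a : Fin n → A0[X]) (d : A0[X]),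
      aeval t d ≠ 0 ∧ aeval t d * x = ∑ i, aeval t (a i) * β i)
    (hex : ∀ O' : ValuationSubring F, ChtSame K0 V₁ t O' → O' = V₁ ∨ O' = V₂)
    {x : F} (hx : x ∈ chtO A0 {t}) (h1 : x * (algebraMap A0 F τ)⁻¹ ∈ V₁)
    (h2 : x * (algebraMap A0 F τ)⁻¹ ∈ V₂) :
    x * (algebraMap A0 F τ)⁻¹ ∈ chtO A0 {t} := by
  refine cht2_h5 V₁ hA hτ hτV t ht hG hfin hx fun O' hO' => ?_
  rcases hex O' hO' with rfl | rfl
  · exact h1
  · exact h2

/-- `O0 ∩ m_{V₁} ∩ m_{V₂} = τ O0`: the special fibre of the chart is reduced. -/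
theorem cht2_hVtau_pair (V₁ V₂ : ValuationSubring F) (hA : ∀ a : A0, algebraMap A0 F a ∈ V₁)
    {τ : A0} (hτ : Irreducible τ) (hτV : algebraMap A0 F τ ∈ V₁.nonunits)
    (hτgen₁ : ∀ x ∈ V₁.nonunits, x * (algebraMap A0 F τ)⁻¹ ∈ V₁)
    (hτgen₂ : ∀ x ∈ V₂.nonunits, x * (algebraMap A0 F τ)⁻¹ ∈ V₂) (t : F)
    (ht : Transcendental K0 t)
    (hG : ∀ p : A0[X], (∃ i, ¬ τ ∣ p.coeff i) → aeval t p ∉ V₁.nonunits)
    (hfin : ∃ (n : ℕ) (β : Fin n → F), ∀ x : F, ∃ (a : Fin n → A0[X]) (d : A0[X]),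
      aeval t d ≠ 0 ∧ aeval t d * x = ∑ i, aeval t (a i) * β i)
    (hex : ∀ O' : ValuationSubring F, ChtSame K0 V₁ t O' → O' = V₁ ∨ O' = V₂)
    (x : F) (hx : x ∈ chtO A0 {t}) (hx1 : x ∈ V₁.nonunits) (hx2 : x ∈ V₂.nonunits) :
    ∃ y ∈ chtO A0 {t}, x = algebraMap A0 F τ * y := by
  have hτF : algebraMap A0 F τ ≠ 0 := by
    rw [IsScalarTower.algebraMap_apply A0 K0 F, Ne, map_eq_zero,
      map_eq_zero_iff _ (IsFractionRing.injective A0 K0)]
    exact hτ.ne_zero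
  refine ⟨x * (algebraMap A0 F τ)⁻¹,
    cht2_h5_pair V₁ V₂ hA hτ hτV t ht hG hfin hex hx (hτgen₁ x hx1) (hτgen₂ x hx2), ?_⟩
  field_simp

/-- The exhaustion hypothesis passes from `t` to `t⁻¹`. -/
theorem cht2_hex_inv (V₁ V₂ : ValuationSubring F) (t : F) (ht0 : t ≠ 0)
    (hex : ∀ O' : ValuationSubring F, ChtSame K0 V₁ t O' → O' = V₁ ∨ O' = V₂) :
    ∀ O' : ValuationSubring F, ChtSame K0 V₁ t⁻¹ O' → O' = V₁ ∨ O' = V₂ :=
  fun O' h => hex O' ((cht2_same_inv V₁ t ht0 O').mp h)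

/-- All chart hypotheses for the integral-closure charts `O0 = chtO A0 {t}`,
`O1 = chtO A0 {t⁻¹}` when the Gauss valuation of `K0(t)` has exactly the extensions `V₁`, `V₂`
to `F` (both with `τ` as a uniformizer). -/
theorem cht2_all [CharZero K0] (V₁ V₂ : ValuationSubring F)
    (hA : ∀ a : A0, algebraMap A0 F a ∈ V₁) (hA₂ : ∀ a : A0, algebraMap A0 F a ∈ V₂)
    {τ : A0} (hτ : Irreducible τ) (hτV : algebraMap A0 F τ ∈ V₁.nonunits)
    (hτgen₁ : ∀ x ∈ V₁.nonunits, x * (algebraMap A0 F τ)⁻¹ ∈ V₁)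
    (hτgen₂ : ∀ x ∈ V₂.nonunits, x * (algebraMap A0 F τ)⁻¹ ∈ V₂) (t : F)
    (ht : Transcendental K0 t) (htV : t ∈ V₁) (htV' : t⁻¹ ∈ V₁)
    (htV₂ : t ∈ V₂) (htV₂' : t⁻¹ ∈ V₂)
    (hG : ∀ p : A0[X], (∃ i, ¬ τ ∣ p.coeff i) → aeval t p ∉ V₁.nonunits)
    (hfin : ∃ (n : ℕ) (β : Fin n → F), ∀ x : F, ∃ (a : Fin n → A0[X]) (d : A0[X]),
      aeval t d ≠ 0 ∧ aeval t d * x = ∑ i, aeval t (a i) * β i)
    (hex : ∀ O' : ValuationSubring F, ChtSame K0 V₁ t O' → O' = V₁ ∨ O' = V₂)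
    (hconst : ∀ x : F, IsAlgebraic K0 x → ∃ c : K0, algebraMap K0 F c = x)
    (m : ℕ) (hm : 0 < m) :
    t * t⁻¹ = 1 ∧ t ∈ chtO A0 {t} ∧ t⁻¹ ∈ chtO A0 {t⁻¹} ∧
    (∃ b0 : Finset F, (∀ y ∈ b0, y ∈ chtO A0 {t}) ∧ ∀ y ∈ chtO A0 {t}, y ∈ Submodule.span A0
      (Set.image2 (fun (k : ℕ) (y' : F) => t ^ k * y') Set.univ (b0 : Set F))) ∧
    (∃ b1 : Finset F, (∀ y ∈ b1, y ∈ chtO A0 {t⁻¹}) ∧ ∀ y ∈ chtO A0 {t⁻¹}, y ∈ Submodule.span A0
      (Set.image2 (fun (k : ℕ) (y' : F) => t⁻¹ ^ k * y') Set.univ (b1 : Set F))) ∧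
    (∀ x ∈ chtO A0 {t}, ∃ n : ℕ, x * t⁻¹ ^ n ∈ chtO A0 {t⁻¹}) ∧
    (∀ x ∈ chtO A0 {t⁻¹}, ∃ n : ℕ, x * t ^ n ∈ chtO A0 {t}) ∧
    (∀ x : F, ∃ a ∈ chtO A0 {t}, ∃ s ∈ chtO A0 {t}, s ≠ 0 ∧ x * s = a) ∧
    (∀ z : F, z ^ m ∈ chtO A0 {t} → z ∈ chtO A0 {t}) ∧
    (∀ z : F, z ^ m ∈ chtO A0 {t⁻¹} → z ∈ chtO A0 {t⁻¹}) ∧
    (∀ x ∈ chtO A0 {t}, x ∈ chtO A0 {t⁻¹} → x ∈ Set.range (algebraMap A0 F)) ∧
    (∀ x ∈ chtO A0 {t}, x ∈ V₁ ∧ x ∈ V₂) ∧ (∀ x ∈ chtO A0 {t⁻¹}, x ∈ V₁ ∧ x ∈ V₂) ∧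
    (∀ x ∈ chtO A0 {t}, x * (algebraMap A0 F τ)⁻¹ ∈ V₁ → x * (algebraMap A0 F τ)⁻¹ ∈ V₂ →
      x * (algebraMap A0 F τ)⁻¹ ∈ chtO A0 {t}) ∧
    (∀ x ∈ chtO A0 {t⁻¹}, x * (algebraMap A0 F τ)⁻¹ ∈ V₁ → x * (algebraMap A0 F τ)⁻¹ ∈ V₂ →
      x * (algebraMap A0 F τ)⁻¹ ∈ chtO A0 {t⁻¹}) ∧
    (∀ x ∈ chtO A0 {t}, x ∈ V₁.nonunits → x ∈ V₂.nonunits →
      ∃ y ∈ chtO A0 {t}, x = algebraMap A0 F τ * y) ∧
    (∀ x ∈ chtO A0 {t⁻¹}, x ∈ V₁.nonunits → x ∈ V₂.nonunits →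
      ∃ y ∈ chtO A0 {t⁻¹}, x = algebraMap A0 F τ * y) := by
  have ht0 : t ≠ 0 := by
    rintro rfl
    exact ht (isAlgebraic_zero)
  have : CharZero A0 := (algebraMap A0 K0).charZero
  have htA : Transcendental A0 t := fun h =>
    ht (h.extendScalars (IsFractionRing.injective A0 K0))
  have ht' : Transcendental K0 t⁻¹ := fun h => ht (IsAlgebraic.inv_iff.mp h)
  have htA' : Transcendental A0 t⁻¹ := fun h =>
    ht' (h.extendScalars (IsFractionRing.injective A0 K0))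
  have hV0 : ∀ x ∈ chtO A0 {t}, x ∈ V₁ ∧ x ∈ V₂ := fun x hx =>
    ⟨cht_le_valuationSubring V₁ hA (s := {t}) (by rintro y rfl; exact htV) hx,
      cht_le_valuationSubring V₂ hA₂ (s := {t}) (by rintro y rfl; exact htV₂) hx⟩
  have hV1 : ∀ x ∈ chtO A0 {t⁻¹}, x ∈ V₁ ∧ x ∈ V₂ := fun x hx =>
    ⟨cht_le_valuationSubring V₁ hA (s := {t⁻¹}) (by rintro y rfl; exact htV') hx,
      cht_le_valuationSubring V₂ hA₂ (s := {t⁻¹}) (by rintro y rfl; exact htV₂') hx⟩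
  have hfin' := cht_hfin_inv (R := A0) t ht0 hfin
  have hG' := cht_hG_inv V₁ τ t ht0 htV hG
  have hex' := cht2_hex_inv (K0 := K0) V₁ V₂ t ht0 hex
  refine ⟨mul_inv_cancel₀ ht0, (cht_h1 t).1, (cht_h1 t).2, cht_h4 t htA hfin,
    cht_h4 t⁻¹ htA' hfin', ?_, ?_, cht_hfrac t htA hfin, fun z hz => cht_h3 _ hm hz,
    fun z hz => cht_h3 _ hm hz, ?_, hV0, hV1, ?_, ?_, ?_, ?_⟩
  · intro x hx
    exact (cht_h2' t ht0 x).mp (cht_mono (by simp) hx)
  · intro x hx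
    exact (cht_h2 t ht0 x).mp (cht_mono (by simp) hx)
  · intro x h0 h1
    exact cht_h8 (K0 := K0) V₁ hA hτ hτV t hconst h0 h1 (hV0 x h0).1
  · intro x hx h1 h2
    exact cht2_h5_pair V₁ V₂ hA hτ hτV t ht hG hfin hex hx h1 h2
  · intro x hx h1 h2
    exact cht2_h5_pair V₁ V₂ hA hτ hτV t⁻¹ ht' hG' hfin' hex' hx h1 h2
  · intro x hx h1 h2
    exact cht2_hVtau_pair V₁ V₂ hA hτ hτV hτgen₁ hτgen₂ t ht hG hfin hex x hx h1 h2
  · intro x hx h1 h2
    exact cht2_hVtau_pair V₁ V₂ hA hτ hτV hτgen₁ hτgen₂ t⁻¹ ht' hG' hfin' hex' x hx h1 h2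

end Main

end Fermat.Agent.S34
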