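import Mathlib
import Fermat.Agent.S18.CoreInst
import Fermat.Agent.S34.Charts2

/-!
# S34, package B [CHART2], instantiation: the Hauptmodul charts at an arbitrary level

`K0` a field of characteristic zero, `A0` a discrete valuation subring of `K0`, `N` ANY level
divisible by the level `a2` of a Hauptmodul record `H` (no hypothesis that the residue
characteristic is prime to `N`), `F` the level-`N` function field over `K0`, `V₁` the Gauss
valuation ring of `F` (any valuation subring with `x ∈ V₁ ↔ (x : K0((q))) ∈ grV A0`; e.g.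
`graOf (gra_decomp_dvr A0 N)` or `cinstVG`), `t ∈ F` the chart coordinate `(h - c1) / (h - c0)`
with `c0, c1 ∈ A0` of distinct residues.

* `c2i_span_j`: `F` is finite over `K0(j)` (a finite spanning family; from `gr_relrank_le`);
* `c2i_hyps`: the hypotheses of `cht2_all` which concern `V₁` only
  (`hA`, `hτV`, `hτgen₁`, transcendence, `t, t⁻¹ ∈ V₁`, `hG`, `hfin`, `hconst`);
* `c2i_chart`: the conclusion of `cht2_all` for the charts `chtO A0 {t}`, `chtO A0 {t⁻¹}`, given
  a second valuation subring `V₂` (`A0 ⊆ V₂`, `𝔪_{V₂} = τ V₂`, `t, t⁻¹ ∈ V₂`) and exhaustiveness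
  (`hex`: every valuation subring of `F` with the trace of `V₁` on `K0(t)` is `V₁` or `V₂`).

Names are prefixed `c2i_`.
-/

set_option autoImplicit false
set_option linter.unusedSectionVars false

noncomputable section

open ModularCurve Polynomial
open Fermat.Agent.S28 Fermat.Agent.S18
open scoped IntermediateField

namespace Fermat.Agent.S34

section Span

variable (K : Type*) [Field K] [Algebra ℚ K] (N : ℕ) [NeZero N]

/-- The level-`N` function field over `K` is spanned over `K(j)` by finitely many elements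
(series level). -/
theorem c2i_span_series :
    ∃ (n : ℕ) (y : Fin n → LaurentSeries K),
      (∀ i, y i ∈ laurentBaseChange K (modularFunctionFieldFull N)) ∧
      ∀ w ∈ laurentBaseChange K (modularFunctionFieldFull N),
        ∃ a : Fin n → LaurentSeries K, (∀ i, a i ∈ K⟮jqModC K⟯) ∧ w = ∑ i, a i * y i := by
  classical
  have h := gr_adjoin_le_base (K := K) N
  set T : Submodule ↥K⟮jqModC K⟯ (LaurentSeries K) :=
    (IntermediateField.extendScalars h).toSubmodule with hT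
  have hrank : Module.rank ↥K⟮jqModC K⟯ T ≤ (psi N : Cardinal) := by
    have h1 := gr_relrank_le (K := K) N
    rwa [IntermediateField.relrank_eq_rank_of_le h] at h1
  have hfinT : Module.Finite ↥K⟮jqModC K⟯ T :=
    Module.rank_lt_aleph0_iff.mp (hrank.trans_lt (Cardinal.natCast_lt_aleph0))
  let B := Module.finBasis ↥K⟮jqModC K⟯ T
  refine ⟨Module.finrank ↥K⟮jqModC K⟯ T, fun i => ((B i : T) : LaurentSeries K),
    fun i => (B i).2, fun w hw => ?_⟩
  have hwT : w ∈ T := hw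
  refine ⟨fun i => ((B.repr ⟨w, hwT⟩ i : ↥K⟮jqModC K⟯) : LaurentSeries K),
    fun i => (B.repr ⟨w, hwT⟩ i).2, ?_⟩
  have h1 := B.sum_repr ⟨w, hwT⟩
  have h2 := congrArg (fun z : T => (z : LaurentSeries K)) h1
  simp only [Submodule.coe_sum, Submodule.coe_smul] at h2
  refine h2.symm.trans ?_
  exact Finset.sum_congr rfl fun i _ => (Algebra.smul_def _ _)

/-- The level-`N` function field over `K` is spanned over `K(j)` by finitely many elements. -/
theorem c2i_span_j :
    ∃ (n : ℕ) (b : Fin n → ↥(laurentBaseChange K (modularFunctionFieldFull N))),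
      ∀ x : ↥(laurentBaseChange K (modularFunctionFieldFull N)),
        ∃ a : Fin n → ↥K⟮grJ K N⟯,
          x = ∑ i, algebraMap ↥K⟮grJ K N⟯
            ↥(laurentBaseChange K (modularFunctionFieldFull N)) (a i) * b i := by
  obtain ⟨n, y, hyF, hspan⟩ := c2i_span_series K N
  refine ⟨n, fun i => ⟨y i, hyF i⟩, fun x => ?_⟩
  obtain ⟨a', ha', hx⟩ := hspan (x : LaurentSeries K) x.2
  have hex := fun i => gr_exists_of_mem_adjoin N (a' i) (ha' i)
  choose a₀ ha₀ ha₀' using hex
  refine ⟨fun i => ⟨a₀ i, ha₀ i⟩, Subtype.ext ?_⟩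
  rw [hx, gr_coe_sum]
  refine Finset.sum_congr rfl fun i _ => ?_
  rw [← ha₀' i]
  rfl

end Span

section Main

variable {K0 : Type*} [Field K0] [Algebra ℚ K0] (A0 : ValuationSubring K0)
  [IsDiscreteValuationRing A0] (N : ℕ) [NeZero N]
  {a2 ℓ : ℕ} [Fact ℓ.Prime] (H : HauptRec a2 ℓ)

/-- The hypotheses of `cht2_all` concerning the Gauss valuation ring `V₁` and the chart
coordinate `t`, at an arbitrary level `N`. -/
theorem c2i_hyps
    [Algebra A0 ↥(laurentBaseChange K0 (modularFunctionFieldFull N))]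
    [IsScalarTower A0 K0 ↥(laurentBaseChange K0 (modularFunctionFieldFull N))]
    (V₁ : ValuationSubring ↥(laurentBaseChange K0 (modularFunctionFieldFull N)))
    (hVG : ∀ x : ↥(laurentBaseChange K0 (modularFunctionFieldFull N)),
      x ∈ V₁ ↔ (x : LaurentSeries K0) ∈ grV A0)
    (c0 c1 : A0) (hc : IsLocalRing.residue A0 c0 ≠ IsLocalRing.residue A0 c1)
    (t : ↥(laurentBaseChange K0 (modularFunctionFieldFull N)))
    (ht : (t : LaurentSeries K0) = cinstU H K0 (c0 : K0) (c1 : K0))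
    (τ : A0) (hτ : Irreducible τ) :
    (∀ a : A0, algebraMap A0 ↥(laurentBaseChange K0 (modularFunctionFieldFull N)) a ∈ V₁) ∧
    algebraMap A0 ↥(laurentBaseChange K0 (modularFunctionFieldFull N)) τ ∈ V₁.nonunits ∧
    (∀ x ∈ V₁.nonunits,
      x * (algebraMap A0 ↥(laurentBaseChange K0 (modularFunctionFieldFull N)) τ)⁻¹ ∈ V₁) ∧
    Transcendental K0 t ∧ t ∈ V₁ ∧ t⁻¹ ∈ V₁ ∧
    (∀ p : A0[X], (∃ i, ¬ τ ∣ p.coeff i) → aeval t p ∉ V₁.nonunits) ∧
    (∃ (n : ℕ) (β : Fin n → ↥(laurentBaseChange K0 (modularFunctionFieldFull N))),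
      ∀ x : ↥(laurentBaseChange K0 (modularFunctionFieldFull N)),
        ∃ (a : Fin n → A0[X]) (d : A0[X]),
          aeval t d ≠ 0 ∧ aeval t d * x = ∑ i, aeval t (a i) * β i) ∧
    (∀ x : ↥(laurentBaseChange K0 (modularFunctionFieldFull N)), IsAlgebraic K0 x →
      ∃ c : K0, algebraMap K0 ↥(laurentBaseChange K0 (modularFunctionFieldFull N)) c = x) := by
  classical
  have : CharZero K0 := algebraRat.charZero K0
  have hgdv : ∀ x ∈ laurentBaseChange K0 (modularFunctionFieldFull N), gdvProp A0 x :=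
    fun x hx => gdv_full_le A0 N hx
  have hmap : ∀ a : A0, algebraMap A0 ↥(laurentBaseChange K0 (modularFunctionFieldFull N)) a =
      algebraMap K0 ↥(laurentBaseChange K0 (modularFunctionFieldFull N)) (a : K0) := fun a =>
    IsScalarTower.algebraMap_apply A0 K0 ↥(laurentBaseChange K0 (modularFunctionFieldFull N)) a
  have hτmax : τ ∈ IsLocalRing.maximalIdeal A0 := by
    rw [IsLocalRing.mem_maximalIdeal, mem_nonunits_iff]
    exact hτ.not_isUnit
  have hA : ∀ a : A0,
      algebraMap A0 ↥(laurentBaseChange K0 (modularFunctionFieldFull N)) a ∈ V₁ := fun a => by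
    rw [hmap]
    exact (cinst_algebraMap_mem_iff V₁ hVG _).mpr a.2
  have hτV : algebraMap A0 ↥(laurentBaseChange K0 (modularFunctionFieldFull N)) τ ∈
      V₁.nonunits := by
    rw [hmap]
    exact cinst_algebraMap_mem_nonunits V₁ hVG τ hτmax
  have hτF : algebraMap A0 ↥(laurentBaseChange K0 (modularFunctionFieldFull N)) τ ≠ 0 := by
    rw [hmap, Ne, map_eq_zero]
    intro h0
    exact hτ.ne_zero (Subtype.ext h0)
  have hτgen : ∀ x ∈ V₁.nonunits,
      x * (algebraMap A0 ↥(laurentBaseChange K0 (modularFunctionFieldFull N)) τ)⁻¹ ∈ V₁ := by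
    intro x hx
    obtain ⟨y, hy, hxy⟩ := cinst_nonunits_eq_mul V₁ hVG hgdv τ hτ.maximalIdeal_eq x hx
    rw [hxy, ← hmap, mul_comm, ← mul_assoc, inv_mul_cancel₀ hτF, one_mul]
    exact hy
  have hc' : (c0 : K0) ≠ (c1 : K0) := by
    intro h0
    apply hc
    rw [Subtype.ext h0]
  have htt : Transcendental K0 t := cinst_transcendental_t N H _ _ hc' t ht
  have htV : t ∈ V₁ := by
    rw [hVG, ht]
    exact cinstU_mem_grV H A0 c0 c1
  have htV' : t⁻¹ ∈ V₁ := by
    rw [hVG, IntermediateField.coe_inv, ht]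
    exact cinstU_inv_mem_grV H A0 c0 c1
  have hres : Transcendental (IsLocalRing.ResidueField A0)
      (cinstU H (IsLocalRing.ResidueField A0) (IsLocalRing.residue A0 c0)
        (IsLocalRing.residue A0 c1)) :=
    cinstU_transcendental H _ _ _ hc
  have hG : ∀ p : A0[X], (∃ i, ¬ τ ∣ p.coeff i) → aeval t p ∉ V₁.nonunits := by
    rintro p ⟨i, hi⟩ hmem
    rw [cinst_mem_nonunits_iff V₁ hVG] at hmem
    obtain ⟨hmemV, hρ⟩ := hmem
    have hcoe : ((aeval t p : ↥(laurentBaseChange K0 (modularFunctionFieldFull N))) :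
        LaurentSeries K0) = aeval (cinstU H K0 (c0 : K0) (c1 : K0)) (p.map A0.subtype) := by
      rw [← ht, aeval_def, aeval_def, eval₂_map]
      have h1 := Polynomial.hom_eval₂ p
        (algebraMap A0 ↥(laurentBaseChange K0 (modularFunctionFieldFull N)))
        (laurentBaseChange K0 (modularFunctionFieldFull N)).val.toRingHom t
      refine h1.trans ?_
      congr 1
      refine RingHom.ext fun a => ?_
      show ((algebraMap A0 ↥(laurentBaseChange K0 (modularFunctionFieldFull N)) a :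
        ↥(laurentBaseChange K0 (modularFunctionFieldFull N))) : LaurentSeries K0) = _
      rw [hmap]
      rfl
    have hρ' := gab_rho_aeval (gr_gabHyp A0) ⟨cinstU H K0 (c0 : K0) (c1 : K0),
      cinstU_mem_grV H A0 c0 c1⟩ p
    rw [cinstU_grRho] at hρ'
    have hzero : aeval (cinstU H (IsLocalRing.ResidueField A0) (IsLocalRing.residue A0 c0)
        (IsLocalRing.residue A0 c1)) (p.map (IsLocalRing.residue A0)) = 0 := by
      rw [← hρ', ← hρ]
      congr 1
      exact Subtype.ext hcoe.symm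
    have hp0 : p.map (IsLocalRing.residue A0) = 0 := by
      by_contra hne
      exact hres ⟨_, hne, hzero⟩
    have hci : IsLocalRing.residue A0 (p.coeff i) = 0 := by
      rw [← coeff_map, hp0, coeff_zero]
    rw [IsLocalRing.residue_eq_zero_iff, hτ.maximalIdeal_eq, Ideal.mem_span_singleton] at hci
    exact hi hci
  have hL := cinst_adjoin_grJ_le N H _ _ hc' t ht
  obtain ⟨n, b, hspan⟩ := c2i_span_j K0 N
  have hfin := cht_hfin_of_span (A0 := A0) (K0 := K0) (L := ↥K0⟮grJ K0 N⟯) t htt hL b hspan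
  have hconst : ∀ x : ↥(laurentBaseChange K0 (modularFunctionFieldFull N)), IsAlgebraic K0 x →
      ∃ c : K0, algebraMap K0 ↥(laurentBaseChange K0 (modularFunctionFieldFull N)) c = x :=
    cht_hconst_intermediateField (laurentBaseChange K0 (modularFunctionFieldFull N))
  exact ⟨hA, hτV, hτgen, htt, htV, htV', hG, hfin, hconst⟩

/-- **B-INST.**  The chart bundle (conclusion of `cht2_all`) for the Hauptmodul charts at an
arbitrary level `N`, given the second valuation subring `V₂` and exhaustiveness. -/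
theorem c2i_chart
    [Algebra A0 ↥(laurentBaseChange K0 (modularFunctionFieldFull N))]
    [IsScalarTower A0 K0 ↥(laurentBaseChange K0 (modularFunctionFieldFull N))]
    (V₁ V₂ : ValuationSubring ↥(laurentBaseChange K0 (modularFunctionFieldFull N)))
    (hVG : ∀ x : ↥(laurentBaseChange K0 (modularFunctionFieldFull N)),
      x ∈ V₁ ↔ (x : LaurentSeries K0) ∈ grV A0)
    (c0 c1 : A0) (hc : IsLocalRing.residue A0 c0 ≠ IsLocalRing.residue A0 c1)
    (t : ↥(laurentBaseChange K0 (modularFunctionFieldFull N)))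
    (ht : (t : LaurentSeries K0) = cinstU H K0 (c0 : K0) (c1 : K0))
    (τ : A0) (hτ : Irreducible τ)
    (hA₂ : ∀ a : A0, algebraMap A0 ↥(laurentBaseChange K0 (modularFunctionFieldFull N)) a ∈ V₂)
    (hτgen₂ : ∀ x ∈ V₂.nonunits,
      x * (algebraMap A0 ↥(laurentBaseChange K0 (modularFunctionFieldFull N)) τ)⁻¹ ∈ V₂)
    (htV₂ : t ∈ V₂) (htV₂' : t⁻¹ ∈ V₂)
    (hex : ∀ O' : ValuationSubring ↥(laurentBaseChange K0 (modularFunctionFieldFull N)),
      ChtSame K0 V₁ t O' → O' = V₁ ∨ O' = V₂)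
    (m : ℕ) (hm : 0 < m) :
    t * t⁻¹ = 1 ∧ t ∈ chtO A0 {t} ∧ t⁻¹ ∈ chtO A0 {t⁻¹} ∧
    (∃ b0 : Finset ↥(laurentBaseChange K0 (modularFunctionFieldFull N)),
      (∀ y ∈ b0, y ∈ chtO A0 {t}) ∧ ∀ y ∈ chtO A0 {t}, y ∈ Submodule.span A0
      (Set.image2 (fun (k : ℕ) (y' : ↥(laurentBaseChange K0 (modularFunctionFieldFull N))) =>
        t ^ k * y') Set.univ (b0 : Set ↥(laurentBaseChange K0 (modularFunctionFieldFull N))))) ∧
    (∃ b1 : Finset ↥(laurentBaseChange K0 (modularFunctionFieldFull N)),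
      (∀ y ∈ b1, y ∈ chtO A0 {t⁻¹}) ∧ ∀ y ∈ chtO A0 {t⁻¹}, y ∈ Submodule.span A0
      (Set.image2 (fun (k : ℕ) (y' : ↥(laurentBaseChange K0 (modularFunctionFieldFull N))) =>
        t⁻¹ ^ k * y') Set.univ (b1 : Set ↥(laurentBaseChange K0 (modularFunctionFieldFull N))))) ∧
    (∀ x ∈ chtO A0 {t}, ∃ n : ℕ, x * t⁻¹ ^ n ∈ chtO A0 {t⁻¹}) ∧
    (∀ x ∈ chtO A0 {t⁻¹}, ∃ n : ℕ, x * t ^ n ∈ chtO A0 {t}) ∧
    (∀ x : ↥(laurentBaseChange K0 (modularFunctionFieldFull N)),
      ∃ a ∈ chtO A0 {t}, ∃ s ∈ chtO A0 {t}, s ≠ 0 ∧ x * s = a) ∧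
    (∀ z : ↥(laurentBaseChange K0 (modularFunctionFieldFull N)),
      z ^ m ∈ chtO A0 {t} → z ∈ chtO A0 {t}) ∧
    (∀ z : ↥(laurentBaseChange K0 (modularFunctionFieldFull N)),
      z ^ m ∈ chtO A0 {t⁻¹} → z ∈ chtO A0 {t⁻¹}) ∧
    (∀ x ∈ chtO A0 {t}, x ∈ chtO A0 {t⁻¹} →
      x ∈ Set.range (algebraMap A0 ↥(laurentBaseChange K0 (modularFunctionFieldFull N)))) ∧
    (∀ x ∈ chtO A0 {t}, x ∈ V₁ ∧ x ∈ V₂) ∧ (∀ x ∈ chtO A0 {t⁻¹}, x ∈ V₁ ∧ x ∈ V₂) ∧
    (∀ x ∈ chtO A0 {t},
      x * (algebraMap A0 ↥(laurentBaseChange K0 (modularFunctionFieldFull N)) τ)⁻¹ ∈ V₁ →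
      x * (algebraMap A0 ↥(laurentBaseChange K0 (modularFunctionFieldFull N)) τ)⁻¹ ∈ V₂ →
      x * (algebraMap A0 ↥(laurentBaseChange K0 (modularFunctionFieldFull N)) τ)⁻¹ ∈
        chtO A0 {t}) ∧
    (∀ x ∈ chtO A0 {t⁻¹},
      x * (algebraMap A0 ↥(laurentBaseChange K0 (modularFunctionFieldFull N)) τ)⁻¹ ∈ V₁ →
      x * (algebraMap A0 ↥(laurentBaseChange K0 (modularFunctionFieldFull N)) τ)⁻¹ ∈ V₂ →
      x * (algebraMap A0 ↥(laurentBaseChange K0 (modularFunctionFieldFull N)) τ)⁻¹ ∈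
        chtO A0 {t⁻¹}) ∧
    (∀ x ∈ chtO A0 {t}, x ∈ V₁.nonunits → x ∈ V₂.nonunits →
      ∃ y ∈ chtO A0 {t},
        x = algebraMap A0 ↥(laurentBaseChange K0 (modularFunctionFieldFull N)) τ * y) ∧
    (∀ x ∈ chtO A0 {t⁻¹}, x ∈ V₁.nonunits → x ∈ V₂.nonunits →
      ∃ y ∈ chtO A0 {t⁻¹},
        x = algebraMap A0 ↥(laurentBaseChange K0 (modularFunctionFieldFull N)) τ * y) := by
  have : CharZero K0 := algebraRat.charZero K0
  obtain ⟨hA, hτV, hτgen, htt, htV, htV', hG, hfin, hconst⟩ :=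
    c2i_hyps A0 N H V₁ hVG c0 c1 hc t ht τ hτ
  exact cht2_all (K0 := K0) V₁ V₂ hA hA₂ hτ hτV hτgen hτgen₂ t htt htV htV' htV₂ htV₂' hG hfin
    hex hconst m hm

end Main

end Fermat.Agent.S34
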