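import Mathlib

/-!
# S34, leaf CUSP-ABS: cuspidal closed points are not crossing points (abstract half)

Setting (as in `s34ia_main`): a chart `O : Subalgebra A F` of a field `F`, integrally closed
in `F`, two valuation subrings `V₁`, `V₂` of `F` containing `O` (the two components of the
special fibre: `p_i = O ∩ 𝔪_{V_i}`), and a prime ideal `𝔫` of `O`.

Let `J`, `Jq ∈ F` (in the application `J = j`, `Jq = j(q^ℓ)`) with

* `J⁻¹ ∈ V₁ ∩ V₂`,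
* `Jq - J ^ ℓ ∈ 𝔪_{V₁}` and `J - Jq ^ ℓ ∈ 𝔪_{V₂}` (Kronecker congruences),
* `z = Jq * J⁻¹ ^ ℓ` integral over the subring generated by `J⁻¹` (a characteristic-zero
  fact about all cusps at once: leaf CUSP-Z).

Then a point `𝔫` which is cuspidal (`J⁻¹ ∈ 𝔫 O_𝔫`) cannot contain both `p₁` and `p₂`:
`z ∈ O_𝔫`, `z - 1 = (Jq - J^ℓ) J⁻¹^ℓ ∈ p₁ O_𝔫` and
`J⁻¹^(ℓ²-1) - z^ℓ = (J - Jq^ℓ) J⁻¹^(ℓ²) ∈ p₂ O_𝔫`, so `z ≡ 1` and `z^ℓ ≡ 0` modulo `𝔫 O_𝔫`.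

* `cpa_mem_loc_of_isIntegral`: an element of `F` integral over a subring of `O_𝔫` lies in
  `O_𝔫` (elementwise form, `O` integrally closed in `F`).
* `cpa_closure_le_loc`: the subring generated by a subset of `O_𝔫` lies in `O_𝔫`.
* `cpa_not_crossing`: the statement above.
* `cpa_not_crossing'`: the same in the form `D * J⁻¹ = N`, `N ∈ 𝔫` ⟹ `D ∈ 𝔫`.
* `cpa_coprime_notMem`: polynomials coprime modulo `τ` do not both vanish at a point of the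
  special fibre.
-/

set_option autoImplicit false

open Polynomial

namespace Fermat.Agent.S34

section CuspAbs

variable {A F : Type*} [CommRing A] [Field F] [Algebra A F]

theorem cpa_nonunits_mul (V : ValuationSubring F) {x y : F} (hx : x ∈ V.nonunits) (hy : y ∈ V) :
    x * y ∈ V.nonunits := by
  rw [ValuationSubring.mem_nonunits_iff, map_mul] at *
  have h2 := (V.valuation_le_one_iff _).mpr hy
  exact lt_of_le_of_lt (mul_le_of_le_one_right' h2) hx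

/-- The subring generated by a subset of `O_𝔫` lies in `O_𝔫` (elementwise). -/
theorem cpa_closure_le_loc (O : Subalgebra A F) (𝔫 : Ideal ↥O) [𝔫.IsPrime] (S : Set F)
    (hS : ∀ r ∈ S, ∃ s a : ↥O, s ∉ 𝔫 ∧ (s : F) * r = a) :
    ∀ r ∈ Subring.closure S, ∃ s a : ↥O, s ∉ 𝔫 ∧ (s : F) * r = a := by
  have h1 : (1 : ↥O) ∉ 𝔫 := fun h => (inferInstance : 𝔫.IsPrime).ne_top
    ((Ideal.eq_top_iff_one 𝔫).mpr h)
  intro r hr
  induction hr using Subring.closure_induction with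
  | mem x hx => exact hS x hx
  | zero => exact ⟨1, 0, h1, by simp⟩
  | one => exact ⟨1, 1, h1, by simp⟩
  | add x y _ _ hx hy =>
    obtain ⟨s1, a1, hs1, e1⟩ := hx
    obtain ⟨s2, a2, hs2, e2⟩ := hy
    refine ⟨s1 * s2, a1 * s2 + s1 * a2, fun h => ?_, ?_⟩
    · exact ((inferInstance : 𝔫.IsPrime).mem_or_mem h).elim hs1 hs2
    · push_cast
      rw [← e1, ← e2]
      ring
  | neg x _ hx =>
    obtain ⟨s1, a1, hs1, e1⟩ := hx
    refine ⟨s1, -a1, hs1, ?_⟩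
    push_cast
    rw [← e1]
    ring
  | mul x y _ _ hx hy =>
    obtain ⟨s1, a1, hs1, e1⟩ := hx
    obtain ⟨s2, a2, hs2, e2⟩ := hy
    refine ⟨s1 * s2, a1 * a2, fun h => ?_, ?_⟩
    · exact ((inferInstance : 𝔫.IsPrime).mem_or_mem h).elim hs1 hs2
    · push_cast
      rw [← e1, ← e2]
      ring

/-- `O_𝔫` is integrally closed in `F` (elementwise form): an element integral over a subring
of `F` all of whose elements lie in `O_𝔫` lies in `O_𝔫`. -/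
theorem cpa_mem_loc_of_isIntegral (O : Subalgebra A F) (𝔫 : Ideal ↥O) [𝔫.IsPrime]
    (hint : ∀ x : F, IsIntegral ↥O x → x ∈ O)
    (R : Subring F) (hR : ∀ r ∈ R, ∃ s a : ↥O, s ∉ 𝔫 ∧ (s : F) * r = a)
    (z : F) (hz : IsIntegral ↥R z) :
    ∃ s a : ↥O, s ∉ 𝔫 ∧ (s : F) * z = a := by
  classical
  obtain ⟨p, hpm, hpz⟩ := hz
  choose! sfun afun hsfun using hR
  set p' : F[X] := p.map (algebraMap ↥R F) with hp'
  have hp'm : p'.Monic := hpm.map _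
  have hp'z : aeval z p' = 0 := by
    rw [hp', aeval_map_algebraMap]
    exact hpz
  have hcoeffR : ∀ i, p'.coeff i ∈ R := by
    intro i
    rw [hp', coeff_map]
    exact (p.coeff i).2
  set s : ↥O := ∏ i ∈ Finset.range p'.natDegree, sfun (p'.coeff i) with hs_def
  have hs : s ∉ 𝔫 := by
    intro h
    rw [hs_def, Ideal.IsPrime.prod_mem_iff] at h
    obtain ⟨i, -, hi⟩ := h
    exact (hsfun _ (hcoeffR i)).1 hi
  have hcoef : ∀ i ∈ Finset.range p'.natDegree, (s : F) * p'.coeff i ∈ O := by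
    intro i hi
    obtain ⟨c, hc⟩ := Finset.dvd_prod_of_mem (fun i => sfun (p'.coeff i)) hi
    have e : (s : F) * p'.coeff i = (c : F) * ((sfun (p'.coeff i) : F) * p'.coeff i) := by
      rw [hs_def, hc]
      push_cast
      ring
    rw [e, (hsfun _ (hcoeffR i)).2]
    exact (c * afun (p'.coeff i)).2
  set q : F[X] := scaleRoots p' (s : F) with hq
  have hqm : q.Monic := (monic_scaleRoots_iff _).mpr hp'm
  have hqz : aeval ((s : F) * z) q = 0 := by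
    have := scaleRoots_aeval_eq_zero (R := F) (A := F) (p := p') (a := z) (r := (s : F)) hp'z
    simpa using this
  have hlift : q ∈ lifts (algebraMap ↥O F) := by
    rw [lifts_iff_coeff_lifts]
    intro i
    rw [hq, coeff_scaleRoots]
    rcases lt_trichotomy i p'.natDegree with hi | hi | hi
    · obtain ⟨k, hk⟩ : ∃ k, p'.natDegree - i = k + 1 := ⟨p'.natDegree - i - 1, by omega⟩
      have e : p'.coeff i * (s : F) ^ (p'.natDegree - i) =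
          ((s : F) * p'.coeff i) * (s : F) ^ k := by
        rw [hk, pow_succ]
        ring
      rw [e]
      exact ⟨⟨_, hcoef i (Finset.mem_range.mpr hi)⟩ * s ^ k, by
        rw [map_mul, map_pow]; rfl⟩
    · subst hi
      rw [hp'm.coeff_natDegree, Nat.sub_self, pow_zero, mul_one]
      exact ⟨1, map_one _⟩
    · rw [coeff_eq_zero_of_natDegree_lt hi, zero_mul]
      exact ⟨0, map_zero _⟩
  obtain ⟨q', hq'map, -, hq'm⟩ := lifts_and_natDegree_eq_and_monic hlift hqm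
  have hint' : IsIntegral ↥O ((s : F) * z) := by
    refine ⟨q', hq'm, ?_⟩
    rw [← aeval_def, ← aeval_map_algebraMap F, hq'map]
    exact hqz
  exact ⟨s, ⟨_, hint _ hint'⟩, hs, rfl⟩

/-- **CUSP-ABS.**  A cuspidal point is not a crossing point of the two components. -/
theorem cpa_not_crossing (O : Subalgebra A F) (𝔫 : Ideal ↥O) [𝔫.IsPrime]
    (V₁ V₂ : ValuationSubring F) (hO₁ : ∀ x ∈ O, x ∈ V₁) (hO₂ : ∀ x ∈ O, x ∈ V₂)
    (hint : ∀ x : F, IsIntegral ↥O x → x ∈ O)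
    (ℓ : ℕ) (hℓ : 2 ≤ ℓ) (J Jq : F) (hJ0 : J ≠ 0) (hJ₁ : J⁻¹ ∈ V₁) (hJ₂ : J⁻¹ ∈ V₂)
    (h₁ : Jq - J ^ ℓ ∈ V₁.nonunits) (h₂ : J - Jq ^ ℓ ∈ V₂.nonunits)
    (hz : IsIntegral ↥(Subring.closure ({J⁻¹} : Set F)) (Jq * J⁻¹ ^ ℓ))
    (hc₁ : ∀ x : ↥O, (x : F) ∈ V₁.nonunits → x ∈ 𝔫)
    (hc₂ : ∀ x : ↥O, (x : F) ∈ V₂.nonunits → x ∈ 𝔫) :
    ¬ ∃ s b : ↥O, s ∉ 𝔫 ∧ b ∈ 𝔫 ∧ (s : F) * J⁻¹ = b := by
  rintro ⟨s', b, hs', hb, hsb⟩
  have hprime : 𝔫.IsPrime := inferInstance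
  -- `z ∈ O_𝔫`
  have hR : ∀ r ∈ Subring.closure ({J⁻¹} : Set F), ∃ s a : ↥O, s ∉ 𝔫 ∧ (s : F) * r = a :=
    cpa_closure_le_loc O 𝔫 _ (fun r hr => by
      rw [Set.mem_singleton_iff] at hr
      subst hr
      exact ⟨s', b, hs', hsb⟩)
  obtain ⟨s, a, hs, hsa⟩ := cpa_mem_loc_of_isIntegral O 𝔫 hint _ hR _ hz
  -- `z - 1 ∈ p₁ O_𝔫`
  have e1 : ((a - s : ↥O) : F) = (Jq - J ^ ℓ) * ((s : F) * J⁻¹ ^ ℓ) := by
    have hJu : J ^ ℓ * J⁻¹ ^ ℓ = 1 := by rw [← mul_pow, mul_inv_cancel₀ hJ0, one_pow]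
    push_cast
    rw [← hsa]
    linear_combination (s : F) * hJu
  have m1 : ((a - s : ↥O) : F) ∈ V₁.nonunits := by
    rw [e1]
    exact cpa_nonunits_mul V₁ h₁ (V₁.mul_mem _ _ (hO₁ _ s.2) (pow_mem hJ₁ ℓ))
  have has : a - s ∈ 𝔫 := hc₁ _ m1
  -- `J⁻¹ ^ (ℓ² - 1) - z ^ ℓ ∈ p₂ O_𝔫`
  obtain ⟨k, hk⟩ : ∃ k, ℓ ^ 2 = k + 1 := ⟨ℓ ^ 2 - 1, by
    have : 0 < ℓ ^ 2 := by positivity
    omega⟩
  have hk0 : k ≠ 0 := by
    rintro rfl
    nlinarith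
  have e2 : ((s ^ ℓ * b ^ k - a ^ ℓ * s' ^ k : ↥O) : F) =
      (J - Jq ^ ℓ) * ((s : F) ^ ℓ * (s' : F) ^ k * J⁻¹ ^ (ℓ ^ 2)) := by
    have hu1 : J * J⁻¹ = 1 := mul_inv_cancel₀ hJ0
    have hpow : (J⁻¹ ^ ℓ) ^ ℓ = J⁻¹ ^ (ℓ ^ 2) := by rw [← pow_mul, pow_two]
    have hk' : J⁻¹ ^ (ℓ ^ 2) = J⁻¹ ^ k * J⁻¹ := by rw [hk, pow_succ]
    push_cast
    rw [← hsa, ← hsb]
    simp only [mul_pow]
    rw [hpow, hk']
    linear_combination (-(s : F) ^ ℓ * (s' : F) ^ k * J⁻¹ ^ k) * hu1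
  have m2 : ((s ^ ℓ * b ^ k - a ^ ℓ * s' ^ k : ↥O) : F) ∈ V₂.nonunits := by
    rw [e2]
    exact cpa_nonunits_mul V₂ h₂ (V₂.mul_mem _ _ (V₂.mul_mem _ _ (pow_mem (hO₂ _ s.2) ℓ)
      (pow_mem (hO₂ _ s'.2) k)) (pow_mem hJ₂ _))
  have h2 : s ^ ℓ * b ^ k - a ^ ℓ * s' ^ k ∈ 𝔫 := hc₂ _ m2
  have hbk : s ^ ℓ * b ^ k ∈ 𝔫 := 𝔫.mul_mem_left _ (𝔫.pow_mem_of_mem hb k (Nat.pos_of_ne_zero hk0))
  have h3 : a ^ ℓ * s' ^ k ∈ 𝔫 := by
    have := 𝔫.sub_mem hbk h2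
    rwa [sub_sub_cancel] at this
  have ha : a ∈ 𝔫 := by
    rcases hprime.mem_or_mem h3 with h | h
    · exact hprime.mem_of_pow_mem _ h
    · exact absurd (hprime.mem_of_pow_mem _ h) hs'
  apply hs
  have := 𝔫.sub_mem ha has
  rwa [sub_sub_cancel] at this

/-- **CUSP-ABS**, second form: at a crossing point, `D * J⁻¹ = N` with `N ∈ 𝔫` forces
`D ∈ 𝔫`. -/
theorem cpa_not_crossing' (O : Subalgebra A F) (𝔫 : Ideal ↥O) [𝔫.IsPrime]
    (V₁ V₂ : ValuationSubring F) (hO₁ : ∀ x ∈ O, x ∈ V₁) (hO₂ : ∀ x ∈ O, x ∈ V₂)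
    (hint : ∀ x : F, IsIntegral ↥O x → x ∈ O)
    (ℓ : ℕ) (hℓ : 2 ≤ ℓ) (J Jq : F) (hJ0 : J ≠ 0) (hJ₁ : J⁻¹ ∈ V₁) (hJ₂ : J⁻¹ ∈ V₂)
    (h₁ : Jq - J ^ ℓ ∈ V₁.nonunits) (h₂ : J - Jq ^ ℓ ∈ V₂.nonunits)
    (hz : IsIntegral ↥(Subring.closure ({J⁻¹} : Set F)) (Jq * J⁻¹ ^ ℓ))
    (hc₁ : ∀ x : ↥O, (x : F) ∈ V₁.nonunits → x ∈ 𝔫)
    (hc₂ : ∀ x : ↥O, (x : F) ∈ V₂.nonunits → x ∈ 𝔫)
    (D N : ↥O) (hDN : (D : F) * J⁻¹ = N) (hN : N ∈ 𝔫) : D ∈ 𝔫 := by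
  by_contra hD
  exact cpa_not_crossing O 𝔫 V₁ V₂ hO₁ hO₂ hint ℓ hℓ J Jq hJ0 hJ₁ hJ₂ h₁ h₂ hz hc₁ hc₂
    ⟨D, N, hD, hN, hDN⟩

end CuspAbs

section Coprime

/-- Polynomials which are coprime modulo `τ` do not both vanish at a point of the special
fibre. -/
theorem cpa_coprime_notMem {A O : Type*} [CommRing A] [CommRing O] [Algebra A O] (τ : A)
    (𝔫 : Ideal O) (h𝔫 : 𝔫 ≠ ⊤) (hτ : algebraMap A O τ ∈ 𝔫) (t : O) (p q : A[X])
    (hcop : IsCoprime (p.map (Ideal.Quotient.mk (Ideal.span {τ})))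
      (q.map (Ideal.Quotient.mk (Ideal.span {τ}))))
    (hp : aeval t p ∈ 𝔫) : aeval t q ∉ 𝔫 := by
  intro hq
  obtain ⟨U, V, hUV⟩ := hcop
  obtain ⟨U', rfl⟩ := map_surjective _ Ideal.Quotient.mk_surjective U
  obtain ⟨V', rfl⟩ := map_surjective _ Ideal.Quotient.mk_surjective V
  have h0 : (U' * p + V' * q - 1).map (Ideal.Quotient.mk (Ideal.span {τ})) = 0 := by
    rw [Polynomial.map_sub, Polynomial.map_add, Polynomial.map_mul, Polynomial.map_mul,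
      Polynomial.map_one, hUV, sub_self]
  have h1 : ∀ i, τ ∣ (U' * p + V' * q - 1).coeff i := by
    intro i
    have := congrArg (fun r => Polynomial.coeff r i) h0
    simp only [coeff_map, coeff_zero] at this
    rwa [Ideal.Quotient.eq_zero_iff_mem, Ideal.mem_span_singleton] at this
  have h2 : aeval t (U' * p + V' * q - 1) ∈ 𝔫 := by
    rw [aeval_eq_sum_range]
    refine 𝔫.sum_mem fun i _ => ?_
    obtain ⟨c, hc⟩ := h1 i
    rw [hc, Algebra.smul_def, map_mul, mul_assoc]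
    exact 𝔫.mul_mem_right _ hτ
  apply h𝔫
  rw [Ideal.eq_top_iff_one]
  have h3 : aeval t (U' * p + V' * q) ∈ 𝔫 := by
    rw [map_add, map_mul, map_mul]
    exact 𝔫.add_mem (𝔫.mul_mem_left _ hp) (𝔫.mul_mem_left _ hq)
  have := 𝔫.sub_mem h3 h2
  rwa [map_sub, map_one, sub_sub_cancel] at this

end Coprime

end Fermat.Agent.S34
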