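import Mathlib
import Fermat.Agent.S34.CuspAbs
import Fermat.Agent.S34.DomAbs

/-!
# S34, leaf CUSP-NC (glue, abstract half): a crossing point is not cuspidal

`O` an integrally closed chart (a subalgebra of the function field `F`), `𝔫` a prime of `O`
containing the residue characteristic `ℓ` and lying on BOTH components of the special fibre
(`hc₁`, `hc₂`: `O ∩ 𝔪_{V₁} ⊆ 𝔫`, `O ∩ 𝔪_{V₂} ⊆ 𝔫`).  Inputs: the Kronecker congruences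
`Jq - J ^ ℓ ∈ 𝔪_{V₁}`, `J - Jq ^ ℓ ∈ 𝔪_{V₂}`, the integrality of `Jq / J ^ ℓ` over `ℤ[1/J]`
(ZINT), the Hauptmodul relation `J Q(h) = P(h)` and the chart coordinate
`t = (h - c₁)/(h - c₀) ∈ O`.

* `cng_j_mem`: `J ∈ O_𝔫` (`cpa_not_crossing` + the dichotomy `dma_j_dichotomy`);
* `cng_main`: `J, Jq, h, hq ∈ O_𝔫`, in the elementwise shape `∃ a s : O, s ∉ 𝔫 ∧ x * s = a`
  (`= x ∈ dmaLoc O 𝔫`);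
* `cng_mem_max`: an element of `O_𝔫` which is a nonunit of a valuation ring `V ⊇ O` with
  `O ∩ 𝔪_V ⊆ 𝔫` lies in `𝔫 O_𝔫` (so `h ^ ℓ - hq`, `h - hq ^ ℓ` lie in the maximal ideal of the
  local ring at a crossing point).

Names are prefixed `cng_`.
-/

set_option autoImplicit false

open Polynomial

namespace Fermat.Agent.S34

section CuspGlue

variable {A F : Type*} [CommRing A] [Field F] [Algebra A F]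

/-- An element of `O_𝔫` which is a nonunit of a valuation ring `V ⊇ O` with `O ∩ 𝔪_V ⊆ 𝔫` lies
in the maximal ideal `𝔫 O_𝔫`. -/
theorem cng_mem_max (O : Subalgebra A F) (𝔫 : Ideal ↥O) [𝔫.IsPrime] (V : ValuationSubring F)
    (hO : ∀ x ∈ O, x ∈ V) (hc : ∀ x : ↥O, (x : F) ∈ V.nonunits → x ∈ 𝔫) {z : F}
    (hz : z ∈ dmaLoc O 𝔫) (hzV : z ∈ V.nonunits) : z ∈ dmaMax O 𝔫 := by
  obtain ⟨a, s, hs, h⟩ := hz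
  refine ⟨a, s, hc a ?_, hs, h⟩
  rw [← h]
  exact cpa_nonunits_mul V hzV (hO _ s.2)

/-- **A crossing point is not cuspidal**: `J ∈ O_𝔫`. -/
theorem cng_j_mem (O : Subalgebra A F) (𝔫 : Ideal ↥O) [𝔫.IsPrime]
    (V₁ V₂ : ValuationSubring F) (hO₁ : ∀ x ∈ O, x ∈ V₁) (hO₂ : ∀ x ∈ O, x ∈ V₂)
    (hint : ∀ x : F, IsIntegral ↥O x → x ∈ O)
    (ℓ : ℕ) (hℓ2 : 2 ≤ ℓ) (hℓ : (ℓ : ↥O) ∈ 𝔫)
    (J Jq : F) (hJ0 : J ≠ 0) (hJ₁ : J⁻¹ ∈ V₁) (hJ₂ : J⁻¹ ∈ V₂)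
    (h₁ : Jq - J ^ ℓ ∈ V₁.nonunits) (h₂ : J - Jq ^ ℓ ∈ V₂.nonunits)
    (hz : IsIntegral ↥(Subring.closure ({J⁻¹} : Set F)) (Jq * J⁻¹ ^ ℓ))
    (hc₁ : ∀ x : ↥O, (x : F) ∈ V₁.nonunits → x ∈ 𝔫)
    (hc₂ : ∀ x : ↥O, (x : F) ∈ V₂.nonunits → x ∈ 𝔫)
    (P Q U V W : ℤ[X]) (hP : P.Monic) (hdeg : Q.natDegree < P.natDegree)
    (hUV : U * P + V * Q = 1 + C (ℓ : ℤ) * W)
    {h c0 c1 : F} (hrel : J * aeval h Q = aeval h P)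
    (hc0 : c0 ∈ O) (hc1 : c1 ∈ O) (hc01 : (c0 - c1)⁻¹ ∈ O) (hc : c0 ≠ c1) (hh : h ≠ c0)
    (ht : (h - c1) / (h - c0) ∈ O) :
    J ∈ dmaLoc O 𝔫 := by
  rcases dma_j_dichotomy O 𝔫 ℓ hℓ P Q U V W hP hdeg hUV hJ0 hrel hc0 hc1 hc01 hc hh ht
    with hj | hj
  · exact hj
  · exfalso
    obtain ⟨a, s, ha, hs, has⟩ := hj
    exact cpa_not_crossing O 𝔫 V₁ V₂ hO₁ hO₂ hint ℓ hℓ2 J Jq hJ0 hJ₁ hJ₂ h₁ h₂ hz hc₁ hc₂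
      ⟨s, a, hs, ha, by rw [mul_comm]; exact has⟩

/-- **CUSP-NC, abstract form.**  At a crossing point `𝔫` of an integrally closed chart, `J`,
`Jq`, `h` and `hq` all lie in the local ring `O_𝔫`. -/
theorem cng_main (O : Subalgebra A F) (𝔫 : Ideal ↥O) [𝔫.IsPrime]
    (V₁ V₂ : ValuationSubring F) (hO₁ : ∀ x ∈ O, x ∈ V₁) (hO₂ : ∀ x ∈ O, x ∈ V₂)
    (hint : ∀ x : F, IsIntegral ↥O x → x ∈ O)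
    (ℓ : ℕ) (hℓ2 : 2 ≤ ℓ) (hℓ : (ℓ : ↥O) ∈ 𝔫)
    (J Jq : F) (hJ0 : J ≠ 0) (hJ₁ : J⁻¹ ∈ V₁) (hJ₂ : J⁻¹ ∈ V₂)
    (h₁ : Jq - J ^ ℓ ∈ V₁.nonunits) (h₂ : J - Jq ^ ℓ ∈ V₂.nonunits)
    (hz : IsIntegral ↥(Subring.closure ({J⁻¹} : Set F)) (Jq * J⁻¹ ^ ℓ))
    (hc₁ : ∀ x : ↥O, (x : F) ∈ V₁.nonunits → x ∈ 𝔫)
    (hc₂ : ∀ x : ↥O, (x : F) ∈ V₂.nonunits → x ∈ 𝔫)
    (P Q U V W : ℤ[X]) (hP : P.Monic) (hdeg : Q.natDegree < P.natDegree)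
    (hUV : U * P + V * Q = 1 + C (ℓ : ℤ) * W)
    {h hq c0 c1 : F} (hrel : J * aeval h Q = aeval h P)
    (hrelq : Jq * aeval hq Q = aeval hq P)
    (Φ : ℤ[X][X]) (hΦ : Φ.Monic)
    (hΦ0 : Φ.eval₂ ((aeval J : ℤ[X] →ₐ[ℤ] F).toRingHom) Jq = 0)
    (hc0 : c0 ∈ O) (hc1 : c1 ∈ O) (hc01 : (c0 - c1)⁻¹ ∈ O) (hc : c0 ≠ c1) (hh : h ≠ c0)
    (ht : (h - c1) / (h - c0) ∈ O) :
    (∃ a s : ↥O, s ∉ 𝔫 ∧ J * (s : F) = a) ∧ (∃ a s : ↥O, s ∉ 𝔫 ∧ Jq * (s : F) = a) ∧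
    (∃ a s : ↥O, s ∉ 𝔫 ∧ h * (s : F) = a) ∧ (∃ a s : ↥O, s ∉ 𝔫 ∧ hq * (s : F) = a) := by
  have hj : J ∈ dmaLoc O 𝔫 :=
    cng_j_mem O 𝔫 V₁ V₂ hO₁ hO₂ hint ℓ hℓ2 hℓ J Jq hJ0 hJ₁ hJ₂ h₁ h₂ hz hc₁ hc₂ P Q U V W hP hdeg
      hUV hrel hc0 hc1 hc01 hc hh ht
  have hjq : Jq ∈ dmaLoc O 𝔫 := dma_mem_of_rel O 𝔫 hint hj Φ hΦ hΦ0
  have hhq : hq ∈ dmaLoc O 𝔫 := dma_hq_mem O 𝔫 hint P Q hP hdeg hrelq Φ hΦ hΦ0 hj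
  have hΨ : (X - C X : ℤ[X][X]).eval₂ ((aeval J : ℤ[X] →ₐ[ℤ] F).toRingHom) J = 0 := by
    rw [eval₂_sub, eval₂_X, eval₂_C]
    simp
  have hh' : h ∈ dmaLoc O 𝔫 :=
    dma_hq_mem O 𝔫 hint P Q hP hdeg hrel (X - C X) (monic_X_sub_C _) hΨ hj
  exact ⟨hj, hjq, hh', hhq⟩

end CuspGlue

end Fermat.Agent.S34
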