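import Fermat.Agent.S34.ModEqK
import Fermat.Agent.S34.DomAbs
import Fermat.Agent.S18.CoreInstChart
import Fermat.Agent.S18.Charts
import Fermat.Agent.S18.SMInstChoice

/-!
# S34, work package DOM-INST: domination for the Hauptmodul charts

`K0` a field with `[Algebra ℚ K0] [Algebra K0 ℚ̄]`, `A0` a discrete valuation subring of `K0` over
the prime `q ∤ M`, `F` the level-`M q` function field over `K0`, `H` a Hauptmodul record of level
`a2 ∣ M`, `t = (h - c1) / (h - c0)` the chart coordinate (`c0, c1 ∈ A0` with distinct residues,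
`Qrad(c0)`, `Qrad(c1)` units of `A0`), `w = va2SwapEquiv M q hq hM K0` the swap.

* `dmi_bezout`: the integer Bezout relation `U P + V Q = 1 + ℓ W` from coprimality modulo `ℓ`;
* `dmiH`: the Hauptmodul as an element of the function field; `dmi_rel` (`j Q(h) = P(h)`),
  `dmi_relq` (`j(q^ℓ) Q(w h) = P(w h)`), `dmi_t_eq`, `dmi_swap_t`;
* `dmi_dom_aux`: `dma_main` (package DOM, abstract half) instantiated at the chart
  `chtO A0 {t}`: at every prime `𝔫` of the chart containing `τ`, `w t` or `w t⁻¹` lies in the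
  local ring at `𝔫`;
* `dmi_dom`: the hypotheses `hdom₀`, `hdom₁` of `s34ib_main` (both charts), verbatim;
* `dmi_smi2U_comap`, `dmi_smi2U_comap_aeval`: transport of the unit conditions on the base
  points from a valuation subring of a larger field.
-/

set_option autoImplicit false
set_option linter.unusedSectionVars false

open AlgebraicCurve ModularCurve Polynomial
open Fermat.Agent.S18 Fermat.Agent.S37 Fermat.Agent.S24 Fermat.Agent.S28

namespace Fermat.Agent.S34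

local notation "Qb" => AlgebraicClosure ℚ

/-- integer Bezout relation from coprimality modulo `ℓ` -/
theorem dmi_bezout {ℓ : ℕ} (P Q : Polynomial ℤ)
    (h : IsCoprime (P.map (Int.castRingHom (ZMod ℓ))) (Q.map (Int.castRingHom (ZMod ℓ)))) :
    ∃ U V W : Polynomial ℤ, U * P + V * Q = 1 + C (ℓ : ℤ) * W := by
  obtain ⟨u, v, huv⟩ := h
  obtain ⟨U, rfl⟩ := Polynomial.map_surjective (Int.castRingHom (ZMod ℓ))
    (ZMod.intCast_surjective) u
  obtain ⟨V, rfl⟩ := Polynomial.map_surjective (Int.castRingHom (ZMod ℓ))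
    (ZMod.intCast_surjective) v
  have h0 : (U * P + V * Q - 1).map (Int.castRingHom (ZMod ℓ)) = 0 := by
    rw [Polynomial.map_sub, Polynomial.map_add, Polynomial.map_mul, Polynomial.map_mul, huv,
      Polynomial.map_one, sub_self]
  have hdvd : C (ℓ : ℤ) ∣ U * P + V * Q - 1 := by
    rw [Polynomial.C_dvd_iff_dvd_coeff]
    intro i
    have h1 := congrArg (fun p => p.coeff i) h0
    simp only [Polynomial.coeff_map, Polynomial.coeff_zero] at h1
    exact (ZMod.intCast_zmod_eq_zero_iff_dvd _ _).mp h1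
  obtain ⟨W, hW⟩ := hdvd
  exact ⟨U, V, W, by rw [← hW]; ring⟩


/-- ring homomorphisms commute with evaluation of integer polynomials -/
theorem dmi_map_aeval {R S : Type*} [CommRing R] [CommRing S] [Algebra ℤ R] [Algebra ℤ S]
    (f : R →+* S) (x : R)
    (p : Polynomial ℤ) : f (aeval x p) = aeval (f x) p := by
  rw [aeval_def, aeval_def, hom_eval₂]
  congr 1
  exact RingHom.ext_int _ _

section Elements

variable (K0 : Type*) [Field K0] [Algebra ℚ K0] (N : ℕ) [NeZero N]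
  {a2 ℓ : ℕ} (H : HauptRec a2 ℓ) (ha2 : a2 ∣ N)

/-- the Hauptmodul as an element of the level-`N` function field over `K0` -/
noncomputable def dmiH : ↥(laurentBaseChange K0 (modularFunctionFieldFull N)) :=
  ⟨H.h K0, cinst_h_mem H K0 ha2⟩

theorem dmiH_coe :
    ((dmiH K0 N H ha2 : ↥(laurentBaseChange K0 (modularFunctionFieldFull N))) :
      LaurentSeries K0) = H.h K0 := rfl

theorem dmi_coe_aeval (x : ↥(laurentBaseChange K0 (modularFunctionFieldFull N)))
    (p : Polynomial ℤ) :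
    ((aeval x p : ↥(laurentBaseChange K0 (modularFunctionFieldFull N))) : LaurentSeries K0)
      = aeval (x : LaurentSeries K0) p :=
  dmi_map_aeval (laurentBaseChange K0 (modularFunctionFieldFull N)).val.toRingHom x p

/-- `j · Q(h) = P(h)` in the level-`N` function field over `K0` -/
theorem dmi_rel :
    va2Jd K0 N 1 (one_dvd _) * aeval (dmiH K0 N H ha2) H.Q = aeval (dmiH K0 N H ha2) H.P := by
  apply Subtype.ext
  rw [MulMemClass.coe_mul, dmi_coe_aeval, dmi_coe_aeval, mqk_va2Jd_coe, dmiH_coe]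
  exact H.rel_map K0

theorem dmi_jd_ne_zero (d : ℕ) [NeZero d] (hd : d ∣ N) : va2Jd K0 N d hd ≠ 0 := by
  intro h0
  have h1 := congrArg (fun x : ↥(laurentBaseChange K0 (modularFunctionFieldFull N)) =>
    (x : LaurentSeries K0)) h0
  simp only [mqk_va2Jd_coe, ZeroMemClass.coe_zero] at h1
  have h := valRing_jd_transcendental K0 d X Polynomial.X_ne_zero
  rw [aeval_X] at h
  exact h h1

theorem dmiH_sub_ne (c : K0) :
    dmiH K0 N H ha2 ≠ algebraMap K0 ↥(laurentBaseChange K0 (modularFunctionFieldFull N)) c := by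
  intro h0
  have h1 := congrArg (fun x : ↥(laurentBaseChange K0 (modularFunctionFieldFull N)) =>
    (x : LaurentSeries K0)) h0
  simp only [dmiH_coe] at h1
  exact cinst_h_sub_ne_zero H K0 c (sub_eq_zero.mpr h1)

/-- the chart coordinate as a quotient in the function field -/
theorem dmi_t_eq (c0 c1 : K0) (t : ↥(laurentBaseChange K0 (modularFunctionFieldFull N)))
    (ht : (t : LaurentSeries K0) = cinstU H K0 c0 c1) :
    t = (dmiH K0 N H ha2 - algebraMap K0 _ c1) / (dmiH K0 N H ha2 - algebraMap K0 _ c0) := by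
  apply Subtype.ext
  rw [ht, cinstU]
  rfl

end Elements


section Main

variable {K0 : Type*} [Field K0] [Algebra ℚ K0] [Algebra K0 Qb] (A0 : ValuationSubring K0)
  [IsDiscreteValuationRing A0] (M q : ℕ) [NeZero M] [NeZero q] (hq : q.Prime) (hM : ¬ q ∣ M)
  {a2 : ℕ} (H : HauptRec a2 q) (ha2 : a2 ∣ M)

/-- the swap exchanges `j(q)` and `j(q^ℓ)` -/
theorem dmi_swap_J :
    va2Swap M q hq hM K0 (va2Jd K0 (M * q) 1 (one_dvd _))
      = va2Jd K0 (M * q) q (dvd_mul_left q M) := by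
  have h2 := va2Swap_jd1 M q hq hM K0 1 (one_dvd M)
  rw [h2]
  exact mqk_va2Jd_congr K0 (M * q) (mul_one q) _ _

/-- `j(q^ℓ) · Q(w h) = P(w h)` -/
theorem dmi_relq :
    va2Jd K0 (M * q) q (dvd_mul_left q M) *
        aeval (va2Swap M q hq hM K0 (dmiH K0 (M * q) H (ha2.mul_right q))) H.Q
      = aeval (va2Swap M q hq hM K0 (dmiH K0 (M * q) H (ha2.mul_right q))) H.P := by
  have h := congrArg (va2Swap M q hq hM K0) (dmi_rel K0 (M * q) H (ha2.mul_right q))
  rwa [map_mul, dmi_swap_J, dmi_map_aeval, dmi_map_aeval] at h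

/-- the swap of the chart coordinate -/
theorem dmi_swap_t (c0 c1 : K0)
    (t : ↥(laurentBaseChange K0 (modularFunctionFieldFull (M * q))))
    (ht : (t : LaurentSeries K0) = cinstU H K0 c0 c1) :
    va2Swap M q hq hM K0 t =
      (va2Swap M q hq hM K0 (dmiH K0 (M * q) H (ha2.mul_right q)) - algebraMap K0 _ c1) /
        (va2Swap M q hq hM K0 (dmiH K0 (M * q) H (ha2.mul_right q)) - algebraMap K0 _ c0) := by
  rw [dmi_t_eq K0 (M * q) H (ha2.mul_right q) c0 c1 t ht, map_div₀, map_sub, map_sub,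
    va2Swap_const, va2Swap_const]

/-- constants of `A0` lie in every `A0`-subalgebra -/
theorem dmi_const_mem {F : Type*} [Field F] [Algebra K0 F] [Algebra A0 F]
    [IsScalarTower A0 K0 F] (S : Subalgebra A0 F) {x : K0} (hx : x ∈ A0) :
    algebraMap K0 F x ∈ S := by
  have h := S.algebraMap_mem ⟨x, hx⟩
  rwa [IsScalarTower.algebraMap_apply A0 K0 F] at h

include ha2 in
/-- **Domination, one chart.** At every prime `𝔫` of the chart `chtO A0 {t}`,
`t = (h - c1) / (h - c0)`, lying over the residue characteristic `q`, the swapped coordinate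
`w t` or its inverse is regular. -/
theorem dmi_dom_aux
    [Algebra A0 ↥(laurentBaseChange K0 (modularFunctionFieldFull (M * q)))]
    [IsScalarTower A0 K0 ↥(laurentBaseChange K0 (modularFunctionFieldFull (M * q)))]
    (hqA : (q : K0) ∈ A0.nonunits)
    (c0 c1 : A0) (hc : ((c0 : K0) - (c1 : K0))⁻¹ ∈ A0) (hc' : (c0 : K0) ≠ (c1 : K0))
    (hQ0 : (aeval (c0 : K0) H.Q)⁻¹ ∈ A0) (hQ0n : aeval (c0 : K0) H.Q ≠ 0)
    (t : ↥(laurentBaseChange K0 (modularFunctionFieldFull (M * q))))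
    (ht : (t : LaurentSeries K0) = cinstU H K0 (c0 : K0) (c1 : K0))
    (τ : A0) (hτ : Irreducible τ)
    (𝔫 : Ideal ↥(chtO A0 {t})) (h𝔫 : 𝔫.IsPrime)
    (hτ𝔫 : algebraMap A0 ↥(chtO A0 {t}) τ ∈ 𝔫) :
    (∃ a s : ↥(chtO A0 {t}), s ∉ 𝔫 ∧
      va2SwapEquiv M q hq hM K0 t *
        (s : ↥(laurentBaseChange K0 (modularFunctionFieldFull (M * q)))) = a) ∨
    (∃ a s : ↥(chtO A0 {t}), s ∉ 𝔫 ∧
      va2SwapEquiv M q hq hM K0 t⁻¹ *
        (s : ↥(laurentBaseChange K0 (modularFunctionFieldFull (M * q)))) = a) := by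
  classical
  obtain ⟨U, V, W, hUV⟩ := dmi_bezout H.P H.Q H.coprime_mod
  obtain ⟨Φ, hΦ, hΦ1, hΦ2⟩ := mqk_exists_poly M q hq hM K0
  -- `q ∈ 𝔫`
  have hq𝔫 : ((q : ℕ) : ↥(chtO A0 {t})) ∈ 𝔫 := by
    have h1 : ((q : A0) : K0) ∈ A0.nonunits := by simpa using hqA
    rw [ValuationSubring.coe_mem_nonunits_iff, hτ.maximalIdeal_eq,
      Ideal.mem_span_singleton] at h1
    obtain ⟨a, ha⟩ := h1
    have h2 : ((q : ℕ) : ↥(chtO A0 {t})) = algebraMap A0 ↥(chtO A0 {t}) τ *
        algebraMap A0 ↥(chtO A0 {t}) a := by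
      rw [← map_mul, ← ha, map_natCast]
    rw [h2]
    exact 𝔫.mul_mem_right _ hτ𝔫
  set hF := dmiH K0 (M * q) H (ha2.mul_right q) with hhF
  have hwinj : Function.Injective (va2Swap M q hq hM K0) := (va2Swap M q hq hM K0).injective
  have hne : ∀ c : K0, va2Swap M q hq hM K0 hF ≠
      algebraMap K0 ↥(laurentBaseChange K0 (modularFunctionFieldFull (M * q))) c := by
    intro c h0
    rw [← va2Swap_const M q hq hM K0 c] at h0
    exact dmiH_sub_ne K0 (M * q) H (ha2.mul_right q) c (hwinj h0)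
  have hc01 : (algebraMap K0 ↥(laurentBaseChange K0 (modularFunctionFieldFull (M * q))) (c0 : K0)
      - algebraMap K0 _ (c1 : K0))⁻¹ ∈ chtO A0 {t} := by
    rw [← map_sub, ← map_inv₀]
    exact dmi_const_mem A0 _ hc
  have hQ0' : (aeval (algebraMap K0 ↥(laurentBaseChange K0 (modularFunctionFieldFull (M * q)))
      (c0 : K0)) H.Q)⁻¹ ∈ chtO A0 {t} := by
    rw [← dmi_map_aeval, ← map_inv₀]
    exact dmi_const_mem A0 _ hQ0
  have htO : (hF - algebraMap K0 _ (c1 : K0)) / (hF - algebraMap K0 _ (c0 : K0)) ∈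
      chtO A0 {t} := by
    rw [← dmi_t_eq K0 (M * q) H (ha2.mul_right q) (c0 : K0) (c1 : K0) t ht]
    exact (cht_h1 t).1
  have hcF : algebraMap K0 ↥(laurentBaseChange K0 (modularFunctionFieldFull (M * q))) (c0 : K0) ≠
      algebraMap K0 _ (c1 : K0) := (algebraMap K0 _).injective.ne hc'
  have hQ0n' : aeval (algebraMap K0 ↥(laurentBaseChange K0 (modularFunctionFieldFull (M * q)))
      (c0 : K0)) H.Q ≠ 0 := by
    rw [← dmi_map_aeval]
    exact (_root_.map_ne_zero _).mpr hQ0n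
  have key := dma_main (chtO A0 {t}) 𝔫 (fun x hx => cht_integral_closed {t} hx) q hq𝔫
    H.P H.Q U V W H.P_monic (by rw [H.natDegree_P]; exact H.natDegree_Q) hUV
    hF (va2Swap M q hq hM K0 hF) (va2Jd K0 (M * q) 1 (one_dvd _))
    (va2Jd K0 (M * q) q (dvd_mul_left q M))
    (algebraMap K0 _ (c0 : K0)) (algebraMap K0 _ (c1 : K0))
    (dmi_jd_ne_zero K0 (M * q) 1 _) (dmi_jd_ne_zero K0 (M * q) q _)
    (dmi_rel K0 (M * q) H (ha2.mul_right q)) (dmi_relq M q hq hM H ha2)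
    Φ Φ hΦ hΦ1 hΦ hΦ2
    (dmi_const_mem A0 _ c0.2) (dmi_const_mem A0 _ c1.2) hc01 hcF hQ0' hQ0n'
    (dmiH_sub_ne K0 (M * q) H (ha2.mul_right q) _) (hne _) htO
  rw [← dmi_swap_t M q hq hM H ha2 (c0 : K0) (c1 : K0) t ht] at key
  rw [va2SwapEquiv_apply, va2SwapEquiv_apply, map_inv₀]
  exact key

include ha2 in
/-- **Domination (DOM) for the two Hauptmodul charts**, in the shape of the hypotheses `hdom₀`,
`hdom₁` of `s34ib_main`, with `w := va2SwapEquiv M q hq hM K0`. -/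
theorem dmi_dom
    [Algebra A0 ↥(laurentBaseChange K0 (modularFunctionFieldFull (M * q)))]
    [IsScalarTower A0 K0 ↥(laurentBaseChange K0 (modularFunctionFieldFull (M * q)))]
    (hqA : (q : K0) ∈ A0.nonunits)
    (c0 c1 : A0) (hc : IsLocalRing.residue A0 c0 ≠ IsLocalRing.residue A0 c1)
    (hQ0 : smi2U A0 (aeval (c0 : K0) H.Qrad)) (hQ1 : smi2U A0 (aeval (c1 : K0) H.Qrad))
    (t : ↥(laurentBaseChange K0 (modularFunctionFieldFull (M * q))))
    (ht : (t : LaurentSeries K0) = cinstU H K0 (c0 : K0) (c1 : K0))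
    (τ : A0) (hτ : Irreducible τ)
    (V₁ : ValuationSubring ↥(laurentBaseChange K0 (modularFunctionFieldFull (M * q)))) :
    (∀ 𝔫 : Ideal ↥(chtO A0 {t}), 𝔫.IsMaximal →
      algebraMap A0 ↥(chtO A0 {t}) τ ∈ 𝔫 →
      (∃ r : ↥(chtO A0 {t}),
        (r : ↥(laurentBaseChange K0 (modularFunctionFieldFull (M * q)))) ∈ V₁.nonunits ∧ r ∉ 𝔫) →
      (∃ a s : ↥(chtO A0 {t}), s ∉ 𝔫 ∧ va2SwapEquiv M q hq hM K0 t *
        (s : ↥(laurentBaseChange K0 (modularFunctionFieldFull (M * q)))) = a) ∨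
      (∃ a s : ↥(chtO A0 {t}), s ∉ 𝔫 ∧ va2SwapEquiv M q hq hM K0 t⁻¹ *
        (s : ↥(laurentBaseChange K0 (modularFunctionFieldFull (M * q)))) = a)) ∧
    (∀ 𝔫 : Ideal ↥(chtO A0 {t⁻¹}), 𝔫.IsMaximal →
      algebraMap A0 ↥(chtO A0 {t⁻¹}) τ ∈ 𝔫 →
      (∃ r : ↥(chtO A0 {t⁻¹}),
        (r : ↥(laurentBaseChange K0 (modularFunctionFieldFull (M * q)))) ∈ V₁.nonunits ∧ r ∉ 𝔫) →
      (∃ a s : ↥(chtO A0 {t⁻¹}), s ∉ 𝔫 ∧ va2SwapEquiv M q hq hM K0 t *
        (s : ↥(laurentBaseChange K0 (modularFunctionFieldFull (M * q)))) = a) ∨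
      (∃ a s : ↥(chtO A0 {t⁻¹}), s ∉ 𝔫 ∧ va2SwapEquiv M q hq hM K0 t⁻¹ *
        (s : ↥(laurentBaseChange K0 (modularFunctionFieldFull (M * q)))) = a)) := by
  have hc : smi2U A0 ((c0 : K0) - (c1 : K0)) := by
    have h : IsLocalRing.residue A0 (c0 - c1) ≠ 0 := by
      rw [map_sub, sub_ne_zero]
      exact hc
    exact smi2U_of_residue_ne_zero h
  refine ⟨fun 𝔫 h𝔫 hτ𝔫 _ => ?_, fun 𝔫 h𝔫 hτ𝔫 _ => ?_⟩
  · exact dmi_dom_aux A0 M q hq hM H ha2 hqA c0 c1 hc.2.2 (sub_ne_zero.mp hc.2.1)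
      (smi2_Q_unit H A0 c0.2 hQ0).2.2 (smi2_Q_unit H A0 c0.2 hQ0).2.1 t ht τ hτ 𝔫 h𝔫.isPrime hτ𝔫
  · have ht' : ((t⁻¹ : ↥(laurentBaseChange K0 (modularFunctionFieldFull (M * q)))) :
        LaurentSeries K0) = cinstU H K0 (c1 : K0) (c0 : K0) := by
      rw [IntermediateField.coe_inv, ht, cinstU_inv]
    have hc' : ((c1 : K0) - (c0 : K0))⁻¹ ∈ A0 := by
      have h1 : ((c1 : K0) - (c0 : K0))⁻¹ = -((c0 : K0) - (c1 : K0))⁻¹ := by
        rw [← neg_sub, neg_inv]
      rw [h1]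
      exact neg_mem hc.2.2
    have key := dmi_dom_aux A0 M q hq hM H ha2 hqA c1 c0 hc' (sub_ne_zero.mp hc.2.1).symm
      (smi2_Q_unit H A0 c1.2 hQ1).2.2 (smi2_Q_unit H A0 c1.2 hQ1).2.1 t⁻¹ ht' τ hτ 𝔫 h𝔫.isPrime hτ𝔫
    rw [inv_inv] at key
    exact key.symm

end Main

section Comap

/-- units of the trace of a valuation subring on a subfield -/
theorem dmi_smi2U_comap {K L : Type*} [Field K] [Field L] (f : K →+* L) (A : ValuationSubring L)
    (x : K) : smi2U (A.comap f) x ↔ smi2U A (f x) := by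
  unfold smi2U
  rw [ValuationSubring.mem_comap, ValuationSubring.mem_comap, map_inv₀, Ne, Ne,
    _root_.map_eq_zero]

/-- the unit condition on a base point, transported from a larger field -/
theorem dmi_smi2U_comap_aeval {K L : Type*} [Field K] [Field L] (f : K →+* L)
    (A : ValuationSubring L) (c : K) (p : Polynomial ℤ) :
    smi2U (A.comap f) (aeval c p) ↔ smi2U A (aeval (f c) p) := by
  rw [dmi_smi2U_comap, dmi_map_aeval]

end Comap


end Fermat.Agent.S34
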