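import Mathlib
import Fermat.Agent.S37.FrobSeries

/-!
# S34, package C (formal part): the derivation `θ = t d/dt` and the Fermat quotient of a series

For `h ∈ ℤ((t))`, a prime `q` and `φ : t ↦ t^q` put `δ := (h^q - φ h)/q ∈ ℤ((t))`.  Then

* `thd_main_int`:  `θ δ = h^(q-1) θh - φ(θh)` exactly in `ℤ((t))`  (because `θ ∘ φ = q φ ∘ θ`);
* `thd_main_mod`:  over a field `k` of characteristic `q`:
  `θ δ̄ = θh̄ * (h̄^(q-1) - (θh̄)^(q-1))`;
* `thd_rational`:  if `δ̄ * D(h̄) = P(h̄)` for polynomials `P, D` then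
  `(θh̄)^(q-1) * D(h̄)^2 = (X^(q-1) D^2 - P' D + P D')(h̄)`;
* `thd_unit`:  for `ν̄ := θh̄ / (θh̄)^q` this reads `ν̄ * N(h̄) = D(h̄)^2`.

No modular input: everything is formal in Laurent series.
-/

set_option autoImplicit false

open ModularCurve Polynomial

namespace Fermat.Agent.S34

section Theta

variable (R : Type*) [CommRing R]

/-- The underlying function of `θ = t d/dt` on Laurent series. -/
def thdThetaFun (f : LaurentSeries R) : LaurentSeries R :=
  ⟨fun n => (n : R) * f.coeff n, f.isPWO_support.mono (fun n hn => by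
    intro h
    apply hn
    show (n : R) * f.coeff n = 0
    rw [h, mul_zero])⟩

@[simp]
theorem thdThetaFun_coeff (f : LaurentSeries R) (n : ℤ) :
    (thdThetaFun R f).coeff n = (n : R) * f.coeff n := rfl

theorem thdThetaFun_support (f : LaurentSeries R) :
    (thdThetaFun R f).support ⊆ f.support := by
  intro n hn h
  apply hn
  show (n : R) * f.coeff n = 0
  rw [h, mul_zero]

theorem thdThetaFun_mul (f g : LaurentSeries R) :
    thdThetaFun R (f * g) = f * thdThetaFun R g + g * thdThetaFun R f := by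
  ext n
  rw [thdThetaFun_coeff, HahnSeries.coeff_add, HahnSeries.coeff_mul,
    HahnSeries.coeff_mul_right' g.isPWO_support (thdThetaFun_support R g),
    mul_comm g (thdThetaFun R f),
    HahnSeries.coeff_mul_left' f.isPWO_support (thdThetaFun_support R f),
    Finset.mul_sum, ← Finset.sum_add_distrib]
  refine Finset.sum_congr rfl fun ij hij => ?_
  rw [Finset.mem_antidiagonal] at hij
  rw [thdThetaFun_coeff, thdThetaFun_coeff, ← hij.2.2]
  push_cast
  ring

theorem thd_algebraMap_eq_single (c : R) :
    algebraMap R (LaurentSeries R) c = HahnSeries.single 0 c := by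
  have h1 : algebraMap R (PowerSeries R) c = PowerSeries.C c := by
    simp
  rw [HahnSeries.algebraMap_apply', h1, HahnSeries.ofPowerSeries_C]
  rfl

/-- `θ = t d/dt` as a derivation of `R((t))`. -/
def thdTheta : Derivation R (LaurentSeries R) (LaurentSeries R) where
  toFun := thdThetaFun R
  map_add' f g := by
    ext n
    simp [mul_add]
  map_smul' r f := by
    have hC : thdThetaFun R (algebraMap R (LaurentSeries R) r) = 0 := by
      ext n
      rw [thdThetaFun_coeff, thd_algebraMap_eq_single, HahnSeries.coeff_zero]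
      by_cases h : n = 0
      · subst h
        simp
      · rw [HahnSeries.coeff_single_of_ne h, mul_zero]
    rw [RingHom.id_apply, Algebra.smul_def, thdThetaFun_mul, hC, mul_zero, add_zero,
      thd_algebraMap_eq_single, ← HahnSeries.C_apply, HahnSeries.C_mul_eq_smul]
  map_one_eq_zero' := by
    ext n
    show (n : R) * (1 : LaurentSeries R).coeff n = 0
    rw [HahnSeries.coeff_one]
    split_ifs with h
    · rw [h]
      simp
    · simp
  leibniz' f g := by
    show thdThetaFun R (f * g) = f • thdThetaFun R g + g • thdThetaFun R f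
    rw [thdThetaFun_mul, smul_eq_mul, smul_eq_mul]

@[simp]
theorem thdTheta_coeff (f : LaurentSeries R) (n : ℤ) :
    (thdTheta R f).coeff n = (n : R) * f.coeff n := rfl

variable {R}

theorem thdTheta_mul (f g : LaurentSeries R) :
    thdTheta R (f * g) = f * thdTheta R g + g * thdTheta R f := by
  rw [Derivation.leibniz, smul_eq_mul, smul_eq_mul]

theorem thdTheta_pow (f : LaurentSeries R) (n : ℕ) :
    thdTheta R (f ^ n) = (n : LaurentSeries R) * f ^ (n - 1) * thdTheta R f := by
  rw [Derivation.leibniz_pow, nsmul_eq_mul, smul_eq_mul, mul_assoc]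

/-- `θ` commutes with change of coefficients. -/
theorem thdTheta_coeffMap {S : Type*} [CommRing S] (φ : R →+* S) (f : LaurentSeries R) :
    coeffMap φ (thdTheta R f) = thdTheta S (coeffMap φ f) := by
  ext n
  simp

/-- `θ ∘ φ_d = d • φ_d ∘ θ` for the substitution `φ_d : t ↦ t^d`. -/
theorem thdTheta_qExpand (d : ℕ) [NeZero d] (f : LaurentSeries R) :
    thdTheta R (qExpand R d f) = (d : LaurentSeries R) * qExpand R d (thdTheta R f) := by
  ext n
  have hcast : (d : LaurentSeries R) = HahnSeries.C (d : R) := by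
    rw [map_natCast]
  rw [hcast, HahnSeries.C_mul_eq_smul, HahnSeries.coeff_smul, thdTheta_coeff, smul_eq_mul]
  by_cases hn : (d : ℤ) ∣ n
  · obtain ⟨m, rfl⟩ := hn
    rw [qExpand_coeff_mul, qExpand_coeff_mul, thdTheta_coeff]
    push_cast
    ring
  · rw [qExpand_coeff_of_not_dvd d _ hn, qExpand_coeff_of_not_dvd d _ hn, mul_zero, mul_zero]

end Theta

section Main

variable (q : ℕ) [Fact q.Prime]

/-- **The identity over `ℤ`.** If `q δ = h^q - h(t^q)` then `θδ = h^(q-1) θh - (θh)(t^q)`. -/
theorem thd_main_int (h δ : LaurentSeries ℤ)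
    (hδ : (q : LaurentSeries ℤ) * δ = h ^ q - qExpand ℤ q h) :
    thdTheta ℤ δ = h ^ (q - 1) * thdTheta ℤ h - qExpand ℤ q (thdTheta ℤ h) := by
  have hq : (q : LaurentSeries ℤ) ≠ 0 := by
    intro h0
    have hcast : (q : LaurentSeries ℤ) = HahnSeries.C (q : ℤ) := by
      rw [map_natCast]
    rw [hcast, map_eq_zero_iff _ HahnSeries.C_injective] at h0
    exact (Fact.out : q.Prime).ne_zero (by exact_mod_cast h0)
  have h1 := congrArg (thdTheta ℤ) hδ
  rw [map_sub, thdTheta_pow, thdTheta_qExpand, thdTheta_mul] at h1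
  have h2 : thdTheta ℤ (q : LaurentSeries ℤ) = 0 := by
    rw [← map_natCast (algebraMap ℤ (LaurentSeries ℤ)) q]
    exact (thdTheta ℤ).map_algebraMap _
  rw [h2, mul_zero, add_zero] at h1
  apply mul_left_cancel₀ hq
  rw [h1]
  ring

/-- existence of the Fermat quotient `δ` of an integral Laurent series -/
theorem thd_exists_delta (h : LaurentSeries ℤ) :
    ∃ δ : LaurentSeries ℤ, (q : LaurentSeries ℤ) * δ = h ^ q - qExpand ℤ q h := by
  have hq : q.Prime := Fact.out
  set x : LaurentSeries ℤ := h ^ q - qExpand ℤ q h with hx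
  have h0 : coeffMap (Int.castRingHom (ZMod q)) x = 0 := by
    rw [hx, map_sub, map_pow, coeffMap_qExpand, Fermat.Agent.S37.tvf_pow_char q]
    have : frobenius (ZMod q) q = RingHom.id _ := by
      ext a
      simp
    rw [this, coeffMap_id, sub_self]
  have hdvd : ∀ n : ℤ, (q : ℤ) ∣ x.coeff n := by
    intro n
    have := congrArg (fun y : LaurentSeries (ZMod q) => y.coeff n) h0
    simp only [coeffMap_coeff, HahnSeries.coeff_zero] at this
    exact (ZMod.intCast_zmod_eq_zero_iff_dvd _ _).mp this
  refine ⟨⟨fun n => x.coeff n / (q : ℤ), x.isPWO_support.mono (fun n hn => ?_)⟩, ?_⟩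
  · intro h'
    apply hn
    show x.coeff n / (q : ℤ) = 0
    rw [h', Int.zero_ediv]
  · ext n
    have hcast : (q : LaurentSeries ℤ) = HahnSeries.C (q : ℤ) := by
      rw [map_natCast]
    rw [hcast, HahnSeries.C_mul_eq_smul, HahnSeries.coeff_smul, smul_eq_mul]
    exact Int.mul_ediv_cancel' (hdvd n)

variable {k : Type*} [Field k] [CharP k q]

omit [Fact q.Prime] in
theorem thd_intCast_pow [Fact q.Prime] (n : ℤ) : ((n : k)) ^ q = (n : k) := by
  have h := congrArg (ZMod.castHom (dvd_refl q) k) (ZMod.pow_card (n : ZMod q))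
  rwa [map_pow, map_intCast] at h

/-- **The identity mod `q`.** -/
theorem thd_main_mod (h δ : LaurentSeries ℤ)
    (hδ : (q : LaurentSeries ℤ) * δ = h ^ q - qExpand ℤ q h) :
    thdTheta k (coeffMap (Int.castRingHom k) δ) =
      thdTheta k (coeffMap (Int.castRingHom k) h) *
        (coeffMap (Int.castRingHom k) h ^ (q - 1)
          - thdTheta k (coeffMap (Int.castRingHom k) h) ^ (q - 1)) := by
  have hq : q.Prime := Fact.out
  have h1 := congrArg (coeffMap (Int.castRingHom k)) (thd_main_int q h δ hδ)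
  rw [thdTheta_coeffMap, map_sub, map_mul, map_pow, thdTheta_coeffMap, coeffMap_qExpand,
    thdTheta_coeffMap] at h1
  rw [h1]
  set H := coeffMap (Int.castRingHom k) h
  have h2 : qExpand k q (thdTheta k H) = thdTheta k H ^ q := by
    rw [Fermat.Agent.S37.tvf_pow_char q]
    congr 1
    -- the coefficients of `θ H` lie in the prime field, so Frobenius fixes them
    ext n
    rw [coeffMap_coeff, thdTheta_coeff, coeffMap_coeff, frobenius_def, mul_pow]
    have e1 : ((n : k)) ^ q = (n : k) := thd_intCast_pow q n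
    have e2 : ((Int.castRingHom k) (h.coeff n)) ^ q = (Int.castRingHom k) (h.coeff n) :=
      thd_intCast_pow q (h.coeff n)
    rw [e1]
    exact congrArg _ e2.symm
  rw [h2]
  have h3 : thdTheta k H ^ q = thdTheta k H * thdTheta k H ^ (q - 1) := by
    rw [← pow_succ', Nat.sub_add_cancel hq.one_le]
  rw [h3]
  ring

end Main

section Rational

variable {k : Type*} [Field k]

/-- chain rule for `θ` on polynomials in a series -/
theorem thdTheta_aeval (H : LaurentSeries k) (P : k[X]) :
    thdTheta k (aeval H P) = aeval H (derivative P) * thdTheta k H := by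
  rw [Derivation.map_aeval, smul_eq_mul]

/-- **Rational form.** If `θδ = θH (H^(q-1) - (θH)^(q-1))`, `θH ≠ 0` and `δ D(H) = P(H)`, then
`(θH)^(q-1) D(H)^2 = (X^(q-1) D^2 - P' D + P D')(H)`. -/
theorem thd_rational (q : ℕ) (H δ : LaurentSeries k) (hH : thdTheta k H ≠ 0)
    (hmain : thdTheta k δ = thdTheta k H * (H ^ (q - 1) - thdTheta k H ^ (q - 1)))
    (P D : k[X]) (hPD : δ * aeval H D = aeval H P) :
    thdTheta k H ^ (q - 1) * aeval H D ^ 2 =
      aeval H (X ^ (q - 1) * D ^ 2 - derivative P * D + P * derivative D) := by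
  have h1 := congrArg (thdTheta k) hPD
  rw [thdTheta_mul, thdTheta_aeval, thdTheta_aeval, hmain] at h1
  -- h1 : δ * (D'(H) θH) + D(H) * (θH * (H^(q-1) - E)) = P'(H) θH
  have h2 : thdTheta k H * (aeval H P * aeval H (derivative D)
      + aeval H D ^ 2 * (H ^ (q - 1) - thdTheta k H ^ (q - 1)))
      = thdTheta k H * (aeval H (derivative P) * aeval H D) := by
    linear_combination aeval H D * h1 - thdTheta k H * aeval H (derivative D) * hPD
  have h3 := mul_left_cancel₀ hH h2
  simp only [map_add, map_sub, map_mul, map_pow, aeval_X]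
  linear_combination -h3

/-- **The unit.** With `ν := θH / (θH)^q` (the reduction of `q dh/dh_q`):
`ν * N(H) = D(H)^2`, `N := X^(q-1) D^2 - P' D + P D'`. -/
theorem thd_unit (q : ℕ) (hq : 1 ≤ q) (H δ ν : LaurentSeries k) (hH : thdTheta k H ≠ 0)
    (hmain : thdTheta k δ = thdTheta k H * (H ^ (q - 1) - thdTheta k H ^ (q - 1)))
    (P D : k[X]) (hPD : δ * aeval H D = aeval H P)
    (hν : ν * thdTheta k H ^ q = thdTheta k H) :
    ν * aeval H (X ^ (q - 1) * D ^ 2 - derivative P * D + P * derivative D) = aeval H D ^ 2 := by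
  rw [← thd_rational q H δ hH hmain P D hPD]
  have h1 : thdTheta k H ^ q = thdTheta k H * thdTheta k H ^ (q - 1) := by
    rw [← pow_succ', Nat.sub_add_cancel hq]
  rw [h1] at hν
  have h2 : thdTheta k H * (ν * thdTheta k H ^ (q - 1)) = thdTheta k H * 1 := by
    rw [mul_one]
    linear_combination hν
  have h3 := mul_left_cancel₀ hH h2
  linear_combination aeval H D ^ 2 * h3

end Rational

end Fermat.Agent.S34
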