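import Fermat.Agent.S37.Swap
import Fermat.Agent.S18.BaseChangeField

/-!
# S34, package A [VAL2], part 2: the swap over a field of definition

`K0` a field with an embedding into `ℚ̄` (given as `[Algebra K0 ℚ̄]`; in the applications an
intermediate field of `ℚ̄ / ℚ`), `ℓ ∤ M` a prime.  The swap `w` of the function field of
`X₀(M ℓ)` over `ℚ̄` (`S37.swp`) preserves the function field over `K0`:

* `va2Jd K N d hd`: the generator `j(q^d)` of the level-`N` function field over any `K`;
  `va2_mem_of_gen` (induction principle), `va2_ringHom_ext`;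
* `va2Swap M ℓ hℓ hM K0`: the swap over `K0`, characterised by `va2Swap_spec`
  (`bcfHom (w x) = swp (bcfHom x)`); `va2Swap_swap`, `va2Swap_const`, `va2Swap_alpha`,
  `va2Swap_beta`, `va2Swap_jd1`, `va2Swap_jd2`;
* `va2Swap_gal`: the swap commutes with the coefficientwise action `arithmeticRingAut _ σ` of
  `σ : K0 ≃ₐ[ℚ] K0`.
-/

set_option autoImplicit false

open AlgebraicCurve ModularCurve Fermat.Agent.S18 Fermat.Agent.S37 Fermat.Agent.S24

namespace Fermat.Agent.S34

local notation "Qb" => AlgebraicClosure ℚ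

/-! ### Generators of the function field over any field -/

section Gen

variable (K : Type*) [Field K] [Algebra ℚ K] (N : ℕ)

/-- the generator `j(q^d)`, `d ∣ N`, of the level-`N` function field over `K` -/
noncomputable def va2Jd (d : ℕ) [NeZero d] (hd : d ∣ N) :
    ↥(laurentBaseChange K (modularFunctionFieldFull N)) :=
  ⟨coeffEmb K (qExpand ℚ d jq), coeffEmb_mem_laurentBaseChange K (jqd_mem_full N hd)⟩

theorem va2Jd_coe (d : ℕ) [NeZero d] (hd : d ∣ N) :
    ((va2Jd K N d hd : ↥(laurentBaseChange K (modularFunctionFieldFull N))) : LaurentSeries K)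
      = coeffEmb K (qExpand ℚ d jq) := rfl

variable {K N}

/-- Induction principle: a subfield of the level-`N` function field over `K` containing the
constants and the `j(q^d)`, `d ∣ N`, is everything. -/
theorem va2_mem_of_gen (S : Subfield ↥(laurentBaseChange K (modularFunctionFieldFull N)))
    (hc : ∀ c : K, algebraMap K ↥(laurentBaseChange K (modularFunctionFieldFull N)) c ∈ S)
    (hj : ∀ (d : ℕ) [NeZero d] (hd : d ∣ N), va2Jd K N d hd ∈ S)
    (x : ↥(laurentBaseChange K (modularFunctionFieldFull N))) : x ∈ S := by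
  set S' : Subfield (LaurentSeries K) :=
    S.map (laurentBaseChange K (modularFunctionFieldFull N)).val.toRingHom with hS'
  have hconst : ∀ c : K, algebraMap K (LaurentSeries K) c ∈ S' := fun c =>
    ⟨algebraMap K ↥(laurentBaseChange K (modularFunctionFieldFull N)) c, hc c, rfl⟩
  have hle : Subfield.closure (Set.range (algebraMap K (LaurentSeries K)) ∪
      (⇑(coeffEmb K) '' (modularFunctionFieldFull N : Set (LaurentSeries ℚ)))) ≤ S' := by
    rw [Subfield.closure_le]
    rintro y (⟨c, rfl⟩ | ⟨z, hz, rfl⟩)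
    · exact hconst c
    · have hz' : z ∈ (modularFunctionFieldFull N).toSubfield := hz
      rw [modularFunctionFieldFull, IntermediateField.adjoin_toSubfield] at hz'
      have hle2 : Subfield.closure (Set.range (algebraMap ℚ (LaurentSeries ℚ)) ∪
          divisorExpansions N) ≤ S'.comap (coeffEmb K) := by
        rw [Subfield.closure_le]
        rintro w (⟨c, rfl⟩ | ⟨d, hd, hdN, rfl⟩)
        · show coeffEmb K (algebraMap ℚ (LaurentSeries ℚ) c) ∈ S'
          rw [coeffEmb, algebraMap_laurentSeries_eq_single, coeffMap_single,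
            ← algebraMap_laurentSeries_eq_single]
          exact hconst _
        · show coeffEmb K (qExpand ℚ d jq) ∈ S'
          exact ⟨va2Jd K N d hdN, hj d hdN, rfl⟩
      exact hle2 hz'
  have hx : (x : LaurentSeries K) ∈ S' := hle (mem_laurentBaseChange_iff.mp x.2)
  obtain ⟨y, hy, hyx⟩ := hx
  have : y = x := Subtype.ext hyx
  rw [← this]
  exact hy

/-- Two ring homomorphisms out of the level-`N` function field over `K` agreeing on the
constants and on the `j(q^d)` are equal. -/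
theorem va2_ringHom_ext {E : Type*} [Field E]
    (φ ψ : ↥(laurentBaseChange K (modularFunctionFieldFull N)) →+* E)
    (hc : ∀ c : K, φ (algebraMap K _ c) = ψ (algebraMap K _ c))
    (hj : ∀ (d : ℕ) [NeZero d] (hd : d ∣ N), φ (va2Jd K N d hd) = ψ (va2Jd K N d hd)) :
    φ = ψ :=
  RingHom.ext fun x => va2_mem_of_gen (φ.eqLocusField ψ) hc (fun d _ hd => hj d hd) x

end Gen

/-! ### Lifting a ring homomorphism along an injection -/

section Lift

variable {R S : Type*} [Ring R] [Ring S]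

/-- a ring homomorphism `g : R → S` with values in the image of an injective `ι : R → S`,
read as an endomorphism of `R` -/
noncomputable def va2Lift (ι : R →+* S) (hι : Function.Injective ι) (g : R →+* S)
    (h : ∀ x, ∃ y, ι y = g x) : R →+* R where
  toFun x := Classical.choose (h x)
  map_one' := hι (by rw [Classical.choose_spec (h 1), map_one, map_one])
  map_mul' x y := hι (by
    rw [Classical.choose_spec (h (x * y)), map_mul, map_mul, Classical.choose_spec (h x),
      Classical.choose_spec (h y)])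
  map_zero' := hι (by rw [Classical.choose_spec (h 0), map_zero, map_zero])
  map_add' x y := hι (by
    rw [Classical.choose_spec (h (x + y)), map_add, map_add, Classical.choose_spec (h x),
      Classical.choose_spec (h y)])

theorem va2Lift_spec (ι : R →+* S) (hι : Function.Injective ι) (g : R →+* S)
    (h : ∀ x, ∃ y, ι y = g x) (x : R) : ι (va2Lift ι hι g h x) = g x :=
  Classical.choose_spec (h x)

end Lift

/-! ### The swap over `K0` -/

section Swap

variable (M ℓ : ℕ) [NeZero M] [NeZero ℓ] (hℓ : ℓ.Prime) (hM : ¬ ℓ ∣ M)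
  (K0 : Type*) [Field K0] [Algebra ℚ K0] [Algebra K0 Qb]

omit [NeZero M] [NeZero ℓ] in
theorem va2_bcf_jd (N : ℕ) [NeZero N] (d : ℕ) [NeZero d] (hd : d ∣ N) :
    bcfHom K0 Qb (modularFunctionFieldFull N) (va2Jd K0 N d hd) = jdBar N d hd :=
  Subtype.ext (bcf_coeffMap_coeffEmb K0 Qb _)

theorem va2_swp_mem_range (x : ↥(laurentBaseChange K0 (modularFunctionFieldFull (M * ℓ)))) :
    ∃ y : ↥(laurentBaseChange K0 (modularFunctionFieldFull (M * ℓ))),
      bcfHom K0 Qb (modularFunctionFieldFull (M * ℓ)) y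
        = ((swp M ℓ hℓ hM).comp (bcfHom K0 Qb (modularFunctionFieldFull (M * ℓ)))) x := by
  have key : x ∈ ((bcfHom K0 Qb (modularFunctionFieldFull (M * ℓ))).fieldRange).comap
      ((swp M ℓ hℓ hM).comp (bcfHom K0 Qb (modularFunctionFieldFull (M * ℓ)))) := by
    refine va2_mem_of_gen
      (((bcfHom K0 Qb (modularFunctionFieldFull (M * ℓ))).fieldRange).comap
        ((swp M ℓ hℓ hM).comp (bcfHom K0 Qb (modularFunctionFieldFull (M * ℓ))))) ?_ ?_ x
    · intro c
      refine ⟨algebraMap K0 ↥(laurentBaseChange K0 (modularFunctionFieldFull (M * ℓ))) c, ?_⟩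
      show bcfHom K0 Qb (modularFunctionFieldFull (M * ℓ))
          (algebraMap K0 ↥(laurentBaseChange K0 (modularFunctionFieldFull (M * ℓ))) c)
        = swp M ℓ hℓ hM (bcfHom K0 Qb (modularFunctionFieldFull (M * ℓ))
          (algebraMap K0 ↥(laurentBaseChange K0 (modularFunctionFieldFull (M * ℓ))) c))
      rw [bcfHom_algebraMap]
      exact (swp_const M ℓ hℓ hM _).symm
    · intro e _ he
      show swp M ℓ hℓ hM (bcfHom K0 Qb (modularFunctionFieldFull (M * ℓ))
        (va2Jd K0 (M * ℓ) e he)) ∈ (bcfHom K0 Qb (modularFunctionFieldFull (M * ℓ))).fieldRange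
      rw [va2_bcf_jd]
      rcases swp_dvd_cases M ℓ hℓ he with h | ⟨d, hd, rfl⟩
      · have h1 := swp_jd1 M ℓ hℓ hM e h
        rw [h1]
        exact ⟨va2Jd K0 (M * ℓ) (ℓ * e)
          (by rw [mul_comm M ℓ]; exact Nat.mul_dvd_mul_left ℓ h), va2_bcf_jd K0 (M * ℓ) (ℓ * e) _⟩
      · have : NeZero d := ⟨ne_zero_of_dvd_ne_zero (NeZero.ne M) hd⟩
        have h1 := swp_jd2 M ℓ hℓ hM d hd
        rw [h1]
        exact ⟨va2Jd K0 (M * ℓ) d (hd.mul_right ℓ), va2_bcf_jd K0 (M * ℓ) d _⟩
  obtain ⟨y, hy⟩ := key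
  exact ⟨y, hy⟩

/-- **The swap over `K0`.** -/
noncomputable def va2Swap :
    ↥(laurentBaseChange K0 (modularFunctionFieldFull (M * ℓ))) →+*
      ↥(laurentBaseChange K0 (modularFunctionFieldFull (M * ℓ))) :=
  va2Lift (bcfHom K0 Qb (modularFunctionFieldFull (M * ℓ))) (bcfHom_injective _ _ _)
    ((swp M ℓ hℓ hM).comp (bcfHom K0 Qb (modularFunctionFieldFull (M * ℓ))))
    (va2_swp_mem_range M ℓ hℓ hM K0)

theorem va2Swap_spec (x : ↥(laurentBaseChange K0 (modularFunctionFieldFull (M * ℓ)))) :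
    bcfHom K0 Qb (modularFunctionFieldFull (M * ℓ)) (va2Swap M ℓ hℓ hM K0 x)
      = swp M ℓ hℓ hM (bcfHom K0 Qb (modularFunctionFieldFull (M * ℓ)) x) :=
  va2Lift_spec (bcfHom K0 Qb (modularFunctionFieldFull (M * ℓ))) (bcfHom_injective _ _ _)
    ((swp M ℓ hℓ hM).comp (bcfHom K0 Qb (modularFunctionFieldFull (M * ℓ))))
    (va2_swp_mem_range M ℓ hℓ hM K0) x

/-- `w ∘ w = id` -/
theorem va2Swap_swap (x : ↥(laurentBaseChange K0 (modularFunctionFieldFull (M * ℓ)))) :
    va2Swap M ℓ hℓ hM K0 (va2Swap M ℓ hℓ hM K0 x) = x := by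
  apply bcfHom_injective K0 Qb (modularFunctionFieldFull (M * ℓ))
  rw [va2Swap_spec, va2Swap_spec, swp_swp]

theorem va2Swap_const (c : K0) :
    va2Swap M ℓ hℓ hM K0
        (algebraMap K0 ↥(laurentBaseChange K0 (modularFunctionFieldFull (M * ℓ))) c)
      = algebraMap K0 ↥(laurentBaseChange K0 (modularFunctionFieldFull (M * ℓ))) c := by
  apply bcfHom_injective K0 Qb (modularFunctionFieldFull (M * ℓ))
  rw [va2Swap_spec, bcfHom_algebraMap, swp_const]

theorem va2_bcf_alpha (x : ↥(laurentBaseChange K0 (modularFunctionFieldFull M))) :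
    bcfHom K0 Qb (modularFunctionFieldFull (M * ℓ)) (heckeAlphaBar K0 M ℓ x)
      = heckeAlphaBar Qb M ℓ (bcfHom K0 Qb (modularFunctionFieldFull M) x) := by
  apply Subtype.ext
  rw [bcfHom_coe, coe_heckeAlphaBar, coe_heckeAlphaBar, bcfHom_coe]

omit [NeZero M] in
theorem va2_bcf_beta (x : ↥(laurentBaseChange K0 (modularFunctionFieldFull M))) :
    bcfHom K0 Qb (modularFunctionFieldFull (M * ℓ)) (heckeBetaBar K0 M ℓ x)
      = heckeBetaBar Qb M ℓ (bcfHom K0 Qb (modularFunctionFieldFull M) x) := by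
  apply Subtype.ext
  rw [bcfHom_coe, coe_heckeBetaBar, coe_heckeBetaBar, bcfHom_coe, coeffMap_qExpand]

/-- `w ∘ α = β` -/
theorem va2Swap_alpha (x : ↥(laurentBaseChange K0 (modularFunctionFieldFull M))) :
    va2Swap M ℓ hℓ hM K0 (heckeAlphaBar K0 M ℓ x) = heckeBetaBar K0 M ℓ x := by
  apply bcfHom_injective K0 Qb (modularFunctionFieldFull (M * ℓ))
  rw [va2Swap_spec, va2_bcf_alpha, va2_bcf_beta, swp_alpha]

/-- `w ∘ β = α` -/
theorem va2Swap_beta (x : ↥(laurentBaseChange K0 (modularFunctionFieldFull M))) :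
    va2Swap M ℓ hℓ hM K0 (heckeBetaBar K0 M ℓ x) = heckeAlphaBar K0 M ℓ x := by
  apply bcfHom_injective K0 Qb (modularFunctionFieldFull (M * ℓ))
  rw [va2Swap_spec, va2_bcf_alpha, va2_bcf_beta, swp_beta]

theorem va2Swap_jd1 (d : ℕ) [NeZero d] (hd : d ∣ M) :
    va2Swap M ℓ hℓ hM K0 (va2Jd K0 (M * ℓ) d (hd.mul_right ℓ))
      = va2Jd K0 (M * ℓ) (ℓ * d)
          (by rw [mul_comm M ℓ]; exact Nat.mul_dvd_mul_left ℓ hd) := by
  apply bcfHom_injective K0 Qb (modularFunctionFieldFull (M * ℓ))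
  rw [va2Swap_spec, va2_bcf_jd, va2_bcf_jd]
  exact swp_jd1 M ℓ hℓ hM d hd

theorem va2Swap_jd2 (d : ℕ) [NeZero d] (hd : d ∣ M) :
    va2Swap M ℓ hℓ hM K0 (va2Jd K0 (M * ℓ) (ℓ * d)
          (by rw [mul_comm M ℓ]; exact Nat.mul_dvd_mul_left ℓ hd))
      = va2Jd K0 (M * ℓ) d (hd.mul_right ℓ) := by
  apply bcfHom_injective K0 Qb (modularFunctionFieldFull (M * ℓ))
  rw [va2Swap_spec, va2_bcf_jd, va2_bcf_jd]
  exact swp_jd2 M ℓ hℓ hM d hd

theorem va2Swap_bijective : Function.Bijective (va2Swap M ℓ hℓ hM K0) :=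
  Function.Involutive.bijective (va2Swap_swap M ℓ hℓ hM K0)

/-- the swap over `K0` as a ring automorphism -/
noncomputable def va2SwapEquiv :
    ↥(laurentBaseChange K0 (modularFunctionFieldFull (M * ℓ))) ≃+*
      ↥(laurentBaseChange K0 (modularFunctionFieldFull (M * ℓ))) :=
  RingEquiv.ofBijective (va2Swap M ℓ hℓ hM K0) (va2Swap_bijective M ℓ hℓ hM K0)

theorem va2SwapEquiv_apply (x : ↥(laurentBaseChange K0 (modularFunctionFieldFull (M * ℓ)))) :
    va2SwapEquiv M ℓ hℓ hM K0 x = va2Swap M ℓ hℓ hM K0 x := rfl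

/-! ### The coefficientwise Galois action -/

omit [NeZero M] [NeZero ℓ] [Algebra K0 Qb] in
theorem va2_gal_jd (N : ℕ) (σ : K0 ≃ₐ[ℚ] K0) (d : ℕ) [NeZero d] (hd : d ∣ N) :
    arithmeticRingAut (modularFunctionFieldFull N) σ (va2Jd K0 N d hd) = va2Jd K0 N d hd :=
  Subtype.ext (coeffMap_coeffEmb σ _)

/-- The swap commutes with the coefficientwise Galois action. -/
theorem va2Swap_gal (σ : K0 ≃ₐ[ℚ] K0)
    (x : ↥(laurentBaseChange K0 (modularFunctionFieldFull (M * ℓ)))) :
    va2Swap M ℓ hℓ hM K0 (arithmeticRingAut (modularFunctionFieldFull (M * ℓ)) σ x)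
      = arithmeticRingAut (modularFunctionFieldFull (M * ℓ)) σ (va2Swap M ℓ hℓ hM K0 x) := by
  have h := va2_ringHom_ext
    ((va2Swap M ℓ hℓ hM K0).comp
      (arithmeticRingAut (modularFunctionFieldFull (M * ℓ)) σ).toRingHom)
    ((arithmeticRingAut (modularFunctionFieldFull (M * ℓ)) σ).toRingHom.comp
      (va2Swap M ℓ hℓ hM K0)) ?_ ?_
  · exact congrArg (fun φ => φ x) h
  · intro c
    show va2Swap M ℓ hℓ hM K0 (arithmeticRingAut (modularFunctionFieldFull (M * ℓ)) σ
        (algebraMap K0 ↥(laurentBaseChange K0 (modularFunctionFieldFull (M * ℓ))) c))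
      = arithmeticRingAut (modularFunctionFieldFull (M * ℓ)) σ (va2Swap M ℓ hℓ hM K0
        (algebraMap K0 ↥(laurentBaseChange K0 (modularFunctionFieldFull (M * ℓ))) c))
    rw [arithmeticRingAut_algebraMap, va2Swap_const, va2Swap_const, arithmeticRingAut_algebraMap]
  · intro e _ he
    show va2Swap M ℓ hℓ hM K0 (arithmeticRingAut (modularFunctionFieldFull (M * ℓ)) σ
        (va2Jd K0 (M * ℓ) e he))
      = arithmeticRingAut (modularFunctionFieldFull (M * ℓ)) σ (va2Swap M ℓ hℓ hM K0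
        (va2Jd K0 (M * ℓ) e he))
    rw [va2_gal_jd]
    rcases swp_dvd_cases M ℓ hℓ he with h | ⟨d, hd, rfl⟩
    · rw [va2Swap_jd1 M ℓ hℓ hM K0 e h, va2_gal_jd]
    · have : NeZero d := ⟨ne_zero_of_dvd_ne_zero (NeZero.ne M) hd⟩
      rw [va2Swap_jd2 M ℓ hℓ hM K0 d hd, va2_gal_jd]

end Swap

end Fermat.Agent.S34
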