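import Mathlib
import Fermat.Agent.S18.CoreInstGauss
import Fermat.Agent.S34.Val2Swap
import Fermat.Agent.S34.ThetaDelta

/-!
# S34, leaf CUSP-KRON: the Kronecker congruences in the valuation-ring language

`K` a field, `A : ValuationSubring K` with `(q : K)` a non-unit of `A` (`q` prime), `grV A` the
Gauss ring of `K((t))` with residue map `grRho A`.

Series level (`krv_int_*`, `krv_frob_*`): the image in `K((t))` of an integral series
`z ∈ ℤ((t))` lies in the Gauss ring, its residue is the reduction of `z`; it is a unit of the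
Gauss ring when its reduction is nonzero; and `z ^ q - z(t^q)` has residue zero.

Field level: `F` the level-`N` function field over `K0`, `V₁` a valuation subring of `F` with
`x ∈ V₁ ↔ (x : K0((t))) ∈ grV A0` (the Gauss valuation ring), `w : F →+* F` and `V₂` a
valuation subring with `x ∈ V₂ ↔ w x ∈ V₁` (`V₂ = V₁.comap w`, `w` the swap).

* `krv_V1_gen`, `krv_V2_gen`: for `x, xq ∈ F` with expansions `z`, `z(t^q)`, `z ∈ ℤ((t))`:
  `x, xq ∈ V₁`, `x ^ q - xq ∈ 𝔪_{V₁}`; if `w x = xq`, `w xq = x`: `x, xq ∈ V₂`,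
  `x - xq ^ q ∈ 𝔪_{V₂}`; the inverses lie in `V₁`, `V₂` when `z` is nonzero modulo `q`;
* `krv_V1`, `krv_V2`: the same for `J = j(t) = va2Jd K0 N 1`, `Jq = j(t^q) = va2Jd K0 N q`;
* `krv_swap_V2`: the hypotheses on `w` for the swap `va2Swap M q hq hM K0` at level `M * q`.

Names are prefixed `krv_`.
-/

set_option autoImplicit false
set_option linter.unusedSectionVars false

noncomputable section

open ModularCurve Fermat.Agent.S18 Fermat.Agent.S28

namespace Fermat.Agent.S34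

/-! ### Series level -/

section Series

variable {K : Type*} [Field K] (A : ValuationSubring K)

theorem krv_int_eq (z : LaurentSeries ℤ) :
    coeffMap (Int.castRingHom K) z = coeffMap A.subtype (coeffMap (Int.castRingHom A) z) := by
  rw [coeffMap_coeffMap]
  congr 1

/-- the image of an integral series lies in the Gauss ring -/
theorem krv_int_mem (z : LaurentSeries ℤ) : coeffMap (Int.castRingHom K) z ∈ grV A := by
  rw [krv_int_eq A]
  exact gr_coeffMap_mem A _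

/-- the residue of the image of an integral series is its reduction -/
theorem krv_int_rho (z : LaurentSeries ℤ) (h : coeffMap (Int.castRingHom K) z ∈ grV A) :
    grRho A ⟨coeffMap (Int.castRingHom K) z, h⟩
      = coeffMap (Int.castRingHom (IsLocalRing.ResidueField A)) z := by
  have e : (⟨coeffMap (Int.castRingHom K) z, h⟩ : grV A)
      = ⟨coeffMap A.subtype (coeffMap (Int.castRingHom A) z), gr_coeffMap_mem A _⟩ :=
    Subtype.ext (krv_int_eq A z)
  rw [e, grRho_coeffMap, coeffMap_coeffMap]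
  congr 1

/-- an integral series with nonzero reduction is a unit of the Gauss ring -/
theorem krv_int_inv_mem (z : LaurentSeries ℤ)
    (hz : coeffMap (Int.castRingHom (IsLocalRing.ResidueField A)) z ≠ 0) :
    (coeffMap (Int.castRingHom K) z)⁻¹ ∈ grV A :=
  gr_inv_mem A ⟨_, krv_int_mem A z⟩ (by rw [krv_int_rho]; exact hz)

variable (q : ℕ)

theorem krv_natCast_residue (hq : ((q : ℕ) : K) ∈ A.nonunits) :
    ((q : ℕ) : IsLocalRing.ResidueField A) = 0 := by
  have h1 : ((q : ℕ) : A) ∈ IsLocalRing.maximalIdeal A := by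
    rw [← ValuationSubring.coe_mem_nonunits_iff]
    simpa using hq
  have h2 := (IsLocalRing.residue_eq_zero_iff _).mpr h1
  rwa [map_natCast] at h2

/-- **Kronecker congruence, series level**: `z ^ q - z(t^q)` has residue zero. -/
theorem krv_frob_rho [Fact q.Prime] (hq : ((q : ℕ) : K) ∈ A.nonunits) (z : LaurentSeries ℤ)
    (h : coeffMap (Int.castRingHom K) (z ^ q - qExpand ℤ q z) ∈ grV A) :
    grRho A ⟨coeffMap (Int.castRingHom K) (z ^ q - qExpand ℤ q z), h⟩ = 0 := by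
  rw [krv_int_rho]
  obtain ⟨δ, hδ⟩ := thd_exists_delta q z
  have h0 : ((q : ℕ) : LaurentSeries (IsLocalRing.ResidueField A)) = 0 := by
    rw [← map_natCast (HahnSeries.C : IsLocalRing.ResidueField A →+* _) q,
      krv_natCast_residue A q hq, map_zero]
  rw [← hδ, map_mul, map_natCast, h0, zero_mul]

end Series

/-! ### Transport of nonunits along a ring homomorphism -/

section Comap

variable {F : Type*} [Field F]

theorem krv_comap_nonunits (V₁ V₂ : ValuationSubring F) (w : F →+* F)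
    (hV₂ : ∀ x : F, x ∈ V₂ ↔ w x ∈ V₁) (x : F) (hx : w x ∈ V₁.nonunits) : x ∈ V₂.nonunits := by
  rw [ValuationSubring.mem_nonunits_iff] at hx ⊢
  by_contra hcon
  rw [not_lt] at hcon
  have hx0 : x ≠ 0 := by
    rintro rfl
    rw [map_zero] at hcon
    exact absurd hcon (not_le.mpr zero_lt_one)
  have h1 : V₂.valuation x⁻¹ ≤ 1 := by
    rw [map_inv₀]
    exact inv_le_one_of_one_le₀ hcon
  have h2 : x⁻¹ ∈ V₂ := (V₂.valuation_le_one_iff _).mp h1
  have h3 : w x⁻¹ ∈ V₁ := (hV₂ _).mp h2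
  rw [map_inv₀] at h3
  have h4 : V₁.valuation (w x)⁻¹ ≤ 1 := (V₁.valuation_le_one_iff _).mpr h3
  rw [map_inv₀] at h4
  have hwx0 : V₁.valuation (w x) ≠ 0 := by
    rw [ne_eq, map_eq_zero, map_eq_zero]
    exact hx0
  have h5 : 1 ≤ V₁.valuation (w x) := (inv_le_one₀ (zero_lt_iff.mpr hwx0)).mp h4
  exact absurd hx (not_lt.mpr h5)

theorem krv_neg_nonunits (V : ValuationSubring F) (x : F) (hx : x ∈ V.nonunits) :
    -x ∈ V.nonunits := by
  rw [ValuationSubring.mem_nonunits_iff] at hx ⊢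
  rwa [Valuation.map_neg]

end Comap

/-! ### Field level -/

section Field

variable {K0 : Type*} [Field K0] [Algebra ℚ K0] (A0 : ValuationSubring K0)
  {N : ℕ} [NeZero N] (q : ℕ) [NeZero q] (hq : q.Prime)
  (hqA : ((q : ℕ) : K0) ∈ A0.nonunits)
  (V₁ : ValuationSubring ↥(laurentBaseChange K0 (modularFunctionFieldFull N)))
  (hVG : ∀ x : ↥(laurentBaseChange K0 (modularFunctionFieldFull N)),
    x ∈ V₁ ↔ (x : LaurentSeries K0) ∈ grV A0)

include hVG in
/-- elements with an integral expansion lie in the Gauss valuation ring -/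
theorem krv_mem_V1 (x : ↥(laurentBaseChange K0 (modularFunctionFieldFull N)))
    (z : LaurentSeries ℤ) (hx : (x : LaurentSeries K0) = coeffMap (Int.castRingHom K0) z) :
    x ∈ V₁ := by
  rw [hVG, hx]
  exact krv_int_mem A0 z

include hVG in
/-- elements with an integral expansion, nonzero modulo the maximal ideal, are units of the
Gauss valuation ring -/
theorem krv_inv_mem_V1 (x : ↥(laurentBaseChange K0 (modularFunctionFieldFull N)))
    (z : LaurentSeries ℤ) (hx : (x : LaurentSeries K0) = coeffMap (Int.castRingHom K0) z)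
    (hz : coeffMap (Int.castRingHom (IsLocalRing.ResidueField A0)) z ≠ 0) :
    x⁻¹ ∈ V₁ := by
  rw [hVG, IntermediateField.coe_inv, hx]
  exact krv_int_inv_mem A0 z hz

include hq hqA hVG in
/-- **Kronecker congruence in `V₁`**: for `x, xq` with expansions `z`, `z(t^q)`, `z` integral:
`x ^ q - xq ∈ 𝔪_{V₁}`. -/
theorem krv_V1_gen (x xq : ↥(laurentBaseChange K0 (modularFunctionFieldFull N)))
    (z : LaurentSeries ℤ) (hx : (x : LaurentSeries K0) = coeffMap (Int.castRingHom K0) z)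
    (hxq : (xq : LaurentSeries K0) = coeffMap (Int.castRingHom K0) (qExpand ℤ q z)) :
    x ∈ V₁ ∧ xq ∈ V₁ ∧ x ^ q - xq ∈ V₁.nonunits := by
  have : Fact q.Prime := ⟨hq⟩
  refine ⟨krv_mem_V1 A0 V₁ hVG x z hx, krv_mem_V1 A0 V₁ hVG xq _ hxq, ?_⟩
  rw [cinst_mem_nonunits_iff V₁ hVG]
  have hcoe : ((x ^ q - xq : ↥(laurentBaseChange K0 (modularFunctionFieldFull N))) :
      LaurentSeries K0) = coeffMap (Int.castRingHom K0) (z ^ q - qExpand ℤ q z) := by
    rw [map_sub, map_pow, ← hx, ← hxq]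
    rfl
  have hmem : ((x ^ q - xq : ↥(laurentBaseChange K0 (modularFunctionFieldFull N))) :
      LaurentSeries K0) ∈ grV A0 := by
    rw [hcoe]
    exact krv_int_mem A0 _
  refine ⟨hmem, ?_⟩
  have e : (⟨((x ^ q - xq : ↥(laurentBaseChange K0 (modularFunctionFieldFull N))) :
      LaurentSeries K0), hmem⟩ : grV A0)
      = ⟨coeffMap (Int.castRingHom K0) (z ^ q - qExpand ℤ q z), krv_int_mem A0 _⟩ :=
    Subtype.ext hcoe
  rw [e]
  exact krv_frob_rho A0 q hqA z _

include hq hqA hVG in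
/-- **Kronecker congruence in `V₂ = V₁.comap w`**: if `w` exchanges `x` and `xq`, then
`x - xq ^ q ∈ 𝔪_{V₂}`. -/
theorem krv_V2_gen (w : ↥(laurentBaseChange K0 (modularFunctionFieldFull N)) →+*
      ↥(laurentBaseChange K0 (modularFunctionFieldFull N)))
    (V₂ : ValuationSubring ↥(laurentBaseChange K0 (modularFunctionFieldFull N)))
    (hV₂ : ∀ x : ↥(laurentBaseChange K0 (modularFunctionFieldFull N)), x ∈ V₂ ↔ w x ∈ V₁)
    (x xq : ↥(laurentBaseChange K0 (modularFunctionFieldFull N)))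
    (z : LaurentSeries ℤ) (hx : (x : LaurentSeries K0) = coeffMap (Int.castRingHom K0) z)
    (hxq : (xq : LaurentSeries K0) = coeffMap (Int.castRingHom K0) (qExpand ℤ q z))
    (hw1 : w x = xq) (hw2 : w xq = x) :
    x ∈ V₂ ∧ xq ∈ V₂ ∧ x - xq ^ q ∈ V₂.nonunits := by
  obtain ⟨h1, h2, h3⟩ := krv_V1_gen A0 q hq hqA V₁ hVG x xq z hx hxq
  refine ⟨(hV₂ x).mpr (hw1 ▸ h2), (hV₂ xq).mpr (hw2 ▸ h1), ?_⟩
  refine krv_comap_nonunits V₁ V₂ w hV₂ _ ?_
  have : w (x - xq ^ q) = -(x ^ q - xq) := by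
    rw [map_sub, map_pow, hw1, hw2]
    ring
  rw [this]
  exact krv_neg_nonunits V₁ _ h3

include hVG in
/-- inverses in `V₂ = V₁.comap w` -/
theorem krv_inv_mem_V2 (w : ↥(laurentBaseChange K0 (modularFunctionFieldFull N)) →+*
      ↥(laurentBaseChange K0 (modularFunctionFieldFull N)))
    (V₂ : ValuationSubring ↥(laurentBaseChange K0 (modularFunctionFieldFull N)))
    (hV₂ : ∀ x : ↥(laurentBaseChange K0 (modularFunctionFieldFull N)), x ∈ V₂ ↔ w x ∈ V₁)
    (x x' : ↥(laurentBaseChange K0 (modularFunctionFieldFull N)))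
    (z : LaurentSeries ℤ) (hx' : (x' : LaurentSeries K0) = coeffMap (Int.castRingHom K0) z)
    (hz : coeffMap (Int.castRingHom (IsLocalRing.ResidueField A0)) z ≠ 0)
    (hw : w x = x') : x⁻¹ ∈ V₂ := by
  rw [hV₂, map_inv₀, hw]
  exact krv_inv_mem_V1 A0 V₁ hVG x' z hx' hz

include hq hqA hVG in
/-- `krv_V1_gen` with the expansion of `xq` given as `(expansion of x)(t^q)`. -/
theorem krv_V1_gen' (x xq : ↥(laurentBaseChange K0 (modularFunctionFieldFull N)))
    (z : LaurentSeries ℤ) (hx : (x : LaurentSeries K0) = coeffMap (Int.castRingHom K0) z)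
    (hxq : (xq : LaurentSeries K0) = qExpand K0 q (x : LaurentSeries K0)) :
    x ∈ V₁ ∧ xq ∈ V₁ ∧ x ^ q - xq ∈ V₁.nonunits :=
  krv_V1_gen A0 q hq hqA V₁ hVG x xq z hx (by rw [hxq, hx, coeffMap_qExpand])

include hq hqA hVG in
/-- `krv_V2_gen` with the expansion of `xq` given as `(expansion of x)(t^q)`. -/
theorem krv_V2_gen' (w : ↥(laurentBaseChange K0 (modularFunctionFieldFull N)) →+*
      ↥(laurentBaseChange K0 (modularFunctionFieldFull N)))
    (V₂ : ValuationSubring ↥(laurentBaseChange K0 (modularFunctionFieldFull N)))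
    (hV₂ : ∀ x : ↥(laurentBaseChange K0 (modularFunctionFieldFull N)), x ∈ V₂ ↔ w x ∈ V₁)
    (x xq : ↥(laurentBaseChange K0 (modularFunctionFieldFull N)))
    (z : LaurentSeries ℤ) (hx : (x : LaurentSeries K0) = coeffMap (Int.castRingHom K0) z)
    (hxq : (xq : LaurentSeries K0) = qExpand K0 q (x : LaurentSeries K0))
    (hw1 : w x = xq) (hw2 : w xq = x) :
    x ∈ V₂ ∧ xq ∈ V₂ ∧ x - xq ^ q ∈ V₂.nonunits :=
  krv_V2_gen A0 q hq hqA V₁ hVG w V₂ hV₂ x xq z hx (by rw [hxq, hx, coeffMap_qExpand]) hw1 hw2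

/-! ### The generators `j(t^d)` -/

omit [NeZero N] in
/-- the expansion of the generator `j(t^d)` is integral -/
theorem krv_coe_Jd (d : ℕ) [NeZero d] (hd : d ∣ N) :
    ((va2Jd K0 N d hd : ↥(laurentBaseChange K0 (modularFunctionFieldFull N))) : LaurentSeries K0)
      = coeffMap (Int.castRingHom K0) (qExpand ℤ d (jqModC ℤ)) := by
  rw [va2Jd_coe, coeffEmb, coeffMap_qExpand, coeffMap_qExpand, ← jqModC_rat, coeffMap_jqModC,
    coeffMap_jqModC]

omit [NeZero N] in
theorem krv_coe_J (h1 : 1 ∣ N) :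
    ((va2Jd K0 N 1 h1 : ↥(laurentBaseChange K0 (modularFunctionFieldFull N))) : LaurentSeries K0)
      = coeffMap (Int.castRingHom K0) (jqModC ℤ) := by
  rw [krv_coe_Jd, qExpand_one_apply]

/-- the reduction of `j(t^d)` is nonzero -/
theorem krv_red_Jd_ne (k : Type*) [Field k] (d : ℕ) [NeZero d] :
    coeffMap (Int.castRingHom k) (qExpand ℤ d (jqModC ℤ)) ≠ 0 := by
  rw [coeffMap_qExpand, coeffMap_jqModC]
  intro h0
  have h1 : jqModC k = 0 := qExpand_injective d (h0.trans (map_zero _).symm)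
  have h2 := coeff_jqModC_neg_one k
  rw [h1, HahnSeries.coeff_zero] at h2
  exact zero_ne_one h2

omit [NeZero N] in
theorem krv_Jd_congr {d d' : ℕ} [NeZero d] [NeZero d'] (h : d = d') (hd : d ∣ N) (hd' : d' ∣ N) :
    va2Jd K0 N d hd = va2Jd K0 N d' hd' := by
  subst h
  rfl

include hq hqA hVG in
/-- **Kronecker in `V₁`** for `J = j(t)`, `Jq = j(t^q)`: both are units of `V₁` and
`J ^ q - Jq ∈ 𝔪_{V₁}`. -/
theorem krv_V1 (h1 : 1 ∣ N) (hqN : q ∣ N) :
    va2Jd K0 N 1 h1 ∈ V₁ ∧ (va2Jd K0 N 1 h1)⁻¹ ∈ V₁ ∧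
    va2Jd K0 N q hqN ∈ V₁ ∧ (va2Jd K0 N q hqN)⁻¹ ∈ V₁ ∧
    va2Jd K0 N 1 h1 ^ q - va2Jd K0 N q hqN ∈ V₁.nonunits := by
  have hJ := krv_coe_J (K0 := K0) (N := N) h1
  have hJq := krv_coe_Jd (K0 := K0) (N := N) q hqN
  obtain ⟨a, b, c⟩ := krv_V1_gen A0 q hq hqA V₁ hVG _ _ (jqModC ℤ) hJ hJq
  refine ⟨a, ?_, b, ?_, c⟩
  · refine krv_inv_mem_V1 A0 V₁ hVG _ _ hJ ?_
    have := krv_red_Jd_ne (IsLocalRing.ResidueField A0) 1
    rwa [qExpand_one_apply] at this
  · exact krv_inv_mem_V1 A0 V₁ hVG _ _ hJq (krv_red_Jd_ne _ q)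

include hq hqA hVG in
/-- **Kronecker in `V₂ = V₁.comap w`** for `J = j(t)`, `Jq = j(t^q)`, `w` exchanging them:
both are units of `V₂` and `J - Jq ^ q ∈ 𝔪_{V₂}`. -/
theorem krv_V2 (h1 : 1 ∣ N) (hqN : q ∣ N)
    (w : ↥(laurentBaseChange K0 (modularFunctionFieldFull N)) →+*
      ↥(laurentBaseChange K0 (modularFunctionFieldFull N)))
    (V₂ : ValuationSubring ↥(laurentBaseChange K0 (modularFunctionFieldFull N)))
    (hV₂ : ∀ x : ↥(laurentBaseChange K0 (modularFunctionFieldFull N)), x ∈ V₂ ↔ w x ∈ V₁)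
    (hw1 : w (va2Jd K0 N 1 h1) = va2Jd K0 N q hqN)
    (hw2 : w (va2Jd K0 N q hqN) = va2Jd K0 N 1 h1) :
    va2Jd K0 N 1 h1 ∈ V₂ ∧ (va2Jd K0 N 1 h1)⁻¹ ∈ V₂ ∧
    va2Jd K0 N q hqN ∈ V₂ ∧ (va2Jd K0 N q hqN)⁻¹ ∈ V₂ ∧
    va2Jd K0 N 1 h1 - va2Jd K0 N q hqN ^ q ∈ V₂.nonunits := by
  have hJ := krv_coe_J (K0 := K0) (N := N) h1
  have hJq := krv_coe_Jd (K0 := K0) (N := N) q hqN
  obtain ⟨a, b, c⟩ := krv_V2_gen A0 q hq hqA V₁ hVG w V₂ hV₂ _ _ (jqModC ℤ) hJ hJq hw1 hw2
  refine ⟨a, ?_, b, ?_, c⟩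
  · exact krv_inv_mem_V2 A0 V₁ hVG w V₂ hV₂ _ _ _ hJq (krv_red_Jd_ne _ q) hw1
  · refine krv_inv_mem_V2 A0 V₁ hVG w V₂ hV₂ _ _ _ hJ ?_ hw2
    have := krv_red_Jd_ne (IsLocalRing.ResidueField A0) 1
    rwa [qExpand_one_apply] at this

end Field

/-! ### The swap at level `M * q` -/

section Swap

local notation "Qb" => AlgebraicClosure ℚ

variable (M q : ℕ) [NeZero M] [NeZero q] (hq : q.Prime) (hM : ¬ q ∣ M)
  (K0 : Type*) [Field K0] [Algebra ℚ K0] [Algebra K0 Qb]

/-- the swap exchanges `j(t)` and `j(t^q)` -/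
theorem krv_swap :
    va2Swap M q hq hM K0 (va2Jd K0 (M * q) 1 (one_dvd _))
      = va2Jd K0 (M * q) q (Dvd.intro_left M rfl) ∧
    va2Swap M q hq hM K0 (va2Jd K0 (M * q) q (Dvd.intro_left M rfl))
      = va2Jd K0 (M * q) 1 (one_dvd _) := by
  have e : va2Jd K0 (M * q) (q * 1) (by rw [mul_comm M q]; exact Nat.mul_dvd_mul_left q (one_dvd M))
      = va2Jd K0 (M * q) q (Dvd.intro_left M rfl) := krv_Jd_congr (mul_one q) _ _
  have h1 := va2Swap_jd1 M q hq hM K0 1 (one_dvd M)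
  have h2 := va2Swap_jd2 M q hq hM K0 1 (one_dvd M)
  rw [e] at h1 h2
  exact ⟨h1, h2⟩

end Swap

end Fermat.Agent.S34
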