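import Mathlib
import Fermat.Agent.S18.SMInstAbs

/-!
# S34, leaf D-UNRAM (descent): radical fibre ideals of a chart over a DVR of definition

Setting of `S18/SMInstAbs` (`sminst_dedekind_of_basis` / `sminst_dedekind_of_valuation`): `A0` a
domain with prime element `τ`, `O = integralClosure A0[X] F0` the chart ring, `ρ0 : O → κ0` the
residue map, `b0` a family in `O` whose residues, pushed to a bigger residue field `κ ⊇ κ0` over
`k[X] ⊇ k0[X]`, are a `k[X]`-basis of the integral elements.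

If, over the big field, `z² ∈ π̄ · (fibre ring)` implies `z ∈ π̄ · (fibre ring)` in coordinates
(hypothesis `hπ`, produced by `unr_smq`), then the ideal `(τ, π)` of the chart ring `O` is
radical: `z² ∈ (τ, π) O → z ∈ (τ, π) O` (`unr_radical_of_basis`, `unr_radical_of_valuation`).
-/

set_option autoImplicit false
set_option linter.style.haveILetI false

namespace Fermat.Agent.S34

open Module Polynomial Fermat.Agent.S18

section Basis

variable {A0 : Type*} [CommRing A0] [IsDomain A0]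
  {k0 : Type*} [Field k0]
  {F0 : Type*} [Field F0] [Algebra A0[X] F0]

/-- **The ideal `(τ, π)` of the chart ring is radical** (form with a ring homomorphism on the
integral closure). -/
theorem unr_radical_of_basis
    (res0 : A0 →+* k0) (hres0 : Function.Surjective res0)
    (τ : A0) (hτ : ∀ a : A0, res0 a = 0 ↔ τ ∣ a)
    {κ0 : Type*} [Field κ0] [Algebra k0[X] κ0]
    {Kb0 : Type*} [Field Kb0] [Algebra k0[X] Kb0] [IsFractionRing k0[X] Kb0] [Algebra Kb0 κ0]
    [IsScalarTower k0[X] Kb0 κ0] [FiniteDimensional Kb0 κ0]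
    (ρ0 : integralClosure A0[X] F0 →+* κ0)
    (hρ0 : ∀ r : A0[X], ρ0 (algebraMap A0[X] (integralClosure A0[X] F0) r) =
      algebraMap k0[X] κ0 (r.map res0))
    (hρ0ker : ∀ x : integralClosure A0[X] F0, ρ0 x = 0 →
      ∃ y : integralClosure A0[X] F0, x = (C τ : A0[X]) • y)
    {k : Type*} [Field k] (φ : k0 →+* k) (hφ : φ.IsIntegral)
    {κ : Type*} [Field κ] [Algebra k[X] κ]
    (j : κ0 →+* κ) (hj : ∀ r : k0[X], j (algebraMap k0[X] κ0 r) = algebraMap k[X] κ (r.map φ))
    {ι : Type*} [Fintype ι] (b0 : ι → integralClosure A0[X] F0)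
    (hli : LinearIndependent k[X] (fun i => j (ρ0 (b0 i))))
    (hspan : ∀ x : κ0, IsIntegral k[X] (j x) →
      j x ∈ Submodule.span k[X] (Set.range fun i => j (ρ0 (b0 i))))
    (hcard : Module.finrank Kb0 κ0 ≤ Fintype.card ι)
    (π : A0[X])
    (hπ : ∀ a w : ι → k[X],
      (∑ i, a i • j (ρ0 (b0 i))) ^ 2 = ((π.map res0).map φ) • ∑ i, w i • j (ρ0 (b0 i)) →
      ∀ i, (π.map res0).map φ ∣ a i)
    (z y y' : integralClosure A0[X] F0) (h : z ^ 2 = (C τ : A0[X]) • y + π • y') :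
    ∃ u u' : integralClosure A0[X] F0, z = (C τ : A0[X]) • u + π • u' := by
  classical
  have hφ' : (Polynomial.mapRingHom φ).IsIntegral := sminst_map_isIntegral φ hφ
  have hφinj : Function.Injective (Polynomial.mapRingHom φ) :=
    Polynomial.map_injective φ φ.injective
  have hdesc : ∀ x : κ0, IsIntegral k0[X] x →
      x ∈ Submodule.span k0[X] (Set.range fun i => ρ0 (b0 i)) :=
    sminst_desc (Kb0 := Kb0) (Polynomial.mapRingHom φ) hφinj hφ' j hj (fun i => ρ0 (b0 i))
      hli hspan hcard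
  have hred : Function.Surjective (Polynomial.mapRingHom res0) :=
    Polynomial.map_surjective res0 hres0
  have hρ0' : ∀ r : A0[X], ρ0 (algebraMap A0[X] (integralClosure A0[X] F0) r) =
      algebraMap k0[X] κ0 (Polynomial.mapRingHom res0 r) := hρ0
  have hcoord : ∀ x : integralClosure A0[X] F0, ∃ g : ι → k0[X],
      ρ0 x = ∑ i, g i • ρ0 (b0 i) := by
    intro x
    obtain ⟨g, hg⟩ := (Submodule.mem_span_range_iff_exists_fun k0[X]).1
      (hdesc _ (smc_isIntegral_rho (Polynomial.mapRingHom res0) ρ0 hρ0' x))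
    exact ⟨g, hg.symm⟩
  obtain ⟨g, hg⟩ := hcoord z
  obtain ⟨w, hw⟩ := hcoord y'
  have hjsmul : ∀ (r : k0[X]) (v : κ0), j (r • v) = (r.map φ) • j v := by
    intro r v
    rw [Algebra.smul_def, map_mul, hj, ← Algebra.smul_def]
  have hjsum : ∀ g : ι → k0[X], j (∑ i, g i • ρ0 (b0 i)) =
      ∑ i, (g i).map φ • j (ρ0 (b0 i)) := by
    intro g
    rw [map_sum]
    exact Finset.sum_congr rfl fun i _ => hjsmul _ _
  have hτ0 : res0 τ = 0 := (hτ τ).mpr dvd_rfl
  have h1 : ρ0 z ^ 2 = (π.map res0) • ρ0 y' := by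
    have h2 := congrArg ρ0 h
    rw [map_pow, map_add, smc_rho_smul (Polynomial.mapRingHom res0) ρ0 hρ0',
      smc_rho_smul (Polynomial.mapRingHom res0) ρ0 hρ0'] at h2
    rw [h2, coe_mapRingHom, Polynomial.map_C, hτ0, C_0, zero_smul, zero_add]
  have h3 : (∑ i, (g i).map φ • j (ρ0 (b0 i))) ^ 2 =
      ((π.map res0).map φ) • ∑ i, (w i).map φ • j (ρ0 (b0 i)) := by
    rw [← hjsum, ← hjsum, ← hg, ← hw, ← map_pow, h1, hjsmul]
  have hdvd := hπ _ _ h3
  have hdvd0 : ∀ i, π.map res0 ∣ g i := fun i => (Polynomial.map_dvd_map' φ).mp (hdvd i)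
  choose q hq using hdvd0
  choose Q hQ using fun i => hred (q i)
  have h0 : ρ0 (z - π • ∑ i, Q i • b0 i) = 0 := by
    rw [map_sub, smc_rho_smul (Polynomial.mapRingHom res0) ρ0 hρ0',
      smc_rho_sum (Polynomial.mapRingHom res0) ρ0 hρ0', hg, Finset.smul_sum, sub_eq_zero]
    refine Finset.sum_congr rfl fun i _ => ?_
    rw [hQ i, smul_smul, coe_mapRingHom, ← hq i]
  obtain ⟨u, hu⟩ := hρ0ker _ h0
  exact ⟨u, ∑ i, Q i • b0 i, by rw [← hu]; ring⟩

/-- **The ideal `(τ, π)` of the chart ring is radical** (elementwise form for a valuation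
subring, same hypotheses as `sminst_dedekind_of_valuation`, plus the reducedness `hπ` over the
big residue field). -/
theorem unr_radical_of_valuation
    (res0 : A0 →+* k0) (hres0 : Function.Surjective res0)
    (τ : A0) (hτ : ∀ a : A0, res0 a = 0 ↔ τ ∣ a)
    (V0 : ValuationSubring F0) (hAV : ∀ p : A0[X], algebraMap A0[X] F0 p ∈ V0)
    {κ0 : Type*} [Field κ0] (ρV : V0 →+* κ0) (hρVsurj : Function.Surjective ρV)
    (hρV : ∀ x : V0, ρV x = 0 → (x : F0) ∈ V0.nonunits)
    (f0 : k0[X] →+* κ0)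
    (hf0 : ∀ p : A0[X], ρV ⟨algebraMap A0[X] F0 p, hAV p⟩ = f0 (p.map res0))
    (hf0inj : Function.Injective f0)
    (hgen : ∀ x ∈ V0.nonunits, ∃ y ∈ V0, x = algebraMap A0[X] F0 (C τ) * y)
    (h5 : ∀ x y : F0, IsIntegral A0[X] x → y ∈ V0 → x = algebraMap A0[X] F0 (C τ) * y →
      IsIntegral A0[X] y)
    (d : ℕ)
    (hfin : ∃ c : Fin d → κ0, ∀ x : κ0, ∃ (p : Fin d → k0[X]) (q : k0[X]), q ≠ 0 ∧
      f0 q * x = ∑ i, f0 (p i) * c i)
    {k : Type*} [Field k] (φ : k0 →+* k) (hφ : φ.IsIntegral)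
    {κ : Type*} [Field κ] (f : k[X] →+* κ) (j : κ0 →+* κ)
    (hj : ∀ r : k0[X], j (f0 r) = f (r.map φ))
    (b0 : Fin d → F0) (hb0 : ∀ i, IsIntegral A0[X] (b0 i)) (hb0V : ∀ i, b0 i ∈ V0)
    (hli : ∀ g : Fin d → k[X], ∑ i, f (g i) * j (ρV ⟨b0 i, hb0V i⟩) = 0 → ∀ i, g i = 0)
    (hspan : ∀ x : V0, f.IsIntegralElem (j (ρV x)) →
      ∃ g : Fin d → k[X], j (ρV x) = ∑ i, f (g i) * j (ρV ⟨b0 i, hb0V i⟩))
    (π : A0[X])
    (hπ : ∀ a w : Fin d → k[X],
      (∑ i, f (a i) * j (ρV ⟨b0 i, hb0V i⟩)) ^ 2 =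
        f ((π.map res0).map φ) * ∑ i, f (w i) * j (ρV ⟨b0 i, hb0V i⟩) →
      ∀ i, (π.map res0).map φ ∣ a i)
    (z y y' : F0) (hz : IsIntegral A0[X] z) (hy : IsIntegral A0[X] y)
    (hy' : IsIntegral A0[X] y')
    (h : z ^ 2 = algebraMap A0[X] F0 (C τ) * y + algebraMap A0[X] F0 π * y') :
    ∃ u u' : F0, IsIntegral A0[X] u ∧ IsIntegral A0[X] u' ∧
      z = algebraMap A0[X] F0 (C τ) * u + algebraMap A0[X] F0 π * u' := by
  classical
  have hOV : ∀ x : F0, IsIntegral A0[X] x → x ∈ V0 := fun x hx =>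
    valext_mem_of_isIntegral V0 hAV x hx
  -- the residue map on the chart ring
  let incl : integralClosure A0[X] F0 →+* V0 :=
    { toFun := fun x => ⟨x.1, hOV x.1 x.2⟩
      map_one' := rfl
      map_mul' := fun _ _ => rfl
      map_zero' := rfl
      map_add' := fun _ _ => rfl }
  let ρ0 : integralClosure A0[X] F0 →+* κ0 := ρV.comp incl
  have hρ0_apply : ∀ x : integralClosure A0[X] F0, ρ0 x = ρV ⟨x.1, hOV x.1 x.2⟩ := fun _ => rfl
  -- algebra structures
  letI : Algebra k0[X] κ0 := f0.toAlgebra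
  letI : Algebra (FractionRing k0[X]) κ0 :=
    (IsFractionRing.lift (K := FractionRing k0[X]) (g := f0) hf0inj).toAlgebra
  haveI : IsScalarTower k0[X] (FractionRing k0[X]) κ0 :=
    IsScalarTower.of_algebraMap_eq fun x =>
      (IsFractionRing.lift_algebraMap (K := FractionRing k0[X]) (g := f0) hf0inj x).symm
  letI : Algebra k[X] κ := f.toAlgebra
  have hf0alg : ∀ r : k0[X], algebraMap k0[X] κ0 r = f0 r := fun _ => rfl
  have hfalg : ∀ r : k[X], algebraMap k[X] κ r = f r := fun _ => rfl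
  -- finiteness of the residue field over `k0(t̄)`
  obtain ⟨c, hc⟩ := hfin
  have htop : Submodule.span (FractionRing k0[X]) (Set.range c) = ⊤ := by
    rw [eq_top_iff]
    intro x _
    obtain ⟨p, q, hq, hx⟩ := hc x
    have hq' : f0 q ≠ 0 := (map_ne_zero_iff f0 hf0inj).2 hq
    have hqK : algebraMap k0[X] (FractionRing k0[X]) q ≠ 0 :=
      (map_ne_zero_iff _ (IsFractionRing.injective k0[X] (FractionRing k0[X]))).2 hq
    rw [Submodule.mem_span_range_iff_exists_fun]
    refine ⟨fun i => algebraMap k0[X] (FractionRing k0[X]) (p i) /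
      algebraMap k0[X] (FractionRing k0[X]) q, ?_⟩
    have hsm : ∀ i, (algebraMap k0[X] (FractionRing k0[X]) (p i) /
        algebraMap k0[X] (FractionRing k0[X]) q) • c i = (f0 q)⁻¹ * (f0 (p i) * c i) := by
      intro i
      rw [Algebra.smul_def, map_div₀, ← IsScalarTower.algebraMap_apply,
        ← IsScalarTower.algebraMap_apply, hf0alg, hf0alg]
      field_simp
    rw [Finset.sum_congr rfl fun i _ => hsm i, ← Finset.mul_sum, ← hx, ← mul_assoc,
      inv_mul_cancel₀ hq', one_mul]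
  haveI : FiniteDimensional (FractionRing k0[X]) κ0 :=
    Module.finite_def.2 (htop ▸ Submodule.fg_span (Set.finite_range c))
  have hcard : Module.finrank (FractionRing k0[X]) κ0 ≤ Fintype.card (Fin d) := by
    rw [← finrank_top (FractionRing k0[X]) κ0, ← htop]
    exact finrank_range_le_card c
  have hsmf : ∀ (r : k[X]) (v : κ), r • v = f r * v := fun r v => by
    rw [Algebra.smul_def, hfalg]
  have hbi : ∀ i, j (ρ0 ⟨b0 i, hb0 i⟩) = j (ρV ⟨b0 i, hb0V i⟩) := fun i => rfl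
  obtain ⟨u, u', hu⟩ := unr_radical_of_basis (Kb0 := FractionRing k0[X]) res0 hres0 τ hτ ρ0
    (fun r => by rw [hρ0_apply, hf0alg]; exact hf0 r)
    (fun x hx => by
      rw [hρ0_apply] at hx
      obtain ⟨y, hyV, hxy⟩ := hgen _ (hρV _ hx)
      refine ⟨⟨y, h5 x.1 y x.2 hyV hxy⟩, Subtype.ext ?_⟩
      show (x : F0) = (C τ : A0[X]) • y
      rw [Algebra.smul_def, hxy])
    φ hφ j (fun r => by rw [hf0alg, hfalg]; exact hj r)
    (fun i => (⟨b0 i, hb0 i⟩ : integralClosure A0[X] F0))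
    (by
      rw [Fintype.linearIndependent_iff]
      intro g hg i
      refine hli g ?_ i
      rw [← hg]
      exact Finset.sum_congr rfl fun i _ => by rw [hsmf]; rfl)
    (by
      intro x hx
      obtain ⟨v, rfl⟩ := hρVsurj x
      obtain ⟨g, hg⟩ := hspan v hx
      rw [Submodule.mem_span_range_iff_exists_fun]
      refine ⟨g, ?_⟩
      rw [hg]
      exact Finset.sum_congr rfl fun i _ => by rw [hsmf]; rfl)
    hcard π
    (by
      intro a w haw
      refine hπ a w ?_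
      have e1 : ∀ g : Fin d → k[X], ∑ i, g i • j (ρ0 ⟨b0 i, hb0 i⟩) =
          ∑ i, f (g i) * j (ρV ⟨b0 i, hb0V i⟩) := fun g =>
        Finset.sum_congr rfl fun i _ => by rw [hsmf]; rfl
      rw [e1, e1, hsmf] at haw
      exact haw)
    ⟨z, hz⟩ ⟨y, hy⟩ ⟨y', hy'⟩
    (by
      apply Subtype.ext
      show z ^ 2 = (C τ : A0[X]) • y + π • y'
      rw [Algebra.smul_def, Algebra.smul_def]
      exact h)
  refine ⟨u.1, u'.1, u.2, u'.2, ?_⟩
  have h2 := congrArg Subtype.val hu
  have h3 : (((C τ : A0[X]) • u + π • u' : integralClosure A0[X] F0) : F0) =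
      (C τ : A0[X]) • (u : F0) + π • (u' : F0) := rfl
  rw [h3, Algebra.smul_def, Algebra.smul_def] at h2
  exact h2

end Basis

end Fermat.Agent.S34
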