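import Mathlib

/-!
# S34, leaf D-UNRAM (abstract part): reduced fibres from the discriminant

`R` a domain with fraction field `K`, `L / K` a finite field extension with a `K`-basis `bK` whose
`R`-span is closed under multiplication (an `R`-order), of discriminant `D ∈ R`.  If `π ∈ R` is
such that `R / π` is reduced (elementwise: `π ∣ r ^ k` implies `π ∣ r`) and `π` is coprime to
`D`, then the order modulo `π` is reduced: `z ^ 2 ∈ π · span` implies `z ∈ π · span`
(`unr_reduced`, in coordinates).

Proof: for `x = z * bK j` the matrix of the multiplication by `x` has square divisible by `π`,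
so its trace is divisible by `π`; hence `a ᵥ* TraceMatrix ≡ 0`, and multiplying by the adjugate,
`D * a ≡ 0` modulo `π`.
-/

set_option autoImplicit false

namespace Fermat.Agent.S34

open Matrix

section UnramAbs

variable {R K L : Type*} [CommRing R] [Field K] [Field L] [Algebra R K]
  [Algebra K L] [Algebra R L] [IsScalarTower R K L]

/-- The coordinates of an `R`-combination of a `K`-basis. -/
theorem unr_repr_comb {n : ℕ} (bK : Module.Basis (Fin n) K L) (c : Fin n → R) (l : Fin n) :
    bK.repr (∑ i, c i • bK i) l = algebraMap R K (c l) := by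
  have h1 : (∑ i, c i • bK i) = ∑ i, (algebraMap R K (c i)) • bK i :=
    Finset.sum_congr rfl fun i _ => by rw [algebraMap_smul]
  rw [h1, Module.Basis.repr_sum_self]

/-- Products of `R`-combinations are `R`-combinations. -/
theorem unr_comb_mul {n : ℕ} (v : Fin n → L)
    (hmul : ∀ i j, ∃ c : Fin n → R, v i * v j = ∑ l, c l • v l)
    (p p' : Fin n → R) :
    ∃ c : Fin n → R, (∑ i, p i • v i) * (∑ i, p' i • v i) = ∑ l, c l • v l := by
  choose cc hcc using hmul
  refine ⟨fun l => ∑ i, ∑ j, p i * p' j * cc i j l, ?_⟩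
  rw [Finset.sum_mul_sum]
  have h1 : ∀ i j, p i • v i * p' j • v j = ∑ l, (p i * p' j * cc i j l) • v l := by
    intro i j
    rw [smul_mul_smul_comm, hcc i j, Finset.smul_sum]
    exact Finset.sum_congr rfl fun l _ => by rw [smul_smul]
  simp_rw [h1, Finset.sum_smul]
  calc ∑ i, ∑ j, ∑ l, (p i * p' j * cc i j l) • v l
      = ∑ i, ∑ l, ∑ j, (p i * p' j * cc i j l) • v l :=
        Finset.sum_congr rfl fun i _ => Finset.sum_comm
    _ = ∑ l, ∑ i, ∑ j, (p i * p' j * cc i j l) • v l := Finset.sum_comm

/-- The matrix of the multiplication by an `R`-combination has entries in `R`. -/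
theorem unr_leftMul_comb {n : ℕ} (bK : Module.Basis (Fin n) K L)
    (hmul : ∀ i j, ∃ c : Fin n → R, bK i * bK j = ∑ l, c l • bK l)
    (p : Fin n → R) :
    ∃ N : Matrix (Fin n) (Fin n) R,
      Algebra.leftMulMatrix bK (∑ i, p i • bK i) = N.map (algebraMap R K) := by
  have h : ∀ j, ∃ c : Fin n → R, (∑ i, p i • bK i) * bK j = ∑ l, c l • bK l := by
    intro j
    obtain ⟨c, hc⟩ := unr_comb_mul (R := R) (fun i => bK i) hmul p (fun i => if i = j then 1 else 0)
    refine ⟨c, ?_⟩
    rw [← hc]
    congr 1
    simp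
  choose c hc using h
  refine ⟨Matrix.of fun i j => c j i, ?_⟩
  ext i j
  rw [Algebra.leftMulMatrix_eq_repr_mul, hc j, unr_repr_comb]
  rfl

/-- **Reduced fibres from the discriminant.** -/
theorem unr_reduced [FaithfulSMul R K] {n : ℕ} (bK : Module.Basis (Fin n) K L)
    (hmul : ∀ i j, ∃ c : Fin n → R, bK i * bK j = ∑ l, c l • bK l)
    (D : R) (hD : Algebra.discr K bK = algebraMap R K D)
    (π : R) (hred : ∀ (r : R) (k : ℕ), π ∣ r ^ k → π ∣ r) (hcop : IsCoprime π D)
    (a w : Fin n → R)
    (h : (∑ i, a i • bK i) ^ 2 = π • ∑ i, w i • bK i) : ∀ i, π ∣ a i := by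
  classical
  have hinj : Function.Injective (algebraMap R K) := FaithfulSMul.algebraMap_injective R K
  -- the trace matrix over `R`
  have hT : ∀ i j, ∃ r : R, Algebra.trace K L (bK i * bK j) = algebraMap R K r := by
    intro i j
    obtain ⟨c, hc⟩ := hmul i j
    obtain ⟨N, hN⟩ := unr_leftMul_comb bK hmul c
    refine ⟨N.trace, ?_⟩
    rw [hc, Algebra.trace_eq_matrix_trace bK, hN]
    exact (AddMonoidHom.map_trace (algebraMap R K) N).symm
  choose T hT using hT
  have hTdet : (Matrix.of T).det = D := by
    apply hinj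
    rw [← hD, Algebra.discr_def, RingHom.map_det]
    congr 1
    ext i j
    rw [RingHom.mapMatrix_apply, Matrix.map_apply, Matrix.of_apply, ← hT,
      Algebra.traceMatrix_apply, Algebra.traceForm_apply]
  -- the traces of `z * v j` are divisible by `π`
  have htr : ∀ j, π ∣ ∑ i, a i * T i j := by
    intro j
    obtain ⟨p, hp⟩ := unr_comb_mul (R := R) (fun i => bK i) hmul a (fun i => if i = j then 1 else 0)
    have hp' : (∑ i, a i • bK i) * bK j = ∑ l, p l • bK l := by
      rw [← hp]
      congr 1
      simp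
    obtain ⟨N, hN⟩ := unr_leftMul_comb bK hmul p
    -- the square
    obtain ⟨p2, hp2⟩ := unr_comb_mul (R := R) (fun i => bK i) hmul w
      (fun i => if i = j then 1 else 0)
    have hp2' : (∑ i, w i • bK i) * bK j = ∑ l, p2 l • bK l := by
      rw [← hp2]
      congr 1
      simp
    obtain ⟨p3, hp3⟩ := unr_comb_mul (R := R) (fun i => bK i) hmul p2
      (fun i => if i = j then 1 else 0)
    have hp3' : (∑ i, p2 i • bK i) * bK j = ∑ l, p3 l • bK l := by
      rw [← hp3]
      congr 1
      simp
    obtain ⟨N3, hN3⟩ := unr_leftMul_comb bK hmul p3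
    have hsq : (∑ l, p l • bK l) ^ 2 = π • ∑ l, p3 l • bK l := by
      rw [← hp', ← hp3', ← hp2', mul_pow, h, smul_mul_assoc, pow_two, mul_assoc]
    have hNsq : N ^ 2 = π • N3 := by
      apply Matrix.map_injective hinj
      show (N ^ 2).map (algebraMap R K) = (π • N3).map (algebraMap R K)
      have h1 : (N ^ 2).map (algebraMap R K) = (N.map (algebraMap R K)) ^ 2 := by
        rw [pow_two, pow_two, Matrix.map_mul]
      have h2 : (π • N3).map (algebraMap R K) = algebraMap R K π • N3.map (algebraMap R K) := by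
        ext i j
        show algebraMap R K ((π • N3) i j) = algebraMap R K π • (algebraMap R K (N3 i j))
        rw [Matrix.smul_apply, smul_eq_mul, map_mul, smul_eq_mul]
      rw [h1, h2, ← hN, ← hN3, ← map_pow, hsq, ← algebraMap_smul K π, map_smul]
    -- modulo `π`
    have hnil : IsNilpotent ((Ideal.Quotient.mk (Ideal.span {π})).mapMatrix N) := by
      refine ⟨2, ?_⟩
      rw [← map_pow, hNsq]
      ext i j
      simp only [RingHom.mapMatrix_apply, Matrix.map_apply, Matrix.smul_apply, smul_eq_mul,
        Matrix.zero_apply]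
      rw [Ideal.Quotient.eq_zero_iff_mem, Ideal.mem_span_singleton]
      exact dvd_mul_right _ _
    have htn := Matrix.isNilpotent_trace_of_isNilpotent hnil
    rw [RingHom.mapMatrix_apply, ← AddMonoidHom.map_trace] at htn
    obtain ⟨k, hk⟩ := htn
    rw [← map_pow, Ideal.Quotient.eq_zero_iff_mem, Ideal.mem_span_singleton] at hk
    have hdvd := hred _ k hk
    -- the trace of `N`
    have htrN : N.trace = ∑ i, a i * T i j := by
      apply hinj
      rw [AddMonoidHom.map_trace, ← hN, ← Algebra.trace_eq_matrix_trace bK,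
        ← hp', Finset.sum_mul, map_sum, map_sum]
      refine Finset.sum_congr rfl fun i _ => ?_
      rw [smul_mul_assoc, ← algebraMap_smul K (a i), map_smul, hT, map_mul, smul_eq_mul]
    rwa [htrN] at hdvd
  -- multiply by the adjugate
  intro i
  have h1 : Matrix.vecMul (Matrix.vecMul a (Matrix.of T)) (Matrix.adjugate (Matrix.of T)) =
      D • a := by
    rw [Matrix.vecMul_vecMul, Matrix.mul_adjugate, hTdet, Matrix.vecMul_smul, Matrix.vecMul_one]
  have h2 : π ∣ (D • a) i := by
    rw [← h1]
    simp only [Matrix.vecMul, dotProduct]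
    refine Finset.dvd_sum fun j _ => ?_
    exact Dvd.dvd.mul_right (by simpa [Matrix.of_apply] using htr j) _
  rw [Pi.smul_apply, smul_eq_mul] at h2
  exact hcop.dvd_of_dvd_mul_left h2

end UnramAbs

end Fermat.Agent.S34
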