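import Mathlib
import Fermat.Agent.S34.UnramAbs
import Fermat.Agent.S18.SMQ

/-!
# S34, leaf D-UNRAM (`ℚ̄`-level): the special fibre of a Hauptmodul chart is unramified over the
coordinate line away from the cusps

* `unr_smag_emb`: in the abstract setting of `smag_basis_emb` (S18/SMAbsGauss), for a lifted
  integral basis `b` of the special fibre: if `π ∈ k[X]` is separable and does not vanish at the
  residues of the discriminant points `τ i`, then `z ^ 2 ∈ π(t̄) · (fibre ring)` implies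
  `z ∈ π(t̄) · (fibre ring)` (in coordinates).  It is `sma_discr` + `unr_reduced`.
* `unr_smq`: the instance for the chart `t = (h - c1) / (h - c0)` of a Hauptmodul record at
  level `N'` (`ℓ ∤ N'`) over `ℚ̄`, any family `b` as produced by `smq_main`, and `π` coprime to
  `hcuNum` (no cusp value is a root).
-/

set_option autoImplicit false
set_option linter.style.haveILetI false
set_option linter.unusedSectionVars false

noncomputable section

open ModularCurve Polynomial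
open scoped IntermediateField

namespace Fermat.Agent.S34

open Fermat.Agent.S18 Fermat.Agent.S28

local notation "Qb" => AlgebraicClosure ℚ

section UnrSmag

variable {K k F κ E Kk : Type*} [Field K] [Field k] [Field F] [Field κ] [Field E] [Field Kk]
  [Algebra K F] [Algebra k κ]
  [Algebra K[X] F] [Algebra k[X] κ]
  [Algebra K[X] E] [IsFractionRing K[X] E] [Algebra E F] [IsScalarTower K[X] E F]
  [Algebra k[X] Kk] [IsFractionRing k[X] Kk] [Algebra Kk κ] [IsScalarTower k[X] Kk κ]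
  {A : ValuationSubring K} {res : A →+* k} {V : ValuationSubring F} {ρ : V →+* κ}

/-- A separable polynomial over a field divides `r` as soon as it divides a power of `r`. -/
theorem unr_sep_dvd {k : Type*} [Field k] {π : k[X]} (hπ : π.Separable) (r : k[X]) (m : ℕ)
    (h : π ∣ r ^ m) : π ∣ r := by
  rcases Nat.eq_zero_or_pos m with rfl | hm
  · rw [pow_zero] at h
    exact (isUnit_of_dvd_one h).dvd
  · exact (hπ.squarefree.dvd_pow_iff_dvd hm.ne').mp h

/-- A polynomial over a field is coprime to `X - a` if `a` is not a root. -/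
theorem unr_coprime_X_sub_C {k : Type*} [Field k] {π : k[X]} {a : k} (h : π.eval a ≠ 0) :
    IsCoprime π (X - C a) := by
  refine ((irreducible_X_sub_C a).coprime_iff_not_dvd.mpr fun hd => h ?_).symm
  exact dvd_iff_isRoot.mp hd

/-- **Reduced fibres of the special fibre, abstract front end.** -/
theorem unr_smag {ι J : Type*} [Fintype ι] [DecidableEq ι] [Fintype J] [DecidableEq J]
    [IsAlgClosed K] [Algebra.IsSeparable Kk κ]
    (hres : Function.Surjective res)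
    (hresker : ∀ a : A, (a : K) ∈ A.nonunits → res a = 0)
    (hρ : Function.Surjective ρ) (hρker : ∀ x : V, (x : F) ∈ V.nonunits → ρ x = 0)
    (hAV : ∀ a : A, algebraMap K F a ∈ V)
    (hρA : ∀ a : A, ρ ⟨algebraMap K F a, hAV a⟩ = algebraMap k κ (res a))
    (t : F) (ht : t ∈ V) (htr : Transcendental k (ρ ⟨t, ht⟩))
    (hX : ∀ P : K[X], algebraMap K[X] F P = aeval t P)
    (hXκ : ∀ P : k[X], algebraMap k[X] κ P = aeval (ρ ⟨t, ht⟩) P)
    (huniq : ∀ O' : ValuationSubring F,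
      (∀ y : ↥K⟮t⟯, algebraMap ↥K⟮t⟯ F y ∈ O' ↔ algebraMap ↥K⟮t⟯ F y ∈ V) → O' = V)
    (hfin : FiniteDimensional ↥K⟮t⟯ F)
    (n : ℕ) (c : Fin n → F) (hc : ∀ i, c i ∈ V) (hn : Module.finrank ↥K⟮t⟯ F = n)
    (hind : ∀ a : Fin n → ↥K⟮t⟯, (∀ i, algebraMap ↥K⟮t⟯ F (a i) ∈ V) →
      ∑ i, algebraMap ↥K⟮t⟯ F (a i) * c i ∈ V.nonunits →
      ∀ i, algebraMap ↥K⟮t⟯ F (a i) ∈ V.nonunits)
    (β : Module.Basis ι E F) (hβint : ∀ i, IsIntegral K[X] (β i))
    (hβspan : ∀ x : F, IsIntegral K[X] x → x ∈ Submodule.span K[X] (Set.range β))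
    (u : K) (τ : J → A) (e : J → ℕ)
    (hD : Algebra.discr E β = algebraMap K[X] E (C u * ∏ i, (X - C (τ i : K)) ^ e i))
    (b : Fin n → F) (hb : ∀ i, b i ∈ V)
    (hbint : ∀ i, (((aeval t : K[X] →ₐ[K] F) : K[X] →+* F).comp
        (mapRingHom A.subtype)).IsIntegralElem (b i))
    (hli : ∀ g : Fin n → k[X],
        ∑ i, aeval (ρ ⟨t, ht⟩) (g i) * ρ ⟨b i, hb i⟩ = 0 → ∀ i, g i = 0)
    (hspan : ∀ y : V, ((aeval (ρ ⟨t, ht⟩) : k[X] →ₐ[k] κ) : k[X] →+* κ).IsIntegralElem (ρ y) →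
        ∃ g : Fin n → k[X], ρ y = ∑ i, aeval (ρ ⟨t, ht⟩) (g i) * ρ ⟨b i, hb i⟩)
    (π : k[X]) (hπsep : π.Separable) (hπτ : ∀ i, π.eval (res (τ i)) ≠ 0)
    (a w : Fin n → k[X])
    (h : (∑ i, aeval (ρ ⟨t, ht⟩) (a i) * ρ ⟨b i, hb i⟩) ^ 2 =
      aeval (ρ ⟨t, ht⟩) π * ∑ i, aeval (ρ ⟨t, ht⟩) (w i) * ρ ⟨b i, hb i⟩) :
    ∀ i, π ∣ a i := by
  classical
  obtain ⟨hdat, hint, hfinE, hnE, hfinκ, hκ⟩ := smag_setup (E := E) (Kk := Kk) hres hresker hρ hρker
    hAV hρA t ht htr hX hXκ huniq hfin n c hc hn hind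
  subst hκ
  have heqF : algebraMap K[X] F = ((aeval t : K[X] →ₐ[K] F) : K[X] →+* F) := RingHom.ext hX
  have heqκ : algebraMap k[X] κ = ((aeval (ρ ⟨t, ht⟩) : k[X] →ₐ[k] κ) : k[X] →+* κ) :=
    RingHom.ext hXκ
  have hbI : ∀ i, SmaInt A (b i) := by
    intro i
    show ((algebraMap K[X] F).comp (mapRingHom A.subtype)).IsIntegralElem (b i)
    rw [heqF]
    exact hbint i
  have hsm : ∀ (p : k[X]) (y : κ), p • y = aeval (ρ ⟨t, ht⟩) p * y := fun p y => by
    rw [Algebra.smul_def, hXκ]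
  have hli0 : LinearIndependent k[X] (fun i => ρ ⟨b i, hb i⟩) := by
    rw [Fintype.linearIndependent_iff]
    intro g hg i
    refine hli g ?_ i
    rw [← hg]
    exact Finset.sum_congr rfl fun i _ => (hsm _ _).symm
  have hliK : LinearIndependent Kk (fun i => ρ ⟨b i, hb i⟩) :=
    (LinearIndependent.iff_fractionRing k[X] Kk).1 hli0
  have hspanV : ∀ x : V, SmaInt A (x : F) →
      ρ x ∈ Submodule.span k[X] (Set.range fun i => ρ ⟨b i, hb i⟩) := by
    intro x hx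
    have hxi : IsIntegral k[X] (ρ x) := sma_int_rho hdat x hx
    have hxi' : ((aeval (ρ ⟨t, ht⟩) : k[X] →ₐ[k] κ) : k[X] →+* κ).IsIntegralElem (ρ x) := by
      rw [← heqκ]
      exact hxi
    obtain ⟨g, hg⟩ := hspan x hxi'
    rw [Submodule.mem_span_range_iff_exists_fun]
    refine ⟨g, ?_⟩
    rw [hg]
    exact Finset.sum_congr rfl fun i _ => hsm _ _
  obtain ⟨w0, hw0, hdisc⟩ := sma_discr (E := E) (Kk := Kk) hdat hint hnE β hβint hβspan u τ e hD
    (fun i => ⟨b i, hb i⟩) hbI hliK hspanV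
  -- the basis
  have hspanK : ⊤ ≤ Submodule.span Kk (Set.range fun i => ρ ⟨b i, hb i⟩) :=
    (hliK.span_eq_top_of_card_eq_finrank' (by simp)).ge
  set bK : Module.Basis (Fin (Module.finrank Kk κ)) Kk κ := Module.Basis.mk hliK hspanK with hbK
  have hbKi : ∀ i, bK i = ρ ⟨b i, hb i⟩ := fun i => by rw [hbK, Module.Basis.mk_apply]
  have hmul : ∀ i j, ∃ cc : Fin (Module.finrank Kk κ) → k[X],
      bK i * bK j = ∑ l, cc l • bK l := by
    intro i j
    have h1 : SmaInt A (((⟨b i, hb i⟩ * ⟨b j, hb j⟩ : V) : V) : F) := sma_int_mul (hbI i) (hbI j)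
    obtain ⟨g, hg⟩ := (Submodule.mem_span_range_iff_exists_fun k[X]).mp (hspanV _ h1)
    refine ⟨g, ?_⟩
    rw [hbKi, hbKi, ← map_mul, ← hg]
    exact Finset.sum_congr rfl fun l _ => by rw [hbKi]
  have hD' : Algebra.discr Kk bK =
      algebraMap k[X] Kk (C w0 * ∏ i, (X - C (res (τ i))) ^ e i) := by
    rw [← hdisc]
    congr 1
    funext i
    exact hbKi i
  have hcop : IsCoprime π (C w0 * ∏ i, (X - C (res (τ i))) ^ e i) := by
    refine IsCoprime.mul_right ?_ ?_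
    · obtain ⟨v, hv⟩ := (isUnit_C.mpr hw0.isUnit).exists_left_inv
      exact ⟨0, v, by rw [zero_mul, zero_add, hv]⟩
    · exact IsCoprime.prod_right fun i _ => IsCoprime.pow_right (unr_coprime_X_sub_C (hπτ i))
  refine unr_reduced (R := k[X]) bK hmul _ hD' π (fun r m hm => unr_sep_dvd hπsep r m hm) hcop a w
    ?_
  have h1 : ∀ g : Fin (Module.finrank Kk κ) → k[X],
      ∑ i, g i • bK i = ∑ i, aeval (ρ ⟨t, ht⟩) (g i) * ρ ⟨b i, hb i⟩ := fun g =>
    Finset.sum_congr rfl fun i _ => by rw [hsm, hbKi]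
  rw [h1, h1, hsm]
  exact h

/-- `unr_smag` with the residue field embedded in a bigger field `Ω` (e.g. `κ ⊆ k((q))`),
stated through `r = σ ∘ ρ : V →+* Ω`. -/
theorem unr_smag_emb {ι J : Type*} [Fintype ι] [DecidableEq ι] [Fintype J] [DecidableEq J]
    [IsAlgClosed K] [Algebra.IsSeparable Kk κ]
    {Ω : Type*} [Field Ω] [Algebra k Ω] (σ : κ →ₐ[k] Ω) (r : V →+* Ω)
    (hr : ∀ x : V, σ (ρ x) = r x)
    (hres : Function.Surjective res)
    (hresker : ∀ a : A, (a : K) ∈ A.nonunits → res a = 0)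
    (hρ : Function.Surjective ρ) (hρker : ∀ x : V, (x : F) ∈ V.nonunits → ρ x = 0)
    (hAV : ∀ a : A, algebraMap K F a ∈ V)
    (hρA : ∀ a : A, ρ ⟨algebraMap K F a, hAV a⟩ = algebraMap k κ (res a))
    (t : F) (ht : t ∈ V) (htr : Transcendental k (ρ ⟨t, ht⟩))
    (hX : ∀ P : K[X], algebraMap K[X] F P = aeval t P)
    (hXκ : ∀ P : k[X], algebraMap k[X] κ P = aeval (ρ ⟨t, ht⟩) P)
    (huniq : ∀ O' : ValuationSubring F,
      (∀ y : ↥K⟮t⟯, algebraMap ↥K⟮t⟯ F y ∈ O' ↔ algebraMap ↥K⟮t⟯ F y ∈ V) → O' = V)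
    (hfin : FiniteDimensional ↥K⟮t⟯ F)
    (n : ℕ) (c : Fin n → F) (hc : ∀ i, c i ∈ V) (hn : Module.finrank ↥K⟮t⟯ F = n)
    (hind : ∀ a : Fin n → ↥K⟮t⟯, (∀ i, algebraMap ↥K⟮t⟯ F (a i) ∈ V) →
      ∑ i, algebraMap ↥K⟮t⟯ F (a i) * c i ∈ V.nonunits →
      ∀ i, algebraMap ↥K⟮t⟯ F (a i) ∈ V.nonunits)
    (β : Module.Basis ι E F) (hβint : ∀ i, IsIntegral K[X] (β i))
    (hβspan : ∀ x : F, IsIntegral K[X] x → x ∈ Submodule.span K[X] (Set.range β))
    (u : K) (τ : J → A) (e : J → ℕ)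
    (hD : Algebra.discr E β = algebraMap K[X] E (C u * ∏ i, (X - C (τ i : K)) ^ e i))
    (b : Fin n → F) (hb : ∀ i, b i ∈ V)
    (hbint : ∀ i, (((aeval t : K[X] →ₐ[K] F) : K[X] →+* F).comp
        (mapRingHom A.subtype)).IsIntegralElem (b i))
    (hli : ∀ g : Fin n → k[X],
        ∑ i, aeval (r ⟨t, ht⟩) (g i) * r ⟨b i, hb i⟩ = 0 → ∀ i, g i = 0)
    (hspan : ∀ y : V, ((aeval (r ⟨t, ht⟩) : k[X] →ₐ[k] Ω) : k[X] →+* Ω).IsIntegralElem (r y) →
        ∃ g : Fin n → k[X], r y = ∑ i, aeval (r ⟨t, ht⟩) (g i) * r ⟨b i, hb i⟩)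
    (π : k[X]) (hπsep : π.Separable) (hπτ : ∀ i, π.eval (res (τ i)) ≠ 0)
    (a w : Fin n → k[X])
    (h : (∑ i, aeval (r ⟨t, ht⟩) (a i) * r ⟨b i, hb i⟩) ^ 2 =
      aeval (r ⟨t, ht⟩) π * ∑ i, aeval (r ⟨t, ht⟩) (w i) * r ⟨b i, hb i⟩) :
    ∀ i, π ∣ a i := by
  have hσ : Function.Injective σ := σ.toRingHom.injective
  have haev : ∀ P : k[X], σ (aeval (ρ ⟨t, ht⟩) P) = aeval (r ⟨t, ht⟩) P := by
    intro P
    rw [← hr]
    exact (Polynomial.aeval_algHom_apply σ (ρ ⟨t, ht⟩) P).symm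
  have hsum : ∀ g : Fin n → k[X], σ (∑ i, aeval (ρ ⟨t, ht⟩) (g i) * ρ ⟨b i, hb i⟩) =
      ∑ i, aeval (r ⟨t, ht⟩) (g i) * r ⟨b i, hb i⟩ := by
    intro g
    rw [map_sum]
    exact Finset.sum_congr rfl fun i _ => by rw [map_mul, haev, hr]
  refine unr_smag (E := E) (Kk := Kk) hres hresker hρ hρker hAV hρA t ht htr hX hXκ huniq hfin
    n c hc hn hind β hβint hβspan u τ e hD b hb hbint
    (fun g hg i => hli g (by rw [← hsum, hg, map_zero]) i) (fun y hy => ?_) π hπsep hπτ a w ?_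
  · have hy' : ((aeval (r ⟨t, ht⟩) : k[X] →ₐ[k] Ω) : k[X] →+* Ω).IsIntegralElem (r y) := by
      obtain ⟨p, hp, hpy⟩ := hy
      refine ⟨p, hp, ?_⟩
      have h1 : (σ : κ →+* Ω).comp ((aeval (ρ ⟨t, ht⟩) : k[X] →ₐ[k] κ) : k[X] →+* κ) =
          ((aeval (r ⟨t, ht⟩) : k[X] →ₐ[k] Ω) : k[X] →+* Ω) := RingHom.ext haev
      have h2 := Polynomial.hom_eval₂ p ((aeval (ρ ⟨t, ht⟩) : k[X] →ₐ[k] κ) : k[X] →+* κ)
        (σ : κ →+* Ω) (ρ y)
      rw [h1, hpy, map_zero] at h2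
      rw [← hr y]
      exact h2.symm
    obtain ⟨g, hg⟩ := hspan y hy'
    exact ⟨g, hσ (by rw [hr, hg, hsum])⟩
  · apply hσ
    rw [map_pow, map_mul, hsum, hsum, haev]
    exact h

end UnrSmag

section UnrSmq

/-- A polynomial coprime to a polynomial vanishing at `a` does not vanish at `a`. -/
theorem unr_eval_ne_of_coprime {k : Type*} [Field k] {π N : k[X]} (h : IsCoprime π N) {a : k}
    (ha : N.eval a = 0) : π.eval a ≠ 0 := by
  intro h0
  obtain ⟨u, v, huv⟩ := h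
  have h1 := congrArg (Polynomial.eval a) huv
  rw [eval_add, eval_mul, eval_mul, h0, ha, mul_zero, mul_zero, add_zero, eval_one] at h1
  exact zero_ne_one h1

/-- **The special fibre of a Hauptmodul chart over `ℚ̄` is unramified over the coordinate line
away from the cusps**, from the separability of the residue field (`hsepX`, in the shape
exported by the cusp-count package).  `b` is any family as produced by `smq_main`. -/
theorem unr_smq_of_cc (N' : ℕ) [NeZero N'] {ℓ : ℕ} [Fact ℓ.Prime] (hℓN' : ¬ ℓ ∣ N') {a2 : ℕ}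
    (H : HauptRec a2 ℓ) (ha2 : a2 ∣ N') (A : ValuationSubring Qb) (hA : A.LiesOverPrime ℓ)
    (c0 c1 : Qb) (hc0 : c0 ∈ A) (hc1 : c1 ∈ A) (h01 : (c0 - c1)⁻¹ ∈ A) (hc : c0 ≠ c1)
    (hq0 : (Polynomial.aeval c0 H.Qrad)⁻¹ ∈ A) (hq0' : Polynomial.aeval c0 H.Qrad ≠ 0)
    (t : ↥(modularFunctionFieldBar N')) (ht : (t : LaurentSeries Qb) = cinstU H Qb c0 c1)
    (xb : SmiKappa A N')
    (hxb : xb = smiRho A hA N' hℓN' ⟨_, smq_jinv_mem N' hℓN' A hA⟩)
    (hsepX : ∀ (Kk : Type) [Field Kk] [Algebra Kk (SmiKappa A N')],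
      xb ∈ (algebraMap Kk (SmiKappa A N')).range →
      (∀ c : IsLocalRing.ResidueField A,
        algebraMap (IsLocalRing.ResidueField A) (SmiKappa A N') c ∈
          (algebraMap Kk (SmiKappa A N')).range) →
      Algebra.IsSeparable Kk (SmiKappa A N'))
    (htV : t ∈ grO A hA N' hℓN')
    (b : Fin (psi N' / psi a2) → ↥(modularFunctionFieldBar N'))
    (hb : ∀ i, b i ∈ grO A hA N' hℓN')
    (hbint : ∀ i, (((Polynomial.aeval t : Qb[X] →ₐ[Qb] ↥(modularFunctionFieldBar N')) :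
          Qb[X] →+* ↥(modularFunctionFieldBar N')).comp
            (Polynomial.mapRingHom A.subtype)).IsIntegralElem (b i))
    (hli : ∀ g : Fin (psi N' / psi a2) → (IsLocalRing.ResidueField A)[X],
        ∑ i, Polynomial.aeval (grRes A hA N' hℓN' ⟨t, htV⟩) (g i) *
          grRes A hA N' hℓN' ⟨b i, hb i⟩ = 0 → ∀ i, g i = 0)
    (hspan : ∀ y : ↥(grO A hA N' hℓN'),
        ((Polynomial.aeval (grRes A hA N' hℓN' ⟨t, htV⟩) :
          (IsLocalRing.ResidueField A)[X] →ₐ[IsLocalRing.ResidueField A]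
            LaurentSeries (IsLocalRing.ResidueField A)) :
          (IsLocalRing.ResidueField A)[X] →+*
            LaurentSeries (IsLocalRing.ResidueField A)).IsIntegralElem
              (grRes A hA N' hℓN' y) →
        ∃ g : Fin (psi N' / psi a2) → (IsLocalRing.ResidueField A)[X],
          grRes A hA N' hℓN' y = ∑ i, Polynomial.aeval (grRes A hA N' hℓN' ⟨t, htV⟩) (g i) *
            grRes A hA N' hℓN' ⟨b i, hb i⟩)
    (π : (IsLocalRing.ResidueField A)[X]) (hπsep : π.Separable)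
    (hπnum : IsCoprime π (hcuNum H (IsLocalRing.ResidueField A)
      (IsLocalRing.residue A ⟨c0, hc0⟩) (IsLocalRing.residue A ⟨c1, hc1⟩)))
    (a w : Fin (psi N' / psi a2) → (IsLocalRing.ResidueField A)[X])
    (h : (∑ i, Polynomial.aeval (grRes A hA N' hℓN' ⟨t, htV⟩) (a i) *
          grRes A hA N' hℓN' ⟨b i, hb i⟩) ^ 2 =
      Polynomial.aeval (grRes A hA N' hℓN' ⟨t, htV⟩) π *
        ∑ i, Polynomial.aeval (grRes A hA N' hℓN' ⟨t, htV⟩) (w i) *
          grRes A hA N' hℓN' ⟨b i, hb i⟩) :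
    ∀ i, π ∣ a i := by
  -- the base points
  have h0 : hcuGood H A c0 := hcuGood_of_inv_mem H A hc0 hq0' hq0
  have hv01 : A.valuation (c0 - c1) = 1 := hcu_val_sub_of_inv_mem A hc0 hc1 hc h01
  have hkcl : IsAlgClosed (IsLocalRing.ResidueField A) := ifr_residue_isAlgClosed A
  -- transcendence of the coordinate and of its residue
  have htrR : Transcendental (IsLocalRing.ResidueField A) (grRes A hA N' hℓN' ⟨t, htV⟩) :=
    gch_transcendental A hA N' hℓN' H hc0 hc1 hc h01 t ht htV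
  have htrκ : Transcendental (IsLocalRing.ResidueField A) (smiRho A hA N' hℓN' ⟨t, htV⟩) := by
    intro halg
    exact htrR (halg.algHom (smiVal A N'))
  have htrK : Transcendental Qb t := by
    intro halg
    have h1 := cinstU_transcendental H Qb c0 c1 hc
    rw [← ht] at h1
    exact h1 (halg.algHom (modularFunctionFieldBar N').val)
  -- the `K[X]`- and `k[X]`-structures (`X ↦ t`, `X ↦ t̄`)
  letI iPF : Algebra Qb[X] ↥(modularFunctionFieldBar N') := smiPolyAlgebra Qb t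
  letI iEF : Algebra (FractionRing Qb[X]) ↥(modularFunctionFieldBar N') :=
    smiFracAlgebra Qb t htrK
  letI iPκ : Algebra (IsLocalRing.ResidueField A)[X] (SmiKappa A N') :=
    smiPolyAlgebra (IsLocalRing.ResidueField A) (smiRho A hA N' hℓN' ⟨t, htV⟩)
  letI iKκ : Algebra (FractionRing (IsLocalRing.ResidueField A)[X]) (SmiKappa A N') :=
    smiFracAlgebra (IsLocalRing.ResidueField A) (smiRho A hA N' hℓN' ⟨t, htV⟩) htrκ
  haveI iT1 : IsScalarTower Qb[X] (FractionRing Qb[X]) ↥(modularFunctionFieldBar N') :=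
    smi_isScalarTower Qb t htrK
  haveI iT2 : IsScalarTower (IsLocalRing.ResidueField A)[X]
      (FractionRing (IsLocalRing.ResidueField A)[X]) (SmiKappa A N') :=
    smi_isScalarTower (IsLocalRing.ResidueField A) (smiRho A hA N' hℓN' ⟨t, htV⟩) htrκ
  have hX : ∀ P : Qb[X], algebraMap Qb[X] ↥(modularFunctionFieldBar N') P = aeval t P :=
    fun P => rfl
  have hXκ : ∀ P : (IsLocalRing.ResidueField A)[X],
      algebraMap (IsLocalRing.ResidueField A)[X] (SmiKappa A N') P =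
        aeval (smiRho A hA N' hℓN' ⟨t, htV⟩) P := fun P => rfl
  have hXK : ∀ P : (IsLocalRing.ResidueField A)[X],
      algebraMap (FractionRing (IsLocalRing.ResidueField A)[X]) (SmiKappa A N')
        (algebraMap (IsLocalRing.ResidueField A)[X]
          (FractionRing (IsLocalRing.ResidueField A)[X]) P) =
        aeval (smiRho A hA N' hℓN' ⟨t, htV⟩) P :=
    smi_fracAlgebra_algebraMap (IsLocalRing.ResidueField A) _ htrκ
  -- the characteristic-zero discriminant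
  obtain ⟨β, u, e, m, hβint, hβspan, -, hem, hm, hD⟩ :=
    c0r_main N' H (E := FractionRing Qb[X]) ha2 c0 c1 hc hq0' t ht hX
  -- the orthonormal basis
  obtain ⟨cb, hcb, hfd, -, hind, -⟩ := gch_hind A hA N' hℓN' H hc0 hc1 hc h01 t ht htV
  have hn : Module.finrank ↥Qb⟮t⟯ ↥(modularFunctionFieldBar N') = psi N' / psi a2 :=
    gch_finrank A hA N' hℓN' H hc t ht
  have hρ : Function.Surjective (smiRho A hA N' hℓN') := smiRho_surjective A hA N' hℓN'
  have hj := smq_jinv_mem N' hℓN' A hA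
  have hrel : aeval (smiRho A hA N' hℓN' ⟨t, htV⟩)
        (hcuDen H (IsLocalRing.ResidueField A) (IsLocalRing.residue A ⟨c0, hc0⟩)
          (IsLocalRing.residue A ⟨c1, hc1⟩)) * xb =
      aeval (smiRho A hA N' hℓN' ⟨t, htV⟩)
        (hcuNum H (IsLocalRing.ResidueField A) (IsLocalRing.residue A ⟨c0, hc0⟩)
          (IsLocalRing.residue A ⟨c1, hc1⟩)) := by
    rw [hxb]
    exact smq_rel_res N' hℓN' A hA H hc0 hc1 t ht htV hj
  have hDenne : aeval (smiRho A hA N' hℓN' ⟨t, htV⟩)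
      (hcuDen H (IsLocalRing.ResidueField A) (IsLocalRing.residue A ⟨c0, hc0⟩)
        (IsLocalRing.residue A ⟨c1, hc1⟩)) ≠ 0 := by
    intro h
    have h1 := transcendental_iff.mp htrκ _ h
    have h2 := hcuTauRes_den H A hA ⟨c0, hc0⟩ ⟨c1, hc1⟩ h0 hv01 none
    rw [h1, eval_zero] at h2
    exact h2 rfl
  -- separability of the residue field over `k(t̄)`
  haveI hsep : Algebra.IsSeparable (FractionRing (IsLocalRing.ResidueField A)[X])
      (SmiKappa A N') :=
    hsepX (FractionRing (IsLocalRing.ResidueField A)[X])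
      (smq_range_of_rel _ _ hXK _ _ hDenne hrel) (fun c => smq_cst_range _ hXK c)
  have hAV : ∀ a : A, algebraMap Qb ↥(modularFunctionFieldBar N') (a : Qb) ∈ grO A hA N' hℓN' :=
    fun a => (mem_grO_iff A hA N' hℓN' _).mpr (gr_algebraMap_mem A a)
  exact unr_smag_emb (E := FractionRing Qb[X])
    (Kk := FractionRing (IsLocalRing.ResidueField A)[X]) (smiVal A N') (grRes A hA N' hℓN')
    (fun x => rfl) IsLocalRing.residue_surjective
    (fun a ha => by
      obtain ⟨h1, h2⟩ := ValuationSubring.mem_nonunits_iff_exists_mem_maximalIdeal.mp ha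
      exact (IsLocalRing.residue_eq_zero_iff _).mpr h2)
    hρ (fun x hx => (smiRho_eq_zero_iff A hA N' hℓN' x).mpr hx)
    hAV (fun a => smiRho_algebraMap A hA N' hℓN' a (hAV a))
    t htV htrκ hX hXκ (gch_unique A hA N' hℓN' H hc t ht) hfd (psi N' / psi a2) cb hcb hn hind
    β hβint hβspan u (hcuTauA H A ⟨c0, hc0⟩ ⟨c1, hc1⟩ h0) e hD b hb hbint hli hspan π hπsep
    (fun o => unr_eval_ne_of_coprime hπnum (hcuTauRes_num H A hA _ _ h0 hv01 o)) a w h

/-- **The special fibre of a Hauptmodul chart over `ℚ̄` is unramified over the coordinate line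
away from the cusps.**  For the chart `t = (h - c1) / (h - c0)` at level `N'` (`ℓ ∤ N'`), any
family `b` of Gauss-integral elements, integral over `A[t]`, whose residues are a `k[t̄]`-basis of
the residues integral over `k[t̄]` (as produced by `smq_main`), and any separable `π ∈ k[X]`
coprime to `hcuNum` (the polynomial of the cusp values of the chart): if
`(∑ aᵢ(t̄) b̄ᵢ)² = π(t̄) · ∑ wᵢ(t̄) b̄ᵢ` then `π ∣ aᵢ` for all `i`. -/
theorem unr_smq (N' : ℕ) [NeZero N'] {ℓ : ℕ} [Fact ℓ.Prime] (hℓN' : ¬ ℓ ∣ N') {a2 : ℕ}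
    (H : HauptRec a2 ℓ) (ha2 : a2 ∣ N') (A : ValuationSubring Qb) (hA : A.LiesOverPrime ℓ)
    (c0 c1 : Qb) (hc0 : c0 ∈ A) (hc1 : c1 ∈ A) (h01 : (c0 - c1)⁻¹ ∈ A) (hc : c0 ≠ c1)
    (hq0 : (Polynomial.aeval c0 H.Qrad)⁻¹ ∈ A) (hq0' : Polynomial.aeval c0 H.Qrad ≠ 0)
    (t : ↥(modularFunctionFieldBar N')) (ht : (t : LaurentSeries Qb) = cinstU H Qb c0 c1)
    (htV : t ∈ grO A hA N' hℓN')
    (b : Fin (psi N' / psi a2) → ↥(modularFunctionFieldBar N'))
    (hb : ∀ i, b i ∈ grO A hA N' hℓN')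
    (hbint : ∀ i, (((Polynomial.aeval t : Qb[X] →ₐ[Qb] ↥(modularFunctionFieldBar N')) :
          Qb[X] →+* ↥(modularFunctionFieldBar N')).comp
            (Polynomial.mapRingHom A.subtype)).IsIntegralElem (b i))
    (hli : ∀ g : Fin (psi N' / psi a2) → (IsLocalRing.ResidueField A)[X],
        ∑ i, Polynomial.aeval (grRes A hA N' hℓN' ⟨t, htV⟩) (g i) *
          grRes A hA N' hℓN' ⟨b i, hb i⟩ = 0 → ∀ i, g i = 0)
    (hspan : ∀ y : ↥(grO A hA N' hℓN'),
        ((Polynomial.aeval (grRes A hA N' hℓN' ⟨t, htV⟩) :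
          (IsLocalRing.ResidueField A)[X] →ₐ[IsLocalRing.ResidueField A]
            LaurentSeries (IsLocalRing.ResidueField A)) :
          (IsLocalRing.ResidueField A)[X] →+*
            LaurentSeries (IsLocalRing.ResidueField A)).IsIntegralElem
              (grRes A hA N' hℓN' y) →
        ∃ g : Fin (psi N' / psi a2) → (IsLocalRing.ResidueField A)[X],
          grRes A hA N' hℓN' y = ∑ i, Polynomial.aeval (grRes A hA N' hℓN' ⟨t, htV⟩) (g i) *
            grRes A hA N' hℓN' ⟨b i, hb i⟩)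
    (π : (IsLocalRing.ResidueField A)[X]) (hπsep : π.Separable)
    (hπnum : IsCoprime π (hcuNum H (IsLocalRing.ResidueField A)
      (IsLocalRing.residue A ⟨c0, hc0⟩) (IsLocalRing.residue A ⟨c1, hc1⟩)))
    (a w : Fin (psi N' / psi a2) → (IsLocalRing.ResidueField A)[X])
    (h : (∑ i, Polynomial.aeval (grRes A hA N' hℓN' ⟨t, htV⟩) (a i) *
          grRes A hA N' hℓN' ⟨b i, hb i⟩) ^ 2 =
      Polynomial.aeval (grRes A hA N' hℓN' ⟨t, htV⟩) π *
        ∑ i, Polynomial.aeval (grRes A hA N' hℓN' ⟨t, htV⟩) (w i) *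
          grRes A hA N' hℓN' ⟨b i, hb i⟩) :
    ∀ i, π ∣ a i :=
  unr_smq_of_cc N' hℓN' H ha2 A hA c0 c1 hc0 hc1 h01 hc hq0 hq0' t ht
    (ccX A hA N' hℓN' (smiRho A hA N' hℓN'))
    (cc_X_def A hA N' hℓN' (smiRho A hA N' hℓN') (smq_jinv_mem N' hℓN' A hA))
    (fun Kk _ _ hX hc' =>
      cc_isSeparable A hA N' hℓN' (smiRho A hA N' hℓN') (smiRho_surjective A hA N' hℓN') hX
        (fun c => by
          rw [smq_ccCst_eq]
          exact hc' c))
    htV b hb hbint hli hspan π hπsep hπnum a w h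

end UnrSmq

end Fermat.Agent.S34
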