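import Mathlib
import Fermat.Agent.S34.UnramDiscr
import Fermat.Agent.S34.UnramDesc
import Fermat.Agent.S18.SMInst
import Fermat.Agent.S18.SMInstMain

/-!
# S34, leaf D-UNRAM (instantiation): the Hauptmodul chart over a DVR of definition is unramified
over the coordinate line at the non-cuspidal points of the special fibre

`unr_chart` (one chart over a field of definition, the analogue of S18 `sminst_chart`),
`unr_chart_stmt` (in the shape `unrChart`), and

`unr_main`: for a Hauptmodul record `H : HauptRec a2 ℓ` at a level `N'` prime to `ℓ`, a valuation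
subring `A` of `ℚ̄` over `ℓ` and ANY admissible pair of base points `c0 ≠ c1` (`c0 - c1` and
`Qrad(c0)` units of `A`), there is a finite set `T ⊆ ℚ̄` such that over every number field
`K0 ⊇ T ∪ {c0, c1}`, with `A0 = A ∩ K0`, `t = (h - c1) / (h - c0)`, `O = chtO A0 {t}`:

  for every `π ∈ A0[X]` whose reduction is separable and coprime to `hcuNum` (the polynomial
  of the cusp values of the chart), the ideal `(τ, π(t))` of `O` is radical:
  `z ^ 2 ∈ (τ, π(t)) O → z ∈ (τ, π(t)) O`.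

Consequently, at a maximal ideal `P ∋ τ, π(t)` of `O` one has `P O_P = (τ, π(t)) O_P`.
-/

set_option autoImplicit false
set_option linter.style.haveILetI false
set_option linter.unusedSectionVars false

noncomputable section

open ModularCurve Polynomial
open scoped IntermediateField

namespace Fermat.Agent.S34

open Fermat.Agent.S18 Fermat.Agent.S28

section Chart

variable {K₀ L : Type*} [Field K₀] [Field L] [Algebra ℚ K₀] [Algebra ℚ L] [Algebra K₀ L]
  [Algebra.IsAlgebraic K₀ L]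
  (A : ValuationSubring L) {ℓ : ℕ} [Fact ℓ.Prime] (hA : A.LiesOverPrime ℓ)
  (M : ℕ) [NeZero M] (hℓM : ¬ ℓ ∣ M) {a2 : ℕ} (H : HauptRec a2 ℓ)

local notation "Ac" => ValuationSubring.comap A (algebraMap K₀ L)
set_option quotPrecheck false in
local notation "Fm" => ↥(laurentBaseChange K₀ (modularFunctionFieldFull M))
set_option quotPrecheck false in
local notation "kc" => IsLocalRing.ResidueField ↥(ValuationSubring.comap A (algebraMap K₀ L))
set_option quotPrecheck false in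
local notation "kA" => IsLocalRing.ResidueField ↥A

set_option maxHeartbeats 1600000 in
/-- **One chart over a field of definition.**  The ideal `(τ, π(t₀))` of the chart `chtO A₀ {t₀}`
is radical, given the reducedness `hπQ` of the fibre over the big residue field. -/
theorem unr_chart [IsDiscreteValuationRing ↥(A.comap (algebraMap K₀ L))]
    (hA₀ : (A.comap (algebraMap K₀ L)).LiesOverPrime ℓ)
    (c0 c1 : K₀) (hc0 : c0 ∈ A.comap (algebraMap K₀ L)) (hc1 : c1 ∈ A.comap (algebraMap K₀ L))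
    (hne : c0 ≠ c1) (h01 : (c0 - c1)⁻¹ ∈ A.comap (algebraMap K₀ L))
    (t₀ : ↥(laurentBaseChange K₀ (modularFunctionFieldFull M)))
    (ht₀ : (t₀ : LaurentSeries K₀) = cinstU H K₀ c0 c1)
    [Algebra ↥(A.comap (algebraMap K₀ L)) ↥(laurentBaseChange K₀ (modularFunctionFieldFull M))]
    [IsScalarTower ↥(A.comap (algebraMap K₀ L)) K₀
      ↥(laurentBaseChange K₀ (modularFunctionFieldFull M))]
    (τ : ↥(A.comap (algebraMap K₀ L))) (hτ : Irreducible τ)
    (hker : ∀ x ∈ chtO ↥(A.comap (algebraMap K₀ L)) {t₀},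
      x ∈ (grO (A.comap (algebraMap K₀ L)) hA₀ M hℓM).nonunits →
      ∃ y ∈ chtO ↥(A.comap (algebraMap K₀ L)) {t₀},
        x = algebraMap ↥(A.comap (algebraMap K₀ L))
          ↥(laurentBaseChange K₀ (modularFunctionFieldFull M)) τ * y)
    (b0 : Fin (psi M / psi a2) → ↥(laurentBaseChange K₀ (modularFunctionFieldFull M)))
    (hb0 : ∀ i, (((aeval t₀ : K₀[X] →ₐ[K₀] ↥(laurentBaseChange K₀ (modularFunctionFieldFull M))) :
      K₀[X] →+* ↥(laurentBaseChange K₀ (modularFunctionFieldFull M))).comp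
        (Polynomial.mapRingHom (A.comap (algebraMap K₀ L)).subtype)).IsIntegralElem (b0 i))
    (htV : bcfHom K₀ L (modularFunctionFieldFull M) t₀ ∈ grO A hA M hℓM)
    (hbV : ∀ i, bcfHom K₀ L (modularFunctionFieldFull M) (b0 i) ∈ grO A hA M hℓM)
    (hli : ∀ g : Fin (psi M / psi a2) → (IsLocalRing.ResidueField A)[X],
      ∑ i, aeval (grRes A hA M hℓM ⟨_, htV⟩) (g i) * grRes A hA M hℓM ⟨_, hbV i⟩ = 0 →
        ∀ i, g i = 0)
    (hspan : ∀ y : ↥(grO A hA M hℓM),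
      ((aeval (grRes A hA M hℓM ⟨_, htV⟩) :
          (IsLocalRing.ResidueField A)[X] →ₐ[IsLocalRing.ResidueField A]
            LaurentSeries (IsLocalRing.ResidueField A)) :
          (IsLocalRing.ResidueField A)[X] →+*
            LaurentSeries (IsLocalRing.ResidueField A)).IsIntegralElem (grRes A hA M hℓM y) →
      ∃ g : Fin (psi M / psi a2) → (IsLocalRing.ResidueField A)[X],
        grRes A hA M hℓM y =
          ∑ i, aeval (grRes A hA M hℓM ⟨_, htV⟩) (g i) * grRes A hA M hℓM ⟨_, hbV i⟩)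
    (π : (↥(A.comap (algebraMap K₀ L)))[X])
    (hπQ : ∀ a w : Fin (psi M / psi a2) → (IsLocalRing.ResidueField A)[X],
      (∑ i, aeval (grRes A hA M hℓM ⟨_, htV⟩) (a i) * grRes A hA M hℓM ⟨_, hbV i⟩) ^ 2 =
        aeval (grRes A hA M hℓM ⟨_, htV⟩)
          ((π.map (IsLocalRing.residue ↥(A.comap (algebraMap K₀ L)))).map
            (bcfResMap (K₀ := K₀) A)) *
          ∑ i, aeval (grRes A hA M hℓM ⟨_, htV⟩) (w i) * grRes A hA M hℓM ⟨_, hbV i⟩ →
      ∀ i, (π.map (IsLocalRing.residue ↥(A.comap (algebraMap K₀ L)))).map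
        (bcfResMap (K₀ := K₀) A) ∣ a i)
    (z y y' : ↥(laurentBaseChange K₀ (modularFunctionFieldFull M)))
    (hz : z ∈ chtO ↥(A.comap (algebraMap K₀ L)) {t₀})
    (hy : y ∈ chtO ↥(A.comap (algebraMap K₀ L)) {t₀})
    (hy' : y' ∈ chtO ↥(A.comap (algebraMap K₀ L)) {t₀})
    (h : z ^ 2 = algebraMap ↥(A.comap (algebraMap K₀ L))
        ↥(laurentBaseChange K₀ (modularFunctionFieldFull M)) τ * y + aeval t₀ π * y') :
    ∃ u ∈ chtO ↥(A.comap (algebraMap K₀ L)) {t₀}, ∃ u' ∈ chtO ↥(A.comap (algebraMap K₀ L)) {t₀},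
      z = algebraMap ↥(A.comap (algebraMap K₀ L))
        ↥(laurentBaseChange K₀ (modularFunctionFieldFull M)) τ * u + aeval t₀ π * u' := by
  classical
  have hVG : ∀ x : ↥(laurentBaseChange K₀ (modularFunctionFieldFull M)),
      x ∈ grO (A.comap (algebraMap K₀ L)) hA₀ M hℓM ↔
        (x : LaurentSeries K₀) ∈ grV (A.comap (algebraMap K₀ L)) := fun x => Iff.rfl
  have hgdv : ∀ x ∈ laurentBaseChange K₀ (modularFunctionFieldFull M),
      gdvProp (A.comap (algebraMap K₀ L)) x := fun x hx => gdv_full_le _ M hx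
  have hmap : ∀ a : ↥(A.comap (algebraMap K₀ L)),
      algebraMap ↥(A.comap (algebraMap K₀ L))
        ↥(laurentBaseChange K₀ (modularFunctionFieldFull M)) a =
      algebraMap K₀ ↥(laurentBaseChange K₀ (modularFunctionFieldFull M)) (a : K₀) := fun a =>
    IsScalarTower.algebraMap_apply _ K₀ _ a
  have hAmem : ∀ a : ↥(A.comap (algebraMap K₀ L)),
      algebraMap K₀ ↥(laurentBaseChange K₀ (modularFunctionFieldFull M)) (a : K₀) ∈
        grO (A.comap (algebraMap K₀ L)) hA₀ M hℓM := fun a =>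
    (cinst_algebraMap_mem_iff (grO (A.comap (algebraMap K₀ L)) hA₀ M hℓM) hVG _).mpr a.2
  have htV₀ : t₀ ∈ grO (A.comap (algebraMap K₀ L)) hA₀ M hℓM :=
    gch_mem _ hA₀ M hℓM H hc0 hc1 t₀ ht₀
  have htr₀ : Transcendental (IsLocalRing.ResidueField ↥(A.comap (algebraMap K₀ L)))
      (grRes (A.comap (algebraMap K₀ L)) hA₀ M hℓM ⟨t₀, htV₀⟩) :=
    gch_transcendental _ hA₀ M hℓM H hc0 hc1 hne h01 t₀ ht₀ htV₀
  have hτmax : τ ∈ IsLocalRing.maximalIdeal ↥Ac := by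
    rw [IsLocalRing.mem_maximalIdeal, mem_nonunits_iff]
    exact hτ.not_isUnit
  have hτF : algebraMap K₀ Fm (τ : K₀) ≠ 0 := by
    rw [Ne, map_eq_zero]
    intro h0
    exact hτ.ne_zero (Subtype.ext h0)
  -- the polynomial algebra
  letI : Algebra (↥Ac)[X] Fm := ((aeval t₀ : (↥Ac)[X] →ₐ[↥Ac] Fm) : (↥Ac)[X] →+* Fm).toAlgebra
  have hhomeq : algebraMap (↥Ac)[X] Fm =
      ((aeval t₀ : K₀[X] →ₐ[K₀] Fm) : K₀[X] →+* Fm).comp (Polynomial.mapRingHom (Ac).subtype) := by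
    refine Polynomial.ringHom_ext (fun a => ?_) ?_
    · show aeval t₀ (C a) = aeval t₀ ((C a).map (Ac).subtype)
      rw [aeval_C, map_C, aeval_C, hmap]
      rfl
    · show aeval t₀ X = aeval t₀ ((X : (↥Ac)[X]).map (Ac).subtype)
      rw [aeval_X, map_X, aeval_X]
  have hhom : ∀ p : (↥Ac)[X], algebraMap (↥Ac)[X] Fm p = aeval t₀ (p.map (Ac).subtype) := fun p => by
    rw [hhomeq]
    rfl
  have hCτ : algebraMap (↥Ac)[X] Fm (C τ) = algebraMap K₀ Fm (τ : K₀) := by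
    rw [hhom, map_C, aeval_C]
    rfl
  have hAV : ∀ p : (↥Ac)[X], algebraMap (↥Ac)[X] Fm p ∈ grO Ac hA₀ M hℓM := by
    intro p
    rw [hhom, aeval_eq_sum_range]
    refine sum_mem fun i _ => ?_
    rw [coeff_map, Algebra.smul_def]
    exact mul_mem (hAmem (p.coeff i)) (pow_mem htV₀ i)
  -- the residue of the coordinate
  have htbar : Transcendental kc (smiRho Ac hA₀ M hℓM ⟨t₀, htV₀⟩) := by
    intro halg
    exact htr₀ (halg.algHom (smiVal Ac M))
  have hval : ∀ r : kc[X],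
      smiVal Ac M (aeval (smiRho Ac hA₀ M hℓM ⟨t₀, htV₀⟩) r) =
        aeval (grRes Ac hA₀ M hℓM ⟨t₀, htV₀⟩) r := fun r =>
    (Polynomial.aeval_algHom_apply (smiVal Ac M) (smiRho Ac hA₀ M hℓM ⟨t₀, htV₀⟩) r).symm
  -- `hf0`
  have hf0 : ∀ p : (↥Ac)[X], smiRho Ac hA₀ M hℓM ⟨algebraMap (↥Ac)[X] Fm p, hAV p⟩ =
      ((aeval (smiRho Ac hA₀ M hℓM ⟨t₀, htV₀⟩) : kc[X] →ₐ[kc] SmiKappa Ac M) :
        kc[X] →+* SmiKappa Ac M) (p.map (IsLocalRing.residue ↥Ac)) := by
    let g : (↥Ac)[X] →+* ↥(grO Ac hA₀ M hℓM) :=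
      (algebraMap (↥Ac)[X] Fm).codRestrict (grO Ac hA₀ M hℓM).toSubring hAV
    have hcomp : (smiRho Ac hA₀ M hℓM).comp g =
        (((aeval (smiRho Ac hA₀ M hℓM ⟨t₀, htV₀⟩) : kc[X] →ₐ[kc] SmiKappa Ac M) :
          kc[X] →+* SmiKappa Ac M)).comp (Polynomial.mapRingHom (IsLocalRing.residue ↥Ac)) := by
      refine Polynomial.ringHom_ext (fun a => ?_) ?_
      · show smiRho Ac hA₀ M hℓM (g (C a)) =
          aeval (smiRho Ac hA₀ M hℓM ⟨t₀, htV₀⟩) ((C a).map (IsLocalRing.residue ↥Ac))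
        rw [map_C, aeval_C, ← smiRho_algebraMap Ac hA₀ M hℓM a (hAmem a)]
        congr 1
        apply Subtype.ext
        show algebraMap (↥Ac)[X] Fm (C a) = _
        rw [hhom, map_C, aeval_C]
        rfl
      · show smiRho Ac hA₀ M hℓM (g X) =
          aeval (smiRho Ac hA₀ M hℓM ⟨t₀, htV₀⟩) ((X : (↥Ac)[X]).map (IsLocalRing.residue ↥Ac))
        rw [map_X, aeval_X]
        congr 1
        apply Subtype.ext
        show algebraMap (↥Ac)[X] Fm X = _
        rw [hhom, map_X, aeval_X]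
    intro p
    exact congrArg (fun h : (↥Ac)[X] →+* SmiKappa Ac M => h p) hcomp
  -- the kernel
  have hτdvd : ∀ a : ↥Ac, IsLocalRing.residue ↥Ac a = 0 ↔ τ ∣ a := fun a => by
    rw [IsLocalRing.residue_eq_zero_iff, hτ.maximalIdeal_eq, Ideal.mem_span_singleton]
  have hgen : ∀ x ∈ (grO Ac hA₀ M hℓM).nonunits, ∃ y ∈ grO Ac hA₀ M hℓM,
      x = algebraMap (↥Ac)[X] Fm (C τ) * y := by
    intro x hx
    obtain ⟨y, hy, hxy⟩ := cinst_nonunits_eq_mul (grO Ac hA₀ M hℓM) hVG hgdv τ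
      hτ.maximalIdeal_eq x hx
    exact ⟨y, hy, by rw [hCτ]; exact hxy⟩
  have hτV : algebraMap K₀ Fm (τ : K₀) ∈ (grO Ac hA₀ M hℓM).nonunits :=
    cinst_algebraMap_mem_nonunits (grO Ac hA₀ M hℓM) hVG τ hτmax
  have h5 : ∀ x y : Fm, IsIntegral (↥Ac)[X] x → y ∈ grO Ac hA₀ M hℓM →
      x = algebraMap (↥Ac)[X] Fm (C τ) * y → IsIntegral (↥Ac)[X] y := by
    intro x y hx hy hxy
    have hx' : x ∈ chtO ↥Ac {t₀} := (cht_mem_iff_isIntegral_poly t₀ (fun p => rfl) x).mpr hx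
    have hxV : x ∈ (grO Ac hA₀ M hℓM).nonunits := by
      rw [hxy, hCτ, ValuationSubring.mem_nonunits_iff, map_mul]
      have h1 := (ValuationSubring.mem_nonunits_iff _).mp hτV
      have h2 := ((grO Ac hA₀ M hℓM).valuation_le_one_iff y).mpr hy
      exact mul_lt_one_of_lt_of_le h1 h2
    obtain ⟨y', hy', hxy'⟩ := hker x hx' hxV
    have hyy : y = y' := by
      rw [hxy, hCτ, hmap] at hxy'
      exact mul_left_cancel₀ hτF hxy'
    rw [hyy]
    exact (cht_mem_iff_isIntegral_poly t₀ (fun p => rfl) y').mp hy'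
  -- the degree bound
  have hfin : ∃ c : Fin (psi M / psi a2) → SmiKappa Ac M, ∀ x : SmiKappa Ac M,
      ∃ (p : Fin (psi M / psi a2) → kc[X]) (q : kc[X]), q ≠ 0 ∧
        ((aeval (smiRho Ac hA₀ M hℓM ⟨t₀, htV₀⟩) : kc[X] →ₐ[kc] SmiKappa Ac M) :
          kc[X] →+* SmiKappa Ac M) q * x =
        ∑ i, ((aeval (smiRho Ac hA₀ M hℓM ⟨t₀, htV₀⟩) : kc[X] →ₐ[kc] SmiKappa Ac M) :
          kc[X] →+* SmiKappa Ac M) (p i) * c i := by
    obtain ⟨c, hc⟩ := gch_residue_span Ac hA₀ M hℓM H hc0 hc1 hne h01 t₀ ht₀ htV₀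
    refine ⟨fun i => smiRho Ac hA₀ M hℓM (c i), fun x => ?_⟩
    obtain ⟨x', rfl⟩ := smiRho_surjective Ac hA₀ M hℓM x
    obtain ⟨p, q, hq, hpq⟩ := hc x'
    refine ⟨p, q, hq, ?_⟩
    apply smiVal_injective Ac M
    rw [map_mul, map_sum]
    show smiVal Ac M (aeval (smiRho Ac hA₀ M hℓM ⟨t₀, htV₀⟩) q) *
      smiVal Ac M (smiRho Ac hA₀ M hℓM x') = _
    rw [hval, smiVal_smiRho, hpq]
    refine Finset.sum_congr rfl fun i _ => ?_
    rw [map_mul]
    show _ = smiVal Ac M (aeval (smiRho Ac hA₀ M hℓM ⟨t₀, htV₀⟩) (p i)) *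
      smiVal Ac M (smiRho Ac hA₀ M hℓM (c i))
    rw [hval, smiVal_smiRho]
  -- the comparison with the residue field over `L`
  have hj : ∀ r : kc[X],
      ((coeffMap (bcfResMap (K₀ := K₀) A)).comp
        ((smiVal Ac M : SmiKappa Ac M →ₐ[kc] LaurentSeries kc) :
          SmiKappa Ac M →+* LaurentSeries kc))
        (((aeval (smiRho Ac hA₀ M hℓM ⟨t₀, htV₀⟩) : kc[X] →ₐ[kc] SmiKappa Ac M) :
          kc[X] →+* SmiKappa Ac M) r) =
      ((aeval (grRes A hA M hℓM ⟨_, htV⟩) : kA[X] →ₐ[kA] LaurentSeries kA) :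
        kA[X] →+* LaurentSeries kA) (r.map (bcfResMap (K₀ := K₀) A)) := by
    have hcomp : (coeffMap (bcfResMap (K₀ := K₀) A)).comp
        ((aeval (grRes Ac hA₀ M hℓM ⟨t₀, htV₀⟩) : kc[X] →ₐ[kc] LaurentSeries kc) :
          kc[X] →+* LaurentSeries kc) =
        ((aeval (grRes A hA M hℓM ⟨_, htV⟩) : kA[X] →ₐ[kA] LaurentSeries kA) :
          kA[X] →+* LaurentSeries kA).comp (Polynomial.mapRingHom (bcfResMap (K₀ := K₀) A)) := by
      refine Polynomial.ringHom_ext (fun a => ?_) ?_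
      · show coeffMap (bcfResMap (K₀ := K₀) A) (aeval (grRes Ac hA₀ M hℓM ⟨t₀, htV₀⟩) (C a)) =
          aeval (grRes A hA M hℓM ⟨_, htV⟩) ((C a).map (bcfResMap (K₀ := K₀) A))
        rw [aeval_C, map_C, aeval_C]
        exact cinst_coeffMap_algebraMap _ a
      · show coeffMap (bcfResMap (K₀ := K₀) A) (aeval (grRes Ac hA₀ M hℓM ⟨t₀, htV₀⟩) X) =
          aeval (grRes A hA M hℓM ⟨_, htV⟩) ((X : kc[X]).map (bcfResMap (K₀ := K₀) A))
        rw [aeval_X, map_X, aeval_X]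
        exact sminst_grRes_bcf A hA M hℓM hA₀ t₀ htV₀ htV
    intro r
    show coeffMap (bcfResMap (K₀ := K₀) A)
      (smiVal Ac M (aeval (smiRho Ac hA₀ M hℓM ⟨t₀, htV₀⟩) r)) = _
    rw [hval]
    exact congrArg (fun h : kc[X] →+* LaurentSeries kA => h r) hcomp
  -- the basis
  have hb0' : ∀ i, IsIntegral (↥Ac)[X] (b0 i) := fun i => by
    show (algebraMap (↥Ac)[X] Fm).IsIntegralElem (b0 i)
    rw [hhomeq]
    exact hb0 i
  have hb0V : ∀ i, b0 i ∈ grO Ac hA₀ M hℓM := fun i =>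
    valext_mem_of_isIntegral (grO Ac hA₀ M hℓM) hAV _ (hb0' i)
  have hjb : ∀ i, ((coeffMap (bcfResMap (K₀ := K₀) A)).comp
      ((smiVal Ac M : SmiKappa Ac M →ₐ[kc] LaurentSeries kc) :
        SmiKappa Ac M →+* LaurentSeries kc)) (smiRho Ac hA₀ M hℓM ⟨b0 i, hb0V i⟩) =
      grRes A hA M hℓM ⟨_, hbV i⟩ := fun i =>
    sminst_grRes_bcf A hA M hℓM hA₀ (b0 i) (hb0V i) (hbV i)
  have hzI : IsIntegral (↥Ac)[X] z := (cht_mem_iff_isIntegral_poly t₀ (fun p => rfl) z).mp hz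
  have hyI : IsIntegral (↥Ac)[X] y := (cht_mem_iff_isIntegral_poly t₀ (fun p => rfl) y).mp hy
  have hy'I : IsIntegral (↥Ac)[X] y' := (cht_mem_iff_isIntegral_poly t₀ (fun p => rfl) y').mp hy'
  have hCτ' : algebraMap (↥Ac)[X] Fm (C τ) = algebraMap ↥Ac Fm τ := by rw [hCτ, hmap]
  have hπalg : algebraMap (↥Ac)[X] Fm π = aeval t₀ π := rfl
  obtain ⟨u, u', huI, hu'I, hu⟩ := unr_radical_of_valuation (IsLocalRing.residue ↥Ac)
    IsLocalRing.residue_surjective
    τ hτdvd (grO Ac hA₀ M hℓM) hAV (smiRho Ac hA₀ M hℓM) (smiRho_surjective Ac hA₀ M hℓM)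
    (fun x hx => (smiRho_eq_zero_iff Ac hA₀ M hℓM x).mp hx)
    ((aeval (smiRho Ac hA₀ M hℓM ⟨t₀, htV₀⟩) : kc[X] →ₐ[kc] SmiKappa Ac M) :
      kc[X] →+* SmiKappa Ac M) hf0 (smi_aeval_injective _ _ htbar) hgen h5 (psi M / psi a2) hfin
    (bcfResMap (K₀ := K₀) A) (sminst_bcfResMap_isIntegral A)
    ((aeval (grRes A hA M hℓM ⟨_, htV⟩) : kA[X] →ₐ[kA] LaurentSeries kA) :
      kA[X] →+* LaurentSeries kA)
    ((coeffMap (bcfResMap (K₀ := K₀) A)).comp
      ((smiVal Ac M : SmiKappa Ac M →ₐ[kc] LaurentSeries kc) :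
        SmiKappa Ac M →+* LaurentSeries kc)) hj b0 hb0' hb0V
    (by
      intro g hg
      refine hli g ?_
      rw [← hg]
      refine Finset.sum_congr rfl fun i _ => ?_
      congr 1
      exact (hjb i).symm)
    (by
      intro x hx
      have hx' : bcfHom K₀ L (modularFunctionFieldFull M) (x : Fm) ∈ grO A hA M hℓM :=
        bcf_grV_mem A x.2
      have hkey : ((coeffMap (bcfResMap (K₀ := K₀) A)).comp
          ((smiVal Ac M : SmiKappa Ac M →ₐ[kc] LaurentSeries kc) :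
            SmiKappa Ac M →+* LaurentSeries kc)) (smiRho Ac hA₀ M hℓM x) =
          grRes A hA M hℓM ⟨_, hx'⟩ := sminst_grRes_bcf A hA M hℓM hA₀ (x : Fm) x.2 hx'
      rw [hkey] at hx ⊢
      obtain ⟨g, hg⟩ := hspan _ hx
      refine ⟨g, ?_⟩
      rw [hg]
      refine Finset.sum_congr rfl fun i _ => ?_
      congr 1
      exact (hjb i).symm)
    π
    (by
      intro a w haw
      refine hπQ a w ?_
      have e1 : ∀ g : Fin (psi M / psi a2) → kA[X],
          ∑ i, ((aeval (grRes A hA M hℓM ⟨_, htV⟩) : kA[X] →ₐ[kA] LaurentSeries kA) :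
            kA[X] →+* LaurentSeries kA) (g i) *
              ((coeffMap (bcfResMap (K₀ := K₀) A)).comp
                ((smiVal Ac M : SmiKappa Ac M →ₐ[kc] LaurentSeries kc) :
                  SmiKappa Ac M →+* LaurentSeries kc))
                (smiRho Ac hA₀ M hℓM ⟨b0 i, hb0V i⟩) =
          ∑ i, aeval (grRes A hA M hℓM ⟨_, htV⟩) (g i) * grRes A hA M hℓM ⟨_, hbV i⟩ := fun g =>
        Finset.sum_congr rfl fun i _ => by rw [hjb i]; rfl
      rw [e1, e1] at haw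
      exact haw)
    z y y' hzI hyI hy'I (by rw [hCτ', hπalg]; exact h)
  refine ⟨u, (cht_mem_iff_isIntegral_poly t₀ (fun p => rfl) u).mpr huI, u',
    (cht_mem_iff_isIntegral_poly t₀ (fun p => rfl) u').mpr hu'I, ?_⟩
  rw [hCτ', hπalg] at hu
  exact hu

set_option quotPrecheck false in
local notation "FL" => ↥(laurentBaseChange L (modularFunctionFieldFull M))

/-- **The radicality statement for one chart**: for the chart coordinate
`t = (h - c1) / (h - c0)` of the level-`M` function field over `K₀` (`c0, c1 ∈ A₀`), every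
uniformiser `τ` of `A₀` and every `π ∈ A₀[X]` whose reduction is separable and coprime to the
polynomial `hcuNum` of the cusp values of the chart, the ideal `(τ, π(t))` of the chart ring
`chtO A₀ {t}` is radical. -/
def unrChart (K₀ : Type*) [Field K₀] [Algebra ℚ K₀] (A₀ : ValuationSubring K₀) (M : ℕ)
    {a2 ℓ : ℕ} (H : HauptRec a2 ℓ) (c0 c1 : A₀) : Prop :=
  ∀ t : ↥(laurentBaseChange K₀ (modularFunctionFieldFull M)),
    (t : LaurentSeries K₀) = cinstU H K₀ (c0 : K₀) (c1 : K₀) →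
    ∀ [Algebra A₀ ↥(laurentBaseChange K₀ (modularFunctionFieldFull M))]
      [IsScalarTower A₀ K₀ ↥(laurentBaseChange K₀ (modularFunctionFieldFull M))]
      (τ : A₀), Irreducible τ →
      ∀ π : (↥A₀)[X], (π.map (IsLocalRing.residue ↥A₀)).Separable →
        IsCoprime (π.map (IsLocalRing.residue ↥A₀))
          (hcuNum H (IsLocalRing.ResidueField ↥A₀) (IsLocalRing.residue ↥A₀ c0)
            (IsLocalRing.residue ↥A₀ c1)) →
        ∀ z ∈ chtO ↥A₀ {t}, ∀ y ∈ chtO ↥A₀ {t}, ∀ y' ∈ chtO ↥A₀ {t},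
          z ^ 2 = algebraMap ↥A₀ ↥(laurentBaseChange K₀ (modularFunctionFieldFull M)) τ * y +
            aeval t π * y' →
          ∃ u ∈ chtO ↥A₀ {t}, ∃ u' ∈ chtO ↥A₀ {t},
            z = algebraMap ↥A₀ ↥(laurentBaseChange K₀ (modularFunctionFieldFull M)) τ * u +
              aeval t π * u'

/-- **One chart over a field of definition, in the shape `unrChart`.** -/
theorem unr_chart_stmt [IsDiscreteValuationRing ↥(A.comap (algebraMap K₀ L))]
    (c0 c1 : K₀) (hc0 : algebraMap K₀ L c0 ∈ A) (hc1 : algebraMap K₀ L c1 ∈ A) (hne : c0 ≠ c1)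
    (h01 : (algebraMap K₀ L c0 - algebraMap K₀ L c1)⁻¹ ∈ A)
    (t : FL) (ht : (t : LaurentSeries L) = cinstU H L (algebraMap K₀ L c0) (algebraMap K₀ L c1))
    (b : Fin (psi M / psi a2) → FL)
    (hQ : sminstBasis A hA M hℓM t b) (hdesc : smibStmt K₀ A M t b)
    (hredQ : ∀ (htV : t ∈ grO A hA M hℓM) (hb : ∀ i, b i ∈ grO A hA M hℓM)
      (π' : (IsLocalRing.ResidueField A)[X]), π'.Separable →
      IsCoprime π' (hcuNum H (IsLocalRing.ResidueField A)
        (IsLocalRing.residue ↥A ⟨algebraMap K₀ L c0, hc0⟩)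
        (IsLocalRing.residue ↥A ⟨algebraMap K₀ L c1, hc1⟩)) →
      ∀ a w : Fin (psi M / psi a2) → (IsLocalRing.ResidueField A)[X],
        (∑ i, aeval (grRes A hA M hℓM ⟨t, htV⟩) (a i) * grRes A hA M hℓM ⟨b i, hb i⟩) ^ 2 =
          aeval (grRes A hA M hℓM ⟨t, htV⟩) π' *
            ∑ i, aeval (grRes A hA M hℓM ⟨t, htV⟩) (w i) * grRes A hA M hℓM ⟨b i, hb i⟩ →
        ∀ i, π' ∣ a i) :
    unrChart K₀ (A.comap (algebraMap K₀ L)) M H ⟨c0, ValuationSubring.mem_comap.mpr hc0⟩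
      ⟨c1, ValuationSubring.mem_comap.mpr hc1⟩ := by
  intro t₀ ht₀ _ _ τ hτ π hπsep hπcop z hz y hy y' hy' h
  have hA₀ : (A.comap (algebraMap K₀ L)).LiesOverPrime ℓ := by
    show ((ℓ : ℕ) : K₀) ∈ (A.comap (algebraMap K₀ L)).nonunits
    rw [dvd_mem_nonunits_comap, map_natCast]
    exact hA
  have htt : bcfHom K₀ L (modularFunctionFieldFull M) t₀ = t :=
    Subtype.ext (by rw [bcfHom_coe, ht₀, cinstU_coeffMap, ht])
  obtain ⟨b0, hbb, hb0⟩ := hdesc t₀ htt
  obtain ⟨htV, hbV, hli, hspan⟩ := hQ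
  subst htt
  obtain rfl : b = fun i => bcfHom K₀ L (modularFunctionFieldFull M) (b0 i) :=
    funext fun i => (hbb i).symm
  have hc0' : c0 ∈ A.comap (algebraMap K₀ L) := hc0
  have hc1' : c1 ∈ A.comap (algebraMap K₀ L) := hc1
  have h01' : (c0 - c1)⁻¹ ∈ A.comap (algebraMap K₀ L) := by
    show algebraMap K₀ L (c0 - c1)⁻¹ ∈ A
    rw [map_inv₀, map_sub]
    exact h01
  have hcopQ : IsCoprime
      ((π.map (IsLocalRing.residue ↥(A.comap (algebraMap K₀ L)))).map (bcfResMap (K₀ := K₀) A))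
      (hcuNum H (IsLocalRing.ResidueField A)
        (IsLocalRing.residue ↥A ⟨algebraMap K₀ L c0, hc0⟩)
        (IsLocalRing.residue ↥A ⟨algebraMap K₀ L c1, hc1⟩)) := by
    have h1 := hπcop.map (Polynomial.mapRingHom (bcfResMap (K₀ := K₀) A))
    rw [coe_mapRingHom, hcuNum_map] at h1
    exact h1
  exact unr_chart A hA M hℓM H hA₀ c0 c1 hc0' hc1' hne h01' t₀ ht₀ τ hτ
    (fun x hx hxV => smik_hker (A.comap (algebraMap K₀ L)) hA₀ M hℓM H ⟨c0, hc0'⟩ ⟨c1, hc1'⟩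
      (gch_residue_ne _ hc0' hc1' hne h01') t₀ ht₀ τ hτ x hx hxV)
    b0 hb0 htV hbV hli hspan π
    (fun a w haw => hredQ htV hbV _ (hπsep.map) hcopQ a w haw)
    z y y' hz hy hy' h

end Chart

section Concrete

local notation "Qb" => AlgebraicClosure ℚ

/-- **D-UNRAM.**  For a Hauptmodul record at a level `N'` prime to `ℓ`, a valuation subring `A`
of `ℚ̄` over `ℓ` and any admissible pair of base points `c0 ≠ c1` of `A` (`c0 - c1` and
`Qrad(c0)` units), there is a finite set `T ⊆ ℚ̄` such that over every number field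
`K0 ⊇ T ∪ {c0, c1}` the radicality statement `unrChart` holds for the chart
`t = (h - c1) / (h - c0)` over `A ∩ K0`: the level-`N'` chart is unramified over the
coordinate line at the non-cuspidal points of its special fibre. -/
theorem unr_main (N' : ℕ) [NeZero N'] {ℓ : ℕ} [Fact ℓ.Prime] (hℓN' : ¬ ℓ ∣ N') {a2 : ℕ}
    (H : HauptRec a2 ℓ) (ha2 : a2 ∣ N') (A : ValuationSubring Qb) (hA : A.LiesOverPrime ℓ)
    (c0 c1 : Qb) (hc0 : c0 ∈ A) (hc1 : c1 ∈ A) (h01 : (c0 - c1)⁻¹ ∈ A) (hc : c0 ≠ c1)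
    (hq0 : (Polynomial.aeval c0 H.Qrad)⁻¹ ∈ A) (hq0' : Polynomial.aeval c0 H.Qrad ≠ 0) :
    ∃ T : Finset Qb, ∀ (K0 : IntermediateField ℚ Qb) [FiniteDimensional ℚ K0]
      (_ : ∀ c ∈ T, c ∈ K0) (h0 : c0 ∈ K0) (h1 : c1 ∈ K0),
      unrChart ↥K0 (A.comap (algebraMap ↥K0 Qb)) N' H
        ⟨⟨c0, h0⟩, ValuationSubring.mem_comap.mpr hc0⟩
        ⟨⟨c1, h1⟩, ValuationSubring.mem_comap.mpr hc1⟩ := by
  classical
  obtain ⟨htV, b, hb, hbint, hli, hspan⟩ := smq_main N' hℓN' H ha2 A hA c0 c1 hc0 hc1 h01 hc hq0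
    hq0' ⟨cinstU H Qb c0 c1, cinstU_mem H Qb ha2 c0 c1⟩ rfl
  obtain ⟨T, hT⟩ := smib_main N' A _ b hbint
  refine ⟨T, fun K0 _ hK0 h0 h1 => ?_⟩
  haveI := (dvd_isDVR_comap ℓ (Fact.out : ℓ.Prime).ne_zero A hA K0).1
  haveI _algQ : Algebra.IsAlgebraic ℚ Qb := AlgebraicClosure.isAlgebraic ℚ
  haveI : Algebra.IsAlgebraic ↥K0 Qb := Algebra.IsAlgebraic.tower_top (K := ℚ) ↥K0
  exact unr_chart_stmt (K₀ := ↥K0) A hA N' hℓN' H ⟨c0, h0⟩ ⟨c1, h1⟩ hc0 hc1
    (fun h => hc (congrArg Subtype.val h)) h01 _ rfl b ⟨htV, hb, hli, hspan⟩ (hT K0 hK0)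
    (fun htV' hb' π' hsep hcop a w haw =>
      unr_smq N' hℓN' H ha2 A hA c0 c1 hc0 hc1 h01 hc hq0 hq0' _ rfl htV' b hb' hbint hli hspan
        π' hsep hcop a w haw)

end Concrete

end Fermat.Agent.S34
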