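import Mathlib

/-!
# S34, leaf D-UNRAM (local corollary, abstract part; Mathlib only)

`B` is an `A0`-algebra, integral over `A0[T]` for one element `T : B`; `res : A0 → k` is a
surjection onto a field with kernel `(τ)`.

* `unr_loc_abs`: if `π0 ∈ A0[X]` has irreducible reduction and the ideal `(τ, π0(T))` of `B` is
  radical and contained in a prime `P`, then `P B_P = (τ, π0(T)) B_P`:
  `∀ x ∈ P, ∃ s ∉ P, s * x ∈ (τ, π0(T))`.
* `unr_loc_abs_main`: the same for ANY `g ∈ A0[X]` with `g(T) ∈ P`, `g'(T) ∉ P` (a simple zero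
  at `P`), given the radicality of `(τ, π(T))` for all `π` with separable reduction prime to a
  fixed polynomial `Nbar` (the cusp polynomial) and `N(T) ∉ P` for a lift `N` of `Nbar`.
-/

set_option autoImplicit false
set_option linter.style.haveILetI false

namespace Fermat.Agent.S34

open Polynomial

section UnrLocAbs

variable {A0 B k : Type*} [CommRing A0] [CommRing B] [Algebra A0 B] [Field k]

/-- A polynomial whose reduction vanishes is divisible by the uniformiser. -/
theorem unr_loc_map_zero (res : A0 →+* k) (τ : A0) (hτ : ∀ a, res a = 0 ↔ τ ∣ a)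
    (p : A0[X]) (hp : p.map res = 0) : ∃ p' : A0[X], p = C τ * p' := by
  have h : C τ ∣ p := by
    rw [Polynomial.C_dvd_iff_dvd_coeff]
    intro i
    rw [← hτ, ← coeff_map, hp, coeff_zero]
  exact h

/-- Radicality for squares gives radicality for all powers. -/
theorem unr_loc_rad_pow (I : Ideal B) (hrad : ∀ z : B, z ^ 2 ∈ I → z ∈ I) (z : B) (n : ℕ)
    (hz : z ^ n ∈ I) : z ∈ I := by
  have h2 : ∀ j : ℕ, ∀ w : B, w ^ (2 ^ j) ∈ I → w ∈ I := by
    intro j
    induction j with
    | zero => intro w hw; simpa using hw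
    | succ j ih =>
      intro w hw
      apply ih
      apply hrad
      rw [← pow_mul, ← pow_succ]
      exact hw
  apply h2 n
  exact Ideal.pow_mem_of_pow_mem I hz (Nat.lt_two_pow_self).le

/-- Modulo `(τ, π0(T))`, every polynomial expression in `T` is zero or invertible. -/
theorem unr_loc_dich (res : A0 →+* k) (hres : Function.Surjective res) (τ : A0)
    (hτ : ∀ a, res a = 0 ↔ τ ∣ a) (T : B) (π0 : A0[X]) (hirr : Irreducible (π0.map res))
    (p : A0[X]) :
    aeval T p ∈ Ideal.span {algebraMap A0 B τ, aeval T π0} ∨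
      ∃ e : B, aeval T p * e - 1 ∈ Ideal.span {algebraMap A0 B τ, aeval T π0} := by
  have hτI : algebraMap A0 B τ ∈ Ideal.span {algebraMap A0 B τ, aeval T π0} :=
    Ideal.subset_span (Set.mem_insert _ _)
  have hπI : aeval T π0 ∈ Ideal.span {algebraMap A0 B τ, aeval T π0} :=
    Ideal.subset_span (Set.mem_insert_of_mem _ rfl)
  by_cases hdvd : π0.map res ∣ p.map res
  · left
    obtain ⟨cb, hcb⟩ := hdvd
    obtain ⟨c, rfl⟩ := Polynomial.map_surjective res hres cb
    obtain ⟨e, he⟩ := unr_loc_map_zero res τ hτ (p - π0 * c) (by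
      rw [Polynomial.map_sub, Polynomial.map_mul, hcb, sub_self])
    have hp : p = π0 * c + C τ * e := by rw [← he]; ring
    rw [hp, map_add, map_mul, map_mul, aeval_C]
    exact Ideal.add_mem _ (Ideal.mul_mem_right _ _ hπI) (Ideal.mul_mem_right _ _ hτI)
  · right
    obtain ⟨ab, bb, hab⟩ := (Irreducible.coprime_iff_not_dvd hirr).mpr hdvd
    obtain ⟨a, rfl⟩ := Polynomial.map_surjective res hres ab
    obtain ⟨b, rfl⟩ := Polynomial.map_surjective res hres bb
    obtain ⟨e, he⟩ := unr_loc_map_zero res τ hτ (a * π0 + b * p - 1) (by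
      rw [Polynomial.map_sub, Polynomial.map_add, Polynomial.map_mul, Polynomial.map_mul, hab,
        Polynomial.map_one, sub_self])
    refine ⟨aeval T b, ?_⟩
    have h1 : aeval T p * aeval T b - 1 =
        algebraMap A0 B τ * aeval T e - aeval T a * aeval T π0 := by
      have h2 := congrArg (aeval T) he
      rw [map_sub, map_add, map_mul, map_mul, map_one, map_mul, aeval_C] at h2
      rw [← h2]
      ring
    rw [h1]
    exact Ideal.sub_mem _ (Ideal.mul_mem_right _ _ hτI) (Ideal.mul_mem_left _ _ hπI)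

/-- **Local generation from radicality.**  If `(τ, π0(T))` is a radical ideal of `B` contained in
the prime `P`, `π0` has irreducible reduction and `B` is integral over `A0[T]`, then
`P B_P = (τ, π0(T)) B_P`. -/
theorem unr_loc_abs (res : A0 →+* k) (hres : Function.Surjective res) (τ : A0)
    (hτ : ∀ a, res a = 0 ↔ τ ∣ a) (T : B) (π0 : A0[X]) (hirr : Irreducible (π0.map res))
    (hrad : ∀ z : B, z ^ 2 ∈ Ideal.span {algebraMap A0 B τ, aeval T π0} →
      z ∈ Ideal.span {algebraMap A0 B τ, aeval T π0})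
    (P : Ideal B) [P.IsPrime] (hIP : Ideal.span {algebraMap A0 B τ, aeval T π0} ≤ P)
    (hint : ∀ x : B, ∃ q : A0[X][X], q.Monic ∧
      eval₂ ((aeval T : A0[X] →ₐ[A0] B) : A0[X] →+* B) x q = 0)
    (x : B) (hx : x ∈ P) :
    ∃ s : B, s ∉ P ∧ s * x ∈ Ideal.span {algebraMap A0 B τ, aeval T π0} := by
  classical
  set I : Ideal B := Ideal.span {algebraMap A0 B τ, aeval T π0} with hI
  set f : A0[X] →+* B := ((aeval T : A0[X] →ₐ[A0] B) : A0[X] →+* B) with hf
  have hP1 : (1 : B) ∉ P := fun h => (Ideal.IsPrime.ne_top ‹P.IsPrime›)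
    ((Ideal.eq_top_iff_one P).mpr h)
  have key : ∀ n : ℕ, ∀ q : A0[X][X], q.natDegree ≤ n → (∃ i, f (q.coeff i) ∉ I) →
      ∀ j : ℕ, x ^ j * eval₂ f x q ∈ I → ∃ s : B, s ∉ P ∧ s * x ∈ I := by
    intro n
    induction n with
    | zero =>
      intro q hq ⟨i, hi⟩ j hj
      have hq' : q = C (q.coeff 0) := Polynomial.eq_C_of_natDegree_le_zero hq
      have hi0 : i = 0 := by
        by_contra h0
        apply hi
        rw [hq', coeff_C, if_neg h0, map_zero]
        exact I.zero_mem
      subst hi0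
      obtain h | ⟨e, he⟩ := unr_loc_dich res hres τ hτ T π0 hirr (q.coeff 0)
      · exact absurd h hi
      have hev : eval₂ f x q = f (q.coeff 0) := by
        rw [hq', eval₂_C, coeff_C_zero]
      rw [hev] at hj
      -- `x ^ j * a ∈ I` with `a` invertible mod `I`: `x ^ j ∈ I`
      have hxj : x ^ j ∈ I := by
        have h1 : x ^ j = x ^ j * f (q.coeff 0) * e - x ^ j * (f (q.coeff 0) * e - 1) := by ring
        rw [h1]
        exact Ideal.sub_mem _ (Ideal.mul_mem_right _ _ hj) (Ideal.mul_mem_left _ _ he)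
      have hxI : x ∈ I := unr_loc_rad_pow I hrad x j hxj
      exact ⟨1, hP1, by rw [one_mul]; exact hxI⟩
    | succ n ih =>
      intro q hq ⟨i, hi⟩ j hj
      have hsplit : eval₂ f x q = eval₂ f x q.divX * x + f (q.coeff 0) := by
        conv_lhs => rw [← Polynomial.divX_mul_X_add q]
        rw [eval₂_add, eval₂_mul, eval₂_X, eval₂_C]
      by_cases h0 : f (q.coeff 0) ∈ I
      · -- pass to `q.divX`
        have hi0 : i ≠ 0 := by
          rintro rfl
          exact hi h0
        obtain ⟨i', rfl⟩ := Nat.exists_eq_succ_of_ne_zero hi0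
        refine ih q.divX ?_ ⟨i', by rw [Polynomial.coeff_divX]; exact hi⟩ (j + 1) ?_
        · rw [Polynomial.natDegree_divX_eq_natDegree_tsub_one]
          omega
        · have h1 : x ^ (j + 1) * eval₂ f x q.divX =
              x ^ j * eval₂ f x q - x ^ j * f (q.coeff 0) := by
            rw [hsplit]; ring
          rw [h1]
          exact Ideal.sub_mem _ hj (Ideal.mul_mem_left _ _ h0)
      · obtain h | ⟨e, he⟩ := unr_loc_dich res hres τ hτ T π0 hirr (q.coeff 0)
        · exact absurd h h0
        have ha0P : f (q.coeff 0) ∉ P := by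
          intro hmem
          apply hP1
          have h1 : (1 : B) = f (q.coeff 0) * e - (f (q.coeff 0) * e - 1) := by ring
          rw [h1]
          exact Ideal.sub_mem _ (Ideal.mul_mem_right _ _ hmem) (hIP he)
        have hsP : eval₂ f x q ∉ P := by
          intro hmem
          apply ha0P
          have h1 : f (q.coeff 0) = eval₂ f x q - eval₂ f x q.divX * x := by rw [hsplit]; ring
          rw [h1]
          exact Ideal.sub_mem _ hmem (Ideal.mul_mem_left _ _ hx)
        refine ⟨eval₂ f x q, hsP, ?_⟩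
        apply unr_loc_rad_pow I hrad _ (j + 1)
        have h1 : (eval₂ f x q * x) ^ (j + 1) =
            (eval₂ f x q) ^ j * x * (x ^ j * eval₂ f x q) := by ring
        rw [h1]
        exact Ideal.mul_mem_left _ _ hj
  obtain ⟨q, hqm, hq0⟩ := hint x
  refine key q.natDegree q le_rfl ⟨q.natDegree, ?_⟩ 0 ?_
  · rw [hqm.coeff_natDegree, map_one]
    exact fun h => hP1 (hIP h)
  · rw [hq0, mul_zero]
    exact I.zero_mem

/-- **A simple zero of `g` at a non-cuspidal prime generates the prime locally.**  Assume the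
ideal `(τ, π(T))` of `B` is radical for every `π ∈ A0[X]` whose reduction is separable and
coprime to `Nbar`.  Let `P` be a prime of `B` containing `τ`, not containing `N(T)` for a lift
`N` of `Nbar`, and let `g ∈ A0[X]` with `g(T) ∈ P`, `g'(T) ∉ P`.  Then
`P B_P = (τ, g(T)) B_P`: for every `x ∈ P` there is `s ∉ P` with `s * x ∈ (τ, g(T))`. -/
theorem unr_loc_abs_main (res : A0 →+* k) (hres : Function.Surjective res) (τ : A0)
    (hτ : ∀ a, res a = 0 ↔ τ ∣ a) (T : B) (Nbar : k[X])
    (hradAll : ∀ π : A0[X], (π.map res).Separable → IsCoprime (π.map res) Nbar →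
      ∀ z : B, z ^ 2 ∈ Ideal.span {algebraMap A0 B τ, aeval T π} →
        z ∈ Ideal.span {algebraMap A0 B τ, aeval T π})
    (P : Ideal B) [P.IsPrime] (hτP : algebraMap A0 B τ ∈ P)
    (hint : ∀ x : B, ∃ q : A0[X][X], q.Monic ∧
      eval₂ ((aeval T : A0[X] →ₐ[A0] B) : A0[X] →+* B) x q = 0)
    (N : A0[X]) (hN : N.map res = Nbar) (hNP : aeval T N ∉ P)
    (g : A0[X]) (hg : aeval T g ∈ P) (hg' : aeval T (derivative g) ∉ P)
    (x : B) (hx : x ∈ P) :
    ∃ s : B, s ∉ P ∧ s * x ∈ Ideal.span {algebraMap A0 B τ, aeval T g} := by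
  classical
  -- the residue field of `P` as a `k`-algebra
  have hker : RingHom.ker res ≤ RingHom.ker ((Ideal.Quotient.mk P).comp (algebraMap A0 B)) := by
    intro a ha
    rw [RingHom.mem_ker] at ha ⊢
    obtain ⟨b, rfl⟩ := (hτ a).mp ha
    rw [RingHom.comp_apply, map_mul, map_mul, Ideal.Quotient.eq_zero_iff_mem.mpr hτP, zero_mul]
  let φ : k →+* B ⧸ P := res.liftOfSurjective hres ⟨_, hker⟩
  have hφ : ∀ a : A0, φ (res a) = Ideal.Quotient.mk P (algebraMap A0 B a) := fun a =>
    RingHom.liftOfRightInverse_comp_apply res _ (Function.rightInverse_surjInv hres) ⟨_, hker⟩ a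
  letI : Algebra k (B ⧸ P) := φ.toAlgebra
  set θ : B ⧸ P := Ideal.Quotient.mk P T with hθ
  have hcomp : ∀ p : A0[X], Ideal.Quotient.mk P (aeval T p) = aeval θ (p.map res) := by
    intro p
    rw [aeval_def, aeval_def, eval₂_map, Polynomial.hom_eval₂]
    congr 1
    ext a
    exact (hφ a).symm
  -- the reduction of `g`
  have hg0 : aeval θ (g.map res) = 0 := by
    rw [← hcomp]
    exact Ideal.Quotient.eq_zero_iff_mem.mpr hg
  have hg1 : aeval θ (derivative (g.map res)) ≠ 0 := by
    rw [derivative_map, ← hcomp]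
    exact fun h => hg' (Ideal.Quotient.eq_zero_iff_mem.mp h)
  have hgne : g.map res ≠ 0 := by
    intro h
    apply hg1
    rw [h, derivative_zero, map_zero]
  have hθint : IsIntegral k θ := IsAlgebraic.isIntegral ⟨g.map res, hgne, hg0⟩
  have hirr : Irreducible (minpoly k θ) := minpoly.irreducible hθint
  obtain ⟨cb, hcb⟩ := minpoly.dvd k θ hg0
  have hder : aeval θ (derivative (minpoly k θ)) * aeval θ cb ≠ 0 := by
    have h1 : aeval θ (derivative (g.map res)) =
        aeval θ (derivative (minpoly k θ)) * aeval θ cb := by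
      rw [hcb, derivative_mul, map_add, map_mul, map_mul, minpoly.aeval, zero_mul, add_zero]
    rw [← h1]
    exact hg1
  have hm' : derivative (minpoly k θ) ≠ 0 := by
    intro h
    apply hder
    rw [h, map_zero, zero_mul]
  have hcθ : aeval θ cb ≠ 0 := right_ne_zero_of_mul hder
  have hsep : (minpoly k θ).Separable := (separable_iff_derivative_ne_zero hirr).mpr hm'
  obtain ⟨π0, hπ0⟩ := Polynomial.map_surjective res hres (minpoly k θ)
  obtain ⟨c, hc⟩ := Polynomial.map_surjective res hres cb
  have hcop : IsCoprime (π0.map res) Nbar := by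
    rw [hπ0, Irreducible.coprime_iff_not_dvd hirr]
    rintro ⟨d, hd⟩
    apply hNP
    rw [← Ideal.Quotient.eq_zero_iff_mem, hcomp, hN, hd, map_mul, minpoly.aeval, zero_mul]
  have hπ0P : aeval T π0 ∈ P := by
    rw [← Ideal.Quotient.eq_zero_iff_mem, hcomp, hπ0, minpoly.aeval]
  have hcP : aeval T c ∉ P := by
    rw [← Ideal.Quotient.eq_zero_iff_mem, hcomp, hc]
    exact hcθ
  have hIP : Ideal.span {algebraMap A0 B τ, aeval T π0} ≤ P := by
    rw [Ideal.span_le]
    intro y hy
    rcases hy with rfl | rfl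
    · exact hτP
    · exact hπ0P
  obtain ⟨s, hsP, hs⟩ := unr_loc_abs res hres τ hτ T π0 (by rw [hπ0]; exact hirr)
    (hradAll π0 (by rw [hπ0]; exact hsep) hcop) P hIP hint x hx
  -- from `π0` to `g`
  obtain ⟨e, he⟩ := unr_loc_map_zero res τ hτ (g - π0 * c) (by
    rw [Polynomial.map_sub, Polynomial.map_mul, hπ0, hc, hcb, sub_self])
  have hτI : algebraMap A0 B τ ∈ Ideal.span {algebraMap A0 B τ, aeval T g} :=
    Ideal.subset_span (Set.mem_insert _ _)
  have hgI : aeval T g ∈ Ideal.span {algebraMap A0 B τ, aeval T g} :=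
    Ideal.subset_span (Set.mem_insert_of_mem _ rfl)
  have hcπ : aeval T c * aeval T π0 ∈ Ideal.span {algebraMap A0 B τ, aeval T g} := by
    have h1 : aeval T c * aeval T π0 = aeval T g - algebraMap A0 B τ * aeval T e := by
      have h2 := congrArg (aeval T) he
      rw [map_sub, map_mul, map_mul, aeval_C] at h2
      rw [← h2]
      ring
    rw [h1]
    exact Ideal.sub_mem _ hgI (Ideal.mul_mem_right _ _ hτI)
  refine ⟨aeval T c * s, fun h => (Ideal.IsPrime.mem_or_mem ‹P.IsPrime› h).elim hcP hsP, ?_⟩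
  obtain ⟨u, v, huv⟩ := Ideal.mem_span_pair.mp hs
  have h3 : aeval T c * s * x =
      (aeval T c * u) * algebraMap A0 B τ + v * (aeval T c * aeval T π0) := by
    rw [mul_assoc, ← huv]
    ring
  rw [h3]
  exact Ideal.add_mem _ (Ideal.mul_mem_left _ _ hτI) (Ideal.mul_mem_left _ _ hcπ)

end UnrLocAbs

end Fermat.Agent.S34
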