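import Mathlib
import Fermat.Agent.S34.UnramLocAbs
import Fermat.Agent.S34.UnramInst

/-!
# S34, leaf D-UNRAM (local corollary): a simple zero generates a non-cuspidal closed point

`unr_local`: in the setting of `unrChart` (the Hauptmodul chart `O = chtO A₀ {t}` of the
level-`M` function field over a field of definition `K₀` with discrete valuation ring `A₀`,
uniformiser `τ`), let `P` be a prime of `O` with `τ ∈ P` which is not cuspidal
(`hcuNum(t) ∉ P`), and let `g ∈ A₀[X]` with `g(t) ∈ P`, `g'(t) ∉ P`.  Then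
`P O_P = (τ, g(t)) O_P`: for every `x ∈ P` there is `s ∉ P` with `s * x ∈ (τ, g(t)) O`.

`unr_local_elt`: the same statement elementwise in the function field.
-/

set_option autoImplicit false
set_option linter.style.haveILetI false
set_option linter.unusedSectionVars false

noncomputable section

open ModularCurve Polynomial

namespace Fermat.Agent.S34

open Fermat.Agent.S18 Fermat.Agent.S28

section UnrLocal

variable {K₀ : Type*} [Field K₀] [Algebra ℚ K₀] (A₀ : ValuationSubring K₀)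
  [IsDiscreteValuationRing ↥A₀] (M : ℕ) {a2 ℓ : ℕ} (H : HauptRec a2 ℓ) (c0 c1 : A₀)

/-- The chart ring is integral over `A₀[t]`, in the polynomial form used by `unr_loc_abs`. -/
theorem unr_cht_integral {A0 F : Type*} [CommRing A0] [Field F] [Algebra A0 F] (t : F)
    (x : ↥(chtO A0 {t})) :
    ∃ q : A0[X][X], q.Monic ∧
      eval₂ ((aeval (⟨t, (cht_h1 t).1⟩ : ↥(chtO A0 {t})) :
        A0[X] →ₐ[A0] ↥(chtO A0 {t})) : A0[X] →+* ↥(chtO A0 {t})) x q = 0 := by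
  obtain ⟨q, hqm, hq⟩ := (cht_isIntegral_adjoin_iff t (x : F)).mp (cht_mem_iff.mp x.2)
  refine ⟨q, hqm, ?_⟩
  apply Subtype.ext
  have h1 := Polynomial.hom_eval₂ q
    ((aeval (⟨t, (cht_h1 t).1⟩ : ↥(chtO A0 {t})) :
        A0[X] →ₐ[A0] ↥(chtO A0 {t})) : A0[X] →+* ↥(chtO A0 {t}))
    ((chtO A0 {t}).val : ↥(chtO A0 {t}) →+* F) x
  have h2 : (((chtO A0 {t}).val : ↥(chtO A0 {t}) →+* F)).comp
      ((aeval (⟨t, (cht_h1 t).1⟩ : ↥(chtO A0 {t})) :
        A0[X] →ₐ[A0] ↥(chtO A0 {t})) : A0[X] →+* ↥(chtO A0 {t})) =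
      (aeval t : A0[X] →ₐ[A0] F).toRingHom := by
    refine Polynomial.ringHom_ext (fun a => ?_) ?_
    · show ((aeval (⟨t, (cht_h1 t).1⟩ : ↥(chtO A0 {t})) (C a) : ↥(chtO A0 {t})) : F) =
        aeval t (C a)
      rw [aeval_C, aeval_C]
      rfl
    · show ((aeval (⟨t, (cht_h1 t).1⟩ : ↥(chtO A0 {t})) X : ↥(chtO A0 {t})) : F) = aeval t X
      rw [aeval_X, aeval_X]
  rw [h2] at h1
  exact h1.trans hq

set_option quotPrecheck false in
local notation "Fm" => ↥(laurentBaseChange K₀ (modularFunctionFieldFull M))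

/-- **A simple zero generates a non-cuspidal closed point of the chart.** -/
theorem unr_local (huc : unrChart K₀ A₀ M H c0 c1)
    (t : ↥(laurentBaseChange K₀ (modularFunctionFieldFull M)))
    (ht : (t : LaurentSeries K₀) = cinstU H K₀ (c0 : K₀) (c1 : K₀))
    [Algebra ↥A₀ ↥(laurentBaseChange K₀ (modularFunctionFieldFull M))]
    [IsScalarTower ↥A₀ K₀ ↥(laurentBaseChange K₀ (modularFunctionFieldFull M))]
    (τ : ↥A₀) (hτ : Irreducible τ)
    (P : Ideal ↥(chtO ↥A₀ {t})) [P.IsPrime] (hτP : algebraMap ↥A₀ ↥(chtO ↥A₀ {t}) τ ∈ P)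
    (hNP : aeval (⟨t, (cht_h1 t).1⟩ : ↥(chtO ↥A₀ {t})) (hcuNum H ↥A₀ c0 c1) ∉ P)
    (g : (↥A₀)[X]) (hg : aeval (⟨t, (cht_h1 t).1⟩ : ↥(chtO ↥A₀ {t})) g ∈ P)
    (hg' : aeval (⟨t, (cht_h1 t).1⟩ : ↥(chtO ↥A₀ {t})) (derivative g) ∉ P)
    (x : ↥(chtO ↥A₀ {t})) (hx : x ∈ P) :
    ∃ s : ↥(chtO ↥A₀ {t}), s ∉ P ∧
      s * x ∈ Ideal.span {algebraMap ↥A₀ ↥(chtO ↥A₀ {t}) τ,
        aeval (⟨t, (cht_h1 t).1⟩ : ↥(chtO ↥A₀ {t})) g} := by
  have hτdvd : ∀ a : ↥A₀, IsLocalRing.residue ↥A₀ a = 0 ↔ τ ∣ a := fun a => by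
    rw [IsLocalRing.residue_eq_zero_iff, hτ.maximalIdeal_eq, Ideal.mem_span_singleton]
  refine unr_loc_abs_main (IsLocalRing.residue ↥A₀) IsLocalRing.residue_surjective τ hτdvd
    (⟨t, (cht_h1 t).1⟩ : ↥(chtO ↥A₀ {t}))
    (hcuNum H (IsLocalRing.ResidueField ↥A₀) (IsLocalRing.residue ↥A₀ c0)
      (IsLocalRing.residue ↥A₀ c1)) ?_ P hτP (unr_cht_integral t)
    (hcuNum H ↥A₀ c0 c1) (hcuNum_map H _ c0 c1) hNP g hg hg' x hx
  intro π hπsep hπcop z hz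
  obtain ⟨u, v, huv⟩ := Ideal.mem_span_pair.mp hz
  have hπc : ((aeval (⟨t, (cht_h1 t).1⟩ : ↥(chtO ↥A₀ {t})) π : ↥(chtO ↥A₀ {t})) : Fm) =
      aeval t π := (Subalgebra.aeval_coe (chtO ↥A₀ {t}) ⟨t, (cht_h1 t).1⟩ π).symm
  have h1 : (z : Fm) ^ 2 = algebraMap ↥A₀ Fm τ * (u : Fm) + aeval t π * (v : Fm) := by
    have h2 := congrArg (Subtype.val : ↥(chtO ↥A₀ {t}) → Fm) huv
    simp only [Subalgebra.coe_add, Subalgebra.coe_mul, Subalgebra.coe_pow,
      Subalgebra.coe_algebraMap] at h2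
    rw [hπc] at h2
    rw [← h2]
    ring
  obtain ⟨u', hu', v', hv', h3⟩ := huc t ht τ hτ π hπsep hπcop (z : Fm) z.2 (u : Fm) u.2
    (v : Fm) v.2 h1
  rw [Ideal.mem_span_pair]
  refine ⟨⟨u', hu'⟩, ⟨v', hv'⟩, ?_⟩
  apply Subtype.ext
  simp only [Subalgebra.coe_add, Subalgebra.coe_mul, Subalgebra.coe_algebraMap]
  rw [hπc, h3]
  ring

end UnrLocal

end Fermat.Agent.S34
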