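import Mathlib
import Fermat.Agent.S34.UnramLoc
import Fermat.Agent.S18.SMInstChoice

/-!
# S34, leaf D-UNRAM: packaging for the node instantiation

* `unr_local_hU`: `unr_local` in the shape of the hypothesis `hU` of the abstract branch
  statement (`E := chtO A₀ {t}`, `I := (τ)`, `ξ := g(t)`):
  `∀ z ∈ P, ∃ u ∉ P, ∃ γ, u * z - g(t) * γ ∈ (τ)`.
* `unr_pair`: for base points `c0, c1` as chosen by `s34ic_choice` (`c0 - c1`, `Qrad(c0)`,
  `Qrad(c1)` units of `A`) there is ONE finite set `T ⊆ ℚ̄` such that over every number field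
  `K0 ⊇ T ∪ {c0, c1}` the statement `unrChart` holds for both orientations `(c0, c1)` and
  `(c1, c0)` of the chart (`t` and `t⁻¹`).
-/

set_option autoImplicit false
set_option linter.style.haveILetI false
set_option linter.unusedSectionVars false

noncomputable section

open ModularCurve Polynomial
open scoped IntermediateField

namespace Fermat.Agent.S34

open Fermat.Agent.S18 Fermat.Agent.S28

section UnrPackLocal

variable {K₀ : Type*} [Field K₀] [Algebra ℚ K₀] (A₀ : ValuationSubring K₀)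
  [IsDiscreteValuationRing ↥A₀] (M : ℕ) {a2 ℓ : ℕ} (H : HauptRec a2 ℓ) (c0 c1 : A₀)

/-- `unr_local` in the shape `hU` of the abstract branch statement. -/
theorem unr_local_hU (huc : unrChart K₀ A₀ M H c0 c1)
    (t : ↥(laurentBaseChange K₀ (modularFunctionFieldFull M)))
    (ht : (t : LaurentSeries K₀) = cinstU H K₀ (c0 : K₀) (c1 : K₀))
    [Algebra ↥A₀ ↥(laurentBaseChange K₀ (modularFunctionFieldFull M))]
    [IsScalarTower ↥A₀ K₀ ↥(laurentBaseChange K₀ (modularFunctionFieldFull M))]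
    (τ : ↥A₀) (hτ : Irreducible τ)
    (P : Ideal ↥(chtO ↥A₀ {t})) [P.IsPrime]
    (hτP : Ideal.span {algebraMap ↥A₀ ↥(chtO ↥A₀ {t}) τ} ≤ P)
    (hNP : aeval (⟨t, (cht_h1 t).1⟩ : ↥(chtO ↥A₀ {t})) (hcuNum H ↥A₀ c0 c1) ∉ P)
    (g : (↥A₀)[X]) (hg : aeval (⟨t, (cht_h1 t).1⟩ : ↥(chtO ↥A₀ {t})) g ∈ P)
    (hg' : aeval (⟨t, (cht_h1 t).1⟩ : ↥(chtO ↥A₀ {t})) (derivative g) ∉ P) :
    ∀ z ∈ P, ∃ u : ↥(chtO ↥A₀ {t}), u ∉ P ∧ ∃ γ : ↥(chtO ↥A₀ {t}),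
      u * z - aeval (⟨t, (cht_h1 t).1⟩ : ↥(chtO ↥A₀ {t})) g * γ ∈
        Ideal.span {algebraMap ↥A₀ ↥(chtO ↥A₀ {t}) τ} := by
  intro z hz
  obtain ⟨s, hsP, hs⟩ := unr_local A₀ M H c0 c1 huc t ht τ hτ P
    (hτP (Ideal.subset_span rfl)) hNP g hg hg' z hz
  obtain ⟨u, v, huv⟩ := Ideal.mem_span_pair.mp hs
  refine ⟨s, hsP, v, ?_⟩
  rw [Ideal.mem_span_singleton]
  refine ⟨u, ?_⟩
  rw [← huv]
  ring

end UnrPackLocal

section UnrPackPair

local notation "Qb" => AlgebraicClosure ℚ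

/-- **`unrChart` for both orientations of the chart**, with one finite set of constants. -/
theorem unr_pair (N' : ℕ) [NeZero N'] {ℓ : ℕ} [Fact ℓ.Prime] (hℓN' : ¬ ℓ ∣ N') {a2 : ℕ}
    (H : HauptRec a2 ℓ) (ha2 : a2 ∣ N') (A : ValuationSubring Qb) (hA : A.LiesOverPrime ℓ)
    (c0 c1 : Qb) (hc0 : c0 ∈ A) (hc1 : c1 ∈ A) (h01 : smi2U A (c0 - c1))
    (hq0 : smi2U A (Polynomial.aeval c0 H.Qrad)) (hq1 : smi2U A (Polynomial.aeval c1 H.Qrad)) :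
    ∃ T : Finset Qb, ∀ (K0 : IntermediateField ℚ Qb) [FiniteDimensional ℚ K0]
      (_ : ∀ c ∈ T, c ∈ K0) (h0 : c0 ∈ K0) (h1 : c1 ∈ K0),
      unrChart ↥K0 (A.comap (algebraMap ↥K0 Qb)) N' H
          ⟨⟨c0, h0⟩, ValuationSubring.mem_comap.mpr hc0⟩
          ⟨⟨c1, h1⟩, ValuationSubring.mem_comap.mpr hc1⟩ ∧
        unrChart ↥K0 (A.comap (algebraMap ↥K0 Qb)) N' H
          ⟨⟨c1, h1⟩, ValuationSubring.mem_comap.mpr hc1⟩
          ⟨⟨c0, h0⟩, ValuationSubring.mem_comap.mpr hc0⟩ := by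
  classical
  have hne : c0 ≠ c1 := sub_ne_zero.mp h01.2.1
  have h10 : (c1 - c0)⁻¹ ∈ A := by
    have h : (c1 - c0)⁻¹ = -(c0 - c1)⁻¹ := by
      rw [← neg_sub c0 c1, inv_neg]
    rw [h]
    exact neg_mem h01.2.2
  obtain ⟨T0, hT0⟩ := unr_main N' hℓN' H ha2 A hA c0 c1 hc0 hc1 h01.2.2 hne hq0.2.2 hq0.2.1
  obtain ⟨T1, hT1⟩ := unr_main N' hℓN' H ha2 A hA c1 c0 hc1 hc0 h10 hne.symm hq1.2.2 hq1.2.1
  refine ⟨T0 ∪ T1, fun K0 _ hT h0 h1 => ⟨?_, ?_⟩⟩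
  · exact hT0 K0 (fun c hc => hT c (Finset.mem_union_left _ hc)) h0 h1
  · exact hT1 K0 (fun c hc => hT c (Finset.mem_union_right _ hc)) h1 h0

end UnrPackPair

end Fermat.Agent.S34
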