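import Mathlib
import Fermat.Agent.S37.TwoValAbs
import Fermat.Agent.S18.ValExt

/-!
# S34, package A [VAL2], abstract part: two valuations exhaust the extensions

* General facts on two valuation subrings `V₁, V₂` of a field `F` (`tve_le_of_inf_le`): a
  valuation subring containing `V₁ ∩ V₂` contains `V₁` or `V₂`; `tve_eq_of_le`: a valuation
  subring containing `V` in which a "uniformizer" of `V` is not invertible is `V`.
* In the situation of `TwoValAbs` (a finite extension `F / E`, a valuation subring `VE` of `E`,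
  two valuation subrings `V₁, V₂` of `F` over `VE` and a family `b` of `[F : E]` elements of
  `V₁ ∩ V₂` whose residues are jointly independent over the residue field of `VE`):
  `tve_isIntegral` (`V₁ ∩ V₂` is integral over `VE`), `tve_exh` (every valuation subring of `F`
  containing `VE` contains `V₁` or `V₂`), `tve_exh_eq`.
-/

set_option autoImplicit false

namespace Fermat.Agent.S34

open Polynomial

section General

variable {F : Type*} [Field F]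

theorem tve_inv_mem {A : ValuationSubring F} {x : F} (hx : x ∈ A) (hn : x ∉ A.nonunits) :
    x⁻¹ ∈ A := by
  rw [ValuationSubring.mem_nonunits_iff, not_lt] at hn
  have h1 : A.valuation x = 1 := le_antisymm ((A.valuation_le_one_iff x).mpr hx) hn
  rw [← A.valuation_le_one_iff, map_inv₀, h1, inv_one]

theorem tve_inv_mem_nonunits {A : ValuationSubring F} {x : F} (hx : x ∉ A) :
    x⁻¹ ∈ A.nonunits :=
  A.inv_mem_nonunits_iff.mpr (Or.inr hx)

theorem tve_inv_notMem_nonunits {A : ValuationSubring F} {x : F} (hx : x ∈ A) (hx0 : x ≠ 0) :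
    x⁻¹ ∉ A.nonunits := by
  rw [A.inv_mem_nonunits_iff]
  rintro (h | h)
  · exact hx0 h
  · exact h hx

theorem tve_nonunits_le {A : ValuationSubring F} {x : F} (hx : x ∈ A.nonunits) : x ∈ A :=
  (A.valuation_le_one_iff x).mp (A.mem_nonunits_iff.mp hx).le

theorem tve_add_notMem_nonunits {A : ValuationSubring F} {x y : F} (hx : x ∈ A)
    (hn : x ∉ A.nonunits) (hy : y ∈ A.nonunits) : x + y ∉ A.nonunits := by
  rw [ValuationSubring.mem_nonunits_iff] at hn hy ⊢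
  rw [not_lt] at hn
  have h1 : A.valuation x = 1 := le_antisymm ((A.valuation_le_one_iff x).mpr hx) hn
  rw [Valuation.map_add_eq_of_lt_left _ (by rw [h1]; exact hy), h1]
  exact lt_irrefl _

/-- If every element of `V₁ ∩ V₂` which is a non-unit of `W` is a non-unit of `V₁`, then
`V₁ ≤ W`. -/
theorem tve_le_of_nonunits (V₁ V₂ W : ValuationSubring F)
    (h : ∀ x, x ∈ V₁ → x ∈ V₂ → x ∈ W)
    (hn : ∀ x, x ∈ V₁ → x ∈ V₂ → x ∈ W.nonunits → x ∈ V₁.nonunits) : V₁ ≤ W := by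
  have aux : ∀ u, u ∈ V₁ → u ∉ V₁.nonunits → u ∉ V₂ → u ∈ W := by
    intro u hu1 hun hu2
    have hu0 : u ≠ 0 := fun h0 => hu2 (h0 ▸ V₂.zero_mem)
    have hs1 : u⁻¹ ∈ V₁ := tve_inv_mem hu1 hun
    have hs2 : u⁻¹ ∈ V₂ := tve_nonunits_le (tve_inv_mem_nonunits hu2)
    have hsn : u⁻¹ ∉ V₁.nonunits := tve_inv_notMem_nonunits hu1 hu0
    have hsW : u⁻¹ ∈ W := h _ hs1 hs2
    have hsWn : u⁻¹ ∉ W.nonunits := fun hc => hsn (hn _ hs1 hs2 hc)
    have := tve_inv_mem hsW hsWn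
    rwa [inv_inv] at this
  intro x hx1
  by_cases hx2 : x ∈ V₂
  · exact h x hx1 hx2
  by_cases hcase : 1 + x ∈ V₁.nonunits
  · have h1 : 1 + (1 + x) ∈ W := by
      refine aux _ (V₁.add_mem _ _ V₁.one_mem (V₁.add_mem _ _ V₁.one_mem hx1)) ?_ ?_
      · exact tve_add_notMem_nonunits V₁.one_mem
          (fun hc => by
            rw [ValuationSubring.mem_nonunits_iff, map_one] at hc
            exact lt_irrefl _ hc) hcase
      · intro hc
        apply hx2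
        have : x = 1 + (1 + x) - (1 + 1) := by ring
        rw [this]
        exact V₂.toSubring.sub_mem hc (V₂.add_mem _ _ V₂.one_mem V₂.one_mem)
    have : x = 1 + (1 + x) - (1 + 1) := by ring
    rw [this]
    exact W.toSubring.sub_mem h1 (W.add_mem _ _ W.one_mem W.one_mem)
  · have h1 : 1 + x ∈ W := by
      refine aux _ (V₁.add_mem _ _ V₁.one_mem hx1) hcase ?_
      intro hc
      apply hx2
      have : x = 1 + x - 1 := by ring
      rw [this]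
      exact V₂.toSubring.sub_mem hc V₂.one_mem
    have : x = 1 + x - 1 := by ring
    rw [this]
    exact W.toSubring.sub_mem h1 W.one_mem

/-- A valuation subring containing `V₁ ∩ V₂` contains `V₁` or `V₂`. -/
theorem tve_le_of_inf_le (V₁ V₂ W : ValuationSubring F)
    (h : ∀ x, x ∈ V₁ → x ∈ V₂ → x ∈ W) : V₁ ≤ W ∨ V₂ ≤ W := by
  by_cases h1 : ∀ x, x ∈ V₁ → x ∈ V₂ → x ∈ W.nonunits → x ∈ V₁.nonunits
  · exact Or.inl (tve_le_of_nonunits V₁ V₂ W h h1)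
  by_cases h2 : ∀ x, x ∈ V₂ → x ∈ V₁ → x ∈ W.nonunits → x ∈ V₂.nonunits
  · exact Or.inr (tve_le_of_nonunits V₂ V₁ W (fun x hx2 hx1 => h x hx1 hx2) h2)
  exfalso
  push Not at h1 h2
  obtain ⟨e₁, he₁1, he₁2, he₁W, he₁n⟩ := h1
  obtain ⟨e₂, he₂2, he₂1, he₂W, he₂n⟩ := h2
  -- units of `V₁ ∩ V₂` are units of `W`
  have hunit : ∀ c, c ∈ V₁ → c ∈ V₂ → c ∉ V₁.nonunits → c ∉ V₂.nonunits → c ∉ W.nonunits := by
    intro c hc1 hc2 hn1 hn2 hcW
    have hi : c⁻¹ ∈ W := h _ (tve_inv_mem hc1 hn1) (tve_inv_mem hc2 hn2)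
    have hc0 : c ≠ 0 := by
      rintro rfl
      apply hn1
      rw [ValuationSubring.mem_nonunits_iff, map_zero]
      exact zero_lt_one
    have h1 : W.valuation c < 1 := W.mem_nonunits_iff.mp hcW
    have h2 : W.valuation c⁻¹ ≤ 1 := (W.valuation_le_one_iff _).mpr hi
    have h3 : W.valuation c * W.valuation c⁻¹ = 1 := by
      rw [← map_mul, mul_inv_cancel₀ hc0, map_one]
    have h4 : W.valuation c * W.valuation c⁻¹ < 1 :=
      lt_of_le_of_lt (mul_le_of_le_one_right' h2) h1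
    rw [h3] at h4
    exact lt_irrefl _ h4
  have he₁2n : e₁ ∈ V₂.nonunits := by
    by_contra hc
    exact hunit e₁ he₁1 he₁2 he₁n hc he₁W
  have he₂1n : e₂ ∈ V₁.nonunits := by
    by_contra hc
    exact hunit e₂ he₂1 he₂2 hc he₂n he₂W
  have hsumW : e₁ + e₂ ∈ W.nonunits := by
    rw [ValuationSubring.mem_nonunits_iff] at he₁W he₂W ⊢
    exact lt_of_le_of_lt (Valuation.map_add _ _ _) (max_lt he₁W he₂W)
  refine hunit (e₁ + e₂) (V₁.add_mem _ _ he₁1 he₂1) (V₂.add_mem _ _ he₁2 he₂2)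
    (tve_add_notMem_nonunits he₁1 he₁n he₂1n) ?_ hsumW
  rw [add_comm]
  exact tve_add_notMem_nonunits he₂2 he₂n he₁2n

/-- A valuation subring `W ⊇ V` in which a generator `τ` of the non-units of `V` is not
invertible equals `V`. -/
theorem tve_eq_of_le (V W : ValuationSubring F) (hle : V ≤ W) (τ : F)
    (hτgen : ∀ x ∈ V.nonunits, x * τ⁻¹ ∈ V) (hτW : τ⁻¹ ∉ W) : W = V := by
  refine le_antisymm ?_ hle
  intro x hx
  by_contra hxV
  have hx0 : x ≠ 0 := fun h0 => hxV (h0 ▸ V.zero_mem)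
  have h1 : x⁻¹ * τ⁻¹ ∈ W := hle (hτgen _ (tve_inv_mem_nonunits hxV))
  apply hτW
  have : τ⁻¹ = x * (x⁻¹ * τ⁻¹) := by
    rw [← mul_assoc, mul_inv_cancel₀ hx0, one_mul]
  rw [this]
  exact W.mul_mem _ _ hx h1

end General

/-! ### Exhaustiveness from a jointly independent family -/

section Exh

variable {E F κE κ₁ κ₂ : Type*} [Field E] [Field F] [Algebra E F] [Field κE] [Field κ₁] [Field κ₂]
  (VE : ValuationSubring E) (V₁ V₂ : ValuationSubring F)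
  (hV₁ : ∀ a ∈ VE, algebraMap E F a ∈ V₁.toSubring)
  (hV₂ : ∀ a ∈ VE, algebraMap E F a ∈ V₂.toSubring)
  (ρE : VE →+* κE) (ρ₁ : V₁.toSubring →+* κ₁) (ρ₂ : V₂.toSubring →+* κ₂)
  (ι₁ : κE →+* κ₁) (ι₂ : κE →+* κ₂)
  (hρ₁ : ∀ (a : E) (ha : a ∈ VE), ρ₁ ⟨algebraMap E F a, hV₁ a ha⟩ = ι₁ (ρE ⟨a, ha⟩))
  (hρ₂ : ∀ (a : E) (ha : a ∈ VE), ρ₂ ⟨algebraMap E F a, hV₂ a ha⟩ = ι₂ (ρE ⟨a, ha⟩))
  (hkerE : ∀ a : VE, (a : E)⁻¹ ∉ VE → ρE a = 0)
  {ι : Type*} [Fintype ι] (b : ι → F) (hb₁ : ∀ i, b i ∈ V₁.toSubring)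
  (hb₂ : ∀ i, b i ∈ V₂.toSubring)
  (hind : ∀ c : ι → κE, ∑ i, ι₁ (c i) * ρ₁ ⟨b i, hb₁ i⟩ = 0 →
    ∑ i, ι₂ (c i) * ρ₂ ⟨b i, hb₂ i⟩ = 0 → ∀ i, c i = 0)

include hρ₁ hρ₂ hkerE hind in
/-- `V₁ ∩ V₂` is integral over `VE` (Cayley-Hamilton for the multiplication matrix). -/
theorem tve_isIntegral [Nonempty ι] (hcard : Fintype.card ι = Module.finrank E F)
    (u : F) (hu₁ : u ∈ V₁) (hu₂ : u ∈ V₂) :
    ∃ q : (↥VE)[X], q.Monic ∧ q.eval₂ ((algebraMap E F).comp VE.subtype) u = 0 := by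
  classical
  have hli := Fermat.Agent.S37.tva_linearIndependent VE V₁.toSubring V₂.toSubring hV₁ hV₂ ρE ρ₁ ρ₂
    ι₁ ι₂ hρ₁ hρ₂ b hb₁ hb₂ hind
  set B : Module.Basis ι E F := basisOfLinearIndependentOfCardEqFinrank hli hcard with hBdef
  have hB : ∀ i, B i = b i := fun i => by
    rw [hBdef, coe_basisOfLinearIndependentOfCardEqFinrank]
  have hmem := Fermat.Agent.S37.tva_repr_mem VE V₁.toSubring V₂.toSubring hV₁ hV₂ ρE ρ₁ ρ₂ ι₁ ι₂
    hρ₁ hρ₂ hkerE b hb₁ hb₂ hind B hB u hu₁ hu₂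
  set m : Matrix ι ι VE := Matrix.of fun i j => ⟨B.repr (u * b j) i, hmem j i⟩ with hm
  have hmap : m.map ⇑VE.subtype = Algebra.leftMulMatrix B u := by
    ext i j
    rw [Algebra.leftMulMatrix_eq_repr_mul, hB]
    rfl
  refine ⟨m.charpoly, Matrix.charpoly_monic m, ?_⟩
  have h1 : m.charpoly.eval₂ ((algebraMap E F).comp VE.subtype) u
      = aeval u (m.charpoly.map VE.subtype) := by
    rw [aeval_def, eval₂_map]
  rw [h1]
  apply Algebra.leftMulMatrix_injective B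
  rw [map_zero, ← aeval_algHom_apply, ← hmap, ← Matrix.charpoly_map]
  exact Matrix.aeval_self_charpoly _

include hρ₁ hρ₂ hkerE hind in
/-- every valuation subring of `F` containing `VE` contains `V₁ ∩ V₂` -/
theorem tve_inf_le [Nonempty ι] (hcard : Fintype.card ι = Module.finrank E F)
    (W : ValuationSubring F) (hW : ∀ a ∈ VE, algebraMap E F a ∈ W)
    (u : F) (hu₁ : u ∈ V₁) (hu₂ : u ∈ V₂) : u ∈ W := by
  obtain ⟨q, hq, hqu⟩ := tve_isIntegral VE V₁ V₂ hV₁ hV₂ ρE ρ₁ ρ₂ ι₁ ι₂ hρ₁ hρ₂ hkerE b hb₁ hb₂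
    hind hcard u hu₁ hu₂
  let _ : Algebra ↥VE F := ((algebraMap E F).comp VE.subtype).toAlgebra
  exact Fermat.Agent.S18.valext_mem_of_isIntegral W (S := ↥VE) (fun s => hW _ s.2) u ⟨q, hq, hqu⟩

include hρ₁ hρ₂ hkerE hind in
/-- **Exhaustiveness**: every valuation subring of `F` containing `VE` contains `V₁` or `V₂`. -/
theorem tve_exh [Nonempty ι] (hcard : Fintype.card ι = Module.finrank E F)
    (W : ValuationSubring F) (hW : ∀ a ∈ VE, algebraMap E F a ∈ W) : V₁ ≤ W ∨ V₂ ≤ W :=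
  tve_le_of_inf_le V₁ V₂ W (fun u hu₁ hu₂ =>
    tve_inf_le VE V₁ V₂ hV₁ hV₂ ρE ρ₁ ρ₂ ι₁ ι₂ hρ₁ hρ₂ hkerE b hb₁ hb₂ hind hcard W hW u hu₁ hu₂)

include hρ₁ hρ₂ hkerE hind in
/-- **Exhaustiveness**, rank-one form: if the non-units of `V₁` and of `V₂` are generated by
`τ` and `τ` is not invertible in `W ⊇ VE`, then `W = V₁` or `W = V₂`. -/
theorem tve_exh_eq [Nonempty ι] (hcard : Fintype.card ι = Module.finrank E F) (τ : F)
    (hτ₁ : ∀ x ∈ V₁.nonunits, x * τ⁻¹ ∈ V₁) (hτ₂ : ∀ x ∈ V₂.nonunits, x * τ⁻¹ ∈ V₂)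
    (W : ValuationSubring F) (hW : ∀ a ∈ VE, algebraMap E F a ∈ W) (hτW : τ⁻¹ ∉ W) :
    W = V₁ ∨ W = V₂ := by
  rcases tve_exh VE V₁ V₂ hV₁ hV₂ ρE ρ₁ ρ₂ ι₁ ι₂ hρ₁ hρ₂ hkerE b hb₁ hb₂ hind hcard W hW
    with h | h
  · exact Or.inl (tve_eq_of_le V₁ W h τ hτ₁ hτW)
  · exact Or.inr (tve_eq_of_le V₂ W h τ hτ₂ hτW)

end Exh

end Fermat.Agent.S34
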