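import Mathlib
import Fermat.Prelude.Def_ModularCurve_HeckeOperator
import Fermat.Prelude.Def_AlgebraicCurve_Correspondence
import Fermat.Prelude.Def_FLTPrelim_Ramification
import Fermat.Agent.S28.PsiArith
import Fermat.Agent.S18.GaussMain

/-!
# S34, package A [VAL2], the degree: `[K0(X₀(M ℓ)) : α K0(X₀(M))] = ℓ + 1`

`K0` any field of characteristic zero (`[Algebra ℚ K0]`), `ℓ ∤ M` a prime:

* `va2d_exists_liesOver`: every field of characteristic zero has a valuation subring over any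
  given prime;
* `va2d_finrank_j`: `[K0(X₀(N)) : K0(j)] = ψ(N)` at EVERY level `N` (S18 `gr_finrank_j` at an
  auxiliary prime not dividing `N`);
* `va2d_finrank_mul`: `ψ(M) · [K0(X₀(M ℓ)) : α K0(X₀(M))] = ψ(M ℓ)`;
* `va2d_finrank`: `finrankAlong K0 (heckeAlphaBar K0 M ℓ) = ℓ + 1`;
* `va2d_finite`: `FiniteAlong K0 (heckeAlphaBar K0 M ℓ)`.

Names are prefixed `va2d_`.
-/

set_option autoImplicit false
set_option linter.unusedSectionVars false
set_option linter.unusedVariables false
set_option linter.style.haveILetI false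

open AlgebraicCurve ModularCurve IntermediateField

namespace Fermat.Agent.S34

open Fermat.Agent.S18 Fermat.Agent.S28

/-- every field of characteristic zero has a valuation subring lying over a given prime -/
theorem va2d_exists_liesOver (K : Type*) [Field K] [CharZero K] (p : ℕ) (hp : p.Prime) :
    ∃ A : ValuationSubring K, A.LiesOverPrime p := by
  let R : Subring K := (Int.castRingHom K).range
  have hpR : (p : K) ∈ R := ⟨(p : ℤ), by simp⟩
  let I : Ideal R := Ideal.span {⟨(p : K), hpR⟩}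
  have hI : I ≠ ⊤ := by
    intro h
    have h1 : (1 : R) ∈ I := by rw [h]; trivial
    obtain ⟨a, ha⟩ := Ideal.mem_span_singleton'.mp h1
    obtain ⟨n, hn⟩ := a.2
    have h2 : ((n * (p : ℤ) : ℤ) : K) = ((1 : ℤ) : K) := by
      have h3 := congrArg (Subtype.val) ha
      push_cast
      rw [show ((n : ℤ) : K) = (a : K) from hn]
      simpa using h3
    have h4 : n * (p : ℤ) = 1 := Int.cast_injective h2
    have h5 : (p : ℤ) ∣ 1 := Dvd.intro_left n h4
    have h6 : p ∣ 1 := by exact_mod_cast h5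
    exact hp.one_lt.ne' (Nat.dvd_one.mp h6)
  obtain ⟨B, -, hB⟩ := Ideal.image_subset_nonunits_valuationSubring I hI
  exact ⟨B, hB ⟨⟨(p : K), hpR⟩, Ideal.subset_span rfl, rfl⟩⟩

/-! ### the rank only depends on the image of the scalars -/

theorem va2d_finrank_fieldRange {A F : Type*} [Field A] [Field F] [Algebra A F] :
    Module.finrank A F = Module.finrank (algebraMap A F).fieldRange F :=
  Algebra.finrank_eq_of_equiv_equiv
    (RingEquiv.ofBijective (algebraMap A F).rangeRestrictField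
      (algebraMap A F).rangeRestrictField_bijective) (RingEquiv.refl F) (by ext; rfl)

theorem va2d_finrank_eq_of_range {A₁ A₂ F : Type*} [Field A₁] [Field A₂] [Field F]
    [Algebra A₁ F] [Algebra A₂ F]
    (h : ∀ x : F, x ∈ Set.range (algebraMap A₁ F) ↔ x ∈ Set.range (algebraMap A₂ F)) :
    Module.finrank A₁ F = Module.finrank A₂ F := by
  have h' : (algebraMap A₁ F).fieldRange = (algebraMap A₂ F).fieldRange := by
    ext x
    exact h x
  rw [va2d_finrank_fieldRange (A := A₁), va2d_finrank_fieldRange (A := A₂), h']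

section degree

variable (K0 : Type*) [Field K0] [Algebra ℚ K0]

/-- `[K0(X₀(N)) : K0(j)] = ψ(N)` at every level, over every field of characteristic zero. -/
theorem va2d_finrank_j (N : ℕ) [NeZero N] :
    Module.finrank ↥K0⟮grJ K0 N⟯ ↥(laurentBaseChange K0 (modularFunctionFieldFull N)) = psi N ∧
      FiniteDimensional ↥K0⟮grJ K0 N⟯ ↥(laurentBaseChange K0 (modularFunctionFieldFull N)) := by
  obtain ⟨p, hpge, hp⟩ := Nat.exists_infinite_primes (N + 1)
  haveI : Fact p.Prime := ⟨hp⟩
  have hpN : ¬ p ∣ N := fun h => by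
    have := Nat.le_of_dvd (Nat.pos_of_ne_zero (NeZero.ne N)) h
    omega
  haveI : CharZero K0 := algebraRat.charZero K0
  obtain ⟨A, hA⟩ := va2d_exists_liesOver K0 p hp
  exact gr_finrank_j A hA N hpN

variable (M ℓ : ℕ) [NeZero M] [NeZero ℓ]

theorem va2d_alpha_grJ :
    heckeAlphaBar K0 M ℓ (grJ K0 M) = grJ K0 (M * ℓ) :=
  Subtype.ext rfl

/-- `ψ(M) · [K0(X₀(M ℓ)) : α K0(X₀(M))] = ψ(M ℓ)`. -/
theorem va2d_finrank_mul :
    psi M * finrankAlong K0 (heckeAlphaBar K0 M ℓ) = psi (M * ℓ) := by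
  letI := algebraAlong (heckeAlphaBar K0 M ℓ)
  letI algJ : Algebra ↥K0⟮grJ K0 M⟯ ↥(laurentBaseChange K0 (modularFunctionFieldFull (M * ℓ))) :=
    ((algebraMap ↥(laurentBaseChange K0 (modularFunctionFieldFull M))
        ↥(laurentBaseChange K0 (modularFunctionFieldFull (M * ℓ)))).comp
      (algebraMap ↥K0⟮grJ K0 M⟯ ↥(laurentBaseChange K0 (modularFunctionFieldFull M)))).toAlgebra
  haveI : IsScalarTower ↥K0⟮grJ K0 M⟯ ↥(laurentBaseChange K0 (modularFunctionFieldFull M))
      ↥(laurentBaseChange K0 (modularFunctionFieldFull (M * ℓ))) :=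
    IsScalarTower.of_algebraMap_eq fun _ => rfl
  haveI : Module.Free ↥K0⟮grJ K0 M⟯ ↥(laurentBaseChange K0 (modularFunctionFieldFull M)) :=
    Module.Free.of_divisionRing _ _
  haveI : Module.Free ↥(laurentBaseChange K0 (modularFunctionFieldFull M))
      ↥(laurentBaseChange K0 (modularFunctionFieldFull (M * ℓ))) :=
    Module.Free.of_divisionRing _ _
  have h1 := Module.finrank_mul_finrank ↥K0⟮grJ K0 M⟯
    ↥(laurentBaseChange K0 (modularFunctionFieldFull M))
    ↥(laurentBaseChange K0 (modularFunctionFieldFull (M * ℓ)))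
  have h2 : Module.finrank ↥K0⟮grJ K0 M⟯
        ↥(laurentBaseChange K0 (modularFunctionFieldFull (M * ℓ)))
      = Module.finrank ↥K0⟮grJ K0 (M * ℓ)⟯
          ↥(laurentBaseChange K0 (modularFunctionFieldFull (M * ℓ))) := by
    apply va2d_finrank_eq_of_range
    intro y
    have hmap : (K0⟮grJ K0 M⟯).map (heckeAlphaBar K0 M ℓ) = K0⟮grJ K0 (M * ℓ)⟯ := by
      rw [IntermediateField.adjoin_map, Set.image_singleton, va2d_alpha_grJ]
    constructor
    · rintro ⟨a, rfl⟩
      have ha : heckeAlphaBar K0 M ℓ (a : ↥(laurentBaseChange K0 (modularFunctionFieldFull M))) ∈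
          K0⟮grJ K0 (M * ℓ)⟯ := by
        rw [← hmap]
        exact ⟨a, a.2, rfl⟩
      exact ⟨⟨_, ha⟩, rfl⟩
    · rintro ⟨b, rfl⟩
      have hb : (b : ↥(laurentBaseChange K0 (modularFunctionFieldFull (M * ℓ)))) ∈
          (K0⟮grJ K0 M⟯).map (heckeAlphaBar K0 M ℓ) := by
        rw [hmap]
        exact b.2
      obtain ⟨a, ha, hab⟩ := hb
      exact ⟨⟨a, ha⟩, hab⟩
  rw [(va2d_finrank_j K0 M).1, h2, (va2d_finrank_j K0 (M * ℓ)).1] at h1
  exact h1

variable {ℓ} in
/-- **The degree.**  `[K0(X₀(M ℓ)) : α K0(X₀(M))] = ℓ + 1` for a prime `ℓ ∤ M`, over every field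
`K0` of characteristic zero. -/
theorem va2d_finrank (hℓ : ℓ.Prime) (hM : ¬ ℓ ∣ M) :
    finrankAlong K0 (heckeAlphaBar K0 M ℓ) = ℓ + 1 := by
  have h := va2d_finrank_mul K0 M ℓ
  have hψ : psi (M * ℓ) = (ℓ + 1) * psi M := by
    rw [mul_comm M ℓ]
    exact psi_mul_of_not_dvd hℓ (NeZero.pos M) hM
  rw [hψ, mul_comm] at h
  have hpos : 0 < psi M := by
    unfold psi
    refine Finset.prod_pos fun r hr => ?_
    have hr0 : 0 < r := (Nat.prime_of_mem_primeFactors hr).pos
    exact Nat.mul_pos (Nat.succ_pos r) (pow_pos hr0 _)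
  exact Nat.eq_of_mul_eq_mul_right hpos h

variable {ℓ} in
/-- `K0(X₀(M ℓ))` is finite over `α K0(X₀(M))`. -/
theorem va2d_finite (hℓ : ℓ.Prime) (hM : ¬ ℓ ∣ M) :
    FiniteAlong K0 (heckeAlphaBar K0 M ℓ) := by
  have h := va2d_finrank K0 M hℓ hM
  letI := algebraAlong (heckeAlphaBar K0 M ℓ)
  show Module.Finite ↥(laurentBaseChange K0 (modularFunctionFieldFull M))
    ↥(laurentBaseChange K0 (modularFunctionFieldFull (M * ℓ)))
  exact Module.finite_of_finrank_pos (by
    have h' : Module.finrank ↥(laurentBaseChange K0 (modularFunctionFieldFull M))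
      ↥(laurentBaseChange K0 (modularFunctionFieldFull (M * ℓ))) = ℓ + 1 := h
    omega)

end degree

end Fermat.Agent.S34
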