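import Mathlib
import Fermat.Agent.S37.TwoValAbs
import Fermat.Agent.S37.FrobSeries
import Fermat.Agent.S34.TwoValExh

/-!
# S34, package A-INST, part (c): exhaustiveness of the two valuations, abstract Hecke form

The setting of `tvc_main` (S37/TwoValCore) with the roles of `α` and `β` exchanged: `F` has degree
`ℓ + 1` over `α E`, `w` is an endomorphism of `F` exchanging `α` and `β`, `V₁` is a valuation
subring of `F` with a residue map `ρ₁` such that `ρ₁ ∘ α = ρE` and `ρ₁ ∘ β = φ ∘ ρE`.  Then the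
family `1 - e`, `e * (β j)^i` (`i < ℓ`), `e = (x^ℓ - y) / ((x^ℓ - y) + (x - y^ℓ))`, `x = α j`,
`y = β j`, lies in `V₁ ∩ V₂` (`V₂ = V₁.comap w`) and has jointly independent residues
(`tvx_family`); hence every valuation subring of `F` containing `α VE` contains `V₁` or `V₂`
(`tvx_exh`).
-/

set_option autoImplicit false

namespace Fermat.Agent.S34

open Fermat.Agent.S37

section Core

variable {E F L : Type*} [Field E] [Field F] [Algebra E F] [Field L]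
  (l : ℕ) [Fact l.Prime] [CharP L l]
  (alpha beta : E →+* F) (halg : ∀ a, algebraMap E F a = alpha a)
  (w : F →+* F) (hwa : ∀ a, w (alpha a) = beta a) (hwb : ∀ a, w (beta a) = alpha a)
  (VE : ValuationSubring E) (rhoE : VE →+* L) (hkerE : ∀ a : VE, (a : E)⁻¹ ∉ VE → rhoE a = 0)
  (V1 : ValuationSubring F) (rho1 : V1.toSubring →+* L)
  (hinv : ∀ z : V1.toSubring, rho1 z ≠ 0 → (z : F)⁻¹ ∈ V1)
  (phi : L →+* L)
  (ha : ∀ a (h : a ∈ VE), ∃ h1 : alpha a ∈ V1, rho1 ⟨alpha a, h1⟩ = rhoE ⟨a, h⟩)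
  (hb : ∀ a (h : a ∈ VE), ∃ h1 : beta a ∈ V1, rho1 ⟨beta a, h1⟩ = phi (rhoE ⟨a, h⟩))
  (jE : E) (hjE : jE ∈ VE) (hJphi : (rhoE ⟨jE, hjE⟩) ^ l = phi (rhoE ⟨jE, hjE⟩))
  (hJ : ∀ c, phi c ≠ rhoE ⟨jE, hjE⟩)
  (hdeg : Module.finrank E F = l + 1)

/-- the residue map of `V₂ = V₁.comap w` -/
def tvxRho2 : (V1.comap w).toSubring →+* L :=
  rho1.comp (w.restrict (V1.comap w).toSubring V1.toSubring (fun _ hx => hx))

omit [Fact l.Prime] [CharP L l] [Algebra E F] in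
theorem tvxRho2_apply (t : F) (ht : t ∈ V1.comap w) :
    tvxRho2 w V1 rho1 ⟨t, ht⟩ = rho1 ⟨w t, ht⟩ := rfl

include halg hwa hwb hinv ha hb hJphi hJ in
/-- the family with jointly independent residues -/
theorem tvx_family :
    ∃ (b : Unit ⊕ Fin l → F) (hb₁ : ∀ i, b i ∈ V1.toSubring)
      (hb₂ : ∀ i, b i ∈ (V1.comap w).toSubring)
      (hV₁ : ∀ a ∈ VE, algebraMap E F a ∈ V1.toSubring)
      (hV₂ : ∀ a ∈ VE, algebraMap E F a ∈ (V1.comap w).toSubring),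
      (∀ (a : E) (h : a ∈ VE), rho1 ⟨algebraMap E F a, hV₁ a h⟩ = (RingHom.id L) (rhoE ⟨a, h⟩)) ∧
      (∀ (a : E) (h : a ∈ VE),
        tvxRho2 w V1 rho1 ⟨algebraMap E F a, hV₂ a h⟩ = phi (rhoE ⟨a, h⟩)) ∧
      (∀ c : Unit ⊕ Fin l → L, ∑ i, (RingHom.id L) (c i) * rho1 ⟨b i, hb₁ i⟩ = 0 →
        ∑ i, phi (c i) * tvxRho2 w V1 rho1 ⟨b i, hb₂ i⟩ = 0 → ∀ i, c i = 0) := by
  classical
  have hcongr : ∀ {t t' : F} (h : t = t') (ht : t ∈ V1.toSubring) (ht' : t' ∈ V1.toSubring),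
      rho1 ⟨t, ht⟩ = rho1 ⟨t', ht'⟩ := by
    intro t t' h ht ht'
    subst h
    rfl
  have hρ₂a : ∀ (t : F) (ht : t ∈ (V1.comap w).toSubring),
      tvxRho2 w V1 rho1 ⟨t, ht⟩ = rho1 ⟨w t, ht⟩ := fun _ _ => rfl
  set J : L := rhoE ⟨jE, hjE⟩ with hJdef
  set x : F := alpha jE with hx
  set y : F := beta jE with hy
  obtain ⟨hx1, hρx⟩ := ha jE hjE
  obtain ⟨hy1, hρy'⟩ := hb jE hjE
  have hx1' : x ∈ V1.toSubring := hx1
  have hy1' : y ∈ V1.toSubring := hy1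
  have hρy : rho1 ⟨y, hy1'⟩ = J ^ l := hρy'.trans hJphi.symm
  have hwx : w x = y := hwa jE
  have hwy : w y = x := hwb jE
  -- the unit `s`
  set s : F := x ^ l - y + (x - y ^ l) with hs
  have hs1 : s ∈ V1.toSubring :=
    add_mem (sub_mem (pow_mem hx1' l) hy1') (sub_mem hx1' (pow_mem hy1' l))
  have hρs : rho1 ⟨s, hs1⟩ = J - (J ^ l) ^ l := by
    have h1 : (⟨s, hs1⟩ : V1.toSubring)
        = ⟨x, hx1'⟩ ^ l - ⟨y, hy1'⟩ + (⟨x, hx1'⟩ - ⟨y, hy1'⟩ ^ l) := rfl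
    rw [h1, map_add, map_sub, map_sub, map_pow, map_pow, hρx, hρy, sub_self, zero_add]
  have hρs0 : rho1 ⟨s, hs1⟩ ≠ 0 := by
    rw [hρs, sub_ne_zero]
    intro h
    have h2 : (J ^ l) ^ l = phi (phi J) := by rw [hJphi, ← map_pow, hJphi]
    exact hJ (phi J) (h2.symm.trans h.symm)
  have hs0 : s ≠ 0 := by
    intro h0
    apply hρs0
    have : (⟨s, hs1⟩ : V1.toSubring) = 0 := Subtype.ext h0
    rw [this, map_zero]
  have hsi1 : s⁻¹ ∈ V1.toSubring := hinv ⟨s, hs1⟩ hρs0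
  set e : F := (x ^ l - y) * s⁻¹ with he
  have he1 : e ∈ V1.toSubring := mul_mem (sub_mem (pow_mem hx1' l) hy1') hsi1
  have hρe : rho1 ⟨e, he1⟩ = 0 := by
    have h1 : (⟨e, he1⟩ : V1.toSubring) = (⟨x, hx1'⟩ ^ l - ⟨y, hy1'⟩) * ⟨s⁻¹, hsi1⟩ := rfl
    rw [h1, map_mul, map_sub, map_pow, hρx, hρy, sub_self, zero_mul]
  have hws : w s = -s := by
    rw [hs, map_add, map_sub, map_sub, map_pow, map_pow, hwx, hwy]
    ring
  have hwe : w e = 1 - e := by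
    rw [he, map_mul, map_inv₀, hws, map_sub, map_pow, hwx, hwy]
    have h2 : x ^ l - y = s - (x - y ^ l) := by rw [hs]; ring
    rw [h2]
    field_simp
    ring
  have hwe' : w (1 - e) = e := by
    rw [map_sub, map_one, hwe]
    ring
  have he2 : e ∈ (V1.comap w).toSubring := by
    show w e ∈ V1.toSubring
    rw [hwe]
    exact sub_mem (one_mem _) he1
  -- the family
  set b : Unit ⊕ Fin l → F := Sum.elim (fun _ => 1 - e) (fun i => e * y ^ (i : ℕ)) with hbdef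
  have hb₁ : ∀ i, b i ∈ V1.toSubring := by
    rintro (u | i)
    · exact sub_mem (one_mem _) he1
    · exact mul_mem he1 (pow_mem hy1' _)
  have hwb' : ∀ i : Fin l, w (e * y ^ (i : ℕ)) = (1 - e) * x ^ (i : ℕ) := by
    intro i
    rw [map_mul, hwe, map_pow, hwy]
  have hb₂ : ∀ i, b i ∈ (V1.comap w).toSubring := by
    rintro (u | i)
    · show w (1 - e) ∈ V1.toSubring
      rw [hwe']
      exact he1
    · show w (e * y ^ (i : ℕ)) ∈ V1.toSubring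
      rw [hwb']
      exact mul_mem (sub_mem (one_mem _) he1) (pow_mem hx1' _)
  have hρ₁b : ∀ i, rho1 ⟨b i, hb₁ i⟩
      = Sum.elim (fun _ : Unit => (1 : L)) (fun _ : Fin l => 0) i := by
    rintro (u | i)
    · have h1 : (⟨b (Sum.inl u), hb₁ (Sum.inl u)⟩ : V1.toSubring) = 1 - ⟨e, he1⟩ := rfl
      rw [h1, map_sub, map_one, hρe, sub_zero]
      rfl
    · have h1 : (⟨b (Sum.inr i), hb₁ (Sum.inr i)⟩ : V1.toSubring)
          = ⟨e, he1⟩ * ⟨y, hy1'⟩ ^ (i : ℕ) := rfl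
      rw [h1, map_mul, hρe, zero_mul]
      rfl
  have hρ₂b : ∀ i, tvxRho2 w V1 rho1 ⟨b i, hb₂ i⟩
      = Sum.elim (fun _ : Unit => (0 : L)) (fun i : Fin l => J ^ (i : ℕ)) i := by
    rintro (u | i)
    · rw [hρ₂a]
      have h1 : rho1 ⟨w (b (Sum.inl u)), hb₂ (Sum.inl u)⟩ = rho1 ⟨e, he1⟩ :=
        hcongr hwe' _ _
      rw [h1, hρe]
      rfl
    · rw [hρ₂a]
      have h1 : rho1 ⟨w (b (Sum.inr i)), hb₂ (Sum.inr i)⟩
          = rho1 ((1 - ⟨e, he1⟩) * ⟨x, hx1'⟩ ^ (i : ℕ)) :=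
        hcongr (hwb' i) _ ((1 - (⟨e, he1⟩ : V1.toSubring)) * ⟨x, hx1'⟩ ^ (i : ℕ)).2
      rw [h1, map_mul, map_sub, map_one, hρe, sub_zero, one_mul, map_pow, hρx]
      rfl
  have hindJ : ∀ c : Fin l → L, ∑ i, phi (c i) * J ^ (i : ℕ) = 0 → ∀ i, c i = 0 :=
    fun c hc => tvf_indep l phi J ⟨J, hJphi.symm⟩ hJ c hc
  have hV₁ : ∀ a ∈ VE, algebraMap E F a ∈ V1.toSubring := fun a h => by
    rw [halg]
    exact (ha a h).1
  have hV₂ : ∀ a ∈ VE, algebraMap E F a ∈ (V1.comap w).toSubring := fun a h => by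
    show w (algebraMap E F a) ∈ V1.toSubring
    rw [halg, hwa]
    exact (hb a h).1
  refine ⟨b, hb₁, hb₂, hV₁, hV₂, ?_, ?_, ?_⟩
  · intro a h
    obtain ⟨h1, hh⟩ := ha a h
    rw [RingHom.id_apply, ← hh]
    exact hcongr (halg a) _ _
  · intro a h
    obtain ⟨h1, hh⟩ := hb a h
    rw [hρ₂a, ← hh]
    exact hcongr ((congrArg w (halg a)).trans (hwa a)) _ _
  · intro c h1 h2
    simp only [hρ₁b, Fintype.sum_sum_type, Sum.elim_inl, Sum.elim_inr, mul_zero,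
      Finset.sum_const_zero, add_zero, mul_one, RingHom.id_apply] at h1
    simp only [hρ₂b, Fintype.sum_sum_type, Sum.elim_inl, Sum.elim_inr, mul_zero,
      Finset.sum_const_zero, zero_add] at h2
    have hc1 := hindJ (fun i => c (Sum.inr i)) h2
    rintro (u | i)
    · simpa using h1
    · exact hc1 i

include halg hwa hwb hinv ha hb hJphi hJ hkerE hdeg in
/-- `V₁ ∩ V₂` is integral over `α VE`. -/
theorem tvx_isIntegral (u : F) (hu₁ : u ∈ V1) (hu₂ : u ∈ V1.comap w) :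
    ∃ q : Polynomial ↥VE, q.Monic ∧ q.eval₂ ((algebraMap E F).comp VE.subtype) u = 0 := by
  classical
  obtain ⟨b, hb₁, hb₂, hV₁, hV₂, hρ₁, hρ₂, hind⟩ := tvx_family l alpha beta halg w hwa hwb VE
    rhoE V1 rho1 hinv phi ha hb jE hjE hJphi hJ
  have hcard : Fintype.card (Unit ⊕ Fin l) = Module.finrank E F := by
    rw [hdeg]
    simp [add_comm]
  exact tve_isIntegral VE V1 (V1.comap w) hV₁ hV₂ rhoE rho1 (tvxRho2 w V1 rho1) (RingHom.id L) phi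
    hρ₁ hρ₂ hkerE b hb₁ hb₂ hind hcard u hu₁ hu₂

include halg hwa hwb hinv ha hb hJphi hJ hkerE hdeg in
/-- every valuation subring of `F` containing `α VE` contains `V₁ ∩ V₂` -/
theorem tvx_inf_le (W : ValuationSubring F) (hW : ∀ a ∈ VE, alpha a ∈ W)
    (u : F) (hu₁ : u ∈ V1) (hu₂ : u ∈ V1.comap w) : u ∈ W := by
  classical
  obtain ⟨b, hb₁, hb₂, hV₁, hV₂, hρ₁, hρ₂, hind⟩ := tvx_family l alpha beta halg w hwa hwb VE
    rhoE V1 rho1 hinv phi ha hb jE hjE hJphi hJ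
  have hcard : Fintype.card (Unit ⊕ Fin l) = Module.finrank E F := by
    rw [hdeg]
    simp [add_comm]
  exact tve_inf_le VE V1 (V1.comap w) hV₁ hV₂ rhoE rho1 (tvxRho2 w V1 rho1) (RingHom.id L) phi
    hρ₁ hρ₂ hkerE b hb₁ hb₂ hind hcard W (fun a h => by rw [halg]; exact hW a h) u hu₁ hu₂

include halg hwa hwb hinv ha hb hJphi hJ hkerE hdeg in
/-- **Exhaustiveness, abstract Hecke form**: every valuation subring of `F` containing `α VE`
contains `V₁` or `V₂ = V₁.comap w`. -/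
theorem tvx_exh (W : ValuationSubring F) (hW : ∀ a ∈ VE, alpha a ∈ W) :
    V1 ≤ W ∨ V1.comap w ≤ W := by
  classical
  obtain ⟨b, hb₁, hb₂, hV₁, hV₂, hρ₁, hρ₂, hind⟩ := tvx_family l alpha beta halg w hwa hwb VE
    rhoE V1 rho1 hinv phi ha hb jE hjE hJphi hJ
  have hcard : Fintype.card (Unit ⊕ Fin l) = Module.finrank E F := by
    rw [hdeg]
    simp [add_comm]
  exact tve_exh VE V1 (V1.comap w) hV₁ hV₂ rhoE rho1 (tvxRho2 w V1 rho1) (RingHom.id L) phi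
    hρ₁ hρ₂ hkerE b hb₁ hb₂ hind hcard W (fun a h => by rw [halg]; exact hW a h)

include halg hwa hwb hinv ha hb hJphi hJ hkerE hdeg in
/-- **Exhaustiveness, abstract Hecke form, rank one**: if the non-units of `V₁` and of
`V₂ = V₁.comap w` are generated by `τ` and `τ` is not invertible in `W ⊇ α VE`, then `W = V₁` or
`W = V₂`. -/
theorem tvx_exh_eq (τ : F) (hτ₁ : ∀ x ∈ V1.nonunits, x * τ⁻¹ ∈ V1)
    (hτ₂ : ∀ x ∈ (V1.comap w).nonunits, x * τ⁻¹ ∈ V1.comap w)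
    (W : ValuationSubring F) (hW : ∀ a ∈ VE, alpha a ∈ W) (hτW : τ⁻¹ ∉ W) :
    W = V1 ∨ W = V1.comap w := by
  rcases tvx_exh l alpha beta halg w hwa hwb VE rhoE hkerE V1 rho1 hinv phi ha hb jE hjE hJphi hJ
    hdeg W hW with h | h
  · exact Or.inl (tve_eq_of_le V1 W h τ hτ₁ hτW)
  · exact Or.inr (tve_eq_of_le (V1.comap w) W h τ hτ₂ hτW)

end Core

end Fermat.Agent.S34
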