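import Mathlib
import Fermat.Agent.S37.TwoValAbs
import Fermat.Agent.S37.FrobSeries
import Fermat.Agent.S34.TwoValExh
import Fermat.Agent.S34.TwoValSwapExh

/-!
# S34, package B1-COMP: residue degree one of `V₁` over `α VE` (abstract Hecke form)

Same setting and binders as `tvx_exh` (S34/TwoValSwapExh): `F` of degree `ℓ + 1` over `α E`,
`w` an endomorphism of `F` exchanging `α` and `β`, `V₁` a valuation subring of `F` with a residue
map `ρ₁` such that `ρ₁ ∘ α = ρE` and `ρ₁ ∘ β = φ ∘ ρE`.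

* `tvr_family`: the explicit family `1 - e`, `e * (β j)^i` of `tvx_family`, with its residues
  under `ρ₁` and the element `e` (`ρ₁ e = 0`, `w e = 1 - e`) exposed;
* `tvr_approx`: every `x ∈ V₁` is congruent modulo `ker ρ₁` to an element of `V₁ ∩ V₂`
  (`V₂ = V₁.comap w`);
* `tvr_res_inf`: for `u ∈ V₁ ∩ V₂`, `ρ₁ u = ρE a` for some `a ∈ VE`;
* `tvr_res_one`: **residue degree one**: for every `x ∈ V₁`, `ρ₁ x = ρE a` for some `a ∈ VE`;
* `tvr_res_one'`: the same as a congruence: `x - α a ∈ ker ρ₁`.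
-/

set_option autoImplicit false

namespace Fermat.Agent.S34

open Fermat.Agent.S37

section Core

variable {E F L : Type*} [Field E] [Field F] [Algebra E F] [Field L]
  (l : ℕ) [Fact l.Prime] [CharP L l]
  (alpha beta : E →+* F) (halg : ∀ a, algebraMap E F a = alpha a)
  (w : F →+* F) (hwa : ∀ a, w (alpha a) = beta a) (hwb : ∀ a, w (beta a) = alpha a)
  (VE : ValuationSubring E) (rhoE : VE →+* L) (hkerE : ∀ a : VE, (a : E)⁻¹ ∉ VE → rhoE a = 0)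
  (V1 : ValuationSubring F) (rho1 : V1.toSubring →+* L)
  (hinv : ∀ z : V1.toSubring, rho1 z ≠ 0 → (z : F)⁻¹ ∈ V1)
  (phi : L →+* L)
  (ha : ∀ a (h : a ∈ VE), ∃ h1 : alpha a ∈ V1, rho1 ⟨alpha a, h1⟩ = rhoE ⟨a, h⟩)
  (hb : ∀ a (h : a ∈ VE), ∃ h1 : beta a ∈ V1, rho1 ⟨beta a, h1⟩ = phi (rhoE ⟨a, h⟩))
  (jE : E) (hjE : jE ∈ VE) (hJphi : (rhoE ⟨jE, hjE⟩) ^ l = phi (rhoE ⟨jE, hjE⟩))
  (hJ : ∀ c, phi c ≠ rhoE ⟨jE, hjE⟩)
  (hdeg : Module.finrank E F = l + 1)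

include halg hwa hwb hinv ha hb hJphi hJ in
/-- the family of `tvx_family` with the element `e` and the `ρ₁`-residues exposed -/
theorem tvr_family :
    ∃ (e : F) (b : Unit ⊕ Fin l → F) (hb₁ : ∀ i, b i ∈ V1.toSubring)
      (hb₂ : ∀ i, b i ∈ (V1.comap w).toSubring)
      (hV₁ : ∀ a ∈ VE, algebraMap E F a ∈ V1.toSubring)
      (hV₂ : ∀ a ∈ VE, algebraMap E F a ∈ (V1.comap w).toSubring),
      (∀ (a : E) (h : a ∈ VE), rho1 ⟨algebraMap E F a, hV₁ a h⟩ = (RingHom.id L) (rhoE ⟨a, h⟩)) ∧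
      (∀ (a : E) (h : a ∈ VE),
        tvxRho2 w V1 rho1 ⟨algebraMap E F a, hV₂ a h⟩ = phi (rhoE ⟨a, h⟩)) ∧
      (∀ c : Unit ⊕ Fin l → L, ∑ i, (RingHom.id L) (c i) * rho1 ⟨b i, hb₁ i⟩ = 0 →
        ∑ i, phi (c i) * tvxRho2 w V1 rho1 ⟨b i, hb₂ i⟩ = 0 → ∀ i, c i = 0) ∧
      (∃ he : e ∈ V1.toSubring, rho1 ⟨e, he⟩ = 0) ∧ w e = 1 - e ∧
      b (Sum.inl ()) = 1 - e ∧ b (Sum.inr ⟨0, (Fact.out : l.Prime).pos⟩) = e ∧
      (∀ i, rho1 ⟨b i, hb₁ i⟩
        = Sum.elim (fun _ : Unit => (1 : L)) (fun _ : Fin l => 0) i) := by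
  classical
  have hcongr : ∀ {t t' : F} (h : t = t') (ht : t ∈ V1.toSubring) (ht' : t' ∈ V1.toSubring),
      rho1 ⟨t, ht⟩ = rho1 ⟨t', ht'⟩ := by
    intro t t' h ht ht'
    subst h
    rfl
  have hρ₂a : ∀ (t : F) (ht : t ∈ (V1.comap w).toSubring),
      tvxRho2 w V1 rho1 ⟨t, ht⟩ = rho1 ⟨w t, ht⟩ := fun _ _ => rfl
  set J : L := rhoE ⟨jE, hjE⟩ with hJdef
  set x : F := alpha jE with hx
  set y : F := beta jE with hy
  obtain ⟨hx1, hρx⟩ := ha jE hjE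
  obtain ⟨hy1, hρy'⟩ := hb jE hjE
  have hx1' : x ∈ V1.toSubring := hx1
  have hy1' : y ∈ V1.toSubring := hy1
  have hρy : rho1 ⟨y, hy1'⟩ = J ^ l := hρy'.trans hJphi.symm
  have hwx : w x = y := hwa jE
  have hwy : w y = x := hwb jE
  -- the unit `s`
  set s : F := x ^ l - y + (x - y ^ l) with hs
  have hs1 : s ∈ V1.toSubring :=
    add_mem (sub_mem (pow_mem hx1' l) hy1') (sub_mem hx1' (pow_mem hy1' l))
  have hρs : rho1 ⟨s, hs1⟩ = J - (J ^ l) ^ l := by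
    have h1 : (⟨s, hs1⟩ : V1.toSubring)
        = ⟨x, hx1'⟩ ^ l - ⟨y, hy1'⟩ + (⟨x, hx1'⟩ - ⟨y, hy1'⟩ ^ l) := rfl
    rw [h1, map_add, map_sub, map_sub, map_pow, map_pow, hρx, hρy, sub_self, zero_add]
  have hρs0 : rho1 ⟨s, hs1⟩ ≠ 0 := by
    rw [hρs, sub_ne_zero]
    intro h
    have h2 : (J ^ l) ^ l = phi (phi J) := by rw [hJphi, ← map_pow, hJphi]
    exact hJ (phi J) (h2.symm.trans h.symm)
  have hs0 : s ≠ 0 := by
    intro h0
    apply hρs0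
    have : (⟨s, hs1⟩ : V1.toSubring) = 0 := Subtype.ext h0
    rw [this, map_zero]
  have hsi1 : s⁻¹ ∈ V1.toSubring := hinv ⟨s, hs1⟩ hρs0
  set e : F := (x ^ l - y) * s⁻¹ with he
  have he1 : e ∈ V1.toSubring := mul_mem (sub_mem (pow_mem hx1' l) hy1') hsi1
  have hρe : rho1 ⟨e, he1⟩ = 0 := by
    have h1 : (⟨e, he1⟩ : V1.toSubring) = (⟨x, hx1'⟩ ^ l - ⟨y, hy1'⟩) * ⟨s⁻¹, hsi1⟩ := rfl
    rw [h1, map_mul, map_sub, map_pow, hρx, hρy, sub_self, zero_mul]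
  have hws : w s = -s := by
    rw [hs, map_add, map_sub, map_sub, map_pow, map_pow, hwx, hwy]
    ring
  have hwe : w e = 1 - e := by
    rw [he, map_mul, map_inv₀, hws, map_sub, map_pow, hwx, hwy]
    have h2 : x ^ l - y = s - (x - y ^ l) := by rw [hs]; ring
    rw [h2]
    field_simp
    ring
  have hwe' : w (1 - e) = e := by
    rw [map_sub, map_one, hwe]
    ring
  have he2 : e ∈ (V1.comap w).toSubring := by
    show w e ∈ V1.toSubring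
    rw [hwe]
    exact sub_mem (one_mem _) he1
  -- the family
  set b : Unit ⊕ Fin l → F := Sum.elim (fun _ => 1 - e) (fun i => e * y ^ (i : ℕ)) with hbdef
  have hb₁ : ∀ i, b i ∈ V1.toSubring := by
    rintro (u | i)
    · exact sub_mem (one_mem _) he1
    · exact mul_mem he1 (pow_mem hy1' _)
  have hwb' : ∀ i : Fin l, w (e * y ^ (i : ℕ)) = (1 - e) * x ^ (i : ℕ) := by
    intro i
    rw [map_mul, hwe, map_pow, hwy]
  have hb₂ : ∀ i, b i ∈ (V1.comap w).toSubring := by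
    rintro (u | i)
    · show w (1 - e) ∈ V1.toSubring
      rw [hwe']
      exact he1
    · show w (e * y ^ (i : ℕ)) ∈ V1.toSubring
      rw [hwb']
      exact mul_mem (sub_mem (one_mem _) he1) (pow_mem hx1' _)
  have hρ₁b : ∀ i, rho1 ⟨b i, hb₁ i⟩
      = Sum.elim (fun _ : Unit => (1 : L)) (fun _ : Fin l => 0) i := by
    rintro (u | i)
    · have h1 : (⟨b (Sum.inl u), hb₁ (Sum.inl u)⟩ : V1.toSubring) = 1 - ⟨e, he1⟩ := rfl
      rw [h1, map_sub, map_one, hρe, sub_zero]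
      rfl
    · have h1 : (⟨b (Sum.inr i), hb₁ (Sum.inr i)⟩ : V1.toSubring)
          = ⟨e, he1⟩ * ⟨y, hy1'⟩ ^ (i : ℕ) := rfl
      rw [h1, map_mul, hρe, zero_mul]
      rfl
  have hρ₂b : ∀ i, tvxRho2 w V1 rho1 ⟨b i, hb₂ i⟩
      = Sum.elim (fun _ : Unit => (0 : L)) (fun i : Fin l => J ^ (i : ℕ)) i := by
    rintro (u | i)
    · rw [hρ₂a]
      have h1 : rho1 ⟨w (b (Sum.inl u)), hb₂ (Sum.inl u)⟩ = rho1 ⟨e, he1⟩ :=
        hcongr hwe' _ _
      rw [h1, hρe]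
      rfl
    · rw [hρ₂a]
      have h1 : rho1 ⟨w (b (Sum.inr i)), hb₂ (Sum.inr i)⟩
          = rho1 ((1 - ⟨e, he1⟩) * ⟨x, hx1'⟩ ^ (i : ℕ)) :=
        hcongr (hwb' i) _ ((1 - (⟨e, he1⟩ : V1.toSubring)) * ⟨x, hx1'⟩ ^ (i : ℕ)).2
      rw [h1, map_mul, map_sub, map_one, hρe, sub_zero, one_mul, map_pow, hρx]
      rfl
  have hindJ : ∀ c : Fin l → L, ∑ i, phi (c i) * J ^ (i : ℕ) = 0 → ∀ i, c i = 0 :=
    fun c hc => tvf_indep l phi J ⟨J, hJphi.symm⟩ hJ c hc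
  have hV₁ : ∀ a ∈ VE, algebraMap E F a ∈ V1.toSubring := fun a h => by
    rw [halg]
    exact (ha a h).1
  have hV₂ : ∀ a ∈ VE, algebraMap E F a ∈ (V1.comap w).toSubring := fun a h => by
    show w (algebraMap E F a) ∈ V1.toSubring
    rw [halg, hwa]
    exact (hb a h).1
  refine ⟨e, b, hb₁, hb₂, hV₁, hV₂, ?_, ?_, ?_, ⟨he1, hρe⟩, hwe, rfl, ?_, hρ₁b⟩
  · intro a h
    obtain ⟨h1, hh⟩ := ha a h
    rw [RingHom.id_apply, ← hh]
    exact hcongr (halg a) _ _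
  · intro a h
    obtain ⟨h1, hh⟩ := hb a h
    rw [hρ₂a, ← hh]
    exact hcongr ((congrArg w (halg a)).trans (hwa a)) _ _
  · intro c h1 h2
    simp only [hρ₁b, Fintype.sum_sum_type, Sum.elim_inl, Sum.elim_inr, mul_zero,
      Finset.sum_const_zero, add_zero, mul_one, RingHom.id_apply] at h1
    simp only [hρ₂b, Fintype.sum_sum_type, Sum.elim_inl, Sum.elim_inr, mul_zero,
      Finset.sum_const_zero, zero_add] at h2
    have hc1 := hindJ (fun i => c (Sum.inr i)) h2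
    rintro (u | i)
    · simpa using h1
    · exact hc1 i
  · show e * y ^ ((⟨0, (Fact.out : l.Prime).pos⟩ : Fin l) : ℕ) = e
    rw [pow_zero, mul_one]

include hinv in
/-- every element of `V₁` is congruent modulo `ker ρ₁` to an element of `V₁ ∩ V₂`, given an
element `e` with `ρ₁ e = 0` and `w e = 1 - e` -/
theorem tvr_approx (e : F) (he1 : e ∈ V1.toSubring) (hρe : rho1 ⟨e, he1⟩ = 0)
    (hwe : w e = 1 - e) (x : F) (hx : x ∈ V1) :
    ∃ (u : F) (hu₁ : u ∈ V1), w u ∈ V1 ∧ rho1 ⟨u, hu₁⟩ = rho1 ⟨x, hx⟩ := by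
  by_cases hwx : w x ∈ V1
  · exact ⟨x, hx, hwx, rfl⟩
  -- the denominator on the `V₁` side
  have hx' : x ∈ V1.toSubring := hx
  set d : F := 1 - e + e * x with hd
  have hd1 : d ∈ V1.toSubring := add_mem (sub_mem (one_mem _) he1) (mul_mem he1 hx')
  have hρd : rho1 ⟨d, hd1⟩ = 1 := by
    have h1 : (⟨d, hd1⟩ : V1.toSubring) = 1 - ⟨e, he1⟩ + ⟨e, he1⟩ * ⟨x, hx'⟩ := rfl
    rw [h1, map_add, map_sub, map_one, map_mul, hρe, sub_zero, zero_mul, add_zero]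
  have hd0 : d ≠ 0 := by
    intro h0
    have h1 : (⟨d, hd1⟩ : V1.toSubring) = 0 := Subtype.ext h0
    rw [h1, map_zero] at hρd
    exact zero_ne_one hρd
  have hdi : d⁻¹ ∈ V1.toSubring := hinv ⟨d, hd1⟩ (by rw [hρd]; exact one_ne_zero)
  have hρdi : rho1 ⟨d⁻¹, hdi⟩ = 1 := by
    have h1 : (⟨d, hd1⟩ : V1.toSubring) * ⟨d⁻¹, hdi⟩ = 1 := Subtype.ext (mul_inv_cancel₀ hd0)
    have h2 := congrArg rho1 h1
    rwa [map_mul, hρd, one_mul, map_one] at h2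
  set u : F := x * (1 - e) * d⁻¹ with hu
  have hu1 : u ∈ V1.toSubring := mul_mem (mul_mem hx' (sub_mem (one_mem _) he1)) hdi
  refine ⟨u, hu1, ?_, ?_⟩
  · -- the `V₂` side
    set X : F := w x with hX
    have hX0 : X ≠ 0 := fun h0 => hwx (by rw [h0]; exact V1.zero_mem)
    have hXi : X⁻¹ ∈ V1.toSubring := (V1.mem_or_inv_mem X).resolve_left hwx
    have hρXi : rho1 ⟨X⁻¹, hXi⟩ = 0 := by
      by_contra hne
      have := hinv ⟨X⁻¹, hXi⟩ hne
      rw [inv_inv] at this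
      exact hwx this
    set d' : F := e * X⁻¹ + (1 - e) with hd'
    have hd'1 : d' ∈ V1.toSubring := add_mem (mul_mem he1 hXi) (sub_mem (one_mem _) he1)
    have hρd' : rho1 ⟨d', hd'1⟩ = 1 := by
      have h1 : (⟨d', hd'1⟩ : V1.toSubring) = ⟨e, he1⟩ * ⟨X⁻¹, hXi⟩ + (1 - ⟨e, he1⟩) := rfl
      rw [h1, map_add, map_mul, map_sub, map_one, hρe, zero_mul, zero_add, sub_zero]
    have hd'i : d'⁻¹ ∈ V1.toSubring := hinv ⟨d', hd'1⟩ (by rw [hρd']; exact one_ne_zero)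
    have hwu : w u = e * d'⁻¹ := by
      have h1 : d' = (e + (1 - e) * X) * X⁻¹ := by
        rw [hd', add_mul, mul_assoc, mul_inv_cancel₀ hX0, mul_one]
      rw [hu, map_mul, map_mul, map_inv₀, hd, map_add, map_sub, map_one, map_mul, hwe, ← hX, h1,
        mul_inv, inv_inv]
      ring
    show w u ∈ V1.toSubring
    rw [hwu]
    exact mul_mem he1 hd'i
  · have h1 : (⟨u, hu1⟩ : V1.toSubring) = ⟨x, hx'⟩ * (1 - ⟨e, he1⟩) * ⟨d⁻¹, hdi⟩ := rfl
    rw [h1, map_mul, map_mul, map_sub, map_one, hρe, sub_zero, mul_one, hρdi, mul_one]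

include halg hwa hwb hinv ha hb hJphi hJ hkerE hdeg in
/-- for `u ∈ V₁ ∩ V₂` the residue `ρ₁ u` is the residue of an element of `VE` -/
theorem tvr_res_inf (u : F) (hu₁ : u ∈ V1) (hu₂ : u ∈ V1.comap w) :
    ∃ (a : E) (h : a ∈ VE), rho1 ⟨u, hu₁⟩ = rhoE ⟨a, h⟩ := by
  classical
  obtain ⟨e, b, hb₁, hb₂, hV₁, hV₂, hρ₁, hρ₂, hind, -, -, hbl, hbr, hρ₁b⟩ :=
    tvr_family l alpha beta halg w hwa hwb VE rhoE V1 rho1 hinv phi ha hb jE hjE hJphi hJ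
  have hcard : Fintype.card (Unit ⊕ Fin l) = Module.finrank E F := by
    rw [hdeg]
    simp [add_comm]
  have hli := tva_linearIndependent VE V1.toSubring (V1.comap w).toSubring hV₁ hV₂ rhoE rho1
    (tvxRho2 w V1 rho1) (RingHom.id L) phi hρ₁ hρ₂ b hb₁ hb₂ hind
  set B : Module.Basis (Unit ⊕ Fin l) E F := basisOfLinearIndependentOfCardEqFinrank hli hcard
    with hBdef
  have hB : ∀ i, B i = b i := fun i => by
    rw [hBdef, coe_basisOfLinearIndependentOfCardEqFinrank]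
  have hmem := tva_repr_mem VE V1.toSubring (V1.comap w).toSubring hV₁ hV₂ rhoE rho1
    (tvxRho2 w V1 rho1) (RingHom.id L) phi hρ₁ hρ₂ hkerE b hb₁ hb₂ hind B hB u hu₁ hu₂
  -- the coordinates of `u` lie in `VE`
  have hone : b (Sum.inl ()) + b (Sum.inr ⟨0, (Fact.out : l.Prime).pos⟩) = 1 := by
    rw [hbl, hbr]
    ring
  have hc : ∀ i, B.repr u i ∈ VE := by
    intro i
    have h1 : u = u * b (Sum.inl ()) + u * b (Sum.inr ⟨0, (Fact.out : l.Prime).pos⟩) := by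
      rw [← mul_add, hone, mul_one]
    have h2 : B.repr u i = B.repr (u * b (Sum.inl ())) i
        + B.repr (u * b (Sum.inr ⟨0, (Fact.out : l.Prime).pos⟩)) i := by
      conv_lhs => rw [h1]
      rw [map_add, Finsupp.add_apply]
    rw [h2]
    exact VE.add_mem _ _ (hmem _ i) (hmem _ i)
  refine ⟨B.repr u (Sum.inl ()), hc _, ?_⟩
  have hsum : (⟨u, hu₁⟩ : V1.toSubring)
      = ∑ i, ⟨algebraMap E F (B.repr u i), hV₁ _ (hc i)⟩ * ⟨b i, hb₁ i⟩ := by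
    apply Subtype.ext
    rw [AddSubmonoidClass.coe_finsetSum]
    simp only [Subring.coe_mul]
    conv_lhs => rw [← B.sum_repr u]
    exact Finset.sum_congr rfl (fun i _ => by rw [hB, Algebra.smul_def])
  have key : ∀ i, rho1 (⟨algebraMap E F (B.repr u i), hV₁ _ (hc i)⟩ * ⟨b i, hb₁ i⟩)
      = rhoE ⟨B.repr u i, hc i⟩
        * Sum.elim (fun _ : Unit => (1 : L)) (fun _ : Fin l => 0) i := fun i => by
    rw [map_mul, hρ₁, hρ₁b, RingHom.id_apply]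
  rw [hsum, map_sum, Fintype.sum_sum_type]
  simp only [key, Sum.elim_inl, Sum.elim_inr, mul_zero, mul_one, Finset.sum_const_zero, add_zero,
    Finset.univ_unique, Finset.sum_singleton]

include halg hwa hwb hinv ha hb hJphi hJ hkerE hdeg in
/-- **Residue degree one**: every residue of `V₁` is the residue of an element of `VE`. -/
theorem tvr_res_one (x : F) (hx : x ∈ V1) :
    ∃ (a : E) (h : a ∈ VE), rho1 ⟨x, hx⟩ = rhoE ⟨a, h⟩ := by
  obtain ⟨e, b, hb₁, hb₂, hV₁, hV₂, -, -, -, ⟨he1, hρe⟩, hwe, -, -, -⟩ :=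
    tvr_family l alpha beta halg w hwa hwb VE rhoE V1 rho1 hinv phi ha hb jE hjE hJphi hJ
  obtain ⟨u, hu₁, hu₂, hux⟩ := tvr_approx w V1 rho1 hinv e he1 hρe hwe x hx
  obtain ⟨a, h, hau⟩ := tvr_res_inf l alpha beta halg w hwa hwb VE rhoE hkerE V1 rho1 hinv phi
    ha hb jE hjE hJphi hJ hdeg u hu₁ hu₂
  exact ⟨a, h, hux.symm.trans hau⟩

include halg hwa hwb hinv ha hb hJphi hJ hkerE hdeg in
/-- **Residue degree one**, congruence form: every `x ∈ V₁` is congruent to some `α a`,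
`a ∈ VE`, modulo the kernel of `ρ₁`. -/
theorem tvr_res_one' (x : F) (hx : x ∈ V1) :
    ∃ (a : E) (_ : a ∈ VE) (h1 : x - alpha a ∈ V1), rho1 ⟨x - alpha a, h1⟩ = 0 := by
  obtain ⟨a, h, hxa⟩ := tvr_res_one l alpha beta halg w hwa hwb VE rhoE hkerE V1 rho1 hinv phi
    ha hb jE hjE hJphi hJ hdeg x hx
  obtain ⟨h1, h2⟩ := ha a h
  have hx' : x ∈ V1.toSubring := hx
  have h1' : alpha a ∈ V1.toSubring := h1
  refine ⟨a, h, sub_mem hx' h1', ?_⟩
  have h3 : (⟨x - alpha a, sub_mem hx' h1'⟩ : V1.toSubring)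
      = ⟨x, hx⟩ - ⟨alpha a, h1⟩ := rfl
  rw [h3, map_sub, hxa, h2, sub_self]

end Core

end Fermat.Agent.S34
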