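import Fermat.Agent.S34.Val2Swap
import Fermat.Agent.S18.GaussAll

/-!
# S34, package A [VAL2], part 3: the two valuation rings of the level-`M q` function field

`K0` a field with an embedding into `ℚ̄`, `A0` a discrete valuation subring of `K0`, `q ∤ M` a
prime, `F = K0(X₀(M q))`:

* `va2V1 M q K0 A0`: the Gauss valuation ring of `F` (`S18.graOf`), `mem_va2V1`;
* `va2V2 M q hM K0 A0 := (va2V1 M q K0 A0).comap (va2Swap M q _ hM K0)`, `mem_va2V2`.
-/

set_option autoImplicit false

open AlgebraicCurve ModularCurve Fermat.Agent.S18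

namespace Fermat.Agent.S34

local notation "Qb" => AlgebraicClosure ℚ

section Defs

variable (M q : ℕ) [NeZero M] [hq : Fact q.Prime] (hM : ¬ q ∣ M)
  (K0 : Type*) [Field K0] [Algebra ℚ K0] [Algebra K0 Qb]
  (A0 : ValuationSubring K0) [IsDiscreteValuationRing ↥A0]

/-- The Gauss valuation ring of the level-`M q` function field over `K0`. -/
noncomputable def va2V1 :
    ValuationSubring ↥(laurentBaseChange K0 (modularFunctionFieldFull (M * q))) :=
  graOf (gra_decomp_dvr A0 (M * q))

omit [Algebra K0 Qb] in
theorem mem_va2V1 (x : ↥(laurentBaseChange K0 (modularFunctionFieldFull (M * q)))) :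
    x ∈ va2V1 M q K0 A0 ↔ (x : LaurentSeries K0) ∈ grV A0 := Iff.rfl

/-- The second valuation ring: the pull-back of the Gauss valuation ring under the swap. -/
noncomputable def va2V2 :
    ValuationSubring ↥(laurentBaseChange K0 (modularFunctionFieldFull (M * q))) :=
  (va2V1 M q K0 A0).comap (va2Swap M q hq.out hM K0)

theorem mem_va2V2 (x : ↥(laurentBaseChange K0 (modularFunctionFieldFull (M * q)))) :
    x ∈ va2V2 M q hM K0 A0 ↔ va2Swap M q hq.out hM K0 x ∈ va2V1 M q K0 A0 := Iff.rfl

end Defs

end Fermat.Agent.S34
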