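import Mathlib
import Fermat.Agent.S34.Val2Def
import Fermat.Agent.S34.TwoValSwapExh
import Fermat.Agent.S34.TwoValRes
import Fermat.Agent.S18.GaussMain
import Fermat.Agent.S18.CoreInstGauss
import Fermat.Agent.S37.TwoVal

/-!
# S34, package A [VAL2]: exhaustiveness and residue degree one at the `K0` level

`K0` a field with an embedding into `ℚ̄`, `A0` a discrete valuation subring of `K0` over the prime
`q ∤ M`, `E = K0(X₀(M))`, `F = K0(X₀(M q))`, `F` an `E`-algebra through `α = heckeAlphaBar`,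
`V₁ = va2V1` (Gauss), `V₂ = va2V2 = V₁.comap (va2Swap)`.  Given the degree `[F : α E] = q + 1`:

* `va2x_exh`: every valuation subring of `F` containing the `α`-image of the Gauss ring of `E`
  contains `V₁` or `V₂`;
* `va2x_exh_eq`: if moreover a uniformizer of `A0` is not invertible in it, it IS `V₁` or `V₂`;
* `va2x_res_one`, `va2x_res_one'`: residue degree one of `V₁` over `α` (Gauss ring of `E`), of
  `V₂` over `β` (Gauss ring of `E`);
* auxiliary: `va2x_comap_nonunits`, `va2x_mem_nonunits`, `va2x_tau_gen1`, `va2x_tau_gen2`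
  (`e = 1` for `V₁`, `V₂`), `va2x_arch`, `va2x_inf_le`.
-/

set_option autoImplicit false

noncomputable section

open AlgebraicCurve ModularCurve Fermat.Agent.S18 Fermat.Agent.S37

namespace Fermat.Agent.S34

local notation "Qb" => AlgebraicClosure ℚ

/-- non-units of the pull-back of a valuation subring under a field endomorphism -/
theorem va2x_comap_nonunits {F : Type*} [Field F] (V : ValuationSubring F) (w : F →+* F) (z : F) :
    z ∈ (V.comap w).nonunits ↔ w z ∈ V.nonunits := by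
  have key : ∀ (A : ValuationSubring F) (y : F), y ∈ A.nonunits ↔ (y = 0 ∨ y⁻¹ ∉ A) := by
    intro A y
    have h := A.inv_mem_nonunits_iff (x := y⁻¹)
    rw [inv_inv] at h
    rw [h, inv_eq_zero]
  rw [key, key, ValuationSubring.mem_comap, map_inv₀, map_eq_zero]

/-- an element of a valuation subring killed by a "residue map" is a non-unit -/
theorem va2x_mem_nonunits {F L : Type*} [Field F] [Field L] (V : ValuationSubring F)
    (rho : V.toSubring →+* L) (x : F) (hx : x ∈ V) (h0 : rho ⟨x, hx⟩ = 0) : x ∈ V.nonunits := by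
  by_contra hn
  have hinv : x⁻¹ ∈ V := tve_inv_mem hx hn
  have hx0 : x ≠ 0 := by
    rintro rfl
    exact hn (by rw [ValuationSubring.mem_nonunits_iff, map_zero]; exact zero_lt_one)
  have h1 : (⟨x, hx⟩ : V.toSubring) * ⟨x⁻¹, hinv⟩ = 1 := Subtype.ext (mul_inv_cancel₀ hx0)
  have h2 := congrArg rho h1
  rw [map_mul, map_one, h0, zero_mul] at h2
  exact zero_ne_one h2

section Main

variable (M q : ℕ) [NeZero M] [hq : Fact q.Prime] (hM : ¬ q ∣ M)
  (K0 : Type*) [Field K0] [Algebra ℚ K0] [Algebra K0 Qb]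
  (A0 : ValuationSubring K0) [IsDiscreteValuationRing ↥A0]

/-- the Gauss residue map on `va2V1` -/
def va2xRho1 : (va2V1 M q K0 A0).toSubring →+* LaurentSeries (IsLocalRing.ResidueField A0) :=
  (grRho A0).comp
    ((laurentBaseChange K0 (modularFunctionFieldFull (M * q))).val.toRingHom.restrict
      (va2V1 M q K0 A0).toSubring (grV A0) (fun _ hx => hx))

omit [Algebra K0 Qb] in
theorem va2xRho1_apply (x : ↥(laurentBaseChange K0 (modularFunctionFieldFull (M * q))))
    (hx : x ∈ va2V1 M q K0 A0) :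
    va2xRho1 M q K0 A0 ⟨x, hx⟩ = grRho A0 ⟨(x : LaurentSeries K0), hx⟩ := rfl

omit [Algebra K0 Qb] in
/-- `e = 1` for `V₁`: the non-units are the multiples of a uniformizer of `A0`. -/
theorem va2x_tau_gen1 (τ : A0) (hτ : Irreducible τ)
    (x : ↥(laurentBaseChange K0 (modularFunctionFieldFull (M * q))))
    (hx : x ∈ (va2V1 M q K0 A0).nonunits) :
    ∃ y ∈ va2V1 M q K0 A0,
      x = algebraMap K0 ↥(laurentBaseChange K0 (modularFunctionFieldFull (M * q))) (τ : K0) * y :=
  cinst_nonunits_eq_mul (va2V1 M q K0 A0) (fun y => mem_va2V1 M q K0 A0 y)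
    (fun _ hy => gdv_full_le A0 (M * q) hy) τ hτ.maximalIdeal_eq x hx

/-- `e = 1` for `V₂`. -/
theorem va2x_tau_gen2 (τ : A0) (hτ : Irreducible τ)
    (x : ↥(laurentBaseChange K0 (modularFunctionFieldFull (M * q))))
    (hx : x ∈ (va2V2 M q hM K0 A0).nonunits) :
    ∃ y ∈ va2V2 M q hM K0 A0,
      x = algebraMap K0 ↥(laurentBaseChange K0 (modularFunctionFieldFull (M * q))) (τ : K0) * y := by
  have hwx : va2Swap M q hq.out hM K0 x ∈ (va2V1 M q K0 A0).nonunits :=
    (va2x_comap_nonunits _ _ x).mp hx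
  obtain ⟨y, hy, hxy⟩ := va2x_tau_gen1 M q K0 A0 τ hτ _ hwx
  refine ⟨va2Swap M q hq.out hM K0 y, ?_, ?_⟩
  · rw [mem_va2V2, va2Swap_swap]
    exact hy
  · have h := congrArg (va2Swap M q hq.out hM K0) hxy
    rw [va2Swap_swap, map_mul, va2Swap_const] at h
    exact h

/-- `V₂` has rank one: a power of a non-unit kills every denominator. -/
theorem va2x_arch (x z : ↥(laurentBaseChange K0 (modularFunctionFieldFull (M * q))))
    (hz : z ∈ (va2V2 M q hM K0 A0).nonunits) :
    ∃ n : ℕ, x * z ^ n ∈ va2V2 M q hM K0 A0 := by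
  by_cases hx0 : x = 0
  · exact ⟨0, by rw [hx0, zero_mul]; exact zero_mem _⟩
  obtain ⟨τ, hτ⟩ := IsDiscreteValuationRing.exists_irreducible ↥A0
  have hwz : va2Swap M q hq.out hM K0 z ∈ (va2V1 M q K0 A0).nonunits :=
    (va2x_comap_nonunits _ _ z).mp hz
  obtain ⟨y, hy, hzy⟩ := va2x_tau_gen1 M q K0 A0 τ hτ _ hwz
  have hwx0 : va2Swap M q hq.out hM K0 x ≠ 0 := (map_ne_zero _).mpr hx0
  obtain ⟨c, u, hc, -, hxu⟩ := gra_decomp_dvr A0 (M * q)
    (va2Swap M q hq.out hM K0 x : LaurentSeries K0) (va2Swap M q hq.out hM K0 x).2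
    (fun h => hwx0 (Subtype.ext h))
  obtain ⟨n, hn⟩ : ∃ n : ℕ, c * (τ : K0) ^ n ∈ A0 := by
    rcases A0.mem_or_inv_mem c with h | h
    · exact ⟨0, by rw [pow_zero, mul_one]; exact h⟩
    · have hne : (⟨c⁻¹, h⟩ : A0) ≠ 0 := fun h0 => inv_ne_zero hc (congrArg Subtype.val h0)
      obtain ⟨n, v, hv⟩ := IsDiscreteValuationRing.eq_unit_mul_pow_irreducible hne hτ
      refine ⟨n, ?_⟩
      have h1 : c⁻¹ = ((v : A0) : K0) * (τ : K0) ^ n := by
        have := congrArg Subtype.val hv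
        simpa using this
      have hvv : ((v : A0) : K0) * (((v⁻¹ : (↥A0)ˣ) : A0) : K0) = 1 := by
        exact congrArg Subtype.val (Units.mul_inv v)
      have h2 : c * (τ : K0) ^ n = (((v⁻¹ : (↥A0)ˣ) : A0) : K0) := by
        calc c * (τ : K0) ^ n
            = c * (((v : A0) : K0) * (τ : K0) ^ n) * (((v⁻¹ : (↥A0)ˣ) : A0) : K0) := by
              rw [mul_comm ((v : A0) : K0), mul_assoc c, mul_assoc ((τ : K0) ^ n), hvv, mul_one]
          _ = (((v⁻¹ : (↥A0)ˣ) : A0) : K0) := by rw [← h1, mul_inv_cancel₀ hc, one_mul]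
      rw [h2]
      exact ((v⁻¹ : (↥A0)ˣ) : A0).2
  refine ⟨n, ?_⟩
  show va2Swap M q hq.out hM K0 (x * z ^ n) ∈ va2V1 M q K0 A0
  rw [map_mul, map_pow, hzy, mem_va2V1]
  have hcoe : ((va2Swap M q hq.out hM K0 x *
        (algebraMap K0 ↥(laurentBaseChange K0 (modularFunctionFieldFull (M * q))) (τ : K0) * y) ^ n :
        ↥(laurentBaseChange K0 (modularFunctionFieldFull (M * q)))) : LaurentSeries K0)
      = algebraMap K0 (LaurentSeries K0) (c * (τ : K0) ^ n)
        * ((u : LaurentSeries K0) * (y : LaurentSeries K0) ^ n) := by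
    have h1 : ((va2Swap M q hq.out hM K0 x *
        (algebraMap K0 ↥(laurentBaseChange K0 (modularFunctionFieldFull (M * q))) (τ : K0) * y) ^ n :
        ↥(laurentBaseChange K0 (modularFunctionFieldFull (M * q)))) : LaurentSeries K0)
        = (va2Swap M q hq.out hM K0 x : LaurentSeries K0)
          * (algebraMap K0 (LaurentSeries K0) (τ : K0) * (y : LaurentSeries K0)) ^ n := rfl
    rw [h1, hxu, map_mul, map_pow]
    ring
  rw [hcoe]
  exact (grV A0).mul_mem (gr_algebraMap_mem A0 ⟨_, hn⟩) ((grV A0).mul_mem u.2 (pow_mem hy n))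

omit [Algebra K0 Qb] [IsDiscreteValuationRing ↥A0] in
theorem va2x_hkerE (hA0 : A0.LiesOverPrime q) (a : ↥(grO A0 hA0 M hM))
    (ha : ((a : ↥(laurentBaseChange K0 (modularFunctionFieldFull M))))⁻¹ ∉ grO A0 hA0 M hM) :
    grRes A0 hA0 M hM a = 0 := by
  by_contra hne
  exact ha (gr_inv_mem A0 ⟨_, a.2⟩ hne)

omit [Algebra K0 Qb] in
theorem va2x_hinv (z : (va2V1 M q K0 A0).toSubring) (hz : va2xRho1 M q K0 A0 z ≠ 0) :
    ((z : ↥(laurentBaseChange K0 (modularFunctionFieldFull (M * q)))))⁻¹ ∈ va2V1 M q K0 A0 :=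
  gr_inv_mem A0 ⟨_, z.2⟩ hz

omit [Algebra K0 Qb] in
theorem va2x_ha (hA0 : A0.LiesOverPrime q)
    (a : ↥(laurentBaseChange K0 (modularFunctionFieldFull M)))
    (h : a ∈ grO A0 hA0 M hM) :
    ∃ h1 : (heckeAlphaBar K0 M q).toRingHom a ∈ va2V1 M q K0 A0,
      va2xRho1 M q K0 A0 ⟨(heckeAlphaBar K0 M q).toRingHom a, h1⟩ = grRes A0 hA0 M hM ⟨a, h⟩ := by
  have h1 : (heckeAlphaBar K0 M q).toRingHom a ∈ va2V1 M q K0 A0 := by
    show ((heckeAlphaBar K0 M q a : ↥(laurentBaseChange K0 (modularFunctionFieldFull (M * q)))) :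
      LaurentSeries K0) ∈ grV A0
    rw [coe_heckeAlphaBar]
    exact h
  exact ⟨h1, (va2xRho1_apply M q K0 A0 _ h1).trans
    ((congrArg (grRho A0) (Subtype.ext (coe_heckeAlphaBar M q a))).trans
      (grRes_apply A0 hA0 M hM ⟨a, h⟩).symm)⟩

omit [Algebra K0 Qb] in
theorem va2x_hb (hA0 : A0.LiesOverPrime q)
    (a : ↥(laurentBaseChange K0 (modularFunctionFieldFull M)))
    (h : a ∈ grO A0 hA0 M hM) :
    ∃ h1 : (heckeBetaBar K0 M q).toRingHom a ∈ va2V1 M q K0 A0,
      va2xRho1 M q K0 A0 ⟨(heckeBetaBar K0 M q).toRingHom a, h1⟩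
        = qExpand (IsLocalRing.ResidueField A0) q (grRes A0 hA0 M hM ⟨a, h⟩) := by
  have h1 : (heckeBetaBar K0 M q).toRingHom a ∈ va2V1 M q K0 A0 := by
    show ((heckeBetaBar K0 M q a : ↥(laurentBaseChange K0 (modularFunctionFieldFull (M * q)))) :
      LaurentSeries K0) ∈ grV A0
    rw [coe_heckeBetaBar]
    exact tv_qExpand_mem A0 q h
  refine ⟨h1, ?_⟩
  rw [va2xRho1_apply, grRes_apply]
  exact tv_grRho_qExpand A0 q h

/-- **Exhaustiveness at the `K0` level**: every valuation subring of the level-`M q` function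
field containing the `α`-image of the Gauss ring of level `M` contains `V₁` or `V₂`. -/
theorem va2x_exh (hA0 : A0.LiesOverPrime q)
    (hdeg : finrankAlong K0 (heckeAlphaBar K0 M q) = q + 1)
    (W : ValuationSubring ↥(laurentBaseChange K0 (modularFunctionFieldFull (M * q))))
    (hW : ∀ a : ↥(laurentBaseChange K0 (modularFunctionFieldFull M)),
      (a : LaurentSeries K0) ∈ grV A0 → heckeAlphaBar K0 M q a ∈ W) :
    va2V1 M q K0 A0 ≤ W ∨ va2V2 M q hM K0 A0 ≤ W := by
  let _ : Algebra ↥(laurentBaseChange K0 (modularFunctionFieldFull M))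
      ↥(laurentBaseChange K0 (modularFunctionFieldFull (M * q))) :=
    algebraAlong (heckeAlphaBar K0 M q)
  have hcharA : CharP (IsLocalRing.ResidueField A0) q := grc_charP A0 q hA0
  have hchar := tvf_charP (k := IsLocalRing.ResidueField A0) q
  have hJmem : grJ K0 M ∈ grO A0 hA0 M hM := gr_jqModC_mem A0
  have hJres : grRes A0 hA0 M hM ⟨_, hJmem⟩ = jqModC (IsLocalRing.ResidueField A0) :=
    grRho_jqModC A0 _
  exact tvx_exh q (heckeAlphaBar K0 M q).toRingHom (heckeBetaBar K0 M q).toRingHom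
    (fun _ => rfl) (va2Swap M q hq.out hM K0) (va2Swap_alpha M q hq.out hM K0)
    (va2Swap_beta M q hq.out hM K0)
    (grO A0 hA0 M hM) (grRes A0 hA0 M hM) (va2x_hkerE M q hM K0 A0 hA0)
    (va2V1 M q K0 A0) (va2xRho1 M q K0 A0) (va2x_hinv M q K0 A0)
    (qExpand (IsLocalRing.ResidueField A0) q)
    (va2x_ha M q hM K0 A0 hA0) (va2x_hb M q hM K0 A0 hA0)
    (grJ K0 M) hJmem (by rw [hJres]; exact tvf_jq_pow q) (by rw [hJres]; exact tvf_jq_not_range q)
    hdeg W (fun a ha => hW a ha)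

/-- **Exhaustiveness at the `K0` level, equality form**: a valuation subring of the level-`M q`
function field containing the `α`-image of the Gauss ring of level `M`, in which a uniformizer of
`A0` is not invertible, is `V₁` or `V₂`. -/
theorem va2x_exh_eq (hA0 : A0.LiesOverPrime q)
    (hdeg : finrankAlong K0 (heckeAlphaBar K0 M q) = q + 1) (τ : A0) (hτ : Irreducible τ)
    (W : ValuationSubring ↥(laurentBaseChange K0 (modularFunctionFieldFull (M * q))))
    (hW : ∀ a : ↥(laurentBaseChange K0 (modularFunctionFieldFull M)),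
      (a : LaurentSeries K0) ∈ grV A0 → heckeAlphaBar K0 M q a ∈ W)
    (hτW : (algebraMap K0 ↥(laurentBaseChange K0 (modularFunctionFieldFull (M * q)))
      (τ : K0))⁻¹ ∉ W) :
    W = va2V1 M q K0 A0 ∨ W = va2V2 M q hM K0 A0 := by
  have hτ0 : algebraMap K0 ↥(laurentBaseChange K0 (modularFunctionFieldFull (M * q))) (τ : K0)
      ≠ 0 := by
    rw [Ne, map_eq_zero]
    intro h0
    exact hτ.ne_zero (Subtype.ext h0)
  rcases va2x_exh M q hM K0 A0 hA0 hdeg W hW with h | h
  · refine Or.inl (tve_eq_of_le _ W h _ (fun x hx => ?_) hτW)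
    obtain ⟨y, hy, hxy⟩ := va2x_tau_gen1 M q K0 A0 τ hτ x hx
    have hxy' : x * (algebraMap K0 ↥(laurentBaseChange K0 (modularFunctionFieldFull (M * q)))
        (τ : K0))⁻¹ = y := by
      rw [hxy, mul_right_comm, mul_inv_cancel₀ hτ0, one_mul]
    rw [hxy']
    exact hy
  · refine Or.inr (tve_eq_of_le _ W h _ (fun x hx => ?_) hτW)
    obtain ⟨y, hy, hxy⟩ := va2x_tau_gen2 M q hM K0 A0 τ hτ x hx
    have hxy' : x * (algebraMap K0 ↥(laurentBaseChange K0 (modularFunctionFieldFull (M * q)))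
        (τ : K0))⁻¹ = y := by
      rw [hxy, mul_right_comm, mul_inv_cancel₀ hτ0, one_mul]
    rw [hxy']
    exact hy

/-- `V₁ ∩ V₂` is contained in every valuation subring containing the `α`-image of the Gauss ring
of level `M`. -/
theorem va2x_inf_le (hA0 : A0.LiesOverPrime q)
    (hdeg : finrankAlong K0 (heckeAlphaBar K0 M q) = q + 1)
    (W : ValuationSubring ↥(laurentBaseChange K0 (modularFunctionFieldFull (M * q))))
    (hW : ∀ a : ↥(laurentBaseChange K0 (modularFunctionFieldFull M)),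
      (a : LaurentSeries K0) ∈ grV A0 → heckeAlphaBar K0 M q a ∈ W)
    (u : ↥(laurentBaseChange K0 (modularFunctionFieldFull (M * q))))
    (hu₁ : u ∈ va2V1 M q K0 A0) (hu₂ : u ∈ va2V2 M q hM K0 A0) : u ∈ W := by
  let _ : Algebra ↥(laurentBaseChange K0 (modularFunctionFieldFull M))
      ↥(laurentBaseChange K0 (modularFunctionFieldFull (M * q))) :=
    algebraAlong (heckeAlphaBar K0 M q)
  have hcharA : CharP (IsLocalRing.ResidueField A0) q := grc_charP A0 q hA0
  have hchar := tvf_charP (k := IsLocalRing.ResidueField A0) q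
  have hJmem : grJ K0 M ∈ grO A0 hA0 M hM := gr_jqModC_mem A0
  have hJres : grRes A0 hA0 M hM ⟨_, hJmem⟩ = jqModC (IsLocalRing.ResidueField A0) :=
    grRho_jqModC A0 _
  exact tvx_inf_le q (heckeAlphaBar K0 M q).toRingHom (heckeBetaBar K0 M q).toRingHom
    (fun _ => rfl) (va2Swap M q hq.out hM K0) (va2Swap_alpha M q hq.out hM K0)
    (va2Swap_beta M q hq.out hM K0)
    (grO A0 hA0 M hM) (grRes A0 hA0 M hM) (va2x_hkerE M q hM K0 A0 hA0)
    (va2V1 M q K0 A0) (va2xRho1 M q K0 A0) (va2x_hinv M q K0 A0)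
    (qExpand (IsLocalRing.ResidueField A0) q)
    (va2x_ha M q hM K0 A0 hA0) (va2x_hb M q hM K0 A0 hA0)
    (grJ K0 M) hJmem (by rw [hJres]; exact tvf_jq_pow q) (by rw [hJres]; exact tvf_jq_not_range q)
    hdeg W (fun a ha => hW a ha) u hu₁ hu₂

include hM in
/-- **Residue degree one for `V₁` over `α`**: every element of `V₁` is congruent modulo `𝔪_{V₁}`
to `α a` for a Gauss-integral `a` of level `M`. -/
theorem va2x_res_one (hA0 : A0.LiesOverPrime q)
    (hdeg : finrankAlong K0 (heckeAlphaBar K0 M q) = q + 1)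
    (x : ↥(laurentBaseChange K0 (modularFunctionFieldFull (M * q))))
    (hx : x ∈ va2V1 M q K0 A0) :
    ∃ a : ↥(laurentBaseChange K0 (modularFunctionFieldFull M)),
      (a : LaurentSeries K0) ∈ grV A0 ∧
        x - heckeAlphaBar K0 M q a ∈ (va2V1 M q K0 A0).nonunits := by
  let _ : Algebra ↥(laurentBaseChange K0 (modularFunctionFieldFull M))
      ↥(laurentBaseChange K0 (modularFunctionFieldFull (M * q))) :=
    algebraAlong (heckeAlphaBar K0 M q)
  have hcharA : CharP (IsLocalRing.ResidueField A0) q := grc_charP A0 q hA0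
  have hchar := tvf_charP (k := IsLocalRing.ResidueField A0) q
  have hJmem : grJ K0 M ∈ grO A0 hA0 M hM := gr_jqModC_mem A0
  have hJres : grRes A0 hA0 M hM ⟨_, hJmem⟩ = jqModC (IsLocalRing.ResidueField A0) :=
    grRho_jqModC A0 _
  obtain ⟨a, ha, h1, h0⟩ := tvr_res_one' q (heckeAlphaBar K0 M q).toRingHom
    (heckeBetaBar K0 M q).toRingHom
    (fun _ => rfl) (va2Swap M q hq.out hM K0) (va2Swap_alpha M q hq.out hM K0)
    (va2Swap_beta M q hq.out hM K0)
    (grO A0 hA0 M hM) (grRes A0 hA0 M hM) (va2x_hkerE M q hM K0 A0 hA0)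
    (va2V1 M q K0 A0) (va2xRho1 M q K0 A0) (va2x_hinv M q K0 A0)
    (qExpand (IsLocalRing.ResidueField A0) q)
    (va2x_ha M q hM K0 A0 hA0) (va2x_hb M q hM K0 A0 hA0)
    (grJ K0 M) hJmem (by rw [hJres]; exact tvf_jq_pow q) (by rw [hJres]; exact tvf_jq_not_range q)
    hdeg x hx
  exact ⟨a, ha, va2x_mem_nonunits (va2V1 M q K0 A0) (va2xRho1 M q K0 A0) _ h1 h0⟩

/-- **Residue degree one for `V₂` over `β`**: every element of `V₂` is congruent modulo `𝔪_{V₂}`
to `β a` for a Gauss-integral `a` of level `M`. -/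
theorem va2x_res_one' (hA0 : A0.LiesOverPrime q)
    (hdeg : finrankAlong K0 (heckeAlphaBar K0 M q) = q + 1)
    (x : ↥(laurentBaseChange K0 (modularFunctionFieldFull (M * q))))
    (hx : x ∈ va2V2 M q hM K0 A0) :
    ∃ a : ↥(laurentBaseChange K0 (modularFunctionFieldFull M)),
      (a : LaurentSeries K0) ∈ grV A0 ∧
        x - heckeBetaBar K0 M q a ∈ (va2V2 M q hM K0 A0).nonunits := by
  obtain ⟨a, ha, hnon⟩ := va2x_res_one M q hM K0 A0 hA0 hdeg (va2Swap M q hq.out hM K0 x) hx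
  refine ⟨a, ha, ?_⟩
  show x - heckeBetaBar K0 M q a ∈ ((va2V1 M q K0 A0).comap (va2Swap M q hq.out hM K0)).nonunits
  rw [va2x_comap_nonunits, map_sub, va2Swap_beta]
  exact hnon

end Main

end Fermat.Agent.S34
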