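import Fermat.Agent.S34.Val2Def
import Fermat.Agent.S34.Val2Exh
import Fermat.Agent.S34.Val2Deg
import Fermat.Agent.S34.TwoValExh
import Fermat.Agent.S34.Charts2
import Fermat.Agent.S18.CoreInst
import Fermat.Agent.S37.TwoVal

/-!
# S34, package A [VAL2], instantiation: the inputs of the chart package and of INST-ABS

`K0` a field with an embedding into `ℚ̄`, `A0` a discrete valuation subring of `K0` over the
prime `q ∤ M`, `F = K0(X₀(M q))`, `V₁ = va2V1` (Gauss), `V₂ = va2V2 = V₁.comap (va2Swap)`,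
`t` the chart coordinate `(h - c1) / (h - c0)` of a Hauptmodul of level `a2 ∣ M`.

For `c2i_chart` (package B):
* `va2_hA2`     : `A0 ⊆ V₂`;
* `va2_htaugen2`: `𝔪_{V₂} = τ V₂`;
* `va2_htV2`, `va2_htV2'`: `t, t⁻¹ ∈ V₂`;
* `va2_hex`     : every valuation subring of `F` with the trace of `V₁` on `K0(t)` is `V₁` or `V₂`
  (via `va2x_exh`, the degree `va2d_finrank`, and S18's uniqueness of the Gauss valuation at
  level `M`).

For `s34ib_main` (INST-ABS): `va2_hwA`, `va2_hwV` (the swap `va2SwapEquiv` fixes `A0` and maps the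
non-units of `V₁` to non-units of `V₂`), `va2_hwV'`.

Auxiliary: `va2_mem_nonunits_comap`, `va2_mem_nonunits_V2`, `va2_taugen1`, `va2_taugen2`,
`va2_hg1`, `va2_hg2`, `va2_tau_inv_notMem`, `va2_alpha_t`, `va2_same_tau`, `va2_same_comap`,
`va2_hex_of_exh`.
-/

set_option autoImplicit false

open AlgebraicCurve ModularCurve Polynomial Fermat.Agent.S18 Fermat.Agent.S28
open scoped IntermediateField

namespace Fermat.Agent.S34

local notation "Qb" => AlgebraicClosure ℚ

section Comap

variable {F : Type*} [Field F]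

/-- non-units of a pulled-back valuation subring -/
theorem va2_mem_nonunits_comap (V : ValuationSubring F) (w : F →+* F) (x : F) :
    x ∈ (V.comap w).nonunits ↔ w x ∈ V.nonunits := by
  have key : ∀ (A : ValuationSubring F) (y : F), y ∈ A.nonunits ↔ y = 0 ∨ y⁻¹ ∉ A := by
    intro A y
    have h := A.inv_mem_nonunits_iff (x := y⁻¹)
    rw [inv_inv, inv_eq_zero] at h
    exact h
  rw [key, key, ValuationSubring.mem_comap, map_inv₀, map_eq_zero]

end Comap

section Inst

variable {K0 : Type*} [Field K0] [Algebra ℚ K0] [Algebra K0 Qb] (A0 : ValuationSubring K0)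
  [IsDiscreteValuationRing ↥A0]
  (M q : ℕ) [NeZero M] [hq : Fact q.Prime] (hM : ¬ q ∣ M)

/-- the swap exchanges the non-units of `V₁` and `V₂` -/
theorem va2_swap_nonunits (x : ↥(laurentBaseChange K0 (modularFunctionFieldFull (M * q))))
    (hx : x ∈ (va2V1 M q K0 A0).nonunits) :
    va2Swap M q hq.out hM K0 x ∈ (va2V2 M q hM K0 A0).nonunits := by
  rw [va2V2, va2_mem_nonunits_comap, va2Swap_swap]
  exact hx

theorem va2_mem_nonunits_V2 (x : ↥(laurentBaseChange K0 (modularFunctionFieldFull (M * q)))) :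
    x ∈ (va2V2 M q hM K0 A0).nonunits ↔
      va2Swap M q hq.out hM K0 x ∈ (va2V1 M q K0 A0).nonunits := by
  rw [va2V2, va2_mem_nonunits_comap]

/-- constants of `A0` lie in `V₂` -/
theorem va2_const_mem_V2 (a : A0) :
    algebraMap K0 ↥(laurentBaseChange K0 (modularFunctionFieldFull (M * q))) (a : K0)
      ∈ va2V2 M q hM K0 A0 := by
  rw [mem_va2V2, va2Swap_const, mem_va2V1]
  exact gr_algebraMap_mem A0 a

/-- `hA₂` of `c2i_chart` -/
theorem va2_hA2 [Algebra A0 ↥(laurentBaseChange K0 (modularFunctionFieldFull (M * q)))]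
    [IsScalarTower A0 K0 ↥(laurentBaseChange K0 (modularFunctionFieldFull (M * q)))] (a : A0) :
    algebraMap A0 ↥(laurentBaseChange K0 (modularFunctionFieldFull (M * q))) a
      ∈ va2V2 M q hM K0 A0 := by
  rw [IsScalarTower.algebraMap_apply A0 K0
    ↥(laurentBaseChange K0 (modularFunctionFieldFull (M * q))) a]
  exact va2_const_mem_V2 A0 M q hM a

omit [Algebra K0 Qb] in
/-- `e = 1` for `V₁`: its non-units are the multiples of a uniformizer of `A0` -/
theorem va2_taugen1 (τ : A0) (hτ : Irreducible τ)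
    (x : ↥(laurentBaseChange K0 (modularFunctionFieldFull (M * q))))
    (hx : x ∈ (va2V1 M q K0 A0).nonunits) :
    ∃ y ∈ va2V1 M q K0 A0,
      x = algebraMap K0 ↥(laurentBaseChange K0 (modularFunctionFieldFull (M * q))) (τ : K0) * y :=
  cinst_nonunits_eq_mul (va2V1 M q K0 A0) (fun _ => Iff.rfl)
    (fun _ hz => gdv_full_le A0 (M * q) hz) τ hτ.maximalIdeal_eq x hx

/-- `e = 1` for `V₂` -/
theorem va2_taugen2 (τ : A0) (hτ : Irreducible τ)
    (x : ↥(laurentBaseChange K0 (modularFunctionFieldFull (M * q))))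
    (hx : x ∈ (va2V2 M q hM K0 A0).nonunits) :
    ∃ y ∈ va2V2 M q hM K0 A0,
      x = algebraMap K0 ↥(laurentBaseChange K0 (modularFunctionFieldFull (M * q))) (τ : K0) * y := by
  obtain ⟨y, hy, hxy⟩ := va2_taugen1 A0 M q τ hτ _ ((va2_mem_nonunits_V2 A0 M q hM x).mp hx)
  refine ⟨va2Swap M q hq.out hM K0 y, ?_, ?_⟩
  · rw [mem_va2V2, va2Swap_swap]
    exact hy
  · have h := congrArg (va2Swap M q hq.out hM K0) hxy
    rw [va2Swap_swap, map_mul, va2Swap_const] at h
    exact h

/-- `hτgen₂` of `c2i_chart` -/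
theorem va2_htaugen2 [Algebra A0 ↥(laurentBaseChange K0 (modularFunctionFieldFull (M * q)))]
    [IsScalarTower A0 K0 ↥(laurentBaseChange K0 (modularFunctionFieldFull (M * q)))]
    (τ : A0) (hτ : Irreducible τ)
    (x : ↥(laurentBaseChange K0 (modularFunctionFieldFull (M * q))))
    (hx : x ∈ (va2V2 M q hM K0 A0).nonunits) :
    x * (algebraMap A0 ↥(laurentBaseChange K0 (modularFunctionFieldFull (M * q))) τ)⁻¹
      ∈ va2V2 M q hM K0 A0 := by
  obtain ⟨y, hy, hxy⟩ := va2_taugen2 A0 M q hM τ hτ x hx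
  have hτ0 : algebraMap K0 ↥(laurentBaseChange K0 (modularFunctionFieldFull (M * q))) (τ : K0)
      ≠ 0 := by
    rw [Ne, map_eq_zero]
    intro h0
    exact hτ.ne_zero (Subtype.ext h0)
  have e : x * (algebraMap A0 ↥(laurentBaseChange K0 (modularFunctionFieldFull (M * q))) τ)⁻¹
      = y := by
    rw [IsScalarTower.algebraMap_apply A0 K0
      ↥(laurentBaseChange K0 (modularFunctionFieldFull (M * q))) τ, hxy]
    show algebraMap K0 ↥(laurentBaseChange K0 (modularFunctionFieldFull (M * q))) (τ : K0) * y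
      * (algebraMap K0 ↥(laurentBaseChange K0 (modularFunctionFieldFull (M * q))) (τ : K0))⁻¹ = y
    rw [mul_right_comm, mul_inv_cancel₀ hτ0, one_mul]
  rw [e]
  exact hy

omit [Algebra K0 Qb] in
/-- `τ` is not invertible in `V₁` -/
theorem va2_tau_inv_notMem (τ : A0) (hτ : Irreducible τ) :
    (algebraMap K0 ↥(laurentBaseChange K0 (modularFunctionFieldFull (M * q))) (τ : K0))⁻¹
      ∉ va2V1 M q K0 A0 := by
  rw [← map_inv₀, mem_va2V1]
  intro h
  have h1 : ((τ : K0))⁻¹ ∈ A0 := (gr_algebraMap_mem_iff A0 _).mp h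
  apply hτ.not_isUnit
  refine isUnit_iff_exists_inv.mpr ⟨⟨_, h1⟩, Subtype.ext ?_⟩
  show (τ : K0) * (τ : K0)⁻¹ = 1
  exact mul_inv_cancel₀ (fun h0 => hτ.ne_zero (Subtype.ext h0))

variable {a2 : ℕ} (H : HauptRec a2 q) (ha2 : a2 ∣ M)

include ha2 in
omit [Algebra K0 Qb] in
/-- the chart coordinate of level `M q` comes from level `M` -/
theorem va2_alpha_t (c0 c1 : K0)
    (t : ↥(laurentBaseChange K0 (modularFunctionFieldFull (M * q))))
    (ht : (t : LaurentSeries K0) = cinstU H K0 c0 c1) :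
    t = heckeAlphaBar K0 M q ⟨cinstU H K0 c0 c1, cinstU_mem H K0 ha2 c0 c1⟩ := by
  apply Subtype.ext
  rw [coe_heckeAlphaBar]
  exact ht

include ha2 in
/-- `htV₂` of `c2i_chart`: the chart coordinate lies in `V₂` -/
theorem va2_htV2 (c0 c1 : A0)
    (t : ↥(laurentBaseChange K0 (modularFunctionFieldFull (M * q))))
    (ht : (t : LaurentSeries K0) = cinstU H K0 (c0 : K0) (c1 : K0)) :
    t ∈ va2V2 M q hM K0 A0 := by
  rw [va2_alpha_t M q H ha2 _ _ t ht, mem_va2V2, va2Swap_alpha, mem_va2V1, coe_heckeBetaBar]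
  exact Fermat.Agent.S37.tv_qExpand_mem A0 q (cinstU_mem_grV H A0 c0 c1)

include ha2 in
/-- `htV₂'` of `c2i_chart`: the inverse of the chart coordinate lies in `V₂` -/
theorem va2_htV2' (c0 c1 : A0)
    (t : ↥(laurentBaseChange K0 (modularFunctionFieldFull (M * q))))
    (ht : (t : LaurentSeries K0) = cinstU H K0 (c0 : K0) (c1 : K0)) :
    t⁻¹ ∈ va2V2 M q hM K0 A0 := by
  refine va2_htV2 A0 M q hM H ha2 c1 c0 t⁻¹ ?_
  rw [IntermediateField.coe_inv, ht, cinstU_inv]

omit [Algebra K0 Qb] in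
/-- `𝔪_{V₁} = τ V₁`, in the shape of `tve_eq_of_le` -/
theorem va2_hg1 (τ : A0) (hτ : Irreducible τ)
    (x : ↥(laurentBaseChange K0 (modularFunctionFieldFull (M * q))))
    (hx : x ∈ (va2V1 M q K0 A0).nonunits) :
    x * (algebraMap K0 ↥(laurentBaseChange K0 (modularFunctionFieldFull (M * q)))
      (τ : K0))⁻¹ ∈ va2V1 M q K0 A0 := by
  obtain ⟨y, hy, hxy⟩ := va2_taugen1 A0 M q τ hτ x hx
  have hτ0 : algebraMap K0 ↥(laurentBaseChange K0 (modularFunctionFieldFull (M * q)))
      (τ : K0) ≠ 0 := by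
    rw [Ne, map_eq_zero]
    intro h0
    exact hτ.ne_zero (Subtype.ext h0)
  rw [hxy, mul_right_comm, mul_inv_cancel₀ hτ0, one_mul]
  exact hy

/-- `𝔪_{V₂} = τ V₂`, in the shape of `tve_eq_of_le` -/
theorem va2_hg2 (τ : A0) (hτ : Irreducible τ)
    (x : ↥(laurentBaseChange K0 (modularFunctionFieldFull (M * q))))
    (hx : x ∈ (va2V2 M q hM K0 A0).nonunits) :
    x * (algebraMap K0 ↥(laurentBaseChange K0 (modularFunctionFieldFull (M * q)))
      (τ : K0))⁻¹ ∈ va2V2 M q hM K0 A0 := by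
  obtain ⟨y, hy, hxy⟩ := va2_taugen2 A0 M q hM τ hτ x hx
  have hτ0 : algebraMap K0 ↥(laurentBaseChange K0 (modularFunctionFieldFull (M * q)))
      (τ : K0) ≠ 0 := by
    rw [Ne, map_eq_zero]
    intro h0
    exact hτ.ne_zero (Subtype.ext h0)
  rw [hxy, mul_right_comm, mul_inv_cancel₀ hτ0, one_mul]
  exact hy

omit [Algebra K0 Qb] in
/-- a valuation subring with the trace of `V₁` on `K0(t)` does not contain `τ⁻¹` -/
theorem va2_same_tau (τ : A0) (hτ : Irreducible τ)
    (t : ↥(laurentBaseChange K0 (modularFunctionFieldFull (M * q))))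
    (O' : ValuationSubring ↥(laurentBaseChange K0 (modularFunctionFieldFull (M * q))))
    (hO' : ChtSame K0 (va2V1 M q K0 A0) t O') :
    (algebraMap K0 ↥(laurentBaseChange K0 (modularFunctionFieldFull (M * q)))
      (τ : K0))⁻¹ ∉ O' := by
  intro h
  have h1 := hO' (C ((τ : K0))⁻¹) 1 (by rw [map_one]; exact one_ne_zero)
  rw [aeval_C, map_one, div_one, map_inv₀] at h1
  exact va2_tau_inv_notMem A0 M q τ hτ (h1.mp h)

include ha2 in
omit [Algebra K0 Qb] in
/-- the trace on level `M` of a valuation subring with the trace of `V₁` on `K0(t)` is the Gauss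
valuation ring of level `M` -/
theorem va2_same_comap (hA0 : A0.LiesOverPrime q)
    (c0 c1 : A0) (hc : IsLocalRing.residue A0 c0 ≠ IsLocalRing.residue A0 c1)
    (t : ↥(laurentBaseChange K0 (modularFunctionFieldFull (M * q))))
    (ht : (t : LaurentSeries K0) = cinstU H K0 (c0 : K0) (c1 : K0))
    (O' : ValuationSubring ↥(laurentBaseChange K0 (modularFunctionFieldFull (M * q))))
    (hO' : ChtSame K0 (va2V1 M q K0 A0) t O') :
    O'.comap (heckeAlphaBar K0 M q).toRingHom = grO A0 hA0 M hM := by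
  have hc' : (c0 : K0) ≠ (c1 : K0) := fun h => hc (by rw [Subtype.ext h])
  have htα : t = heckeAlphaBar K0 M q
      ⟨cinstU H K0 (c0 : K0) (c1 : K0), cinstU_mem H K0 ha2 _ _⟩ :=
    va2_alpha_t M q H ha2 _ _ t ht
  have e : ∀ p : K0[X], heckeAlphaBar K0 M q
      (aeval (⟨cinstU H K0 (c0 : K0) (c1 : K0), cinstU_mem H K0 ha2 _ _⟩ :
        ↥(laurentBaseChange K0 (modularFunctionFieldFull M))) p) = aeval t p := by
    intro p
    rw [htα, aeval_algHom_apply]
  have huniqM := cht_huniq_of_sub (K0 := K0) (L := ↥K0⟮grJ K0 M⟯) (grO A0 hA0 M hM)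
    (⟨cinstU H K0 (c0 : K0) (c1 : K0), cinstU_mem H K0 ha2 _ _⟩ :
        ↥(laurentBaseChange K0 (modularFunctionFieldFull M)))
    (cinst_adjoin_grJ_le M H _ _ hc' _ rfl) (gr_unique_j A0 hA0 M hM)
  apply huniqM
  intro p r hr
  have hr' : aeval t r ≠ 0 := by
    rw [← e]
    exact (_root_.map_ne_zero _).mpr hr
  have h1 : heckeAlphaBar K0 M q
      (aeval (⟨cinstU H K0 (c0 : K0) (c1 : K0), cinstU_mem H K0 ha2 _ _⟩ :
        ↥(laurentBaseChange K0 (modularFunctionFieldFull M))) p /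
       aeval (⟨cinstU H K0 (c0 : K0) (c1 : K0), cinstU_mem H K0 ha2 _ _⟩ :
        ↥(laurentBaseChange K0 (modularFunctionFieldFull M))) r) = aeval t p / aeval t r := by
    rw [map_div₀, e, e]
  rw [ValuationSubring.mem_comap, AlgHom.toRingHom_eq_coe, RingHom.coe_coe, h1, hO' p r hr',
    mem_va2V1, mem_grO_iff, ← h1, coe_heckeAlphaBar]

include ha2 in
/-- `hex` of `c2i_chart` from exhaustiveness over the Gauss ring of level `M`: every valuation
subring of the level-`M q` function field with the trace of `V₁` on `K0(t)` is `V₁` or `V₂`. -/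
theorem va2_hex_of_exh (hA0 : A0.LiesOverPrime q)
    (hexh : ∀ W : ValuationSubring ↥(laurentBaseChange K0 (modularFunctionFieldFull (M * q))),
      (∀ a : ↥(laurentBaseChange K0 (modularFunctionFieldFull M)),
        (a : LaurentSeries K0) ∈ grV A0 → heckeAlphaBar K0 M q a ∈ W) →
      va2V1 M q K0 A0 ≤ W ∨ va2V2 M q hM K0 A0 ≤ W)
    (c0 c1 : A0) (hc : IsLocalRing.residue A0 c0 ≠ IsLocalRing.residue A0 c1)
    (t : ↥(laurentBaseChange K0 (modularFunctionFieldFull (M * q))))
    (ht : (t : LaurentSeries K0) = cinstU H K0 (c0 : K0) (c1 : K0))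
    (τ : A0) (hτ : Irreducible τ)
    (O' : ValuationSubring ↥(laurentBaseChange K0 (modularFunctionFieldFull (M * q))))
    (hO' : ChtSame K0 (va2V1 M q K0 A0) t O') :
    O' = va2V1 M q K0 A0 ∨ O' = va2V2 M q hM K0 A0 := by
  have hOM := va2_same_comap A0 M q hM H ha2 hA0 c0 c1 hc t ht O' hO'
  have hW : ∀ a : ↥(laurentBaseChange K0 (modularFunctionFieldFull M)),
      (a : LaurentSeries K0) ∈ grV A0 → heckeAlphaBar K0 M q a ∈ O' := by
    intro a ha
    have h1 : a ∈ O'.comap (heckeAlphaBar K0 M q).toRingHom := by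
      rw [hOM]
      exact ha
    rw [ValuationSubring.mem_comap, AlgHom.toRingHom_eq_coe, RingHom.coe_coe] at h1
    exact h1
  have hτO' := va2_same_tau A0 M q τ hτ t O' hO'
  rcases hexh O' hW with h | h
  · exact Or.inl (tve_eq_of_le (va2V1 M q K0 A0) O' h _ (va2_hg1 A0 M q τ hτ) hτO')
  · exact Or.inr (tve_eq_of_le (va2V2 M q hM K0 A0) O' h _ (va2_hg2 A0 M q hM τ hτ) hτO')

include ha2 in
/-- **`hex` of `c2i_chart`**: every valuation subring of the level-`M q` function field with the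
trace of `V₁` on `K0(t)` is `V₁` or `V₂`. -/
theorem va2_hex (hA0 : A0.LiesOverPrime q)
    (c0 c1 : A0) (hc : IsLocalRing.residue A0 c0 ≠ IsLocalRing.residue A0 c1)
    (t : ↥(laurentBaseChange K0 (modularFunctionFieldFull (M * q))))
    (ht : (t : LaurentSeries K0) = cinstU H K0 (c0 : K0) (c1 : K0))
    (O' : ValuationSubring ↥(laurentBaseChange K0 (modularFunctionFieldFull (M * q))))
    (hO' : ChtSame K0 (va2V1 M q K0 A0) t O') :
    O' = va2V1 M q K0 A0 ∨ O' = va2V2 M q hM K0 A0 := by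
  obtain ⟨τ, hτ⟩ := IsDiscreteValuationRing.exists_irreducible A0
  exact va2_hex_of_exh A0 M q hM H ha2 hA0
    (fun W hW => va2x_exh M q hM K0 A0 hA0 (va2d_finrank K0 M hq.out hM) W hW)
    c0 c1 hc t ht τ hτ O' hO'

/-- `hwA` of `s34ib_main`: the swap fixes the constants of `A0` -/
theorem va2_hwA [Algebra A0 ↥(laurentBaseChange K0 (modularFunctionFieldFull (M * q)))]
    [IsScalarTower A0 K0 ↥(laurentBaseChange K0 (modularFunctionFieldFull (M * q)))] (a : A0) :
    va2SwapEquiv M q hq.out hM K0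
        (algebraMap A0 ↥(laurentBaseChange K0 (modularFunctionFieldFull (M * q))) a)
      = algebraMap A0 ↥(laurentBaseChange K0 (modularFunctionFieldFull (M * q))) a := by
  rw [IsScalarTower.algebraMap_apply A0 K0
    ↥(laurentBaseChange K0 (modularFunctionFieldFull (M * q))) a, va2SwapEquiv_apply,
    va2Swap_const]

/-- `hwV` of `s34ib_main`: the swap maps the non-units of `V₁` to non-units of `V₂` -/
theorem va2_hwV (x : ↥(laurentBaseChange K0 (modularFunctionFieldFull (M * q))))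
    (hx : x ∈ (va2V1 M q K0 A0).nonunits) :
    va2SwapEquiv M q hq.out hM K0 x ∈ (va2V2 M q hM K0 A0).nonunits :=
  va2_swap_nonunits A0 M q hM x hx

/-- the swap maps the non-units of `V₂` to non-units of `V₁` -/
theorem va2_hwV' (x : ↥(laurentBaseChange K0 (modularFunctionFieldFull (M * q))))
    (hx : x ∈ (va2V2 M q hM K0 A0).nonunits) :
    va2SwapEquiv M q hq.out hM K0 x ∈ (va2V1 M q K0 A0).nonunits :=
  (va2_mem_nonunits_V2 A0 M q hM x).mp hx

end Inst

end Fermat.Agent.S34
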