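import Mathlib
import Fermat.Agent.S18.CoreInst
import Fermat.Agent.S18.CechChart
import Fermat.Agent.S34.Charts2Inst
import Fermat.Agent.S34.Val2Def
import Fermat.Agent.S34.Val2Exh
import Fermat.Agent.S34.Val2Deg

/-!
# S34, package B1-COMP: the residue-degree-one hypothesis `hres` at the `K0` level

`K0` a field with an embedding into `ℚ̄`, `A0` a discrete valuation subring of `K0` over `q`,
`q ∤ M`, `F_M`, `F_{Mq}` the function fields of `X₀(M)`, `X₀(M q)` over `K0`, `α, β` the two
degeneracy maps, `t` the Hauptmodul chart coordinate of level `M`.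

* `va2r_frac`: the Gauss valuation ring of `F_M` is the localization of the chart `chtO A0 {t}`
  at `τ`: every Gauss-integral `x` is `a / s` with `a, s` in the chart and `s` a Gauss unit;
* `va2r_nonunits_comap`: the non-units of a pulled-back valuation subring;
* `va2r_hres1`: the hypothesis `hres` of `c2l_main_any` / `s34c_lift` for `V₁ = va2V1`, the
  level-`M` chart and `α`, from residue degree one over the Gauss ring of level `M` (`hres0`);
* `va2r_hres2`: the same for `V₂ = va2V2` and `β` (by the swap);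
* `va2r_hres1_main`, `va2r_hres2_main`: the two statements with `hres0` discharged by
  `va2x_res_one` (S34/Val2Exh) and the degree `va2d_finrank` (S34/Val2Deg).
-/

set_option autoImplicit false

open AlgebraicCurve ModularCurve Polynomial
open Fermat.Agent.S28 Fermat.Agent.S18
open scoped IntermediateField

namespace Fermat.Agent.S34

local notation "Qb" => AlgebraicClosure ℚ

section LevelM

variable {K0 : Type*} [Field K0] [Algebra ℚ K0] (A0 : ValuationSubring K0)
  [IsDiscreteValuationRing A0] {ℓ : ℕ} [Fact ℓ.Prime] (hA0 : A0.LiesOverPrime ℓ)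
  (M : ℕ) [NeZero M] (hℓM : ¬ ℓ ∣ M) {a2 : ℕ} (H : HauptRec a2 ℓ)

include hA0 hℓM in
/-- The Gauss valuation ring of the level-`M` function field (good reduction) is the localization
of the Hauptmodul chart at `τ`: every Gauss-integral element is `a / s` with `a, s` in the chart
and `s` a Gauss unit. -/
theorem va2r_frac
    [Algebra A0 ↥(laurentBaseChange K0 (modularFunctionFieldFull M))]
    [IsScalarTower A0 K0 ↥(laurentBaseChange K0 (modularFunctionFieldFull M))]
    (c0 c1 : A0) (hc : IsLocalRing.residue A0 c0 ≠ IsLocalRing.residue A0 c1)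
    (t : ↥(laurentBaseChange K0 (modularFunctionFieldFull M)))
    (ht : (t : LaurentSeries K0) = cinstU H K0 (c0 : K0) (c1 : K0))
    (x : ↥(laurentBaseChange K0 (modularFunctionFieldFull M)))
    (hx : (x : LaurentSeries K0) ∈ grV A0) :
    ∃ a s : ↥(chtO A0 {t}),
      (s : ↥(laurentBaseChange K0 (modularFunctionFieldFull M))) ≠ 0 ∧
      (((s : ↥(laurentBaseChange K0 (modularFunctionFieldFull M))) : LaurentSeries K0) ∈ grV A0) ∧
      ((((s : ↥(laurentBaseChange K0 (modularFunctionFieldFull M)))⁻¹ :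
        ↥(laurentBaseChange K0 (modularFunctionFieldFull M))) : LaurentSeries K0) ∈ grV A0) ∧
      x * (s : ↥(laurentBaseChange K0 (modularFunctionFieldFull M))) =
        (a : ↥(laurentBaseChange K0 (modularFunctionFieldFull M))) := by
  classical
  have : CharZero K0 := algebraRat.charZero K0
  obtain ⟨τ, hτ⟩ := IsDiscreteValuationRing.exists_irreducible A0
  have hVG : ∀ x : ↥(laurentBaseChange K0 (modularFunctionFieldFull M)),
      x ∈ grO A0 hA0 M hℓM ↔ (x : LaurentSeries K0) ∈ grV A0 := fun x => Iff.rfl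
  obtain ⟨hA, hτV, hτgen, htt, htV, htV', hG, hfin, hconst⟩ :=
    c2i_hyps A0 M H (grO A0 hA0 M hℓM) hVG c0 c1 hc t ht τ hτ
  have hc' : (c0 : K0) ≠ (c1 : K0) := by
    intro h0
    apply hc
    rw [Subtype.ext h0]
  have hL := cinst_adjoin_grJ_le M H _ _ hc' t ht
  have huniq := cht_huniq_of_sub (K0 := K0) (L := ↥K0⟮grJ K0 M⟯) (grO A0 hA0 M hℓM) t hL
    (gr_unique_j A0 hA0 M hℓM)
  obtain ⟨-, h2, -, ⟨b0, hb0, hspan0⟩, -, -, -, hfrac0, -, -, -, hV0, -, hVτ0, -⟩ :=
    cht_all (K0 := K0) (grO A0 hA0 M hℓM) hA hτ hτV hτgen t htt htV htV' hG hfin huniq hconst 1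
      one_pos
  have hN0 : IsNoetherianRing ↥(chtO A0 {t}) := cz_noeth t _ h2 b0 hb0 hspan0
  have hτ0 : algebraMap A0 ↥(laurentBaseChange K0 (modularFunctionFieldFull M)) τ ≠ 0 := by
    rw [IsScalarTower.algebraMap_apply A0 K0 ↥(laurentBaseChange K0 (modularFunctionFieldFull M)),
      Ne, map_eq_zero]
    intro h0
    exact hτ.ne_zero (Subtype.ext h0)
  obtain ⟨a, s, hs, h⟩ := cz_frac1 τ (grO A0 hA0 M hℓM) (chtO A0 {t}) hτV hτ0 hfrac0 hV0 hVτ0 x hx
  refine ⟨a, s, ?_, hV0 _ s.2, ?_, h⟩
  · intro h0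
    rw [h0, map_zero] at hs
    exact zero_ne_one hs
  · have h1 : ((s : ↥(laurentBaseChange K0 (modularFunctionFieldFull M)))⁻¹) ∈
        grO A0 hA0 M hℓM := by
      rw [← ValuationSubring.valuation_le_one_iff, map_inv₀, hs, inv_one]
    exact h1

end LevelM

/-- The non-units of a pulled-back valuation subring. -/
theorem va2r_nonunits_comap {F : Type*} [Field F] (V : ValuationSubring F) (w : F →+* F)
    (z : F) : z ∈ (V.comap w).nonunits ↔ w z ∈ V.nonunits := by
  have h1 : ∀ (W : ValuationSubring F) (y : F), y ∈ W.nonunits ↔ (y⁻¹ = 0 ∨ y⁻¹ ∉ W) := by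
    intro W y
    have := W.inv_mem_nonunits_iff (x := y⁻¹)
    rwa [inv_inv] at this
  rw [h1, h1, ValuationSubring.mem_comap, map_inv₀]
  constructor
  · rintro (h | h)
    · left
      rw [inv_eq_zero] at h ⊢
      rw [h, map_zero]
    · exact Or.inr h
  · rintro (h | h)
    · left
      rw [inv_eq_zero] at h ⊢
      exact (_root_.map_eq_zero w).mp h
    · exact Or.inr h

section LevelMq

variable (M q : ℕ) [NeZero M] [hq : Fact q.Prime] (hM : ¬ q ∣ M)
  (K0 : Type*) [Field K0] [Algebra ℚ K0] [Algebra K0 Qb]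
  (A0 : ValuationSubring K0) [IsDiscreteValuationRing ↥A0]

omit [Algebra K0 Qb] in
include hM in
/-- **`hres` for `V₁` and `α`**: every element of the Gauss valuation ring of the level-`M q`
field is congruent, modulo its maximal ideal, to a quotient `α a / α s` of elements of the
level-`M` chart with `α s` a unit, given residue degree one over the level-`M` Gauss ring. -/
theorem va2r_hres1 (hA0 : A0.LiesOverPrime q) {a2 : ℕ} (H : HauptRec a2 q)
    [Algebra A0 ↥(laurentBaseChange K0 (modularFunctionFieldFull M))]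
    [IsScalarTower A0 K0 ↥(laurentBaseChange K0 (modularFunctionFieldFull M))]
    (c0 c1 : A0) (hc : IsLocalRing.residue A0 c0 ≠ IsLocalRing.residue A0 c1)
    (t : ↥(laurentBaseChange K0 (modularFunctionFieldFull M)))
    (ht : (t : LaurentSeries K0) = cinstU H K0 (c0 : K0) (c1 : K0))
    (hres0 : ∀ x ∈ va2V1 M q K0 A0,
      ∃ a : ↥(laurentBaseChange K0 (modularFunctionFieldFull M)),
        (a : LaurentSeries K0) ∈ grV A0 ∧
        x - heckeAlphaBar K0 M q a ∈ (va2V1 M q K0 A0).nonunits)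
    (x : ↥(laurentBaseChange K0 (modularFunctionFieldFull (M * q))))
    (hx : x ∈ va2V1 M q K0 A0) :
    ∃ a s : ↥(chtO A0 {t}),
      heckeAlphaBar K0 M q (s : ↥(laurentBaseChange K0 (modularFunctionFieldFull M))) ∉
        (va2V1 M q K0 A0).nonunits ∧
      x * heckeAlphaBar K0 M q (s : ↥(laurentBaseChange K0 (modularFunctionFieldFull M)))
        - heckeAlphaBar K0 M q (a : ↥(laurentBaseChange K0 (modularFunctionFieldFull M))) ∈
        (va2V1 M q K0 A0).nonunits := by
  obtain ⟨a0, ha0, hxa⟩ := hres0 x hx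
  obtain ⟨a, s, hs0, hsV, hsi, h⟩ := va2r_frac A0 hA0 M hM H c0 c1 hc t ht a0 ha0
  have hαs : heckeAlphaBar K0 M q (s : ↥(laurentBaseChange K0 (modularFunctionFieldFull M))) ∈
      va2V1 M q K0 A0 := by
    rw [mem_va2V1, coe_heckeAlphaBar]
    exact hsV
  have hαsi : (heckeAlphaBar K0 M q
      (s : ↥(laurentBaseChange K0 (modularFunctionFieldFull M))))⁻¹ ∈ va2V1 M q K0 A0 := by
    rw [← map_inv₀, mem_va2V1, coe_heckeAlphaBar]
    exact hsi
  have hαs0 : heckeAlphaBar K0 M q
      (s : ↥(laurentBaseChange K0 (modularFunctionFieldFull M))) ≠ 0 :=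
    (_root_.map_ne_zero _).mpr hs0
  refine ⟨a, s, ?_, ?_⟩
  · intro hn
    have h1 := cz_nonunits_mul (va2V1 M q K0 A0) hn hαsi
    rw [mul_inv_cancel₀ hαs0] at h1
    exact cz_one_not_mem_nonunits _ h1
  · have h2 : x * heckeAlphaBar K0 M q (s : ↥(laurentBaseChange K0 (modularFunctionFieldFull M)))
        - heckeAlphaBar K0 M q (a : ↥(laurentBaseChange K0 (modularFunctionFieldFull M)))
        = (x - heckeAlphaBar K0 M q a0)
          * heckeAlphaBar K0 M q (s : ↥(laurentBaseChange K0 (modularFunctionFieldFull M))) := by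
      rw [← h, map_mul]
      ring
    rw [h2]
    exact cz_nonunits_mul (va2V1 M q K0 A0) hxa hαs

/-- **`hres` for `V₂` and `β`** (the swap image of `va2r_hres1`). -/
theorem va2r_hres2 (hA0 : A0.LiesOverPrime q) {a2 : ℕ} (H : HauptRec a2 q)
    [Algebra A0 ↥(laurentBaseChange K0 (modularFunctionFieldFull M))]
    [IsScalarTower A0 K0 ↥(laurentBaseChange K0 (modularFunctionFieldFull M))]
    (c0 c1 : A0) (hc : IsLocalRing.residue A0 c0 ≠ IsLocalRing.residue A0 c1)
    (t : ↥(laurentBaseChange K0 (modularFunctionFieldFull M)))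
    (ht : (t : LaurentSeries K0) = cinstU H K0 (c0 : K0) (c1 : K0))
    (hres0 : ∀ x ∈ va2V1 M q K0 A0,
      ∃ a : ↥(laurentBaseChange K0 (modularFunctionFieldFull M)),
        (a : LaurentSeries K0) ∈ grV A0 ∧
        x - heckeAlphaBar K0 M q a ∈ (va2V1 M q K0 A0).nonunits)
    (x : ↥(laurentBaseChange K0 (modularFunctionFieldFull (M * q))))
    (hx : x ∈ va2V2 M q hM K0 A0) :
    ∃ a s : ↥(chtO A0 {t}),
      heckeBetaBar K0 M q (s : ↥(laurentBaseChange K0 (modularFunctionFieldFull M))) ∉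
        (va2V2 M q hM K0 A0).nonunits ∧
      x * heckeBetaBar K0 M q (s : ↥(laurentBaseChange K0 (modularFunctionFieldFull M)))
        - heckeBetaBar K0 M q (a : ↥(laurentBaseChange K0 (modularFunctionFieldFull M))) ∈
        (va2V2 M q hM K0 A0).nonunits := by
  have hx' : va2Swap M q hq.out hM K0 x ∈ va2V1 M q K0 A0 := hx
  obtain ⟨a, s, hs, h⟩ := va2r_hres1 M q hM K0 A0 hA0 H c0 c1 hc t ht hres0 _ hx'
  refine ⟨a, s, ?_, ?_⟩
  · intro hn
    apply hs
    have h1 := (va2r_nonunits_comap (va2V1 M q K0 A0) (va2Swap M q hq.out hM K0) _).mp hn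
    rwa [va2Swap_beta] at h1
  · show _ ∈ ((va2V1 M q K0 A0).comap (va2Swap M q hq.out hM K0)).nonunits
    rw [va2r_nonunits_comap, map_sub, map_mul, va2Swap_beta, va2Swap_beta]
    exact h

include hM in
/-- **`hres` for `V₁` and `α`, unconditional.** -/
theorem va2r_hres1_main (hA0 : A0.LiesOverPrime q) {a2 : ℕ} (H : HauptRec a2 q)
    [Algebra A0 ↥(laurentBaseChange K0 (modularFunctionFieldFull M))]
    [IsScalarTower A0 K0 ↥(laurentBaseChange K0 (modularFunctionFieldFull M))]
    (c0 c1 : A0) (hc : IsLocalRing.residue A0 c0 ≠ IsLocalRing.residue A0 c1)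
    (t : ↥(laurentBaseChange K0 (modularFunctionFieldFull M)))
    (ht : (t : LaurentSeries K0) = cinstU H K0 (c0 : K0) (c1 : K0))
    (x : ↥(laurentBaseChange K0 (modularFunctionFieldFull (M * q))))
    (hx : x ∈ va2V1 M q K0 A0) :
    ∃ a s : ↥(chtO A0 {t}),
      heckeAlphaBar K0 M q (s : ↥(laurentBaseChange K0 (modularFunctionFieldFull M))) ∉
        (va2V1 M q K0 A0).nonunits ∧
      x * heckeAlphaBar K0 M q (s : ↥(laurentBaseChange K0 (modularFunctionFieldFull M)))
        - heckeAlphaBar K0 M q (a : ↥(laurentBaseChange K0 (modularFunctionFieldFull M))) ∈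
        (va2V1 M q K0 A0).nonunits :=
  va2r_hres1 M q hM K0 A0 hA0 H c0 c1 hc t ht
    (fun y hy => va2x_res_one M q hM K0 A0 hA0 (va2d_finrank K0 M hq.out hM) y hy) x hx

/-- **`hres` for `V₂` and `β`, unconditional.** -/
theorem va2r_hres2_main (hA0 : A0.LiesOverPrime q) {a2 : ℕ} (H : HauptRec a2 q)
    [Algebra A0 ↥(laurentBaseChange K0 (modularFunctionFieldFull M))]
    [IsScalarTower A0 K0 ↥(laurentBaseChange K0 (modularFunctionFieldFull M))]
    (c0 c1 : A0) (hc : IsLocalRing.residue A0 c0 ≠ IsLocalRing.residue A0 c1)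
    (t : ↥(laurentBaseChange K0 (modularFunctionFieldFull M)))
    (ht : (t : LaurentSeries K0) = cinstU H K0 (c0 : K0) (c1 : K0))
    (x : ↥(laurentBaseChange K0 (modularFunctionFieldFull (M * q))))
    (hx : x ∈ va2V2 M q hM K0 A0) :
    ∃ a s : ↥(chtO A0 {t}),
      heckeBetaBar K0 M q (s : ↥(laurentBaseChange K0 (modularFunctionFieldFull M))) ∉
        (va2V2 M q hM K0 A0).nonunits ∧
      x * heckeBetaBar K0 M q (s : ↥(laurentBaseChange K0 (modularFunctionFieldFull M)))
        - heckeBetaBar K0 M q (a : ↥(laurentBaseChange K0 (modularFunctionFieldFull M))) ∈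
        (va2V2 M q hM K0 A0).nonunits :=
  va2r_hres2 M q hM K0 A0 hA0 H c0 c1 hc t ht
    (fun y hy => va2x_res_one M q hM K0 A0 hA0 (va2d_finrank K0 M hq.out hM) y hy) x hx

end LevelMq

end Fermat.Agent.S34
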