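import Mathlib
import Fermat.Agent.S34.BranchAbs
import Fermat.Agent.S34.BranchPoly
import Fermat.Agent.S34.DomInst
import Fermat.Agent.S34.KronVal
import Fermat.Agent.S34.Val2Res
import Fermat.Agent.S34.Val2Inst
import Fermat.Agent.S34.UnramPack
import Fermat.Agent.S34.CuspGlue
import Fermat.Agent.S34.Charts2Inst

/-!
# S34, package BRANCH-INST (branch 1): the first branch at a crossing point

`K0` a field with `[Algebra ℚ K0] [Algebra K0 ℚ̄]`, `A0` a discrete valuation subring of `K0` over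
the prime `q ∤ M`, `F` the level-`M q` function field over `K0`, `V₁ = va2V1`, `V₂ = va2V2` the
two valuation rings, `H` a Hauptmodul record of level `a2 ∣ M`, `h` the Hauptmodul, `w` the swap,
`t = (h - c1) / (h - c0)` the chart coordinate, `O = chtO A0 {t}`, `𝔫` a prime of `O` containing
`O ∩ 𝔪_{V₁}` and `O ∩ 𝔪_{V₂}` (a crossing point) which is not cuspidal (`J ∈ O_𝔫`).

`bri_main`: `𝔫 O_𝔫 ⊆ y O_𝔫 + (O_𝔫 ∩ 𝔪_{V₁})` with `y = h - (w h) ^ q`: the branch of the first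
component through `𝔫` is a discrete valuation ring with uniformiser the image of `y`.  This is
the hypothesis `hB₁` of `ndf_max`, in the `dmaLoc` / `dmaMax` language.

Inputs: `bra_main` (BRANCH-ABS) for `V₁` and the first degeneracy map `α` restricted to the
level-`M` chart, residue degree one (`va2r_hres1_main`), the Kronecker congruences (`krv_*`),
the polynomial `brpG` (BRANCH-POLY) and the unramifiedness of the level-`M` chart over the
`h`-line away from the cusps (`unr_local_hU`, D-UNRAM).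
-/

set_option autoImplicit false
set_option linter.unusedSectionVars false
set_option linter.style.haveILetI false

noncomputable section

open AlgebraicCurve ModularCurve Polynomial
open Fermat.Agent.S18 Fermat.Agent.S28 Fermat.Agent.S37

namespace Fermat.Agent.S34

local notation "Qb" => AlgebraicClosure ℚ

/-! ### Abstract preliminaries -/

section Abs

variable {A F : Type*} [CommRing A] [Field F] [Algebra A F]
variable (O : Subalgebra A F) (𝔫 : Ideal ↥O) [𝔫.IsPrime]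

/-- the complement of `𝔫 O_𝔫` in `O_𝔫` is multiplicative -/
theorem bri_mul_notMem_max {a b : F} (ha : a ∈ dmaLoc O 𝔫) (ha' : a ∉ dmaMax O 𝔫)
    (hb' : b ∉ dmaMax O 𝔫) : a * b ∉ dmaMax O 𝔫 := by
  intro hab
  have h1 := dma_max_mul O 𝔫 (dma_inv_mem O 𝔫 ha ha') hab
  rw [← mul_assoc, inv_mul_cancel₀ (dma_ne_zero O 𝔫 ha'), one_mul] at h1
  exact hb' h1

theorem bri_pow_notMem_max {a : F} (ha : a ∈ dmaLoc O 𝔫) (ha' : a ∉ dmaMax O 𝔫) (k : ℕ) :
    a ^ k ∉ dmaMax O 𝔫 := by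
  induction k with
  | zero =>
    rw [pow_zero]
    exact dma_one_notMem_max O 𝔫
  | succ k ih =>
    rw [pow_succ']
    exact bri_mul_notMem_max O 𝔫 ha ha' ih

/-- **`Q(h)` is a unit at a non-cuspidal point** (Bezout modulo `ℓ`). -/
theorem bri_Q_unit (ℓ : ℕ) (hℓ : (ℓ : ↥O) ∈ 𝔫) (P Q U V W : ℤ[X])
    (hUV : U * P + V * Q = 1 + C (ℓ : ℤ) * W) {h j : F}
    (hrel : j * aeval h Q = aeval h P) (hh : h ∈ dmaLoc O 𝔫) (hj : j ∈ dmaLoc O 𝔫) :
    aeval h Q ∉ dmaMax O 𝔫 := by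
  intro hQ
  have hb : aeval h U * aeval h P + aeval h V * aeval h Q = 1 + (ℓ : F) * aeval h W := by
    have := congrArg (aeval h) hUV
    simpa using this
  have hℓm : (ℓ : F) ∈ dmaMax O 𝔫 := by
    have := dma_max_of_mem O 𝔫 (ℓ : ↥O) hℓ
    simpa using this
  have hP : aeval h P ∈ dmaMax O 𝔫 := by
    rw [← hrel]
    exact dma_max_mul O 𝔫 hj hQ
  have h1 : aeval h U * aeval h P + aeval h V * aeval h Q ∈ dmaMax O 𝔫 :=
    (dmaMax O 𝔫).add_mem (dma_max_mul O 𝔫 (dma_aeval_mem O 𝔫 hh U) hP)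
      (dma_max_mul O 𝔫 (dma_aeval_mem O 𝔫 hh V) hQ)
  have h2 : (ℓ : F) * aeval h W ∈ dmaMax O 𝔫 := by
    rw [mul_comm]
    exact dma_max_mul O 𝔫 (dma_aeval_mem O 𝔫 hh W) hℓm
  rw [hb] at h1
  have h3 := (dmaMax O 𝔫).sub_mem h1 h2
  rw [add_sub_cancel_right] at h3
  exact dma_one_notMem_max O 𝔫 h3

/-- **The chart coordinate is not `1` at a point where `h` is regular**: `t - 1` is a unit of
`O_𝔫` when `h (t - 1) = c₀ t - c₁`, `h ∈ O_𝔫` and `c₀ - c₁` is a unit. -/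
theorem bri_t_sub_one {h t c0 c1 : F} (hh : h ∈ dmaLoc O 𝔫)
    (hc0 : c0 ∈ dmaLoc O 𝔫) (hc01 : (c0 - c1)⁻¹ ∈ dmaLoc O 𝔫) (hc : c0 ≠ c1)
    (hrel : h * (t - 1) = c0 * t - c1) : t - 1 ∉ dmaMax O 𝔫 := by
  intro h1
  have h2 : c0 * t - c1 ∈ dmaMax O 𝔫 := by
    rw [← hrel]
    exact dma_max_mul O 𝔫 hh h1
  have h3 : c0 - c1 ∈ dmaMax O 𝔫 := by
    have h4 := (dmaMax O 𝔫).sub_mem h2 (dma_max_mul O 𝔫 hc0 h1)
    have e : c0 * t - c1 - c0 * (t - 1) = c0 - c1 := by ring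
    rwa [e] at h4
  have h5 := dma_max_mul O 𝔫 hc01 h3
  rw [inv_mul_cancel₀ (sub_ne_zero.mpr hc)] at h5
  exact dma_one_notMem_max O 𝔫 h5

end Abs

/-- a ring homomorphism commuting with the structure maps maps the chart `chtO A0 {t}` into the
chart `chtO A0 {f t}` -/
theorem bri_chtO_map {A0 E F : Type*} [CommRing A0] [Field E] [Field F] [Algebra A0 E]
    [Algebra A0 F] (f : E →+* F) (hf : ∀ a : A0, f (algebraMap A0 E a) = algebraMap A0 F a)
    (t : E) {x : E} (hx : x ∈ chtO A0 ({t} : Set E)) : f x ∈ chtO A0 ({f t} : Set F) := by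
  rw [cht_mem_iff, cht_isIntegral_adjoin_iff] at hx ⊢
  obtain ⟨p, hp, hpx⟩ := hx
  refine ⟨p, hp, ?_⟩
  have h1 := Polynomial.hom_eval₂ p (aeval t : A0[X] →ₐ[A0] E).toRingHom f x
  have h2 : f.comp (aeval t : A0[X] →ₐ[A0] E).toRingHom =
      (aeval (f t) : A0[X] →ₐ[A0] F).toRingHom := by
    refine Polynomial.ringHom_ext (fun a => ?_) ?_
    · simp [hf]
    · simp
  rw [h2] at h1
  rw [← h1, hpx, map_zero]

/-- a ring homomorphism commuting with the structure maps commutes with `aeval` -/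
theorem bri_map_aeval {A0 E F : Type*} [CommRing A0] [CommRing E] [CommRing F] [Algebra A0 E]
    [Algebra A0 F] (f : E →+* F) (hf : ∀ a : A0, f (algebraMap A0 E a) = algebraMap A0 F a)
    (T : E) (g : A0[X]) : f (aeval T g) = aeval (f T) g := by
  rw [aeval_def, hom_eval₂, aeval_def]
  congr 1
  ext a
  exact hf a

/-! ### The first branch -/

section Main

variable (M q : ℕ) [NeZero M] [hq : Fact q.Prime] (hM : ¬ q ∣ M)
  (K0 : Type*) [Field K0] [Algebra ℚ K0] [Algebra K0 Qb]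
  (A0 : ValuationSubring K0) [IsDiscreteValuationRing ↥A0]

set_option quotPrecheck false in
local notation "FM" => ↥(laurentBaseChange K0 (modularFunctionFieldFull M))

set_option quotPrecheck false in
local notation "FMq" => ↥(laurentBaseChange K0 (modularFunctionFieldFull (M * q)))

set_option maxHeartbeats 800000 in
/-- **BRANCH-INST, branch 1** (`hB₁` of `ndf_max`).  At a non-cuspidal crossing point `𝔫` of the
chart `chtO A0 {t}` of level `M q`: `𝔫 O_𝔫 ⊆ y O_𝔫 + (O_𝔫 ∩ 𝔪_{V₁})`, `y = h - (w h) ^ q`. -/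
theorem bri_main (hA0 : A0.LiesOverPrime q) {a2 : ℕ} (H : HauptRec a2 q) (ha2 : a2 ∣ M)
    [Algebra A0 FM] [IsScalarTower A0 K0 FM] [Algebra A0 FMq] [IsScalarTower A0 K0 FMq]
    (c0 c1 : A0) (hc : IsLocalRing.residue A0 c0 ≠ IsLocalRing.residue A0 c1)
    (huc : unrChart K0 A0 M H c0 c1)
    (tM : FM) (htM : (tM : LaurentSeries K0) = cinstU H K0 (c0 : K0) (c1 : K0))
    (t : FMq) (ht : (t : LaurentSeries K0) = cinstU H K0 (c0 : K0) (c1 : K0))
    (τ : A0) (hτ : Irreducible τ)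
    (hD : IsDedekindDomain (↥(chtO A0 {tM}) ⧸ Ideal.span {algebraMap A0 ↥(chtO A0 {tM}) τ}))
    (𝔫 : Ideal ↥(chtO A0 {t})) [𝔫.IsPrime]
    (hc₁ : ∀ x : ↥(chtO A0 {t}), (x : FMq) ∈ (va2V1 M q K0 A0).nonunits → x ∈ 𝔫)
    (hc₂ : ∀ x : ↥(chtO A0 {t}), (x : FMq) ∈ (va2V2 M q hM K0 A0).nonunits → x ∈ 𝔫)
    (hJ : va2Jd K0 (M * q) 1 (one_dvd _) ∈ dmaLoc (chtO A0 {t}) 𝔫) :
    ∀ z ∈ dmaMax (chtO A0 {t}) 𝔫, ∃ b ∈ dmaLoc (chtO A0 {t}) 𝔫,
      z - (dmiH K0 (M * q) H (ha2.mul_right q) -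
          va2Swap M q hq.out hM K0 (dmiH K0 (M * q) H (ha2.mul_right q)) ^ q) * b
        ∈ (va2V1 M q K0 A0).nonunits := by
  classical
  have := hD
  intro z hz
  have hqA : ((q : ℕ) : K0) ∈ A0.nonunits := hA0
  have hq2 : 2 ≤ q := hq.out.two_le
  have hVG : ∀ x : FMq, x ∈ va2V1 M q K0 A0 ↔ (x : LaurentSeries K0) ∈ grV A0 :=
    fun x => Iff.rfl
  obtain ⟨hA, hτV, -, -, htV, -, -, -, -⟩ :=
    c2i_hyps A0 (M * q) H (va2V1 M q K0 A0) hVG c0 c1 hc t ht τ hτ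
  have hmap : ∀ a : A0, algebraMap A0 FMq a = algebraMap K0 FMq (a : K0) :=
    fun a => IsScalarTower.algebraMap_apply A0 K0 FMq a
  have hmapM : ∀ a : A0, algebraMap A0 FM a = algebraMap K0 FM (a : K0) :=
    fun a => IsScalarTower.algebraMap_apply A0 K0 FM a
  -- the chart of level `M q` lies in both valuation rings and is integrally closed
  have hO₁ : ∀ x ∈ chtO A0 {t}, x ∈ va2V1 M q K0 A0 := fun x hx =>
    cht_le_valuationSubring (va2V1 M q K0 A0) hA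
      (fun y hy => by rw [Set.mem_singleton_iff.mp hy]; exact htV) hx
  have hO₂ : ∀ x ∈ chtO A0 {t}, x ∈ va2V2 M q hM K0 A0 := fun x hx =>
    cht_le_valuationSubring (va2V2 M q hM K0 A0) (va2_hA2 A0 M q hM)
      (fun y hy => by
        rw [Set.mem_singleton_iff.mp hy]
        exact va2_htV2 A0 M q hM H ha2 c0 c1 t ht) hx
  have hint : ∀ x : FMq, IsIntegral ↥(chtO A0 {t}) x → x ∈ chtO A0 {t} :=
    fun x hx => cht_integral_closed {t} hx
  -- `τ ∈ 𝔫`, `q ∈ 𝔫`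
  have hτ𝔫 : algebraMap A0 ↥(chtO A0 {t}) τ ∈ 𝔫 := hc₁ _ hτV
  obtain ⟨aq, haq⟩ : ∃ a : A0, ((q : ℕ) : A0) = τ * a := by
    have h1 : (((q : ℕ) : A0) : K0) ∈ A0.nonunits := by simpa using hqA
    rw [ValuationSubring.coe_mem_nonunits_iff, hτ.maximalIdeal_eq,
      Ideal.mem_span_singleton] at h1
    exact h1
  have hq𝔫 : ((q : ℕ) : ↥(chtO A0 {t})) ∈ 𝔫 := by
    have h2 : ((q : ℕ) : ↥(chtO A0 {t})) = algebraMap A0 ↥(chtO A0 {t}) τ *
        algebraMap A0 ↥(chtO A0 {t}) aq := by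
      rw [← map_mul, ← haq, map_natCast]
    rw [h2]
    exact 𝔫.mul_mem_right _ hτ𝔫
  -- the Hauptmodul and its swap are regular at `𝔫`
  set hF := dmiH K0 (M * q) H (ha2.mul_right q) with hhF
  set J := va2Jd K0 (M * q) 1 (one_dvd _) with hJdef
  have hdeg : H.Q.natDegree < H.P.natDegree := by
    rw [H.natDegree_P]
    exact H.natDegree_Q
  have hΨ : (X - C X : ℤ[X][X]).eval₂ ((aeval J : ℤ[X] →ₐ[ℤ] FMq).toRingHom) J = 0 := by
    rw [eval₂_sub, eval₂_X, eval₂_C]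
    simp
  have hrel : J * aeval hF H.Q = aeval hF H.P := dmi_rel K0 (M * q) H (ha2.mul_right q)
  have hh : hF ∈ dmaLoc (chtO A0 {t}) 𝔫 :=
    dma_hq_mem (chtO A0 {t}) 𝔫 hint H.P H.Q H.P_monic hdeg hrel (X - C X) (monic_X_sub_C _) hΨ hJ
  obtain ⟨Φ, hΦ, hΦ1, -⟩ := mqk_exists_poly M q hq.out hM K0
  have hwh : va2Swap M q hq.out hM K0 hF ∈ dmaLoc (chtO A0 {t}) 𝔫 :=
    dma_hq_mem (chtO A0 {t}) 𝔫 hint H.P H.Q H.P_monic hdeg (dmi_relq M q hq.out hM H ha2) Φ hΦ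
      hΦ1 hJ
  -- `Q(h)` is a unit at `𝔫`
  obtain ⟨U, V, W, hUV⟩ := dmi_bezout H.P H.Q H.coprime_mod
  have hQu : aeval hF H.Q ∉ dmaMax (chtO A0 {t}) 𝔫 :=
    bri_Q_unit (chtO A0 {t}) 𝔫 q hq𝔫 H.P H.Q U V W hUV hrel hh hJ
  -- the base points
  have hcU : smi2U A0 ((c0 : K0) - (c1 : K0)) := by
    have h : IsLocalRing.residue A0 (c0 - c1) ≠ 0 := by
      rw [map_sub, sub_ne_zero]
      exact hc
    exact smi2U_of_residue_ne_zero h
  have hc0O : algebraMap A0 FMq c0 ∈ dmaLoc (chtO A0 {t}) 𝔫 :=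
    dma_of_mem _ _ ((chtO A0 {t}).algebraMap_mem c0)
  have hcne : algebraMap A0 FMq c0 ≠ algebraMap A0 FMq c1 := by
    rw [hmap, hmap]
    exact (algebraMap K0 FMq).injective.ne (sub_ne_zero.mp hcU.2.1)
  have hc01 : (algebraMap A0 FMq c0 - algebraMap A0 FMq c1)⁻¹ ∈ dmaLoc (chtO A0 {t}) 𝔫 := by
    rw [hmap, hmap, ← map_sub, ← map_inv₀]
    exact dma_of_mem _ _ (dmi_const_mem A0 _ hcU.2.2)
  -- the chart coordinate
  have htrel : hF * (t - 1) = algebraMap A0 FMq c0 * t - algebraMap A0 FMq c1 := by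
    have h1 : t = (hF - algebraMap K0 FMq (c1 : K0)) / (hF - algebraMap K0 FMq (c0 : K0)) :=
      dmi_t_eq K0 (M * q) H (ha2.mul_right q) (c0 : K0) (c1 : K0) t ht
    have h2 : hF - algebraMap K0 FMq (c0 : K0) ≠ 0 :=
      sub_ne_zero.mpr (dmiH_sub_ne K0 (M * q) H (ha2.mul_right q) _)
    have h3 : t * (hF - algebraMap K0 FMq (c0 : K0)) = hF - algebraMap K0 FMq (c1 : K0) := by
      rw [h1, div_mul_cancel₀ _ h2]
    rw [hmap, hmap]
    linear_combination h3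
  have ht1 : t - 1 ∉ dmaMax (chtO A0 {t}) 𝔫 :=
    bri_t_sub_one (chtO A0 {t}) 𝔫 hh hc0O hc01 hcne htrel
  have htO : t ∈ dmaLoc (chtO A0 {t}) 𝔫 := dma_of_mem _ _ (cht_h1 t).1
  have ht1O : t - 1 ∈ dmaLoc (chtO A0 {t}) 𝔫 := (dmaLoc _ _).sub_mem htO (dmaLoc _ _).one_mem
  have hc01max : algebraMap A0 FMq c0 - algebraMap A0 FMq c1 ∉ dmaMax (chtO A0 {t}) 𝔫 := by
    intro h1
    have h2 := dma_max_mul _ _ hc01 h1
    rw [inv_mul_cancel₀ (sub_ne_zero.mpr hcne)] at h2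
    exact dma_one_notMem_max _ _ h2
  -- Kronecker
  have hxF : ((hF : FMq) : LaurentSeries K0) = coeffMap (Int.castRingHom K0) H.hZ := rfl
  have hαh : heckeAlphaBar K0 M q (dmiH K0 M H ha2) = hF := Subtype.ext (by
    rw [coe_heckeAlphaBar]
    rfl)
  have hxq : ((va2Swap M q hq.out hM K0 hF : FMq) : LaurentSeries K0)
      = qExpand K0 q ((hF : FMq) : LaurentSeries K0) := by
    rw [← hαh, va2Swap_alpha, coe_heckeBetaBar, coe_heckeAlphaBar]
  obtain ⟨hhV₁, hwhV₁, hk₁⟩ := krv_V1_gen' A0 q hq.out hqA (va2V1 M q K0 A0) hVG hF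
    (va2Swap M q hq.out hM K0 hF) H.hZ hxF hxq
  obtain ⟨-, -, hk₂⟩ := krv_V2_gen' A0 q hq.out hqA (va2V1 M q K0 A0) hVG
    (va2Swap M q hq.out hM K0) (va2V2 M q hM K0 A0) (fun x => Iff.rfl) hF
    (va2Swap M q hq.out hM K0 hF) H.hZ hxF hxq rfl (va2Swap_swap M q hq.out hM K0 hF)
  have hcong : va2Swap M q hq.out hM K0 hF - hF ^ q ∈ (va2V1 M q K0 A0).nonunits := by
    have := krv_neg_nonunits (va2V1 M q K0 A0) _ hk₁
    rwa [neg_sub] at this
  -- `y ∈ 𝔫 O_𝔫`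
  have hy : hF - va2Swap M q hq.out hM K0 hF ^ q ∈ dmaMax (chtO A0 {t}) 𝔫 :=
    cng_mem_max (chtO A0 {t}) 𝔫 (va2V2 M q hM K0 A0) hO₂ hc₂
      ((dmaLoc _ _).sub_mem hh ((dmaLoc _ _).pow_mem hwh q)) hk₂
  -- the level-`M` chart and the first degeneracy map
  let T : ↥(chtO A0 {tM}) := ⟨tM, (cht_h1 tM).1⟩
  let βr : ↥(chtO A0 {tM}) →+* FMq :=
    (heckeAlphaBar K0 M q).toRingHom.comp (chtO A0 {tM}).val.toRingHom
  have hβ : ∀ x : ↥(chtO A0 {tM}), βr x = heckeAlphaBar K0 M q (x : FM) := fun x => rfl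
  have hαt : heckeAlphaBar K0 M q tM = t := Subtype.ext (by rw [coe_heckeAlphaBar, htM, ht])
  have hαA : ∀ a : A0, (heckeAlphaBar K0 M q).toRingHom (algebraMap A0 FM a) =
      algebraMap A0 FMq a := by
    intro a
    rw [hmapM, hmap]
    exact (heckeAlphaBar K0 M q).commutes _
  have hαO : ∀ x ∈ chtO A0 {tM}, heckeAlphaBar K0 M q x ∈ chtO A0 {t} := by
    intro x hx
    have h1 := bri_chtO_map (heckeAlphaBar K0 M q).toRingHom hαA tM hx
    have h2 : (heckeAlphaBar K0 M q).toRingHom tM = t := hαt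
    rwa [h2] at h1
  have hβA : ∀ a : A0, βr (algebraMap A0 ↥(chtO A0 {tM}) a) = algebraMap A0 FMq a := by
    intro a
    rw [hβ]
    exact hαA a
  have hβT : βr T = t := hαt
  have hβO : ∀ x : ↥(chtO A0 {tM}), βr x ∈ chtO A0 {t} := fun x => hαO _ x.2
  have hβn : ∀ x : ↥(chtO A0 {tM}), βr x ∈ dmaLoc (chtO A0 {t}) 𝔫 :=
    fun x => dma_of_mem _ _ (hβO x)
  have hI : ∀ x : ↥(chtO A0 {tM}), x ∈ Ideal.span {algebraMap A0 ↥(chtO A0 {tM}) τ} →
      βr x ∈ (va2V1 M q K0 A0).nonunits := by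
    intro x hx
    obtain ⟨y, rfl⟩ := Ideal.mem_span_singleton'.mp hx
    rw [map_mul, hβA, mul_comm (βr y)]
    exact cht_nonunits_mul (va2V1 M q K0 A0) hτV (hO₁ _ (hβO y))
  have hres : ∀ x ∈ va2V1 M q K0 A0, ∃ a s : ↥(chtO A0 {tM}),
      βr s ∉ (va2V1 M q K0 A0).nonunits ∧ x * βr s - βr a ∈ (va2V1 M q K0 A0).nonunits :=
    fun x hx => va2r_hres1_main M q hM K0 A0 hA0 H c0 c1 hc tM htM x hx
  -- the congruence `y (t - 1) ^ (q q) ≡ - g(t)`
  have hxξ : (hF - va2Swap M q hq.out hM K0 hF ^ q) * βr ((T - 1) ^ (q * q))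
      - βr (-(aeval T (brpG c0 c1 (q * q)))) ∈ (va2V1 M q K0 A0).nonunits := by
    have e1 : βr ((T - 1) ^ (q * q)) = (t - 1) ^ (q * q) := by
      rw [RingHom.map_pow, RingHom.map_sub, RingHom.map_one, hβT]
    have e2 : βr (-(aeval T (brpG c0 c1 (q * q)))) =
        -((algebraMap A0 FMq c0 * t - algebraMap A0 FMq c1) ^ (q * q) -
          (algebraMap A0 FMq c0 * t - algebraMap A0 FMq c1) * (t - 1) ^ (q * q - 1)) := by
      rw [RingHom.map_neg, bri_map_aeval βr hβA, hβT, brp_aeval]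
    rw [e1, e2]
    exact brp_hxxi₁ (va2V1 M q K0 A0) _ _ q (by omega) hF (va2Swap M q hq.out hM K0 hF) t htrel
      hhV₁ hwhV₁ htV hcong
  refine bra_main (chtO A0 {t}) 𝔫 (va2V1 M q K0 A0) hO₁ hc₁ βr
    (Ideal.span {algebraMap A0 ↥(chtO A0 {tM}) τ}) hI hβn hres _ hy
    (-(aeval T (brpG c0 c1 (q * q)))) ((T - 1) ^ (q * q)) hxξ ?_ z hz
  -- the local generator at the point below `𝔫`
  intro P hPmax hIP hξP hPiff x hxP
  have := hPmax.isPrime
  have hg : aeval T (brpG c0 c1 (q * q)) ∈ P := by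
    have := P.neg_mem hξP
    rwa [neg_neg] at this
  have hNP : aeval T (hcuNum H A0 c0 c1) ∉ P := by
    rw [hPiff, bri_map_aeval βr hβA, hβT, hcuNum_aeval, ← htrel, mul_comm hF,
      hcuHom_mul H.Q (hcu_natDegree_Q_le H)]
    exact bri_mul_notMem_max _ _ ((dmaLoc _ _).pow_mem ht1O _)
      (bri_pow_notMem_max _ _ ht1O ht1 _) hQu
  have hnP : ((q * q : ℕ) : ↥(chtO A0 {tM})) ∈ P := by
    have h2 : ((q : ℕ) : ↥(chtO A0 {tM})) = algebraMap A0 ↥(chtO A0 {tM}) τ *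
        algebraMap A0 ↥(chtO A0 {tM}) aq := by
      rw [← map_mul, ← haq, map_natCast]
    rw [Nat.cast_mul, h2]
    exact P.mul_mem_left _ (P.mul_mem_right _ (hIP (Ideal.subset_span rfl)))
  have hcP : algebraMap A0 ↥(chtO A0 {tM}) c0 - algebraMap A0 ↥(chtO A0 {tM}) c1 ∉ P := by
    rw [hPiff, map_sub, hβA, hβA]
    exact hc01max
  have hT1 : T - 1 ∉ P := by
    rw [hPiff, map_sub, map_one, hβT]
    exact ht1
  have hg' : aeval T (derivative (brpG c0 c1 (q * q))) ∉ P :=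
    brp_derivative_notMem c0 c1 (q * q) (by nlinarith) T P hnP hcP hT1
  obtain ⟨u, hu, γ, hγ⟩ := unr_local_hU A0 M H c0 c1 huc tM htM τ hτ P hIP hNP
    (brpG c0 c1 (q * q)) hg hg' x hxP
  refine ⟨u, hu, -γ, ?_⟩
  have e : u * x - -(aeval T (brpG c0 c1 (q * q))) * -γ
      = u * x - aeval T (brpG c0 c1 (q * q)) * γ := by ring
  rw [e]
  exact hγ

end Main

end Fermat.Agent.S34
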