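import Mathlib
import Fermat.Agent.S34.BranchAbs
import Fermat.Agent.S34.UnramPack
import Fermat.Agent.S34.Val2Res
import Fermat.Agent.S34.KronVal
import Fermat.Agent.S34.DomInst

/-!
# S34, package BRANCH2-INST: the second branch at a crossing point (the `β`-half of `hB2`)

`brj_abs` (abstract, second half of the file header): `bra_main` (BRANCH-ABS) with the data
`ξ := g(u)`, `d := (u - 1) ^ (q ^ 2)`, `g := (d0 X - d1) ^ (q ^ 2) - (d0 X - d1) (X - 1) ^ (q ^ 2 - 1)`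
for a chart `chtO A {u}` of the lower field mapped to the upper field by `β`.

`brj_main` (concrete): at a crossing point `𝔫` of a chart `O` of the level-`M q` function field,
the branch cut out by `V₂ = va2V2` is a discrete valuation ring with uniformiser
`x = h ^ q - w h`: `𝔫 O_𝔫 ⊆ x O_𝔫 + (O_𝔫 ∩ 𝔪_{V₂})`.
-/

set_option autoImplicit false
set_option linter.unusedSectionVars false
set_option linter.style.haveILetI false

open Polynomial

namespace Fermat.Agent.S34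

open Fermat.Agent.S18

/-! ### The polynomial `g` -/

section BrjPoly

variable {R : Type*} [CommRing R]

/-- the polynomial `(d0 X - d1) ^ (n + 2) - (d0 X - d1) (X - 1) ^ (n + 1)` -/
noncomputable def brjG (d0 d1 : R) (n : ℕ) : R[X] :=
  (C d0 * X - C d1) ^ (n + 2) - (C d0 * X - C d1) * (X - 1) ^ (n + 1)

/-- the cofactor of `n + 2` in the derivative of `brjG` -/
noncomputable def brjR (d0 d1 : R) (n : ℕ) : R[X] :=
  C d0 * (C d0 * X - C d1) ^ (n + 1) - (C d0 * X - C d1) * (X - 1) ^ n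

theorem brj_derivative (d0 d1 : R) (n : ℕ) :
    derivative (brjG d0 d1 n) =
      C ((n + 2 : ℕ) : R) * brjR d0 d1 n + C (d0 - d1) * (X - 1) ^ n := by
  unfold brjG brjR
  simp only [derivative_mul, derivative_pow, derivative_C, derivative_X,
    derivative_one, Nat.add_succ_sub_one, zero_mul, zero_add, sub_zero, mul_one,
    Polynomial.C_eq_natCast, map_sub]
  push_cast
  ring

theorem brj_aeval {S : Type*} [CommRing S] [Algebra R S] (d0 d1 : R) (n : ℕ) (v y : S)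
    (h : y * (v - 1) = algebraMap R S d0 * v - algebraMap R S d1) :
    aeval v (brjG d0 d1 n) = (v - 1) ^ (n + 2) * (y ^ (n + 2) - y) := by
  unfold brjG
  simp only [map_sub, map_mul, map_pow, aeval_C, aeval_X, map_one]
  rw [← h, mul_pow]
  ring

end BrjPoly

/-! ### The abstract statement -/

section BrjAbs

variable {A FM F : Type*} [CommRing A] [Field FM] [Field F] [Algebra A FM] [Algebra A F]
variable (O : Subalgebra A F) (𝔫 : Ideal ↥O) [𝔫.IsPrime]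

/-- constants lie in `O_𝔫` -/
theorem brj_const_mem (a : A) : algebraMap A F a ∈ dmaLoc O 𝔫 :=
  dma_of_mem O 𝔫 (O.algebraMap_mem a)

/-- evaluation of polynomials over `A` at an element of `O_𝔫`, as a ring homomorphism to `O_𝔫` -/
noncomputable def brjEv {v : F} (hv : v ∈ dmaLoc O 𝔫) : A[X] →+* dmaLoc O 𝔫 :=
  Polynomial.eval₂RingHom ((algebraMap A F).codRestrict (dmaLoc O 𝔫) (brj_const_mem O 𝔫))
    ⟨v, hv⟩

theorem brjEv_comp {v : F} (hv : v ∈ dmaLoc O 𝔫) :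
    (dmaLoc O 𝔫).subtype.comp (brjEv O 𝔫 hv) = (aeval v : A[X] →ₐ[A] F).toRingHom := by
  refine Polynomial.ringHom_ext (fun a => ?_) ?_
  · simp [brjEv]
  · simp [brjEv]

theorem brjEv_coe {v : F} (hv : v ∈ dmaLoc O 𝔫) (p : A[X]) :
    ((brjEv O 𝔫 hv p : dmaLoc O 𝔫) : F) = aeval v p :=
  DFunLike.congr_fun (brjEv_comp O 𝔫 hv) p

theorem brj_aeval_mem {v : F} (hv : v ∈ dmaLoc O 𝔫) (p : A[X]) : aeval v p ∈ dmaLoc O 𝔫 := by
  rw [← brjEv_coe O 𝔫 hv p]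
  exact (brjEv O 𝔫 hv p).2

/-- **Domination of the chart**: `β (chtO A {u}) ⊆ O_𝔫` as soon as `β u ∈ O_𝔫`. -/
theorem brj_dom (hint : ∀ x : F, IsIntegral O x → x ∈ O) (β : FM →ₐ[A] F) (u : FM)
    (hβu : β u ∈ dmaLoc O 𝔫) {e : FM} (he : e ∈ chtO A {u}) : β e ∈ dmaLoc O 𝔫 := by
  obtain ⟨p, hpm, hp⟩ := (cht_isIntegral_adjoin_iff u e).mp (cht_mem_iff.mp he)
  refine dma_mem_of_monic O 𝔫 hint (p.map (brjEv O 𝔫 hβu)) (hpm.map _) ?_
  rw [eval₂_map]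
  have hhom : (dmaLoc O 𝔫).subtype.comp (brjEv O 𝔫 hβu) =
      (β : FM →+* F).comp (aeval u : A[X] →ₐ[A] FM).toRingHom := by
    refine Polynomial.ringHom_ext (fun a => ?_) ?_
    · simp [brjEv]
    · simp [brjEv]
  rw [hhom]
  have h1 := Polynomial.hom_eval₂ p (aeval u : A[X] →ₐ[A] FM).toRingHom (β : FM →+* F) e
  rw [hp, map_zero] at h1
  exact h1.symm

theorem brj_mul_notMem {x y : F} (hx : x ∈ dmaLoc O 𝔫) (hx' : x ∉ dmaMax O 𝔫)
    (hy' : y ∉ dmaMax O 𝔫) : x * y ∉ dmaMax O 𝔫 := by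
  intro h
  have h1 := dma_max_mul O 𝔫 (dma_inv_mem O 𝔫 hx hx') h
  rw [inv_mul_cancel_left₀ (dma_ne_zero O 𝔫 hx')] at h1
  exact hy' h1

theorem brj_pow_notMem {x : F} (hx : x ∈ dmaLoc O 𝔫) (hx' : x ∉ dmaMax O 𝔫) (k : ℕ) :
    x ^ k ∉ dmaMax O 𝔫 := by
  induction k with
  | zero =>
    rw [pow_zero]
    exact dma_one_notMem_max O 𝔫
  | succ k ih =>
    rw [pow_succ']
    exact brj_mul_notMem O 𝔫 hx hx' ih

/-- the image of a unit of `A` is a unit of `O_𝔫` -/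
theorem brj_unit_notMem (a e : A) (hae : a * e = 1) : algebraMap A F a ∉ dmaMax O 𝔫 := by
  intro h0
  have h1 := dma_max_mul O 𝔫 (brj_const_mem O 𝔫 e) h0
  rw [← map_mul, mul_comm, hae, map_one] at h1
  exact dma_one_notMem_max O 𝔫 h1

/-- if `hw = (d0 v - d1) / (v - 1)` lies in `O_𝔫` and `d0 - d1` is a unit, then `v - 1` is a
unit of `O_𝔫` -/
theorem brj_sub_one_notMem (d0 d1 e01 : A) (hd : (d0 - d1) * e01 = 1) {v hw : F}
    (hhw : hw ∈ dmaLoc O 𝔫)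
    (hrel : hw * (v - 1) = algebraMap A F d0 * v - algebraMap A F d1) :
    v - 1 ∉ dmaMax O 𝔫 := by
  intro h0
  apply brj_unit_notMem O 𝔫 (d0 - d1) e01 hd
  have h1 : algebraMap A F (d0 - d1) = (hw - algebraMap A F d0) * (v - 1) := by
    rw [map_sub]
    linear_combination -hrel
  rw [h1]
  exact dma_max_mul O 𝔫 ((dmaLoc O 𝔫).sub_mem hhw (brj_const_mem O 𝔫 d0)) h0

/-- **Non-cuspidality from a Bezout relation**: if `jq Q(hw) = P(hw)` with `jq, hw ∈ O_𝔫` and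
`U P + V Q = 1 + ℓ W`, `ℓ ∈ 𝔫 O_𝔫`, then `Q(hw)` is a unit of `O_𝔫`. -/
theorem brj_Q_notMem (ℓ : ℕ) (hℓ : (ℓ : F) ∈ dmaMax O 𝔫) (P Q U V W : ℤ[X])
    (hUV : U * P + V * Q = 1 + C (ℓ : ℤ) * W) {hw jq : F}
    (hrelq : jq * aeval hw Q = aeval hw P)
    (hhw : hw ∈ dmaLoc O 𝔫) (hjq : jq ∈ dmaLoc O 𝔫) : aeval hw Q ∉ dmaMax O 𝔫 := by
  intro h0
  have hC : aeval hw (C (ℓ : ℤ) : ℤ[X]) = (ℓ : F) := by
    rw [aeval_C]
    simp
  have h1 := congrArg (aeval hw) hUV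
  rw [map_add, map_mul, map_mul, map_add, map_one, map_mul, hC, ← hrelq] at h1
  have h2 : (1 : F) = (aeval hw U * jq + aeval hw V) * aeval hw Q - (ℓ : F) * aeval hw W := by
    linear_combination -h1
  apply dma_one_notMem_max O 𝔫
  rw [h2]
  refine (dmaMax O 𝔫).sub_mem (dma_max_mul O 𝔫 ?_ h0) ?_
  · exact (dmaLoc O 𝔫).add_mem ((dmaLoc O 𝔫).mul_mem (dma_aeval_mem O 𝔫 hhw U) hjq)
      (dma_aeval_mem O 𝔫 hhw V)
  · rw [mul_comm]
    exact dma_max_mul O 𝔫 (dma_aeval_mem O 𝔫 hhw W) hℓ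

/-- **BRANCH2-ABS.**  `bra_main` with `ξ := g(u)`, `d := (u - 1) ^ (q ^ 2)`,
`g := brjG d0 d1 (q ^ 2 - 2)`, for the chart `chtO A {u}` of a field `FM` mapped to `F` by `β`,
where `hw = (d0 β(u) - d1) / (β(u) - 1)` (the image under `β` of the Hauptmodul) satisfies the two
Kronecker congruences `h ^ q ≡ hw` modulo `𝔪_{V'}` and `h ≡ hw ^ q` modulo `𝔪_V`. -/
theorem brj_abs (hint : ∀ x : F, IsIntegral O x → x ∈ O)
    (V V' : ValuationSubring F)
    (hOV : ∀ x ∈ O, x ∈ V) (hp𝔫 : ∀ x : ↥O, (x : F) ∈ V.nonunits → x ∈ 𝔫)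
    (hOV' : ∀ x ∈ O, x ∈ V') (hp𝔫' : ∀ x : ↥O, (x : F) ∈ V'.nonunits → x ∈ 𝔫)
    (β : FM →ₐ[A] F) (u : FM) (τ : A)
    [IsDedekindDomain (↥(chtO A {u}) ⧸ Ideal.span {algebraMap A ↥(chtO A {u}) τ})]
    (hτV : algebraMap A F τ ∈ V.nonunits)
    (hβu : β u ∈ dmaLoc O 𝔫)
    (hres : ∀ x ∈ V, ∃ a s : ↥(chtO A {u}),
      β (s : FM) ∉ V.nonunits ∧ x * β (s : FM) - β (a : FM) ∈ V.nonunits)
    (q : ℕ) (hq2 : 2 ≤ q) (hq𝔫 : (q : F) ∈ dmaMax O 𝔫)
    (d0 d1 e01 : A) (hd : (d0 - d1) * e01 = 1)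
    (h hw : F) (hh : h ∈ dmaLoc O 𝔫) (hhw : hw ∈ dmaLoc O 𝔫)
    (hrel : hw * (β u - 1) = algebraMap A F d0 * β u - algebraMap A F d1)
    (hk1 : h ^ q - hw ∈ V'.nonunits) (hk2 : h - hw ^ q ∈ V.nonunits)
    (N : A[X]) (hN : aeval (β u) N ∉ dmaMax O 𝔫)
    (hU : ∀ P : Ideal ↥(chtO A {u}), P.IsPrime →
      Ideal.span {algebraMap A ↥(chtO A {u}) τ} ≤ P →
      aeval (⟨u, (cht_h1 u).1⟩ : ↥(chtO A {u})) N ∉ P → ∀ g : A[X],
      aeval (⟨u, (cht_h1 u).1⟩ : ↥(chtO A {u})) g ∈ P →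
      aeval (⟨u, (cht_h1 u).1⟩ : ↥(chtO A {u})) (derivative g) ∉ P →
      ∀ z ∈ P, ∃ s : ↥(chtO A {u}), s ∉ P ∧ ∃ γ : ↥(chtO A {u}),
        s * z - aeval (⟨u, (cht_h1 u).1⟩ : ↥(chtO A {u})) g * γ ∈
          Ideal.span {algebraMap A ↥(chtO A {u}) τ})
    (z : F) (hz : z ∈ dmaMax O 𝔫) :
    ∃ b : F, b ∈ dmaLoc O 𝔫 ∧ z - (h ^ q - hw) * b ∈ V.nonunits := by
  classical
  let βE : ↥(chtO A {u}) →ₐ[A] F := β.comp (chtO A {u}).val
  have hβn : ∀ e : ↥(chtO A {u}), βE e ∈ dmaLoc O 𝔫 :=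
    fun e => brj_dom O 𝔫 hint β u hβu e.2
  have hLV : ∀ {y : F}, y ∈ dmaLoc O 𝔫 → y ∈ V := fun hy => bra_loc_le O 𝔫 V hOV hp𝔫 hy
  have hβuE : βE (⟨u, (cht_h1 u).1⟩ : ↥(chtO A {u})) = β u := rfl
  obtain ⟨n, hn⟩ : ∃ n, q * q = n + 2 :=
    ⟨q * q - 2, by have : 2 * 2 ≤ q * q := Nat.mul_le_mul hq2 hq2; omega⟩
  -- units of `O_𝔫`
  have hd01 : algebraMap A F (d0 - d1) ∉ dmaMax O 𝔫 := brj_unit_notMem O 𝔫 (d0 - d1) e01 hd
  have hu1 : β u - 1 ∉ dmaMax O 𝔫 := brj_sub_one_notMem O 𝔫 d0 d1 e01 hd hhw hrel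
  have hu1L : β u - 1 ∈ dmaLoc O 𝔫 := (dmaLoc O 𝔫).sub_mem hβu (dmaLoc O 𝔫).one_mem
  have hqq : ((n + 2 : ℕ) : F) ∈ dmaMax O 𝔫 := by
    rw [← hn, Nat.cast_mul]
    exact dma_max_mul O 𝔫 (dma_max_le O 𝔫 hq𝔫) hq𝔫
  -- `x ∈ 𝔫 O_𝔫`
  have hx : h ^ q - hw ∈ dmaMax O 𝔫 :=
    bra_max_of_nonunits O 𝔫 V' hOV' hp𝔫'
      ((dmaLoc O 𝔫).sub_mem ((dmaLoc O 𝔫).pow_mem hh q) hhw) hk1
  -- the images of `ξ` and `d`
  have hgβ : βE (aeval (⟨u, (cht_h1 u).1⟩ : ↥(chtO A {u})) (brjG d0 d1 n)) =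
      (β u - 1) ^ (n + 2) * (hw ^ (n + 2) - hw) := by
    rw [← Polynomial.aeval_algHom_apply, hβuE]
    exact brj_aeval d0 d1 n (β u) hw hrel
  have hdβ : βE (((⟨u, (cht_h1 u).1⟩ : ↥(chtO A {u})) - 1) ^ (n + 2)) = (β u - 1) ^ (n + 2) := by
    rw [map_pow, map_sub, map_one, hβuE]
  have hxξ : (h ^ q - hw) * βE (((⟨u, (cht_h1 u).1⟩ : ↥(chtO A {u})) - 1) ^ (n + 2)) -
      βE (aeval (⟨u, (cht_h1 u).1⟩ : ↥(chtO A {u})) (brjG d0 d1 n)) ∈ V.nonunits := by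
    rw [hgβ, hdβ, ← hn]
    have hgeom := geom_sum₂_mul h (hw ^ q) q
    rw [← pow_mul] at hgeom
    have e : (h ^ q - hw) * (β u - 1) ^ (q * q) - (β u - 1) ^ (q * q) * (hw ^ (q * q) - hw)
        = (h - hw ^ q) * ((∑ i ∈ Finset.range q, h ^ i * (hw ^ q) ^ (q - 1 - i)) *
            (β u - 1) ^ (q * q)) := by
      linear_combination (-(β u - 1) ^ (q * q)) * hgeom
    rw [e]
    refine cpl_nu_mul V hk2 (hLV ?_)
    exact (dmaLoc O 𝔫).mul_mem
      ((dmaLoc O 𝔫).sum_mem fun i _ => (dmaLoc O 𝔫).mul_mem ((dmaLoc O 𝔫).pow_mem hh i)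
        ((dmaLoc O 𝔫).pow_mem ((dmaLoc O 𝔫).pow_mem hhw q) _))
      ((dmaLoc O 𝔫).pow_mem hu1L _)
  refine bra_main O 𝔫 V hOV hp𝔫 (βE : ↥(chtO A {u}) →+* F)
    (Ideal.span {algebraMap A ↥(chtO A {u}) τ}) ?_ hβn hres (h ^ q - hw) hx
    (aeval (⟨u, (cht_h1 u).1⟩ : ↥(chtO A {u})) (brjG d0 d1 n))
    (((⟨u, (cht_h1 u).1⟩ : ↥(chtO A {u})) - 1) ^ (n + 2)) hxξ ?_ z hz
  · intro x hx
    obtain ⟨c, rfl⟩ := Ideal.mem_span_singleton'.mp hx
    show βE (c * algebraMap A _ τ) ∈ V.nonunits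
    rw [map_mul, AlgHom.commutes, mul_comm]
    exact cpl_nu_mul V hτV (hLV (hβn c))
  · intro P hPmax hIP hξP hPmem z hz
    refine hU P hPmax.isPrime hIP ?_ (brjG d0 d1 n) hξP ?_ z hz
    · intro h0
      apply hN
      have h1 : βE (aeval (⟨u, (cht_h1 u).1⟩ : ↥(chtO A {u})) N) ∈ dmaMax O 𝔫 := (hPmem _).mp h0
      rwa [← Polynomial.aeval_algHom_apply, hβuE] at h1
    · intro h0
      have h1 : βE (aeval (⟨u, (cht_h1 u).1⟩ : ↥(chtO A {u})) (derivative (brjG d0 d1 n))) ∈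
          dmaMax O 𝔫 := (hPmem _).mp h0
      rw [← Polynomial.aeval_algHom_apply, hβuE, brj_derivative] at h1
      simp only [map_add, map_mul, map_pow, map_sub, aeval_C, aeval_X, map_one, map_natCast] at h1
      have hunit : algebraMap A F d0 - algebraMap A F d1 ∉ dmaMax O 𝔫 := by
        rw [← map_sub]
        exact hd01
      have hx1 : (algebraMap A F d0 - algebraMap A F d1) * (β u - 1) ^ n ∉ dmaMax O 𝔫 :=
        brj_mul_notMem O 𝔫
          ((dmaLoc O 𝔫).sub_mem (brj_const_mem O 𝔫 d0) (brj_const_mem O 𝔫 d1)) hunit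
          (brj_pow_notMem O 𝔫 hu1L hu1 n)
      have hx1L : (algebraMap A F d0 - algebraMap A F d1) * (β u - 1) ^ n ∈ dmaLoc O 𝔫 :=
        (dmaLoc O 𝔫).mul_mem
          ((dmaLoc O 𝔫).sub_mem (brj_const_mem O 𝔫 d0) (brj_const_mem O 𝔫 d1))
          ((dmaLoc O 𝔫).pow_mem hu1L n)
      have hy : ((n + 2 : ℕ) : F) * aeval (β u) (brjR d0 d1 n) ∈ dmaMax O 𝔫 := by
        rw [mul_comm]
        exact dma_max_mul O 𝔫 (brj_aeval_mem O 𝔫 hβu _) hqq
      refine dma_notMem_max_of_add O 𝔫 (dma_inv_mem O 𝔫 hx1L hx1) (dma_ne_zero O 𝔫 hx1) hy ?_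
      rw [add_comm]
      exact h1

end BrjAbs

/-! ### The concrete statement -/

section BrjInst

open AlgebraicCurve ModularCurve Fermat.Agent.S28

local notation "Qb" => AlgebraicClosure ℚ

variable (M q : ℕ) [NeZero M] [hq : Fact q.Prime] (hM : ¬ q ∣ M)
  (K0 : Type*) [Field K0] [Algebra ℚ K0] [Algebra K0 Qb]
  (A0 : ValuationSubring K0) [IsDiscreteValuationRing ↥A0]

omit [Algebra K0 Qb] in
/-- `α` maps the Hauptmodul of level `M` to the Hauptmodul of level `M q`. -/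
theorem brj_alpha_h {a2 : ℕ} (H : HauptRec a2 q) (ha2 : a2 ∣ M) :
    heckeAlphaBar K0 M q (dmiH K0 M H ha2) = dmiH K0 (M * q) H (ha2.mul_right q) := by
  apply Subtype.ext
  rw [coe_heckeAlphaBar]
  rfl

/-- `β` maps the Hauptmodul of level `M` to the swapped Hauptmodul of level `M q`. -/
theorem brj_beta_h {a2 : ℕ} (H : HauptRec a2 q) (ha2 : a2 ∣ M) :
    heckeBetaBar K0 M q (dmiH K0 M H ha2) =
      va2Swap M q hq.out hM K0 (dmiH K0 (M * q) H (ha2.mul_right q)) := by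
  rw [← brj_alpha_h M q K0 H ha2, va2Swap_alpha]

/-- the relation between the swapped Hauptmodul and the image under `β` of the level-`M` chart
coordinate `u = (h - d1) / (h - d0)` -/
theorem brj_rel {a2 : ℕ} (H : HauptRec a2 q) (ha2 : a2 ∣ M) (d0 d1 : K0)
    (u : ↥(laurentBaseChange K0 (modularFunctionFieldFull M)))
    (hu : (u : LaurentSeries K0) = cinstU H K0 d0 d1) :
    va2Swap M q hq.out hM K0 (dmiH K0 (M * q) H (ha2.mul_right q)) *
        (heckeBetaBar K0 M q u - 1) =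
      algebraMap K0 ↥(laurentBaseChange K0 (modularFunctionFieldFull (M * q))) d0 *
        heckeBetaBar K0 M q u -
      algebraMap K0 ↥(laurentBaseChange K0 (modularFunctionFieldFull (M * q))) d1 := by
  have h1 := dmi_t_eq K0 M H ha2 d0 d1 u hu
  have h2 := congrArg (heckeBetaBar K0 M q) h1
  rw [map_div₀, map_sub, map_sub, AlgHom.commutes, AlgHom.commutes, brj_beta_h M q hM K0 H ha2]
    at h2
  have hne : va2Swap M q hq.out hM K0 (dmiH K0 (M * q) H (ha2.mul_right q)) -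
      algebraMap K0 ↥(laurentBaseChange K0 (modularFunctionFieldFull (M * q))) d0 ≠ 0 := by
    rw [← brj_beta_h M q hM K0 H ha2, ← AlgHom.commutes (heckeBetaBar K0 M q) d0, ← map_sub]
    exact (_root_.map_ne_zero _).mpr (sub_ne_zero.mpr (dmiH_sub_ne K0 M H ha2 d0))
  rw [h2]
  field_simp
  ring

omit [Algebra K0 Qb] in
/-- constants are Gauss-integral and `τ` is a Gauss non-unit at level `M q` -/
theorem brj_gauss {a2 : ℕ} (H : HauptRec a2 q)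
    [Algebra A0 ↥(laurentBaseChange K0 (modularFunctionFieldFull M))]
    [IsScalarTower A0 K0 ↥(laurentBaseChange K0 (modularFunctionFieldFull M))]
    [Algebra A0 ↥(laurentBaseChange K0 (modularFunctionFieldFull (M * q)))]
    [IsScalarTower A0 K0 ↥(laurentBaseChange K0 (modularFunctionFieldFull (M * q)))]
    (τ : A0) (hτ : Irreducible τ)
    (d0 d1 : A0) (hd : IsLocalRing.residue A0 d0 ≠ IsLocalRing.residue A0 d1)
    (u : ↥(laurentBaseChange K0 (modularFunctionFieldFull M)))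
    (hu : (u : LaurentSeries K0) = cinstU H K0 (d0 : K0) (d1 : K0)) :
    (∀ a : A0, algebraMap A0 ↥(laurentBaseChange K0 (modularFunctionFieldFull (M * q))) a ∈
      va2V1 M q K0 A0) ∧
    algebraMap A0 ↥(laurentBaseChange K0 (modularFunctionFieldFull (M * q))) τ ∈
      (va2V1 M q K0 A0).nonunits := by
  have hVG : ∀ x : ↥(laurentBaseChange K0 (modularFunctionFieldFull (M * q))),
      x ∈ va2V1 M q K0 A0 ↔ (x : LaurentSeries K0) ∈ grV A0 := fun x => Iff.rfl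
  have htα : ((heckeAlphaBar K0 M q u : ↥(laurentBaseChange K0 (modularFunctionFieldFull (M * q)))) :
      LaurentSeries K0) = cinstU H K0 (d0 : K0) (d1 : K0) := by
    rw [coe_heckeAlphaBar, hu]
  obtain ⟨hA, hτV, -, -, -, -, -, -, -⟩ :=
    c2i_hyps A0 (M * q) H (va2V1 M q K0 A0) hVG d0 d1 hd (heckeAlphaBar K0 M q u) htα τ hτ
  exact ⟨hA, hτV⟩

/-- `q ∈ 𝔫 O_𝔫` at a point of the first component -/
theorem brj_q_mem (hA0 : A0.LiesOverPrime q)
    [Algebra A0 ↥(laurentBaseChange K0 (modularFunctionFieldFull (M * q)))]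
    (τ : A0) (hτ : Irreducible τ)
    (hA : ∀ a : A0, algebraMap A0 ↥(laurentBaseChange K0 (modularFunctionFieldFull (M * q))) a ∈
      va2V1 M q K0 A0)
    (hτV : algebraMap A0 ↥(laurentBaseChange K0 (modularFunctionFieldFull (M * q))) τ ∈
      (va2V1 M q K0 A0).nonunits)
    (O : Subalgebra A0 ↥(laurentBaseChange K0 (modularFunctionFieldFull (M * q))))
    (hO1 : ∀ x ∈ O, x ∈ va2V1 M q K0 A0) (𝔫 : Ideal ↥O) [𝔫.IsPrime]
    (hp1 : ∀ x : ↥O, (x : ↥(laurentBaseChange K0 (modularFunctionFieldFull (M * q)))) ∈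
      (va2V1 M q K0 A0).nonunits → x ∈ 𝔫) :
    ((q : ℕ) : ↥(laurentBaseChange K0 (modularFunctionFieldFull (M * q)))) ∈ dmaMax O 𝔫 := by
  have h1 : ((q : A0) : K0) ∈ A0.nonunits := by
    have h2 : (q : K0) ∈ A0.nonunits := hA0
    simpa using h2
  rw [ValuationSubring.coe_mem_nonunits_iff, hτ.maximalIdeal_eq,
    Ideal.mem_span_singleton] at h1
  obtain ⟨a, ha⟩ := h1
  have h3 : ((q : ℕ) : ↥(laurentBaseChange K0 (modularFunctionFieldFull (M * q)))) =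
      algebraMap A0 _ τ * algebraMap A0 _ a := by
    rw [← map_mul, ← ha, map_natCast]
  rw [h3]
  refine bra_max_of_nonunits O 𝔫 (va2V1 M q K0 A0) hO1 hp1 ?_ (cpl_nu_mul _ hτV (hA a))
  exact (dmaLoc O 𝔫).mul_mem (brj_const_mem O 𝔫 τ) (brj_const_mem O 𝔫 a)

/-- **The image under `β` of the level-`M` chart coordinate is not cuspidal** at a point where
`w h` and `j(q^ℓ)` are regular: the hypothesis `hNP` of `unr_local`, upstairs. -/
theorem brj_hN {a2 : ℕ} (H : HauptRec a2 q) (ha2 : a2 ∣ M)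
    [Algebra A0 ↥(laurentBaseChange K0 (modularFunctionFieldFull (M * q)))]
    [IsScalarTower A0 K0 ↥(laurentBaseChange K0 (modularFunctionFieldFull (M * q)))]
    (d0 d1 e01 : A0) (he01 : (d0 - d1) * e01 = 1)
    (u : ↥(laurentBaseChange K0 (modularFunctionFieldFull M)))
    (hu : (u : LaurentSeries K0) = cinstU H K0 (d0 : K0) (d1 : K0))
    (O : Subalgebra A0 ↥(laurentBaseChange K0 (modularFunctionFieldFull (M * q))))
    (𝔫 : Ideal ↥O) [𝔫.IsPrime]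
    (hq𝔫 : ((q : ℕ) : ↥(laurentBaseChange K0 (modularFunctionFieldFull (M * q)))) ∈ dmaMax O 𝔫)
    (hwh : va2Swap M q hq.out hM K0 (dmiH K0 (M * q) H (ha2.mul_right q)) ∈ dmaLoc O 𝔫)
    (hJq : va2Jd K0 (M * q) q (dvd_mul_left q M) ∈ dmaLoc O 𝔫)
    (hβu : heckeBetaBar K0 M q u ∈ dmaLoc O 𝔫) :
    aeval (heckeBetaBar K0 M q u) (hcuNum H ↥A0 d0 d1) ∉ dmaMax O 𝔫 := by
  have hmap : ∀ a : A0,
      algebraMap A0 ↥(laurentBaseChange K0 (modularFunctionFieldFull (M * q))) a =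
        algebraMap K0 ↥(laurentBaseChange K0 (modularFunctionFieldFull (M * q))) (a : K0) :=
    fun a => IsScalarTower.algebraMap_apply A0 K0
      ↥(laurentBaseChange K0 (modularFunctionFieldFull (M * q))) a
  have hrel := brj_rel M q hM K0 H ha2 (d0 : K0) (d1 : K0) u hu
  rw [← hmap, ← hmap] at hrel
  have hu1 := brj_sub_one_notMem O 𝔫 d0 d1 e01 he01 hwh hrel
  have hu1L : heckeBetaBar K0 M q u - 1 ∈ dmaLoc O 𝔫 :=
    (dmaLoc O 𝔫).sub_mem hβu (dmaLoc O 𝔫).one_mem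
  obtain ⟨U, V, W, hUV⟩ := dmi_bezout H.P H.Q H.coprime_mod
  have hQ := brj_Q_notMem O 𝔫 q hq𝔫 H.P H.Q U V W hUV (dmi_relq M q hq.out hM H ha2) hwh hJq
  rw [hcuNum_aeval, ← hrel,
    mul_comm (va2Swap M q hq.out hM K0 (dmiH K0 (M * q) H (ha2.mul_right q)))
      (heckeBetaBar K0 M q u - 1),
    hcuHom_mul H.Q (hcu_natDegree_Q_le H)]
  exact brj_mul_notMem O 𝔫 ((dmaLoc O 𝔫).pow_mem hu1L _) (brj_pow_notMem O 𝔫 hu1L hu1 _) hQ

/-- **BRANCH2-INST.**  Let `O` be an integrally closed `A0`-subalgebra of the level-`M q`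
function field contained in `V₁ ∩ V₂` (a chart), `𝔫` a prime of `O` at which the two components
cross, at which the Hauptmodul `h` and its swap `w h` are regular, and at which the image under
`β` of the level-`M` chart coordinate `u` is regular and not cuspidal.  Then the branch of the
second component through `𝔫` is a discrete valuation ring with uniformiser `x = h ^ q - w h`:
`𝔫 O_𝔫 ⊆ x O_𝔫 + (O_𝔫 ∩ 𝔪_{V₂})`. -/
theorem brj_main (hA0 : A0.LiesOverPrime q) {a2 : ℕ} (H : HauptRec a2 q) (ha2 : a2 ∣ M)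
    [Algebra A0 ↥(laurentBaseChange K0 (modularFunctionFieldFull M))]
    [IsScalarTower A0 K0 ↥(laurentBaseChange K0 (modularFunctionFieldFull M))]
    [Algebra A0 ↥(laurentBaseChange K0 (modularFunctionFieldFull (M * q)))]
    [IsScalarTower A0 K0 ↥(laurentBaseChange K0 (modularFunctionFieldFull (M * q)))]
    (τ : A0) (hτ : Irreducible τ)
    (d0 d1 : A0) (hd : IsLocalRing.residue A0 d0 ≠ IsLocalRing.residue A0 d1)
    (u : ↥(laurentBaseChange K0 (modularFunctionFieldFull M)))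
    (hu : (u : LaurentSeries K0) = cinstU H K0 (d0 : K0) (d1 : K0))
    [IsDedekindDomain (↥(chtO A0 {u}) ⧸ Ideal.span {algebraMap A0 ↥(chtO A0 {u}) τ})]
    (huc : unrChart K0 A0 M H d0 d1)
    (O : Subalgebra A0 ↥(laurentBaseChange K0 (modularFunctionFieldFull (M * q))))
    (hint : ∀ x : ↥(laurentBaseChange K0 (modularFunctionFieldFull (M * q))),
      IsIntegral O x → x ∈ O)
    (hO1 : ∀ x ∈ O, x ∈ va2V1 M q K0 A0) (hO2 : ∀ x ∈ O, x ∈ va2V2 M q hM K0 A0)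
    (𝔫 : Ideal ↥O) [𝔫.IsPrime]
    (hp1 : ∀ x : ↥O, (x : ↥(laurentBaseChange K0 (modularFunctionFieldFull (M * q)))) ∈
      (va2V1 M q K0 A0).nonunits → x ∈ 𝔫)
    (hp2 : ∀ x : ↥O, (x : ↥(laurentBaseChange K0 (modularFunctionFieldFull (M * q)))) ∈
      (va2V2 M q hM K0 A0).nonunits → x ∈ 𝔫)
    (hh : dmiH K0 (M * q) H (ha2.mul_right q) ∈ dmaLoc O 𝔫)
    (hwh : va2Swap M q hq.out hM K0 (dmiH K0 (M * q) H (ha2.mul_right q)) ∈ dmaLoc O 𝔫)
    (hβu : heckeBetaBar K0 M q u ∈ dmaLoc O 𝔫)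
    (hN : aeval (heckeBetaBar K0 M q u) (hcuNum H ↥A0 d0 d1) ∉ dmaMax O 𝔫)
    (z : ↥(laurentBaseChange K0 (modularFunctionFieldFull (M * q)))) (hz : z ∈ dmaMax O 𝔫) :
    ∃ b : ↥(laurentBaseChange K0 (modularFunctionFieldFull (M * q))), b ∈ dmaLoc O 𝔫 ∧
      z - (dmiH K0 (M * q) H (ha2.mul_right q) ^ q -
          va2Swap M q hq.out hM K0 (dmiH K0 (M * q) H (ha2.mul_right q))) * b ∈
        (va2V2 M q hM K0 A0).nonunits := by
  classical
  have hVG : ∀ x : ↥(laurentBaseChange K0 (modularFunctionFieldFull (M * q))),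
      x ∈ va2V1 M q K0 A0 ↔ (x : LaurentSeries K0) ∈ grV A0 := fun x => Iff.rfl
  have hV2 : ∀ x : ↥(laurentBaseChange K0 (modularFunctionFieldFull (M * q))),
      x ∈ va2V2 M q hM K0 A0 ↔ va2Swap M q hq.out hM K0 x ∈ va2V1 M q K0 A0 := fun x => Iff.rfl
  have hmap : ∀ a : A0,
      algebraMap A0 ↥(laurentBaseChange K0 (modularFunctionFieldFull (M * q))) a =
        algebraMap K0 ↥(laurentBaseChange K0 (modularFunctionFieldFull (M * q))) (a : K0) :=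
    fun a => IsScalarTower.algebraMap_apply A0 K0
      ↥(laurentBaseChange K0 (modularFunctionFieldFull (M * q))) a
  -- the Gauss-side facts at level `M q`
  obtain ⟨hA, hτV⟩ := brj_gauss M q K0 A0 H τ hτ d0 d1 hd u hu
  -- `τ ∈ 𝔪_{V₂}`
  have hτV2 : algebraMap A0 ↥(laurentBaseChange K0 (modularFunctionFieldFull (M * q))) τ ∈
      (va2V2 M q hM K0 A0).nonunits := by
    show _ ∈ ((va2V1 M q K0 A0).comap (va2Swap M q hq.out hM K0)).nonunits
    rw [va2r_nonunits_comap, hmap, va2Swap_const, ← hmap]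
    exact hτV
  -- `q ∈ 𝔫 O_𝔫`
  have hq𝔫 := brj_q_mem M q K0 A0 hA0 τ hτ hA hτV O hO1 𝔫 hp1
  -- `d0 - d1` is a unit of `A0`
  obtain ⟨e01, he01⟩ : ∃ e01 : A0, (d0 - d1) * e01 = 1 := by
    have h1 : IsUnit (d0 - d1) := by
      rw [← IsLocalRing.residue_ne_zero_iff_isUnit, map_sub, sub_ne_zero]
      exact hd
    exact h1.exists_right_inv
  -- the Kronecker congruences
  have hxq : ((va2Swap M q hq.out hM K0 (dmiH K0 (M * q) H (ha2.mul_right q)) :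
      ↥(laurentBaseChange K0 (modularFunctionFieldFull (M * q)))) : LaurentSeries K0) =
      qExpand K0 q ((dmiH K0 (M * q) H (ha2.mul_right q) :
        ↥(laurentBaseChange K0 (modularFunctionFieldFull (M * q)))) : LaurentSeries K0) := by
    rw [← brj_beta_h M q hM K0 H ha2, coe_heckeBetaBar]
    rfl
  have hk1 := (krv_V1_gen' A0 q hq.out hA0 (va2V1 M q K0 A0) hVG
    (dmiH K0 (M * q) H (ha2.mul_right q))
    (va2Swap M q hq.out hM K0 (dmiH K0 (M * q) H (ha2.mul_right q))) H.hZ rfl hxq).2.2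
  have hk2 := (krv_V2_gen' A0 q hq.out hA0 (va2V1 M q K0 A0) hVG (va2Swap M q hq.out hM K0)
    (va2V2 M q hM K0 A0) hV2 (dmiH K0 (M * q) H (ha2.mul_right q))
    (va2Swap M q hq.out hM K0 (dmiH K0 (M * q) H (ha2.mul_right q))) H.hZ rfl hxq rfl
    (va2Swap_swap M q hq.out hM K0 _)).2.2
  -- the relation between `w h` and `β u`
  have hrel := brj_rel M q hM K0 H ha2 (d0 : K0) (d1 : K0) u hu
  rw [← hmap, ← hmap] at hrel
  exact brj_abs O 𝔫 hint (va2V2 M q hM K0 A0) (va2V1 M q K0 A0) hO2 hp2 hO1 hp1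
    ((heckeBetaBar K0 M q).restrictScalars A0) u τ hτV2 hβu
    (fun x hx => va2r_hres2_main M q hM K0 A0 hA0 H d0 d1 hd u hu x hx)
    q hq.out.two_le hq𝔫 d0 d1 e01 he01
    (dmiH K0 (M * q) H (ha2.mul_right q))
    (va2Swap M q hq.out hM K0 (dmiH K0 (M * q) H (ha2.mul_right q))) hh hwh hrel hk1 hk2
    (hcuNum H ↥A0 d0 d1) hN
    (fun P hP hIP hNP g hg hg' =>
      haveI := hP
      unr_local_hU A0 M H d0 d1 huc u hu τ hτ P hIP hNP g hg hg')
    z hz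

/-- `brj_main` with the non-cuspidality hypothesis replaced by the regularity of `j(q^ℓ)`. -/
theorem brj_main_Jq (hA0 : A0.LiesOverPrime q) {a2 : ℕ} (H : HauptRec a2 q) (ha2 : a2 ∣ M)
    [Algebra A0 ↥(laurentBaseChange K0 (modularFunctionFieldFull M))]
    [IsScalarTower A0 K0 ↥(laurentBaseChange K0 (modularFunctionFieldFull M))]
    [Algebra A0 ↥(laurentBaseChange K0 (modularFunctionFieldFull (M * q)))]
    [IsScalarTower A0 K0 ↥(laurentBaseChange K0 (modularFunctionFieldFull (M * q)))]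
    (τ : A0) (hτ : Irreducible τ)
    (d0 d1 : A0) (hd : IsLocalRing.residue A0 d0 ≠ IsLocalRing.residue A0 d1)
    (u : ↥(laurentBaseChange K0 (modularFunctionFieldFull M)))
    (hu : (u : LaurentSeries K0) = cinstU H K0 (d0 : K0) (d1 : K0))
    [IsDedekindDomain (↥(chtO A0 {u}) ⧸ Ideal.span {algebraMap A0 ↥(chtO A0 {u}) τ})]
    (huc : unrChart K0 A0 M H d0 d1)
    (O : Subalgebra A0 ↥(laurentBaseChange K0 (modularFunctionFieldFull (M * q))))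
    (hint : ∀ x : ↥(laurentBaseChange K0 (modularFunctionFieldFull (M * q))),
      IsIntegral O x → x ∈ O)
    (hO1 : ∀ x ∈ O, x ∈ va2V1 M q K0 A0) (hO2 : ∀ x ∈ O, x ∈ va2V2 M q hM K0 A0)
    (𝔫 : Ideal ↥O) [𝔫.IsPrime]
    (hp1 : ∀ x : ↥O, (x : ↥(laurentBaseChange K0 (modularFunctionFieldFull (M * q)))) ∈
      (va2V1 M q K0 A0).nonunits → x ∈ 𝔫)
    (hp2 : ∀ x : ↥O, (x : ↥(laurentBaseChange K0 (modularFunctionFieldFull (M * q)))) ∈
      (va2V2 M q hM K0 A0).nonunits → x ∈ 𝔫)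
    (hh : dmiH K0 (M * q) H (ha2.mul_right q) ∈ dmaLoc O 𝔫)
    (hwh : va2Swap M q hq.out hM K0 (dmiH K0 (M * q) H (ha2.mul_right q)) ∈ dmaLoc O 𝔫)
    (hJq : va2Jd K0 (M * q) q (dvd_mul_left q M) ∈ dmaLoc O 𝔫)
    (hβu : heckeBetaBar K0 M q u ∈ dmaLoc O 𝔫)
    (z : ↥(laurentBaseChange K0 (modularFunctionFieldFull (M * q)))) (hz : z ∈ dmaMax O 𝔫) :
    ∃ b : ↥(laurentBaseChange K0 (modularFunctionFieldFull (M * q))), b ∈ dmaLoc O 𝔫 ∧
      z - (dmiH K0 (M * q) H (ha2.mul_right q) ^ q -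
          va2Swap M q hq.out hM K0 (dmiH K0 (M * q) H (ha2.mul_right q))) * b ∈
        (va2V2 M q hM K0 A0).nonunits := by
  obtain ⟨hA, hτV⟩ := brj_gauss M q K0 A0 H τ hτ d0 d1 hd u hu
  have hq𝔫 := brj_q_mem M q K0 A0 hA0 τ hτ hA hτV O hO1 𝔫 hp1
  obtain ⟨e01, he01⟩ : ∃ e01 : A0, (d0 - d1) * e01 = 1 := by
    have h1 : IsUnit (d0 - d1) := by
      rw [← IsLocalRing.residue_ne_zero_iff_isUnit, map_sub, sub_ne_zero]
      exact hd
    exact h1.exists_right_inv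
  exact brj_main M q hM K0 A0 hA0 H ha2 τ hτ d0 d1 hd u hu huc O hint hO1 hO2 𝔫 hp1 hp2 hh hwh
    hβu (brj_hN M q hM K0 A0 H ha2 d0 d1 e01 he01 u hu O 𝔫 hq𝔫 hwh hJq hβu) z hz

/-- **BRANCH2-INST at a crossing point, both orientations of the level-`M` chart.**  `t`, `tM`
the chart coordinates `(h - c1) / (h - c0)` of level `M q` and `M`; `hdom` is the conclusion of
DOM (`dmi_dom`) at `𝔫`; `hh`, `hwh`, `hJq` are conclusions of CUSP-NC (`cng_main`) at `𝔫`. -/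
theorem brj_node (hA0 : A0.LiesOverPrime q) {a2 : ℕ} (H : HauptRec a2 q) (ha2 : a2 ∣ M)
    [Algebra A0 ↥(laurentBaseChange K0 (modularFunctionFieldFull M))]
    [IsScalarTower A0 K0 ↥(laurentBaseChange K0 (modularFunctionFieldFull M))]
    [Algebra A0 ↥(laurentBaseChange K0 (modularFunctionFieldFull (M * q)))]
    [IsScalarTower A0 K0 ↥(laurentBaseChange K0 (modularFunctionFieldFull (M * q)))]
    (τ : A0) (hτ : Irreducible τ)
    (c0 c1 : A0) (hc : IsLocalRing.residue A0 c0 ≠ IsLocalRing.residue A0 c1)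
    (tM : ↥(laurentBaseChange K0 (modularFunctionFieldFull M)))
    (htM : (tM : LaurentSeries K0) = cinstU H K0 (c0 : K0) (c1 : K0))
    [IsDedekindDomain (↥(chtO A0 {tM}) ⧸ Ideal.span {algebraMap A0 ↥(chtO A0 {tM}) τ})]
    [IsDedekindDomain (↥(chtO A0 {tM⁻¹}) ⧸ Ideal.span {algebraMap A0 ↥(chtO A0 {tM⁻¹}) τ})]
    (huc0 : unrChart K0 A0 M H c0 c1) (huc1 : unrChart K0 A0 M H c1 c0)
    (t : ↥(laurentBaseChange K0 (modularFunctionFieldFull (M * q))))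
    (ht : (t : LaurentSeries K0) = cinstU H K0 (c0 : K0) (c1 : K0))
    (O : Subalgebra A0 ↥(laurentBaseChange K0 (modularFunctionFieldFull (M * q))))
    (hint : ∀ x : ↥(laurentBaseChange K0 (modularFunctionFieldFull (M * q))),
      IsIntegral O x → x ∈ O)
    (hO1 : ∀ x ∈ O, x ∈ va2V1 M q K0 A0) (hO2 : ∀ x ∈ O, x ∈ va2V2 M q hM K0 A0)
    (𝔫 : Ideal ↥O) [𝔫.IsPrime]
    (hp1 : ∀ x : ↥O, (x : ↥(laurentBaseChange K0 (modularFunctionFieldFull (M * q)))) ∈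
      (va2V1 M q K0 A0).nonunits → x ∈ 𝔫)
    (hp2 : ∀ x : ↥O, (x : ↥(laurentBaseChange K0 (modularFunctionFieldFull (M * q)))) ∈
      (va2V2 M q hM K0 A0).nonunits → x ∈ 𝔫)
    (hh : ∃ a s : ↥O, s ∉ 𝔫 ∧ dmiH K0 (M * q) H (ha2.mul_right q) *
      (s : ↥(laurentBaseChange K0 (modularFunctionFieldFull (M * q)))) = a)
    (hwh : ∃ a s : ↥O, s ∉ 𝔫 ∧ va2Swap M q hq.out hM K0 (dmiH K0 (M * q) H (ha2.mul_right q)) *
      (s : ↥(laurentBaseChange K0 (modularFunctionFieldFull (M * q)))) = a)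
    (hJq : ∃ a s : ↥O, s ∉ 𝔫 ∧ va2Jd K0 (M * q) q (dvd_mul_left q M) *
      (s : ↥(laurentBaseChange K0 (modularFunctionFieldFull (M * q)))) = a)
    (hdom : (∃ a s : ↥O, s ∉ 𝔫 ∧ va2SwapEquiv M q hq.out hM K0 t *
        (s : ↥(laurentBaseChange K0 (modularFunctionFieldFull (M * q)))) = a) ∨
      (∃ a s : ↥O, s ∉ 𝔫 ∧ va2SwapEquiv M q hq.out hM K0 t⁻¹ *
        (s : ↥(laurentBaseChange K0 (modularFunctionFieldFull (M * q)))) = a))
    (z : ↥(laurentBaseChange K0 (modularFunctionFieldFull (M * q)))) (hz : z ∈ dmaMax O 𝔫) :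
    ∃ b : ↥(laurentBaseChange K0 (modularFunctionFieldFull (M * q))), b ∈ dmaLoc O 𝔫 ∧
      z - (dmiH K0 (M * q) H (ha2.mul_right q) ^ q -
          va2Swap M q hq.out hM K0 (dmiH K0 (M * q) H (ha2.mul_right q))) * b ∈
        (va2V2 M q hM K0 A0).nonunits := by
  have hαt : heckeAlphaBar K0 M q tM = t := by
    apply Subtype.ext
    rw [coe_heckeAlphaBar, htM, ht]
  have hβt : heckeBetaBar K0 M q tM = va2Swap M q hq.out hM K0 t := by
    rw [← hαt, va2Swap_alpha]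
  rcases hdom with h1 | h1
  · have hβu : heckeBetaBar K0 M q tM ∈ dmaLoc O 𝔫 := by
      rw [hβt]
      rw [va2SwapEquiv_apply] at h1
      exact h1
    exact brj_main_Jq M q hM K0 A0 hA0 H ha2 τ hτ c0 c1 hc tM htM huc0 O hint hO1 hO2 𝔫 hp1 hp2
      hh hwh hJq hβu z hz
  · have htM' : ((tM⁻¹ : ↥(laurentBaseChange K0 (modularFunctionFieldFull M))) :
        LaurentSeries K0) = cinstU H K0 (c1 : K0) (c0 : K0) := by
      rw [IntermediateField.coe_inv, htM, cinstU_inv]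
    have hβu : heckeBetaBar K0 M q tM⁻¹ ∈ dmaLoc O 𝔫 := by
      rw [map_inv₀, hβt, ← map_inv₀]
      rw [va2SwapEquiv_apply] at h1
      exact h1
    exact brj_main_Jq M q hM K0 A0 hA0 H ha2 τ hτ c1 c0 hc.symm tM⁻¹ htM' huc1 O hint hO1 hO2 𝔫
      hp1 hp2 hh hwh hJq hβu z hz

/-- `brj_node` with the three regularity hypotheses derived from the regularity of `j` at `𝔫`
(a crossing point is not cuspidal: `cng_j_mem`). -/
theorem brj_node_J (hA0 : A0.LiesOverPrime q) {a2 : ℕ} (H : HauptRec a2 q) (ha2 : a2 ∣ M)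
    [Algebra A0 ↥(laurentBaseChange K0 (modularFunctionFieldFull M))]
    [IsScalarTower A0 K0 ↥(laurentBaseChange K0 (modularFunctionFieldFull M))]
    [Algebra A0 ↥(laurentBaseChange K0 (modularFunctionFieldFull (M * q)))]
    [IsScalarTower A0 K0 ↥(laurentBaseChange K0 (modularFunctionFieldFull (M * q)))]
    (τ : A0) (hτ : Irreducible τ)
    (c0 c1 : A0) (hc : IsLocalRing.residue A0 c0 ≠ IsLocalRing.residue A0 c1)
    (tM : ↥(laurentBaseChange K0 (modularFunctionFieldFull M)))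
    (htM : (tM : LaurentSeries K0) = cinstU H K0 (c0 : K0) (c1 : K0))
    [IsDedekindDomain (↥(chtO A0 {tM}) ⧸ Ideal.span {algebraMap A0 ↥(chtO A0 {tM}) τ})]
    [IsDedekindDomain (↥(chtO A0 {tM⁻¹}) ⧸ Ideal.span {algebraMap A0 ↥(chtO A0 {tM⁻¹}) τ})]
    (huc0 : unrChart K0 A0 M H c0 c1) (huc1 : unrChart K0 A0 M H c1 c0)
    (t : ↥(laurentBaseChange K0 (modularFunctionFieldFull (M * q))))
    (ht : (t : LaurentSeries K0) = cinstU H K0 (c0 : K0) (c1 : K0))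
    (O : Subalgebra A0 ↥(laurentBaseChange K0 (modularFunctionFieldFull (M * q))))
    (hint : ∀ x : ↥(laurentBaseChange K0 (modularFunctionFieldFull (M * q))),
      IsIntegral O x → x ∈ O)
    (hO1 : ∀ x ∈ O, x ∈ va2V1 M q K0 A0) (hO2 : ∀ x ∈ O, x ∈ va2V2 M q hM K0 A0)
    (𝔫 : Ideal ↥O) [𝔫.IsPrime]
    (hp1 : ∀ x : ↥O, (x : ↥(laurentBaseChange K0 (modularFunctionFieldFull (M * q)))) ∈
      (va2V1 M q K0 A0).nonunits → x ∈ 𝔫)
    (hp2 : ∀ x : ↥O, (x : ↥(laurentBaseChange K0 (modularFunctionFieldFull (M * q)))) ∈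
      (va2V2 M q hM K0 A0).nonunits → x ∈ 𝔫)
    (hJ : ∃ a s : ↥O, s ∉ 𝔫 ∧ va2Jd K0 (M * q) 1 (one_dvd _) *
      (s : ↥(laurentBaseChange K0 (modularFunctionFieldFull (M * q)))) = a)
    (hdom : (∃ a s : ↥O, s ∉ 𝔫 ∧ va2SwapEquiv M q hq.out hM K0 t *
        (s : ↥(laurentBaseChange K0 (modularFunctionFieldFull (M * q)))) = a) ∨
      (∃ a s : ↥O, s ∉ 𝔫 ∧ va2SwapEquiv M q hq.out hM K0 t⁻¹ *
        (s : ↥(laurentBaseChange K0 (modularFunctionFieldFull (M * q)))) = a))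
    (z : ↥(laurentBaseChange K0 (modularFunctionFieldFull (M * q)))) (hz : z ∈ dmaMax O 𝔫) :
    ∃ b : ↥(laurentBaseChange K0 (modularFunctionFieldFull (M * q))), b ∈ dmaLoc O 𝔫 ∧
      z - (dmiH K0 (M * q) H (ha2.mul_right q) ^ q -
          va2Swap M q hq.out hM K0 (dmiH K0 (M * q) H (ha2.mul_right q))) * b ∈
        (va2V2 M q hM K0 A0).nonunits := by
  obtain ⟨Φ, hΦ, hΦ1, -⟩ := mqk_exists_poly M q hq.out hM K0
  have hdeg : H.Q.natDegree < H.P.natDegree := by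
    rw [H.natDegree_P]
    exact H.natDegree_Q
  have hJ' : va2Jd K0 (M * q) 1 (one_dvd _) ∈ dmaLoc O 𝔫 := hJ
  have hJq : va2Jd K0 (M * q) q (dvd_mul_left q M) ∈ dmaLoc O 𝔫 :=
    dma_mem_of_rel O 𝔫 hint hJ' Φ hΦ hΦ1
  have hwh : va2Swap M q hq.out hM K0 (dmiH K0 (M * q) H (ha2.mul_right q)) ∈ dmaLoc O 𝔫 :=
    dma_hq_mem O 𝔫 hint H.P H.Q H.P_monic hdeg (dmi_relq M q hq.out hM H ha2) Φ hΦ hΦ1 hJ'
  have hΨ : (X - C X : ℤ[X][X]).eval₂
      ((aeval (va2Jd K0 (M * q) 1 (one_dvd _)) :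
        ℤ[X] →ₐ[ℤ] ↥(laurentBaseChange K0 (modularFunctionFieldFull (M * q)))).toRingHom)
      (va2Jd K0 (M * q) 1 (one_dvd _)) = 0 := by
    rw [eval₂_sub, eval₂_X, eval₂_C]
    simp
  have hh : dmiH K0 (M * q) H (ha2.mul_right q) ∈ dmaLoc O 𝔫 :=
    dma_hq_mem O 𝔫 hint H.P H.Q H.P_monic hdeg (dmi_rel K0 (M * q) H (ha2.mul_right q))
      (X - C X) (monic_X_sub_C _) hΨ hJ'
  exact brj_node M q hM K0 A0 hA0 H ha2 τ hτ c0 c1 hc tM htM huc0 huc1 t ht O hint hO1 hO2 𝔫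
    hp1 hp2 hh hwh hJq hdom z hz

end BrjInst

end Fermat.Agent.S34
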