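import Fermat.Agent.S37.ModEq
import Fermat.Agent.S34.Val2Swap

/-!
# S34, package [ZINT]: the degree-bounded modular equation

For every level `N` and every `d ∣ N` the function `z = j(q^d) / j ^ d` of the function field of
`X₀(N)` is integral over `ℤ[1 / j]`:

* `mqd_isIntegral`: over `ℚ̄`, for every subring containing `1 / j`;
* `mqd_exists_poly`: as a monic polynomial with coefficients in `ℤ[1 / j]`;
* `mqd_main`: over any field of definition `K0 ⊆ ℚ̄`, in the form
  `IsIntegral (Subring.closure {J⁻¹}) (Jd * J⁻¹ ^ d)` for the generators `J = va2Jd K0 N 1 _`,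
  `Jd = va2Jd K0 N d _`.

Proof.  The characteristic polynomial `p` of `j(q^d)` over `ℚ̄(j)` has coefficients
`p_k = P_k(j)` with `P_k` a polynomial with algebraic-integer coefficients (S37, `ModEq`).  At the
cusps the conjugates of `j(q^d)` are Laurent series of order `≥ -d N` in the local parameter, in
which `1 / j` has order `N`; hence `p_k / j ^ (d (deg p - k))` is a power series at the cusps,
which forces `deg P_k ≤ d (deg p - k)`.  Therefore the polynomial `p` with roots scaled by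
`1 / j ^ d` is monic with coefficients in `ℤ̄[1 / j]`, and vanishes at `z`.
-/

set_option autoImplicit false

open Polynomial AlgebraicCurve IntermediateField UpperHalfPlane ModularForm
open scoped MatrixGroups

namespace Fermat.Agent.S34

open Fermat.Agent.S24 Fermat.Agent.S37 Fermat.Agent.S18 ModularCurve

/-! ### Laurent series: vanishing of low coefficients -/

section Laurent

/-- vanishing of the coefficients below a bound is multiplicative -/
theorem mqd_coeff_mul_zero (f g : LaurentSeries ℂ) (a b : ℤ)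
    (hf : ∀ n < a, f.coeff n = 0) (hg : ∀ n < b, g.coeff n = 0) :
    ∀ n < a + b, (f * g).coeff n = 0 := by
  intro n hn
  by_cases hf0 : f = 0
  · rw [hf0, zero_mul, HahnSeries.coeff_zero]
  by_cases hg0 : g = 0
  · rw [hg0, mul_zero, HahnSeries.coeff_zero]
  have h1 : a ≤ f.order := (HahnSeries.le_order_iff_forall hf0).mpr hf
  have h2 : b ≤ g.order := (HahnSeries.le_order_iff_forall hg0).mpr hg
  apply HahnSeries.coeff_eq_zero_of_lt_order
  rw [HahnSeries.order_mul hf0 hg0]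
  omega

theorem mqd_coeff_pow_zero (f : LaurentSeries ℂ) (a : ℤ) (hf : ∀ n < a, f.coeff n = 0) (m : ℕ) :
    ∀ n < (m : ℤ) * a, (f ^ m).coeff n = 0 := by
  induction m with
  | zero =>
    intro n hn
    have hn' : n ≠ 0 := by
      rw [Nat.cast_zero, zero_mul] at hn
      exact hn.ne
    rw [pow_zero, HahnSeries.coeff_one, if_neg hn']
  | succ m ih =>
    intro n hn
    rw [pow_succ]
    refine mqd_coeff_mul_zero _ _ _ _ ih hf n ?_
    have e : ((m + 1 : ℕ) : ℤ) * a = (m : ℤ) * a + a := by push_cast; ring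
    rw [← e]
    exact hn

/-- a Laurent series without negative coefficients is a power series -/
theorem mqd_mem_range (f : LaurentSeries ℂ) (h : ∀ n < 0, f.coeff n = 0) :
    f ∈ (HahnSeries.ofPowerSeries ℤ ℂ).range := by
  refine ⟨PowerSeries.mk fun n => f.coeff n, ?_⟩
  ext i
  rw [PowerSeries.coeff_coe]
  split_ifs with hi
  · exact (h i hi).symm
  · rw [PowerSeries.coeff_mk, Int.natAbs_of_nonneg (not_lt.mp hi)]

theorem mqd_coeff_of_mem_range (f : LaurentSeries ℂ)
    (h : f ∈ (HahnSeries.ofPowerSeries ℤ ℂ).range) : ∀ n < 0, f.coeff n = 0 := by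
  obtain ⟨u, rfl⟩ := h
  intro n hn
  have h1 := PowerSeries.coeff_coe (f := u) n
  rw [if_pos hn] at h1
  exact h1

end Laurent

/-! ### Generic algebra -/

section GenericAlgebra

/-- scaling the roots of a split polynomial -/
theorem mqd_scaleRoots_prod {Λ ι : Type*} [Field Λ] (s : Finset ι) (a : ι → Λ) (c : Λ) :
    (∏ j ∈ s, (X - C (a j))).scaleRoots c = ∏ j ∈ s, (X - C (a j * c)) := by
  classical
  induction s using Finset.induction_on with
  | empty => rw [Finset.prod_empty, Finset.prod_empty, one_scaleRoots]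
  | insert j s hj ih =>
    rw [Finset.prod_insert hj, Finset.prod_insert hj, mul_scaleRoots_of_noZeroDivisors, ih,
      X_sub_C_scaleRoots]

/-- The characteristic polynomial of `y` over `K(x)`, with its images under full families of
embeddings. -/
theorem mqd_abs {K F Λ : Type*} [Field K] [Field F] [Algebra K F] [CharZero K] [Field Λ]
    (x y : F) [FiniteDimensional K⟮x⟯ F] {ι τ : Type*} [Fintype ι]
    (hcard : Fintype.card ι = Module.finrank K⟮x⟯ F)
    (ψ : τ → ι → F →+* Λ)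
    (hinj : ∀ t, Function.Injective (ψ t))
    (hK : ∀ (t : τ) (i j : ι) (c : K), ψ t i (algebraMap K F c) = ψ t j (algebraMap K F c))
    (hx : ∀ (t : τ) (i j : ι), ψ t i x = ψ t j x) :
    ∃ p : F[X], p.Monic ∧ eval y p = 0 ∧ (∀ k, p.coeff k ∈ K⟮x⟯) ∧
      ∀ (t : τ) (i : ι), p.map (ψ t i) = ∏ j, (X - C (ψ t j y)) := by
  have : CharZero K⟮x⟯ := charZero_of_injective_algebraMap (algebraMap K K⟮x⟯).injective
  refine ⟨(LinearMap.charpoly (Algebra.lmul K⟮x⟯ F y)).map (algebraMap K⟮x⟯ F),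
    (LinearMap.charpoly_monic _).map _, ?_, fun k => ?_, fun t i => ?_⟩
  · rw [eval_map, ← aeval_def]
    exact meq_aeval_charpoly y
  · rw [coeff_map]
    exact Subtype.property _
  · have hE : ∀ (i j : ι) (a : K⟮x⟯),
        ψ t i (algebraMap K⟮x⟯ F a) = ψ t j (algebraMap K⟮x⟯ F a) := by
      intro i j a
      let L : IntermediateField K F :=
        { RingHom.eqLocusField (ψ t i) (ψ t j) with
          algebraMap_mem' := fun c => hK t i j c }
      have hL : K⟮x⟯ ≤ L := adjoin_simple_le_iff.mpr (hx t i j)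
      exact hL a.2
    rw [Polynomial.map_map]
    exact meq_map_charpoly (ψ t) (hinj t) hcard hE i y

/-- A root `y` of a monic polynomial whose `k`-th coefficient is a polynomial in `x` of degree
at most `d (deg - k)` with integral coefficients: `y / x ^ d` is integral over every subring
containing `1 / x`. -/
theorem mqd_isIntegral_of_coeffs {K F : Type*} [Field K] [Field F] [Algebra K F]
    (R : Subring F) (x y : F) (hx0 : x ≠ 0) (ha : x⁻¹ ∈ R) (d : ℕ) (p : F[X]) (hpm : p.Monic)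
    (hp0 : eval y p = 0)
    (hp : ∀ k, ∃ P : K[X], p.coeff k = aeval x P ∧ (∀ m, IsIntegral ℤ (P.coeff m)) ∧
      P.natDegree ≤ d * (p.natDegree - k)) :
    IsIntegral R (y * x⁻¹ ^ d) := by
  let A : Subalgebra R F := integralClosure R F
  have haA : x⁻¹ ∈ A := A.algebraMap_mem ⟨x⁻¹, ha⟩
  have hSm : (p.scaleRoots (x⁻¹ ^ d)).Monic := (monic_scaleRoots_iff _).mpr hpm
  have hS0 : eval (y * x⁻¹ ^ d) (p.scaleRoots (x⁻¹ ^ d)) = 0 := by
    have h1 := scaleRoots_eval₂_mul (p := p) (f := RingHom.id F) (r := y) (s := x⁻¹ ^ d)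
    simp only [eval₂_id, RingHom.id_apply] at h1
    rw [mul_comm, h1, hp0, mul_zero]
  have hcoef : ∀ k, (p.scaleRoots (x⁻¹ ^ d)).coeff k ∈ A := by
    intro k
    obtain ⟨P, hP, hint, hdeg⟩ := hp k
    rw [coeff_scaleRoots, hP, ← pow_mul, aeval_eq_sum_range, Finset.sum_mul]
    refine A.sum_mem fun i hi => ?_
    have hi' : i ≤ d * (p.natDegree - k) := by
      have := Finset.mem_range.mp hi
      omega
    have e : (P.coeff i) • x ^ i * x⁻¹ ^ (d * (p.natDegree - k))
        = algebraMap K F (P.coeff i) * x⁻¹ ^ (d * (p.natDegree - k) - i) := by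
      rw [Algebra.smul_def, mul_assoc]
      congr 1
      have hsplit : d * (p.natDegree - k) = i + (d * (p.natDegree - k) - i) := by omega
      conv_lhs => rw [hsplit, pow_add, ← mul_assoc, ← mul_pow, mul_inv_cancel₀ hx0, one_pow,
        one_mul]
    rw [e]
    refine A.mul_mem ?_ (A.pow_mem haA _)
    have h1 : IsIntegral ℤ (algebraMap K F (P.coeff i)) :=
      (hint i).map (algebraMap K F).toIntAlgHom
    exact h1.tower_top
  have hlift : p.scaleRoots (x⁻¹ ^ d) ∈ Polynomial.lifts (algebraMap A F) := by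
    rw [lifts_iff_coeff_lifts]
    intro k
    exact ⟨⟨_, hcoef k⟩, rfl⟩
  obtain ⟨p', hp', -, hpm'⟩ := lifts_and_natDegree_eq_and_monic hlift hSm
  have hA : IsIntegral A (y * x⁻¹ ^ d) := by
    refine ⟨p', hpm', ?_⟩
    rw [← eval_map, hp']
    exact hS0
  exact isIntegral_trans _ hA

/-- a monic relation with coefficients in `ℤ[a]` gives integrality over the subring generated
by `a` -/
theorem mqd_isIntegral_closure {F : Type*} [CommRing F] (a z : F)
    (Φ : Polynomial (Polynomial ℤ)) (hΦ : Φ.Monic)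
    (h0 : Φ.eval₂ ((Polynomial.aeval a : Polynomial ℤ →ₐ[ℤ] F).toRingHom) z = 0) :
    IsIntegral ↥(Subring.closure ({a} : Set F)) z := by
  have hmem : ∀ P : ℤ[X], (Polynomial.aeval a : Polynomial ℤ →ₐ[ℤ] F).toRingHom P
      ∈ Subring.closure ({a} : Set F) := by
    intro P
    show aeval a P ∈ _
    rw [aeval_eq_sum_range]
    refine Subring.sum_mem _ fun i _ => ?_
    exact Subring.zsmul_mem _
      (Subring.pow_mem _ (Subring.subset_closure (Set.mem_singleton a)) i) _
  let g : ℤ[X] →+* ↥(Subring.closure ({a} : Set F)) :=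
    (Polynomial.aeval a : Polynomial ℤ →ₐ[ℤ] F).toRingHom.codRestrict _ hmem
  refine ⟨Φ.map g, hΦ.map g, ?_⟩
  rw [eval₂_map]
  have e : (algebraMap ↥(Subring.closure ({a} : Set F)) F).comp g
      = (Polynomial.aeval a : Polynomial ℤ →ₐ[ℤ] F).toRingHom := RingHom.ext fun P => rfl
  rw [e]
  exact h0

/-- descent of a polynomial relation over `ℤ[a]` along an injective ring homomorphism -/
theorem mqd_descent {F F' : Type*} [CommRing F] [CommRing F'] (φ : F →+* F')
    (hφ : Function.Injective φ) (a z : F) (Φ : Polynomial (Polynomial ℤ))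
    (h0 : Φ.eval₂ ((Polynomial.aeval (φ a) : Polynomial ℤ →ₐ[ℤ] F').toRingHom) (φ z) = 0) :
    Φ.eval₂ ((Polynomial.aeval a : Polynomial ℤ →ₐ[ℤ] F).toRingHom) z = 0 := by
  apply hφ
  rw [map_zero, hom_eval₂]
  have e : φ.comp (Polynomial.aeval a : Polynomial ℤ →ₐ[ℤ] F).toRingHom
      = (Polynomial.aeval (φ a) : Polynomial ℤ →ₐ[ℤ] F').toRingHom := by
    refine Polynomial.ringHom_ext (fun c => ?_) ?_
    · simp
    · simp
  rw [e]
  exact h0

end GenericAlgebra

/-! ### The conjugates at the cusps: the order bound -/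

/-- the conjugates at the cusp, with a rational translation: `j(d · γ(Nτ)) = j(kτ + b/e)` with
`k ≤ d N` -/
theorem mqd_jd_smul_scale (N d : ℕ) [NeZero N] (hd : d ∣ N) (γ : SL(2, ℤ)) :
    ∃ (k e : ℕ) (b : ℤ), 0 < k ∧ k ≤ d * N ∧ 0 < e ∧
      ∀ τ : ℍ, jd d (γ • ofComplex ((N : ℂ) * τ))
        = jFun (((b : ℝ) / (e : ℝ) : ℝ) +ᵥ ofComplex ((k : ℂ) * τ)) := by
  have hd0 : 0 < d := Nat.pos_of_ne_zero
    (fun h => NeZero.ne N (by rw [h] at hd; exact Nat.eq_zero_of_zero_dvd hd))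
  obtain ⟨a, e, b, ha, he, hae, hgcd, hj⟩ := jc_hermite d hd0 γ
  have heN : e ∣ N := (Dvd.intro_left a hae).trans hd
  obtain ⟨m, hm⟩ := heN
  have hm0 : 0 < m := Nat.pos_of_ne_zero (fun h => NeZero.ne N (by rw [hm, h, mul_zero]))
  refine ⟨a * m, e, b, Nat.mul_pos ha hm0, ?_, he, fun τ => ?_⟩
  · have h1 : a ≤ d := Nat.le_of_dvd hd0 (Dvd.intro _ hae)
    have h2 : m ≤ N := Nat.le_of_dvd (NeZero.pos N) (Dvd.intro_left _ hm.symm)
    exact Nat.mul_le_mul h1 h2
  rw [hj]
  have hNτ : 0 < ((N : ℂ) * (τ : ℂ)).im := by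
    have h1 : ((N : ℂ) * (τ : ℂ)).im = N * τ.im := by simp [Complex.mul_im]
    rw [h1]
    have : (0 : ℝ) < N := by exact_mod_cast NeZero.pos N
    have := τ.im_pos
    positivity
  have hkτ : 0 < (((a * m : ℕ) : ℂ) * (τ : ℂ)).im := by
    have h1 : (((a * m : ℕ) : ℂ) * (τ : ℂ)).im = (a * m : ℕ) * τ.im := by simp [Complex.mul_im]
    rw [h1]
    have : (0 : ℝ) < (a * m : ℕ) := by exact_mod_cast Nat.mul_pos ha hm0
    have := τ.im_pos
    positivity
  have e_ne : (e : ℂ) ≠ 0 := by exact_mod_cast he.ne'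
  rw [ofComplex_apply_of_im_pos hNτ, ofComplex_apply_of_im_pos hkτ, ← jc_jC_coe,
    UpperHalfPlane.coe_vadd]
  congr 1
  show ((a : ℂ) * ((N : ℂ) * (τ : ℂ)) + b) / e = (((b : ℝ) / e : ℝ) : ℂ) + ((a * m : ℕ) : ℂ) * τ
  rw [hm]
  push_cast
  field_simp
  ring

/-- the conjugates of `j(q^d)` at the cusps have order at least `-d N` -/
theorem mqd_scPhi_jdBar (N d : ℕ) [NeZero N] [NeZero d] (hd : d ∣ N)
    (q : SL(2, ℤ) ⧸ CongruenceSubgroup.Gamma0 N) :
    ∀ n : ℤ, n < -((d : ℤ) * (N : ℤ)) → (scPhi N q (jdBar N d hd)).coeff n = 0 := by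
  rw [sc_phi_jdBar]
  obtain ⟨k, e, b, hk, hkle, he, h⟩ := mqd_jd_smul_scale N d hd q.out⁻¹
  have : NeZero k := ⟨hk.ne'⟩
  set r : ℝ := (b : ℝ) / (e : ℝ) with hr
  have e1 : (⟨scComp N q.out (jd d), sc_isWH N q.out (jd_mem_anaRing hd)⟩ : whSubring)
      = ⟨fun τ : ℍ => (fun τ' : ℍ => jFun (r +ᵥ τ')) (ofComplex ((k : ℂ) * τ)),
          isWH_scale k hk (isWH_vadd r isWH_jFun)⟩ := by
    apply Subtype.ext
    funext τ
    exact h τ
  rw [e1, qLaurent_scale k (fun τ' : ℍ => jFun (r +ᵥ τ')) (isWH_vadd r isWH_jFun),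
    qLaurent_vadd r jFun isWH_jFun, qLaurent_jFun]
  intro n hn
  by_cases hkn : (k : ℤ) ∣ n
  · obtain ⟨m, rfl⟩ := hkn
    rw [qExpand_coeff_mul, twist_coeff, coeffEmb_coeff]
    have hm : m < -1 := by
      by_contra hm
      have h1 : -1 ≤ m := not_lt.mp hm
      have h2 : (k : ℤ) ≤ (d : ℤ) * (N : ℤ) := by exact_mod_cast hkle
      have h3 : (0 : ℤ) < k := by exact_mod_cast hk
      nlinarith
    rw [coeff_jq_of_lt hm, map_zero, mul_zero]
  · exact qExpand_coeff_of_not_dvd k _ hkn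

/-! ### The degree bound -/

section Main

variable (N : ℕ) [NeZero N]

local notation "Kb" => AlgebraicClosure ℚ
set_option quotPrecheck false in
local notation "Fb" => ↥(modularFunctionFieldBar N)
local notation "Xc" => SL(2, ℤ) ⧸ CongruenceSubgroup.Gamma0 N

/-- a polynomial in `j` which becomes a power series at the cusp after division by `j ^ e` has
degree at most `e` -/
theorem mqd_natDegree_le (P : Kb[X]) (e : ℕ)
    (h : eval₂ ((HahnSeries.C : ℂ →+* LaurentSeries ℂ).comp ιc) (scJ N) P * (scJ N)⁻¹ ^ e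
      ∈ (HahnSeries.ofPowerSeries ℤ ℂ).range) : P.natDegree ≤ e := by
  by_contra hlt
  have hlt' : e < P.natDegree := not_le.mp hlt
  have hJ0 := sc_J_ne_zero N
  have hEq : eval₂ ((HahnSeries.C : ℂ →+* LaurentSeries ℂ).comp ιc) (scJ N) P
      = (eval₂ ((HahnSeries.C : ℂ →+* LaurentSeries ℂ).comp ιc) (scJ N) P * (scJ N)⁻¹ ^ e)
        * scJ N ^ e := by
    rw [mul_assoc, ← mul_pow, inv_mul_cancel₀ hJ0, one_pow, mul_one]
  have hQc := mqd_coeff_of_mem_range _ h
  have hJc : ∀ m < -(N : ℤ), (scJ N).coeff m = 0 := by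
    intro m hm
    apply HahnSeries.coeff_eq_zero_of_lt_order
    rw [sc_order_J]
    exact hm
  have hJe := mqd_coeff_pow_zero (scJ N) (-(N : ℤ)) hJc e
  have hN : (0 : ℤ) < N := by exact_mod_cast NeZero.pos N
  have hzero : (eval₂ ((HahnSeries.C : ℂ →+* LaurentSeries ℂ).comp ιc) (scJ N) P).coeff
      (-((N : ℤ) * (P.natDegree : ℤ))) = 0 := by
    rw [hEq]
    refine mqd_coeff_mul_zero _ (scJ N ^ e) 0 ((e : ℤ) * -(N : ℤ)) hQc hJe _ ?_
    have h1 : (e : ℤ) < (P.natDegree : ℤ) := by exact_mod_cast hlt'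
    nlinarith
  rw [meq_coeff_eval₂ ιc (scJ N) P (P.natDegree + 1) (by omega),
    Finset.sum_eq_single P.natDegree] at hzero
  · rw [meq_scJ_top N P.natDegree, mul_one] at hzero
    have h1 : P.coeff P.natDegree = 0 := (map_eq_zero ιc).mp hzero
    have hP0 : P = 0 := leadingCoeff_eq_zero.mp h1
    rw [hP0, natDegree_zero] at hlt'
    omega
  · intro i hi hne
    have hi' : i < P.natDegree := by
      have := Finset.mem_range.mp hi
      omega
    rw [meq_scJ_low N P.natDegree i hi', mul_zero]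
  · intro hni
    exact absurd (Finset.mem_range.mpr (by omega)) hni

/-- There is a monic polynomial `p` vanishing at `j(q^d)` whose `k`-th coefficient is a
polynomial in `j` of degree at most `d (deg p - k)` with algebraic-integer coefficients. -/
theorem mqd_exists_monic (d : ℕ) [NeZero d] (hd : d ∣ N) :
    ∃ p : Fb[X], p.Monic ∧ eval (jdBar N d hd) p = 0 ∧
      ∀ k, ∃ P : Kb[X], p.coeff k = aeval (jBar N) P ∧ (∀ m, IsIntegral ℤ (P.coeff m)) ∧
        P.natDegree ≤ d * (p.natDegree - k) := by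
  classical
  let _ : Fintype Xc := Fintype.ofFinite Xc
  have := finiteDimensional_jBar' N
  have hcard := meq_card_eq N
  have hinj : ∀ t : Option ℍ, Function.Injective (meqFam N t) := by
    rintro (_ | τ₀)
    · exact sc_phi_injective N
    · exact sysfinPhi_injective N τ₀
  have hK : ∀ (t : Option ℍ) (i j : Xc) (c : Kb),
      meqFam N t i (algebraMap Kb Fb c) = meqFam N t j (algebraMap Kb Fb c) := by
    rintro (_ | τ₀) i j c
    · show scPhi N i _ = scPhi N j _
      rw [sc_phi_const, sc_phi_const]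
    · show sysfinPhi N τ₀ i _ = sysfinPhi N τ₀ j _
      rw [sysfinPhi_const, sysfinPhi_const]
  have hx : ∀ (t : Option ℍ) (i j : Xc), meqFam N t i (jBar N) = meqFam N t j (jBar N) := by
    rintro (_ | τ₀) i j
    · show scPhi N i _ = scPhi N j _
      rw [sc_phi_jBar, sc_phi_jBar]
    · show sysfinPhi N τ₀ i _ = sysfinPhi N τ₀ j _
      rw [sysfinPhi_jBar, sysfinPhi_jBar]
  obtain ⟨p, hpm, hp0, hpE, hprod⟩ := mqd_abs (K := Kb) (jBar N) (jdBar N d hd) hcard
    (meqFam N) hinj hK hx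
  refine ⟨p, hpm, hp0, fun k => ?_⟩
  let q₀ : Xc := QuotientGroup.mk 1
  have hcoef : ∀ (t : Option ℍ) (T : Subring (LaurentSeries ℂ)),
      (∀ j, meqFam N t j (jdBar N d hd) ∈ T) → meqFam N t q₀ (p.coeff k) ∈ T := by
    intro t T hT
    have h2 := congrArg (fun p' => p'.coeff k) (hprod t q₀)
    simp only [coeff_map] at h2
    rw [h2]
    exact meq_coeff_prod_mem T Finset.univ _ (fun j _ => hT j) k
  have hfin : ∀ τ₀ : ℍ, ∃ u : PowerSeries ℂ,
      sysfinPhi N τ₀ q₀ (p.coeff k) = HahnSeries.ofPowerSeries ℤ ℂ u := by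
    intro τ₀
    obtain ⟨u, hu⟩ := hcoef (some τ₀) (HahnSeries.ofPowerSeries ℤ ℂ).range
      (fun j => ⟨_, (sysfinPhi_jdBar N τ₀ j d hd).symm⟩)
    exact ⟨u, hu.symm⟩
  obtain ⟨P, hP⟩ := meq_mem_poly N q₀ (p.coeff k) (hpE k) hfin
  refine ⟨P, hP, fun m => ?_, ?_⟩
  · have hmem : eval₂ ((HahnSeries.C : ℂ →+* LaurentSeries ℂ).comp ιc) (scJ N) P ∈ meqInt := by
      rw [← meq_scPhi_aeval N q₀ P, ← hP]
      exact hcoef none meqInt (fun j => meq_scPhi_jdBar_mem N d hd j)
    have h5 := meq_triangular ιc (integralClosure ℤ ℂ).toSubring (scJ N) (N : ℤ) (meq_scJ_mem N)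
      (meq_scJ_top N) (meq_scJ_low N) P.natDegree P le_rfl hmem m
    have h6 : IsIntegral ℤ (ιc (P.coeff m)) := h5
    exact (isIntegral_algHom_iff ιc.toIntAlgHom ιc.injective).mp h6
  · apply mqd_natDegree_le N P
    have hJ0 := sc_J_ne_zero N
    have hcinv : ∀ m < (N : ℤ), ((scJ N)⁻¹).coeff m = 0 := by
      intro m hm
      apply HahnSeries.coeff_eq_zero_of_lt_order
      rw [sc_order_inv hJ0, sc_order_J, neg_neg]
      exact hm
    have hsr' : scPhi N q₀ (p.coeff k) * ((scJ N)⁻¹ ^ d) ^ (p.natDegree - k)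
        = (∏ j : Xc, (X - C (scPhi N j (jdBar N d hd) * (scJ N)⁻¹ ^ d))).coeff k := by
      have h1 : (p.map (scPhi N q₀)).scaleRoots ((scJ N)⁻¹ ^ d)
          = ∏ j : Xc, (X - C (scPhi N j (jdBar N d hd) * (scJ N)⁻¹ ^ d)) := by
        rw [show p.map (scPhi N q₀) = ∏ j : Xc, (X - C (scPhi N j (jdBar N d hd)))
          from hprod none q₀, mqd_scaleRoots_prod]
      rw [← h1, coeff_scaleRoots, coeff_map, hpm.natDegree_map]
    rw [← meq_scPhi_aeval N q₀ P, ← hP, pow_mul, hsr']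
    refine meq_coeff_prod_mem _ Finset.univ _ (fun j _ => ?_) k
    apply mqd_mem_range
    intro n hn
    refine mqd_coeff_mul_zero _ _ (-((d : ℤ) * (N : ℤ))) ((d : ℤ) * (N : ℤ))
      (mqd_scPhi_jdBar N d hd j) (mqd_coeff_pow_zero _ (N : ℤ) hcinv d) n ?_
    rw [neg_add_cancel]
    exact hn

theorem mqd_jBar_ne_zero : jBar N ≠ 0 := by
  have h := meq_jBar_sub_ne N 0
  rwa [map_zero, sub_zero] at h

/-- **The degree-bounded modular equation, integrality form**: `j(q^d) / j ^ d` is integral over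
every subring of the function field of `X₀(N)` containing `1 / j`. -/
theorem mqd_isIntegral (d : ℕ) [NeZero d] (hd : d ∣ N) (R : Subring Fb)
    (ha : (jBar N)⁻¹ ∈ R) :
    @IsIntegral ↥R Fb _ _ (Algebra.ofSubsemiring R) (jdBar N d hd * (jBar N)⁻¹ ^ d) := by
  obtain ⟨p, hpm, hp0, hp⟩ := mqd_exists_monic N d hd
  exact mqd_isIntegral_of_coeffs (K := Kb) R (jBar N) (jdBar N d hd) (mqd_jBar_ne_zero N) ha d p
    hpm hp0 hp

/-- **The degree-bounded modular equation**: a monic polynomial with coefficients in `ℤ[1 / j]`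
vanishing at `j(q^d) / j ^ d`. -/
theorem mqd_exists_poly (d : ℕ) [NeZero d] (hd : d ∣ N) :
    ∃ Φ : Polynomial (Polynomial ℤ), Φ.Monic ∧
      Φ.eval₂ ((Polynomial.aeval (jBar N)⁻¹ : Polynomial ℤ →ₐ[ℤ] Fb).toRingHom)
        (jdBar N d hd * (jBar N)⁻¹ ^ d) = 0 :=
  meq_lift_range _ _ (mqd_isIntegral N d hd _ ⟨X, by simp⟩)

end Main

/-! ### Over a field of definition -/

section Descent

local notation "Qb" => AlgebraicClosure ℚ

variable (K0 : Type*) [Field K0] [Algebra ℚ K0] [Algebra K0 Qb] (N : ℕ) [NeZero N]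

/-- the degree-bounded modular equation over `K0`, polynomial form -/
theorem mqd_exists_poly_K0 (d : ℕ) [NeZero d] (hd : d ∣ N) :
    ∃ Φ : Polynomial (Polynomial ℤ), Φ.Monic ∧
      Φ.eval₂ ((Polynomial.aeval (va2Jd K0 N 1 (one_dvd N))⁻¹ :
          Polynomial ℤ →ₐ[ℤ] ↥(laurentBaseChange K0 (modularFunctionFieldFull N))).toRingHom)
        (va2Jd K0 N d hd * (va2Jd K0 N 1 (one_dvd N))⁻¹ ^ d) = 0 := by
  obtain ⟨Φ, hΦ, h0⟩ := mqd_exists_poly N d hd
  refine ⟨Φ, hΦ, mqd_descent (bcfHom K0 Qb (modularFunctionFieldFull N))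
    (bcfHom K0 Qb (modularFunctionFieldFull N)).injective _ _ Φ ?_⟩
  rw [map_mul, map_pow, map_inv₀, va2_bcf_jd, va2_bcf_jd, ← jBar_eq_jdBar_one]
  exact h0

/-- **[ZINT]** over a field of definition `K0 ⊆ ℚ̄`: `z = j(q^d) / j ^ d` is integral over the
subring generated by `1 / j`. -/
theorem mqd_main (d : ℕ) [NeZero d] (hd : d ∣ N) :
    IsIntegral
      ↥(Subring.closure ({(va2Jd K0 N 1 (one_dvd N))⁻¹} :
        Set ↥(laurentBaseChange K0 (modularFunctionFieldFull N))))
      (va2Jd K0 N d hd * (va2Jd K0 N 1 (one_dvd N))⁻¹ ^ d) := by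
  obtain ⟨Φ, hΦ, h0⟩ := mqd_exists_poly_K0 K0 N d hd
  exact mqd_isIntegral_closure _ _ Φ hΦ h0

end Descent

end Fermat.Agent.S34
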