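import Fermat.Agent.S37.ModEq
import Fermat.Agent.S34.Val2Swap

/-!
# S34, work package DOM-INST, part 1: the modular equation over a field of definition

`K0` a field with `[Algebra ℚ K0] [Algebra K0 ℚ̄]`, `ℓ ∤ M` a prime, `J = j(q)`, `Jq = j(q^ℓ)` in
the level-`M ℓ` function field over `K0` (`va2Jd`).

* `mqk_va2Jd_coe`: the `q`-expansion of `va2Jd K N d hd` is `jd K d`;
* `mqk_exists_poly`: ONE monic `Φ ∈ ℤ[X][Y]` with `Φ(J)(Jq) = 0` and `Φ(Jq)(J) = 0`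
  (`S37.meq_exists_poly` pulled back along the base change, and its image under the swap).
-/

set_option autoImplicit false

open AlgebraicCurve ModularCurve Fermat.Agent.S18 Fermat.Agent.S37 Fermat.Agent.S24
  Fermat.Agent.S28

namespace Fermat.Agent.S34

local notation "Qb" => AlgebraicClosure ℚ

/-- the `q`-expansion of the generator `j(q^d)` over `K` -/
theorem mqk_va2Jd_coe (K : Type*) [Field K] [Algebra ℚ K] (N d : ℕ) [NeZero d] (hd : d ∣ N) :
    ((va2Jd K N d hd : ↥(laurentBaseChange K (modularFunctionFieldFull N))) : LaurentSeries K)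
      = jd K d := by
  rw [va2Jd_coe, ← jd_rat_eq_qExpand, coeffEmb, coeffMap_jd]

theorem mqk_va2Jd_congr (K : Type*) [Field K] [Algebra ℚ K] (N : ℕ) {d d' : ℕ} [NeZero d]
    [NeZero d'] (h : d = d') (hd : d ∣ N) (hd' : d' ∣ N) :
    va2Jd K N d hd = va2Jd K N d' hd' := by
  subst h
  rfl

/-- **The modular equation over `K0`**: one monic polynomial over `ℤ[X]` relating `j(q)` and
`j(q^ℓ)` in both directions. -/
theorem mqk_exists_poly (M ℓ : ℕ) [NeZero M] [NeZero ℓ] (hℓ : ℓ.Prime) (hM : ¬ ℓ ∣ M)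
    (K0 : Type*) [Field K0] [Algebra ℚ K0] [Algebra K0 Qb] :
    ∃ Φ : Polynomial (Polynomial ℤ), Φ.Monic ∧
      Φ.eval₂ ((Polynomial.aeval (va2Jd K0 (M * ℓ) 1 (one_dvd _)) :
          Polynomial ℤ →ₐ[ℤ] ↥(laurentBaseChange K0 (modularFunctionFieldFull (M * ℓ)))).toRingHom)
        (va2Jd K0 (M * ℓ) ℓ (dvd_mul_left ℓ M)) = 0 ∧
      Φ.eval₂ ((Polynomial.aeval (va2Jd K0 (M * ℓ) ℓ (dvd_mul_left ℓ M)) :
          Polynomial ℤ →ₐ[ℤ] ↥(laurentBaseChange K0 (modularFunctionFieldFull (M * ℓ)))).toRingHom)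
        (va2Jd K0 (M * ℓ) 1 (one_dvd _)) = 0 := by
  obtain ⟨Φ, hΦ, h0⟩ := meq_exists_poly (M * ℓ) ℓ (dvd_mul_left ℓ M)
  have key : Φ.eval₂ ((Polynomial.aeval (va2Jd K0 (M * ℓ) 1 (one_dvd _)) :
          Polynomial ℤ →ₐ[ℤ] ↥(laurentBaseChange K0 (modularFunctionFieldFull (M * ℓ)))).toRingHom)
        (va2Jd K0 (M * ℓ) ℓ (dvd_mul_left ℓ M)) = 0 := by
    apply bcfHom_injective K0 Qb (modularFunctionFieldFull (M * ℓ))
    rw [map_zero, Polynomial.hom_eval₂, va2_bcf_jd]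
    have e : (bcfHom K0 Qb (modularFunctionFieldFull (M * ℓ))).comp
        ((Polynomial.aeval (va2Jd K0 (M * ℓ) 1 (one_dvd _)) :
          Polynomial ℤ →ₐ[ℤ] ↥(laurentBaseChange K0 (modularFunctionFieldFull (M * ℓ)))).toRingHom)
        = ((Polynomial.aeval (jBar (M * ℓ)) :
          Polynomial ℤ →ₐ[ℤ] ↥(modularFunctionFieldBar (M * ℓ))).toRingHom) := by
      refine Polynomial.ringHom_ext (fun a => ?_) ?_
      · simp
      · simp only [RingHom.comp_apply, AlgHom.toRingHom_eq_coe, RingHom.coe_coe,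
          Polynomial.aeval_X]
        rw [va2_bcf_jd, jBar_eq_jdBar_one]
    rw [e]
    exact h0
  refine ⟨Φ, hΦ, key, ?_⟩
  have h1 := congrArg (va2Swap M ℓ hℓ hM K0) key
  rw [map_zero, Polynomial.hom_eval₂] at h1
  have hJ : va2Swap M ℓ hℓ hM K0 (va2Jd K0 (M * ℓ) 1 (one_dvd _))
      = va2Jd K0 (M * ℓ) ℓ (dvd_mul_left ℓ M) := by
    have h2 := va2Swap_jd1 M ℓ hℓ hM K0 1 (one_dvd M)
    rw [h2]
    exact mqk_va2Jd_congr K0 (M * ℓ) (mul_one ℓ) _ _
  have hJq : va2Swap M ℓ hℓ hM K0 (va2Jd K0 (M * ℓ) ℓ (dvd_mul_left ℓ M))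
      = va2Jd K0 (M * ℓ) 1 (one_dvd _) := by
    have h2 := va2Swap_jd2 M ℓ hℓ hM K0 1 (one_dvd M)
    rw [← h2]
    congr 1
    exact mqk_va2Jd_congr K0 (M * ℓ) (mul_one ℓ).symm _ _
  have e : (va2Swap M ℓ hℓ hM K0).comp
      ((Polynomial.aeval (va2Jd K0 (M * ℓ) 1 (one_dvd _)) :
        Polynomial ℤ →ₐ[ℤ] ↥(laurentBaseChange K0 (modularFunctionFieldFull (M * ℓ)))).toRingHom)
      = ((Polynomial.aeval (va2Jd K0 (M * ℓ) ℓ (dvd_mul_left ℓ M)) :
        Polynomial ℤ →ₐ[ℤ] ↥(laurentBaseChange K0 (modularFunctionFieldFull (M * ℓ)))).toRingHom) := by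
    refine Polynomial.ringHom_ext (fun a => ?_) ?_
    · simp
    · simp only [RingHom.comp_apply, AlgHom.toRingHom_eq_coe, RingHom.coe_coe,
        Polynomial.aeval_X]
      exact hJ
  rw [e, hJq] at h1
  exact h1

end Fermat.Agent.S34
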