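import Mathlib
import Fermat.Prelude.Def_AlgebraicCurve_DivisorClassGroup
import Fermat.Agent.S18.Charts

/-!
# S34, leaf [HPLACE]: horizontal primes of the integral-closure chart are places

Let `A0` be a discrete valuation ring with uniformizer `τ` and fraction field `K0`, `F` a field
over `K0`, `t ∈ F` transcendental over `K0` with `F` finite over `K0(t)` (hypothesis `hfin`, in
the shape used by `S18/Charts.lean`).  The chart ring `chtO A0 {t}` (integral closure of `A0[t]`
in `F`) becomes, after inverting `τ`, the integral closure `D` of `K0[t]` in `F`, a Dedekind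
domain.  Consequently every nonzero prime `P` of the chart not containing `τ` (a *horizontal*
prime) is the centre of a principal valuation subring `V` of `F` containing `K0`, and `V` is the
localization of the chart at `P`.

* `hzp_abs`: the abstract statement (`D` Dedekind, `D = O[1/τ]`).
* `hzp_dedekind`, `hzp_le`, `hzp_exists_pow`: `D := integralClosure K0[X] F` is Dedekind, contains
  the chart, and every element of `D` is in the chart after multiplication by a power of `τ`.
* `hzp_main`: the statement for the chart.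
-/

set_option autoImplicit false

open Polynomial

namespace Fermat.Agent.S34

open Fermat.Agent.S18 IsDedekindDomain

/-- For a nonzero prime `v` of a Dedekind domain `D` with fraction field `F`, an element of `D`
is a nonunit of the valuation subring of `v` iff it lies in `v`. -/
theorem hzp_nonunits {D F : Type*} [CommRing D] [IsDedekindDomain D] [Field F] [Algebra D F]
    [IsFractionRing D F] (v : HeightOneSpectrum D) (x : D) :
    algebraMap D F x ∈ (v.valuation F).valuationSubring.nonunits ↔ x ∈ v.asIdeal := by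
  rw [ValuationSubring.mem_nonunits_iff_or]
  constructor
  · rintro (h | h)
    · have h0 : x = 0 := IsFractionRing.injective D F (by rw [h, map_zero])
      rw [h0]
      exact v.asIdeal.zero_mem
    · rw [Valuation.mem_valuationSubring_iff, map_inv₀, not_le] at h
      have hne : v.valuation F (algebraMap D F x) ≠ 0 := by
        intro h0
        rw [h0, inv_zero] at h
        exact not_lt_of_ge zero_le_one h
      have hlt : v.valuation F (algebraMap D F x) < 1 :=
        (one_lt_inv₀ (zero_lt_iff.2 hne)).1 h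
      exact (v.valuation_lt_one_iff_mem x).1 hlt
  · intro hx
    by_cases h0 : x = 0
    · left
      rw [h0, map_zero]
    · right
      rw [Valuation.mem_valuationSubring_iff, map_inv₀, not_le]
      have hlt : v.valuation F (algebraMap D F x) < 1 := (v.valuation_lt_one_iff_mem x).2 hx
      have hne : v.valuation F (algebraMap D F x) ≠ 0 := by
        rw [Valuation.ne_zero_iff]
        exact fun h => h0 (IsFractionRing.injective D F (by rw [h, map_zero]))
      exact (one_lt_inv₀ (zero_lt_iff.2 hne)).2 hlt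

/-- Abstract form: `D` a Dedekind domain with fraction field `F`, `O → D` an injective ring map
making `D` the localization of `O` at the powers of `τ`.  Then every nonzero prime `P` of `O`
not containing `τ` is the centre of a principal valuation subring `V ≠ ⊤` of `F` containing `D`,
and `V` is the localization of `O` at `P`. -/
theorem hzp_abs {O D F : Type*} [CommRing O] [CommRing D] [IsDedekindDomain D] [Field F]
    [Algebra O D] [Algebra D F] [Algebra O F] [IsScalarTower O D F] [IsFractionRing D F]
    (hinj : Function.Injective (algebraMap O F)) (τ : O) (hτu : IsUnit (algebraMap O D τ))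
    (hsurj : ∀ d : D, ∃ (k : ℕ) (o : O), algebraMap O D τ ^ k * d = algebraMap O D o)
    (P : Ideal O) (hP : P.IsPrime) (hP0 : P ≠ ⊥) (hτP : τ ∉ P) :
    ∃ V : ValuationSubring F, IsPrincipalIdealRing V ∧ V ≠ ⊤ ∧
      (∀ d : D, algebraMap D F d ∈ V) ∧
      (∀ x : O, algebraMap O F x ∈ V.nonunits ↔ x ∈ P) ∧
      ∀ x ∈ V, ∃ s : O, s ∉ P ∧ ∃ o : O, algebraMap O F s * x = algebraMap O F o := by
  have hinjD : Function.Injective (algebraMap O D) := by
    intro a b hab
    apply hinj
    rw [IsScalarTower.algebraMap_apply O D F, hab, ← IsScalarTower.algebraMap_apply]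
  have hloc : IsLocalization (Submonoid.powers τ) D := by
    refine ⟨?_, ?_, ?_⟩
    · rintro ⟨_, k, rfl⟩
      simp only [map_pow]
      exact hτu.pow k
    · intro d
      obtain ⟨k, o, hk⟩ := hsurj d
      refine ⟨(o, ⟨τ ^ k, k, rfl⟩), ?_⟩
      simp only [map_pow]
      rw [mul_comm]
      exact hk
    · intro a b hab
      exact ⟨1, by rw [hinjD hab]⟩
  have hdisj : Disjoint (Submonoid.powers τ : Set O) (P : Set O) := by
    rw [Set.disjoint_left]
    rintro _ ⟨k, rfl⟩ hk
    exact hτP (hP.mem_of_pow_mem k hk)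
  set Q : Ideal D := Ideal.map (algebraMap O D) P with hQdef
  have hQ : Q.IsPrime :=
    IsLocalization.isPrime_of_isPrime_disjoint (Submonoid.powers τ) D P hP hdisj
  have hcomap : Ideal.comap (algebraMap O D) Q = P :=
    IsLocalization.under_map_of_isPrime_disjoint (Submonoid.powers τ) D hP hdisj
  have hQ0 : Q ≠ ⊥ := by
    intro h0
    apply hP0
    rw [eq_bot_iff]
    intro x hx
    have h1 : algebraMap O D x ∈ Q := Ideal.mem_map_of_mem _ hx
    rw [h0, Ideal.mem_bot] at h1
    rw [Ideal.mem_bot]
    exact hinjD (by rw [h1, map_zero])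
  let v : HeightOneSpectrum D := ⟨Q, hQ, hQ0⟩
  have hVeq : HeightOneSpectrum.valuationSubringAtPrime F v = (v.valuation F).valuationSubring :=
    HeightOneSpectrum.valuationSubringAtPrime_eq_valuationSubring (K := F) v
  refine ⟨(v.valuation F).valuationSubring,
    AlgebraicCurve.Place.isPrincipalIdealRing_valuationSubring v, ?_, ?_, ?_, ?_⟩
  · simp only [ne_eq, Valuation.valuationSubring_eq_top_iff, not_not]
    infer_instance
  · intro d
    exact (Valuation.mem_valuationSubring_iff _ _).2 (v.valuation_le_one d)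
  · intro x
    rw [IsScalarTower.algebraMap_apply O D F, hzp_nonunits v (algebraMap O D x)]
    change algebraMap O D x ∈ Q ↔ x ∈ P
    rw [← Ideal.mem_comap, hcomap]
  · intro x hx
    rw [← hVeq] at hx
    obtain ⟨d, s', hs', hxe⟩ :
        ∃ (d s' : D) (_ : s' ∈ v.asIdeal.primeCompl),
          x = algebraMap D F d * (algebraMap D F s')⁻¹ := hx
    have hs'Q : s' ∉ Q := hs'
    have hs'0 : algebraMap D F s' ≠ 0 := by
      intro h0
      apply hs'Q
      have : s' = 0 := IsFractionRing.injective D F (by rw [h0, map_zero])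
      rw [this]
      exact Q.zero_mem
    have hds' : x * algebraMap D F s' = algebraMap D F d := by
      rw [hxe]
      field_simp
    obtain ⟨k, o₁, hk⟩ := hsurj (s' : D)
    obtain ⟨l, o₂, hl⟩ := hsurj d
    refine ⟨τ ^ l * o₁, ?_, τ ^ k * o₂, ?_⟩
    · intro hmem
      have h1 : algebraMap O D (τ ^ l * o₁) ∈ Q := Ideal.mem_map_of_mem _ hmem
      rw [map_mul, ← hk, map_pow, ← mul_assoc] at h1
      have h2 : s' ∈ Q := by
        rcases hQ.mem_or_mem h1 with h | h
        · exact absurd (Q.eq_top_of_isUnit_mem h ((hτu.pow l).mul (hτu.pow k))) hQ.ne_top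
        · exact h
      exact hs'Q h2
    · rw [IsScalarTower.algebraMap_apply O D F, IsScalarTower.algebraMap_apply O D F]
      have e1 : algebraMap O D (τ ^ l * o₁) = algebraMap O D τ ^ l * (algebraMap O D τ ^ k * s') := by
        rw [map_mul, map_pow, hk]
      have e2 : algebraMap O D (τ ^ k * o₂) = algebraMap O D τ ^ k * (algebraMap O D τ ^ l * d) := by
        rw [map_mul, map_pow, hl]
      rw [e1, e2]
      simp only [map_mul, map_pow]
      rw [← hds']
      ring

section Chart

variable {A0 K0 F : Type*} [CommRing A0] [IsDomain A0] [IsDiscreteValuationRing A0]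
  [Field K0] [Algebra A0 K0] [IsFractionRing A0 K0]
  [Field F] [Algebra A0 F] [Algebra K0 F] [IsScalarTower A0 K0 F]

omit [IsDomain A0] [IsDiscreteValuationRing A0] [IsFractionRing A0 K0] in
/-- The integral closure `D` of `K0[t]` in `F` is a Dedekind domain with fraction field `F`. -/
theorem hzp_dedekind [CharZero K0] (t : F) (ht : Transcendental K0 t)
    (hfin : ∃ (n : ℕ) (β : Fin n → F), ∀ x : F, ∃ (a : Fin n → A0[X]) (d : A0[X]),
      aeval t d ≠ 0 ∧ aeval t d * x = ∑ i, aeval t (a i) * β i)
    [Algebra K0[X] F] (halgK : ∀ p : K0[X], algebraMap K0[X] F p = aeval t p) :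
    IsDedekindDomain (integralClosure K0[X] F) ∧ IsFractionRing (integralClosure K0[X] F) F := by
  classical
  have hinj : Function.Injective (algebraMap K0[X] F) := by
    have h1 : Function.Injective (aeval t : K0[X] →ₐ[K0] F) := transcendental_iff_injective.mp ht
    intro p q hpq
    exact h1 (by rw [← halgK, ← halgK, hpq])
  have : FaithfulSMul K0[X] F := (faithfulSMul_iff_algebraMap_injective _ _).mpr hinj
  let _ : Algebra (FractionRing K0[X]) F := FractionRing.liftAlgebra K0[X] F
  have : IsScalarTower K0[X] (FractionRing K0[X]) F :=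
    FractionRing.isScalarTower_liftAlgebra K0[X] F
  have hmapA : ∀ p : A0[X], algebraMap K0[X] F (p.map (algebraMap A0 K0)) = aeval t p := by
    intro p
    rw [halgK, aeval_map_algebraMap]
  have : FiniteDimensional (FractionRing K0[X]) F := by
    obtain ⟨n, β, hβ⟩ := hfin
    refine ⟨⟨Finset.univ.image β, ?_⟩⟩
    rw [eq_top_iff]
    intro x _
    obtain ⟨a, d, hd, hx⟩ := hβ x
    have hx' : x = ∑ i, (algebraMap K0[X] (FractionRing K0[X]) ((a i).map (algebraMap A0 K0)) /
        algebraMap K0[X] (FractionRing K0[X]) (d.map (algebraMap A0 K0))) • β i := by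
      have h1 : ∀ i, (algebraMap K0[X] (FractionRing K0[X]) ((a i).map (algebraMap A0 K0)) /
          algebraMap K0[X] (FractionRing K0[X]) (d.map (algebraMap A0 K0))) • β i =
          aeval t (a i) * β i / aeval t d := by
        intro i
        rw [Algebra.smul_def, map_div₀, ← IsScalarTower.algebraMap_apply,
          ← IsScalarTower.algebraMap_apply, hmapA, hmapA]
        ring
      rw [Finset.sum_congr rfl fun i _ => h1 i, ← Finset.sum_div, ← hx]
      field_simp
    rw [hx']
    refine Submodule.sum_mem _ fun i _ => Submodule.smul_mem _ _ (Submodule.subset_span ?_)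
    simp
  have : CharZero (FractionRing K0[X]) :=
    charZero_of_injective_algebraMap (IsFractionRing.injective K0[X] (FractionRing K0[X]))
  exact ⟨integralClosure.isDedekindDomain K0[X] (FractionRing K0[X]) F,
    IsIntegralClosure.isFractionRing_of_finite_extension K0[X] (FractionRing K0[X]) F
      (integralClosure K0[X] F)⟩

omit [IsDomain A0] [IsDiscreteValuationRing A0] [IsFractionRing A0 K0] in
/-- The chart ring is contained in the integral closure of `K0[t]`. -/
theorem hzp_le (t : F) [Algebra K0[X] F]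
    (halgK : ∀ p : K0[X], algebraMap K0[X] F p = aeval t p) (x : F) (hx : x ∈ chtO A0 {t}) :
    IsIntegral K0[X] x := by
  rw [cht_mem_iff, cht_isIntegral_adjoin_iff] at hx
  obtain ⟨q, hqm, hq⟩ := hx
  refine ⟨q.map (mapRingHom (algebraMap A0 K0)), hqm.map _, ?_⟩
  rw [eval₂_map]
  have : (algebraMap K0[X] F).comp (mapRingHom (algebraMap A0 K0)) =
      (aeval t : A0[X] →ₐ[A0] F).toRingHom := by
    ext p
    · simp [halgK, ← IsScalarTower.algebraMap_apply A0 K0 F]
    · simp [halgK]
  rw [this]
  exact hq

attribute [local instance] Polynomial.algebra in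
/-- Every element of the integral closure of `K0[t]` lies in the chart ring after multiplication
by a power of the uniformizer. -/
theorem hzp_exists_pow {τ : A0} (hτ : Irreducible τ) (t : F) [Algebra K0[X] F]
    (halgK : ∀ p : K0[X], algebraMap K0[X] F p = aeval t p) (x : F) (hx : IsIntegral K0[X] x) :
    ∃ k : ℕ, algebraMap A0 F τ ^ k * x ∈ chtO A0 {t} := by
  let _ : Algebra A0[X] F := (aeval t : A0[X] →ₐ[A0] F).toRingHom.toAlgebra
  have halg : ∀ p : A0[X], algebraMap A0[X] F p = aeval t p := fun p => rfl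
  have htow : IsScalarTower A0[X] K0[X] F := by
    refine IsScalarTower.of_algebraMap_eq fun p => ?_
    rw [halg, halgK, Polynomial.algebraMap_def, coe_mapRingHom, aeval_map_algebraMap]
  have hloc : IsLocalization (Submonoid.map C (nonZeroDivisors A0)) K0[X] :=
    Polynomial.isLocalization (nonZeroDivisors A0) K0
  obtain ⟨⟨m, hm⟩, hmx⟩ :=
    IsIntegral.exists_multiple_integral_of_isLocalization (Submonoid.map C (nonZeroDivisors A0))
      x hx
  obtain ⟨b, hb, rfl⟩ := hm
  have hb0 : b ≠ 0 := nonZeroDivisors.ne_zero hb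
  obtain ⟨k, u, hu⟩ := IsDiscreteValuationRing.eq_unit_mul_pow_irreducible hb0 hτ
  refine ⟨k, ?_⟩
  have h1 : algebraMap A0 F b * x ∈ chtO A0 {t} := by
    rw [cht_mem_iff_isIntegral_poly t halg]
    have : (⟨C b, b, hb, rfl⟩ : Submonoid.map C (nonZeroDivisors A0)) • x =
        algebraMap A0 F b * x := by
      rw [Submonoid.smul_def, Algebra.smul_def, halg, aeval_C]
    rw [← this]
    exact hmx
  have h2 : algebraMap A0 F τ ^ k * x =
      algebraMap A0 F ((u⁻¹ : A0ˣ) : A0) * (algebraMap A0 F b * x) := by
    rw [hu, map_mul, map_pow, ← mul_assoc, ← mul_assoc, ← map_mul, Units.inv_mul, map_one,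
      one_mul]
  rw [h2]
  exact (chtO A0 {t}).mul_mem ((chtO A0 {t}).algebraMap_mem _) h1

/-- **[HPLACE]** Every nonzero prime `P` of the chart ring `chtO A0 {t}` not containing the
uniformizer `τ` is the centre of a principal valuation subring `V ≠ ⊤` of `F` containing `K0`
(a place of `F / K0`), and `V` is the localization of the chart at `P`. -/
theorem hzp_main [CharZero K0] {τ : A0} (hτ : Irreducible τ) (t : F) (ht : Transcendental K0 t)
    (hfin : ∃ (n : ℕ) (β : Fin n → F), ∀ x : F, ∃ (a : Fin n → A0[X]) (d : A0[X]),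
      aeval t d ≠ 0 ∧ aeval t d * x = ∑ i, aeval t (a i) * β i)
    (P : Ideal ↥(chtO A0 {t})) (hP : P.IsPrime) (hP0 : P ≠ ⊥)
    (hτP : algebraMap A0 ↥(chtO A0 {t}) τ ∉ P) :
    ∃ V : ValuationSubring F, IsPrincipalIdealRing V ∧ V ≠ ⊤ ∧
      (∀ c : K0, algebraMap K0 F c ∈ V) ∧ (algebraMap A0 F τ)⁻¹ ∈ V ∧
      (∀ x ∈ chtO A0 {t}, x ∈ V) ∧
      (∀ x : ↥(chtO A0 {t}), (x : F) ∈ V.nonunits ↔ x ∈ P) ∧
      ∀ x ∈ V, ∃ s : ↥(chtO A0 {t}), s ∉ P ∧ (s : F) * x ∈ chtO A0 {t} := by
  let _ : Algebra K0[X] F := (aeval t : K0[X] →ₐ[K0] F).toRingHom.toAlgebra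
  have halgK : ∀ p : K0[X], algebraMap K0[X] F p = aeval t p := fun p => rfl
  obtain ⟨hDed, hFrac⟩ := hzp_dedekind (A0 := A0) t ht hfin halgK
  -- the inclusion of the chart into `D`
  let ι : ↥(chtO A0 {t}) →+* ↥(integralClosure K0[X] F) :=
    { toFun := fun x => ⟨x.1, hzp_le t halgK x.1 x.2⟩
      map_one' := rfl
      map_mul' := fun _ _ => rfl
      map_zero' := rfl
      map_add' := fun _ _ => rfl }
  let _ : Algebra ↥(chtO A0 {t}) ↥(integralClosure K0[X] F) := ι.toAlgebra
  have htow : IsScalarTower ↥(chtO A0 {t}) ↥(integralClosure K0[X] F) F :=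
    IsScalarTower.of_algebraMap_eq fun x => rfl
  have hinj : Function.Injective (algebraMap ↥(chtO A0 {t}) F) := Subtype.val_injective
  have hτF : algebraMap A0 F τ ≠ 0 := by
    rw [IsScalarTower.algebraMap_apply A0 K0 F, Ne, map_eq_zero,
      map_eq_zero_iff _ (IsFractionRing.injective A0 K0)]
    exact hτ.ne_zero
  have hKD : ∀ c : K0, algebraMap K0 F c ∈ integralClosure K0[X] F := by
    intro c
    have : algebraMap K0 F c = algebraMap K0[X] F (C c) := by rw [halgK, aeval_C]
    rw [this]
    exact Subalgebra.algebraMap_mem _ _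
  have hτu : IsUnit (algebraMap ↥(chtO A0 {t}) ↥(integralClosure K0[X] F)
      (algebraMap A0 ↥(chtO A0 {t}) τ)) := by
    refine IsUnit.of_mul_eq_one (⟨algebraMap K0 F (algebraMap A0 K0 τ)⁻¹, hKD _⟩ :
      ↥(integralClosure K0[X] F)) ?_
    apply Subtype.ext
    change algebraMap A0 F τ * algebraMap K0 F (algebraMap A0 K0 τ)⁻¹ = 1
    rw [map_inv₀, ← IsScalarTower.algebraMap_apply A0 K0 F]
    exact mul_inv_cancel₀ hτF
  have hsurj : ∀ d : ↥(integralClosure K0[X] F), ∃ (k : ℕ) (o : ↥(chtO A0 {t})),
      algebraMap ↥(chtO A0 {t}) ↥(integralClosure K0[X] F)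
        (algebraMap A0 ↥(chtO A0 {t}) τ) ^ k * d =
      algebraMap ↥(chtO A0 {t}) ↥(integralClosure K0[X] F) o := by
    intro d
    obtain ⟨k, hk⟩ := hzp_exists_pow hτ t halgK d.1 d.2
    refine ⟨k, ⟨_, hk⟩, ?_⟩
    apply Subtype.ext
    rfl
  obtain ⟨V, hVpir, hVtop, hVD, hVnon, hVloc⟩ :=
    hzp_abs (O := ↥(chtO A0 {t})) (D := ↥(integralClosure K0[X] F)) (F := F) hinj
      (algebraMap A0 ↥(chtO A0 {t}) τ) hτu hsurj P hP hP0 hτP
  have hVK : ∀ c : K0, algebraMap K0 F c ∈ V := fun c => hVD ⟨_, hKD c⟩
  refine ⟨V, hVpir, hVtop, hVK, ?_, ?_, hVnon, ?_⟩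
  · have := hVK (algebraMap A0 K0 τ)⁻¹
    rwa [map_inv₀, ← IsScalarTower.algebraMap_apply A0 K0 F] at this
  · intro x hx
    exact hVD ⟨x, hzp_le t halgK x hx⟩
  · intro x hx
    obtain ⟨s, hs, o, ho⟩ := hVloc x hx
    refine ⟨s, hs, ?_⟩
    have : (s : F) * x = (o : F) := ho
    rw [this]
    exact o.2

end Chart

end Fermat.Agent.S34
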