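import Fermat.Agent.S18.Char0Ram
import Fermat.Agent.S18.BaseChangePlace
import Fermat.Agent.S34.HorizPlace

/-!
# S34, leaf [NODE-UNIF] (D-NODE-INST (e)): the Hauptmodul is a local parameter at non-cuspidal
rational points, over a field of definition

* `nunH K0 N H ha2`: the Hauptmodul of a `HauptRec` as an element of the function field
  `laurentBaseChange K0 (modularFunctionFieldFull N)` of `X₀(N)` over `K0`.
* `nun_ord_eq_one`: over any field `K0 ⊆ ℚ̄`, the function `h - c` (`c ∈ K0` a non-cuspidal value)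
  has only simple zeros (`K0`-form of `S18.c0r_ord_eq_one`, by base change of places).
* `nun_place_loc`: a place of `F / K0` whose valuation ring contains the chart `chtO A0 {t}` is
  the localization of the chart at its centre.
* `nun_unif_abs`, `nun_unif`: the hypothesis `hunif` of `nda_hz` / `nda_main_unif` in `F`-form:
  if `y` has order one at the place `P` and `x` vanishes at `P`, then `s * x = y * u` with `s, u`
  in the chart and `s` a unit at `P`.
-/

set_option autoImplicit false

noncomputable section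

namespace Fermat.Agent.S34

open ModularCurve AlgebraicCurve Polynomial Fermat.Agent.S18 Fermat.Agent.S24

local notation "Qb" => AlgebraicClosure ℚ

section Ord

variable (K0 : Type*) [Field K0] [Algebra ℚ K0] [Algebra K0 Qb]
variable (N : ℕ) [NeZero N] {a2 ℓ : ℕ} (H : HauptRec a2 ℓ) (ha2 : a2 ∣ N)

/-- The Hauptmodul of the record as an element of the function field of `X₀(N)` over `K0`. -/
def nunH : ↥(laurentBaseChange K0 (modularFunctionFieldFull N)) :=
  ⟨H.h K0, cinst_h_mem H K0 ha2⟩

omit [Algebra K0 Qb] in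
@[simp] theorem nunH_coe :
    ((nunH K0 N H ha2 : ↥(laurentBaseChange K0 (modularFunctionFieldFull N))) :
      LaurentSeries K0) = H.h K0 := rfl

/-- Base change of `h - c` to `ℚ̄`. -/
theorem nun_bcfHom (c : K0) :
    bcfHom K0 Qb (modularFunctionFieldFull N)
        (nunH K0 N H ha2 - algebraMap K0 ↥(laurentBaseChange K0 (modularFunctionFieldFull N)) c) =
      c0rH N H ha2 - algebraMap Qb ↥(modularFunctionFieldBar N) (algebraMap K0 Qb c) := by
  rw [map_sub, bcfHom_algebraMap]
  congr 1
  apply Subtype.ext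
  rw [bcfHom_coe, nunH_coe, H.coeffMap_h]
  rfl

/-- **Reduced fibres over a field of definition.**  Over a non-cuspidal value `c ∈ K0`
(`Qrad(c) ≠ 0`) the function `h - c` has only simple zeros on `X₀(N)` over `K0`. -/
theorem nun_ord_eq_one (c : K0) (hc : aeval c H.Qrad ≠ 0)
    (P : Place K0 ↥(laurentBaseChange K0 (modularFunctionFieldFull N)))
    (hP : 0 < P.ord (nunH K0 N H ha2 -
      algebraMap K0 ↥(laurentBaseChange K0 (modularFunctionFieldFull N)) c)) :
    P.ord (nunH K0 N H ha2 -
      algebraMap K0 ↥(laurentBaseChange K0 (modularFunctionFieldFull N)) c) = 1 := by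
  have _algQ : Algebra.IsAlgebraic ℚ Qb := AlgebraicClosure.isAlgebraic ℚ
  have _algK : Algebra.IsAlgebraic K0 Qb := bcf_isAlgebraic K0 Qb
  obtain ⟨P', hP'⟩ := bcf_exists_place K0 Qb (modularFunctionFieldFull N) P
  have h1 := hP' (nunH K0 N H ha2 -
    algebraMap K0 ↥(laurentBaseChange K0 (modularFunctionFieldFull N)) c)
  rw [nun_bcfHom] at h1
  rw [← h1]
  refine c0r_ord_eq_one N H ha2 (algebraMap K0 Qb c) ?_ P' (by rw [h1]; exact hP)
  intro h0
  apply hc
  rw [aeval_algebraMap_apply] at h0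
  exact (map_eq_zero _).mp h0

end Ord

section Unif

variable {A0 K0 F : Type*} [CommRing A0] [IsDomain A0] [IsDiscreteValuationRing A0]
  [Field K0] [Algebra A0 K0] [IsFractionRing A0 K0]
  [Field F] [Algebra A0 F] [Algebra K0 F] [IsScalarTower A0 K0 F]

/-- A place of `F / K0` whose valuation ring contains the chart ring `chtO A0 {t}` is the
localization of the chart at its centre: every element of the valuation ring is `u / s` with
`s, u` in the chart and `s` a unit at the place. -/
theorem nun_place_loc [CharZero K0] {τ : A0} (hτ : Irreducible τ) (t : F)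
    (ht : Transcendental K0 t)
    (hfin : ∃ (n : ℕ) (β : Fin n → F), ∀ x : F, ∃ (a : Fin n → A0[X]) (d : A0[X]),
      aeval t d ≠ 0 ∧ aeval t d * x = ∑ i, aeval t (a i) * β i)
    (P : Place K0 F) (hO : ∀ x ∈ chtO A0 {t}, x ∈ P.toValuationSubring)
    (x : F) (hx : x ∈ P.toValuationSubring) :
    ∃ s u : ↥(chtO A0 {t}), (s : F) ∉ P.toValuationSubring.nonunits ∧ (s : F) * x = (u : F) := by
  set V := P.toValuationSubring with hV
  have htA : Transcendental A0 t := fun h =>
    ht (h.extendScalars (IsFractionRing.injective A0 K0))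
  -- the centre of the place on the chart
  let ι : ↥(chtO A0 {t}) →+* ↥V :=
    { toFun := fun o => ⟨o.1, hO o.1 o.2⟩
      map_one' := rfl
      map_mul' := fun _ _ => rfl
      map_zero' := rfl
      map_add' := fun _ _ => rfl }
  set Pc : Ideal ↥(chtO A0 {t}) := (IsLocalRing.maximalIdeal ↥V).comap ι with hPc
  have hPcmem : ∀ o : ↥(chtO A0 {t}), o ∈ Pc ↔ (o : F) ∈ V.nonunits := by
    intro o
    rw [hPc, Ideal.mem_comap, ← ValuationSubring.coe_mem_nonunits_iff]
    rfl
  have hPcprime : Pc.IsPrime := Ideal.comap_isPrime ι _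
  have hunitV : ∀ z : F, z ∈ V → z ∉ V.nonunits → z⁻¹ ∈ V := by
    intro z _ hz
    by_contra hzi
    exact hz ((ValuationSubring.mem_nonunits_iff_or (A := V)).mpr (Or.inr hzi))
  have hPc0 : Pc ≠ ⊥ := by
    intro h0
    apply P.ne_top'
    rw [eq_top_iff]
    intro z _
    obtain ⟨a, ha, s, hs, hs0, hzs⟩ := cht_hfrac t htA hfin z
    have hsPc : (⟨s, hs⟩ : ↥(chtO A0 {t})) ∉ Pc := by
      rw [h0, Ideal.mem_bot]
      intro h
      exact hs0 (congrArg Subtype.val h)
    have hsu : s ∉ V.nonunits := fun h => hsPc ((hPcmem ⟨s, hs⟩).mpr h)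
    have hsinv : s⁻¹ ∈ V := hunitV s (hO s hs) hsu
    have hz : z = a * s⁻¹ := by rw [← hzs]; field_simp
    rw [hz]
    exact V.mul_mem _ _ (hO a ha) hsinv
  have hτF : algebraMap A0 F τ ≠ 0 := by
    rw [IsScalarTower.algebraMap_apply A0 K0 F, Ne, map_eq_zero,
      map_eq_zero_iff _ (IsFractionRing.injective A0 K0)]
    exact hτ.ne_zero
  have hτPc : algebraMap A0 ↥(chtO A0 {t}) τ ∉ Pc := by
    rw [hPcmem]
    intro h
    have h1 : ((algebraMap A0 ↥(chtO A0 {t}) τ : ↥(chtO A0 {t})) : F) = algebraMap A0 F τ := rfl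
    rw [h1, ValuationSubring.mem_nonunits_iff_or] at h
    rcases h with h | h
    · exact hτF h
    · apply h
      have := P.algebraMap_mem' (algebraMap A0 K0 τ)⁻¹
      rwa [map_inv₀, ← IsScalarTower.algebraMap_apply A0 K0 F] at this
  obtain ⟨V', -, -, -, -, hV'O, hV'non, hV'loc⟩ := hzp_main hτ t ht hfin Pc hPcprime hPc0 hτPc
  -- `x ∈ V'`
  have hxV' : x ∈ V' := by
    by_contra hxn
    have hx0 : x ≠ 0 := fun h => hxn (h ▸ V'.zero_mem)
    have hxi : x⁻¹ ∈ V' := (V'.mem_or_inv_mem x).resolve_left hxn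
    have hxinon : x⁻¹ ∈ V'.nonunits := by
      rw [ValuationSubring.mem_nonunits_iff_or, inv_inv]
      exact Or.inr hxn
    obtain ⟨s, hs, hso⟩ := hV'loc x⁻¹ hxi
    have ho : (⟨(s : F) * x⁻¹, hso⟩ : ↥(chtO A0 {t})) ∈ Pc := by
      rw [← hV'non]
      have := cht_nonunits_mul V' hxinon (hV'O (s : F) s.2)
      rw [mul_comm] at this
      exact this
    have hoV : (s : F) * x⁻¹ ∈ V.nonunits := (hPcmem _).mp ho
    have hsV : (s : F) ∉ V.nonunits := fun h => hs ((hPcmem s).mpr h)
    have hsinv : (s : F)⁻¹ ∈ V := hunitV _ (hO _ s.2) hsV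
    have hs0 : (s : F) ≠ 0 := fun h => hsV (by rw [h]; exact V.nonunits.zero_mem)
    have hxiV : x⁻¹ ∈ V.nonunits := by
      have := cht_nonunits_mul V hoV hsinv
      have e : (s : F) * x⁻¹ * (s : F)⁻¹ = x⁻¹ := by field_simp
      rwa [e] at this
    have h1 : x⁻¹ * x ∈ V.nonunits := cht_nonunits_mul V hxiV hx
    rw [inv_mul_cancel₀ hx0] at h1
    rw [ValuationSubring.mem_nonunits_iff_or] at h1
    rcases h1 with h1 | h1
    · exact one_ne_zero h1
    · exact h1 (by rw [inv_one]; exact V.one_mem)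
  obtain ⟨s, hs, hso⟩ := hV'loc x hxV'
  exact ⟨s, ⟨_, hso⟩, fun h => hs ((hPcmem s).mpr h), rfl⟩

/-- **hunif, abstract place form.**  If `y` has order one at the place `P` (whose valuation ring
contains the chart) and `x` vanishes at `P`, then `s * x = y * u` with `s, u` in the chart and
`s` a unit at `P`. -/
theorem nun_unif_abs [CharZero K0] {τ : A0} (hτ : Irreducible τ) (t : F)
    (ht : Transcendental K0 t)
    (hfin : ∃ (n : ℕ) (β : Fin n → F), ∀ x : F, ∃ (a : Fin n → A0[X]) (d : A0[X]),
      aeval t d ≠ 0 ∧ aeval t d * x = ∑ i, aeval t (a i) * β i)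
    (P : Place K0 F) (hO : ∀ x ∈ chtO A0 {t}, x ∈ P.toValuationSubring)
    (y : F) (hy : P.ord y = 1) (x : F) (hx : x ∈ P.toValuationSubring.nonunits) :
    ∃ s u : ↥(chtO A0 {t}), (s : F) ∉ P.toValuationSubring.nonunits ∧
      (s : F) * x = y * (u : F) := by
  have hy0 : y ≠ 0 := by
    rintro rfl
    rw [P.ord_zero] at hy
    exact zero_ne_one hy
  rcases eq_or_ne x 0 with rfl | hx0
  · refine ⟨1, 0, ?_, by simp⟩
    intro h
    rw [ValuationSubring.mem_nonunits_iff_or] at h
    rcases h with h | h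
    · have h1 : (1 : F) = 0 := h
      exact one_ne_zero h1
    · apply h
      have h1 : ((1 : ↥(chtO A0 {t})) : F)⁻¹ = 1 := inv_one
      rw [h1]
      exact P.toValuationSubring.one_mem
  have hxpos : 0 < P.ord x := by
    rw [sf_ord_pos_iff]
    rw [ValuationSubring.mem_nonunits_iff_or] at hx
    exact hx.resolve_left hx0
  have hxy : x * y⁻¹ ∈ P.toValuationSubring := by
    rw [← sf_ord_nonneg_iff, P.ord_mul hx0 (inv_ne_zero hy0), P.ord_inv, hy]
    omega
  obtain ⟨s, u, hs, hsu⟩ := nun_place_loc hτ t ht hfin P hO (x * y⁻¹) hxy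
  refine ⟨s, u, hs, ?_⟩
  rw [← hsu]
  field_simp

end Unif

section Main

variable (K0 : Type*) [Field K0] [Algebra ℚ K0] [Algebra K0 Qb]
variable (N : ℕ) [NeZero N] {a2 ℓ : ℕ} (H : HauptRec a2 ℓ) (ha2 : a2 ∣ N)
variable {A0 : Type*} [CommRing A0] [IsDomain A0] [IsDiscreteValuationRing A0]
  [Algebra A0 K0] [IsFractionRing A0 K0]
  [Algebra A0 ↥(laurentBaseChange K0 (modularFunctionFieldFull N))]
  [IsScalarTower A0 K0 ↥(laurentBaseChange K0 (modularFunctionFieldFull N))]

/-- **[NODE-UNIF]** (`hunif` of `nda_hz` / `nda_main_unif`, in `F`-form).  Let `P` be a place of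
the function field of `X₀(N)` over `K0` whose valuation ring contains the chart `chtO A0 {t}`,
at which `h - c` vanishes for a non-cuspidal value `c ∈ K0`.  Then for every `x` vanishing at `P`
there are `s, u` in the chart, `s` a unit at `P`, with `s * x = (h - c) * u`. -/
theorem nun_unif {τ : A0} (hτ : Irreducible τ)
    (t : ↥(laurentBaseChange K0 (modularFunctionFieldFull N))) (ht : Transcendental K0 t)
    (hfin : ∃ (n : ℕ) (β : Fin n → ↥(laurentBaseChange K0 (modularFunctionFieldFull N))),
      ∀ x : ↥(laurentBaseChange K0 (modularFunctionFieldFull N)),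
        ∃ (a : Fin n → A0[X]) (d : A0[X]),
          aeval t d ≠ 0 ∧ aeval t d * x = ∑ i, aeval t (a i) * β i)
    (P : Place K0 ↥(laurentBaseChange K0 (modularFunctionFieldFull N)))
    (hO : ∀ x ∈ chtO A0 {t}, x ∈ P.toValuationSubring)
    (c : K0) (hc : aeval c H.Qrad ≠ 0)
    (hcP : nunH K0 N H ha2 -
      algebraMap K0 ↥(laurentBaseChange K0 (modularFunctionFieldFull N)) c ∈
        P.toValuationSubring.nonunits)
    (x : ↥(laurentBaseChange K0 (modularFunctionFieldFull N)))
    (hx : x ∈ P.toValuationSubring.nonunits) :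
    ∃ s u : ↥(chtO A0 {t}),
      ((s : ↥(laurentBaseChange K0 (modularFunctionFieldFull N)))) ∉
        P.toValuationSubring.nonunits ∧
      (s : ↥(laurentBaseChange K0 (modularFunctionFieldFull N))) * x =
        (nunH K0 N H ha2 -
          algebraMap K0 ↥(laurentBaseChange K0 (modularFunctionFieldFull N)) c) * (u : _) := by
  have _cz : CharZero K0 := algebraRat.charZero K0
  have hy0 : nunH K0 N H ha2 -
      algebraMap K0 ↥(laurentBaseChange K0 (modularFunctionFieldFull N)) c ≠ 0 := by
    intro h0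
    apply cinst_h_sub_ne_zero H K0 c
    have := congrArg (Subtype.val) h0
    exact this
  have hpos : 0 < P.ord (nunH K0 N H ha2 -
      algebraMap K0 ↥(laurentBaseChange K0 (modularFunctionFieldFull N)) c) := by
    rw [sf_ord_pos_iff]
    rw [ValuationSubring.mem_nonunits_iff_or] at hcP
    exact hcP.resolve_left hy0
  exact nun_unif_abs hτ t ht hfin P hO _ (nun_ord_eq_one K0 N H ha2 c hc P hpos) x hx

end Main

end Fermat.Agent.S34
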