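import Mathlib
import Fermat.Agent.S34.CuspGlue
import Fermat.Agent.S34.KronVal
import Fermat.Agent.S34.ModEqK
import Fermat.Agent.S34.ModEqDeg
import Fermat.Agent.S34.NodeUnif
import Fermat.Agent.S34.Val2Def
import Fermat.Agent.S34.Val2Inst
import Fermat.Agent.S18.CoreInstChart
import Fermat.Agent.S18.Charts

/-!
# S34, work package CUSP-GLUE, part 2: crossing points are not cuspidal (concrete carrier)

`K0` a field with `[Algebra ℚ K0] [Algebra K0 ℚ̄]`, `A0` a discrete valuation subring of `K0`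
over the prime `q ∤ M`, `F = K0(X₀(M q))`, `h = nunH K0 (M q) H _` the Hauptmodul of a
`HauptRec a2 q` (`a2 ∣ M`), `w = va2Swap`, `J = va2Jd K0 (M q) 1 _`, `Jq = va2Jd K0 (M q) q _`,
`t = (h - c1) / (h - c0)` the chart coordinate.

* `cni_bezout`: the Bezout relation of `H.P`, `H.Q` modulo `q`, lifted to `ℤ[X]`;
* `cni_rel`: `J * Q(h) = P(h)` in the function field; `cni_J_ne_zero`;
* `cni_alpha_h`, `cni_swap_h`, `cni_swap_h_coe`: `w h = β(h)` has expansion `h(t^q)`;
* `cni_h_kron`: `h, w h ∈ V₁ ∩ V₂`, `h ^ q - w h ∈ 𝔪_{V₁}`, `h - (w h) ^ q ∈ 𝔪_{V₂}`;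
* `cni_main`: at a prime `𝔫` of the chart `chtO A0 {t}` containing the traces of `𝔪_{V₁}` and
  `𝔪_{V₂}` (a crossing point): `J`, `Jq`, `h`, `w h` lie in the local ring `O_𝔫`
  (in the elementwise form `∃ a s : O, s ∉ 𝔫 ∧ x * s = a`, which is the membership predicate
  of `dmaLoc O 𝔫` and of `ndrLoc O 𝔫`);
* `cni_crossing`, `cni_crossing_inv`: the same for `V₁ = va2V1`, `V₂ = va2V2` and the two
  charts `chtO A0 {t}`, `chtO A0 {t⁻¹}`, with the crossing hypotheses of `s34im_field`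
  verbatim.
-/

set_option autoImplicit false
set_option linter.unusedSectionVars false

noncomputable section

open ModularCurve AlgebraicCurve Polynomial
open Fermat.Agent.S18 Fermat.Agent.S28

namespace Fermat.Agent.S34

local notation "Qb" => AlgebraicClosure ℚ

/-! ### Integral Bezout relation -/

/-- Bezout relation for `P`, `Q` modulo `ℓ`, lifted to `ℤ[X]`. -/
theorem cni_bezout {a2 ℓ : ℕ} (H : HauptRec a2 ℓ) :
    ∃ U V W : ℤ[X], U * H.P + V * H.Q = 1 + C (ℓ : ℤ) * W := by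
  obtain ⟨u, v, huv⟩ := H.coprime_mod
  obtain ⟨U, rfl⟩ := Polynomial.map_surjective (Int.castRingHom (ZMod ℓ))
    (ZMod.intCast_surjective) u
  obtain ⟨V, rfl⟩ := Polynomial.map_surjective (Int.castRingHom (ZMod ℓ))
    (ZMod.intCast_surjective) v
  have h0 : (U * H.P + V * H.Q - 1).map (Int.castRingHom (ZMod ℓ)) = 0 := by
    rw [Polynomial.map_sub, Polynomial.map_add, Polynomial.map_mul, Polynomial.map_mul, huv,
      Polynomial.map_one, sub_self]
  have h1 : C (ℓ : ℤ) ∣ U * H.P + V * H.Q - 1 := by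
    rw [Polynomial.C_dvd_iff_dvd_coeff]
    intro i
    have := congrArg (fun p => p.coeff i) h0
    simp only [Polynomial.coeff_map, Polynomial.coeff_zero] at this
    exact (ZMod.intCast_zmod_eq_zero_iff_dvd _ _).mp this
  obtain ⟨W, hW⟩ := h1
  exact ⟨U, V, W, by rw [← hW]; ring⟩

/-- ring homomorphisms commute with evaluation of integer polynomials -/
theorem cni_map_aeval {R S : Type*} [CommRing R] [CommRing S] [Algebra ℤ R] [Algebra ℤ S]
    (f : R →+* S) (x : R) (p : ℤ[X]) : f (aeval x p) = aeval (f x) p := by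
  rw [Polynomial.aeval_def, Polynomial.aeval_def, Polynomial.hom_eval₂]
  congr 1
  exact RingHom.ext_int _ _

/-! ### The Hauptmodul relation in the function field -/

section Rel

variable (K0 : Type*) [Field K0] [Algebra ℚ K0] [Algebra K0 Qb]
variable (N : ℕ) [NeZero N] {a2 ℓ : ℕ} (H : HauptRec a2 ℓ) (ha2 : a2 ∣ N)

omit [Algebra K0 Qb] [NeZero N] in
/-- the coercion to Laurent series commutes with evaluation of integer polynomials -/
theorem cni_coe_aeval (x : ↥(laurentBaseChange K0 (modularFunctionFieldFull N))) (p : ℤ[X]) :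
    ((aeval x p : ↥(laurentBaseChange K0 (modularFunctionFieldFull N))) : LaurentSeries K0)
      = aeval (x : LaurentSeries K0) p :=
  cni_map_aeval ((laurentBaseChange K0 (modularFunctionFieldFull N)).val : _ →+* LaurentSeries K0)
    x p

/-- `j · Q(h) = P(h)` in the function field of level `N` over `K0` -/
theorem cni_rel :
    va2Jd K0 N 1 (one_dvd N) * aeval (nunH K0 N H ha2) H.Q = aeval (nunH K0 N H ha2) H.P := by
  apply Subtype.ext
  have h1 : ((va2Jd K0 N 1 (one_dvd N) * aeval (nunH K0 N H ha2) H.Q :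
      ↥(laurentBaseChange K0 (modularFunctionFieldFull N))) : LaurentSeries K0)
      = (va2Jd K0 N 1 (one_dvd N) : LaurentSeries K0) *
        ((aeval (nunH K0 N H ha2) H.Q : ↥(laurentBaseChange K0 (modularFunctionFieldFull N))) :
          LaurentSeries K0) := rfl
  rw [h1, cni_coe_aeval, cni_coe_aeval, nunH_coe, mqk_va2Jd_coe]
  exact H.rel_map K0

/-- the generator `j` is nonzero -/
theorem cni_J_ne_zero : va2Jd K0 N 1 (one_dvd N) ≠ 0 := by
  intro h0
  have h1 : ((va2Jd K0 N 1 (one_dvd N) : ↥(laurentBaseChange K0 (modularFunctionFieldFull N))) :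
      LaurentSeries K0) = 0 := by
    rw [h0]
    rfl
  rw [krv_coe_Jd] at h1
  exact krv_red_Jd_ne K0 1 h1

end Rel

/-! ### The Hauptmodul and the swap -/

section Main

variable (M q : ℕ) [NeZero M] [hq : Fact q.Prime] (hM : ¬ q ∣ M)
  (K0 : Type*) [Field K0] [Algebra ℚ K0] [Algebra K0 Qb]
  (A0 : ValuationSubring K0) [IsDiscreteValuationRing ↥A0]
  {a2 : ℕ} (H : HauptRec a2 q)

include H in
/-- the level of the Hauptmodul divides the prime-to-`q` part of the level -/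
theorem cni_dvd (ha2 : a2 ∣ M * q) : a2 ∣ M :=
  (Nat.Coprime.dvd_mul_right
    ((Nat.Coprime.symm ((Nat.Prime.coprime_iff_not_dvd hq.out).mpr H.not_dvd)))).mp ha2

/-- the Hauptmodul at level `M q` is the `α`-image of the Hauptmodul at level `M` -/
theorem cni_alpha_h (ha2 : a2 ∣ M * q) (ha2M : a2 ∣ M) :
    heckeAlphaBar K0 M q (nunH K0 M H ha2M) = nunH K0 (M * q) H ha2 :=
  Subtype.ext rfl

/-- the swap of the Hauptmodul is its `β`-image, with expansion `h(t^q)` -/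
theorem cni_swap_h (ha2 : a2 ∣ M * q) (ha2M : a2 ∣ M) :
    va2Swap M q hq.out hM K0 (nunH K0 (M * q) H ha2) = heckeBetaBar K0 M q (nunH K0 M H ha2M) := by
  rw [← cni_alpha_h M q K0 H ha2 ha2M, va2Swap_alpha]

theorem cni_swap_h_coe (ha2 : a2 ∣ M * q) :
    ((va2Swap M q hq.out hM K0 (nunH K0 (M * q) H ha2) :
      ↥(laurentBaseChange K0 (modularFunctionFieldFull (M * q)))) : LaurentSeries K0)
      = qExpand K0 q (H.h K0) := by
  rw [cni_swap_h M q hM K0 H ha2 (cni_dvd M q H ha2), coe_heckeBetaBar]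
  rfl

/-- **Kronecker congruences for the Hauptmodul** `h` and `h_q = w h` in the two valuation
rings: `h ^ q - h_q ∈ 𝔪_{V₁}`, `h - h_q ^ q ∈ 𝔪_{V₂}`. -/
theorem cni_h_kron (ha2 : a2 ∣ M * q) (hqA : ((q : ℕ) : K0) ∈ A0.nonunits)
    (V₁ : ValuationSubring ↥(laurentBaseChange K0 (modularFunctionFieldFull (M * q))))
    (hVG : ∀ x : ↥(laurentBaseChange K0 (modularFunctionFieldFull (M * q))),
      x ∈ V₁ ↔ (x : LaurentSeries K0) ∈ grV A0)
    (V₂ : ValuationSubring ↥(laurentBaseChange K0 (modularFunctionFieldFull (M * q))))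
    (hV₂ : ∀ x : ↥(laurentBaseChange K0 (modularFunctionFieldFull (M * q))),
      x ∈ V₂ ↔ va2Swap M q hq.out hM K0 x ∈ V₁) :
    (nunH K0 (M * q) H ha2 ∈ V₁ ∧ va2Swap M q hq.out hM K0 (nunH K0 (M * q) H ha2) ∈ V₁ ∧
      nunH K0 (M * q) H ha2 ^ q - va2Swap M q hq.out hM K0 (nunH K0 (M * q) H ha2)
        ∈ V₁.nonunits) ∧
    (nunH K0 (M * q) H ha2 ∈ V₂ ∧ va2Swap M q hq.out hM K0 (nunH K0 (M * q) H ha2) ∈ V₂ ∧
      nunH K0 (M * q) H ha2 - va2Swap M q hq.out hM K0 (nunH K0 (M * q) H ha2) ^ q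
        ∈ V₂.nonunits) := by
  have hx : ((nunH K0 (M * q) H ha2 : ↥(laurentBaseChange K0 (modularFunctionFieldFull (M * q)))) :
      LaurentSeries K0) = coeffMap (Int.castRingHom K0) H.hZ := rfl
  have hxq : ((va2Swap M q hq.out hM K0 (nunH K0 (M * q) H ha2) :
      ↥(laurentBaseChange K0 (modularFunctionFieldFull (M * q)))) : LaurentSeries K0)
      = qExpand K0 q ((nunH K0 (M * q) H ha2 :
        ↥(laurentBaseChange K0 (modularFunctionFieldFull (M * q)))) : LaurentSeries K0) :=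
    cni_swap_h_coe M q hM K0 H ha2
  exact ⟨krv_V1_gen' A0 q hq.out hqA V₁ hVG _ _ H.hZ hx hxq,
    krv_V2_gen' A0 q hq.out hqA V₁ hVG (va2Swap M q hq.out hM K0) V₂ hV₂ _ _ H.hZ hx hxq rfl
      (va2Swap_swap M q hq.out hM K0 _)⟩

/-- **CUSP-NC at the concrete carrier.**  At a crossing point `𝔫` of the chart
`chtO A0 {t}`, `t = (h - c1) / (h - c0)`, of the level-`M q` function field over `K0` (a prime
containing the traces of both `𝔪_{V₁}` and `𝔪_{V₂}`), the functions `j`, `j_q`, `h` and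
`h_q = w h` all lie in the local ring `O_𝔫`: crossing points are not cuspidal. -/
theorem cni_main (ha2 : a2 ∣ M * q)
    [Algebra A0 ↥(laurentBaseChange K0 (modularFunctionFieldFull (M * q)))]
    [IsScalarTower A0 K0 ↥(laurentBaseChange K0 (modularFunctionFieldFull (M * q)))]
    (hqA : ((q : ℕ) : K0) ∈ A0.nonunits)
    (V₁ : ValuationSubring ↥(laurentBaseChange K0 (modularFunctionFieldFull (M * q))))
    (hVG : ∀ x : ↥(laurentBaseChange K0 (modularFunctionFieldFull (M * q))),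
      x ∈ V₁ ↔ (x : LaurentSeries K0) ∈ grV A0)
    (V₂ : ValuationSubring ↥(laurentBaseChange K0 (modularFunctionFieldFull (M * q))))
    (hV₂ : ∀ x : ↥(laurentBaseChange K0 (modularFunctionFieldFull (M * q))),
      x ∈ V₂ ↔ va2Swap M q hq.out hM K0 x ∈ V₁)
    (c0 c1 : A0) (hc : IsLocalRing.residue A0 c0 ≠ IsLocalRing.residue A0 c1)
    (t : ↥(laurentBaseChange K0 (modularFunctionFieldFull (M * q))))
    (ht : (t : LaurentSeries K0) = cinstU H K0 (c0 : K0) (c1 : K0))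
    (htV₂ : t ∈ V₂)
    (𝔫 : Ideal ↥(chtO A0 {t})) [𝔫.IsPrime]
    (hc₁ : ∀ x : ↥(chtO A0 {t}),
      (x : ↥(laurentBaseChange K0 (modularFunctionFieldFull (M * q)))) ∈ V₁.nonunits → x ∈ 𝔫)
    (hc₂ : ∀ x : ↥(chtO A0 {t}),
      (x : ↥(laurentBaseChange K0 (modularFunctionFieldFull (M * q)))) ∈ V₂.nonunits → x ∈ 𝔫) :
    (∃ a s : ↥(chtO A0 {t}), s ∉ 𝔫 ∧ va2Jd K0 (M * q) 1 (one_dvd _) *
      (s : ↥(laurentBaseChange K0 (modularFunctionFieldFull (M * q)))) = a) ∧
    (∃ a s : ↥(chtO A0 {t}), s ∉ 𝔫 ∧ va2Jd K0 (M * q) q (dvd_mul_left q M) *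
      (s : ↥(laurentBaseChange K0 (modularFunctionFieldFull (M * q)))) = a) ∧
    (∃ a s : ↥(chtO A0 {t}), s ∉ 𝔫 ∧ nunH K0 (M * q) H ha2 *
      (s : ↥(laurentBaseChange K0 (modularFunctionFieldFull (M * q)))) = a) ∧
    (∃ a s : ↥(chtO A0 {t}), s ∉ 𝔫 ∧ va2Swap M q hq.out hM K0 (nunH K0 (M * q) H ha2) *
      (s : ↥(laurentBaseChange K0 (modularFunctionFieldFull (M * q)))) = a) := by
  classical
  have hq' : q.Prime := hq.out
  have hmap : ∀ a : A0,
      algebraMap A0 ↥(laurentBaseChange K0 (modularFunctionFieldFull (M * q))) a =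
        algebraMap K0 ↥(laurentBaseChange K0 (modularFunctionFieldFull (M * q))) (a : K0) :=
    fun a => IsScalarTower.algebraMap_apply A0 K0
      ↥(laurentBaseChange K0 (modularFunctionFieldFull (M * q))) a
  have hcoe : ∀ a : A0,
      ((algebraMap A0 ↥(laurentBaseChange K0 (modularFunctionFieldFull (M * q))) a :
        ↥(laurentBaseChange K0 (modularFunctionFieldFull (M * q)))) : LaurentSeries K0)
        = algebraMap K0 (LaurentSeries K0) (a : K0) := by
    intro a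
    rw [hmap]
    rfl
  -- the chart lies in both valuation rings
  have hA₁ : ∀ a : A0,
      algebraMap A0 ↥(laurentBaseChange K0 (modularFunctionFieldFull (M * q))) a ∈ V₁ := by
    intro a
    rw [hVG, hcoe]
    exact gr_algebraMap_mem A0 a
  have hA₂ : ∀ a : A0,
      algebraMap A0 ↥(laurentBaseChange K0 (modularFunctionFieldFull (M * q))) a ∈ V₂ := by
    intro a
    rw [hV₂, hmap, va2Swap_const, ← hmap]
    exact hA₁ a
  have htV₁ : t ∈ V₁ := by
    rw [hVG, ht]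
    exact cinstU_mem_grV H A0 c0 c1
  have hO₁ : ∀ x ∈ chtO A0 {t}, x ∈ V₁ := fun x hx =>
    cht_le_valuationSubring V₁ hA₁ (by rintro y rfl; exact htV₁) hx
  have hO₂ : ∀ x ∈ chtO A0 {t}, x ∈ V₂ := fun x hx =>
    cht_le_valuationSubring V₂ hA₂ (by rintro y rfl; exact htV₂) hx
  have hint : ∀ x : ↥(laurentBaseChange K0 (modularFunctionFieldFull (M * q))),
      IsIntegral ↥(chtO A0 {t}) x → x ∈ chtO A0 {t} := fun x hx => cht_integral_closed {t} hx
  -- the residue characteristic lies in `𝔫`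
  have hqmax : ((q : ℕ) : A0) ∈ IsLocalRing.maximalIdeal A0 := by
    rw [IsLocalRing.mem_maximalIdeal]
    refine (A0.coe_mem_nonunits_iff).mp ?_
    rw [show (((q : ℕ) : A0) : K0) = ((q : ℕ) : K0) from by simp]
    exact hqA
  have hqn : ((q : ℕ) : ↥(chtO A0 {t})) ∈ 𝔫 := by
    refine hc₁ _ ?_
    have h1 := cinst_algebraMap_mem_nonunits V₁ hVG ((q : ℕ) : A0) hqmax
    have h2 : (((q : ℕ) : ↥(chtO A0 {t})) :
        ↥(laurentBaseChange K0 (modularFunctionFieldFull (M * q))))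
        = algebraMap K0 ↥(laurentBaseChange K0 (modularFunctionFieldFull (M * q)))
          ((((q : ℕ) : A0)) : K0) := by
      simp
    rw [h2]
    exact h1
  -- Kronecker for `j`
  obtain ⟨-, hJi1, -, -, hk1⟩ := krv_V1 A0 q hq' hqA V₁ hVG (one_dvd (M * q)) (dvd_mul_left q M)
  obtain ⟨hsw1, hsw2⟩ := krv_swap M q hq' hM K0
  obtain ⟨-, hJi2, -, -, hk2⟩ := krv_V2 A0 q hq' hqA V₁ hVG (one_dvd (M * q)) (dvd_mul_left q M)
    (va2Swap M q hq' hM K0) V₂ hV₂ hsw1 hsw2
  have hk1' : va2Jd K0 (M * q) q (dvd_mul_left q M) - va2Jd K0 (M * q) 1 (one_dvd _) ^ q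
      ∈ V₁.nonunits := by
    have := krv_neg_nonunits V₁ _ hk1
    rwa [neg_sub] at this
  -- the polynomial data
  obtain ⟨U, V, W, hUV⟩ := cni_bezout H
  obtain ⟨Φ, hΦ, hΦ0, -⟩ := mqk_exists_poly M q hq' hM K0
  have hdeg : H.Q.natDegree < H.P.natDegree := by
    rw [H.natDegree_P]
    exact H.natDegree_Q
  have hrel := cni_rel K0 (M * q) H ha2
  have hrelq : va2Jd K0 (M * q) q (dvd_mul_left q M) *
      aeval (va2Swap M q hq' hM K0 (nunH K0 (M * q) H ha2)) H.Q
      = aeval (va2Swap M q hq' hM K0 (nunH K0 (M * q) H ha2)) H.P := by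
    have h1 := congrArg (va2Swap M q hq' hM K0) hrel
    rw [map_mul, cni_map_aeval, cni_map_aeval, hsw1] at h1
    exact h1
  -- the base points
  have hu : IsUnit (c0 - c1) := by
    by_contra hnu
    have h1 : c0 - c1 ∈ IsLocalRing.maximalIdeal A0 := (IsLocalRing.mem_maximalIdeal _).mpr hnu
    have h2 := (IsLocalRing.residue_eq_zero_iff _).mpr h1
    rw [map_sub, sub_eq_zero] at h2
    exact hc h2
  obtain ⟨u, hu1⟩ := hu.exists_right_inv
  have hu2 : (algebraMap A0 ↥(laurentBaseChange K0 (modularFunctionFieldFull (M * q))) c0 -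
      algebraMap A0 ↥(laurentBaseChange K0 (modularFunctionFieldFull (M * q))) c1) *
      algebraMap A0 ↥(laurentBaseChange K0 (modularFunctionFieldFull (M * q))) u = 1 := by
    rw [← map_sub, ← map_mul, hu1, map_one]
  have hc01 : (algebraMap A0 ↥(laurentBaseChange K0 (modularFunctionFieldFull (M * q))) c0 -
      algebraMap A0 ↥(laurentBaseChange K0 (modularFunctionFieldFull (M * q))) c1)⁻¹
      ∈ chtO A0 {t} := by
    rw [inv_eq_of_mul_eq_one_right hu2]
    exact (chtO A0 {t}).algebraMap_mem u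
  have hcne : algebraMap A0 ↥(laurentBaseChange K0 (modularFunctionFieldFull (M * q))) c0 ≠
      algebraMap A0 ↥(laurentBaseChange K0 (modularFunctionFieldFull (M * q))) c1 := by
    intro h
    rw [h, sub_self, zero_mul] at hu2
    exact zero_ne_one hu2
  have hh : nunH K0 (M * q) H ha2 ≠
      algebraMap A0 ↥(laurentBaseChange K0 (modularFunctionFieldFull (M * q))) c0 := by
    intro h
    have h1 := congrArg (fun x : ↥(laurentBaseChange K0 (modularFunctionFieldFull (M * q))) =>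
      (x : LaurentSeries K0)) h
    simp only [hcoe] at h1
    exact cinst_h_sub_ne_zero H K0 (c0 : K0) (sub_eq_zero.mpr h1)
  have htO : (nunH K0 (M * q) H ha2 -
      algebraMap A0 ↥(laurentBaseChange K0 (modularFunctionFieldFull (M * q))) c1) /
      (nunH K0 (M * q) H ha2 -
        algebraMap A0 ↥(laurentBaseChange K0 (modularFunctionFieldFull (M * q))) c0)
      ∈ chtO A0 {t} := by
    have e : (nunH K0 (M * q) H ha2 -
      algebraMap A0 ↥(laurentBaseChange K0 (modularFunctionFieldFull (M * q))) c1) /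
      (nunH K0 (M * q) H ha2 -
        algebraMap A0 ↥(laurentBaseChange K0 (modularFunctionFieldFull (M * q))) c0) = t := by
      apply Subtype.ext
      rw [ht, IntermediateField.coe_div, AddSubgroupClass.coe_sub, AddSubgroupClass.coe_sub,
        hcoe, hcoe]
      rfl
    rw [e]
    exact (cht_h1 t).1
  exact cng_main (chtO A0 {t}) 𝔫 V₁ V₂ hO₁ hO₂ hint q hq'.two_le hqn _ _
    (cni_J_ne_zero K0 (M * q)) hJi1 hJi2 hk1' hk2
    (mqd_main K0 (M * q) q (dvd_mul_left q M)) hc₁ hc₂ H.P H.Q U V W H.P_monic hdeg hUV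
    hrel hrelq Φ hΦ hΦ0 ((chtO A0 {t}).algebraMap_mem c0) ((chtO A0 {t}).algebraMap_mem c1)
    hc01 hcne hh htO

/-- **Crossing points of the first chart are not cuspidal** (`V₁ = va2V1`, `V₂ = va2V2`,
crossing hypotheses of `s34im_field`). -/
theorem cni_crossing (ha2 : a2 ∣ M)
    [Algebra A0 ↥(laurentBaseChange K0 (modularFunctionFieldFull (M * q)))]
    [IsScalarTower A0 K0 ↥(laurentBaseChange K0 (modularFunctionFieldFull (M * q)))]
    (hA0 : A0.LiesOverPrime q)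
    (c0 c1 : A0) (hc : IsLocalRing.residue A0 c0 ≠ IsLocalRing.residue A0 c1)
    (t : ↥(laurentBaseChange K0 (modularFunctionFieldFull (M * q))))
    (ht : (t : LaurentSeries K0) = cinstU H K0 (c0 : K0) (c1 : K0))
    (𝔫 : Ideal ↥(chtO A0 {t})) [𝔫.IsPrime]
    (hc₁ : ∀ x : ↥(chtO A0 {t}),
      (x : ↥(laurentBaseChange K0 (modularFunctionFieldFull (M * q)))) ∈
        (va2V1 M q K0 A0).nonunits → x ∈ 𝔫)
    (hc₂ : ∀ x : ↥(chtO A0 {t}),
      (x : ↥(laurentBaseChange K0 (modularFunctionFieldFull (M * q)))) ∈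
        (va2V2 M q hM K0 A0).nonunits → x ∈ 𝔫) :
    (∃ a s : ↥(chtO A0 {t}), s ∉ 𝔫 ∧ va2Jd K0 (M * q) 1 (one_dvd _) *
      (s : ↥(laurentBaseChange K0 (modularFunctionFieldFull (M * q)))) = a) ∧
    (∃ a s : ↥(chtO A0 {t}), s ∉ 𝔫 ∧ va2Jd K0 (M * q) q (dvd_mul_left q M) *
      (s : ↥(laurentBaseChange K0 (modularFunctionFieldFull (M * q)))) = a) ∧
    (∃ a s : ↥(chtO A0 {t}), s ∉ 𝔫 ∧ nunH K0 (M * q) H (ha2.mul_right q) *
      (s : ↥(laurentBaseChange K0 (modularFunctionFieldFull (M * q)))) = a) ∧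
    (∃ a s : ↥(chtO A0 {t}), s ∉ 𝔫 ∧
      va2Swap M q hq.out hM K0 (nunH K0 (M * q) H (ha2.mul_right q)) *
      (s : ↥(laurentBaseChange K0 (modularFunctionFieldFull (M * q)))) = a) :=
  cni_main M q hM K0 A0 H (ha2.mul_right q) hA0 (va2V1 M q K0 A0) (fun _ => Iff.rfl)
    (va2V2 M q hM K0 A0) (fun _ => Iff.rfl) c0 c1 hc t ht
    (va2_htV2 A0 M q hM H ha2 c0 c1 t ht) 𝔫 hc₁ hc₂

/-- **Crossing points of the second chart are not cuspidal** (`V₁ = va2V1`, `V₂ = va2V2`,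
crossing hypotheses of `s34im_field`). -/
theorem cni_crossing_inv (ha2 : a2 ∣ M)
    [Algebra A0 ↥(laurentBaseChange K0 (modularFunctionFieldFull (M * q)))]
    [IsScalarTower A0 K0 ↥(laurentBaseChange K0 (modularFunctionFieldFull (M * q)))]
    (hA0 : A0.LiesOverPrime q)
    (c0 c1 : A0) (hc : IsLocalRing.residue A0 c0 ≠ IsLocalRing.residue A0 c1)
    (t : ↥(laurentBaseChange K0 (modularFunctionFieldFull (M * q))))
    (ht : (t : LaurentSeries K0) = cinstU H K0 (c0 : K0) (c1 : K0))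
    (𝔫 : Ideal ↥(chtO A0 {t⁻¹})) [𝔫.IsPrime]
    (hc₁ : ∀ x : ↥(chtO A0 {t⁻¹}),
      (x : ↥(laurentBaseChange K0 (modularFunctionFieldFull (M * q)))) ∈
        (va2V1 M q K0 A0).nonunits → x ∈ 𝔫)
    (hc₂ : ∀ x : ↥(chtO A0 {t⁻¹}),
      (x : ↥(laurentBaseChange K0 (modularFunctionFieldFull (M * q)))) ∈
        (va2V2 M q hM K0 A0).nonunits → x ∈ 𝔫) :
    (∃ a s : ↥(chtO A0 {t⁻¹}), s ∉ 𝔫 ∧ va2Jd K0 (M * q) 1 (one_dvd _) *
      (s : ↥(laurentBaseChange K0 (modularFunctionFieldFull (M * q)))) = a) ∧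
    (∃ a s : ↥(chtO A0 {t⁻¹}), s ∉ 𝔫 ∧ va2Jd K0 (M * q) q (dvd_mul_left q M) *
      (s : ↥(laurentBaseChange K0 (modularFunctionFieldFull (M * q)))) = a) ∧
    (∃ a s : ↥(chtO A0 {t⁻¹}), s ∉ 𝔫 ∧ nunH K0 (M * q) H (ha2.mul_right q) *
      (s : ↥(laurentBaseChange K0 (modularFunctionFieldFull (M * q)))) = a) ∧
    (∃ a s : ↥(chtO A0 {t⁻¹}), s ∉ 𝔫 ∧
      va2Swap M q hq.out hM K0 (nunH K0 (M * q) H (ha2.mul_right q)) *
      (s : ↥(laurentBaseChange K0 (modularFunctionFieldFull (M * q)))) = a) :=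
  cni_main M q hM K0 A0 H (ha2.mul_right q) hA0 (va2V1 M q K0 A0) (fun _ => Iff.rfl)
    (va2V2 M q hM K0 A0) (fun _ => Iff.rfl) c1 c0 hc.symm t⁻¹
    (by rw [IntermediateField.coe_inv, ht, cinstU_inv])
    (va2_htV2' A0 M q hM H ha2 c0 c1 t ht) 𝔫 hc₁ hc₂

end Main

end Fermat.Agent.S34
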