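import Mathlib

/-!
# S34, package B/E (abstract): a component of the special fibre is the special fibre of the
lower level

Setting: `OE ≤ OF` two `A`-subalgebras of a field `F` (`OE` = the chart of the level-`M'` curve,
viewed in the level-`q M'` function field `F`; `OF` = the chart of level `q M'`), `OF` integral
over `OE`; `V` a valuation subring of `F` containing `OF` (one of the two Gauss valuations), whose
residue field is generated by `OE` (`hres`: residue degree one); `πE : OE → B` a surjection onto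
an integrally closed domain `B` with kernel `OE ∩ 𝔪_V` (`B = OE ⧸ τ`, the Dedekind special fibre
of the good-reduction chart).  Then

* `s34c_lift`     : `OF = OE + (OF ∩ 𝔪_V)`;
* `s34c_equiv`    : `OF ⧸ 𝔭 ≃+* B` for the prime `𝔭 = OF ∩ 𝔪_V`;
* `s34c_dedekind` : `OF ⧸ 𝔭` is a Dedekind domain if `B` is.
-/

set_option autoImplicit false

namespace Fermat.Agent.S34

open Polynomial

section Lift

variable {A F B : Type*} [CommRing A] [Field F] [Algebra A F] [CommRing B] [IsDomain B]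

/-- `OF = OE + (OF ∩ 𝔪_V)`: every element of the big chart is congruent modulo `𝔪_V` to an
element of the small chart. -/
theorem s34c_lift [IsIntegrallyClosed B]
    (OE OF : Subalgebra A F) (hle : OE ≤ OF) (V : ValuationSubring F)
    (hOFV : ∀ x ∈ OF, x ∈ V) (hint : ∀ x ∈ OF, IsIntegral OE x)
    (πE : OE →+* B) (hπE : Function.Surjective πE)
    (hker : ∀ x : OE, πE x = 0 ↔ (x : F) ∈ V.nonunits)
    (hres : ∀ x ∈ V, ∃ a s : OE, (s : F) ∉ V.nonunits ∧ x * (s : F) - (a : F) ∈ V.nonunits)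
    (x : F) (hx : x ∈ OF) : ∃ b : OE, x - (b : F) ∈ V.nonunits := by
  classical
  -- the residue map of `V` and its restriction to `OE`
  set ρ : V →+* IsLocalRing.ResidueField V := IsLocalRing.residue V with hρ
  have hρ0 : ∀ y : V, ρ y = 0 ↔ (y : F) ∈ V.nonunits := by
    intro y
    rw [hρ, IsLocalRing.residue_eq_zero_iff, ValuationSubring.mem_nonunits_iff_exists_mem_maximalIdeal]
    exact ⟨fun h => ⟨y.2, h⟩, fun ⟨_, h⟩ => h⟩
  let ι : OE →+* V :=
    { toFun := fun y => ⟨(y : F), hOFV _ (hle y.2)⟩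
      map_one' := rfl
      map_mul' := fun _ _ => rfl
      map_zero' := rfl
      map_add' := fun _ _ => rfl }
  set g : OE →+* IsLocalRing.ResidueField V := ρ.comp ι with hg
  have hg0 : ∀ y : OE, g y = 0 ↔ πE y = 0 := fun y => by
    rw [hker y, hg, RingHom.comp_apply, hρ0]
    exact Iff.rfl
  -- `B` embeds into the residue field
  let φ : B →+* IsLocalRing.ResidueField V :=
    RingHom.liftOfRightInverse πE (Function.surjInv hπE) (Function.rightInverse_surjInv hπE)
      ⟨g, fun y hy => (RingHom.mem_ker).mpr ((hg0 y).mpr ((RingHom.mem_ker).mp hy))⟩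
  have hφ : ∀ y : OE, φ (πE y) = g y := fun y =>
    RingHom.liftOfRightInverse_comp_apply πE (Function.surjInv hπE)
      (Function.rightInverse_surjInv hπE) _ y
  have hφinj : Function.Injective φ := by
    rw [injective_iff_map_eq_zero]
    intro z hz
    obtain ⟨y, rfl⟩ := hπE z
    rw [hφ] at hz
    exact (hg0 y).mp hz
  let Φ : FractionRing B →+* IsLocalRing.ResidueField V := IsFractionRing.lift hφinj
  have hΦ : ∀ z : B, Φ (algebraMap B (FractionRing B) z) = φ z := fun z =>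
    IsFractionRing.lift_algebraMap hφinj z
  have hΦinj : Function.Injective Φ := Φ.injective
  -- the data for `x`
  have hxV : x ∈ V := hOFV x hx
  obtain ⟨a, s, hs, hxs⟩ := hres x hxV
  obtain ⟨P, hPmonic, hPx⟩ := hint x hx
  set ξ : IsLocalRing.ResidueField V := ρ ⟨x, hxV⟩ with hξ
  have hgs : g s ≠ 0 := fun h0 => hs ((hker s).mp ((hg0 s).mp h0))
  have hπs : πE s ≠ 0 := fun h0 => hgs ((hg0 s).mpr h0)
  have hξs : ξ * g s = g a := by
    have h1 : ρ (⟨x, hxV⟩ * ι s - ι a) = 0 := (hρ0 _).mpr hxs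
    rw [map_sub, map_mul, sub_eq_zero] at h1
    exact h1
  -- `ξ` is a root of the image of `P`
  have h1 : Polynomial.eval₂ ι (⟨x, hxV⟩ : V) P = 0 := by
    apply Subtype.ext
    have h2 := Polynomial.hom_eval₂ P ι (V.subtype : V →+* F) (⟨x, hxV⟩ : V)
    have h3 : (V.subtype : V →+* F).comp ι = algebraMap OE F := RingHom.ext fun _ => rfl
    rw [h3] at h2
    exact h2.trans hPx
  have hroot : Polynomial.eval₂ g ξ P = 0 := by
    have h4 := Polynomial.hom_eval₂ P ι ρ (⟨x, hxV⟩ : V)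
    rw [h1, map_zero] at h4
    exact h4.symm
  -- the corresponding element of the fraction field of `B` is integral
  set z : FractionRing B :=
    algebraMap B (FractionRing B) (πE a) / algebraMap B (FractionRing B) (πE s) with hz
  have hzξ : Φ z = ξ := by
    rw [hz, map_div₀, hΦ, hΦ, hφ, hφ, ← hξs, mul_div_assoc, div_self hgs, mul_one]
  have hzint : IsIntegral B z := by
    refine ⟨P.map πE, hPmonic.map _, ?_⟩
    apply hΦinj
    rw [map_zero, Polynomial.hom_eval₂, Polynomial.eval₂_map, hzξ]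
    have h5 : (Φ.comp (algebraMap B (FractionRing B))).comp πE = g :=
      RingHom.ext fun y => by
        rw [RingHom.comp_apply, RingHom.comp_apply, hΦ, hφ]
    rw [h5]
    exact hroot
  obtain ⟨bb, hbb⟩ := IsIntegrallyClosed.isIntegral_iff.mp hzint
  obtain ⟨b, rfl⟩ := hπE bb
  refine ⟨b, ?_⟩
  have h6 : ρ (⟨x, hxV⟩ - ι b) = 0 := by
    rw [map_sub, sub_eq_zero, ← hξ, ← hzξ, ← hbb, hΦ, hφ]
    rfl
  exact (hρ0 _).mp h6

end Lift

section Equiv

variable {A F B : Type*} [CommRing A] [Field F] [Algebra A F] [CommRing B] [IsDomain B]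
  [IsIntegrallyClosed B]
  (OE OF : Subalgebra A F) (hle : OE ≤ OF) (V : ValuationSubring F)
  (hOFV : ∀ x ∈ OF, x ∈ V) (hint : ∀ x ∈ OF, IsIntegral OE x)
  (πE : OE →+* B) (hπE : Function.Surjective πE)
  (hker : ∀ x : OE, πE x = 0 ↔ (x : F) ∈ V.nonunits)
  (hres : ∀ x ∈ V, ∃ a s : OE, (s : F) ∉ V.nonunits ∧ x * (s : F) - (a : F) ∈ V.nonunits)
  (𝔭 : Ideal OF) (h𝔭 : ∀ x : OF, x ∈ 𝔭 ↔ (x : F) ∈ V.nonunits)

include hle hOFV hint hπE hker hres h𝔭 in
/-- the component `OF ⧸ 𝔭`, `𝔭 = OF ∩ 𝔪_V`, is isomorphic to `B`. -/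
theorem s34c_equiv : Nonempty ((OF ⧸ 𝔭) ≃+* B) := by
  let ψ : OE →+* OF ⧸ 𝔭 :=
    (Ideal.Quotient.mk 𝔭).comp (Subalgebra.inclusion hle).toRingHom
  have hψsurj : Function.Surjective ψ := by
    intro y
    obtain ⟨x, rfl⟩ := Ideal.Quotient.mk_surjective y
    obtain ⟨b, hb⟩ := s34c_lift OE OF hle V hOFV hint πE hπE hker hres x x.2
    refine ⟨b, ?_⟩
    show Ideal.Quotient.mk 𝔭 (Subalgebra.inclusion hle b) = Ideal.Quotient.mk 𝔭 x
    rw [Ideal.Quotient.eq, h𝔭]
    have h1 : ((Subalgebra.inclusion hle b - x : OF) : F) = -((x : F) - (b : F)) := by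
      show (b : F) - (x : F) = _
      ring
    rw [h1]
    exact V.nonunits.neg_mem hb
  have hkerψ : RingHom.ker ψ = RingHom.ker πE := by
    ext y
    rw [RingHom.mem_ker, RingHom.mem_ker, hker y]
    show Ideal.Quotient.mk 𝔭 (Subalgebra.inclusion hle y) = 0 ↔ _
    rw [Ideal.Quotient.eq_zero_iff_mem, h𝔭]
    rfl
  exact ⟨(RingHom.quotientKerEquivOfSurjective hψsurj).symm.trans
    ((Ideal.quotEquivOfEq hkerψ).trans (RingHom.quotientKerEquivOfSurjective hπE))⟩

end Equiv

/-- the component `OF ⧸ 𝔭` is a Dedekind domain when `B` is. -/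
theorem s34c_dedekind {A F B : Type*} [CommRing A] [Field F] [Algebra A F] [CommRing B]
    [IsDedekindDomain B]
    (OE OF : Subalgebra A F) (hle : OE ≤ OF) (V : ValuationSubring F)
    (hOFV : ∀ x ∈ OF, x ∈ V) (hint : ∀ x ∈ OF, IsIntegral OE x)
    (πE : OE →+* B) (hπE : Function.Surjective πE)
    (hker : ∀ x : OE, πE x = 0 ↔ (x : F) ∈ V.nonunits)
    (hres : ∀ x ∈ V, ∃ a s : OE, (s : F) ∉ V.nonunits ∧ x * (s : F) - (a : F) ∈ V.nonunits)
    (𝔭 : Ideal OF) (h𝔭 : ∀ x : OF, x ∈ 𝔭 ↔ (x : F) ∈ V.nonunits) :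
    IsDedekindDomain (OF ⧸ 𝔭) := by
  obtain ⟨e⟩ := s34c_equiv OE OF hle V hOFV hint πE hπE hker hres 𝔭 h𝔭
  have hdom : IsDomain (OF ⧸ 𝔭) := e.toMulEquiv.isDomain B
  have hn : IsNoetherianRing (OF ⧸ 𝔭) := isNoetherianRing_of_ringEquiv B e.symm
  have hdim : Ring.DimensionLEOne (OF ⧸ 𝔭) := Ring.DimensionLEOne.of_ringEquiv e
  have hic : IsIntegrallyClosed (OF ⧸ 𝔭) := IsIntegrallyClosed.of_equiv e.symm
  exact { hdom, hn, hdim, hic with }

end Fermat.Agent.S34
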