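import Fermat.Agent.S18.CoreInstFinal
import Fermat.Agent.S18.CechChart
import Fermat.Agent.S34.CompDed
import Fermat.Agent.S34.Charts2Inst
import Fermat.Agent.S34.Val2Exh
import Fermat.Agent.S34.Val2Deg

/-!
# S34, package B1-COMP, instantiation: the first component of the special fibre is Dedekind

`K0` a field of definition with a discrete valuation subring `A0` over the prime `q ∤ M`,
`F = K0(X₀(M q))`, `V₁ = va2V1` the Gauss valuation ring, `t = (h - c1) / (h - c0)` a Hauptmodul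
chart coordinate.  For the prime `𝔭 = chtO A0 {t} ∩ 𝔪_{V₁}` of the chart ring the quotient
`chtO A0 {t} ⧸ 𝔭` is a Dedekind domain, provided the special fibre of the level-`M` chart for the
same base points is Dedekind (S18, `cinstSMChart`).

* `cmi_abs`: the abstract form (a chart of the big field dominated by the image of a chart of the
  small field with Dedekind special fibre, residue degree one);
* `cmi_hD`: the chart `chtO A0 {t}`; `cmi_hD_inv`: the chart `chtO A0 {t⁻¹}`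
  (= the hypotheses `hD₀`, `hD₁` of `s34im_field`).
-/

set_option autoImplicit false
set_option linter.unusedSectionVars false

open ModularCurve AlgebraicCurve Polynomial
open Fermat.Agent.S18 Fermat.Agent.S37
open scoped IntermediateField

namespace Fermat.Agent.S34

local notation "Qb" => AlgebraicClosure ℚ

/-! ### The abstract form -/

section Abs

variable {A E F : Type*} [CommRing A] [Field E] [Field F] [Algebra A E] [Algebra A F]

/-- the image of the chart of `E` lies in the chart of `F` -/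
theorem cmi_map_mem (α : E →ₐ[A] F) (tE : E) {y : E} (hy : y ∈ chtO A {tE}) :
    α y ∈ chtO A {α tE} := by
  rw [cht_mem_iff_poly] at hy ⊢
  obtain ⟨p, hp, hc, hpy⟩ := hy
  refine ⟨p.map (α : E →+* F), hp.map _, fun i => ?_, ?_⟩
  · rw [coeff_map]
    have h1 : α (p.coeff i) ∈ (Algebra.adjoin A {tE}).map α := ⟨_, hc i, rfl⟩
    rw [AlgHom.map_adjoin, Set.image_singleton] at h1
    exact h1
  · rw [eval_map]
    have h2 := Polynomial.eval₂_at_apply (p := p) (α : E →+* F) y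
    rw [hpy, map_zero] at h2
    exact h2

/-- **The first component, abstract form.**  `α : E → F` an embedding of fields over `A`,
`VE`, `V` valuation rings of `E`, `F` with `V ∩ E = VE`; the chart `chtO A {tE}` of `E` has
special fibre `chtO A {tE} ⧸ τ` Dedekind with `chtO A {tE} ∩ 𝔪_{VE} = τ chtO A {tE}`, `VE` is the
localisation of the chart, and `V` has residue degree one over `VE`.  Then the component
`chtO A {α tE} ⧸ 𝔭`, `𝔭 = chtO A {α tE} ∩ 𝔪_V`, is a Dedekind domain. -/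
theorem cmi_abs (α : E →ₐ[A] F) (tE : E) (τ : A)
    (VE : ValuationSubring E) (V : ValuationSubring F)
    (hmem : ∀ y : E, α y ∈ V ↔ y ∈ VE)
    (hnon : ∀ y : E, α y ∈ V.nonunits ↔ y ∈ VE.nonunits)
    (hAV : ∀ a : A, algebraMap A F a ∈ V) (htV : α tE ∈ V)
    (hVE : ∀ x ∈ chtO A {tE}, x ∈ VE)
    (hτVE : algebraMap A E τ ∈ VE.nonunits)
    (hVτE : ∀ x ∈ chtO A {tE}, x ∈ VE.nonunits →
      ∃ y ∈ chtO A {tE}, x = algebraMap A E τ * y)
    (hloc : ∀ a' ∈ VE, ∃ a s : chtO A {tE}, (s : E) ∉ VE.nonunits ∧ a' * (s : E) = (a : E))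
    (hresα : ∀ x ∈ V, ∃ a' : E, a' ∈ VE ∧ x - α a' ∈ V.nonunits)
    [hD : IsDedekindDomain (chtO A {tE} ⧸ Ideal.span {algebraMap A (chtO A {tE}) τ})]
    (𝔭 : Ideal ↥(chtO A {α tE}))
    (h𝔭 : ∀ x : ↥(chtO A {α tE}), x ∈ 𝔭 ↔ (x : F) ∈ V.nonunits) :
    IsDedekindDomain (↥(chtO A {α tE}) ⧸ 𝔭) := by
  classical
  have hinj : Function.Injective α := α.toRingHom.injective
  let e : ↥(chtO A {tE}) ≃ₐ[A] ↥((chtO A {tE}).map α) :=
    (chtO A {tE}).equivMapOfInjective α hinj
  have he : ∀ y : ↥(chtO A {tE}), ((e y : ↥((chtO A {tE}).map α)) : F) = α (y : E) :=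
    fun y => rfl
  have hle : (chtO A {tE}).map α ≤ chtO A {α tE} := by
    rintro x ⟨y, hy, rfl⟩
    exact cmi_map_mem α tE hy
  have hOFV : ∀ x ∈ chtO A {α tE}, x ∈ V := fun x hx =>
    cht_le_valuationSubring V hAV (s := {α tE}) (by rintro y rfl; exact htV) hx
  have hadj : Algebra.adjoin A {α tE} ≤ (chtO A {tE}).map α := by
    refine Algebra.adjoin_le ?_
    rintro y rfl
    exact ⟨tE, (cht_h1 tE).1, rfl⟩
  have hint : ∀ x ∈ chtO A {α tE}, IsIntegral ↥((chtO A {tE}).map α) x := by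
    intro x hx
    rw [cht_mem_iff_poly] at hx
    obtain ⟨p, hp, hc, hpx⟩ := hx
    exact (cht_isIntegral_iff _ x).mpr ⟨p, hp, fun i => hadj (hc i), hpx⟩
  let πE : ↥((chtO A {tE}).map α) →+*
      (chtO A {tE} ⧸ Ideal.span {algebraMap A (chtO A {tE}) τ}) :=
    (Ideal.Quotient.mk _).comp (e.symm : ↥((chtO A {tE}).map α) →+* ↥(chtO A {tE}))
  have hπE : Function.Surjective πE :=
    Ideal.Quotient.mk_surjective.comp e.symm.surjective
  have hker : ∀ x : ↥((chtO A {tE}).map α), πE x = 0 ↔ (x : F) ∈ V.nonunits := by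
    intro x
    obtain ⟨y, rfl⟩ := e.surjective x
    have h1 : πE (e y) = Ideal.Quotient.mk _ y := by
      show Ideal.Quotient.mk _ (e.symm (e y)) = _
      rw [AlgEquiv.symm_apply_apply]
    rw [h1, Ideal.Quotient.eq_zero_iff_mem, Ideal.mem_span_singleton, he, hnon]
    constructor
    · rintro ⟨z, rfl⟩
      exact cht_nonunits_mul VE hτVE (hVE _ z.2)
    · intro hy
      obtain ⟨z, hz, hyz⟩ := hVτE _ y.2 hy
      exact ⟨⟨z, hz⟩, Subtype.ext hyz⟩
  have hres : ∀ x ∈ V, ∃ a s : ↥((chtO A {tE}).map α),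
      (s : F) ∉ V.nonunits ∧ x * (s : F) - (a : F) ∈ V.nonunits := by
    intro x hx
    obtain ⟨a', ha', hxa⟩ := hresα x hx
    obtain ⟨a, s, hs, has⟩ := hloc a' ha'
    refine ⟨e a, e s, ?_, ?_⟩
    · rw [he, hnon]
      exact hs
    · rw [he, he, ← has, map_mul, ← sub_mul]
      exact cht_nonunits_mul V hxa ((hmem _).mpr (hVE _ s.2))
  exact s34c_dedekind _ (chtO A {α tE}) hle V hOFV hint πE hπE hker hres 𝔭 h𝔭

end Abs

/-! ### The Hauptmodul charts of level `M q` -/

section Inst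

variable (M q : ℕ) [NeZero M] [hq : Fact q.Prime] (hM : ¬ q ∣ M)
  (K0 : Type*) [Field K0] [Algebra ℚ K0] [Algebra K0 Qb]
  (A0 : ValuationSubring K0) [IsDiscreteValuationRing ↥A0]
  {a2 : ℕ} (H : HauptRec a2 q)

include hM in
/-- **B1-COMP for the chart `chtO A0 {t}`** (`hD₀` of `s34im_field`): the first component of
the special fibre of the level-`M q` chart is a Dedekind domain. -/
theorem cmi_hD (ha2 : a2 ∣ M) (hA0 : A0.LiesOverPrime q)
    [Algebra A0 ↥(laurentBaseChange K0 (modularFunctionFieldFull (M * q)))]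
    [IsScalarTower A0 K0 ↥(laurentBaseChange K0 (modularFunctionFieldFull (M * q)))]
    (c0 c1 : A0) (hc : IsLocalRing.residue A0 c0 ≠ IsLocalRing.residue A0 c1)
    (hSM : cinstSMChart K0 A0 M H (c0 : K0) (c1 : K0))
    (t : ↥(laurentBaseChange K0 (modularFunctionFieldFull (M * q))))
    (ht : (t : LaurentSeries K0) = cinstU H K0 (c0 : K0) (c1 : K0))
    (τ : A0) (hτ : Irreducible τ)
    (𝔭 : Ideal ↥(chtO A0 {t}))
    (h𝔭 : ∀ x : ↥(chtO A0 {t}), x ∈ 𝔭 ↔
      (x : ↥(laurentBaseChange K0 (modularFunctionFieldFull (M * q)))) ∈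
        (va2V1 M q K0 A0).nonunits) :
    IsDedekindDomain (↥(chtO A0 {t}) ⧸ 𝔭) := by
  classical
  have : CharZero K0 := algebraRat.charZero K0
  let algE : Algebra A0 ↥(laurentBaseChange K0 (modularFunctionFieldFull M)) :=
    ((algebraMap K0 ↥(laurentBaseChange K0 (modularFunctionFieldFull M))).comp
      A0.subtype).toAlgebra
  have towE : IsScalarTower A0 K0 ↥(laurentBaseChange K0 (modularFunctionFieldFull M)) :=
    IsScalarTower.of_algebraMap_eq (fun _ => rfl)
  set tE : ↥(laurentBaseChange K0 (modularFunctionFieldFull M)) :=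
    ⟨cinstU H K0 (c0 : K0) (c1 : K0), cinstU_mem H K0 ha2 _ _⟩ with htE
  let α : ↥(laurentBaseChange K0 (modularFunctionFieldFull M)) →ₐ[A0]
      ↥(laurentBaseChange K0 (modularFunctionFieldFull (M * q))) :=
    (heckeAlphaBar K0 M q).restrictScalars A0
  have hαt : α tE = t := Subtype.ext ((coe_heckeAlphaBar M q tE).trans ht.symm)
  subst hαt
  -- the level-`M` chart
  have hVGE : ∀ x : ↥(laurentBaseChange K0 (modularFunctionFieldFull M)),
      x ∈ grO A0 hA0 M hM ↔ (x : LaurentSeries K0) ∈ grV A0 := fun x => Iff.rfl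
  obtain ⟨hA, hτV, hτgen, htt, htV, htV', hG, hfin, hconst⟩ :=
    c2i_hyps A0 M H (grO A0 hA0 M hM) hVGE c0 c1 hc tE rfl τ hτ
  have hc' : (c0 : K0) ≠ (c1 : K0) := by
    intro h0
    apply hc
    rw [Subtype.ext h0]
  have hL := cinst_adjoin_grJ_le M H _ _ hc' tE rfl
  have huniq := cht_huniq_of_sub (K0 := K0) (L := ↥K0⟮grJ K0 M⟯) (grO A0 hA0 M hM) tE hL
    (gr_unique_j A0 hA0 M hM)
  obtain ⟨-, htO, -, ⟨b0, hb0, hspan0⟩, -, -, -, hfrac, -, -, -, hVO, -, hVτ, -⟩ :=
    cht_all (K0 := K0) (grO A0 hA0 M hM) hA hτ hτV hτgen tE htt htV htV' hG hfin huniq hconst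
      1 one_pos
  have hnoeth : IsNoetherianRing ↥(chtO A0 {tE}) := cz_noeth tE (chtO A0 {tE}) htO b0 hb0 hspan0
  have hDed := hSM tE rfl τ hτ
  have hτ0 : algebraMap A0 ↥(laurentBaseChange K0 (modularFunctionFieldFull M)) τ ≠ 0 := by
    intro h0
    have h1 : (τ : K0) = 0 := by
      have h2 : algebraMap K0 ↥(laurentBaseChange K0 (modularFunctionFieldFull M)) (τ : K0)
          = 0 := h0
      exact (map_eq_zero _).mp h2
    exact hτ.ne_zero (Subtype.ext h1)
  -- the level-`M q` chart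
  obtain ⟨hAF, -, -, -, htVF, -, -, -, -⟩ :=
    c2i_hyps A0 (M * q) H (va2V1 M q K0 A0) (mem_va2V1 M q K0 A0) c0 c1 hc (α tE) ht τ hτ
  have hcoe : ∀ y : ↥(laurentBaseChange K0 (modularFunctionFieldFull M)),
      ((α y : ↥(laurentBaseChange K0 (modularFunctionFieldFull (M * q)))) : LaurentSeries K0)
        = (y : LaurentSeries K0) := fun y => coe_heckeAlphaBar M q y
  refine cmi_abs α tE τ (grO A0 hA0 M hM) (va2V1 M q K0 A0) ?_ ?_ hAF htVF hVO
    hτV hVτ ?_ ?_ 𝔭 h𝔭
  · intro y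
    rw [mem_va2V1, hcoe y]
    exact (hVGE y).symm
  · intro y
    rw [cinst_mem_nonunits_iff (va2V1 M q K0 A0) (mem_va2V1 M q K0 A0),
      cinst_mem_nonunits_iff (grO A0 hA0 M hM) hVGE, hcoe y]
  · intro a' ha'
    obtain ⟨a, s, hs, has⟩ :=
      cz_frac1 τ (grO A0 hA0 M hM) (chtO A0 {tE}) hτV hτ0 hfrac hVO hVτ a' ha'
    refine ⟨a, s, fun h => ?_, has⟩
    have h1 := (grO A0 hA0 M hM).mem_nonunits_iff.mp h
    rw [hs] at h1
    exact lt_irrefl _ h1
  · intro x hx
    exact va2x_res_one M q hM K0 A0 hA0 (va2d_finrank K0 M hq.out hM) x hx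

include hM in
/-- **B1-COMP for the chart `chtO A0 {t⁻¹}`** (`hD₁` of `s34im_field`). -/
theorem cmi_hD_inv (ha2 : a2 ∣ M) (hA0 : A0.LiesOverPrime q)
    [Algebra A0 ↥(laurentBaseChange K0 (modularFunctionFieldFull (M * q)))]
    [IsScalarTower A0 K0 ↥(laurentBaseChange K0 (modularFunctionFieldFull (M * q)))]
    (c0 c1 : A0) (hc : IsLocalRing.residue A0 c0 ≠ IsLocalRing.residue A0 c1)
    (hSM : cinstSMChart K0 A0 M H (c1 : K0) (c0 : K0))
    (t : ↥(laurentBaseChange K0 (modularFunctionFieldFull (M * q))))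
    (ht : (t : LaurentSeries K0) = cinstU H K0 (c0 : K0) (c1 : K0))
    (τ : A0) (hτ : Irreducible τ)
    (𝔭 : Ideal ↥(chtO A0 {t⁻¹}))
    (h𝔭 : ∀ x : ↥(chtO A0 {t⁻¹}), x ∈ 𝔭 ↔
      (x : ↥(laurentBaseChange K0 (modularFunctionFieldFull (M * q)))) ∈
        (va2V1 M q K0 A0).nonunits) :
    IsDedekindDomain (↥(chtO A0 {t⁻¹}) ⧸ 𝔭) := by
  have ht' : ((t⁻¹ : ↥(laurentBaseChange K0 (modularFunctionFieldFull (M * q)))) :
      LaurentSeries K0) = cinstU H K0 (c1 : K0) (c0 : K0) := by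
    rw [IntermediateField.coe_inv, ht, cinstU_inv]
  exact cmi_hD M q hM K0 A0 H ha2 hA0 c1 c0 (fun h => hc h.symm) hSM t⁻¹ ht' τ hτ 𝔭 h𝔭

end Inst

end Fermat.Agent.S34
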