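import Mathlib
import Fermat.Agent.S18.Cech

/-!
# S34, abstract leaf [H6-LOC]: the local statement of S18 at a closed point of a REDUCIBLE
special fibre

`S18.cz_local` needs `τ` to be a prime element of the chart `O` (integral special fibre).  At a
bad prime the special fibre has several components, and `τ` is prime only locally at the closed
points lying on exactly one component.  This file proves the local statement under that weaker
hypothesis.

* `lh6_local`: `τ` prime in the localization of `O` at `n`.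
* `lh6_prime_of_ideal`, `lh6_not_dvd_of_not_mem`: a prime ideal `p₁ ≤ n` with `p₁ O_n = τ O_n`
  gives the primality of `τ` in `O_n` and the non-divisibility statements.
* `lh6_hloc_quot`, `lh6_hloc`: the hypothesis `hloc` from `O ⧸ p₁` Dedekind.
* `lh6_main`: the statement in terms of `p₁` only.
-/

set_option autoImplicit false

namespace Fermat.Agent.S34

open Fermat.Agent.S18

/-- Local statement at a closed point `n` of the special fibre at which `τ` is locally prime.
Same as `S18.cz_local`, except that `τ` is only assumed to be prime in the localization at `n`. -/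
theorem lh6_local {O F : Type*} [CommRing O] [IsDomain O] [IsNoetherianRing O] [Field F]
    [Algebra O F] [IsFractionRing O F]
    (τ : O) (n : Ideal O) [hn : n.IsMaximal] (hτn : τ ∈ n)
    (hτRprime : Prime (algebraMap O (Localization.AtPrime n) τ))
    (hloc : ∀ P : Ideal O, P ≤ n → ∃ x ∈ P, ∀ y ∈ P, ∃ s, s ∉ n ∧ ∃ r r' : O,
      s * y = x * r + τ * r')
    (m : ℕ) (hm : 0 < m) (f : F) (hf0 : f ≠ 0)
    (hfτ : ∃ a b : O, ¬ algebraMap O (Localization.AtPrime n) τ ∣
        algebraMap O (Localization.AtPrime n) a ∧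
      ¬ algebraMap O (Localization.AtPrime n) τ ∣ algebraMap O (Localization.AtPrime n) b ∧
      f * algebraMap O F b = algebraMap O F a)
    (hord : ∀ V : ValuationSubring F, (∀ x : O, algebraMap O F x ∈ V) →
        (algebraMap O F τ)⁻¹ ∈ V → IsPrincipalIdealRing V →
        ∃ w : F, w ≠ 0 ∧ f * w ^ m ∈ V ∧ (f * w ^ m)⁻¹ ∈ V) :
    ∃ (w : F) (a s : O), a ∉ n ∧ s ∉ n ∧
      f * w ^ m * algebraMap O F s = algebraMap O F a := by
  let R := Localization.AtPrime n
  let _ : Algebra R F := IsLocalization.localizationAlgebraOfSubmonoidLe R F n.primeCompl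
    (nonZeroDivisors O) n.primeCompl_le_nonZeroDivisors
  have : IsScalarTower O R F := IsLocalization.localization_isScalarTower_of_submonoid_le R F
    n.primeCompl (nonZeroDivisors O) n.primeCompl_le_nonZeroDivisors
  have : IsFractionRing R F :=
    IsFractionRing.isFractionRing_of_isDomain_of_isLocalization n.primeCompl R F
  have : IsDomain R := IsLocalization.isDomain_localization n.primeCompl_le_nonZeroDivisors
  have : IsNoetherianRing R := IsLocalization.isNoetherianRing n.primeCompl R inferInstance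
  have hinjR : Function.Injective (algebraMap O R) :=
    IsLocalization.injective R n.primeCompl_le_nonZeroDivisors
  set τR : R := algebraMap O R τ with hτR
  have hτmax : τR ∈ IsLocalRing.maximalIdeal R :=
    (IsLocalization.AtPrime.to_map_mem_maximal_iff R n τ).mpr hτn
  have hτR0 : τR ≠ 0 := hτRprime.ne_zero
  have hτ0 : τ ≠ 0 := fun h0 => hτR0 (by rw [hτR, h0, map_zero])
  have : UniqueFactorizationMonoid R := by
    refine cz_ufd τR hτmax hτRprime ?_
    intro P hP hτP
    have hP0 : P.comap (algebraMap O R) ≤ n := by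
      intro y hy
      have h1 : algebraMap O R y ∈ IsLocalRing.maximalIdeal R :=
        IsLocalRing.le_maximalIdeal hP.ne_top hy
      exact (IsLocalization.AtPrime.to_map_mem_maximal_iff R n y).mp h1
    obtain ⟨x, hx, hxy⟩ := hloc _ hP0
    refine ⟨algebraMap O R x, hx, ?_⟩
    intro z hz
    obtain ⟨y, s', rfl⟩ := IsLocalization.exists_mk'_eq n.primeCompl z
    have hy : y ∈ P.comap (algebraMap O R) := by
      rw [Ideal.mem_comap]
      have h1 := P.mul_mem_right (algebraMap O R s') hz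
      rwa [IsLocalization.mk'_spec] at h1
    obtain ⟨s, hs, r, r', hsy⟩ := hxy y hy
    have h1 : algebraMap O R s * algebraMap O R y ∈
        Ideal.span {algebraMap O R x} ⊔ Ideal.span {τR} := by
      rw [← map_mul, hsy, map_add, map_mul, map_mul]
      exact Submodule.add_mem_sup (Ideal.mul_mem_right _ _ (Ideal.mem_span_singleton_self _))
        (Ideal.mul_mem_right _ _ (Ideal.mem_span_singleton_self _))
    have hsu : IsUnit (algebraMap O R s) := IsLocalization.map_units R (⟨s, hs⟩ : n.primeCompl)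
    have h2 : algebraMap O R y ∈ Ideal.span {algebraMap O R x} ⊔ Ideal.span {τR} :=
      (Ideal.unit_mul_mem_iff_mem _ hsu).mp h1
    have hs'u : IsUnit (algebraMap O R s') := IsLocalization.map_units R s'
    have h3 : IsLocalization.mk' R y s' * algebraMap O R s' ∈
        Ideal.span {algebraMap O R x} ⊔ Ideal.span {τR} := by
      rw [IsLocalization.mk'_spec]; exact h2
    exact (Ideal.mul_unit_mem_iff_mem _ hs'u).mp h3
  have hτF : algebraMap O F τ ≠ 0 :=
    (map_ne_zero_iff _ (IsFractionRing.injective O F)).mpr hτ0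
  have hinjRF : Function.Injective (algebraMap R F) := IsFractionRing.injective R F
  obtain ⟨w, u, hwu⟩ := cz_unit_mul_pow (R := R) m hm f hf0 (by
    intro p hp
    by_cases hass : Associated p τR
    · obtain ⟨a, b, ha, hb, hfab⟩ := hfτ
      refine ⟨1, algebraMap O R a, algebraMap O R b, fun h => ha (hass.symm.dvd.trans h),
        fun h => hb (hass.symm.dvd.trans h), ?_⟩
      rw [one_pow, mul_one, ← IsScalarTower.algebraMap_apply, ← IsScalarTower.algebraMap_apply]
      exact hfab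
    · have hpτ : ¬ p ∣ τR := by
        rintro ⟨c, hc⟩
        rcases hτRprime.dvd_or_dvd (⟨1, by rw [mul_one, hc]⟩ : τR ∣ p * c) with h | h
        · exact hass (associated_of_dvd_dvd ⟨c, hc⟩ h)
        · obtain ⟨c', rfl⟩ := h
          have h1 : τR * (p * c') = τR * 1 := by
            rw [mul_one]; conv_rhs => rw [hc]
            ring
          exact hp.not_isUnit (IsUnit.of_mul_eq_one _ (mul_left_cancel₀ hτR0 h1))
      obtain ⟨w, hw0, hw1, hw2⟩ := hord (cz_valSubring R F p hp)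
        (fun x => ⟨algebraMap O R x, 1, hp.not_dvd_one, by
          rw [map_one, mul_one, ← IsScalarTower.algebraMap_apply]⟩)
        ⟨1, τR, hpτ, by
          rw [map_one, hτR, ← IsScalarTower.algebraMap_apply, inv_mul_cancel₀ hτF]⟩
        (cz_valSubring_pid R F p hp)
      obtain ⟨a1, b1, hb1, h1⟩ := hw1
      obtain ⟨a2, b2, hb2, h2⟩ := hw2
      refine ⟨w, a1, b1, ?_, hb1, h1⟩
      intro hpa1
      have hne : f * w ^ m ≠ 0 := mul_ne_zero hf0 (pow_ne_zero _ hw0)
      have h3 : b1 * b2 = a1 * a2 := by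
        apply hinjRF
        rw [map_mul, map_mul, ← h1, ← h2]
        field_simp
      rcases hp.dvd_or_dvd (h3 ▸ Dvd.dvd.mul_right hpa1 a2 : p ∣ b1 * b2) with h | h
      · exact hb1 h
      · exact hb2 h)
  obtain ⟨a, s, hmk⟩ := IsLocalization.exists_mk'_eq n.primeCompl (u : R)
  have ha : a ∈ n.primeCompl := by
    have hu : IsUnit (IsLocalization.mk' R a s) := hmk ▸ u.isUnit
    exact (IsLocalization.AtPrime.isUnit_mk'_iff R n a s).mp hu
  refine ⟨w, a, s, ha, s.2, ?_⟩
  rw [hwu, ← hmk, IsScalarTower.algebraMap_apply O R F (s : O), ← map_mul,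
    IsLocalization.mk'_spec, ← IsScalarTower.algebraMap_apply]

/-! ### The hypotheses of `lh6_local` from a prime ideal `p₁ ≤ n` with `p₁ O_n = τ O_n` -/

/-- Divisibility by `τ` in the localization at `n`, elementwise. -/
theorem lh6_dvd_loc_iff {O : Type*} [CommRing O] [IsDomain O] (τ : O) (n : Ideal O)
    [hn : n.IsMaximal] (a : O) :
    algebraMap O (Localization.AtPrime n) τ ∣ algebraMap O (Localization.AtPrime n) a ↔
      ∃ s, s ∉ n ∧ τ ∣ s * a := by
  have hinjR : Function.Injective (algebraMap O (Localization.AtPrime n)) :=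
    IsLocalization.injective _ n.primeCompl_le_nonZeroDivisors
  constructor
  · rintro ⟨z, hz⟩
    obtain ⟨y, s', rfl⟩ := IsLocalization.exists_mk'_eq n.primeCompl z
    refine ⟨(s' : O), s'.2, y, ?_⟩
    apply hinjR
    rw [map_mul, map_mul, mul_comm, hz, mul_assoc, IsLocalization.mk'_spec]
  · rintro ⟨s, hs, c, hc⟩
    have hsu : IsUnit (algebraMap O (Localization.AtPrime n) s) :=
      IsLocalization.map_units _ (⟨s, hs⟩ : n.primeCompl)
    have h1 : algebraMap O (Localization.AtPrime n) s * algebraMap O (Localization.AtPrime n) a =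
        algebraMap O (Localization.AtPrime n) τ * algebraMap O (Localization.AtPrime n) c := by
      rw [← map_mul, hc, map_mul]
    exact (hsu.dvd_mul_left).mp ⟨_, h1⟩

/-- If `p₁ ≤ n` is a prime ideal containing `τ ≠ 0` and generated by `τ` locally at `n`, then
`τ` is a prime element of the localization at `n`. -/
theorem lh6_prime_of_ideal {O : Type*} [CommRing O] [IsDomain O] (τ : O) (hτ0 : τ ≠ 0)
    (n : Ideal O) [hn : n.IsMaximal] (p₁ : Ideal O) [hp₁ : p₁.IsPrime] (hp₁n : p₁ ≤ n)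
    (hτp : τ ∈ p₁) (hp₁τ : ∀ y ∈ p₁, ∃ s, s ∉ n ∧ τ ∣ s * y) :
    Prime (algebraMap O (Localization.AtPrime n) τ) := by
  have hinjR : Function.Injective (algebraMap O (Localization.AtPrime n)) :=
    IsLocalization.injective _ n.primeCompl_le_nonZeroDivisors
  have hτR0 : algebraMap O (Localization.AtPrime n) τ ≠ 0 := fun h0 =>
    hτ0 (hinjR (by rw [h0, map_zero]))
  have hmap : Ideal.map (algebraMap O (Localization.AtPrime n)) p₁ =
      Ideal.span {algebraMap O (Localization.AtPrime n) τ} := by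
    refine le_antisymm ?_ ?_
    · rw [Ideal.map_le_iff_le_comap]
      intro y hy
      rw [Ideal.mem_comap, Ideal.mem_span_singleton]
      exact (lh6_dvd_loc_iff τ n y).mpr (hp₁τ y hy)
    · rw [Ideal.span_le, Set.singleton_subset_iff]
      exact Ideal.mem_map_of_mem _ hτp
  have h1 : (Ideal.map (algebraMap O (Localization.AtPrime n)) p₁).IsPrime := by
    refine IsLocalization.isPrime_of_isPrime_disjoint n.primeCompl _ _ hp₁ ?_
    exact Set.disjoint_left.mpr fun x hx hx' => hx (hp₁n hx')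
  rw [hmap] at h1
  exact (Ideal.span_singleton_prime hτR0).mp h1

/-- Elements outside `p₁` are not divisible by `τ` in the localization at `n`. -/
theorem lh6_not_dvd_of_not_mem {O : Type*} [CommRing O] [IsDomain O] (τ : O)
    (n : Ideal O) [hn : n.IsMaximal] (p₁ : Ideal O) [hp₁ : p₁.IsPrime] (hp₁n : p₁ ≤ n)
    (hτp : τ ∈ p₁) (a : O) (ha : a ∉ p₁) :
    ¬ algebraMap O (Localization.AtPrime n) τ ∣ algebraMap O (Localization.AtPrime n) a := by
  intro h
  obtain ⟨s, hs, c, hc⟩ := (lh6_dvd_loc_iff τ n a).mp h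
  have h1 : s * a ∈ p₁ := by rw [hc]; exact p₁.mul_mem_right c hτp
  rcases hp₁.mem_or_mem h1 with h2 | h2
  · exact hs (hp₁n h2)
  · exact ha h2

/-- Local principality modulo `p₁` at `n` when `O ⧸ p₁` is a Dedekind domain. -/
theorem lh6_hloc_quot {O : Type*} [CommRing O] (p₁ : Ideal O)
    [IsDedekindDomain (O ⧸ p₁)]
    (n : Ideal O) [hn : n.IsMaximal] (hp₁n : p₁ ≤ n) (P : Ideal O) (hP : P ≤ n) :
    ∃ x ∈ P, ∀ y ∈ P, ∃ s, s ∉ n ∧ ∃ r : O, s * y - x * r ∈ p₁ := by
  set B := O ⧸ p₁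
  set mk := Ideal.Quotient.mk p₁ with hmk
  have hsurj : Function.Surjective mk := Ideal.Quotient.mk_surjective
  have hzero : ∀ x : O, mk x = 0 ↔ x ∈ p₁ := fun x => by
    rw [hmk, Ideal.Quotient.eq_zero_iff_mem]
  have hker : RingHom.ker mk ≤ n := by
    rw [hmk, Ideal.mk_ker]; exact hp₁n
  have hMprime : (n.map mk).IsPrime := Ideal.map_isPrime_of_surjective hsurj hker
  have hnot : ∀ s : O, mk s ∉ n.map mk → s ∉ n := fun s hs hsn => hs (Ideal.mem_map_of_mem _ hsn)
  by_cases hM0 : n.map mk = ⊥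
  · refine ⟨0, P.zero_mem, fun y hy => ⟨1, fun h1 => hn.ne_top ((Ideal.eq_top_iff_one _).mpr h1), ?_⟩⟩
    have h1 : mk y ∈ n.map mk := Ideal.mem_map_of_mem _ (hP hy)
    rw [hM0, Ideal.mem_bot, hzero] at h1
    exact ⟨0, by rw [one_mul, zero_mul, sub_zero]; exact h1⟩
  · have : IsDiscreteValuationRing (Localization.AtPrime (n.map mk)) :=
      IsLocalization.AtPrime.isDiscreteValuationRing_of_dedekind_domain B hM0 _
    set L := Localization.AtPrime (n.map mk)
    obtain ⟨ξ, hξ⟩ := (IsPrincipalIdealRing.principal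
      ((P.map mk).map (algebraMap B L))).principal
    have hξmem : ξ ∈ (P.map mk).map (algebraMap B L) := by
      rw [hξ]; exact Submodule.mem_span_singleton_self ξ
    obtain ⟨⟨⟨xb, hxb⟩, s0⟩, hx0⟩ :=
      (IsLocalization.mem_map_algebraMap_iff (n.map mk).primeCompl L).mp hξmem
    simp only at hx0
    obtain ⟨x, hxP, rfl⟩ := (Ideal.mem_map_iff_of_surjective mk hsurj).mp hxb
    refine ⟨x, hxP, fun y hy => ?_⟩
    have hyJ : algebraMap B L (mk y) ∈ (P.map mk).map (algebraMap B L) :=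
      Ideal.mem_map_of_mem _ (Ideal.mem_map_of_mem _ hy)
    rw [hξ] at hyJ
    obtain ⟨c, hc⟩ := Submodule.mem_span_singleton.mp hyJ
    obtain ⟨cb, s1, rfl⟩ := IsLocalization.exists_mk'_eq (n.map mk).primeCompl c
    have h1 : algebraMap B L (mk y * (s0 * s1)) = algebraMap B L (cb * mk x) := by
      rw [map_mul, ← hc, smul_eq_mul, map_mul, map_mul, ← hx0]
      have h2 := IsLocalization.mk'_spec L cb s1
      rw [← h2]; ring
    obtain ⟨s2, hs2⟩ := (IsLocalization.eq_iff_exists (n.map mk).primeCompl L).mp h1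
    obtain ⟨s, hs⟩ := hsurj ((s2 : B) * (s0 * s1))
    obtain ⟨r, hr⟩ := hsurj ((s2 : B) * cb)
    have hsn : s ∉ n := by
      refine hnot s ?_
      rw [hs]
      exact ((n.map mk).primeCompl.mul_mem s2.2 ((n.map mk).primeCompl.mul_mem s0.2 s1.2))
    refine ⟨s, hsn, r, ?_⟩
    have h3 : mk (s * y - x * r) = 0 := by
      rw [map_sub, map_mul, map_mul, hs, hr]
      have h4 : (s2 : B) * (s0 * s1) * mk y = s2 * (mk y * (s0 * s1)) := by ring
      rw [h4, hs2]; ring
    exact (hzero _).mp h3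

/-- The hypothesis `hloc` of `lh6_local` from `O ⧸ p₁` Dedekind and `p₁ O_n = τ O_n`. -/
theorem lh6_hloc {O : Type*} [CommRing O] (τ : O) (p₁ : Ideal O)
    [IsDedekindDomain (O ⧸ p₁)]
    (n : Ideal O) [hn : n.IsMaximal] (hp₁n : p₁ ≤ n)
    (hp₁τ : ∀ y ∈ p₁, ∃ s, s ∉ n ∧ τ ∣ s * y) (P : Ideal O) (hP : P ≤ n) :
    ∃ x ∈ P, ∀ y ∈ P, ∃ s, s ∉ n ∧ ∃ r r' : O, s * y = x * r + τ * r' := by
  obtain ⟨x, hxP, hx⟩ := lh6_hloc_quot p₁ n hp₁n P hP
  refine ⟨x, hxP, fun y hy => ?_⟩
  obtain ⟨s, hs, r, hr⟩ := hx y hy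
  obtain ⟨s', hs', r', hr'⟩ := hp₁τ _ hr
  refine ⟨s' * s, fun h => ?_, s' * r, r', ?_⟩
  · rcases hn.isPrime.mem_or_mem h with h1 | h1
    · exact hs' h1
    · exact hs h1
  · have h2 : s' * s * y = x * (s' * r) + s' * (s * y - x * r) := by ring
    rw [h2, hr']

/-- **[H6-LOC].**  Let `O` be a noetherian domain with fraction field `F`, `n` a maximal ideal
and `p₁ ≤ n` a prime ideal containing `τ ≠ 0` such that `p₁ O_n = τ O_n` (the closed point `n` of
the special fibre lies on the single component `p₁`, with multiplicity one) and `O ⧸ p₁` is a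
Dedekind domain.  If `f ∈ F` is a unit at `p₁` and is a unit times an `m`-th power in every
principal valuation ring of `F` containing `O` and `τ⁻¹`, then `f` is a unit times an `m`-th
power in the localization of `O` at `n`. -/
theorem lh6_main {O F : Type*} [CommRing O] [IsDomain O] [IsNoetherianRing O] [Field F]
    [Algebra O F] [IsFractionRing O F]
    (τ : O) (hτ0 : τ ≠ 0) (n : Ideal O) [hn : n.IsMaximal]
    (p₁ : Ideal O) [hp₁ : p₁.IsPrime] [IsDedekindDomain (O ⧸ p₁)] (hp₁n : p₁ ≤ n)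
    (hτp : τ ∈ p₁) (hp₁τ : ∀ y ∈ p₁, ∃ s, s ∉ n ∧ τ ∣ s * y)
    (m : ℕ) (hm : 0 < m) (f : F) (hf0 : f ≠ 0)
    (hfτ : ∃ a b : O, a ∉ p₁ ∧ b ∉ p₁ ∧ f * algebraMap O F b = algebraMap O F a)
    (hord : ∀ V : ValuationSubring F, (∀ x : O, algebraMap O F x ∈ V) →
        (algebraMap O F τ)⁻¹ ∈ V → IsPrincipalIdealRing V →
        ∃ w : F, w ≠ 0 ∧ f * w ^ m ∈ V ∧ (f * w ^ m)⁻¹ ∈ V) :
    ∃ (w : F) (a s : O), a ∉ n ∧ s ∉ n ∧
      f * w ^ m * algebraMap O F s = algebraMap O F a := by
  obtain ⟨a, b, ha, hb, hfab⟩ := hfτ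
  exact lh6_local τ n (hp₁n hτp) (lh6_prime_of_ideal τ hτ0 n p₁ hp₁n hτp hp₁τ)
    (fun P hP => lh6_hloc τ p₁ n hp₁n hp₁τ P hP) m hm f hf0
    ⟨a, b, lh6_not_dvd_of_not_mem τ n p₁ hp₁n hτp a ha,
      lh6_not_dvd_of_not_mem τ n p₁ hp₁n hτp b hb, hfab⟩ hord

/-- `lh6_main` in the shape of the hypothesis `h6` of `S18.core_main_aux`. -/
theorem lh6_h6 {O F : Type*} [CommRing O] [IsDomain O] [IsNoetherianRing O] [Field F]
    [Algebra O F] [IsFractionRing O F]
    (τ : O) (hτ0 : τ ≠ 0) (n : Ideal O) [hn : n.IsMaximal]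
    (p₁ : Ideal O) [hp₁ : p₁.IsPrime] [IsDedekindDomain (O ⧸ p₁)] (hp₁n : p₁ ≤ n)
    (hτp : τ ∈ p₁) (hp₁τ : ∀ y ∈ p₁, ∃ s, s ∉ n ∧ τ ∣ s * y)
    (m : ℕ) (hm : 0 < m) (f : F) (hf0 : f ≠ 0)
    (hfτ : ∃ a b : O, a ∉ p₁ ∧ b ∉ p₁ ∧ f * algebraMap O F b = algebraMap O F a)
    (hord : ∀ V : ValuationSubring F, (∀ x : O, algebraMap O F x ∈ V) →
        (algebraMap O F τ)⁻¹ ∈ V → IsPrincipalIdealRing V →
        ∃ w : F, w ≠ 0 ∧ f * w ^ m ∈ V ∧ (f * w ^ m)⁻¹ ∈ V) :
    ∃ p : F, p ≠ 0 ∧ ∃ a b : O, a ∉ n ∧ b ∉ n ∧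
      f * algebraMap O F b = algebraMap O F a * p ^ m := by
  obtain ⟨w, a, s, ha, hs, h⟩ := lh6_main τ hτ0 n p₁ hp₁n hτp hp₁τ m hm f hf0 hfτ hord
  have hw0 : w ≠ 0 := by
    rintro rfl
    rw [zero_pow hm.ne', mul_zero, zero_mul] at h
    have ha0 : a = 0 := IsFractionRing.injective O F (by rw [← h, map_zero])
    exact ha (ha0 ▸ n.zero_mem)
  refine ⟨w⁻¹, inv_ne_zero hw0, a, s, ha, hs, ?_⟩
  rw [← h, inv_pow]
  field_simp

/-! ### Arbitrary `f`: splitting off the power of `τ` -/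

/-- In the localization at `n` (with `τ` prime there), every nonzero element of `O` is, up to an
element outside `n`, a power of `τ` times an element not divisible by `τ` locally. -/
theorem lh6_split {O : Type*} [CommRing O] [IsDomain O] [IsNoetherianRing O]
    (τ : O) (n : Ideal O) [hn : n.IsMaximal]
    (hτRprime : Prime (algebraMap O (Localization.AtPrime n) τ)) (x : O) (hx : x ≠ 0) :
    ∃ (k : ℕ) (x' s : O), s ∉ n ∧ s * x = τ ^ k * x' ∧
      ¬ algebraMap O (Localization.AtPrime n) τ ∣ algebraMap O (Localization.AtPrime n) x' := by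
  let R := Localization.AtPrime n
  have : IsDomain R := IsLocalization.isDomain_localization n.primeCompl_le_nonZeroDivisors
  have : IsNoetherianRing R := IsLocalization.isNoetherianRing n.primeCompl R inferInstance
  have hinjR : Function.Injective (algebraMap O R) :=
    IsLocalization.injective R n.primeCompl_le_nonZeroDivisors
  have hxR : algebraMap O R x ≠ 0 := fun h0 => hx (hinjR (by rw [h0, map_zero]))
  obtain ⟨k, z, hz, hxz⟩ := WfDvdMonoid.max_power_factor hxR hτRprime.irreducible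
  obtain ⟨x', s, rfl⟩ := IsLocalization.exists_mk'_eq n.primeCompl z
  refine ⟨k, x', (s : O), s.2, ?_, ?_⟩
  · apply hinjR
    rw [map_mul, map_mul, map_pow, hxz, mul_comm, mul_assoc, IsLocalization.mk'_spec]
  · intro hdvd
    apply hz
    have hsu : IsUnit (algebraMap O R (s : O)) := IsLocalization.map_units R s
    have h1 : IsLocalization.mk' R x' s * algebraMap O R (s : O) = algebraMap O R x' :=
      IsLocalization.mk'_spec R x' s
    exact (hsu.dvd_mul_right).mp (h1 ▸ hdvd)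

/-- **[H6-LOC] for arbitrary `f`.**  As `lh6_local`, without the hypothesis that `f` is a unit at
`τ`: `f` is, in the localization at `n`, a unit times an `m`-th power times a power of `τ`. -/
theorem lh6_local_any {O F : Type*} [CommRing O] [IsDomain O] [IsNoetherianRing O] [Field F]
    [Algebra O F] [IsFractionRing O F]
    (τ : O) (n : Ideal O) [hn : n.IsMaximal] (hτn : τ ∈ n)
    (hτRprime : Prime (algebraMap O (Localization.AtPrime n) τ))
    (hloc : ∀ P : Ideal O, P ≤ n → ∃ x ∈ P, ∀ y ∈ P, ∃ s, s ∉ n ∧ ∃ r r' : O,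
      s * y = x * r + τ * r')
    (m : ℕ) (hm : 0 < m) (f : F) (hf0 : f ≠ 0)
    (hord : ∀ V : ValuationSubring F, (∀ x : O, algebraMap O F x ∈ V) →
        (algebraMap O F τ)⁻¹ ∈ V → IsPrincipalIdealRing V →
        ∃ w : F, w ≠ 0 ∧ f * w ^ m ∈ V ∧ (f * w ^ m)⁻¹ ∈ V) :
    ∃ (w : F) (a s : O) (k l : ℕ), w ≠ 0 ∧ a ∉ n ∧ s ∉ n ∧
      f * w ^ m * algebraMap O F s * algebraMap O F τ ^ k =
        algebraMap O F a * algebraMap O F τ ^ l := by
  have hinj : Function.Injective (algebraMap O F) := IsFractionRing.injective O F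
  have hτ0 : τ ≠ 0 := fun h0 => hτRprime.ne_zero (by rw [h0, map_zero])
  have hτF : algebraMap O F τ ≠ 0 := (map_ne_zero_iff _ hinj).mpr hτ0
  obtain ⟨x, y, hy, rfl⟩ := IsFractionRing.div_surjective (A := O) f
  have hy0 : y ≠ 0 := nonZeroDivisors.ne_zero hy
  have hyF : algebraMap O F y ≠ 0 := (map_ne_zero_iff _ hinj).mpr hy0
  have hx0 : x ≠ 0 := by
    rintro rfl
    rw [map_zero, zero_div] at hf0
    exact hf0 rfl
  obtain ⟨i, x', s₁, hs₁, hx', hx'τ⟩ := lh6_split τ n hτRprime x hx0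
  obtain ⟨j, y', s₂, hs₂, hy', hy'τ⟩ := lh6_split τ n hτRprime y hy0
  have hs₁F : algebraMap O F s₁ ≠ 0 :=
    (map_ne_zero_iff _ hinj).mpr (fun h => hs₁ (h ▸ n.zero_mem))
  have hs₂F : algebraMap O F s₂ ≠ 0 :=
    (map_ne_zero_iff _ hinj).mpr (fun h => hs₂ (h ▸ n.zero_mem))
  have hx'0 : x' ≠ 0 := fun h => hx'τ (by rw [h, map_zero]; exact dvd_zero _)
  have hy'0 : y' ≠ 0 := fun h => hy'τ (by rw [h, map_zero]; exact dvd_zero _)
  have hx'F : algebraMap O F x' ≠ 0 := (map_ne_zero_iff _ hinj).mpr hx'0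
  have hy'F : algebraMap O F y' ≠ 0 := (map_ne_zero_iff _ hinj).mpr hy'0
  have hxF : algebraMap O F s₁ * algebraMap O F x = algebraMap O F τ ^ i * algebraMap O F x' := by
    rw [← map_mul, hx', map_mul, map_pow]
  have hyF' : algebraMap O F s₂ * algebraMap O F y = algebraMap O F τ ^ j * algebraMap O F y' := by
    rw [← map_mul, hy', map_mul, map_pow]
  -- the normalized function
  set f' : F := algebraMap O F x / algebraMap O F y * algebraMap O F τ ^ j / algebraMap O F τ ^ i
    with hf'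
  have hf'0 : f' ≠ 0 := by
    rw [hf']
    exact div_ne_zero (mul_ne_zero hf0 (pow_ne_zero _ hτF)) (pow_ne_zero _ hτF)
  have hsR : ∀ s : O, s ∉ n → IsUnit (algebraMap O (Localization.AtPrime n) s) := fun s hs =>
    IsLocalization.map_units _ (⟨s, hs⟩ : n.primeCompl)
  have hfab : f' * algebraMap O F (s₁ * y') = algebraMap O F (s₂ * x') := by
    rw [hf', map_mul, map_mul]
    have e1 : algebraMap O F x = algebraMap O F τ ^ i * algebraMap O F x' / algebraMap O F s₁ := by
      rw [← hxF]; field_simp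
    have e2 : algebraMap O F y = algebraMap O F τ ^ j * algebraMap O F y' / algebraMap O F s₂ := by
      rw [← hyF']; field_simp
    rw [e1, e2]
    field_simp
  have hord' : ∀ V : ValuationSubring F, (∀ x : O, algebraMap O F x ∈ V) →
      (algebraMap O F τ)⁻¹ ∈ V → IsPrincipalIdealRing V →
      ∃ w : F, w ≠ 0 ∧ f' * w ^ m ∈ V ∧ (f' * w ^ m)⁻¹ ∈ V := by
    intro V hOV hτV hV
    obtain ⟨w, hw0, hw1, hw2⟩ := hord V hOV hτV hV
    refine ⟨w, hw0, ?_, ?_⟩
    · have e : f' * w ^ m = algebraMap O F x / algebraMap O F y * w ^ m *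
          (algebraMap O F τ ^ j * ((algebraMap O F τ)⁻¹) ^ i) := by
        rw [hf', inv_pow]; field_simp
      rw [e]
      exact V.mul_mem _ _ hw1 (V.mul_mem _ _ (pow_mem (hOV τ) j) (pow_mem hτV i))
    · have e : (f' * w ^ m)⁻¹ = (algebraMap O F x / algebraMap O F y * w ^ m)⁻¹ *
          (algebraMap O F τ ^ i * ((algebraMap O F τ)⁻¹) ^ j) := by
        have hw0' : w ^ m ≠ 0 := pow_ne_zero _ hw0
        have hxF0 : algebraMap O F x ≠ 0 := (map_ne_zero_iff _ hinj).mpr hx0
        rw [hf', inv_pow]; field_simp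
      rw [e]
      exact V.mul_mem _ _ hw2 (V.mul_mem _ _ (pow_mem (hOV τ) i) (pow_mem hτV j))
  obtain ⟨w, a, s, ha, hs, h⟩ := lh6_local τ n hτn hτRprime hloc m hm f' hf'0
    ⟨s₂ * x', s₁ * y', by
      rw [map_mul]; exact fun hd => hx'τ ((hsR s₂ hs₂).dvd_mul_left.mp hd), by
      rw [map_mul]; exact fun hd => hy'τ ((hsR s₁ hs₁).dvd_mul_left.mp hd), hfab⟩ hord'
  have hw0 : w ≠ 0 := by
    rintro rfl
    rw [zero_pow hm.ne', mul_zero, zero_mul] at h
    have ha0 : a = 0 := hinj (by rw [← h, map_zero])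
    exact ha (ha0 ▸ n.zero_mem)
  refine ⟨w, a, s, j, i, hw0, ha, hs, ?_⟩
  rw [← h, hf']
  field_simp

/-- `lh6_local_any` in terms of a component `p₁ ≤ n` with `p₁ O_n = τ O_n` and `O ⧸ p₁` Dedekind. -/
theorem lh6_main_any {O F : Type*} [CommRing O] [IsDomain O] [IsNoetherianRing O] [Field F]
    [Algebra O F] [IsFractionRing O F]
    (τ : O) (hτ0 : τ ≠ 0) (n : Ideal O) [hn : n.IsMaximal]
    (p₁ : Ideal O) [hp₁ : p₁.IsPrime] [IsDedekindDomain (O ⧸ p₁)] (hp₁n : p₁ ≤ n)
    (hτp : τ ∈ p₁) (hp₁τ : ∀ y ∈ p₁, ∃ s, s ∉ n ∧ τ ∣ s * y)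
    (m : ℕ) (hm : 0 < m) (f : F) (hf0 : f ≠ 0)
    (hord : ∀ V : ValuationSubring F, (∀ x : O, algebraMap O F x ∈ V) →
        (algebraMap O F τ)⁻¹ ∈ V → IsPrincipalIdealRing V →
        ∃ w : F, w ≠ 0 ∧ f * w ^ m ∈ V ∧ (f * w ^ m)⁻¹ ∈ V) :
    ∃ (w : F) (a s : O) (k l : ℕ), w ≠ 0 ∧ a ∉ n ∧ s ∉ n ∧
      f * w ^ m * algebraMap O F s * algebraMap O F τ ^ k =
        algebraMap O F a * algebraMap O F τ ^ l :=
  lh6_local_any τ n (hp₁n hτp) (lh6_prime_of_ideal τ hτ0 n p₁ hp₁n hτp hp₁τ)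
    (fun P hP => lh6_hloc τ p₁ n hp₁n hp₁τ P hP) m hm f hf0 hord

end Fermat.Agent.S34
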