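import Mathlib
import Fermat.Agent.S18.Core
import Fermat.Agent.S18.CoreWrap

/-!
# The abstract unipotence core on a model with a reduced two-component special fibre

Setting of `S18/CoreWrap.lean` (`corew_main_aux_y`), but the ring `V'` is only assumed to be a
subalgebra closed under `m`-th roots in which `1 + τ V'` consists of units (for instance the
intersection of two valuation rings).  `σ` is a ring automorphism of the function field `F`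
which preserves the charts, acts trivially modulo `τ V'` and satisfies `σ g / g ∈ V'` for all
`g ≠ 0`.

* `ulo_exists_y`: the sections `y_c ≡ 1` of the twisted modules exist as soon as, at every
  maximal ideal `𝔫 ∋ τ` of the chart, `f * b = a * γ ^ m` with `b ∉ 𝔫` and `γ ≡ 1` modulo `τ V'`
  (no integral closedness of the special fibre is needed).
* `ulo_sq_sub_one`: `σ(σ g) * g / (σ g) ^ 2 ≡ 1` modulo `τ V'` for every `g ≠ 0`.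
* `ulo_loc`: if `f₀ / g ^ m` is a unit of `O_𝔫[1/τ]`, then the local hypothesis of
  `ulo_exists_y` holds at `𝔫` for `f = σ(σ f₀) * f₀ / (σ f₀) ^ 2`.
* `ulo_main_aux`, `ulo_main`: consequently `σ(σ f₀) * f₀ = w * G ^ m * (σ f₀) ^ 2` with `w ∈ A`.
-/

set_option autoImplicit false
set_option linter.unusedSectionVars false

namespace Fermat.Agent.S34

open Fermat.Agent.S18

section UnipLocY

variable {A F : Type*} [CommRing A] [Field F] [Algebra A F]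

/-- Existence of `y ∈ I_c(O)` with `y ≡ 1` modulo `τ V'` from local data with `γ ≡ 1`. -/
theorem ulo_exists_y (m : ℕ) (hm : 0 < m) (f : F) (O V' : Subalgebra A F) (τ : A)
    (hOV : O ≤ V') (hroot : ∀ x : F, x ^ m ∈ O → x ∈ O)
    (hτinv : (algebraMap A F τ)⁻¹ ∉ V')
    (hVunit : ∀ z : F, z * (algebraMap A F τ)⁻¹ ∈ V' → (1 + z)⁻¹ ∈ V')
    (hloc : ∀ 𝔫 : Ideal ↥O, 𝔫.IsMaximal → algebraMap A ↥O τ ∈ 𝔫 →
      ∃ γ : F, (γ - 1) * (algebraMap A F τ)⁻¹ ∈ V' ∧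
        ∃ a b : ↥O, b ∉ 𝔫 ∧ f * (b : F) = (a : F) * γ ^ m)
    (c : ℕ) (hc : c ≤ m) :
    ∃ y : F, y ^ m * f ^ c ∈ O ∧ (y - 1) * (algebraMap A F τ)⁻¹ ∈ V' := by
  classical
  set τ' := algebraMap A F τ with hτ'
  have hτV : τ' ∈ V' := V'.algebraMap_mem τ
  have hτ0 : τ' ≠ 0 := fun h => hτinv (by rw [h, inv_zero]; exact V'.zero_mem)
  let J : Ideal ↥O :=
    { carrier := {x | ∃ y : F, y ^ m * f ^ c ∈ O ∧ (y - (x : F)) * τ'⁻¹ ∈ V'}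
      zero_mem' := ⟨0, by rw [zero_pow hm.ne', zero_mul]; exact O.zero_mem, by
        simp [V'.zero_mem]⟩
      add_mem' := by
        rintro x x' ⟨y, hy, hyx⟩ ⟨y', hy', hyx'⟩
        refine ⟨y + y', core_I_add m f O hroot c y y' hy hy', ?_⟩
        have : (y + y' - ((x + x' : ↥O) : F)) * τ'⁻¹ =
            (y - x) * τ'⁻¹ + (y' - x') * τ'⁻¹ := by push_cast; ring
        rw [this]; exact V'.add_mem hyx hyx'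
      smul_mem' := by
        rintro r x ⟨y, hy, hyx⟩
        refine ⟨r * y, ?_, ?_⟩
        · have : ((r : F) * y) ^ m * f ^ c = (r : F) ^ m * (y ^ m * f ^ c) := by ring
          rw [this]; exact O.mul_mem (O.pow_mem r.2 m) hy
        · have : ((r : F) * y - ((r • x : ↥O) : F)) * τ'⁻¹ = r * ((y - x) * τ'⁻¹) := by
            rw [smul_eq_mul]; push_cast; ring
          rw [this]; exact V'.mul_mem (hOV r.2) hyx }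
  by_cases hJ : J = ⊤
  · have h1 : (1 : ↥O) ∈ J := by rw [hJ]; trivial
    obtain ⟨y, hy, hy1⟩ := h1
    exact ⟨y, hy, by simpa using hy1⟩
  · exfalso
    obtain ⟨𝔫, h𝔫, hJ𝔫⟩ := Ideal.exists_le_maximal J hJ
    have hτ𝔫 : algebraMap A ↥O τ ∈ 𝔫 := by
      apply hJ𝔫
      refine ⟨0, by rw [zero_pow hm.ne', zero_mul]; exact O.zero_mem, ?_⟩
      have : ((0 : F) - ((algebraMap A ↥O τ : ↥O) : F)) * τ'⁻¹ = -1 := by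
        rw [Subalgebra.coe_algebraMap, zero_sub, neg_mul, mul_inv_cancel₀ hτ0]
      rw [this]; exact V'.neg_mem V'.one_mem
    obtain ⟨γ, hγ, a, b, hb, hfab⟩ := hloc 𝔫 h𝔫 hτ𝔫
    obtain ⟨-, -, -, hγinv, hγ0, hγinvT⟩ := core_f_facts γ V' τ' hτV hτinv hVunit hγ
    have hb0 : (b : F) ≠ 0 := by
      intro h
      apply hb
      have : b = 0 := Subtype.ext h
      rw [this]; exact 𝔫.zero_mem
    apply hb
    apply hJ𝔫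
    refine ⟨(b : F) * γ⁻¹ ^ c, ?_, ?_⟩
    · have hpp : (γ⁻¹ ^ c) ^ m * (γ ^ m) ^ c = 1 := by
        rw [← pow_mul, ← pow_mul, mul_comm c m, ← mul_pow, inv_mul_cancel₀ hγ0, one_pow]
      have hbc : (b : F) ^ c ≠ 0 := pow_ne_zero c hb0
      have key : ((b : F) * γ⁻¹ ^ c) ^ m * f ^ c = (b : F) ^ (m - c) * (a : F) ^ c := by
        apply mul_right_cancel₀ hbc
        calc ((b : F) * γ⁻¹ ^ c) ^ m * f ^ c * (b : F) ^ c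
            = (b : F) ^ m * ((γ⁻¹ ^ c) ^ m * (f * b) ^ c) := by ring
          _ = (b : F) ^ m * (a : F) ^ c * ((γ⁻¹ ^ c) ^ m * (γ ^ m) ^ c) := by rw [hfab]; ring
          _ = (b : F) ^ m * (a : F) ^ c := by rw [hpp, mul_one]
          _ = (b : F) ^ (m - c) * (a : F) ^ c * (b : F) ^ c := by
            rw [mul_right_comm, ← pow_add, Nat.sub_add_cancel hc]
      rw [key]
      exact O.mul_mem (O.pow_mem b.2 _) (O.pow_mem a.2 _)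
    · have : ((b : F) * γ⁻¹ ^ c - (b : F)) * τ'⁻¹ = b * ((γ⁻¹ ^ c - 1 ^ c) * τ'⁻¹) := by
        rw [one_pow]; ring
      rw [this]
      exact V'.mul_mem (hOV b.2) (core_T_pow_sub_pow V' τ' _ _ hγinv V'.one_mem hγinvT c)

/-- `(σ - 1)² g ≡ 1` modulo `τ V'`. -/
theorem ulo_sq_sub_one (V' : Subalgebra A F) (τ' : F) (σ : F ≃+* F)
    (hσV : ∀ x ∈ V', (σ x - x) * τ'⁻¹ ∈ V')
    (hσu : ∀ g : F, g ≠ 0 → σ g * g⁻¹ ∈ V') (g : F) (hg : g ≠ 0) :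
    (σ (σ g) * g * ((σ g)⁻¹) ^ 2 - 1) * τ'⁻¹ ∈ V' := by
  have hσg : σ g ≠ 0 := (map_ne_zero σ).mpr hg
  have h1 : σ g * g⁻¹ ∈ V' := hσu g hg
  have h2 : σ g⁻¹ * g⁻¹⁻¹ ∈ V' := hσu g⁻¹ (inv_ne_zero hg)
  have h3 := hσV _ h1
  have : (σ (σ g) * g * ((σ g)⁻¹) ^ 2 - 1) * τ'⁻¹ =
      (σ (σ g * g⁻¹) - σ g * g⁻¹) * τ'⁻¹ * (σ g⁻¹ * g⁻¹⁻¹) := by
    simp only [map_mul, map_inv₀, inv_inv]
    field_simp
  rw [this]
  exact V'.mul_mem h3 h2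

/-- The local hypothesis of `ulo_exists_y` for `(σ - 1)² f₀`, from `f₀ / g ^ m ∈ O_𝔫[1/τ]ˣ`. -/
theorem ulo_loc (m : ℕ) (O V' : Subalgebra A F) (τ ε : A) (hε : IsUnit ε)
    (hOV : O ≤ V') (hτinv : (algebraMap A F τ)⁻¹ ∉ V')
    (hdiv : ∀ x ∈ O, x * (algebraMap A F τ)⁻¹ ∈ V' → x * (algebraMap A F τ)⁻¹ ∈ O)
    (σ : F ≃+* F)
    (hστ : σ (algebraMap A F τ) = algebraMap A F ε * algebraMap A F τ)
    (hσO : ∀ x ∈ O, σ x ∈ O)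
    (hσV : ∀ x ∈ V', (σ x - x) * (algebraMap A F τ)⁻¹ ∈ V')
    (hσu : ∀ g : F, g ≠ 0 → σ g * g⁻¹ ∈ V')
    (f₀ : F) (hf₀ : f₀ ≠ 0)
    (𝔫 : Ideal ↥O) (h𝔫 : 𝔫.IsMaximal) (hτ𝔫 : algebraMap A ↥O τ ∈ 𝔫)
    (g : F) (hg : g ≠ 0) (a b s s' : ↥O) (k l : ℕ) (hs : s ∉ 𝔫) (hs' : s' ∉ 𝔫)
    (h1 : f₀ * (s : F) * algebraMap A F τ ^ k = (a : F) * g ^ m)
    (h2 : g ^ m * (s' : F) * algebraMap A F τ ^ l = (b : F) * f₀) :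
    ∃ γ : F, (γ - 1) * (algebraMap A F τ)⁻¹ ∈ V' ∧
      ∃ a' b' : ↥O, b' ∉ 𝔫 ∧
        (σ (σ f₀) * f₀ * ((σ f₀)⁻¹) ^ 2) * (b' : F) = (a' : F) * γ ^ m := by
  classical
  set τ' := algebraMap A F τ with hτ'
  set ε' := algebraMap A F ε with hε'
  have hτV : τ' ∈ V' := V'.algebraMap_mem τ
  have hτ0 : τ' ≠ 0 := fun h => hτinv (by rw [h, inv_zero]; exact V'.zero_mem)
  have hprime := h𝔫.isPrime
  have hε0 : ε' ≠ 0 := by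
    intro h
    have h3 : σ τ' = 0 := by rw [hστ, h, zero_mul]
    exact hτ0 ((map_eq_zero σ).mp h3)
  -- `σ` acts trivially on `O ⧸ τ O`
  have hσsub : ∀ x : ↥O, ∃ d : ↥O, σ (x : F) = (x : F) + τ' * (d : F) := by
    intro x
    have h3 := hdiv (σ (x : F) - x) (O.sub_mem (hσO _ x.2) x.2) (hσV _ (hOV x.2))
    refine ⟨⟨_, h3⟩, ?_⟩
    show σ (x : F) = (x : F) + τ' * ((σ (x : F) - x) * τ'⁻¹)
    field_simp
    ring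
  have hσ𝔫 : ∀ x : ↥O, x ∉ 𝔫 → (⟨σ (x : F), hσO _ x.2⟩ : ↥O) ∉ 𝔫 := by
    intro x hx hσx
    obtain ⟨d, hd⟩ := hσsub x
    apply hx
    have h3 : x = (⟨σ (x : F), hσO _ x.2⟩ : ↥O) - algebraMap A ↥O τ * d := by
      apply Subtype.ext
      show (x : F) = σ (x : F) - τ' * (d : F)
      rw [hd]; ring
    rw [h3]
    exact 𝔫.sub_mem hσx (𝔫.mul_mem_right _ hτ𝔫)
  have hε𝔫 : algebraMap A ↥O ε ∉ 𝔫 := by
    intro h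
    exact h𝔫.ne_top (Ideal.eq_top_of_isUnit_mem _ h (hε.map (algebraMap A ↥O)))
  have hgm : g ^ m ≠ 0 := pow_ne_zero m hg
  have hs0 : (s : F) ≠ 0 := fun h => hs (by
    have : s = 0 := Subtype.ext h
    rw [this]; exact 𝔫.zero_mem)
  have hs'0 : (s' : F) ≠ 0 := fun h => hs' (by
    have : s' = 0 := Subtype.ext h
    rw [this]; exact 𝔫.zero_mem)
  -- the unit `u = f₀ / g ^ m` of `O_𝔫[1/τ]`
  set u : F := f₀ * (g ^ m)⁻¹ with hu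
  have hu0 : u ≠ 0 := mul_ne_zero hf₀ (inv_ne_zero hgm)
  have hσu0 : σ u ≠ 0 := (map_ne_zero σ).mpr hu0
  have hf₀u : f₀ = u * g ^ m := by rw [hu]; field_simp
  have hu1 : u * ((s : F) * τ' ^ k) = (a : F) := by
    rw [hu]; field_simp; linear_combination h1
  have hu2 : (s' : F) * τ' ^ l = (b : F) * u := by
    rw [hu]; field_simp; linear_combination h2
  have hσu1 : σ u * (σ (s : F) * (ε' * τ') ^ k) = σ (a : F) := by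
    rw [← hστ, ← map_pow, ← map_mul, ← map_mul, hu1]
  have hσu2 : σ (s' : F) * (ε' * τ') ^ l = σ (b : F) * σ u := by
    rw [← hστ, ← map_pow, ← map_mul, ← map_mul, hu2]
  -- `v = σ u / u` is a unit of `O_𝔫`
  set v : F := σ u * u⁻¹ with hv
  have hvV : v ∈ V' := hσu u hu0
  have hvinvV : u * (σ u)⁻¹ ∈ V' := by
    have h3 := hσu u⁻¹ (inv_ne_zero hu0)
    rw [map_inv₀, inv_inv] at h3
    rwa [mul_comm]
  set s₁ : ↥O := ⟨σ (s : F), hσO _ s.2⟩ * algebraMap A ↥O ε ^ k * s' with hs₁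
  set s₂ : ↥O := s * ⟨σ (s' : F), hσO _ s'.2⟩ * algebraMap A ↥O ε ^ l with hs₂
  have hs₁𝔫 : s₁ ∉ 𝔫 := by
    intro h
    rcases hprime.mem_or_mem h with h | h
    · rcases hprime.mem_or_mem h with h | h
      · exact hσ𝔫 s hs h
      · exact hε𝔫 (hprime.mem_of_pow_mem _ h)
    · exact hs' h
  have hs₂𝔫 : s₂ ∉ 𝔫 := by
    intro h
    rcases hprime.mem_or_mem h with h | h
    · rcases hprime.mem_or_mem h with h | h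
      · exact hs h
      · exact hσ𝔫 s' hs' h
    · exact hε𝔫 (hprime.mem_of_pow_mem _ h)
  have hs₁F : (s₁ : F) = σ (s : F) * ε' ^ k * (s' : F) := rfl
  have hs₂F : (s₂ : F) = (s : F) * σ (s' : F) * ε' ^ l := rfl
  have hva : v * (s₁ : F) = σ (a : F) * (b : F) * τ'⁻¹ ^ (k + l) := by
    rw [hs₁F, hv, ← hσu1]
    have h3 : σ u * u⁻¹ * (σ (s : F) * ε' ^ k * (s' : F)) * τ' ^ (k + l) =
        σ u * (σ (s : F) * (ε' * τ') ^ k) * (b : F) := by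
      have h4 : σ u * u⁻¹ * (σ (s : F) * ε' ^ k * (s' : F)) * τ' ^ (k + l) =
          σ u * (σ (s : F) * (ε' * τ') ^ k) * u⁻¹ * ((s' : F) * τ' ^ l) := by ring
      rw [h4, hu2]; field_simp
    rw [← h3, inv_pow]; field_simp
  have hvb : u * (σ u)⁻¹ * (s₂ : F) = (a : F) * σ (b : F) * τ'⁻¹ ^ (k + l) := by
    rw [hs₂F, ← hu1]
    have h3 : u * (σ u)⁻¹ * ((s : F) * σ (s' : F) * ε' ^ l) * τ' ^ (k + l) =
        u * ((s : F) * τ' ^ k) * σ (b : F) := by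
      have h4 : u * (σ u)⁻¹ * ((s : F) * σ (s' : F) * ε' ^ l) * τ' ^ (k + l) =
          u * ((s : F) * τ' ^ k) * (σ u)⁻¹ * (σ (s' : F) * (ε' * τ') ^ l) := by ring
      rw [h4, hσu2]; field_simp
    rw [← h3, inv_pow]; field_simp
  have ha₂O : v * (s₁ : F) ∈ O := by
    rw [hva]
    refine core_div_pow O V' τ' hτ0 hτV hdiv (k + l) _
      (O.mul_mem (hσO _ a.2) b.2) ?_
    rw [← hva]; exact V'.mul_mem hvV (hOV s₁.2)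
  have hb₂O : u * (σ u)⁻¹ * (s₂ : F) ∈ O := by
    rw [hvb]
    refine core_div_pow O V' τ' hτ0 hτV hdiv (k + l) _
      (O.mul_mem a.2 (hσO _ b.2)) ?_
    rw [← hvb]; exact V'.mul_mem hvinvV (hOV s₂.2)
  set a₂ : ↥O := ⟨_, ha₂O⟩ with ha₂
  set b₂ : ↥O := ⟨_, hb₂O⟩ with hb₂
  have ha₂𝔫 : a₂ ∉ 𝔫 := by
    intro h
    have h3 : a₂ * b₂ = s₁ * s₂ := by
      apply Subtype.ext
      show v * (s₁ : F) * (u * (σ u)⁻¹ * (s₂ : F)) = (s₁ : F) * (s₂ : F)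
      rw [hv]; field_simp
    have h4 : s₁ * s₂ ∈ 𝔫 := by rw [← h3]; exact 𝔫.mul_mem_right _ h
    rcases hprime.mem_or_mem h4 with h | h
    · exact hs₁𝔫 h
    · exact hs₂𝔫 h
  have ha₂F : (a₂ : F) = v * (s₁ : F) := rfl
  -- conclusion
  refine ⟨σ (σ g) * g * ((σ g)⁻¹) ^ 2, ulo_sq_sub_one V' τ' σ hσV hσu g hg,
    ⟨σ (a₂ : F), hσO _ a₂.2⟩ * s₁, ⟨σ (s₁ : F), hσO _ s₁.2⟩ * a₂, ?_, ?_⟩
  · intro h
    rcases hprime.mem_or_mem h with h | h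
    · exact hσ𝔫 s₁ hs₁𝔫 h
    · exact ha₂𝔫 h
  · show (σ (σ f₀) * f₀ * ((σ f₀)⁻¹) ^ 2) * (σ (s₁ : F) * (a₂ : F)) =
      (σ (a₂ : F) * (s₁ : F)) * (σ (σ g) * g * ((σ g)⁻¹) ^ 2) ^ m
    have hσg : σ g ≠ 0 := (map_ne_zero σ).mpr hg
    have hs₁0 : (s₁ : F) ≠ 0 := fun h => hs₁𝔫 (by
      have : s₁ = 0 := Subtype.ext h
      rw [this]; exact 𝔫.zero_mem)
    have hγm : (σ (σ g) * g * ((σ g)⁻¹) ^ 2) ^ m =
        σ (σ g) ^ m * g ^ m * ((σ g ^ m)⁻¹) ^ 2 := by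
      rw [mul_pow, mul_pow, inv_pow, inv_pow, inv_pow, ← pow_mul, ← pow_mul, mul_comm 2 m]
    rw [hγm, ha₂F, map_mul, hv, hf₀u]
    simp only [map_mul, map_pow, map_inv₀]
    field_simp

end UnipLocY

section UnipLocMain

open Polynomial

variable {A F : Type*} [CommRing A] [IsNoetherianRing A] [IsLocalRing A] [Field F] [Algebra A F]

/-- **Abstract unipotence core**, for a subalgebra `V'` closed under `m`-th roots in which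
`1 + τ V'` consists of units.  If at every closed point `𝔫` of the special fibre of both charts
`f₀` is an `m`-th power up to a unit of `O_𝔫[1/τ]`, then `(σ - 1)² f₀` is a constant times an
`m`-th power. -/
theorem ulo_main_aux (τ : A) (hτ : τ ∈ IsLocalRing.maximalIdeal A) (m : ℕ) (hm2 : 2 ≤ m)
    (hmu : IsUnit (m : A)) (t : F) (ht : t ≠ 0) (O₀ O₁ V' : Subalgebra A F)
    (ht₀ : t ∈ O₀) (ht₁ : t⁻¹ ∈ O₁)
    (h01 : ∀ x ∈ O₀, ∃ n : ℕ, x * t⁻¹ ^ n ∈ O₁) (h10 : ∀ x ∈ O₁, ∃ n : ℕ, x * t ^ n ∈ O₀)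
    (hroot₀ : ∀ x : F, x ^ m ∈ O₀ → x ∈ O₀) (hroot₁ : ∀ x : F, x ^ m ∈ O₁ → x ∈ O₁)
    [IsNoetherianRing ↥O₀]
    (hfin : ∃ b₀ : Finset F, (∀ β ∈ b₀, β ∈ O₀) ∧ ∀ x ∈ O₀, x ∈ Submodule.span A
      (Set.image2 (fun (k : ℕ) (β : F) => t ^ k * β) Set.univ (b₀ : Set F)))
    (hfrac : ∀ x : F, ∃ ψ ∈ O₀, ψ ≠ 0 ∧ ψ * x ∈ O₀)
    (hV₀ : O₀ ≤ V') (hV₁ : O₁ ≤ V') (hrootV : ∀ x : F, x ^ m ∈ V' → x ∈ V')
    (hτinv : (algebraMap A F τ)⁻¹ ∉ V')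
    (hVunit : ∀ z : F, z * (algebraMap A F τ)⁻¹ ∈ V' → (1 + z)⁻¹ ∈ V')
    (hdiv₀ : ∀ x ∈ O₀, x * (algebraMap A F τ)⁻¹ ∈ V' → x * (algebraMap A F τ)⁻¹ ∈ O₀)
    (hdiv₁ : ∀ x ∈ O₁, x * (algebraMap A F τ)⁻¹ ∈ V' → x * (algebraMap A F τ)⁻¹ ∈ O₁)
    (h8 : ∀ x : F, x ∈ O₀ → x ∈ O₁ → x ∈ Set.range (algebraMap A F))
    (σ : F ≃+* F) (ε : A) (hε : IsUnit ε)
    (hστ : σ (algebraMap A F τ) = algebraMap A F ε * algebraMap A F τ)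
    (hσO₀ : ∀ x ∈ O₀, σ x ∈ O₀) (hσO₁ : ∀ x ∈ O₁, σ x ∈ O₁)
    (hσV : ∀ x ∈ V', (σ x - x) * (algebraMap A F τ)⁻¹ ∈ V')
    (hσu : ∀ g : F, g ≠ 0 → σ g * g⁻¹ ∈ V')
    (f₀ : F) (hf₀ : f₀ ≠ 0)
    (hloc₀ : ∀ 𝔫 : Ideal ↥O₀, 𝔫.IsMaximal → algebraMap A ↥O₀ τ ∈ 𝔫 →
      ∃ g : F, g ≠ 0 ∧ ∃ (a b s s' : ↥O₀) (k l : ℕ), s ∉ 𝔫 ∧ s' ∉ 𝔫 ∧
        f₀ * (s : F) * algebraMap A F τ ^ k = (a : F) * g ^ m ∧
        g ^ m * (s' : F) * algebraMap A F τ ^ l = (b : F) * f₀)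
    (hloc₁ : ∀ 𝔫 : Ideal ↥O₁, 𝔫.IsMaximal → algebraMap A ↥O₁ τ ∈ 𝔫 →
      ∃ g : F, g ≠ 0 ∧ ∃ (a b s s' : ↥O₁) (k l : ℕ), s ∉ 𝔫 ∧ s' ∉ 𝔫 ∧
        f₀ * (s : F) * algebraMap A F τ ^ k = (a : F) * g ^ m ∧
        g ^ m * (s' : F) * algebraMap A F τ ^ l = (b : F) * f₀) :
    ∃ w : A, ∃ G : F, G ≠ 0 ∧ σ (σ f₀) * f₀ = algebraMap A F w * G ^ m * (σ f₀) ^ 2 := by
  have hm : 0 < m := by omega
  obtain ⟨b₀, hb₀, hspan⟩ := hfin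
  obtain ⟨ν, hν⟩ := hmu.exists_left_inv
  have hσf : σ f₀ ≠ 0 := (map_ne_zero σ).mpr hf₀
  set W : F := σ (σ f₀) * f₀ * ((σ f₀)⁻¹) ^ 2 with hW
  obtain ⟨ψ, hψ, hψ0, hψf⟩ := hfrac W⁻¹
  have h7 : (W - 1) * (algebraMap A F τ)⁻¹ ∈ V' := ulo_sq_sub_one V' _ σ hσV hσu f₀ hf₀
  have hex : ∀ (O : Subalgebra A F), O ≤ V' → (∀ x : F, x ^ m ∈ O → x ∈ O) →
      (∀ x ∈ O, x * (algebraMap A F τ)⁻¹ ∈ V' → x * (algebraMap A F τ)⁻¹ ∈ O) →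
      (∀ x ∈ O, σ x ∈ O) →
      (∀ 𝔫 : Ideal ↥O, 𝔫.IsMaximal → algebraMap A ↥O τ ∈ 𝔫 →
        ∃ g : F, g ≠ 0 ∧ ∃ (a b s s' : ↥O) (k l : ℕ), s ∉ 𝔫 ∧ s' ∉ 𝔫 ∧
          f₀ * (s : F) * algebraMap A F τ ^ k = (a : F) * g ^ m ∧
          g ^ m * (s' : F) * algebraMap A F τ ^ l = (b : F) * f₀) →
      ∀ c, c < m → ∃ y : F, y ^ m * W ^ c ∈ O ∧ (y - 1) * (algebraMap A F τ)⁻¹ ∈ V' := by
    intro O hOV hroot hdiv hσO hloc c hc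
    refine ulo_exists_y m hm W O V' τ hOV hroot hτinv hVunit ?_ c hc.le
    intro 𝔫 h𝔫 hτ𝔫
    obtain ⟨g, hg, a, b, s, s', k, l, hs, hs', h1, h2⟩ := hloc 𝔫 h𝔫 hτ𝔫
    exact ulo_loc m O V' τ ε hε hOV hτinv hdiv σ hστ hσO hσV hσu f₀ hf₀ 𝔫 h𝔫 hτ𝔫 g hg
      a b s s' k l hs hs' h1 h2
  have hg : (AdjoinRoot.root (X ^ m - C W : F[X])) ^ m =
      algebraMap F (AdjoinRoot (X ^ m - C W : F[X])) W := by
    have h := AdjoinRoot.mk_self (f := (X ^ m - C W : F[X]))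
    rw [map_sub, map_pow, AdjoinRoot.mk_X, AdjoinRoot.mk_C, sub_eq_zero] at h
    rw [h, AdjoinRoot.algebraMap_eq]
  obtain ⟨w, G, hG, hWG⟩ := corew_main_aux_y (E := AdjoinRoot (X ^ m - C W : F[X])) τ hτ m hm2
    ν hν W (AdjoinRoot.root (X ^ m - C W : F[X])) hg (core_adjoinRoot_li m hm W) t ht O₀ O₁ V'
    ht₀ ht₁ h01 h10 hroot₀ hroot₁ b₀ hb₀ hspan ψ hψ hψ0 hψf hV₀ hV₁
    hrootV hτinv hVunit hdiv₀ hdiv₁ (hex O₀ hV₀ hroot₀ hdiv₀ hσO₀ hloc₀)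
    (hex O₁ hV₁ hroot₁ hdiv₁ hσO₁ hloc₁) h7 h8
  refine ⟨w, G, hG, ?_⟩
  rw [← hWG, hW]
  field_simp

/-- **Abstract unipotence core, two valuation rings.**  `V₁`, `V₂` are valuation rings of `F`
containing both charts, with `τ` a non-unit in both and `O_i ∩ τ V₁ ∩ τ V₂ = τ O_i` (reduced
special fibre with two components); `σ` is a ring automorphism of `F` preserving the charts,
with `σ x ≡ x` modulo `τ V_j` on `V_j` and `σ g / g ∈ V_j` for all `g ≠ 0`. -/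
theorem ulo_main (τ : A) (hτ : τ ∈ IsLocalRing.maximalIdeal A) (m : ℕ) (hm2 : 2 ≤ m)
    (hmu : IsUnit (m : A)) (t : F) (ht : t ≠ 0) (O₀ O₁ : Subalgebra A F)
    (V₁ V₂ : ValuationSubring F)
    (ht₀ : t ∈ O₀) (ht₁ : t⁻¹ ∈ O₁)
    (h01 : ∀ x ∈ O₀, ∃ n : ℕ, x * t⁻¹ ^ n ∈ O₁) (h10 : ∀ x ∈ O₁, ∃ n : ℕ, x * t ^ n ∈ O₀)
    (hroot₀ : ∀ x : F, x ^ m ∈ O₀ → x ∈ O₀) (hroot₁ : ∀ x : F, x ^ m ∈ O₁ → x ∈ O₁)
    [IsNoetherianRing ↥O₀]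
    (hfin : ∃ b₀ : Finset F, (∀ β ∈ b₀, β ∈ O₀) ∧ ∀ x ∈ O₀, x ∈ Submodule.span A
      (Set.image2 (fun (k : ℕ) (β : F) => t ^ k * β) Set.univ (b₀ : Set F)))
    (hfrac : ∀ x : F, ∃ ψ ∈ O₀, ψ ≠ 0 ∧ ψ * x ∈ O₀)
    (hV₀ : ∀ x ∈ O₀, x ∈ V₁ ∧ x ∈ V₂) (hV₁ : ∀ x ∈ O₁, x ∈ V₁ ∧ x ∈ V₂)
    (hτinv₁ : (algebraMap A F τ)⁻¹ ∉ V₁) (hτinv₂ : (algebraMap A F τ)⁻¹ ∉ V₂)
    (hdiv₀ : ∀ x ∈ O₀, x * (algebraMap A F τ)⁻¹ ∈ V₁ → x * (algebraMap A F τ)⁻¹ ∈ V₂ →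
      x * (algebraMap A F τ)⁻¹ ∈ O₀)
    (hdiv₁ : ∀ x ∈ O₁, x * (algebraMap A F τ)⁻¹ ∈ V₁ → x * (algebraMap A F τ)⁻¹ ∈ V₂ →
      x * (algebraMap A F τ)⁻¹ ∈ O₁)
    (h8 : ∀ x : F, x ∈ O₀ → x ∈ O₁ → x ∈ Set.range (algebraMap A F))
    (σ : F ≃+* F) (ε : A) (hε : IsUnit ε)
    (hστ : σ (algebraMap A F τ) = algebraMap A F ε * algebraMap A F τ)
    (hσO₀ : ∀ x ∈ O₀, σ x ∈ O₀) (hσO₁ : ∀ x ∈ O₁, σ x ∈ O₁)
    (hσV₁ : ∀ x ∈ V₁, (σ x - x) * (algebraMap A F τ)⁻¹ ∈ V₁)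
    (hσV₂ : ∀ x ∈ V₂, (σ x - x) * (algebraMap A F τ)⁻¹ ∈ V₂)
    (hσu₁ : ∀ g : F, g ≠ 0 → σ g * g⁻¹ ∈ V₁) (hσu₂ : ∀ g : F, g ≠ 0 → σ g * g⁻¹ ∈ V₂)
    (f₀ : F) (hf₀ : f₀ ≠ 0)
    (hloc₀ : ∀ 𝔫 : Ideal ↥O₀, 𝔫.IsMaximal → algebraMap A ↥O₀ τ ∈ 𝔫 →
      ∃ g : F, g ≠ 0 ∧ ∃ (a b s s' : ↥O₀) (k l : ℕ), s ∉ 𝔫 ∧ s' ∉ 𝔫 ∧
        f₀ * (s : F) * algebraMap A F τ ^ k = (a : F) * g ^ m ∧
        g ^ m * (s' : F) * algebraMap A F τ ^ l = (b : F) * f₀)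
    (hloc₁ : ∀ 𝔫 : Ideal ↥O₁, 𝔫.IsMaximal → algebraMap A ↥O₁ τ ∈ 𝔫 →
      ∃ g : F, g ≠ 0 ∧ ∃ (a b s s' : ↥O₁) (k l : ℕ), s ∉ 𝔫 ∧ s' ∉ 𝔫 ∧
        f₀ * (s : F) * algebraMap A F τ ^ k = (a : F) * g ^ m ∧
        g ^ m * (s' : F) * algebraMap A F τ ^ l = (b : F) * f₀) :
    ∃ w : A, ∃ G : F, G ≠ 0 ∧ σ (σ f₀) * f₀ = algebraMap A F w * G ^ m * (σ f₀) ^ 2 := by
  have hm : 0 < m := by omega
  let V' : Subalgebra A F :=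
    { (V₁.toSubring ⊓ V₂.toSubring).toSubsemiring with
      algebraMap_mem' := fun a => hV₀ _ (O₀.algebraMap_mem a) }
  have hmem : ∀ x : F, x ∈ V' ↔ x ∈ V₁ ∧ x ∈ V₂ := fun x => Iff.rfl
  exact ulo_main_aux τ hτ m hm2 hmu t ht O₀ O₁ V' ht₀ ht₁ h01 h10 hroot₀ hroot₁ hfin hfrac
    (fun x hx => (hmem x).mpr (hV₀ x hx)) (fun x hx => (hmem x).mpr (hV₁ x hx))
    (fun x hx => (hmem x).mpr ⟨core_val_root V₁ m hm x ((hmem _).mp hx).1,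
      core_val_root V₂ m hm x ((hmem _).mp hx).2⟩)
    (fun h => hτinv₁ ((hmem _).mp h).1)
    (fun z hz => (hmem _).mpr ⟨core_val_unit V₁ _ z hτinv₁ ((hmem _).mp hz).1,
      core_val_unit V₂ _ z hτinv₂ ((hmem _).mp hz).2⟩)
    (fun x hx h => hdiv₀ x hx ((hmem _).mp h).1 ((hmem _).mp h).2)
    (fun x hx h => hdiv₁ x hx ((hmem _).mp h).1 ((hmem _).mp h).2)
    h8 σ ε hε hστ hσO₀ hσO₁
    (fun x hx => (hmem _).mpr ⟨hσV₁ x ((hmem _).mp hx).1, hσV₂ x ((hmem _).mp hx).2⟩)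
    (fun g hg => (hmem _).mpr ⟨hσu₁ g hg, hσu₂ g hg⟩)
    f₀ hf₀ hloc₀ hloc₁

end UnipLocMain

end Fermat.Agent.S34
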