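import Mathlib
import Fermat.Prelude.Def_AlgebraicCurve_DivisorClassGroup
import Fermat.Agent.S18.CechChart
import Fermat.Agent.S18.CoreInstHord
import Fermat.Agent.S34.Charts2
import Fermat.Agent.S34.UnipLoc
import Fermat.Agent.S34.LocalH6

/-!
# S34, package F-INST, part 1 (INST-ABS): the abstract assembly

The two-valuation analogue of `S18.cinst_abs`.

* `S34Loc τ m O f₀ 𝔫`: the local statement (LOC) consumed by `ulo_main` at a closed point `𝔫`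
  of the special fibre of the chart `O`: `f₀ / g ^ m` is a unit of `O_𝔫[1/τ]` for some `g`.
* `s34ia_loc_one`: (LOC) at a closed point lying on one component only (`lh6_main_any`).
* `s34ia_loc`: (LOC) at every closed point of a chart whose special fibre has the two
  components `p₁`, `p₂` (cut out by the valuation rings `V₁`, `V₂`), both with Dedekind
  coordinate rings, from (LOC) at the crossing points.
* `s34ia_main`: for a discrete valuation ring `A0` with fraction field `K0`, a field `F / K0`,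
  the two extensions `V₁`, `V₂` of the Gauss valuation, the integral-closure charts of a
  coordinate `t`, and a ring automorphism `σ` of `F` acting trivially on both residue fields:
  if `m ∣ ord_Q f₀` at all places `Q` of `F / K0` and (LOC) holds at the crossing points, then
  `σ (σ f₀) * f₀ = w * G ^ m * (σ f₀) ^ 2` with `w ∈ K0`.
-/

set_option autoImplicit false

open Polynomial

namespace Fermat.Agent.S34

open Fermat.Agent.S18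

section OneChart

variable {A F : Type*} [CommRing A] [Field F] [Algebra A F]

/-- The local statement (LOC) at a closed point `𝔫` of the chart `O`: for some `g ≠ 0`, the
quotient `f₀ / g ^ m` is a unit of `O_𝔫[1/τ]`. -/
def S34Loc (τ : A) (m : ℕ) (O : Subalgebra A F) (f₀ : F) (𝔫 : Ideal ↥O) : Prop :=
  ∃ g : F, g ≠ 0 ∧ ∃ (a b s s' : ↥O) (k l : ℕ), s ∉ 𝔫 ∧ s' ∉ 𝔫 ∧
    f₀ * (s : F) * algebraMap A F τ ^ k = (a : F) * g ^ m ∧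
    g ^ m * (s' : F) * algebraMap A F τ ^ l = (b : F) * f₀

/-- (LOC) at a closed point lying on ONE component `p₁` of the special fibre. -/
theorem s34ia_loc_one (τ : A) (hτ0 : algebraMap A F τ ≠ 0) (O : Subalgebra A F)
    [IsNoetherianRing ↥O] (hfrac : ∀ x : F, ∃ a ∈ O, ∃ s ∈ O, s ≠ 0 ∧ x * s = a)
    (𝔫 : Ideal ↥O) [𝔫.IsMaximal] (p₁ : Ideal ↥O) [p₁.IsPrime] [IsDedekindDomain (↥O ⧸ p₁)]
    (hp₁𝔫 : p₁ ≤ 𝔫) (hτp : algebraMap A ↥O τ ∈ p₁)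
    (hp₁τ : ∀ y ∈ p₁, ∃ s, s ∉ 𝔫 ∧ algebraMap A ↥O τ ∣ s * y)
    (m : ℕ) (hm : 0 < m) (f₀ : F) (hf₀ : f₀ ≠ 0)
    (hord : ∀ V : ValuationSubring F, (∀ a : A, algebraMap A F a ∈ V) →
        (algebraMap A F τ)⁻¹ ∈ V → IsPrincipalIdealRing V →
        ∃ w : F, w ≠ 0 ∧ f₀ * w ^ m ∈ V ∧ (f₀ * w ^ m)⁻¹ ∈ V) :
    S34Loc τ m O f₀ 𝔫 := by
  have : FaithfulSMul ↥O F :=
    (faithfulSMul_iff_algebraMap_injective ↥O F).mpr Subtype.val_injective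
  have : IsFractionRing ↥O F := IsFractionRing.of_field ↥O F (fun z => by
    obtain ⟨a, ha, s, hs, hs0, h⟩ := hfrac z
    refine ⟨⟨a, ha⟩, ⟨s, hs⟩, ?_⟩
    show z = a / s
    rw [eq_div_iff hs0]; exact h)
  have hτO0 : algebraMap A ↥O τ ≠ 0 := fun h0 => hτ0 (congrArg Subtype.val h0)
  have hmapτ : algebraMap ↥O F (algebraMap A ↥O τ) = algebraMap A F τ := rfl
  obtain ⟨w, a, s, k, l, hw, ha, hs, h⟩ :=
    lh6_main_any (O := ↥O) (F := F) (algebraMap A ↥O τ) hτO0 𝔫 p₁ hp₁𝔫 hτp hp₁τ m hm f₀ hf₀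
      (fun V hOV hτV hV => hord V (fun c => hOV (algebraMap A ↥O c)) (by rwa [hmapτ] at hτV) hV)
  rw [hmapτ] at h
  have h' : f₀ * w ^ m * (s : F) * algebraMap A F τ ^ k = (a : F) * algebraMap A F τ ^ l := h
  have hwm : w ^ m ≠ 0 := pow_ne_zero m hw
  refine ⟨w⁻¹, inv_ne_zero hw, a * algebraMap A ↥O τ ^ l, s * algebraMap A ↥O τ ^ k, s, a, k, l,
    hs, ha, ?_, ?_⟩
  · have h1 : ((a * algebraMap A ↥O τ ^ l : ↥O) : F) = (a : F) * algebraMap A F τ ^ l := rfl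
    rw [h1, ← h', inv_pow]
    field_simp
  · have h1 : ((s * algebraMap A ↥O τ ^ k : ↥O) : F) = (s : F) * algebraMap A F τ ^ k := rfl
    rw [h1, mul_assoc, ← h', inv_pow]
    field_simp

/-- (LOC) at every closed point of a chart with two components, given (LOC) at the crossing
points. -/
theorem s34ia_loc (τ : A) (hτ0 : algebraMap A F τ ≠ 0) (O : Subalgebra A F)
    [IsNoetherianRing ↥O] (hfrac : ∀ x : F, ∃ a ∈ O, ∃ s ∈ O, s ≠ 0 ∧ x * s = a)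
    (V₁ V₂ : ValuationSubring F)
    (hτV₁ : algebraMap A F τ ∈ V₁.nonunits) (hτV₂ : algebraMap A F τ ∈ V₂.nonunits)
    (hVτ : ∀ x ∈ O, x ∈ V₁.nonunits → x ∈ V₂.nonunits → ∃ y ∈ O, x = algebraMap A F τ * y)
    (p₁ p₂ : Ideal ↥O) (hp₁ : ∀ x : ↥O, x ∈ p₁ ↔ (x : F) ∈ V₁.nonunits)
    (hp₂ : ∀ x : ↥O, x ∈ p₂ ↔ (x : F) ∈ V₂.nonunits)
    [IsDedekindDomain (↥O ⧸ p₁)] [IsDedekindDomain (↥O ⧸ p₂)]
    (m : ℕ) (hm : 0 < m) (f₀ : F) (hf₀ : f₀ ≠ 0)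
    (hord : ∀ V : ValuationSubring F, (∀ a : A, algebraMap A F a ∈ V) →
        (algebraMap A F τ)⁻¹ ∈ V → IsPrincipalIdealRing V →
        ∃ w : F, w ≠ 0 ∧ f₀ * w ^ m ∈ V ∧ (f₀ * w ^ m)⁻¹ ∈ V)
    (hnode : ∀ 𝔫 : Ideal ↥O, 𝔫.IsMaximal → p₁ ≤ 𝔫 → p₂ ≤ 𝔫 → S34Loc τ m O f₀ 𝔫)
    (𝔫 : Ideal ↥O) (h𝔫 : 𝔫.IsMaximal) (hτ𝔫 : algebraMap A ↥O τ ∈ 𝔫) :
    S34Loc τ m O f₀ 𝔫 := by
  have hprime₁ : p₁.IsPrime := (Ideal.Quotient.isDomain_iff_prime p₁).mp inferInstance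
  have hprime₂ : p₂.IsPrime := (Ideal.Quotient.isDomain_iff_prime p₂).mp inferInstance
  have hτp₁ : algebraMap A ↥O τ ∈ p₁ := (hp₁ _).mpr hτV₁
  have hτp₂ : algebraMap A ↥O τ ∈ p₂ := (hp₂ _).mpr hτV₂
  -- `p₁ ∩ p₂ = τ O`
  have hcap : ∀ z : ↥O, z ∈ p₁ → z ∈ p₂ → algebraMap A ↥O τ ∣ z := by
    intro z h1 h2
    obtain ⟨y, hy, hzy⟩ := hVτ z z.2 ((hp₁ z).mp h1) ((hp₂ z).mp h2)
    exact ⟨⟨y, hy⟩, Subtype.ext hzy⟩
  by_cases h1 : p₁ ≤ 𝔫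
  · by_cases h2 : p₂ ≤ 𝔫
    · exact hnode 𝔫 h𝔫 h1 h2
    · obtain ⟨r, hr, hr𝔫⟩ := Set.not_subset.mp h2
      exact s34ia_loc_one τ hτ0 O hfrac 𝔫 p₁ h1 hτp₁
        (fun y hy => ⟨r, hr𝔫, hcap _ (p₁.mul_mem_left r hy) (p₂.mul_mem_right y hr)⟩)
        m hm f₀ hf₀ hord
  · obtain ⟨r, hr, hr𝔫⟩ := Set.not_subset.mp h1
    have h2 : p₂ ≤ 𝔫 := by
      intro y hy
      have hry : r * y ∈ 𝔫 := by
        obtain ⟨z, hz⟩ := hcap _ (p₁.mul_mem_right y hr) (p₂.mul_mem_left r hy)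
        rw [hz]
        exact 𝔫.mul_mem_right z hτ𝔫
      exact (h𝔫.isPrime.mem_or_mem hry).resolve_left hr𝔫
    exact s34ia_loc_one τ hτ0 O hfrac 𝔫 p₂ h2 hτp₂
      (fun y hy => ⟨r, hr𝔫, hcap _ (p₁.mul_mem_right y hr) (p₂.mul_mem_left r hy)⟩)
      m hm f₀ hf₀ hord

end OneChart

section Main

variable {A0 K0 F : Type*} [CommRing A0] [IsDomain A0] [IsDiscreteValuationRing A0]
  [Field K0] [Algebra A0 K0] [IsFractionRing A0 K0] [CharZero K0]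
  [Field F] [Algebra A0 F] [Algebra K0 F] [IsScalarTower A0 K0 F]

/-- **INST-ABS.**  The abstract assembly of S34: `ulo_main ∘ cht2_all ∘ lh6_main_any`. -/
theorem s34ia_main (V₁ V₂ : ValuationSubring F)
    (hA : ∀ a : A0, algebraMap A0 F a ∈ V₁) (hA₂ : ∀ a : A0, algebraMap A0 F a ∈ V₂)
    {τ : A0} (hτ : Irreducible τ) (hτV : algebraMap A0 F τ ∈ V₁.nonunits)
    (hτV₂ : algebraMap A0 F τ ∈ V₂.nonunits)
    (hτgen₁ : ∀ x ∈ V₁.nonunits, x * (algebraMap A0 F τ)⁻¹ ∈ V₁)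
    (hτgen₂ : ∀ x ∈ V₂.nonunits, x * (algebraMap A0 F τ)⁻¹ ∈ V₂) (t : F)
    (ht : Transcendental K0 t) (htV : t ∈ V₁) (htV' : t⁻¹ ∈ V₁)
    (htV₂ : t ∈ V₂) (htV₂' : t⁻¹ ∈ V₂)
    (hG : ∀ p : A0[X], (∃ i, ¬ τ ∣ p.coeff i) → aeval t p ∉ V₁.nonunits)
    (hfin : ∃ (n : ℕ) (β : Fin n → F), ∀ x : F, ∃ (a : Fin n → A0[X]) (d : A0[X]),
      aeval t d ≠ 0 ∧ aeval t d * x = ∑ i, aeval t (a i) * β i)
    (hex : ∀ O' : ValuationSubring F, ChtSame K0 V₁ t O' → O' = V₁ ∨ O' = V₂)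
    (hconst : ∀ x : F, IsAlgebraic K0 x → ∃ c : K0, algebraMap K0 F c = x)
    (m : ℕ) (hm2 : 2 ≤ m) (hmA : IsUnit (m : A0))
    (σ : F ≃+* F) (ε : A0) (hε : IsUnit ε)
    (hστ : σ (algebraMap A0 F τ) = algebraMap A0 F ε * algebraMap A0 F τ)
    (hσO₀ : ∀ x ∈ chtO A0 {t}, σ x ∈ chtO A0 {t})
    (hσO₁ : ∀ x ∈ chtO A0 {t⁻¹}, σ x ∈ chtO A0 {t⁻¹})
    (hσV₁ : ∀ x ∈ V₁, (σ x - x) * (algebraMap A0 F τ)⁻¹ ∈ V₁)
    (hσV₂ : ∀ x ∈ V₂, (σ x - x) * (algebraMap A0 F τ)⁻¹ ∈ V₂)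
    (hσu₁ : ∀ g : F, g ≠ 0 → σ g * g⁻¹ ∈ V₁) (hσu₂ : ∀ g : F, g ≠ 0 → σ g * g⁻¹ ∈ V₂)
    -- the components of the special fibres of the two charts have Dedekind coordinate rings
    (hD₀ : ∀ (V : ValuationSubring F), V = V₁ ∨ V = V₂ → ∀ 𝔭 : Ideal ↥(chtO A0 {t}),
      (∀ x : ↥(chtO A0 {t}), x ∈ 𝔭 ↔ (x : F) ∈ V.nonunits) →
      IsDedekindDomain (↥(chtO A0 {t}) ⧸ 𝔭))
    (hD₁ : ∀ (V : ValuationSubring F), V = V₁ ∨ V = V₂ → ∀ 𝔭 : Ideal ↥(chtO A0 {t⁻¹}),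
      (∀ x : ↥(chtO A0 {t⁻¹}), x ∈ 𝔭 ↔ (x : F) ∈ V.nonunits) →
      IsDedekindDomain (↥(chtO A0 {t⁻¹}) ⧸ 𝔭))
    (f₀ : F) (hf₀ : f₀ ≠ 0)
    (hdiv : ∀ Q : AlgebraicCurve.Place K0 F, (m : ℤ) ∣ Q.ord f₀)
    -- (LOC) at the crossing points of the two charts
    (hnode₀ : ∀ 𝔫 : Ideal ↥(chtO A0 {t}), 𝔫.IsMaximal →
      (∀ x : ↥(chtO A0 {t}), (x : F) ∈ V₁.nonunits → x ∈ 𝔫) →
      (∀ x : ↥(chtO A0 {t}), (x : F) ∈ V₂.nonunits → x ∈ 𝔫) →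
      S34Loc τ m (chtO A0 {t}) f₀ 𝔫)
    (hnode₁ : ∀ 𝔫 : Ideal ↥(chtO A0 {t⁻¹}), 𝔫.IsMaximal →
      (∀ x : ↥(chtO A0 {t⁻¹}), (x : F) ∈ V₁.nonunits → x ∈ 𝔫) →
      (∀ x : ↥(chtO A0 {t⁻¹}), (x : F) ∈ V₂.nonunits → x ∈ 𝔫) →
      S34Loc τ m (chtO A0 {t⁻¹}) f₀ 𝔫) :
    ∃ (w : K0) (G : F), G ≠ 0 ∧
      σ (σ f₀) * f₀ = algebraMap K0 F w * G ^ m * (σ f₀) ^ 2 := by
  classical
  have hm : 0 < m := by omega
  obtain ⟨h1, h2, h3, ⟨b0, hb0, hspan0⟩, ⟨b1, hb1, hspan1⟩, h01, h10, hfrac0, hroot0, hroot1,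
    hcap, hV0, hV1, hdiv0, hdiv1, hVτ0, hVτ1⟩ :=
    cht2_all (K0 := K0) V₁ V₂ hA hA₂ hτ hτV hτgen₁ hτgen₂ t ht htV htV' htV₂ htV₂' hG hfin hex
      hconst m hm
  have ht0 : t ≠ 0 := left_ne_zero_of_mul_eq_one h1
  have hτmax : τ ∈ IsLocalRing.maximalIdeal A0 := by
    rw [IsLocalRing.mem_maximalIdeal, mem_nonunits_iff]
    exact hτ.not_isUnit
  have hτ0 : algebraMap A0 F τ ≠ 0 := by
    rw [IsScalarTower.algebraMap_apply A0 K0 F, Ne, map_eq_zero,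
      map_eq_zero_iff _ (IsFractionRing.injective A0 K0)]
    exact hτ.ne_zero
  have hτinv₁ : (algebraMap A0 F τ)⁻¹ ∉ V₁ := fun h =>
    cz_one_not_mem_nonunits V₁ (by
      have := cz_nonunits_mul V₁ hτV h
      rwa [mul_inv_cancel₀ hτ0] at this)
  have hτinv₂ : (algebraMap A0 F τ)⁻¹ ∉ V₂ := fun h =>
    cz_one_not_mem_nonunits V₂ (by
      have := cz_nonunits_mul V₂ hτV₂ h
      rwa [mul_inv_cancel₀ hτ0] at this)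
  have hN0 : IsNoetherianRing ↥(chtO A0 {t}) := cz_noeth t _ h2 b0 hb0 hspan0
  have hN1 : IsNoetherianRing ↥(chtO A0 {t⁻¹}) := cz_noeth t⁻¹ _ h3 b1 hb1 hspan1
  have hfrac1 : ∀ x : F, ∃ a ∈ chtO A0 {t⁻¹}, ∃ s ∈ chtO A0 {t⁻¹}, s ≠ 0 ∧ x * s = a := by
    have ht' : Transcendental K0 t⁻¹ := fun h => ht (IsAlgebraic.inv_iff.mp h)
    have htA' : Transcendental A0 t⁻¹ := fun h =>
      ht' (h.extendScalars (IsFractionRing.injective A0 K0))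
    exact cht_hfrac t⁻¹ htA' (cht_hfin_inv (R := A0) t ht0 hfin)
  have hord := cinst_hord (K := K0) τ hτ m f₀ hdiv
  -- the component ideals
  have key : ∀ (O : Subalgebra A0 F) [IsNoetherianRing ↥O]
      (_ : ∀ x : F, ∃ a ∈ O, ∃ s ∈ O, s ≠ 0 ∧ x * s = a)
      (hOV : ∀ x ∈ O, x ∈ V₁ ∧ x ∈ V₂)
      (_ : ∀ x ∈ O, x ∈ V₁.nonunits → x ∈ V₂.nonunits → ∃ y ∈ O, x = algebraMap A0 F τ * y)
      (_ : ∀ (V : ValuationSubring F), V = V₁ ∨ V = V₂ → ∀ 𝔭 : Ideal ↥O,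
        (∀ x : ↥O, x ∈ 𝔭 ↔ (x : F) ∈ V.nonunits) → IsDedekindDomain (↥O ⧸ 𝔭))
      (_ : ∀ 𝔫 : Ideal ↥O, 𝔫.IsMaximal → (∀ x : ↥O, (x : F) ∈ V₁.nonunits → x ∈ 𝔫) →
        (∀ x : ↥O, (x : F) ∈ V₂.nonunits → x ∈ 𝔫) → S34Loc τ m O f₀ 𝔫),
      ∀ 𝔫 : Ideal ↥O, 𝔫.IsMaximal → algebraMap A0 ↥O τ ∈ 𝔫 → S34Loc τ m O f₀ 𝔫 := by
    intro O _ hfracO hOV hVτO hDO hnodeO 𝔫 h𝔫 hτ𝔫
    let φ₁ : ↥O →+* ↥V₁ :=
      { toFun := fun x => ⟨(x : F), (hOV x x.2).1⟩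
        map_one' := rfl
        map_mul' := fun _ _ => rfl
        map_zero' := rfl
        map_add' := fun _ _ => rfl }
    let φ₂ : ↥O →+* ↥V₂ :=
      { toFun := fun x => ⟨(x : F), (hOV x x.2).2⟩
        map_one' := rfl
        map_mul' := fun _ _ => rfl
        map_zero' := rfl
        map_add' := fun _ _ => rfl }
    let p₁ : Ideal ↥O := Ideal.comap φ₁ (IsLocalRing.maximalIdeal ↥V₁)
    let p₂ : Ideal ↥O := Ideal.comap φ₂ (IsLocalRing.maximalIdeal ↥V₂)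
    have hp₁ : ∀ x : ↥O, x ∈ p₁ ↔ (x : F) ∈ V₁.nonunits := by
      intro x
      rw [ValuationSubring.mem_nonunits_iff_exists_mem_maximalIdeal]
      constructor
      · intro hx
        exact ⟨(hOV x x.2).1, hx⟩
      · rintro ⟨_, hx⟩
        exact hx
    have hp₂ : ∀ x : ↥O, x ∈ p₂ ↔ (x : F) ∈ V₂.nonunits := by
      intro x
      rw [ValuationSubring.mem_nonunits_iff_exists_mem_maximalIdeal]
      constructor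
      · intro hx
        exact ⟨(hOV x x.2).2, hx⟩
      · rintro ⟨_, hx⟩
        exact hx
    have hDp₁ : IsDedekindDomain (↥O ⧸ p₁) := hDO V₁ (Or.inl rfl) p₁ hp₁
    have hDp₂ : IsDedekindDomain (↥O ⧸ p₂) := hDO V₂ (Or.inr rfl) p₂ hp₂
    exact s34ia_loc τ hτ0 O hfracO V₁ V₂ hτV hτV₂ hVτO p₁ p₂ hp₁ hp₂ m hm f₀ hf₀ hord
      (fun 𝔫' h𝔫' h1 h2 => hnodeO 𝔫' h𝔫' (fun x hx => h1 ((hp₁ x).mpr hx))
        (fun x hx => h2 ((hp₂ x).mpr hx))) 𝔫 h𝔫 hτ𝔫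
  have hloc₀ := key (chtO A0 {t}) hfrac0 hV0 hVτ0 hD₀ hnode₀
  have hloc₁ := key (chtO A0 {t⁻¹}) hfrac1 hV1 hVτ1 hD₁ hnode₁
  obtain ⟨w, G, hG0, hwG⟩ := ulo_main (A := A0) (F := F) τ hτmax m hm2 hmA t ht0
    (chtO A0 {t}) (chtO A0 {t⁻¹}) V₁ V₂ h2 h3 h01 h10 hroot0 hroot1 ⟨b0, hb0, hspan0⟩
    (fun x => by
      obtain ⟨a, ha, s, hs, hs0, h⟩ := hfrac0 x
      exact ⟨s, hs, hs0, by rw [mul_comm, h]; exact ha⟩)
    hV0 hV1 hτinv₁ hτinv₂ hdiv0 hdiv1 hcap σ ε hε hστ hσO₀ hσO₁ hσV₁ hσV₂ hσu₁ hσu₂ f₀ hf₀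
    hloc₀ hloc₁
  exact ⟨algebraMap A0 K0 w, G, hG0, by rw [hwG, IsScalarTower.algebraMap_apply A0 K0 F]⟩

end Main

end Fermat.Agent.S34
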