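import Mathlib
import Fermat.Agent.S34.InstAbs

/-!
# S34, package F-INST, part 2 (INST-ABS, final form): the abstract assembly with swap transfer

`s34ia_main` (file `InstAbs.lean`) asks for Dedekind coordinate rings of BOTH components of the
special fibre of each chart.  For the second component this is not available directly.  Here
the closed points lying on the second component only are treated by TRANSFER along the swap
automorphism `w` of `F`: (LOC) is a statement about the local ring only, and if `w` maps a chart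
`O'` into the local ring `O_𝔫`, then (LOC) at the centre of `𝔫` on `O'` (a point on the FIRST
component, for the function `w⁻¹ f₀`) gives (LOC) at `𝔫` for `f₀`.

* `s34ib_hord_symm`: the valuation-subring form of `m ∣ ord` is stable under automorphisms.
* `s34ib_loc_on`: (LOC) at the closed points on the first component (Dedekind component or
  crossing point).
* `s34ib_transfer`, `s34ib_centre`, `s34ib_dom`: the transfer, the centre, and domination from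
  one generator.
* `s34ib_loc_off`: (LOC) at the closed points off the first component.
* `s34ib_main`: the abstract assembly.
-/

set_option autoImplicit false

open Polynomial

namespace Fermat.Agent.S34

open Fermat.Agent.S18

section Transfer

variable {A F : Type*} [CommRing A] [Field F] [Algebra A F]

/-- Transport of the valuation-subring form of `m ∣ ord` along a ring automorphism fixing
`A`. -/
theorem s34ib_hord_symm (τ : A) (w : F ≃+* F)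
    (hwA : ∀ a : A, w (algebraMap A F a) = algebraMap A F a) (m : ℕ) (f₀ : F)
    (hord : ∀ V : ValuationSubring F, (∀ a : A, algebraMap A F a ∈ V) →
        (algebraMap A F τ)⁻¹ ∈ V → IsPrincipalIdealRing V →
        ∃ u : F, u ≠ 0 ∧ f₀ * u ^ m ∈ V ∧ (f₀ * u ^ m)⁻¹ ∈ V)
    (V : ValuationSubring F) (hAV : ∀ a : A, algebraMap A F a ∈ V)
    (hτV : (algebraMap A F τ)⁻¹ ∈ V) (hV : IsPrincipalIdealRing V) :
    ∃ u : F, u ≠ 0 ∧ w.symm f₀ * u ^ m ∈ V ∧ (w.symm f₀ * u ^ m)⁻¹ ∈ V := by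
  have hwA' : ∀ a : A, w.symm (algebraMap A F a) = algebraMap A F a := fun a => by
    rw [RingEquiv.symm_apply_eq, hwA]
  let V' : ValuationSubring F := V.comap (w.symm : F →+* F)
  have hmem : ∀ x, x ∈ V' ↔ w.symm x ∈ V := fun x => Iff.rfl
  let φ : ↥V →+* ↥V' :=
    { toFun := fun x => ⟨w x, by rw [hmem, RingEquiv.symm_apply_apply]; exact x.2⟩
      map_one' := Subtype.ext (map_one w)
      map_mul' := fun x y => Subtype.ext (map_mul w _ _)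
      map_zero' := Subtype.ext (map_zero w)
      map_add' := fun x y => Subtype.ext (map_add w _ _) }
  have hφ : Function.Surjective φ := fun y =>
    ⟨⟨w.symm y, (hmem _).mp y.2⟩, Subtype.ext (w.apply_symm_apply _)⟩
  have hV' : IsPrincipalIdealRing ↥V' := IsPrincipalIdealRing.of_surjective φ hφ
  obtain ⟨u, hu, h1, h2⟩ := hord V' (fun a => by rw [hmem, hwA']; exact hAV a)
    (by rw [hmem, map_inv₀, hwA']; exact hτV) hV'
  refine ⟨w.symm u, by simpa using hu, ?_, ?_⟩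
  · have := (hmem _).mp h1
    rwa [map_mul, map_pow] at this
  · have := (hmem _).mp h2
    rwa [map_inv₀, map_mul, map_pow] at this

/-- (LOC) at a closed point lying on the first component of the special fibre: either it lies
on the first component only (`s34ia_loc_one`), or it is a crossing point. -/
theorem s34ib_loc_on (τ : A) (hτ0 : algebraMap A F τ ≠ 0) (O : Subalgebra A F)
    [IsNoetherianRing ↥O] (hfrac : ∀ x : F, ∃ a ∈ O, ∃ s ∈ O, s ≠ 0 ∧ x * s = a)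
    (V₁ V₂ : ValuationSubring F) (hOV : ∀ x ∈ O, x ∈ V₁ ∧ x ∈ V₂)
    (hτV₁ : algebraMap A F τ ∈ V₁.nonunits)
    (hVτ : ∀ x ∈ O, x ∈ V₁.nonunits → x ∈ V₂.nonunits → ∃ y ∈ O, x = algebraMap A F τ * y)
    (hD : ∀ 𝔭 : Ideal ↥O, (∀ x : ↥O, x ∈ 𝔭 ↔ (x : F) ∈ V₁.nonunits) →
      IsDedekindDomain (↥O ⧸ 𝔭))
    (m : ℕ) (hm : 0 < m) (f : F) (hf : f ≠ 0)
    (hord : ∀ V : ValuationSubring F, (∀ a : A, algebraMap A F a ∈ V) →
        (algebraMap A F τ)⁻¹ ∈ V → IsPrincipalIdealRing V →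
        ∃ u : F, u ≠ 0 ∧ f * u ^ m ∈ V ∧ (f * u ^ m)⁻¹ ∈ V)
    (hnode : ∀ 𝔫 : Ideal ↥O, 𝔫.IsMaximal → (∀ x : ↥O, (x : F) ∈ V₁.nonunits → x ∈ 𝔫) →
        (∀ x : ↥O, (x : F) ∈ V₂.nonunits → x ∈ 𝔫) → S34Loc τ m O f 𝔫)
    (𝔫 : Ideal ↥O) (h𝔫 : 𝔫.IsMaximal)
    (h1 : ∀ x : ↥O, (x : F) ∈ V₁.nonunits → x ∈ 𝔫) : S34Loc τ m O f 𝔫 := by
  classical
  by_cases h2 : ∀ x : ↥O, (x : F) ∈ V₂.nonunits → x ∈ 𝔫
  · exact hnode 𝔫 h𝔫 h1 h2
  · push Not at h2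
    obtain ⟨r, hr, hr𝔫⟩ := h2
    let φ₁ : ↥O →+* ↥V₁ :=
      { toFun := fun x => ⟨(x : F), (hOV x x.2).1⟩
        map_one' := rfl
        map_mul' := fun _ _ => rfl
        map_zero' := rfl
        map_add' := fun _ _ => rfl }
    let p₁ : Ideal ↥O := Ideal.comap φ₁ (IsLocalRing.maximalIdeal ↥V₁)
    have hp₁ : ∀ x : ↥O, x ∈ p₁ ↔ (x : F) ∈ V₁.nonunits := by
      intro x
      rw [ValuationSubring.mem_nonunits_iff_exists_mem_maximalIdeal]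
      constructor
      · intro hx
        exact ⟨(hOV x x.2).1, hx⟩
      · rintro ⟨_, hx⟩
        exact hx
    have hDp₁ : IsDedekindDomain (↥O ⧸ p₁) := hD p₁ hp₁
    have hprime₁ : p₁.IsPrime := (Ideal.Quotient.isDomain_iff_prime p₁).mp inferInstance
    refine s34ia_loc_one τ hτ0 O hfrac 𝔫 p₁ (fun x hx => h1 x ((hp₁ x).mp hx))
      ((hp₁ _).mpr hτV₁) (fun y hy => ⟨r, hr𝔫, ?_⟩) m hm f hf hord
    obtain ⟨z, hz, hzy⟩ := hVτ ((r : F) * (y : F)) (O.mul_mem r.2 y.2)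
      (by rw [mul_comm]; exact cz_nonunits_mul V₁ ((hp₁ y).mp hy) (hOV r r.2).1)
      (cz_nonunits_mul V₂ hr (hOV y y.2).2)
    exact ⟨⟨z, hz⟩, Subtype.ext hzy⟩

/-- (LOC) transfers along a ring automorphism `w` mapping the chart `O'` into the local ring
of `O` at `𝔫`, elements outside `𝔫'` going to units. -/
theorem s34ib_transfer (τ : A) (m : ℕ) (O O' : Subalgebra A F) (w : F ≃+* F)
    (hwA : ∀ a : A, w (algebraMap A F a) = algebraMap A F a)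
    (𝔫 : Ideal ↥O) [h𝔫 : 𝔫.IsPrime] (𝔫' : Ideal ↥O')
    (hdom : ∀ x : ↥O', ∃ a s : ↥O, s ∉ 𝔫 ∧ w (x : F) * (s : F) = a)
    (hunit : ∀ x : ↥O', x ∉ 𝔫' → ∃ a s : ↥O, a ∉ 𝔫 ∧ s ∉ 𝔫 ∧ w (x : F) * (s : F) = a)
    (f₁ : F) (h : S34Loc τ m O' f₁ 𝔫') : S34Loc τ m O (w f₁) 𝔫 := by
  obtain ⟨g, hg, a, b, s, s', k, l, hs, hs', e1, e2⟩ := h
  obtain ⟨as, ss, has, hss, es⟩ := hunit s hs
  obtain ⟨as', ss', has', hss', es'⟩ := hunit s' hs'
  obtain ⟨aa, sa, hsa, ea⟩ := hdom a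
  obtain ⟨ab, sb, hsb, eb⟩ := hdom b
  have e1' := congrArg w e1
  have e2' := congrArg w e2
  simp only [map_mul, map_pow, hwA] at e1' e2'
  refine ⟨w g, by simpa using hg, aa * ss, ab * ss', as * sa, as' * sb, k, l,
    fun hc => (h𝔫.mem_or_mem hc).elim has hsa, fun hc => (h𝔫.mem_or_mem hc).elim has' hsb,
    ?_, ?_⟩
  · show w f₁ * ((as : F) * (sa : F)) * algebraMap A F τ ^ k
      = ((aa : F) * (ss : F)) * w g ^ m
    rw [← es, ← ea]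
    linear_combination (ss : F) * (sa : F) * e1'
  · show w g ^ m * ((as' : F) * (sb : F)) * algebraMap A F τ ^ l
      = ((ab : F) * (ss' : F)) * w f₁
    rw [← es', ← eb]
    linear_combination (ss' : F) * (sb : F) * e2'

/-- The centre on the chart `O'` of the closed point `𝔫` of `O`, seen through `w`: a proper
ideal containing `τ` and the first component. -/
theorem s34ib_centre (τ : A) (O O' : Subalgebra A F) (w : F ≃+* F)
    (hwA : ∀ a : A, w (algebraMap A F a) = algebraMap A F a)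
    (V₁ V₂ : ValuationSubring F) (hOV₂ : ∀ x ∈ O, x ∈ V₂)
    (hwV : ∀ x ∈ V₁.nonunits, w x ∈ V₂.nonunits)
    (𝔫 : Ideal ↥O) [h𝔫 : 𝔫.IsPrime] (hτ𝔫 : algebraMap A ↥O τ ∈ 𝔫)
    (hp₂ : ∀ x : ↥O, (x : F) ∈ V₂.nonunits → x ∈ 𝔫)
    (hdom : ∀ x : ↥O', ∃ a s : ↥O, s ∉ 𝔫 ∧ w (x : F) * (s : F) = a) :
    ∃ 𝔫' : Ideal ↥O', 𝔫' ≠ ⊤ ∧ algebraMap A ↥O' τ ∈ 𝔫' ∧
      (∀ x : ↥O', (x : F) ∈ V₁.nonunits → x ∈ 𝔫') ∧
      (∀ x : ↥O', x ∉ 𝔫' → ∃ a s : ↥O, a ∉ 𝔫 ∧ s ∉ 𝔫 ∧ w (x : F) * (s : F) = a) := by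
  have h1 : (1 : ↥O) ∉ 𝔫 := fun h => h𝔫.ne_top ((Ideal.eq_top_iff_one _).mpr h)
  let 𝔫' : Ideal ↥O' :=
    { carrier := {x | ∃ a s : ↥O, a ∈ 𝔫 ∧ s ∉ 𝔫 ∧ w (x : F) * (s : F) = a}
      add_mem' := by
        rintro x y ⟨a, s, ha, hs, e⟩ ⟨b, r, hb, hr, e'⟩
        refine ⟨a * r + b * s, s * r, 𝔫.add_mem (𝔫.mul_mem_right _ ha) (𝔫.mul_mem_right _ hb),
          fun hc => (h𝔫.mem_or_mem hc).elim hs hr, ?_⟩
        show w ((x : F) + (y : F)) * ((s : F) * (r : F)) = (a : F) * (r : F) + (b : F) * (s : F)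
        rw [map_add, ← e, ← e']
        ring
      zero_mem' := ⟨0, 1, 𝔫.zero_mem, h1, by simp⟩
      smul_mem' := by
        rintro c x ⟨a, s, ha, hs, e⟩
        obtain ⟨b, r, hr, e'⟩ := hdom c
        refine ⟨b * a, r * s, 𝔫.mul_mem_left _ ha, fun hc => (h𝔫.mem_or_mem hc).elim hr hs, ?_⟩
        show w ((c : F) * (x : F)) * ((r : F) * (s : F)) = (b : F) * (a : F)
        rw [map_mul, ← e, ← e']
        ring }
  have hmem : ∀ x : ↥O', x ∈ 𝔫' ↔ ∃ a s : ↥O, a ∈ 𝔫 ∧ s ∉ 𝔫 ∧ w (x : F) * (s : F) = a :=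
    fun x => Iff.rfl
  refine ⟨𝔫', ?_, ?_, ?_, ?_⟩
  · intro htop
    have : (1 : ↥O') ∈ 𝔫' := by rw [htop]; trivial
    obtain ⟨a, s, ha, hs, e⟩ := (hmem 1).mp this
    have e' : (s : F) = (a : F) := by simpa using e
    exact hs (by rw [Subtype.ext e']; exact ha)
  · refine (hmem _).mpr ⟨algebraMap A ↥O τ, 1, hτ𝔫, h1, ?_⟩
    show w (algebraMap A F τ) * ((1 : ↥O) : F) = algebraMap A F τ
    rw [hwA]
    simp
  · intro x hx
    obtain ⟨a, s, hs, e⟩ := hdom x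
    refine (hmem x).mpr ⟨a, s, hp₂ a ?_, hs, e⟩
    rw [← e]
    exact cz_nonunits_mul V₂ (hwV _ hx) (hOV₂ s s.2)
  · intro x hx
    obtain ⟨a, s, hs, e⟩ := hdom x
    exact ⟨a, s, fun ha => hx ((hmem x).mpr ⟨a, s, ha, hs, e⟩), hs, e⟩

/-- Domination of a chart from its generator: if `w t'` lies in the local ring at `𝔫` of the
integrally closed chart `O`, then `w` maps the whole chart `chtO A {t'}` into that local
ring. -/
theorem s34ib_dom (O : Subalgebra A F) (hO : ∀ x : F, IsIntegral ↥O x → x ∈ O) (t' : F)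
    (w : F ≃+* F) (hwA : ∀ a : A, w (algebraMap A F a) = algebraMap A F a)
    (𝔫 : Ideal ↥O) [h𝔫 : 𝔫.IsPrime]
    (ht' : ∃ a s : ↥O, s ∉ 𝔫 ∧ w t' * (s : F) = a) (x : ↥(chtO A {t'})) :
    ∃ a s : ↥O, s ∉ 𝔫 ∧ w (x : F) * (s : F) = a := by
  classical
  have h1 : (1 : ↥O) ∉ 𝔫 := fun h => h𝔫.ne_top ((Ideal.eq_top_iff_one _).mpr h)
  -- the local ring of `O` at `𝔫`, as a subalgebra of `F`
  let S : Subalgebra A F :=
    { carrier := {y | ∃ a s : ↥O, s ∉ 𝔫 ∧ y * (s : F) = a}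
      mul_mem' := by
        rintro y y' ⟨a, s, hs, e⟩ ⟨b, r, hr, e'⟩
        refine ⟨a * b, s * r, fun hc => (h𝔫.mem_or_mem hc).elim hs hr, ?_⟩
        show y * y' * ((s : F) * (r : F)) = (a : F) * (b : F)
        rw [← e, ← e']
        ring
      add_mem' := by
        rintro y y' ⟨a, s, hs, e⟩ ⟨b, r, hr, e'⟩
        refine ⟨a * r + b * s, s * r, fun hc => (h𝔫.mem_or_mem hc).elim hs hr, ?_⟩
        show (y + y') * ((s : F) * (r : F)) = (a : F) * (r : F) + (b : F) * (s : F)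
        rw [← e, ← e']
        ring
      algebraMap_mem' := fun c => ⟨algebraMap A ↥O c, 1, h1, by
        show algebraMap A F c * ((1 : ↥O) : F) = algebraMap A F c
        simp⟩ }
  have hS : ∀ y : F, y ∈ S ↔ ∃ a s : ↥O, s ∉ 𝔫 ∧ y * (s : F) = a := fun y => Iff.rfl
  let wA : F →ₐ[A] F := { (w : F →+* F) with commutes' := hwA }
  have hwA_apply : ∀ y : F, wA y = w y := fun y => rfl
  -- the image of `A[t']` lies in `S`
  have hadj : ∀ c ∈ Algebra.adjoin A {t'}, w c ∈ S := by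
    intro c hc
    have h2 : wA c ∈ (Algebra.adjoin A {t'}).map wA := Subalgebra.mem_map.mpr ⟨c, hc, rfl⟩
    rw [AlgHom.map_adjoin_singleton] at h2
    have h3 : Algebra.adjoin A {wA t'} ≤ S := by
      refine Algebra.adjoin_le ?_
      rintro y rfl
      exact (hS _).mpr ht'
    exact h3 h2
  -- a monic equation for `w x` with coefficients in `S`
  obtain ⟨p, hp, hpc, hpx⟩ := cht_mem_iff_poly.mp x.2
  let q : F[X] := p.map (w : F →+* F)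
  have hq : q.Monic := hp.map _
  have hqc : ∀ i, q.coeff i ∈ S := fun i => by
    show (p.map (w : F →+* F)).coeff i ∈ S
    rw [Polynomial.coeff_map]
    exact hadj _ (hpc i)
  have hqx : q.eval (w (x : F)) = 0 := by
    show (p.map (w : F →+* F)).eval ((w : F →+* F) (x : F)) = 0
    rw [Polynomial.eval_map_apply, hpx, map_zero]
  -- a common denominator
  choose a s hs e using fun i => (hS _).mp (hqc i)
  let n := q.natDegree
  let d : ↥O := ∏ i ∈ Finset.range n, s i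
  have hd : d ∉ 𝔫 := by
    have : d ∈ 𝔫.primeCompl := Submonoid.prod_mem _ (fun i _ => hs i)
    exact this
  have hcd : ∀ i < n, q.coeff i * (d : F) ∈ O := by
    intro i hi
    have h2 : d = s i * ∏ j ∈ (Finset.range n).erase i, s j :=
      (Finset.mul_prod_erase _ _ (Finset.mem_range.mpr hi)).symm
    have h3 : q.coeff i * (d : F)
        = ((a i * ∏ j ∈ (Finset.range n).erase i, s j : ↥O) : F) := by
      rw [h2]
      show q.coeff i * ((s i : F) * ((∏ j ∈ (Finset.range n).erase i, s j : ↥O) : F))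
        = (a i : F) * ((∏ j ∈ (Finset.range n).erase i, s j : ↥O) : F)
      rw [← e i]
      ring
    rw [h3]
    exact Subtype.property _
  -- `d * w x` is integral over `O`
  have hint : IsIntegral ↥O ((d : F) * w (x : F)) := by
    rw [cht_isIntegral_iff]
    refine ⟨q.scaleRoots (d : F), (Polynomial.monic_scaleRoots_iff _).mpr hq, fun i => ?_, ?_⟩
    · rw [Polynomial.coeff_scaleRoots]
      rcases lt_trichotomy i n with hi | hi | hi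
      · obtain ⟨k, hk⟩ : ∃ k, q.natDegree - i = k + 1 :=
          ⟨n - i - 1, by show n - i = _; omega⟩
        have h2 : q.coeff i * (d : F) ^ (k + 1) = q.coeff i * (d : F) * (d : F) ^ k := by ring
        rw [hk, h2]
        exact O.mul_mem (hcd i hi) (O.pow_mem d.2 _)
      · rw [hi]
        show q.coeff q.natDegree * (d : F) ^ (q.natDegree - q.natDegree) ∈ O
        rw [Nat.sub_self, pow_zero, mul_one]
        have : q.coeff q.natDegree = 1 := hq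
        rw [this]
        exact O.one_mem
      · rw [Polynomial.coeff_eq_zero_of_natDegree_lt hi, zero_mul]
        exact O.zero_mem
    · have h2 := Polynomial.scaleRoots_eval₂_eq_zero (p := q) (RingHom.id F) (r := w (x : F))
        (s := (d : F)) (by rw [Polynomial.eval₂_id]; exact hqx)
      rw [Polynomial.eval₂_id] at h2
      exact h2
  exact ⟨⟨(d : F) * w (x : F), hO _ hint⟩, d, hd, mul_comm _ _⟩

/-- (LOC) at a closed point `𝔫` of the chart `O` lying off the first component, by transfer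
from the chart `O'` along `w`. -/
theorem s34ib_loc_off (τ : A) (O O' : Subalgebra A F) (w : F ≃+* F)
    (hwA : ∀ a : A, w (algebraMap A F a) = algebraMap A F a)
    (V₁ V₂ : ValuationSubring F) (hOV : ∀ x ∈ O, x ∈ V₁ ∧ x ∈ V₂)
    (hVτ : ∀ x ∈ O, x ∈ V₁.nonunits → x ∈ V₂.nonunits → ∃ y ∈ O, x = algebraMap A F τ * y)
    (hwV : ∀ x ∈ V₁.nonunits, w x ∈ V₂.nonunits) (m : ℕ) (f₀ : F)
    (hloc' : ∀ 𝔫' : Ideal ↥O', 𝔫'.IsMaximal →
      (∀ x : ↥O', (x : F) ∈ V₁.nonunits → x ∈ 𝔫') → S34Loc τ m O' (w.symm f₀) 𝔫')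
    (𝔫 : Ideal ↥O) (h𝔫 : 𝔫.IsMaximal) (hτ𝔫 : algebraMap A ↥O τ ∈ 𝔫)
    (hoff : ∃ r : ↥O, (r : F) ∈ V₁.nonunits ∧ r ∉ 𝔫)
    (hdom : ∀ x : ↥O', ∃ a s : ↥O, s ∉ 𝔫 ∧ w (x : F) * (s : F) = a) :
    S34Loc τ m O f₀ 𝔫 := by
  have hprime : 𝔫.IsPrime := h𝔫.isPrime
  obtain ⟨r, hr, hr𝔫⟩ := hoff
  have hp₂ : ∀ y : ↥O, (y : F) ∈ V₂.nonunits → y ∈ 𝔫 := by
    intro y hy
    obtain ⟨z, hz, hzy⟩ := hVτ ((r : F) * (y : F)) (O.mul_mem r.2 y.2)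
      (cz_nonunits_mul V₁ hr (hOV y y.2).1)
      (by rw [mul_comm]; exact cz_nonunits_mul V₂ hy (hOV r r.2).2)
    have hry : r * y ∈ 𝔫 := by
      have : r * y = algebraMap A ↥O τ * ⟨z, hz⟩ := Subtype.ext hzy
      rw [this]
      exact 𝔫.mul_mem_right _ hτ𝔫
    exact (hprime.mem_or_mem hry).resolve_left hr𝔫
  obtain ⟨𝔫', htop, -, hp₁', hunit⟩ := s34ib_centre τ O O' w hwA V₁ V₂
    (fun x hx => (hOV x hx).2) hwV 𝔫 hτ𝔫 hp₂ hdom
  obtain ⟨𝔫'', hmax, hle⟩ := Ideal.exists_le_maximal 𝔫' htop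
  have h := hloc' 𝔫'' hmax (fun x hx => hle (hp₁' x hx))
  have h2 := s34ib_transfer τ m O O' w hwA 𝔫 𝔫'' hdom
    (fun x hx => hunit x (fun hx' => hx (hle hx'))) (w.symm f₀) h
  rwa [RingEquiv.apply_symm_apply] at h2

end Transfer

section Main

variable {A0 K0 F : Type*} [CommRing A0] [IsDomain A0] [IsDiscreteValuationRing A0]
  [Field K0] [Algebra A0 K0] [IsFractionRing A0 K0] [CharZero K0]
  [Field F] [Algebra A0 F] [Algebra K0 F] [IsScalarTower A0 K0 F]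

/-- **INST-ABS, final form.**  The abstract assembly of S34:
`ulo_main ∘ cht2_all ∘ lh6_main_any`, the closed points off the first component being treated
by transfer along the swap `w`.  With respect to `s34ia_main`: the Dedekind hypothesis is asked
for the first component only; new data `w` (fixing `A0`, mapping `𝔪_{V₁}` into `𝔪_{V₂}`);
domination (`w t` or `w t⁻¹` lies in the local ring of each closed point off the first
component); (LOC) at the crossing points for the two functions `f₀` and `w⁻¹ f₀`. -/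
theorem s34ib_main (V₁ V₂ : ValuationSubring F)
    (hA : ∀ a : A0, algebraMap A0 F a ∈ V₁) (hA₂ : ∀ a : A0, algebraMap A0 F a ∈ V₂)
    {τ : A0} (hτ : Irreducible τ) (hτV : algebraMap A0 F τ ∈ V₁.nonunits)
    (hτV₂ : algebraMap A0 F τ ∈ V₂.nonunits)
    (hτgen₁ : ∀ x ∈ V₁.nonunits, x * (algebraMap A0 F τ)⁻¹ ∈ V₁)
    (hτgen₂ : ∀ x ∈ V₂.nonunits, x * (algebraMap A0 F τ)⁻¹ ∈ V₂) (t : F)
    (ht : Transcendental K0 t) (htV : t ∈ V₁) (htV' : t⁻¹ ∈ V₁)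
    (htV₂ : t ∈ V₂) (htV₂' : t⁻¹ ∈ V₂)
    (hG : ∀ p : A0[X], (∃ i, ¬ τ ∣ p.coeff i) → aeval t p ∉ V₁.nonunits)
    (hfin : ∃ (n : ℕ) (β : Fin n → F), ∀ x : F, ∃ (a : Fin n → A0[X]) (d : A0[X]),
      aeval t d ≠ 0 ∧ aeval t d * x = ∑ i, aeval t (a i) * β i)
    (hex : ∀ O' : ValuationSubring F, ChtSame K0 V₁ t O' → O' = V₁ ∨ O' = V₂)
    (hconst : ∀ x : F, IsAlgebraic K0 x → ∃ c : K0, algebraMap K0 F c = x)
    (m : ℕ) (hm2 : 2 ≤ m) (hmA : IsUnit (m : A0))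
    (σ : F ≃+* F) (ε : A0) (hε : IsUnit ε)
    (hστ : σ (algebraMap A0 F τ) = algebraMap A0 F ε * algebraMap A0 F τ)
    (hσO₀ : ∀ x ∈ chtO A0 {t}, σ x ∈ chtO A0 {t})
    (hσO₁ : ∀ x ∈ chtO A0 {t⁻¹}, σ x ∈ chtO A0 {t⁻¹})
    (hσV₁ : ∀ x ∈ V₁, (σ x - x) * (algebraMap A0 F τ)⁻¹ ∈ V₁)
    (hσV₂ : ∀ x ∈ V₂, (σ x - x) * (algebraMap A0 F τ)⁻¹ ∈ V₂)
    (hσu₁ : ∀ g : F, g ≠ 0 → σ g * g⁻¹ ∈ V₁) (hσu₂ : ∀ g : F, g ≠ 0 → σ g * g⁻¹ ∈ V₂)
    -- the swap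
    (w : F ≃+* F) (hwA : ∀ a : A0, w (algebraMap A0 F a) = algebraMap A0 F a)
    (hwV : ∀ x ∈ V₁.nonunits, w x ∈ V₂.nonunits)
    -- the FIRST component of the special fibre of each chart has a Dedekind coordinate ring
    (hD₀ : ∀ 𝔭 : Ideal ↥(chtO A0 {t}),
      (∀ x : ↥(chtO A0 {t}), x ∈ 𝔭 ↔ (x : F) ∈ V₁.nonunits) →
      IsDedekindDomain (↥(chtO A0 {t}) ⧸ 𝔭))
    (hD₁ : ∀ 𝔭 : Ideal ↥(chtO A0 {t⁻¹}),
      (∀ x : ↥(chtO A0 {t⁻¹}), x ∈ 𝔭 ↔ (x : F) ∈ V₁.nonunits) →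
      IsDedekindDomain (↥(chtO A0 {t⁻¹}) ⧸ 𝔭))
    -- domination: at a closed point off the first component, `w t` or `w t⁻¹` is regular
    (hdom₀ : ∀ 𝔫 : Ideal ↥(chtO A0 {t}), 𝔫.IsMaximal →
      algebraMap A0 ↥(chtO A0 {t}) τ ∈ 𝔫 →
      (∃ r : ↥(chtO A0 {t}), (r : F) ∈ V₁.nonunits ∧ r ∉ 𝔫) →
      (∃ a s : ↥(chtO A0 {t}), s ∉ 𝔫 ∧ w t * (s : F) = a) ∨
      (∃ a s : ↥(chtO A0 {t}), s ∉ 𝔫 ∧ w t⁻¹ * (s : F) = a))
    (hdom₁ : ∀ 𝔫 : Ideal ↥(chtO A0 {t⁻¹}), 𝔫.IsMaximal →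
      algebraMap A0 ↥(chtO A0 {t⁻¹}) τ ∈ 𝔫 →
      (∃ r : ↥(chtO A0 {t⁻¹}), (r : F) ∈ V₁.nonunits ∧ r ∉ 𝔫) →
      (∃ a s : ↥(chtO A0 {t⁻¹}), s ∉ 𝔫 ∧ w t * (s : F) = a) ∨
      (∃ a s : ↥(chtO A0 {t⁻¹}), s ∉ 𝔫 ∧ w t⁻¹ * (s : F) = a))
    (f₀ : F) (hf₀ : f₀ ≠ 0)
    (hdiv : ∀ Q : AlgebraicCurve.Place K0 F, (m : ℤ) ∣ Q.ord f₀)
    -- (LOC) at the crossing points of the two charts, for `f₀` and `w⁻¹ f₀`
    (hnode₀ : ∀ f : F, f = f₀ ∨ f = w.symm f₀ →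
      ∀ 𝔫 : Ideal ↥(chtO A0 {t}), 𝔫.IsMaximal →
      (∀ x : ↥(chtO A0 {t}), (x : F) ∈ V₁.nonunits → x ∈ 𝔫) →
      (∀ x : ↥(chtO A0 {t}), (x : F) ∈ V₂.nonunits → x ∈ 𝔫) →
      S34Loc τ m (chtO A0 {t}) f 𝔫)
    (hnode₁ : ∀ f : F, f = f₀ ∨ f = w.symm f₀ →
      ∀ 𝔫 : Ideal ↥(chtO A0 {t⁻¹}), 𝔫.IsMaximal →
      (∀ x : ↥(chtO A0 {t⁻¹}), (x : F) ∈ V₁.nonunits → x ∈ 𝔫) →
      (∀ x : ↥(chtO A0 {t⁻¹}), (x : F) ∈ V₂.nonunits → x ∈ 𝔫) →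
      S34Loc τ m (chtO A0 {t⁻¹}) f 𝔫) :
    ∃ (c : K0) (G : F), G ≠ 0 ∧
      σ (σ f₀) * f₀ = algebraMap K0 F c * G ^ m * (σ f₀) ^ 2 := by
  classical
  have hm : 0 < m := by omega
  obtain ⟨h1, h2, h3, ⟨b0, hb0, hspan0⟩, ⟨b1, hb1, hspan1⟩, h01, h10, hfrac0, hroot0, hroot1,
    hcap, hV0, hV1, hdiv0, hdiv1, hVτ0, hVτ1⟩ :=
    cht2_all (K0 := K0) V₁ V₂ hA hA₂ hτ hτV hτgen₁ hτgen₂ t ht htV htV' htV₂ htV₂' hG hfin hex
      hconst m hm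
  have ht0 : t ≠ 0 := left_ne_zero_of_mul_eq_one h1
  have hτmax : τ ∈ IsLocalRing.maximalIdeal A0 := by
    rw [IsLocalRing.mem_maximalIdeal, mem_nonunits_iff]
    exact hτ.not_isUnit
  have hτ0 : algebraMap A0 F τ ≠ 0 := by
    rw [IsScalarTower.algebraMap_apply A0 K0 F, Ne, map_eq_zero,
      map_eq_zero_iff _ (IsFractionRing.injective A0 K0)]
    exact hτ.ne_zero
  have hτinv₁ : (algebraMap A0 F τ)⁻¹ ∉ V₁ := fun h =>
    cz_one_not_mem_nonunits V₁ (by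
      have := cz_nonunits_mul V₁ hτV h
      rwa [mul_inv_cancel₀ hτ0] at this)
  have hτinv₂ : (algebraMap A0 F τ)⁻¹ ∉ V₂ := fun h =>
    cz_one_not_mem_nonunits V₂ (by
      have := cz_nonunits_mul V₂ hτV₂ h
      rwa [mul_inv_cancel₀ hτ0] at this)
  have hN0 : IsNoetherianRing ↥(chtO A0 {t}) := cz_noeth t _ h2 b0 hb0 hspan0
  have hN1 : IsNoetherianRing ↥(chtO A0 {t⁻¹}) := cz_noeth t⁻¹ _ h3 b1 hb1 hspan1
  have hfrac1 : ∀ x : F, ∃ a ∈ chtO A0 {t⁻¹}, ∃ s ∈ chtO A0 {t⁻¹}, s ≠ 0 ∧ x * s = a := by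
    have ht' : Transcendental K0 t⁻¹ := fun h => ht (IsAlgebraic.inv_iff.mp h)
    have htA' : Transcendental A0 t⁻¹ := fun h =>
      ht' (h.extendScalars (IsFractionRing.injective A0 K0))
    exact cht_hfrac t⁻¹ htA' (cht_hfin_inv (R := A0) t ht0 hfin)
  have hord := cinst_hord (K := K0) τ hτ m f₀ hdiv
  have hordw := s34ib_hord_symm τ w hwA m f₀ hord
  have hfw : w.symm f₀ ≠ 0 := by simpa using hf₀
  -- (LOC) at the closed points on the first component, for both functions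
  have hon : ∀ (O : Subalgebra A0 F) [IsNoetherianRing ↥O]
      (_ : ∀ x : F, ∃ a ∈ O, ∃ s ∈ O, s ≠ 0 ∧ x * s = a)
      (_ : ∀ x ∈ O, x ∈ V₁ ∧ x ∈ V₂)
      (_ : ∀ x ∈ O, x ∈ V₁.nonunits → x ∈ V₂.nonunits → ∃ y ∈ O, x = algebraMap A0 F τ * y)
      (_ : ∀ 𝔭 : Ideal ↥O, (∀ x : ↥O, x ∈ 𝔭 ↔ (x : F) ∈ V₁.nonunits) →
        IsDedekindDomain (↥O ⧸ 𝔭))
      (_ : ∀ f : F, f = f₀ ∨ f = w.symm f₀ → ∀ 𝔫 : Ideal ↥O, 𝔫.IsMaximal →
        (∀ x : ↥O, (x : F) ∈ V₁.nonunits → x ∈ 𝔫) →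
        (∀ x : ↥O, (x : F) ∈ V₂.nonunits → x ∈ 𝔫) → S34Loc τ m O f 𝔫),
      ∀ f : F, f = f₀ ∨ f = w.symm f₀ → ∀ 𝔫 : Ideal ↥O, 𝔫.IsMaximal →
        (∀ x : ↥O, (x : F) ∈ V₁.nonunits → x ∈ 𝔫) → S34Loc τ m O f 𝔫 := by
    intro O _ hfracO hOV hVτO hDO hnodeO f hf 𝔫 h𝔫 h1
    rcases hf with rfl | rfl
    · exact s34ib_loc_on τ hτ0 O hfracO V₁ V₂ hOV hτV hVτO hDO m hm _ hf₀ hord
        (hnodeO _ (Or.inl rfl)) 𝔫 h𝔫 h1
    · exact s34ib_loc_on τ hτ0 O hfracO V₁ V₂ hOV hτV hVτO hDO m hm _ hfw hordw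
        (hnodeO _ (Or.inr rfl)) 𝔫 h𝔫 h1
  have hon0 := hon (chtO A0 {t}) hfrac0 hV0 hVτ0 hD₀ hnode₀
  have hon1 := hon (chtO A0 {t⁻¹}) hfrac1 hV1 hVτ1 hD₁ hnode₁
  -- (LOC) at every closed point
  have key : ∀ (s : Set F)
      (_ : ∀ x ∈ chtO A0 s, x ∈ V₁ ∧ x ∈ V₂)
      (_ : ∀ x ∈ chtO A0 s, x ∈ V₁.nonunits → x ∈ V₂.nonunits →
        ∃ y ∈ chtO A0 s, x = algebraMap A0 F τ * y)
      (_ : ∀ f : F, f = f₀ ∨ f = w.symm f₀ → ∀ 𝔫 : Ideal ↥(chtO A0 s), 𝔫.IsMaximal →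
        (∀ x : ↥(chtO A0 s), (x : F) ∈ V₁.nonunits → x ∈ 𝔫) → S34Loc τ m (chtO A0 s) f 𝔫)
      (_ : ∀ 𝔫 : Ideal ↥(chtO A0 s), 𝔫.IsMaximal → algebraMap A0 ↥(chtO A0 s) τ ∈ 𝔫 →
        (∃ r : ↥(chtO A0 s), (r : F) ∈ V₁.nonunits ∧ r ∉ 𝔫) →
        (∃ a s' : ↥(chtO A0 s), s' ∉ 𝔫 ∧ w t * (s' : F) = a) ∨
        (∃ a s' : ↥(chtO A0 s), s' ∉ 𝔫 ∧ w t⁻¹ * (s' : F) = a)),
      ∀ 𝔫 : Ideal ↥(chtO A0 s), 𝔫.IsMaximal → algebraMap A0 ↥(chtO A0 s) τ ∈ 𝔫 →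
        S34Loc τ m (chtO A0 s) f₀ 𝔫 := by
    intro s hOV hVτO honO hdomO 𝔫 h𝔫 hτ𝔫
    by_cases h1 : ∀ x : ↥(chtO A0 s), (x : F) ∈ V₁.nonunits → x ∈ 𝔫
    · exact honO f₀ (Or.inl rfl) 𝔫 h𝔫 h1
    · push Not at h1
      have : 𝔫.IsPrime := h𝔫.isPrime
      have hcl : ∀ x : F, IsIntegral ↥(chtO A0 s) x → x ∈ chtO A0 s :=
        fun x hx => cht_integral_closed s hx
      rcases hdomO 𝔫 h𝔫 hτ𝔫 h1 with hd | hd
      · exact s34ib_loc_off τ (chtO A0 s) (chtO A0 {t}) w hwA V₁ V₂ hOV hVτO hwV m f₀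
          (fun 𝔫' h𝔫' h1' => hon0 _ (Or.inr rfl) 𝔫' h𝔫' h1') 𝔫 h𝔫 hτ𝔫 h1
          (s34ib_dom (chtO A0 s) hcl t w hwA 𝔫 hd)
      · exact s34ib_loc_off τ (chtO A0 s) (chtO A0 {t⁻¹}) w hwA V₁ V₂ hOV hVτO hwV m f₀
          (fun 𝔫' h𝔫' h1' => hon1 _ (Or.inr rfl) 𝔫' h𝔫' h1') 𝔫 h𝔫 hτ𝔫 h1
          (s34ib_dom (chtO A0 s) hcl t⁻¹ w hwA 𝔫 hd)
  have hloc₀ := key {t} hV0 hVτ0 hon0 hdom₀
  have hloc₁ := key {t⁻¹} hV1 hVτ1 hon1 hdom₁
  obtain ⟨c, G, hG0, hcG⟩ := ulo_main (A := A0) (F := F) τ hτmax m hm2 hmA t ht0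
    (chtO A0 {t}) (chtO A0 {t⁻¹}) V₁ V₂ h2 h3 h01 h10 hroot0 hroot1 ⟨b0, hb0, hspan0⟩
    (fun x => by
      obtain ⟨a, ha, s, hs, hs0, h⟩ := hfrac0 x
      exact ⟨s, hs, hs0, by rw [mul_comm, h]; exact ha⟩)
    hV0 hV1 hτinv₁ hτinv₂ hdiv0 hdiv1 hcap σ ε hε hστ hσO₀ hσO₁ hσV₁ hσV₂ hσu₁ hσu₂ f₀ hf₀
    hloc₀ hloc₁
  exact ⟨algebraMap A0 K0 c, G, hG0, by rw [hcG, IsScalarTower.algebraMap_apply A0 K0 F]⟩

end Main

end Fermat.Agent.S34
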