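import Mathlib
import Fermat.Prelude.Def_FLTPrelim_Ramification
import Fermat.Agent.S05.Inertia
import Fermat.Agent.S18.DvrDef
import Fermat.Agent.S18.SMInstChoice
import Fermat.Agent.S18.Charts

/-!
# S34, package INST-CHOICE: chart base points fixed by inertia

For the nodal core the two Hauptmodul charts `chtO A0 {t}`, `chtO A0 {t⁻¹}`,
`t = (h - c1) / (h - c0)`, have to be stable under the inertia element `σ`.  This holds as soon as
`σ c0 = c0` and `σ c1 = c1`.

* `s34ic_lift`: every residue class of a valuation subring `A` of `ℚ̄` over a prime `q` has a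
  representative fixed by the inertia group of `A` (`0` or a root of unity of order prime to `q`).
* `s34ic_choice`: base points `c0, c1 ∈ A` as in S18's `smi2_choice` (`c0 - c1`, `Qrad(c0)`,
  `Qrad(c1)` units of `A`) which are moreover fixed by the inertia group.
* `s34ic_chtO_stable`: a ring automorphism `σ` of `F` which maps the constants `A0` into
  themselves and fixes `t` maps the chart `chtO A0 {t}` into itself.
-/

set_option autoImplicit false

open Polynomial

namespace Fermat.Agent.S34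

open Fermat.Agent.S18

local notation "Qb" => AlgebraicClosure ℚ

/-! ### Roots of unity in a valuation subring -/

/-- roots of unity lie in every valuation subring -/
theorem s34ic_root_mem {K : Type*} [Field K] (A : ValuationSubring K) {n : ℕ} (hn : n ≠ 0)
    {ζ : K} (hζ : ζ ^ n = 1) : ζ ∈ A := by
  rw [← A.valuation_le_one_iff]
  by_contra h
  push Not at h
  have h1 := one_lt_pow₀ h hn
  rw [← map_pow, hζ, map_one] at h1
  exact lt_irrefl _ h1

/-- two `n`-th roots of unity which are congruent modulo the maximal ideal are equal if `n` is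
a unit -/
theorem s34ic_root_eq {K : Type*} [Field K] (A : ValuationSubring K) {n : ℕ} (hn : n ≠ 0)
    (hnA : (n : K) ∉ A.nonunits) {ζ η : K} (hζ : ζ ^ n = 1) (hη : η ^ n = 1)
    (h : ζ - η ∈ A.nonunits) : ζ = η := by
  by_contra hne
  have hη0 : η ≠ 0 := by
    rintro rfl
    rw [zero_pow hn] at hη
    exact zero_ne_one hη
  have hηinv : η⁻¹ ^ n = 1 := by rw [inv_pow, hη, inv_one]
  have hηinvA : η⁻¹ ∈ A := s34ic_root_mem A hn hηinv
  set u : K := ζ * η⁻¹ with hu
  have hun : u ^ n = 1 := by rw [hu, mul_pow, hζ, hηinv, one_mul]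
  have hu1 : u ≠ 1 := by
    intro h1
    apply hne
    have : ζ = u * η := by rw [hu, mul_assoc, inv_mul_cancel₀ hη0, mul_one]
    rw [this, h1, one_mul]
  have huA : u ∈ A := s34ic_root_mem A hn hun
  -- `u ≡ 1` modulo the maximal ideal
  have hu1m : u - 1 ∈ A.nonunits := by
    have h1 : u - 1 = (ζ - η) * η⁻¹ := by
      rw [hu, sub_mul, mul_inv_cancel₀ hη0]
    rw [h1, A.mem_nonunits_iff, map_mul]
    have hlt : A.valuation (ζ - η) < 1 := A.mem_nonunits_iff.mp h
    have hle : A.valuation η⁻¹ ≤ 1 := (A.valuation_le_one_iff _).mpr hηinvA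
    calc A.valuation (ζ - η) * A.valuation η⁻¹ ≤ A.valuation (ζ - η) * 1 :=
          mul_le_mul' le_rfl hle
      _ < 1 := by rw [mul_one]; exact hlt
  have hmax : (⟨u, huA⟩ - 1 : A) ∈ IsLocalRing.maximalIdeal A := by
    rw [← ValuationSubring.coe_mem_nonunits_iff]
    exact hu1m
  have hres : IsLocalRing.residue A ⟨u, huA⟩ = 1 := by
    have h0 : IsLocalRing.residue A (⟨u, huA⟩ - 1) = 0 :=
      (IsLocalRing.residue_eq_zero_iff _).mpr hmax
    rw [map_sub, map_one, sub_eq_zero] at h0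
    exact h0
  have hgeom : (∑ i ∈ Finset.range n, (⟨u, huA⟩ : A) ^ i) * (⟨u, huA⟩ - 1) = 0 := by
    rw [geom_sum_mul]
    apply Subtype.ext
    show u ^ n - 1 = 0
    rw [hun, sub_self]
  have hne1 : (⟨u, huA⟩ - 1 : A) ≠ 0 := by
    intro h0
    apply hu1
    have := congrArg (fun z : A => (z : K)) h0
    exact sub_eq_zero.mp this
  have hsum : ∑ i ∈ Finset.range n, (⟨u, huA⟩ : A) ^ i = 0 :=
    (mul_eq_zero.mp hgeom).resolve_right hne1
  have hn0 : ((n : A) : K) ∈ A.nonunits := by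
    rw [ValuationSubring.coe_mem_nonunits_iff, ← IsLocalRing.residue_eq_zero_iff]
    have h1 := congrArg (IsLocalRing.residue A) hsum
    rw [map_sum, map_zero] at h1
    simp only [map_pow, hres, one_pow, Finset.sum_const, Finset.card_range, nsmul_eq_mul,
      mul_one] at h1
    rw [map_natCast]
    exact h1
  exact hnA (by simpa using hn0)

/-! ### Representatives fixed by inertia -/

/-- **Unramified representatives.** Every residue class of a valuation subring of `ℚ̄` over a
prime `q` has a representative fixed by the inertia group. -/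
theorem s34ic_lift (q : ℕ) (hq : q.Prime) (A : ValuationSubring Qb) (hA : A.LiesOverPrime q)
    (b : IsLocalRing.ResidueField A) :
    ∃ x : A, IsLocalRing.residue A x = b ∧
      ∀ σ ∈ A.inertiaSubgroupIn ℚ, σ (x : Qb) = (x : Qb) := by
  classical
  by_cases hb : b = 0
  · exact ⟨0, by rw [map_zero, hb], fun σ _ => by simp⟩
  obtain ⟨x, rfl⟩ := IsLocalRing.residue_surjective b
  have hxu : IsUnit x := (IsLocalRing.residue_ne_zero_iff_isUnit x).mp hb
  have hxU : smi2U A (x : Qb) := smi2U_of_isUnit hxu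
  -- the number field `ℚ(x)`
  set K0 : IntermediateField ℚ Qb :=
    IntermediateField.adjoin ℚ ((({(x : Qb)} : Finset Qb)) : Set Qb) with hK0
  have hfd : FiniteDimensional ℚ K0 := dvd_adjoin_finite {(x : Qb)}
  obtain ⟨hdvr, hfin, hqn⟩ := dvd_isDVR_comap q hq.ne_zero A hA K0
  have hxK : (x : Qb) ∈ K0 :=
    IntermediateField.subset_adjoin ℚ _ (by simp)
  set A0 : ValuationSubring K0 := A.comap (algebraMap K0 Qb) with hA0
  have hx0A : (⟨(x : Qb), hxK⟩ : K0) ∈ A0 := ValuationSubring.mem_comap.mpr x.2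
  have hx0inv : (⟨(x : Qb), hxK⟩ : K0)⁻¹ ∈ A0 := by
    refine ValuationSubring.mem_comap.mpr ?_
    rw [map_inv₀]
    exact hxU.2.2
  have hx0u : IsUnit (⟨⟨(x : Qb), hxK⟩, hx0A⟩ : A0) := by
    refine IsUnit.of_mul_eq_one (⟨(⟨(x : Qb), hxK⟩ : K0)⁻¹, hx0inv⟩ : A0) ?_
    apply Subtype.ext
    show (⟨(x : Qb), hxK⟩ : K0) * (⟨(x : Qb), hxK⟩ : K0)⁻¹ = 1
    refine mul_inv_cancel₀ ?_
    intro h0
    exact hxU.2.1 (congrArg Subtype.val h0)
  -- the residue field of `A ∩ ℚ(x)` is finite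
  have : Finite (IsLocalRing.ResidueField A0) := hfin
  have : Fintype (IsLocalRing.ResidueField A0) := Fintype.ofFinite _
  set n : ℕ := Fintype.card (IsLocalRing.ResidueField A0) - 1 with hn
  have hcard : 1 < Fintype.card (IsLocalRing.ResidueField A0) := Fintype.one_lt_card
  have hn0 : n ≠ 0 := by omega
  have hn1 : n + 1 = Fintype.card (IsLocalRing.ResidueField A0) := by omega
  have hr0 : IsLocalRing.residue A0 ⟨⟨(x : Qb), hxK⟩, hx0A⟩ ≠ 0 :=
    (IsLocalRing.residue_ne_zero_iff_isUnit _).mpr hx0u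
  have hpow : IsLocalRing.residue A0 ⟨⟨(x : Qb), hxK⟩, hx0A⟩ ^ n = 1 :=
    FiniteField.pow_card_sub_one_eq_one _ hr0
  -- `x ^ n ≡ 1`
  have hxn : (x : Qb) ^ n - 1 ∈ A.nonunits := by
    have h1 : ((⟨⟨(x : Qb), hxK⟩, hx0A⟩ : A0) ^ n - 1 : A0) ∈ IsLocalRing.maximalIdeal A0 := by
      rw [← IsLocalRing.residue_eq_zero_iff, map_sub, map_pow, hpow, map_one, sub_self]
    have h2 := (dvd_mem_nonunits_comap (algebraMap K0 Qb) A _).mp
      (ValuationSubring.coe_mem_nonunits_iff.mpr h1)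
    simpa using h2
  -- `n` is a unit of `A`
  have hnA : (n : Qb) ∉ A.nonunits := by
    intro hmem
    have h1 : ((n : K0)) ∈ A0.nonunits := by
      refine (dvd_mem_nonunits_comap (algebraMap K0 Qb) A _).mpr ?_
      rw [map_natCast]
      exact hmem
    have h2 : ((n : A0) : K0) ∈ A0.nonunits := by simpa using h1
    rw [ValuationSubring.coe_mem_nonunits_iff, ← IsLocalRing.residue_eq_zero_iff,
      map_natCast] at h2
    have h3 : ((n + 1 : ℕ) : IsLocalRing.ResidueField A0) = 0 := by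
      rw [hn1]
      exact Nat.cast_card_eq_zero _
    rw [Nat.cast_succ, h2, zero_add] at h3
    exact one_ne_zero h3
  -- the roots of `X ^ n - 1`
  have hmonic : (X ^ n - 1 : Qb[X]).Monic := monic_X_pow_sub_C (1 : Qb) hn0
  have hsplit : (X ^ n - 1 : Qb[X]).Splits := IsAlgClosed.splits _
  have heval := hsplit.eval_eq_prod_roots_of_monic hmonic (x : Qb)
  rw [eval_sub, eval_pow, eval_X, eval_one] at heval
  have hroot : ∀ ζ ∈ (X ^ n - 1 : Qb[X]).roots, ζ ^ n = 1 := by
    intro ζ hζ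
    have h1 := (mem_roots hmonic.ne_zero).mp hζ
    rw [IsRoot, eval_sub, eval_pow, eval_X, eval_one, sub_eq_zero] at h1
    exact h1
  obtain ⟨ζ, hζmem, hζx⟩ : ∃ ζ ∈ (X ^ n - 1 : Qb[X]).roots, (x : Qb) - ζ ∈ A.nonunits := by
    by_contra hcon
    push Not at hcon
    have h1 : A.valuation (((X ^ n - 1 : Qb[X]).roots.map fun ζ => (x : Qb) - ζ).prod) = 1 := by
      rw [map_multiset_prod, Multiset.map_map]
      refine Multiset.prod_eq_one ?_
      intro v hv
      obtain ⟨ζ, hζ, rfl⟩ := Multiset.mem_map.mp hv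
      have hζA : ζ ∈ A := s34ic_root_mem A hn0 (hroot ζ hζ)
      have hle : A.valuation ((x : Qb) - ζ) ≤ 1 :=
        (A.valuation_le_one_iff _).mpr (sub_mem x.2 hζA)
      have hnlt : ¬ A.valuation ((x : Qb) - ζ) < 1 := fun hlt =>
        hcon ζ hζ (A.mem_nonunits_iff.mpr hlt)
      exact le_antisymm hle (not_lt.mp hnlt)
    rw [← heval] at h1
    have h2 := A.mem_nonunits_iff.mp hxn
    rw [h1] at h2
    exact lt_irrefl _ h2
  have hζn : ζ ^ n = 1 := hroot ζ hζmem
  have hζA : ζ ∈ A := s34ic_root_mem A hn0 hζn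
  refine ⟨⟨ζ, hζA⟩, ?_, ?_⟩
  · have h1 : (x - ⟨ζ, hζA⟩ : A) ∈ IsLocalRing.maximalIdeal A := by
      rw [← ValuationSubring.coe_mem_nonunits_iff]
      exact hζx
    have h2 : IsLocalRing.residue A (x - ⟨ζ, hζA⟩) = 0 :=
      (IsLocalRing.residue_eq_zero_iff _).mpr h1
    rw [map_sub, sub_eq_zero] at h2
    exact h2.symm
  · intro σ hσ
    have h1 : σ ζ - ζ ∈ A.nonunits := Fermat.Agent.S05.inertia_sub_mem_nonunits A σ hσ ζ hζA
    have h2 : (σ ζ) ^ n = 1 := by rw [← map_pow, hζn, map_one]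
    exact s34ic_root_eq A hn0 hnA h2 hζn h1

/-- The chart constants with an additional property `P` which every residue class can be given:
there are `c₀, c₁ ∈ A` satisfying `P` with `c₀ - c₁`, `Qrad(c₀)` and `Qrad(c₁)` units of `A`. -/
theorem s34ic_choice_gen {K : Type*} [Field K] [IsAlgClosed K] {a2 ℓ : ℕ} (H : HauptRec a2 ℓ)
    (A : ValuationSubring K) (P : K → Prop)
    (hlift : ∀ b : IsLocalRing.ResidueField A, ∃ x : A, IsLocalRing.residue A x = b ∧ P (x : K)) :
    ∃ c0 c1 : K, c0 ∈ A ∧ c1 ∈ A ∧ smi2U A (c0 - c1) ∧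
      smi2U A (aeval c0 H.Qrad) ∧ smi2U A (aeval c1 H.Qrad) ∧ P c0 ∧ P c1 := by
  classical
  have : IsAlgClosed (IsLocalRing.ResidueField A) := ifr_residue_isAlgClosed A
  set Qk := H.Qrad.map (Int.castRingHom (IsLocalRing.ResidueField A)) with hQk
  have hQk0 : Qk ≠ 0 := (H.Qrad_monic.map _).ne_zero
  obtain ⟨b0, hb0⟩ := Infinite.exists_notMem_finset Qk.roots.toFinset
  obtain ⟨b1, hb1⟩ := Infinite.exists_notMem_finset (insert b0 Qk.roots.toFinset)
  obtain ⟨x0, rfl, hx0σ⟩ := hlift b0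
  obtain ⟨x1, rfl, hx1σ⟩ := hlift b1
  have key : ∀ x : A, IsLocalRing.residue A x ∉ Qk.roots.toFinset →
      smi2U A (aeval (x : K) H.Qrad) := by
    intro x hx
    rw [← smi2_coe_aeval]
    apply smi2U_of_residue_ne_zero
    rw [smi2_residue_aeval]
    intro h0
    apply hx
    rw [Multiset.mem_toFinset, Polynomial.mem_roots hQk0, Polynomial.IsRoot, hQk,
      Polynomial.eval_map, ← h0, Polynomial.aeval_def,
      RingHom.ext_int (Int.castRingHom (IsLocalRing.ResidueField A))
        (algebraMap ℤ (IsLocalRing.ResidueField A))]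
  refine ⟨x0, x1, x0.2, x1.2, ?_, key x0 hb0, key x1 ?_, hx0σ, hx1σ⟩
  · have h : IsLocalRing.residue A (x0 - x1) ≠ 0 := by
      rw [map_sub, sub_ne_zero]
      intro h
      apply hb1
      rw [← h]
      exact Finset.mem_insert_self _ _
    exact smi2U_of_residue_ne_zero h
  · intro h
    exact hb1 (Finset.mem_insert_of_mem h)

/-- **The chart constants, fixed by inertia.** There are `c₀, c₁ ∈ A`, fixed by the inertia
group of `A`, with `c₀ - c₁`, `Qrad(c₀)` and `Qrad(c₁)` units of `A`. -/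
theorem s34ic_choice {a2 q : ℕ} (hq : q.Prime) (H : HauptRec a2 q) (A : ValuationSubring Qb)
    (hA : A.LiesOverPrime q) :
    ∃ c0 c1 : Qb, c0 ∈ A ∧ c1 ∈ A ∧ smi2U A (c0 - c1) ∧
      smi2U A (aeval c0 H.Qrad) ∧ smi2U A (aeval c1 H.Qrad) ∧
      (∀ σ ∈ A.inertiaSubgroupIn ℚ, σ c0 = c0) ∧ (∀ σ ∈ A.inertiaSubgroupIn ℚ, σ c1 = c1) :=
  s34ic_choice_gen H A (fun c => ∀ σ ∈ A.inertiaSubgroupIn ℚ, σ c = c) (s34ic_lift q hq A hA)

/-! ### Stability of the charts -/

/-- a ring automorphism of `F` mapping the constants into themselves and fixing `t` maps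
`A0[t]` into itself -/
theorem s34ic_adjoin_stable {A0 F : Type*} [CommRing A0] [Field F] [Algebra A0 F] (σ : F ≃+* F)
    (hσA : ∀ a : A0, ∃ a' : A0, σ (algebraMap A0 F a) = algebraMap A0 F a') (t : F)
    (ht : σ t = t) {x : F} (hx : x ∈ Algebra.adjoin A0 ({t} : Set F)) :
    σ x ∈ Algebra.adjoin A0 ({t} : Set F) := by
  induction hx using Algebra.adjoin_induction with
  | mem y hy =>
    rw [Set.mem_singleton_iff] at hy
    rw [hy, ht]
    exact Algebra.subset_adjoin (Set.mem_singleton t)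
  | algebraMap a =>
    obtain ⟨a', ha'⟩ := hσA a
    rw [ha']
    exact Subalgebra.algebraMap_mem _ a'
  | add y z _ _ hy hz =>
    rw [map_add]
    exact Subalgebra.add_mem _ hy hz
  | mul y z _ _ hy hz =>
    rw [map_mul]
    exact Subalgebra.mul_mem _ hy hz

/-- **Stability of a chart.** -/
theorem s34ic_chtO_stable {A0 F : Type*} [CommRing A0] [Field F] [Algebra A0 F] (σ : F ≃+* F)
    (hσA : ∀ a : A0, ∃ a' : A0, σ (algebraMap A0 F a) = algebraMap A0 F a') (t : F)
    (ht : σ t = t) {x : F} (hx : x ∈ chtO A0 ({t} : Set F)) : σ x ∈ chtO A0 ({t} : Set F) := by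
  rw [cht_mem_iff_poly] at hx ⊢
  obtain ⟨p, hp, hc, hpx⟩ := hx
  refine ⟨p.map (σ : F →+* F), hp.map _, fun i => ?_, ?_⟩
  · rw [coeff_map]
    exact s34ic_adjoin_stable σ hσA t ht (hc i)
  · have h1 : (p.map (σ : F →+* F)).eval ((σ : F →+* F) x) = (σ : F →+* F) (p.eval x) :=
      eval_map_apply (σ : F →+* F) x
    rw [hpx, map_zero] at h1
    exact h1

end Fermat.Agent.S34
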