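/-
S34 [A-SIGMA]: the `σ`-hypotheses of `ulo_main` (S34/UnipLoc.lean) over a number-field DVR, in the
Gauss-ring language of S18.

Setting: `K₀` a field over `ℚ`, `A₀ : ValuationSubring K₀` a discrete valuation ring,
`s : K₀ ≃ₐ[ℚ] K₀` in the inertia group of `A₀`, `F := laurentBaseChange K₀ F₀` all of whose
elements are constants times Gauss units (`gdvProp`, e.g. `gdv_full_le`), `VG` a valuation subring
of `F` with `x ∈ VG ↔ (x : K₀((q))) ∈ grV A₀` (the Gauss valuation subring, `cinstVG`),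
`σ' := arithmeticRingAut F₀ s` (coefficientwise action).

* `sgv_mem`        : `σ'` preserves `VG` (decomposition group);
* `sgv_sub_mem_nonunits` : `σ' x - x` is a nonunit of `VG` for `x ∈ VG` (inertia);
* `sgv_hσV`        : `(σ' x - x) * τ⁻¹ ∈ VG` for `x ∈ VG` (`τ` a uniformizer of `A₀`);
* `sgv_const`      : `s c * c⁻¹ ∈ A₀` for every `c ≠ 0` of `K₀` (decomposition group, DVR);
* `sgv_eps`        : `s τ = ε * τ` with `ε` a unit of `A₀`;
* `sgv_hσu`        : `σ' g * g⁻¹ ∈ VG` for every `g ≠ 0`;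
* `sgv_hστ`        : `σ' τ = ε * τ` inside `F`;
* `sgv_comap_hσV`, `sgv_comap_hσu`, `sgv_comap_mem` : transport of these facts to
  `V.comap w` along a ring automorphism `w` of the field commuting with `σ'` (and fixing `τ`);
* `sgv_restrict_decomp`, `sgv_restrict_inertia` : the restriction of an element of the
  decomposition / inertia group of `A` (a valuation subring of `L`) to a normal subextension `E`
  lies in the decomposition / inertia group of `A.comap (algebraMap E L)`.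
-/
import Mathlib
import Fermat.Prelude.Def_ModularCurve_ArithmeticGalois
import Fermat.Agent.S18.CoreInstGauss
import Fermat.Agent.S37.JRingGal

set_option autoImplicit false

noncomputable section

open ModularCurve

namespace Fermat.Agent.S34

open Fermat.Agent.S18 Fermat.Agent.S37

section SigmaVal

variable {K₀ : Type*} [Field K₀] [Algebra ℚ K₀] (A₀ : ValuationSubring K₀)
  (F₀ : IntermediateField ℚ (LaurentSeries ℚ))
  (VG : ValuationSubring ↥(laurentBaseChange K₀ F₀))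
  (hVG : ∀ x : ↥(laurentBaseChange K₀ F₀), x ∈ VG ↔ (x : LaurentSeries K₀) ∈ grV A₀)

include hVG in
/-- The decomposition group preserves the Gauss valuation subring. -/
theorem sgv_mem {s : K₀ ≃ₐ[ℚ] K₀} (hs : s ∈ A₀.decompositionSubgroup ℚ)
    {x : ↥(laurentBaseChange K₀ F₀)} (hx : x ∈ VG) : arithmeticRingAut F₀ s x ∈ VG := by
  rw [hVG] at hx ⊢
  exact jrg_grV_coeffMap ℚ A₀ ⟨s, hs⟩ hx

include hVG in
/-- Inertia moves an element of the Gauss valuation subring by a nonunit. -/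
theorem sgv_sub_mem_nonunits {s : K₀ ≃ₐ[ℚ] K₀} (hs : s ∈ A₀.inertiaSubgroupIn ℚ)
    {x : ↥(laurentBaseChange K₀ F₀)} (hx : x ∈ VG) :
    arithmeticRingAut F₀ s x - x ∈ VG.nonunits := by
  have hx' : (x : LaurentSeries K₀) ∈ grV A₀ := (hVG x).mp hx
  obtain ⟨h1, h2⟩ := jrg_grRho_inertia ℚ A₀ hs ⟨(x : LaurentSeries K₀), hx'⟩
  rw [cinst_mem_nonunits_iff VG hVG]
  have hmem : ((arithmeticRingAut F₀ s x - x : ↥(laurentBaseChange K₀ F₀)) : LaurentSeries K₀)
      ∈ grV A₀ := (grV A₀).sub_mem h1 hx'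
  refine ⟨hmem, ?_⟩
  have h3 : (⟨_, hmem⟩ : grV A₀) = ⟨_, h1⟩ - ⟨(x : LaurentSeries K₀), hx'⟩ := Subtype.ext rfl
  rw [h3, map_sub, h2, sub_self]

include hVG in
/-- **`hσV` of `ulo_main`**: `(σ' x - x) * τ⁻¹` lies in the Gauss valuation subring. -/
theorem sgv_hσV (hF : ∀ x ∈ laurentBaseChange K₀ F₀, gdvProp A₀ x) (τ : A₀)
    (hτ : IsLocalRing.maximalIdeal A₀ = Ideal.span {τ}) (hτ0 : τ ≠ 0)
    {s : K₀ ≃ₐ[ℚ] K₀} (hs : s ∈ A₀.inertiaSubgroupIn ℚ)
    (x : ↥(laurentBaseChange K₀ F₀)) (hx : x ∈ VG) :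
    (arithmeticRingAut F₀ s x - x) *
      (algebraMap K₀ ↥(laurentBaseChange K₀ F₀) (τ : K₀))⁻¹ ∈ VG := by
  obtain ⟨y, hy, hxy⟩ := cinst_nonunits_eq_mul VG hVG hF τ hτ _
    (sgv_sub_mem_nonunits A₀ F₀ VG hVG hs hx)
  have hτF : algebraMap K₀ ↥(laurentBaseChange K₀ F₀) (τ : K₀) ≠ 0 := by
    rw [Ne, map_eq_zero]
    intro h0
    exact hτ0 (Subtype.ext h0)
  rw [hxy, mul_comm, ← mul_assoc, inv_mul_cancel₀ hτF, one_mul]
  exact hy

end SigmaVal

section Const

variable {K₀ : Type*} [Field K₀] [Algebra ℚ K₀] (A₀ : ValuationSubring K₀)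
  [IsDiscreteValuationRing ↥A₀]

omit [IsDiscreteValuationRing ↥A₀] in
/-- An element of the decomposition group multiplies a uniformizer by an element of `A₀`. -/
theorem sgv_unif_mul {s : K₀ ≃ₐ[ℚ] K₀} (hs : s ∈ A₀.decompositionSubgroup ℚ) (τ : A₀)
    (hτ : IsLocalRing.maximalIdeal A₀ = Ideal.span {τ}) :
    ∃ y : A₀, s (τ : K₀) = (τ : K₀) * (y : K₀) := by
  have h1 : jrgAutA ℚ A₀ ⟨s, hs⟩ τ ∈ IsLocalRing.maximalIdeal A₀ := by
    rw [IsLocalRing.mem_maximalIdeal, mem_nonunits_iff]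
    intro hu
    have hτmem : τ ∈ IsLocalRing.maximalIdeal A₀ := by
      rw [hτ]
      exact Ideal.subset_span (Set.mem_singleton τ)
    rw [IsLocalRing.mem_maximalIdeal, mem_nonunits_iff] at hτmem
    apply hτmem
    -- `τ = s⁻¹ (s τ)` is a unit
    obtain ⟨v, hv⟩ := hu.exists_right_inv
    have hs' : s⁻¹ ∈ A₀.decompositionSubgroup ℚ := inv_mem hs
    refine IsUnit.of_mul_eq_one (jrgAutA ℚ A₀ ⟨s⁻¹, hs'⟩ v) ?_
    apply Subtype.ext
    have h2 := congrArg (fun z : A₀ => ((s⁻¹ : K₀ ≃ₐ[ℚ] K₀) (z : K₀))) hv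
    simp only [MulMemClass.coe_mul, map_mul, jrgAutA_coe, OneMemClass.coe_one, map_one] at h2
    rw [show (s⁻¹ : K₀ ≃ₐ[ℚ] K₀) (s (τ : K₀)) = (τ : K₀) from s.symm_apply_apply _] at h2
    rw [MulMemClass.coe_mul, jrgAutA_coe]
    exact h2
  rw [hτ, Ideal.mem_span_singleton] at h1
  obtain ⟨y, hy⟩ := h1
  refine ⟨y, ?_⟩
  have := congrArg (fun z : A₀ => (z : K₀)) hy
  simpa [jrgAutA_coe] using this

/-- **Constants**: an element of the decomposition group preserves the valuation of `A₀`. -/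
theorem sgv_const {s : K₀ ≃ₐ[ℚ] K₀} (hs : s ∈ A₀.decompositionSubgroup ℚ) (c : K₀)
    (hc : c ≠ 0) : s c * c⁻¹ ∈ A₀ := by
  obtain ⟨τ, hτirr⟩ := IsDiscreteValuationRing.exists_irreducible A₀
  have hτ : IsLocalRing.maximalIdeal A₀ = Ideal.span {τ} := hτirr.maximalIdeal_eq
  have hs' : s⁻¹ ∈ A₀.decompositionSubgroup ℚ := inv_mem hs
  have hτ0 : (τ : K₀) ≠ 0 := fun h => hτirr.ne_zero (Subtype.ext h)
  obtain ⟨y, hy⟩ := sgv_unif_mul A₀ hs τ hτ
  obtain ⟨y', hy'⟩ := sgv_unif_mul A₀ hs' τ hτ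
  -- `s τ / τ = y ∈ A₀` and `τ / s τ = s y' ∈ A₀`
  have hsτ0 : s (τ : K₀) ≠ 0 := by
    rw [Ne, map_eq_zero]
    exact hτ0
  have h1 : s (τ : K₀) * (τ : K₀)⁻¹ ∈ A₀ := by
    rw [hy, mul_comm, ← mul_assoc, inv_mul_cancel₀ hτ0, one_mul]
    exact y.2
  have h2 : (τ : K₀) * (s (τ : K₀))⁻¹ ∈ A₀ := by
    have h3 : (τ : K₀) = s (τ : K₀) * s (y' : K₀) := by
      have := congrArg s hy'
      rw [map_mul] at this
      rw [← this]
      exact (s.apply_symm_apply _).symm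
    have h4 : (τ : K₀) * (s (τ : K₀))⁻¹ = s (y' : K₀) := by
      rw [eq_comm, eq_mul_inv_iff_mul_eq₀ hsτ0, mul_comm]
      exact h3.symm
    rw [h4]
    exact jrg_mem_of_mem_decomp ℚ A₀ ⟨s, hs⟩ y'.2
  -- units
  have hunit : ∀ u : A₀, IsUnit u → s (u : K₀) * (u : K₀)⁻¹ ∈ A₀ := by
    intro u hu
    obtain ⟨v, hv⟩ := hu.exists_right_inv
    have hv' : (u : K₀) * (v : K₀) = 1 := by
      have := congrArg (fun z : A₀ => (z : K₀)) hv
      simpa using this
    have hinv : (u : K₀)⁻¹ = (v : K₀) := (eq_inv_of_mul_eq_one_right hv').symm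
    rw [hinv]
    exact mul_mem (jrg_mem_of_mem_decomp ℚ A₀ ⟨s, hs⟩ u.2) v.2
  have hunit' : ∀ u : A₀, IsUnit u → (u : K₀) * (s (u : K₀))⁻¹ ∈ A₀ := by
    intro u hu
    obtain ⟨v, hv⟩ := hu.exists_right_inv
    have hv' : (u : K₀) * (v : K₀) = 1 := by
      have := congrArg (fun z : A₀ => (z : K₀)) hv
      simpa using this
    have hsv : s (u : K₀) * s (v : K₀) = 1 := by rw [← map_mul, hv', map_one]
    have hinv : (s (u : K₀))⁻¹ = s (v : K₀) := (eq_inv_of_mul_eq_one_right hsv).symm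
    rw [hinv]
    exact mul_mem u.2 (jrg_mem_of_mem_decomp ℚ A₀ ⟨s, hs⟩ v.2)
  -- the case of elements of `A₀`
  have key : ∀ a : A₀, a ≠ 0 → s (a : K₀) * (a : K₀)⁻¹ ∈ A₀ ∧ (a : K₀) * (s (a : K₀))⁻¹ ∈ A₀ := by
    intro a ha
    obtain ⟨n, u, hau⟩ := IsDiscreteValuationRing.eq_unit_mul_pow_irreducible ha hτirr
    have hcoe : (a : K₀) = ((u : A₀) : K₀) * (τ : K₀) ^ n := by
      have := congrArg (fun z : A₀ => (z : K₀)) hau
      simpa using this
    have hu0 : ((u : A₀) : K₀) ≠ 0 := by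
      intro h0
      exact u.ne_zero (Subtype.ext h0)
    have hsu0 : s ((u : A₀) : K₀) ≠ 0 := by
      rw [Ne, map_eq_zero]
      exact hu0
    constructor
    · have : s (a : K₀) * (a : K₀)⁻¹ =
          (s ((u : A₀) : K₀) * ((u : A₀) : K₀)⁻¹) * (s (τ : K₀) * (τ : K₀)⁻¹) ^ n := by
        rw [hcoe, map_mul, map_pow, mul_inv, mul_pow, inv_pow]
        ring
      rw [this]
      exact mul_mem (hunit u u.isUnit) (pow_mem h1 n)
    · have : (a : K₀) * (s (a : K₀))⁻¹ =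
          (((u : A₀) : K₀) * (s ((u : A₀) : K₀))⁻¹) * ((τ : K₀) * (s (τ : K₀))⁻¹) ^ n := by
        rw [hcoe, map_mul, map_pow, mul_inv, mul_pow, inv_pow]
        ring
      rw [this]
      exact mul_mem (hunit' u u.isUnit) (pow_mem h2 n)
  rcases A₀.mem_or_inv_mem c with hcA | hcA
  · exact (key ⟨c, hcA⟩ (fun h => hc (congrArg Subtype.val h))).1
  · have hc' : c⁻¹ ≠ 0 := inv_ne_zero hc
    have := (key ⟨c⁻¹, hcA⟩ (fun h => hc' (congrArg Subtype.val h))).2
    simpa [map_inv₀, mul_comm] using this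

/-- `s τ = ε * τ` with `ε` a unit of `A₀`. -/
theorem sgv_eps {s : K₀ ≃ₐ[ℚ] K₀} (hs : s ∈ A₀.decompositionSubgroup ℚ) (τ : A₀) (hτ0 : τ ≠ 0) :
    ∃ ε : A₀, IsUnit ε ∧ s (τ : K₀) = (ε : K₀) * (τ : K₀) := by
  have hτ0' : (τ : K₀) ≠ 0 := fun h => hτ0 (Subtype.ext h)
  have hsτ0 : s (τ : K₀) ≠ 0 := by
    rw [Ne, map_eq_zero]
    exact hτ0'
  have h1 := sgv_const A₀ hs (τ : K₀) hτ0'
  have hs' : s⁻¹ ∈ A₀.decompositionSubgroup ℚ := inv_mem hs
  have h2 : (τ : K₀) * (s (τ : K₀))⁻¹ ∈ A₀ := by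
    have h3 := sgv_const A₀ hs' (s (τ : K₀)) hsτ0
    rwa [show (s⁻¹ : K₀ ≃ₐ[ℚ] K₀) (s (τ : K₀)) = (τ : K₀) from s.symm_apply_apply _] at h3
  refine ⟨⟨_, h1⟩, IsUnit.of_mul_eq_one ⟨_, h2⟩ ?_, ?_⟩
  · apply Subtype.ext
    show s (τ : K₀) * (τ : K₀)⁻¹ * ((τ : K₀) * (s (τ : K₀))⁻¹) = 1
    field_simp
  · show s (τ : K₀) = s (τ : K₀) * (τ : K₀)⁻¹ * (τ : K₀)
    field_simp

end Const

section SigmaUnit

variable {K₀ : Type*} [Field K₀] [Algebra ℚ K₀] (A₀ : ValuationSubring K₀)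
  [IsDiscreteValuationRing ↥A₀]
  (F₀ : IntermediateField ℚ (LaurentSeries ℚ))
  (VG : ValuationSubring ↥(laurentBaseChange K₀ F₀))
  (hVG : ∀ x : ↥(laurentBaseChange K₀ F₀), x ∈ VG ↔ (x : LaurentSeries K₀) ∈ grV A₀)

include hVG in
/-- **`hσu` of `ulo_main`**: `σ' g * g⁻¹` lies in the Gauss valuation subring for every
`g ≠ 0`. -/
theorem sgv_hσu (hF : ∀ x ∈ laurentBaseChange K₀ F₀, gdvProp A₀ x)
    {s : K₀ ≃ₐ[ℚ] K₀} (hs : s ∈ A₀.decompositionSubgroup ℚ)
    (g : ↥(laurentBaseChange K₀ F₀)) (hg : g ≠ 0) :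
    arithmeticRingAut F₀ s g * g⁻¹ ∈ VG := by
  rw [hVG]
  rcases hF g g.2 with h | ⟨c, hc, u, hu, hgu⟩
  · exact absurd (Subtype.ext h) hg
  · have hcoe : ((arithmeticRingAut F₀ s g * g⁻¹ : ↥(laurentBaseChange K₀ F₀)) :
        LaurentSeries K₀) =
        algebraMap K₀ (LaurentSeries K₀) (s c * c⁻¹) *
          (coeffMap (s : K₀ →+* K₀) u * u⁻¹) := by
      rw [MulMemClass.coe_mul, IntermediateField.coe_inv, coe_arithmeticRingAut_apply, hgu,
        map_mul, coeffMap_algebraMap, mul_inv, map_mul, map_inv₀]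
      have : ((s : K₀ →+* K₀) c) = s c := rfl
      rw [this]
      ring
    rw [hcoe]
    refine (grV A₀).mul_mem ?_ ((grV A₀).mul_mem ?_ hu.2.2)
    · exact gr_algebraMap_mem A₀ ⟨_, sgv_const A₀ hs c hc⟩
    · exact jrg_grV_coeffMap ℚ A₀ ⟨s, hs⟩ hu.2.1

/-- **`hστ` of `ulo_main`** inside the function field. -/
theorem sgv_hστ {s : K₀ ≃ₐ[ℚ] K₀} (hs : s ∈ A₀.decompositionSubgroup ℚ) (τ : A₀) (hτ0 : τ ≠ 0) :
    ∃ ε : A₀, IsUnit ε ∧
      arithmeticRingAut F₀ s (algebraMap K₀ ↥(laurentBaseChange K₀ F₀) (τ : K₀)) =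
        algebraMap K₀ ↥(laurentBaseChange K₀ F₀) (ε : K₀) *
          algebraMap K₀ ↥(laurentBaseChange K₀ F₀) (τ : K₀) := by
  obtain ⟨ε, hε, h⟩ := sgv_eps A₀ hs τ hτ0
  refine ⟨ε, hε, ?_⟩
  rw [arithmeticRingAut_algebraMap, h, map_mul]

end SigmaUnit

section Comap

variable {F : Type*} [Field F]

/-- membership in the pulled-back valuation subring -/
theorem sgv_comap_mem (V : ValuationSubring F) (w : F ≃+* F) (x : F) :
    x ∈ V.comap (w : F →+* F) ↔ w x ∈ V := Iff.rfl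

/-- transport of `hσV` along a ring automorphism `w` commuting with `σ` and fixing `τ'` -/
theorem sgv_comap_hσV (V : ValuationSubring F) (w σ : F ≃+* F)
    (hcomm : ∀ x, w (σ x) = σ (w x)) (τ' : F) (hwτ : w τ' = τ')
    (h : ∀ x ∈ V, (σ x - x) * τ'⁻¹ ∈ V) :
    ∀ x ∈ V.comap (w : F →+* F), (σ x - x) * τ'⁻¹ ∈ V.comap (w : F →+* F) := by
  intro x hx
  rw [sgv_comap_mem] at hx ⊢
  rw [map_mul, map_sub, map_inv₀, hwτ, hcomm]
  exact h _ hx

/-- transport of `hσu` along a ring automorphism `w` commuting with `σ` -/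
theorem sgv_comap_hσu (V : ValuationSubring F) (w σ : F ≃+* F)
    (hcomm : ∀ x, w (σ x) = σ (w x))
    (h : ∀ g : F, g ≠ 0 → σ g * g⁻¹ ∈ V) :
    ∀ g : F, g ≠ 0 → σ g * g⁻¹ ∈ V.comap (w : F →+* F) := by
  intro g hg
  rw [sgv_comap_mem, map_mul, map_inv₀, hcomm]
  exact h _ (by rw [Ne, map_eq_zero]; exact hg)

/-- transport of `τ'⁻¹ ∉ V` -/
theorem sgv_comap_inv_notMem (V : ValuationSubring F) (w : F ≃+* F) (τ' : F) (hwτ : w τ' = τ')
    (h : τ'⁻¹ ∉ V) : τ'⁻¹ ∉ V.comap (w : F →+* F) := by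
  rw [sgv_comap_mem, map_inv₀, hwτ]
  exact h

end Comap

section Restrict

open scoped Pointwise

variable {K L : Type*} [Field K] [Field L] [Algebra K L] (E : IntermediateField K L) [Normal K E]
  (A : ValuationSubring L)

/-- restriction to a normal subextension: compatibility with the inclusion, for the inverse -/
theorem sgv_restrict_symm_apply (σ : L ≃ₐ[K] L) (x : E) :
    ((σ.restrictNormal E).symm x : L) = σ.symm (x : L) := by
  have h := AlgEquiv.restrictNormal_commutes σ E ((σ.restrictNormal E).symm x)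
  rw [AlgEquiv.apply_symm_apply] at h
  have h' : (x : L) = σ (((σ.restrictNormal E).symm x : E) : L) := h
  rw [h', AlgEquiv.symm_apply_apply]

/-- The restriction of an element of the decomposition group of `A` to a normal subextension
`E` lies in the decomposition group of `A ∩ E`. -/
theorem sgv_restrict_decomp {σ : L ≃ₐ[K] L} (hσ : σ ∈ A.decompositionSubgroup K) :
    σ.restrictNormal E ∈ (A.comap (algebraMap E L)).decompositionSubgroup K := by
  have hσ' : σ⁻¹ ∈ A.decompositionSubgroup K := inv_mem hσ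
  rw [ValuationSubring.decompositionSubgroup, MulAction.mem_stabilizer_iff]
  apply SetLike.ext
  intro x
  rw [ValuationSubring.mem_pointwise_smul_iff_inv_smul_mem, ValuationSubring.mem_comap,
    ValuationSubring.mem_comap]
  have hx : algebraMap E L ((σ.restrictNormal E)⁻¹ • x) = σ⁻¹ (algebraMap E L x) :=
    sgv_restrict_symm_apply E σ x
  rw [hx]
  constructor
  · intro h
    have := jrg_mem_of_mem_decomp K A ⟨σ, hσ⟩ h
    rwa [show ((⟨σ, hσ⟩ : A.decompositionSubgroup K) : L ≃ₐ[K] L) (σ⁻¹ (algebraMap E L x))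
      = algebraMap E L x from σ.apply_symm_apply _] at this
  · intro h
    exact jrg_mem_of_mem_decomp K A ⟨σ⁻¹, hσ'⟩ h

/-- The restriction of an element of the inertia group of `A` to a normal subextension `E` lies
in the inertia group of `A ∩ E`. -/
theorem sgv_restrict_inertia {σ : L ≃ₐ[K] L} (hσ : σ ∈ A.inertiaSubgroupIn K) :
    σ.restrictNormal E ∈ (A.comap (algebraMap E L)).inertiaSubgroupIn K := by
  have hσD : σ ∈ A.decompositionSubgroup K := jrg_inertia_mem_decomp K A hσ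
  have hsD := sgv_restrict_decomp E A hσD
  refine Subgroup.mem_map.mpr ⟨⟨σ.restrictNormal E, hsD⟩, ?_, rfl⟩
  show MulSemiringAction.toRingAut ((A.comap (algebraMap E L)).decompositionSubgroup K)
    (IsLocalRing.ResidueField ↥(A.comap (algebraMap E L)))
    (⟨σ.restrictNormal E, hsD⟩ : (A.comap (algebraMap E L)).decompositionSubgroup K) = 1
  refine RingEquiv.ext fun y => ?_
  obtain ⟨x, rfl⟩ := IsLocalRing.residue_surjective y
  show (⟨σ.restrictNormal E, hsD⟩ : (A.comap (algebraMap E L)).decompositionSubgroup K) •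
    IsLocalRing.residue _ x = IsLocalRing.residue _ x
  rw [← IsLocalRing.ResidueField.residue_smul, ← sub_eq_zero, ← map_sub,
    IsLocalRing.residue_eq_zero_iff, IsLocalRing.mem_maximalIdeal, mem_nonunits_iff]
  intro hu
  obtain ⟨v, hv⟩ := hu.exists_right_inv
  -- the same relation inside `L`
  have hxA : algebraMap E L (x : E) ∈ A := x.2
  obtain ⟨h1, h2⟩ := jrg_inertia_residue K A hσ ⟨algebraMap E L (x : E), hxA⟩
  have hvA : algebraMap E L (v : E) ∈ A := v.2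
  have hmax : (⟨σ (algebraMap E L (x : E)), h1⟩ - ⟨algebraMap E L (x : E), hxA⟩ : A) ∈
      IsLocalRing.maximalIdeal A := by
    rw [← IsLocalRing.residue_eq_zero_iff, map_sub, h2, sub_self]
  rw [IsLocalRing.mem_maximalIdeal, mem_nonunits_iff] at hmax
  apply hmax
  refine IsUnit.of_mul_eq_one ⟨algebraMap E L (v : E), hvA⟩ ?_
  apply Subtype.ext
  have hv' := congrArg (fun z : ↥(A.comap (algebraMap E L)) => algebraMap E L (z : E)) hv
  simp only [MulMemClass.coe_mul, map_mul, OneMemClass.coe_one, map_one] at hv'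
  show (σ (algebraMap E L (x : E)) - algebraMap E L (x : E)) * algebraMap E L (v : E) = 1
  rw [← hv']
  congr 1
  have h3 : algebraMap E L ((σ.restrictNormal E) (x : E) - (x : E)) =
      σ (algebraMap E L (x : E)) - algebraMap E L (x : E) := by
    rw [map_sub, AlgEquiv.restrictNormal_commutes]
  exact h3.symm

end Restrict

end Fermat.Agent.S34
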