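import Mathlib
import Fermat.Agent.S18.DvrDef
import Fermat.Agent.S34.InstAbs2
import Fermat.Agent.S34.Charts2Inst
import Fermat.Agent.S34.SigmaVal
import Fermat.Agent.S34.Val2Def
import Fermat.Agent.S34.InstChoice

/-!
# S34, package INST-MOD: the modular instantiation of the abstract assembly

`s34im_field`: `K0` a field with an embedding into `ℚ̄`, `A0` a discrete valuation subring of
`K0`, `q ∤ M` a prime, `F = K0(X₀(M q))`, `V₁ = va2V1`, `V₂ = va2V2` the two valuation rings,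
`t = (h - c1) / (h - c0)` a Hauptmodul chart coordinate, `s` an element of the inertia group of
`A0` fixing `c0`, `c1`, `σ'` its coefficientwise action on `F`.  All hypotheses of the abstract
assembly which concern `V₁`, the charts and `σ'` are discharged.
-/

set_option autoImplicit false
set_option linter.unusedSectionVars false

noncomputable section

open ModularCurve AlgebraicCurve Polynomial
open Fermat.Agent.S18 Fermat.Agent.S37

namespace Fermat.Agent.S34

local notation "Qb" => AlgebraicClosure ℚ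

section Field

variable (M q : ℕ) [NeZero M] [hq : Fact q.Prime] (hM : ¬ q ∣ M)
  (K0 : Type*) [Field K0] [Algebra ℚ K0] [Algebra K0 Qb]
  (A0 : ValuationSubring K0) [IsDiscreteValuationRing ↥A0]
  {a2 : ℕ} (H : HauptRec a2 q)

/-- the coefficientwise action of `s` fixes the chart coordinate when `s` fixes the base
points -/
theorem s34im_sigma_t' (N : ℕ) (s : K0 ≃ₐ[ℚ] K0) (c0 c1 : K0) (hs0 : s c0 = c0) (hs1 : s c1 = c1)
    (t : ↥(laurentBaseChange K0 (modularFunctionFieldFull N)))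
    (ht : (t : LaurentSeries K0) = cinstU H K0 c0 c1) :
    arithmeticRingAut (modularFunctionFieldFull N) s t = t := by
  apply Subtype.ext
  rw [coe_arithmeticRingAut_apply, ht, cinstU_coeffMap]
  have h0 : (s : K0 →+* K0) c0 = c0 := hs0
  have h1 : (s : K0 →+* K0) c1 = c1 := hs1
  rw [h0, h1]

/-- the second valuation ring is the pull-back of the first under the swap equivalence -/
theorem s34im_V2_eq :
    va2V2 M q hM K0 A0 =
      (va2V1 M q K0 A0).comap
        ((va2SwapEquiv M q hq.out hM K0 :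
            ↥(laurentBaseChange K0 (modularFunctionFieldFull (M * q))) ≃+*
              ↥(laurentBaseChange K0 (modularFunctionFieldFull (M * q)))) :
          ↥(laurentBaseChange K0 (modularFunctionFieldFull (M * q))) →+*
            ↥(laurentBaseChange K0 (modularFunctionFieldFull (M * q)))) := by
  ext x
  rfl

/-- the swap maps `𝔪_{V₁}` into `𝔪_{V₂}` -/
theorem s34im_swap_nonunits (x : ↥(laurentBaseChange K0 (modularFunctionFieldFull (M * q)))) (hx : x ∈ (va2V1 M q K0 A0).nonunits) :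
    va2SwapEquiv M q hq.out hM K0 x ∈ (va2V2 M q hM K0 A0).nonunits := by
  have h1 : va2V2 M q hM K0 A0 = (va2V1 M q K0 A0).comap (va2Swap M q hq.out hM K0) := rfl
  rw [h1, dvd_mem_nonunits_comap, va2SwapEquiv_apply, va2Swap_swap]
  exact hx

/-- membership in the nonunits of the second valuation ring -/
theorem s34im_mem_V2_nonunits (x : ↥(laurentBaseChange K0 (modularFunctionFieldFull (M * q)))) :
    x ∈ (va2V2 M q hM K0 A0).nonunits ↔
      va2Swap M q hq.out hM K0 x ∈ (va2V1 M q K0 A0).nonunits := by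
  have h1 : va2V2 M q hM K0 A0 = (va2V1 M q K0 A0).comap (va2Swap M q hq.out hM K0) := rfl
  rw [h1, dvd_mem_nonunits_comap]

/-- **INST-MOD over a field of definition**: `s34ib_main` for the level-`M q` function field
over `K0`, the valuation rings `va2V1`, `va2V2`, the Hauptmodul chart coordinate `t`, the swap
`va2SwapEquiv` and the coefficientwise action of an inertia element `s` fixing the base points.
Remaining hypotheses: `t, t⁻¹ ∈ V₂` and exhaustiveness (A-INST), the Dedekind property of the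
first component (B1-COMP), domination (DOM), and (LOC) at the crossing points (NODE). -/
theorem s34im_field
    [Algebra A0 ↥(laurentBaseChange K0 (modularFunctionFieldFull (M * q)))]
    [IsScalarTower A0 K0 ↥(laurentBaseChange K0 (modularFunctionFieldFull (M * q)))]
    (s : K0 ≃ₐ[ℚ] K0) (hs : s ∈ A0.inertiaSubgroupIn ℚ)
    (c0 c1 : A0) (hc : IsLocalRing.residue A0 c0 ≠ IsLocalRing.residue A0 c1)
    (hs0 : s (c0 : K0) = c0) (hs1 : s (c1 : K0) = c1)
    (t : ↥(laurentBaseChange K0 (modularFunctionFieldFull (M * q))))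
    (ht : (t : LaurentSeries K0) = cinstU H K0 (c0 : K0) (c1 : K0))
    (τ : A0) (hτ : Irreducible τ)
    -- the facts about the second valuation ring (A-INST)
    (htV₂ : t ∈ va2V2 M q hM K0 A0) (htV₂' : t⁻¹ ∈ va2V2 M q hM K0 A0)
    (hex : ∀ O' : ValuationSubring ↥(laurentBaseChange K0 (modularFunctionFieldFull (M * q))),
      ChtSame K0 (va2V1 M q K0 A0) t O' → O' = va2V1 M q K0 A0 ∨ O' = va2V2 M q hM K0 A0)
    (m : ℕ) (hm2 : 2 ≤ m) (hmA : IsUnit (m : A0))
    -- the first component of the special fibres of the two charts (B1-COMP)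
    (hD₀ : ∀ 𝔭 : Ideal ↥(chtO A0 {t}),
      (∀ x : ↥(chtO A0 {t}), x ∈ 𝔭 ↔ (x : ↥(laurentBaseChange K0 (modularFunctionFieldFull (M * q)))) ∈ (va2V1 M q K0 A0).nonunits) →
      IsDedekindDomain (↥(chtO A0 {t}) ⧸ 𝔭))
    (hD₁ : ∀ 𝔭 : Ideal ↥(chtO A0 {t⁻¹}),
      (∀ x : ↥(chtO A0 {t⁻¹}), x ∈ 𝔭 ↔ (x : ↥(laurentBaseChange K0 (modularFunctionFieldFull (M * q)))) ∈ (va2V1 M q K0 A0).nonunits) →
      IsDedekindDomain (↥(chtO A0 {t⁻¹}) ⧸ 𝔭))
    -- domination (DOM)
    (hdom₀ : ∀ 𝔫 : Ideal ↥(chtO A0 {t}), 𝔫.IsMaximal →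
      algebraMap A0 ↥(chtO A0 {t}) τ ∈ 𝔫 →
      (∃ r : ↥(chtO A0 {t}), (r : ↥(laurentBaseChange K0 (modularFunctionFieldFull (M * q)))) ∈ (va2V1 M q K0 A0).nonunits ∧ r ∉ 𝔫) →
      (∃ a s : ↥(chtO A0 {t}), s ∉ 𝔫 ∧ va2SwapEquiv M q hq.out hM K0 t * (s : ↥(laurentBaseChange K0 (modularFunctionFieldFull (M * q)))) = a) ∨
      (∃ a s : ↥(chtO A0 {t}), s ∉ 𝔫 ∧ va2SwapEquiv M q hq.out hM K0 t⁻¹ * (s : ↥(laurentBaseChange K0 (modularFunctionFieldFull (M * q)))) = a))
    (hdom₁ : ∀ 𝔫 : Ideal ↥(chtO A0 {t⁻¹}), 𝔫.IsMaximal →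
      algebraMap A0 ↥(chtO A0 {t⁻¹}) τ ∈ 𝔫 →
      (∃ r : ↥(chtO A0 {t⁻¹}), (r : ↥(laurentBaseChange K0 (modularFunctionFieldFull (M * q)))) ∈ (va2V1 M q K0 A0).nonunits ∧ r ∉ 𝔫) →
      (∃ a s : ↥(chtO A0 {t⁻¹}), s ∉ 𝔫 ∧ va2SwapEquiv M q hq.out hM K0 t * (s : ↥(laurentBaseChange K0 (modularFunctionFieldFull (M * q)))) = a) ∨
      (∃ a s : ↥(chtO A0 {t⁻¹}), s ∉ 𝔫 ∧ va2SwapEquiv M q hq.out hM K0 t⁻¹ * (s : ↥(laurentBaseChange K0 (modularFunctionFieldFull (M * q)))) = a))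
    (f₀ : ↥(laurentBaseChange K0 (modularFunctionFieldFull (M * q)))) (hf₀ : f₀ ≠ 0)
    (hdiv : ∀ Q : AlgebraicCurve.Place K0 ↥(laurentBaseChange K0 (modularFunctionFieldFull (M * q))), (m : ℤ) ∣ Q.ord f₀)
    -- (LOC) at the crossing points (NODE), for `f₀` and its swap
    (hnode₀ : ∀ f : ↥(laurentBaseChange K0 (modularFunctionFieldFull (M * q))), f = f₀ ∨ f = (va2SwapEquiv M q hq.out hM K0).symm f₀ →
      ∀ 𝔫 : Ideal ↥(chtO A0 {t}), 𝔫.IsMaximal →
      (∀ x : ↥(chtO A0 {t}), (x : ↥(laurentBaseChange K0 (modularFunctionFieldFull (M * q)))) ∈ (va2V1 M q K0 A0).nonunits → x ∈ 𝔫) →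
      (∀ x : ↥(chtO A0 {t}), (x : ↥(laurentBaseChange K0 (modularFunctionFieldFull (M * q)))) ∈ (va2V2 M q hM K0 A0).nonunits → x ∈ 𝔫) →
      S34Loc τ m (chtO A0 {t}) f 𝔫)
    (hnode₁ : ∀ f : ↥(laurentBaseChange K0 (modularFunctionFieldFull (M * q))), f = f₀ ∨ f = (va2SwapEquiv M q hq.out hM K0).symm f₀ →
      ∀ 𝔫 : Ideal ↥(chtO A0 {t⁻¹}), 𝔫.IsMaximal →
      (∀ x : ↥(chtO A0 {t⁻¹}), (x : ↥(laurentBaseChange K0 (modularFunctionFieldFull (M * q)))) ∈ (va2V1 M q K0 A0).nonunits → x ∈ 𝔫) →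
      (∀ x : ↥(chtO A0 {t⁻¹}), (x : ↥(laurentBaseChange K0 (modularFunctionFieldFull (M * q)))) ∈ (va2V2 M q hM K0 A0).nonunits → x ∈ 𝔫) →
      S34Loc τ m (chtO A0 {t⁻¹}) f 𝔫) :
    ∃ (w : K0) (G : ↥(laurentBaseChange K0 (modularFunctionFieldFull (M * q)))), G ≠ 0 ∧
      arithmeticRingAut (modularFunctionFieldFull (M * q)) s
          (arithmeticRingAut (modularFunctionFieldFull (M * q)) s f₀) * f₀ =
        algebraMap K0 ↥(laurentBaseChange K0 (modularFunctionFieldFull (M * q))) w * G ^ m *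
          (arithmeticRingAut (modularFunctionFieldFull (M * q)) s f₀) ^ 2 := by
  classical
  have : CharZero K0 := algebraRat.charZero K0
  have hsD : s ∈ A0.decompositionSubgroup ℚ := jrg_inertia_mem_decomp ℚ A0 hs
  have hVG : ∀ x : ↥(laurentBaseChange K0 (modularFunctionFieldFull (M * q))),
      x ∈ va2V1 M q K0 A0 ↔ (x : LaurentSeries K0) ∈ grV A0 := fun x => Iff.rfl
  have hgdv : ∀ x ∈ laurentBaseChange K0 (modularFunctionFieldFull (M * q)), gdvProp A0 x :=
    fun x hx => gdv_full_le A0 (M * q) hx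
  have hmap : ∀ a : A0,
      algebraMap A0 ↥(laurentBaseChange K0 (modularFunctionFieldFull (M * q))) a =
        algebraMap K0 ↥(laurentBaseChange K0 (modularFunctionFieldFull (M * q))) (a : K0) :=
    fun a => IsScalarTower.algebraMap_apply A0 K0
      ↥(laurentBaseChange K0 (modularFunctionFieldFull (M * q))) a
  have hτ0 : τ ≠ 0 := hτ.ne_zero
  obtain ⟨hA, hτV, hτgen, htt, htV, htV', hG, hfin, hconst⟩ :=
    c2i_hyps A0 (M * q) H (va2V1 M q K0 A0) hVG c0 c1 hc t ht τ hτ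
  -- the swap
  have hwA : ∀ a : A0, va2SwapEquiv M q hq.out hM K0 (algebraMap A0 ↥(laurentBaseChange K0 (modularFunctionFieldFull (M * q))) a) =
      algebraMap A0 ↥(laurentBaseChange K0 (modularFunctionFieldFull (M * q))) a := by
    intro a
    rw [hmap]
    exact va2Swap_const M q hq.out hM K0 _
  have hA₂ : ∀ a : A0, algebraMap A0 ↥(laurentBaseChange K0 (modularFunctionFieldFull (M * q))) a ∈ va2V2 M q hM K0 A0 := by
    intro a
    rw [mem_va2V2, ← va2SwapEquiv_apply, hwA]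
    exact hA a
  have hτV₂ : algebraMap A0 ↥(laurentBaseChange K0 (modularFunctionFieldFull (M * q))) τ ∈ (va2V2 M q hM K0 A0).nonunits := by
    rw [s34im_mem_V2_nonunits, ← va2SwapEquiv_apply, hwA]
    exact hτV
  have hτgen₂ : ∀ x ∈ (va2V2 M q hM K0 A0).nonunits,
      x * (algebraMap A0 ↥(laurentBaseChange K0 (modularFunctionFieldFull (M * q))) τ)⁻¹ ∈ va2V2 M q hM K0 A0 := by
    intro x hx
    rw [s34im_mem_V2_nonunits] at hx
    rw [mem_va2V2, map_mul, map_inv₀, ← va2SwapEquiv_apply M q hq.out hM K0 (algebraMap A0 ↥(laurentBaseChange K0 (modularFunctionFieldFull (M * q))) τ),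
      hwA]
    exact hτgen _ hx
  -- the automorphism
  set σ' := arithmeticRingAut (modularFunctionFieldFull (M * q)) s with hσ'
  have hσt : σ' t = t := s34im_sigma_t' q K0 H (M * q) s _ _ hs0 hs1 t ht
  have hσinv : σ' t⁻¹ = t⁻¹ := by rw [map_inv₀, hσt]
  have hσA : ∀ a : A0, ∃ a' : A0,
      σ' (algebraMap A0 ↥(laurentBaseChange K0 (modularFunctionFieldFull (M * q))) a) =
        algebraMap A0 ↥(laurentBaseChange K0 (modularFunctionFieldFull (M * q))) a' := by
    intro a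
    refine ⟨⟨s (a : K0), jrg_mem_of_mem_decomp ℚ A0 ⟨s, hsD⟩ a.2⟩, ?_⟩
    rw [hmap, hmap, hσ', arithmeticRingAut_algebraMap]
  obtain ⟨ε, hε, hστ⟩ := sgv_hστ A0 (modularFunctionFieldFull (M * q)) hsD τ hτ0
  have hστ' : σ' (algebraMap A0 ↥(laurentBaseChange K0 (modularFunctionFieldFull (M * q))) τ) =
      algebraMap A0 ↥(laurentBaseChange K0 (modularFunctionFieldFull (M * q))) ε *
        algebraMap A0 ↥(laurentBaseChange K0 (modularFunctionFieldFull (M * q))) τ := by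
    rw [hmap, hmap, hστ]
  have hσV₁ : ∀ x ∈ va2V1 M q K0 A0, (σ' x - x) *
      (algebraMap A0 ↥(laurentBaseChange K0 (modularFunctionFieldFull (M * q))) τ)⁻¹ ∈
        va2V1 M q K0 A0 := by
    intro x hx
    rw [hmap]
    exact sgv_hσV A0 (modularFunctionFieldFull (M * q)) (va2V1 M q K0 A0) hVG hgdv τ
      hτ.maximalIdeal_eq hτ0 hs x hx
  have hσu₁ : ∀ g : ↥(laurentBaseChange K0 (modularFunctionFieldFull (M * q))), g ≠ 0 →
      σ' g * g⁻¹ ∈ va2V1 M q K0 A0 := fun g hg =>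
    sgv_hσu A0 (modularFunctionFieldFull (M * q)) (va2V1 M q K0 A0) hVG hgdv hsD g hg
  -- transport to the second valuation ring
  have hcomm : ∀ x, va2SwapEquiv M q hq.out hM K0 (σ' x) =
      σ' (va2SwapEquiv M q hq.out hM K0 x) := fun x => va2Swap_gal M q hq.out hM K0 s x
  have hσV₂ : ∀ x ∈ va2V2 M q hM K0 A0, (σ' x - x) *
      (algebraMap A0 ↥(laurentBaseChange K0 (modularFunctionFieldFull (M * q))) τ)⁻¹ ∈
        va2V2 M q hM K0 A0 := by
    rw [s34im_V2_eq]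
    exact sgv_comap_hσV (va2V1 M q K0 A0) (va2SwapEquiv M q hq.out hM K0) σ' hcomm _ (hwA τ)
      hσV₁
  have hσu₂ : ∀ g : ↥(laurentBaseChange K0 (modularFunctionFieldFull (M * q))), g ≠ 0 →
      σ' g * g⁻¹ ∈ va2V2 M q hM K0 A0 := by
    rw [s34im_V2_eq]
    exact sgv_comap_hσu (va2V1 M q K0 A0) (va2SwapEquiv M q hq.out hM K0) σ' hcomm hσu₁
  exact s34ib_main (K0 := K0) (va2V1 M q K0 A0) (va2V2 M q hM K0 A0) hA hA₂ hτ hτV hτV₂ hτgen
    hτgen₂ t htt htV htV' htV₂ htV₂' hG hfin hex hconst m hm2 hmA σ' ε hε hστ'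
    (fun x hx => s34ic_chtO_stable σ' hσA t hσt hx)
    (fun x hx => s34ic_chtO_stable σ' hσA t⁻¹ hσinv hx)
    hσV₁ hσV₂ hσu₁ hσu₂ (va2SwapEquiv M q hq.out hM K0) hwA
    (s34im_swap_nonunits M q hM K0 A0) hD₀ hD₁ hdom₀ hdom₁ f₀ hf₀ hdiv hnode₀ hnode₁

end Field

end Fermat.Agent.S34
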