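import Mathlib
import Fermat.Agent.S29.OpenStab
import Fermat.Agent.S29.OpenStabTors
import Fermat.Agent.S18.BaseChangeField
import Fermat.Agent.S18.BaseChangePlace
import Fermat.Agent.S18.DvrDef

/-!
# S34, package H [KUMMER-INST]: from a core statement over number fields to `J₀(M)`

`(σ - 1)² x = 0` for a torsion class `x` of `J₀(M)` follows from a statement about functions of
the function field of `X₀(M)` over sufficiently large finite normal extensions `K₁` of `ℚ`:
a function `f₀` whose divisor is divisible by `m` and supported at `K₁`-rational places satisfies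
`τ(τ f₀) · f₀ = w · G ^ m · (τ f₀) ^ 2`, `τ` the coefficient action of `σ|K₁`.
-/

set_option autoImplicit false

open ModularCurve AlgebraicCurve

namespace Fermat.Agent.S34

local notation "Qb" => AlgebraicClosure ℚ

/-! ### The coefficient action and base change -/

section action

variable (F₀ : IntermediateField ℚ (LaurentSeries ℚ))

/-- base change to `ℚ̄` intertwines the coefficient action of `σ|K₁` with that of `σ` -/
theorem s34h_bcf_smul (K1 : IntermediateField ℚ Qb) [Normal ℚ K1] (σ : Qb ≃ₐ[ℚ] Qb)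
    (f0 : ↥(laurentBaseChange ↥K1 F₀)) :
    Fermat.Agent.S18.bcfHom ↥K1 Qb F₀ (arithmeticGalois F₀ (σ.restrictNormal ↥K1) • f0) =
      arithmeticGalois F₀ σ • Fermat.Agent.S18.bcfHom ↥K1 Qb F₀ f0 := by
  apply Subtype.ext
  rw [Fermat.Agent.S18.bcfHom_coe, coe_arithmeticGalois_smul, coe_arithmeticGalois_smul,
    Fermat.Agent.S18.bcfHom_coe, coeffMap_coeffMap, coeffMap_coeffMap]
  refine coeffMap_congr (RingHom.ext fun x => ?_) _
  exact AlgEquiv.restrictNormal_commutes σ ↥K1 x

/-- an automorphism fixing `K₁` pointwise fixes the functions defined over `K₁` -/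
theorem s34h_fixed_smul (K1 : IntermediateField ℚ Qb) (σ : Qb ≃ₐ[ℚ] Qb)
    (hσ : ∀ x ∈ K1, σ x = x) (f0 : ↥(laurentBaseChange ↥K1 F₀)) :
    arithmeticGalois F₀ σ • Fermat.Agent.S18.bcfHom ↥K1 Qb F₀ f0 =
      Fermat.Agent.S18.bcfHom ↥K1 Qb F₀ f0 := by
  apply Subtype.ext
  rw [coe_arithmeticGalois_smul, Fermat.Agent.S18.bcfHom_coe, coeffMap_coeffMap]
  refine coeffMap_congr (RingHom.ext fun x => ?_) _
  exact hσ (x : Qb) x.2

end action

/-! ### Values at rational places -/

section residue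

variable {K F : Type*} [Field K] [Field F] [Algebra K F]

/-- subtracting its value from a function regular at a rational place gives `0` or a function
vanishing there -/
theorem s34h_sub_res (v : Place K F) (hbij : Function.Bijective (algebraMap K v.ResidueField))
    (z : F) (hz : z ∈ v.toValuationSubring) :
    z - algebraMap K F (Fermat.Agent.S24.placeRes v hbij ⟨z, hz⟩) = 0 ∨
      0 < v.ord (z - algebraMap K F (Fermat.Agent.S24.placeRes v hbij ⟨z, hz⟩)) := by
  obtain ⟨a, ha⟩ : ∃ a : K, a = Fermat.Agent.S24.placeRes v hbij ⟨z, hz⟩ := ⟨_, rfl⟩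
  rw [← ha]
  by_cases h0 : z - algebraMap K F a = 0
  · exact Or.inl h0
  right
  obtain ⟨Z, hZ⟩ : ∃ Z : v.toValuationSubring,
      Z = ⟨z, hz⟩ - algebraMap K v.toValuationSubring a := ⟨_, rfl⟩
  have hZres : Fermat.Agent.S24.placeRes v hbij Z = 0 := by
    rw [hZ, map_sub, AlgHom.commutes, ← ha]
    simp
  have hZunit : ¬ IsUnit Z := (Fermat.Agent.S24.placeRes_eq_zero_iff v hbij Z).mp hZres
  have hZcoe : (Z : F) = z - algebraMap K F a := by
    rw [hZ]
    push_cast
    rw [Place.coe_algebraMap]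
  rw [Fermat.Agent.S24.sf_ord_pos_iff]
  intro hinv
  apply hZunit
  refine IsUnit.of_mul_eq_one (⟨_, hinv⟩ : v.toValuationSubring) ?_
  apply Subtype.ext
  push_cast
  rw [hZcoe]
  exact mul_inv_cancel₀ h0

end residue

section rational

variable (N : ℕ) [NeZero N]

/-- **Galois descent of values.** If the place `P` of `ℚ̄(X₀(N))` is fixed by `Gal(ℚ̄/K₁)`, the
value at `P` of a function defined over `K₁` lies in `K₁`. -/
theorem s34h_res_mem (K1 : IntermediateField ℚ Qb)
    (P : Place Qb (modularFunctionFieldBar N))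
    (hP : ∀ σ : Qb ≃ₐ[ℚ] Qb, (∀ x ∈ K1, σ x = x) →
      arithmeticGalois (modularFunctionFieldFull N) σ • P = P)
    (y0 : ↥(laurentBaseChange ↥K1 (modularFunctionFieldFull N)))
    (hy : Fermat.Agent.S18.bcfHom ↥K1 Qb (modularFunctionFieldFull N) y0 ∈ P.toValuationSubring) :
    ∃ c : ↥K1, algebraMap ↥K1 Qb c =
      Fermat.Agent.S24.placeRes P (Fermat.Agent.S37.hki_residue N P) ⟨_, hy⟩ := by
  have hKalg : Algebra.IsAlgebraic ℚ Qb := AlgebraicClosure.isAlgebraic ℚ
  have hKcl : IsAlgClosure ℚ Qb := ⟨inferInstance, inferInstance⟩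
  have hKgal : IsGalois ℚ Qb := IsAlgClosure.isGalois ℚ Qb
  have hK1gal : IsGalois ↥K1 Qb := IsGalois.tower_top_of_isGalois ℚ ↥K1 Qb
  have hdich := s34h_sub_res P (Fermat.Agent.S37.hki_residue N P) _ hy
  obtain ⟨a, ha⟩ : ∃ a : Qb, a =
      Fermat.Agent.S24.placeRes P (Fermat.Agent.S37.hki_residue N P) ⟨_, hy⟩ := ⟨_, rfl⟩
  rw [← ha] at hdich ⊢
  obtain ⟨Y, hY⟩ : ∃ Y : ↥(modularFunctionFieldBar N),
      Y = Fermat.Agent.S18.bcfHom ↥K1 Qb (modularFunctionFieldFull N) y0 := ⟨_, rfl⟩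
  rw [← hY] at hdich
  apply (InfiniteGalois.mem_range_algebraMap_iff_fixed (k := ↥K1) (K := Qb) a).mpr
  intro τ
  have hσfix : ∀ x ∈ K1, (τ.restrictScalars ℚ) x = x := fun x hx => τ.commutes ⟨x, hx⟩
  show (τ.restrictScalars ℚ) a = a
  obtain ⟨σ, hσ⟩ : ∃ σ : Qb ≃ₐ[ℚ] Qb, σ = τ.restrictScalars ℚ := ⟨_, rfl⟩
  rw [← hσ] at hσfix ⊢
  obtain ⟨g, hg⟩ : ∃ g : SemilinearAut Qb ↥(modularFunctionFieldBar N),
      g = arithmeticGalois (modularFunctionFieldFull N) σ := ⟨_, rfl⟩
  have hgP : g • P = P := by rw [hg]; exact hP σ hσfix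
  have hgY : g • Y = Y := by
    rw [hY, hg]
    exact s34h_fixed_smul _ K1 σ hσfix y0
  have hgA : g • algebraMap Qb ↥(modularFunctionFieldBar N) a =
      algebraMap Qb ↥(modularFunctionFieldBar N) (σ a) := by
    rw [SemilinearAut.smul_algebraMap, hg]
    rfl
  obtain ⟨z, hz⟩ : ∃ z : ↥(modularFunctionFieldBar N),
      z = Y - algebraMap Qb ↥(modularFunctionFieldBar N) a := ⟨_, rfl⟩
  rw [← hz] at hdich
  have hgz : g • z = Y - algebraMap Qb ↥(modularFunctionFieldBar N) (σ a) := by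
    rw [hz, smul_sub, hgY, hgA]
  by_contra hne
  have hd : z - g • z = algebraMap Qb ↥(modularFunctionFieldBar N) (σ a - a) := by
    rw [hgz, hz, map_sub, sub_sub_sub_cancel_left]
  have hd0 : algebraMap Qb ↥(modularFunctionFieldBar N) (σ a - a) ≠ 0 :=
    (map_ne_zero _).mpr (sub_ne_zero.mpr hne)
  rcases hdich with h0 | hpos
  · have hgz0 : g • z = 0 := by rw [h0, smul_zero]
    rw [hgz0, h0, sub_zero] at hd
    exact hd0 hd.symm
  · have hpos' : 0 < P.ord (g • z) := by
      have h := SemilinearAut.ord_smul g P z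
      rw [hgP] at h
      rw [h]
      exact hpos
    have hge : 1 ≤ P.ord (z + -(g • z)) := by
      apply Fermat.Agent.S24.sf_ord_add_ge P _ 1 (Or.inr hpos)
        (Or.inr (by rw [Fermat.Agent.S24.sf_ord_neg]; exact hpos'))
      rw [← sub_eq_add_neg, hd]
      exact hd0
    rw [← sub_eq_add_neg, hd, Fermat.Agent.S24.sf_ord_algebraMap] at hge
    omega

/-- **Rationality, elementwise.** A place `Q` of the function field over `K₁` lying under a place
of `ℚ̄(X₀(N))` fixed by `Gal(ℚ̄/K₁)` is `K₁`-rational: every function regular at `Q` is congruent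
to a constant of `K₁` modulo the maximal ideal. -/
theorem s34h_rat (K1 : IntermediateField ℚ Qb)
    (Q : Place ↥K1 ↥(laurentBaseChange ↥K1 (modularFunctionFieldFull N)))
    (P : Place Qb (modularFunctionFieldBar N))
    (hPQ : ∀ y : ↥(laurentBaseChange ↥K1 (modularFunctionFieldFull N)),
      P.ord (Fermat.Agent.S18.bcfHom ↥K1 Qb (modularFunctionFieldFull N) y) = Q.ord y)
    (hP : ∀ σ : Qb ≃ₐ[ℚ] Qb, (∀ x ∈ K1, σ x = x) →
      arithmeticGalois (modularFunctionFieldFull N) σ • P = P)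
    (y : Q.toValuationSubring) :
    ∃ c : ↥K1, y - algebraMap ↥K1 Q.toValuationSubring c ∈
      IsLocalRing.maximalIdeal Q.toValuationSubring := by
  have hyQ : 0 ≤ Q.ord (y : ↥(laurentBaseChange ↥K1 (modularFunctionFieldFull N))) :=
    (Fermat.Agent.S24.sf_ord_nonneg_iff Q _).mpr y.2
  have hyP : Fermat.Agent.S18.bcfHom ↥K1 Qb (modularFunctionFieldFull N)
      (y : ↥(laurentBaseChange ↥K1 (modularFunctionFieldFull N))) ∈ P.toValuationSubring :=
    (Fermat.Agent.S24.sf_ord_nonneg_iff P _).mp (by rw [hPQ]; exact hyQ)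
  obtain ⟨c, hc⟩ := s34h_res_mem N K1 P hP _ hyP
  have hdich := s34h_sub_res P (Fermat.Agent.S37.hki_residue N P) _ hyP
  rw [← hc] at hdich
  refine ⟨c, ?_⟩
  obtain ⟨w, hw⟩ : ∃ w : Q.toValuationSubring,
      w = y - algebraMap ↥K1 Q.toValuationSubring c := ⟨_, rfl⟩
  rw [← hw]
  have hwcoe : (w : ↥(laurentBaseChange ↥K1 (modularFunctionFieldFull N))) =
      (y : ↥(laurentBaseChange ↥K1 (modularFunctionFieldFull N))) -
        algebraMap ↥K1 ↥(laurentBaseChange ↥K1 (modularFunctionFieldFull N)) c := by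
    rw [hw]
    push_cast
    rw [Place.coe_algebraMap]
  have hbw : Fermat.Agent.S18.bcfHom ↥K1 Qb (modularFunctionFieldFull N)
      (w : ↥(laurentBaseChange ↥K1 (modularFunctionFieldFull N))) =
      Fermat.Agent.S18.bcfHom ↥K1 Qb (modularFunctionFieldFull N)
        (y : ↥(laurentBaseChange ↥K1 (modularFunctionFieldFull N))) -
        algebraMap Qb ↥(modularFunctionFieldBar N) (algebraMap ↥K1 Qb c) := by
    rw [hwcoe, map_sub, Fermat.Agent.S18.bcfHom_algebraMap]
  have hwd : (w : ↥(laurentBaseChange ↥K1 (modularFunctionFieldFull N))) = 0 ∨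
      0 < Q.ord (w : ↥(laurentBaseChange ↥K1 (modularFunctionFieldFull N))) := by
    rcases hdich with h0 | hpos
    · left
      apply Fermat.Agent.S18.bcfHom_injective ↥K1 Qb (modularFunctionFieldFull N)
      rw [hbw, h0, map_zero]
    · right
      rw [← hPQ, hbw]
      exact hpos
  rw [IsLocalRing.mem_maximalIdeal, mem_nonunits_iff]
  intro hunit
  rcases hwd with h0 | hpos
  · have hw0 : w = 0 := Subtype.ext h0
    rw [hw0] at hunit
    exact not_isUnit_zero hunit
  · rw [Fermat.Agent.S24.sf_ord_pos_iff] at hpos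
    apply hpos
    obtain ⟨u, hu⟩ := hunit
    have h1 : (w : ↥(laurentBaseChange ↥K1 (modularFunctionFieldFull N))) *
        ((u⁻¹ : (Q.toValuationSubring)ˣ) : Q.toValuationSubring) = 1 := by
      rw [← hu]
      have h2 : (u : Q.toValuationSubring) * ((u⁻¹ : (Q.toValuationSubring)ˣ) :
          Q.toValuationSubring) = 1 := u.mul_inv
      exact_mod_cast h2
    rw [inv_eq_of_mul_eq_one_right h1]
    exact Subtype.property _

/-- **Rationality.** The residue field of such a place is `K₁`. -/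
theorem s34h_bijective (K1 : IntermediateField ℚ Qb)
    (Q : Place ↥K1 ↥(laurentBaseChange ↥K1 (modularFunctionFieldFull N)))
    (P : Place Qb (modularFunctionFieldBar N))
    (hPQ : ∀ y : ↥(laurentBaseChange ↥K1 (modularFunctionFieldFull N)),
      P.ord (Fermat.Agent.S18.bcfHom ↥K1 Qb (modularFunctionFieldFull N) y) = Q.ord y)
    (hP : ∀ σ : Qb ≃ₐ[ℚ] Qb, (∀ x ∈ K1, σ x = x) →
      arithmeticGalois (modularFunctionFieldFull N) σ • P = P) :
    Function.Bijective (algebraMap ↥K1 Q.ResidueField) := by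
  refine ⟨(algebraMap ↥K1 Q.ResidueField).injective, fun r => ?_⟩
  obtain ⟨y, rfl⟩ := IsLocalRing.residue_surjective r
  obtain ⟨c, hc⟩ := s34h_rat N K1 Q P hPQ hP y
  refine ⟨c, ?_⟩
  have hres : IsLocalRing.residue Q.toValuationSubring
      (y - algebraMap ↥K1 Q.toValuationSubring c) = 0 :=
    (IsLocalRing.residue_eq_zero_iff _).mpr hc
  rw [map_sub, sub_eq_zero] at hres
  rw [hres]
  rfl

/-- a place with residue field the constant field has degree one -/
theorem s34h_deg_of_bijective {K F : Type*} [Field K] [Field F] [Algebra K F] (Q : Place K F)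
    (hbij : Function.Bijective (algebraMap K Q.ResidueField)) : Q.deg = 1 := by
  have h := (LinearEquiv.ofBijective (Algebra.linearMap K Q.ResidueField) hbij).finrank_eq
  rw [Module.finrank_self] at h
  exact h.symm

/-- finitely many places are fixed by the absolute Galois group of one number field -/
theorem s34h_places_fix (s : Finset (Place Qb (modularFunctionFieldBar N))) :
    ∃ L : IntermediateField ℚ Qb, FiniteDimensional ℚ L ∧
      ∀ σ : Qb ≃ₐ[ℚ] Qb, (∀ x ∈ L, σ x = x) → ∀ P ∈ s,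
        arithmeticGalois (modularFunctionFieldFull N) σ • P = P := by
  classical
  induction s using Finset.induction_on with
  | empty => exact ⟨⊥, inferInstance, fun σ _ P hP => absurd hP (Finset.notMem_empty P)⟩
  | insert a s _ ih =>
      obtain ⟨L₁, h₁, hs⟩ := ih
      obtain ⟨L₂, h₂, ha⟩ := Fermat.Agent.S29.ostab_place N a
      have := h₁
      have := h₂
      refine ⟨L₁ ⊔ L₂, inferInstance, fun σ hσ P hP => ?_⟩
      rcases Finset.mem_insert.mp hP with rfl | hP
      · exact ha σ fun z hz => hσ z ((le_sup_right : L₂ ≤ L₁ ⊔ L₂) hz)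
      · exact hs σ (fun z hz => hσ z ((le_sup_left : L₁ ≤ L₁ ⊔ L₂) hz)) P hP

end rational

/-! ### The core statement and the main theorem -/

/-- **The core statement over a number field `K₁`** (normal over `ℚ`), for the level `M`, the
exponent `m` and the automorphism `σ`: a nonzero function `f₀` of the function field of `X₀(M)`
over `K₁`, all of whose orders are divisible by `m` and all of whose zeros and poles are
`K₁`-rational places, satisfies `τ(τ f₀) · f₀ = w · G ^ m · (τ f₀) ^ 2` with `w ∈ K₁`, `G ≠ 0`,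
where `τ` is the action of `σ|K₁` on the coefficients. -/
def S34hCore (K1 : IntermediateField ℚ Qb) [Normal ℚ K1] (σ : Qb ≃ₐ[ℚ] Qb) (M m : ℕ) : Prop :=
  ∀ f0 : ↥(laurentBaseChange ↥K1 (modularFunctionFieldFull M)), f0 ≠ 0 →
    (∀ Q : Place ↥K1 ↥(laurentBaseChange ↥K1 (modularFunctionFieldFull M)),
      (m : ℤ) ∣ Q.ord f0) →
    (∀ Q : Place ↥K1 ↥(laurentBaseChange ↥K1 (modularFunctionFieldFull M)), Q.ord f0 ≠ 0 →
      Q.deg = 1 ∧ Function.Bijective (algebraMap ↥K1 Q.ResidueField) ∧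
      ∀ y ∈ Q.toValuationSubring, ∃ c : ↥K1,
        y - algebraMap ↥K1 ↥(laurentBaseChange ↥K1 (modularFunctionFieldFull M)) c ∈
          Q.toValuationSubring.nonunits) →
    ∃ (w : ↥K1) (G : ↥(laurentBaseChange ↥K1 (modularFunctionFieldFull M))), G ≠ 0 ∧
      (arithmeticGalois (modularFunctionFieldFull M) (σ.restrictNormal ↥K1) •
        arithmeticGalois (modularFunctionFieldFull M) (σ.restrictNormal ↥K1) • f0) * f0 =
      algebraMap ↥K1 ↥(laurentBaseChange ↥K1 (modularFunctionFieldFull M)) w * G ^ m *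
        (arithmeticGalois (modularFunctionFieldFull M) (σ.restrictNormal ↥K1) • f0) ^ 2

section main

variable (M : ℕ) [NeZero M]

/-- the three rationality statements of `S34hCore` for a place under a Galois-fixed place -/
theorem s34h_rational (K1 : IntermediateField ℚ Qb)
    (Q : Place ↥K1 ↥(laurentBaseChange ↥K1 (modularFunctionFieldFull M)))
    (P : Place Qb (modularFunctionFieldBar M))
    (hPQ : ∀ y : ↥(laurentBaseChange ↥K1 (modularFunctionFieldFull M)),
      P.ord (Fermat.Agent.S18.bcfHom ↥K1 Qb (modularFunctionFieldFull M) y) = Q.ord y)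
    (hP : ∀ σ : Qb ≃ₐ[ℚ] Qb, (∀ x ∈ K1, σ x = x) →
      arithmeticGalois (modularFunctionFieldFull M) σ • P = P) :
    Q.deg = 1 ∧ Function.Bijective (algebraMap ↥K1 Q.ResidueField) ∧
      ∀ y ∈ Q.toValuationSubring, ∃ c : ↥K1,
        y - algebraMap ↥K1 ↥(laurentBaseChange ↥K1 (modularFunctionFieldFull M)) c ∈
          Q.toValuationSubring.nonunits := by
  have hbij := s34h_bijective M K1 Q P hPQ hP
  refine ⟨s34h_deg_of_bijective Q hbij, hbij, fun y hy => ?_⟩
  obtain ⟨c, hc⟩ := s34h_rat M K1 Q P hPQ hP ⟨y, hy⟩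
  refine ⟨c, ?_⟩
  rw [ValuationSubring.mem_nonunits_iff_exists_mem_maximalIdeal]
  refine ⟨Q.toValuationSubring.sub_mem hy (Q.algebraMap_mem' c), ?_⟩
  exact hc

omit [NeZero M] in
/-- the divisor of the Galois conjugate of a function -/
theorem s34h_ord_smul (g : SemilinearAut Qb ↥(modularFunctionFieldBar M))
    (f : ↥(modularFunctionFieldBar M)) (D : Divisor Qb ↥(modularFunctionFieldBar M)) (k : ℤ)
    (hf : ∀ w : Place Qb ↥(modularFunctionFieldBar M), k * D w = w.ord f)
    (w : Place Qb ↥(modularFunctionFieldBar M)) :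
    k * (g • D) w = w.ord (g • f) := by
  rw [SemilinearAut.divisor_smul_apply, hf (g⁻¹ • w)]
  have h := SemilinearAut.ord_smul g (g⁻¹ • w) f
  rw [smul_inv_smul] at h
  exact h.symm

/-- **Package H.** `(σ - 1)² x = 0` for an `m`-torsion class `x` of `J₀(M)`, given the core
statement over all sufficiently large finite normal extensions of `ℚ`. -/
theorem s34h_main (m : ℕ) (hm : m ≠ 0) (σ : Qb ≃ₐ[ℚ] Qb)
    (hcore : ∃ T : Finset Qb, ∀ (K1 : IntermediateField ℚ Qb) [FiniteDimensional ℚ K1]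
      [Normal ℚ K1], (∀ c ∈ T, c ∈ K1) → S34hCore K1 σ M m)
    (x : JZero M) (hx : m • x = 0) :
    σ • σ • x - (σ • x + σ • x) + x = 0 := by
  classical
  obtain ⟨T, hT⟩ := hcore
  obtain ⟨D, rfl⟩ := Pic0.mk_surjective x
  -- `m D` is principal
  have hmD : ((m • D : Divisor.degZero (K := Qb) (F := ↥(modularFunctionFieldBar M))) :
      Divisor Qb ↥(modularFunctionFieldBar M)) ∈
      Divisor.principal (K := Qb) (F := ↥(modularFunctionFieldBar M)) := by
    have h1 : Pic0.mk (m • D) = (0 : JZero M) := by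
      rw [← hx]
      rfl
    have h2 := (QuotientAddGroup.eq_zero_iff (m • D)).mp h1
    exact AddSubgroup.mem_addSubgroupOf.mp h2
  obtain ⟨f, hf0, hf⟩ := hmD
  have hfD : ∀ w : Place Qb ↥(modularFunctionFieldBar M),
      (m : ℤ) * (D : Divisor Qb ↥(modularFunctionFieldBar M)) w = w.ord f := by
    intro w
    rw [← hf w, AddSubgroupClass.coe_nsmul, Finsupp.smul_apply, nsmul_eq_mul]
  -- the support of `f`
  have := Fermat.Agent.S24.finiteDimensional_jBar' M
  have htr := Fermat.Agent.S24.transcendental_jBar' M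
  have hfin := Fermat.Agent.S24.ord_support_finite (Fermat.Agent.S24.jBar M) htr f hf0
  obtain ⟨Ls, hLsfin, hLs⟩ := s34h_places_fix M hfin.toFinset
  -- descent of `f`
  obtain ⟨Tf, hTf⟩ := Fermat.Agent.S18.dvd_descend_bc Qb (modularFunctionFieldFull M)
    (f : LaurentSeries Qb) f.2
  -- the number field
  have := hLsfin
  have := Fermat.Agent.S18.dvd_adjoin_finite (T ∪ Tf)
  obtain ⟨K1, hK1fin, hK1gal, hle⟩ := Fermat.Agent.S29.ost_exists_galois
    (Ls ⊔ IntermediateField.adjoin ℚ ((T ∪ Tf : Finset Qb) : Set Qb))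
  have := hK1fin
  have : Normal ℚ ↥K1 := hK1gal.to_normal
  have hLsK : Ls ≤ K1 := le_trans le_sup_left hle
  have hTK : ∀ c ∈ T ∪ Tf, c ∈ K1 := fun c hc =>
    hle ((le_sup_right : _ ≤ Ls ⊔ IntermediateField.adjoin ℚ ((T ∪ Tf : Finset Qb) : Set Qb))
      (IntermediateField.subset_adjoin ℚ _ (Finset.mem_coe.mpr hc)))
  have hcoreK := hT K1 (fun c hc => hTK c (Finset.mem_union_left _ hc))
  obtain ⟨x0, hx0mem, hx0f⟩ := hTf K1 (fun c hc => hTK c (Finset.mem_union_right _ hc))
  obtain ⟨f0, hf0def⟩ : ∃ f0 : ↥(laurentBaseChange ↥K1 (modularFunctionFieldFull M)),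
      f0 = ⟨x0, hx0mem⟩ := ⟨_, rfl⟩
  have hbf : Fermat.Agent.S18.bcfHom ↥K1 Qb (modularFunctionFieldFull M) f0 = f := by
    apply Subtype.ext
    rw [Fermat.Agent.S18.bcfHom_coe, hf0def]
    exact hx0f
  have hf00 : f0 ≠ 0 := by
    rintro rfl
    rw [map_zero] at hbf
    exact hf0 hbf.symm
  have _alg : Algebra.IsAlgebraic ℚ Qb := AlgebraicClosure.isAlgebraic ℚ
  have _algK : Algebra.IsAlgebraic ↥K1 Qb := Fermat.Agent.S18.bcf_isAlgebraic ↥K1 Qb
  -- the hypotheses of the core statement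
  have h1 : ∀ Q : Place ↥K1 ↥(laurentBaseChange ↥K1 (modularFunctionFieldFull M)),
      (m : ℤ) ∣ Q.ord f0 := by
    intro Q
    apply Fermat.Agent.S18.bcf_dvd_ord ↥K1 Qb (modularFunctionFieldFull M) (m : ℤ) f0
    intro P
    rw [hbf, ← hfD P]
    exact dvd_mul_right _ _
  have h2 : ∀ Q : Place ↥K1 ↥(laurentBaseChange ↥K1 (modularFunctionFieldFull M)),
      Q.ord f0 ≠ 0 →
      Q.deg = 1 ∧ Function.Bijective (algebraMap ↥K1 Q.ResidueField) ∧
      ∀ y ∈ Q.toValuationSubring, ∃ c : ↥K1,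
        y - algebraMap ↥K1 ↥(laurentBaseChange ↥K1 (modularFunctionFieldFull M)) c ∈
          Q.toValuationSubring.nonunits := by
    intro Q hQ
    obtain ⟨P, hP⟩ := Fermat.Agent.S18.bcf_exists_place ↥K1 Qb (modularFunctionFieldFull M) Q
    have hPsupp : P ∈ hfin.toFinset := by
      rw [Set.Finite.mem_toFinset, Function.mem_support, ← hbf, hP]
      exact hQ
    exact s34h_rational M K1 Q P hP
      (fun τ hτ => hLs τ (fun z hz => hτ z (hLsK hz)) P hPsupp)
  obtain ⟨w, G, hG0, hEq⟩ := hcoreK f0 hf00 h1 h2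
  -- push the relation to `ℚ̄`
  obtain ⟨g, hg⟩ : ∃ g : SemilinearAut Qb ↥(modularFunctionFieldBar M),
      g = arithmeticGalois (modularFunctionFieldFull M) σ := ⟨_, rfl⟩
  obtain ⟨Gb, hGb⟩ : ∃ Gb : ↥(modularFunctionFieldBar M),
      Gb = Fermat.Agent.S18.bcfHom ↥K1 Qb (modularFunctionFieldFull M) G := ⟨_, rfl⟩
  have hGb0 : Gb ≠ 0 := by
    rw [hGb]
    exact (map_ne_zero _).mpr hG0
  have hEqb : (g • g • f) * f =
      algebraMap Qb ↥(modularFunctionFieldBar M) (algebraMap ↥K1 Qb w) * Gb ^ m *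
        (g • f) ^ 2 := by
    have hb1 : Fermat.Agent.S18.bcfHom ↥K1 Qb (modularFunctionFieldFull M)
        (arithmeticGalois (modularFunctionFieldFull M) (σ.restrictNormal ↥K1) • f0) = g • f := by
      rw [s34h_bcf_smul, hbf, hg]
    have hb2 : Fermat.Agent.S18.bcfHom ↥K1 Qb (modularFunctionFieldFull M)
        (arithmeticGalois (modularFunctionFieldFull M) (σ.restrictNormal ↥K1) •
          arithmeticGalois (modularFunctionFieldFull M) (σ.restrictNormal ↥K1) • f0) =
        g • g • f := by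
      rw [s34h_bcf_smul, hb1, hg]
    have h := congrArg (Fermat.Agent.S18.bcfHom ↥K1 Qb (modularFunctionFieldFull M)) hEq
    rw [map_mul, map_mul, map_mul, map_pow, map_pow, hb2, hb1, hbf,
      Fermat.Agent.S18.bcfHom_algebraMap, ← hGb] at h
    exact h
  have hgf0 : g • f ≠ 0 := by
    rw [Ne, smul_eq_zero_iff_eq]
    exact hf0
  have hggf0 : g • g • f ≠ 0 := by
    rw [Ne, smul_eq_zero_iff_eq]
    exact hgf0
  have hw0 : algebraMap Qb ↥(modularFunctionFieldBar M) (algebraMap ↥K1 Qb w) ≠ 0 := by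
    intro h0
    rw [h0, zero_mul, zero_mul] at hEqb
    exact mul_ne_zero hggf0 hf0 hEqb
  -- compare divisors
  have hdiv : ∀ v : Place Qb ↥(modularFunctionFieldBar M),
      (g • g • (D : Divisor Qb ↥(modularFunctionFieldBar M))) v -
        ((g • (D : Divisor Qb ↥(modularFunctionFieldBar M))) v +
          (g • (D : Divisor Qb ↥(modularFunctionFieldBar M))) v) +
        (D : Divisor Qb ↥(modularFunctionFieldBar M)) v = v.ord Gb := by
    intro v
    have e1 := s34h_ord_smul M g f (D : Divisor Qb ↥(modularFunctionFieldBar M)) (m : ℤ) hfD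
    have e2 := s34h_ord_smul M g (g • f) (g • (D : Divisor Qb ↥(modularFunctionFieldBar M)))
      (m : ℤ) e1
    have h := congrArg v.ord hEqb
    rw [Place.ord_mul _ hggf0 hf0, Place.ord_mul _ (mul_ne_zero hw0 (pow_ne_zero m hGb0))
      (pow_ne_zero 2 hgf0), Place.ord_mul _ hw0 (pow_ne_zero m hGb0),
      Fermat.Agent.S24.sf_ord_algebraMap, Fermat.Agent.S24.sf_ord_pow,
      Fermat.Agent.S24.sf_ord_pow, ← e2 v, ← e1 v, ← hfD v] at h
    have hm' : (m : ℤ) ≠ 0 := Nat.cast_ne_zero.mpr hm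
    apply mul_left_cancel₀ hm'
    push_cast at h
    linarith
  -- conclude
  rw [galois_smul_pic0_def, galois_smul_pic0_def, ← hg, SemilinearAut.pic0_smul_mk,
    SemilinearAut.pic0_smul_mk]
  have hgoal : (Pic0.mk (SemilinearAut.degZeroSMulHom g (SemilinearAut.degZeroSMulHom g D)) -
      (Pic0.mk (SemilinearAut.degZeroSMulHom g D) + Pic0.mk (SemilinearAut.degZeroSMulHom g D)) +
      Pic0.mk D : JZero M) =
      Pic0.mk (SemilinearAut.degZeroSMulHom g (SemilinearAut.degZeroSMulHom g D) -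
        (SemilinearAut.degZeroSMulHom g D + SemilinearAut.degZeroSMulHom g D) + D) := rfl
  rw [hgoal]
  refine (QuotientAddGroup.eq_zero_iff _).mpr (AddSubgroup.mem_addSubgroupOf.mpr ?_)
  refine ⟨Gb, hGb0, fun v => ?_⟩
  rw [← hdiv v]
  rfl

end main

end Fermat.Agent.S34
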