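import Mathlib

/-!
# S34, leaf LOC-NODE-ABS: the local statement `(LOC)` at a crossing point

Setting: `A` a discrete valuation ring with uniformizer `τ`, `F` a field over `A`, `O` a noetherian
`A`-subalgebra of `F` (a chart of the arithmetic surface), `𝔫` a maximal ideal of `O` containing
`τ` (a closed point of the special fibre).

`lnd_main`: if
* every nonzero prime `𝔓 ≤ 𝔫` of `O` not containing `τ` is the centre of a principal valuation
  ring `V = O_𝔓` (`hplace`),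
* `f` is, at every principal valuation ring over `A[1/τ]`, a unit times an `m`-th power (`hord`),
* the valuation rings at which `f` is not a unit have residue field `Frac A` (`hrat`),
* for every `A`-algebra homomorphism `ev : O → A` the kernel of `ev` is, up to a nonzero constant
  of `A` and up to elements outside `𝔫`, generated by one element (`hgam`),

then there is `g ≠ 0` in `F` such that `f / g ^ m` is a unit of `O_𝔫[1/τ]`.

`lnd_main_pl` is the same with `hgam` required only for the evaluation homomorphisms of the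
valuation rings `V = O_𝔓` with residue field `Frac A` (the valuation ring is passed to `hgam`).

Auxiliary statements:
* `lnd_mem_loc`: the ideal-of-denominators criterion for membership in `O_𝔫[1/t]`;
* `lnd_ev`: a valuation ring with residue field `Frac A` centred inside `𝔫` gives an
  `A`-algebra homomorphism `O → A`;
* `lnd_height`: a prime which is the centre of a principal valuation ring `O_𝔓` has height one;
* `lnd_gam_of_loc`: the hypothesis `hgam` from its form over a localization of `O` at `𝔫`;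
* `lnd_rat_of_frac`: the hypothesis `hrat` from its form with values in `Frac A`.
-/

set_option autoImplicit false

namespace Fermat.Agent.S34

open IsLocalRing

/-! ### Valuation subrings -/

section ValSub

variable {F : Type*} [Field F]

/-- `x` is a unit of the valuation subring `V`. -/
def lndU (V : ValuationSubring F) (x : F) : Prop := V.valuation x = 1

theorem lndU_one (V : ValuationSubring F) : lndU V 1 := map_one _

theorem lndU_mul (V : ValuationSubring F) {x y : F} (hx : lndU V x) (hy : lndU V y) :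
    lndU V (x * y) := by
  unfold lndU at *
  rw [map_mul, hx, hy, one_mul]

theorem lndU_inv (V : ValuationSubring F) {x : F} (hx : lndU V x) : lndU V x⁻¹ := by
  unfold lndU at *
  rw [map_inv₀, hx, inv_one]

theorem lndU_pow (V : ValuationSubring F) {x : F} (hx : lndU V x) (n : ℕ) : lndU V (x ^ n) := by
  unfold lndU at *
  rw [map_pow, hx, one_pow]

theorem lndU_zpow (V : ValuationSubring F) {x : F} (hx : lndU V x) (n : ℤ) : lndU V (x ^ n) := by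
  unfold lndU at *
  rw [map_zpow₀, hx, one_zpow]

theorem lndU_ne_zero (V : ValuationSubring F) {x : F} (hx : lndU V x) : x ≠ 0 := by
  rintro rfl
  unfold lndU at hx
  rw [map_zero] at hx
  exact zero_ne_one hx

theorem lndU_mem (V : ValuationSubring F) {x : F} (hx : lndU V x) : x ∈ V :=
  (V.valuation_le_one_iff x).mp (le_of_eq hx)

theorem lndU_not_mem (V : ValuationSubring F) {x : F} (hx : lndU V x) : x ∉ V.nonunits := by
  intro h
  rw [V.mem_nonunits_iff] at h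
  exact absurd hx (ne_of_lt h)

theorem lndU_of_mem (V : ValuationSubring F) {x : F} (hx : x ∈ V) (hx' : x ∉ V.nonunits) :
    lndU V x := by
  rw [V.mem_nonunits_iff, not_lt] at hx'
  exact le_antisymm ((V.valuation_le_one_iff x).mpr hx) hx'

theorem lndU_of_mem_inv (V : ValuationSubring F) {x : F} (hx : x ∈ V) (hx' : x⁻¹ ∈ V)
    (hx0 : x ≠ 0) : lndU V x := by
  refine lndU_of_mem V hx fun h => ?_
  rw [V.mem_nonunits_iff_or] at h
  rcases h with h | h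
  · exact hx0 h
  · exact h hx'

theorem lndU_prod (V : ValuationSubring F) {ι : Type*} (s : Finset ι) (x : ι → F)
    (hx : ∀ i ∈ s, lndU V (x i)) : lndU V (∏ i ∈ s, x i) := by
  unfold lndU at *
  rw [map_prod]
  exact Finset.prod_eq_one hx

/-- the maximal ideal is an ideal of `V` -/
theorem lnd_nu_mul (V : ValuationSubring F) {x y : F} (hx : x ∈ V) (hy : y ∈ V.nonunits) :
    x * y ∈ V.nonunits := by
  rw [V.mem_nonunits_iff] at hy ⊢
  rw [map_mul]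
  exact mul_lt_one_of_nonneg_of_lt_one_right ((V.valuation_le_one_iff x).mpr hx) zero_le hy

/-- cancelling a unit -/
theorem lnd_nu_of_unit_mul (V : ValuationSubring F) {x y : F} (hx : lndU V x)
    (hy : x * y ∈ V.nonunits) : y ∈ V.nonunits := by
  rw [V.mem_nonunits_iff] at hy ⊢
  rw [map_mul, show V.valuation x = 1 from hx, one_mul] at hy
  exact hy

/-- In a principal valuation ring, a power of any non-unit is divisible by any given nonzero
element. -/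
theorem lnd_pow_dvd (V : ValuationSubring F) [IsPrincipalIdealRing V] {x y : F} (hx : x ∈ V)
    (hx0 : x ≠ 0) (hy : y ∈ V.nonunits) : ∃ (j : ℕ) (v : F), v ∈ V ∧ y ^ j = x * v := by
  have hyV : y ∈ V := V.nonunits_subset hy
  set x' : V := ⟨x, hx⟩ with hx'
  set y' : V := ⟨y, hyV⟩ with hy'
  have hne : Ideal.span {y'} ≠ (⊤ : Ideal V) := by
    intro h
    rw [Ideal.span_singleton_eq_top] at h
    have h1 : y' ∈ maximalIdeal V := ValuationSubring.coe_mem_nonunits_iff.mp hy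
    exact (mem_maximalIdeal _).mp h1 h
  have hK := Ideal.iInf_pow_eq_bot_of_isLocalRing (Ideal.span {y'}) hne
  have hx'0 : x' ≠ 0 := fun h => hx0 (congrArg Subtype.val h)
  have hex : ∃ j : ℕ, x' ∉ Ideal.span {y'} ^ j := by
    by_contra hcon
    have h1 : x' ∈ (⨅ i : ℕ, Ideal.span {y'} ^ i : Ideal V) := by
      rw [Ideal.mem_iInf]
      intro i
      by_contra hi
      exact hcon ⟨i, hi⟩
    rw [hK] at h1
    exact hx'0 h1
  obtain ⟨j, hj⟩ := hex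
  rw [Ideal.span_singleton_pow, Ideal.mem_span_singleton] at hj
  rcases ValuationRing.dvd_total (y' ^ j) x' with h | h
  · exact absurd h hj
  · obtain ⟨v, hv⟩ := h
    refine ⟨j, (v : F), v.2, ?_⟩
    have := congrArg Subtype.val hv
    simpa using this

/-- In a principal valuation ring whose maximal ideal is generated by `g`, every nonzero element
of the field is a unit times a power of `g`. -/
theorem lnd_unif (V : ValuationSubring F) [IsPrincipalIdealRing V] (g : F) (hg0 : g ≠ 0)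
    (hgV : g ∈ V.nonunits) (hgen : ∀ x ∈ V.nonunits, ∃ v ∈ V, x = g * v) (x : F) (hx : x ≠ 0) :
    ∃ e : ℤ, lndU V (x * g ^ e) := by
  -- the case `x ∈ V`
  have key : ∀ z : F, z ∈ V → z ≠ 0 → ∃ e : ℤ, lndU V (z * g ^ e) := by
    intro z hz hz0
    obtain ⟨j, v, hv, hjv⟩ := lnd_pow_dvd V hz hz0 hgV
    -- `z` divides `g ^ j`; induct on `j`
    clear hx
    induction j generalizing z v with
    | zero =>
      rw [pow_zero] at hjv
      refine ⟨0, ?_⟩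
      rw [zpow_zero, mul_one]
      refine lndU_of_mem_inv V hz ?_ hz0
      have : z⁻¹ = v := inv_eq_of_mul_eq_one_right hjv.symm
      rw [this]; exact hv
    | succ j ih =>
      by_cases hzu : z ∈ V.nonunits
      · obtain ⟨z1, hz1, hzz1⟩ := hgen z hzu
        have hz10 : z1 ≠ 0 := by
          rintro rfl
          rw [mul_zero] at hzz1
          exact hz0 hzz1
        have h1 : g ^ j = z1 * v := by
          have h2 : g * g ^ j = g * (z1 * v) := by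
            rw [← pow_succ', hjv, hzz1]; ring
          exact mul_left_cancel₀ hg0 h2
        obtain ⟨e, he⟩ := ih z1 hz1 hz10 v hv h1
        refine ⟨e - 1, ?_⟩
        have h3 : z * g ^ (e - 1) = z1 * g ^ e := by
          rw [hzz1, zpow_sub₀ hg0, zpow_one]
          field_simp
        rw [h3]; exact he
      · refine ⟨0, ?_⟩
        rw [zpow_zero, mul_one]
        exact lndU_of_mem V hz hzu
  rcases V.mem_or_inv_mem x with h | h
  · exact key x h hx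
  · obtain ⟨e, he⟩ := key x⁻¹ h (inv_ne_zero hx)
    refine ⟨-e, ?_⟩
    have h1 : x * g ^ (-e) = (x⁻¹ * g ^ e)⁻¹ := by
      rw [mul_inv, inv_inv, zpow_neg]
    rw [h1]
    exact lndU_inv V he

end ValSub

/-! ### Charts -/

section Chart

variable {A F : Type*} [CommRing A] [Field F] [Algebra A F]

/-- **Ideal-of-denominators criterion.**  If `z` lies in the localization of `O` at every prime
`𝔓 ≤ 𝔫` not containing `t`, then `z` lies in `O_𝔫[1/t]`. -/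
theorem lnd_mem_loc (O : Subalgebra A F) (t : ↥O) (𝔫 : Ideal ↥O) [𝔫.IsPrime] (z : F)
    (h : ∀ 𝔓 : Ideal ↥O, 𝔓.IsPrime → 𝔓 ≤ 𝔫 → t ∉ 𝔓 → ∃ s : ↥O, s ∉ 𝔓 ∧ (s : F) * z ∈ O) :
    ∃ (s : ↥O) (k : ℕ), s ∉ 𝔫 ∧ (s : F) * (t : F) ^ k * z ∈ O := by
  by_contra hcon
  let J : Ideal ↥O :=
    { carrier := {s | (s : F) * z ∈ O}
      add_mem' := by
        intro a b ha hb
        show ((a + b : ↥O) : F) * z ∈ O
        rw [Subalgebra.coe_add, add_mul]
        exact O.add_mem ha hb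
      zero_mem' := by
        show ((0 : ↥O) : F) * z ∈ O
        rw [Subalgebra.coe_zero, zero_mul]
        exact O.zero_mem
      smul_mem' := by
        intro c a ha
        show ((c * a : ↥O) : F) * z ∈ O
        rw [Subalgebra.coe_mul, mul_assoc]
        exact O.mul_mem c.2 ha }
  let S : Submonoid ↥O := 𝔫.primeCompl ⊔ Submonoid.powers t
  have hd : Disjoint (J : Set ↥O) (S : Set ↥O) := by
    rw [Set.disjoint_left]
    intro x hxJ hxS
    obtain ⟨y, hy, w, hw, rfl⟩ := Submonoid.mem_sup.mp hxS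
    obtain ⟨k, rfl⟩ := hw
    refine hcon ⟨y, k, hy, ?_⟩
    have h1 : ((y * t ^ k : ↥O) : F) * z ∈ O := hxJ
    rwa [Subalgebra.coe_mul, Subalgebra.coe_pow] at h1
  obtain ⟨p, hp, hJp, hpS⟩ := Ideal.exists_le_prime_disjoint J S hd
  have hp𝔫 : p ≤ 𝔫 := by
    intro x hx
    by_contra hxn
    exact Set.disjoint_left.mp hpS hx
      ((le_sup_left : 𝔫.primeCompl ≤ S) (show x ∈ 𝔫.primeCompl from hxn))
  have htp : t ∉ p := fun ht =>
    Set.disjoint_left.mp hpS ht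
      ((le_sup_right : Submonoid.powers t ≤ S) (Submonoid.mem_powers t))
  obtain ⟨s, hs, hsz⟩ := h p hp hp𝔫 htp
  exact hs (hJp (show s ∈ J from hsz))

/-- A prime of `O` which is the centre of a principal valuation ring equal to its localization
has height one. -/
theorem lnd_height (O : Subalgebra A F) (𝔮 𝔓 : Ideal ↥O) [𝔮.IsPrime] (h𝔮𝔓 : 𝔮 ≤ 𝔓) (h𝔮 : 𝔮 ≠ ⊥)
    (V : ValuationSubring F) [IsPrincipalIdealRing V] (hOV : ∀ x ∈ O, x ∈ V)
    (hcen : ∀ x : ↥O, x ∈ 𝔓 → (x : F) ∈ V.nonunits)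
    (hloc : ∀ x ∈ V, ∃ s : ↥O, s ∉ 𝔓 ∧ (s : F) * x ∈ O) : 𝔓 ≤ 𝔮 := by
  obtain ⟨x, hx𝔮, hx0⟩ := Submodule.exists_mem_ne_zero_of_ne_bot h𝔮
  intro y hy
  have hx0' : (x : F) ≠ 0 := fun h => hx0 (Subtype.ext h)
  obtain ⟨j, v, hv, hjv⟩ := lnd_pow_dvd V (hOV _ x.2) hx0' (hcen y hy)
  obtain ⟨s, hs, hsv⟩ := hloc v hv
  have h1 : s * y ^ j = x * ⟨(s : F) * v, hsv⟩ := by
    apply Subtype.ext
    show (s : F) * (y : F) ^ j = (x : F) * ((s : F) * v)
    rw [hjv]; ring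
  have h2 : s * y ^ j ∈ 𝔮 := by rw [h1]; exact 𝔮.mul_mem_right _ hx𝔮
  rcases Ideal.IsPrime.mem_or_mem inferInstance h2 with h | h
  · exact absurd (h𝔮𝔓 h) hs
  · exact Ideal.IsPrime.mem_of_pow_mem inferInstance j h

/-- `x` is a unit of the localization of `O` at the prime `𝔓`. -/
def lndUO (O : Subalgebra A F) (𝔓 : Ideal ↥O) (x : F) : Prop :=
  ∃ a s : ↥O, a ∉ 𝔓 ∧ s ∉ 𝔓 ∧ x * (s : F) = (a : F)

theorem lndUO_of_mem (O : Subalgebra A F) (𝔓 : Ideal ↥O) [𝔓.IsPrime] (a : ↥O) (ha : a ∉ 𝔓) :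
    lndUO O 𝔓 (a : F) :=
  ⟨a, 1, ha, fun h => (Ideal.IsPrime.ne_top inferInstance) ((Ideal.eq_top_iff_one 𝔓).mpr h),
    by rw [Subalgebra.coe_one, mul_one]⟩

theorem lndUO_one (O : Subalgebra A F) (𝔓 : Ideal ↥O) [𝔓.IsPrime] : lndUO O 𝔓 (1 : F) := by
  have h1 : (1 : ↥O) ∉ 𝔓 := fun h =>
    (Ideal.IsPrime.ne_top inferInstance) ((Ideal.eq_top_iff_one 𝔓).mpr h)
  have := lndUO_of_mem O 𝔓 1 h1
  rwa [Subalgebra.coe_one] at this

theorem lndUO_mul (O : Subalgebra A F) (𝔓 : Ideal ↥O) [𝔓.IsPrime] {x y : F}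
    (hx : lndUO O 𝔓 x) (hy : lndUO O 𝔓 y) : lndUO O 𝔓 (x * y) := by
  obtain ⟨a, s, ha, hs, h1⟩ := hx
  obtain ⟨b, r, hb, hr, h2⟩ := hy
  refine ⟨a * b, s * r, fun h => ?_, fun h => ?_, ?_⟩
  · rcases Ideal.IsPrime.mem_or_mem inferInstance h with h | h
    exacts [ha h, hb h]
  · rcases Ideal.IsPrime.mem_or_mem inferInstance h with h | h
    exacts [hs h, hr h]
  · rw [Subalgebra.coe_mul, Subalgebra.coe_mul, ← h1, ← h2]; ring

theorem lndUO_inv (O : Subalgebra A F) (𝔓 : Ideal ↥O) {x : F}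
    (hx : lndUO O 𝔓 x) : lndUO O 𝔓 x⁻¹ := by
  obtain ⟨a, s, ha, hs, h1⟩ := hx
  have ha0 : (a : F) ≠ 0 := by
    intro h
    have : a = 0 := Subtype.ext h
    exact ha (this ▸ 𝔓.zero_mem)
  have hx0 : x ≠ 0 := by
    rintro rfl
    rw [zero_mul] at h1
    exact ha0 h1.symm
  refine ⟨s, a, hs, ha, ?_⟩
  rw [← h1]
  field_simp

theorem lndUO_pow (O : Subalgebra A F) (𝔓 : Ideal ↥O) [𝔓.IsPrime] {x : F}
    (hx : lndUO O 𝔓 x) (n : ℕ) : lndUO O 𝔓 (x ^ n) := by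
  induction n with
  | zero => rw [pow_zero]; exact lndUO_one O 𝔓
  | succ n ih => rw [pow_succ]; exact lndUO_mul O 𝔓 ih hx

theorem lndUO_zpow (O : Subalgebra A F) (𝔓 : Ideal ↥O) [𝔓.IsPrime] {x : F}
    (hx : lndUO O 𝔓 x) (n : ℤ) : lndUO O 𝔓 (x ^ n) := by
  cases n with
  | ofNat k => rw [Int.ofNat_eq_natCast, zpow_natCast]; exact lndUO_pow O 𝔓 hx k
  | negSucc k => rw [zpow_negSucc]; exact lndUO_inv O 𝔓 (lndUO_pow O 𝔓 hx (k + 1))

theorem lndUO_prod (O : Subalgebra A F) (𝔓 : Ideal ↥O) [𝔓.IsPrime] {ι : Type*} (s : Finset ι)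
    (x : ι → F) (hx : ∀ i ∈ s, lndUO O 𝔓 (x i)) : lndUO O 𝔓 (∏ i ∈ s, x i) := by
  classical
  induction s using Finset.induction_on with
  | empty => rw [Finset.prod_empty]; exact lndUO_one O 𝔓
  | insert i s hi ih =>
    rw [Finset.prod_insert hi]
    exact lndUO_mul O 𝔓 (hx i (Finset.mem_insert_self i s))
      (ih fun j hj => hx j (Finset.mem_insert_of_mem hj))

/-- units of `O_𝔓` are the units of the valuation ring `V = O_𝔓` -/
theorem lndUO_iff (O : Subalgebra A F) (𝔓 : Ideal ↥O) (V : ValuationSubring F)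
    (hOV : ∀ x ∈ O, x ∈ V) (hcen : ∀ x : ↥O, (x : F) ∈ V.nonunits ↔ x ∈ 𝔓)
    (hloc : ∀ x ∈ V, ∃ s : ↥O, s ∉ 𝔓 ∧ (s : F) * x ∈ O) (x : F) :
    lndUO O 𝔓 x ↔ lndU V x := by
  have hu : ∀ a : ↥O, a ∉ 𝔓 → lndU V (a : F) := fun a ha =>
    lndU_of_mem V (hOV _ a.2) fun h => ha ((hcen a).mp h)
  constructor
  · rintro ⟨a, s, ha, hs, h1⟩
    have hs0 : (s : F) ≠ 0 := lndU_ne_zero V (hu s hs)
    have h2 : x = (a : F) * (s : F)⁻¹ := by rw [← h1]; field_simp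
    rw [h2]
    exact lndU_mul V (hu a ha) (lndU_inv V (hu s hs))
  · intro hx
    obtain ⟨s, hs, hsx⟩ := hloc x (lndU_mem V hx)
    refine ⟨⟨(s : F) * x, hsx⟩, s, fun h => ?_, hs, mul_comm _ _⟩
    have h1 : (s : F) * x ∈ V.nonunits := (hcen ⟨(s : F) * x, hsx⟩).mpr h
    exact lndU_not_mem V (lndU_mul V (hu s hs) hx) h1

end Chart

/-! ### The base discrete valuation ring -/

section Dvr

variable {A F : Type*} [CommRing A] [IsDomain A] [IsDiscreteValuationRing A] [Field F]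
  [Algebra A F]

/-- Nonzero elements of `A` are units of every valuation subring containing `A` and `τ⁻¹`. -/
theorem lnd_const_unit (τ : A) (hτ : Irreducible τ) (hτ0 : algebraMap A F τ ≠ 0)
    (V : ValuationSubring F) (hAV : ∀ a : A, algebraMap A F a ∈ V)
    (hτV : (algebraMap A F τ)⁻¹ ∈ V) (a : A) (ha : a ≠ 0) : lndU V (algebraMap A F a) := by
  obtain ⟨n, u, rfl⟩ := IsDiscreteValuationRing.eq_unit_mul_pow_irreducible ha hτ
  rw [map_mul, map_pow]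
  refine lndU_mul V ?_ (lndU_pow V (lndU_of_mem_inv V (hAV τ) hτV hτ0) n)
  have h1 : algebraMap A F (u : A) * algebraMap A F ((u⁻¹ : Aˣ) : A) = 1 := by
    rw [← map_mul, Units.mul_inv, map_one]
  have h2 : (algebraMap A F (u : A))⁻¹ = algebraMap A F ((u⁻¹ : Aˣ) : A) :=
    inv_eq_of_mul_eq_one_right h1
  refine lndU_of_mem_inv V (hAV _) (by rw [h2]; exact hAV _) ?_
  intro h0
  rw [h0, zero_mul] at h1
  exact zero_ne_one h1

/-- Nonzero constants lie outside every prime of `O` not containing `τ`. -/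
theorem lnd_const_not_mem (τ : A) (hτ : Irreducible τ) (O : Subalgebra A F) (𝔓 : Ideal ↥O)
    [𝔓.IsPrime] (hτ𝔓 : algebraMap A ↥O τ ∉ 𝔓) (c : A) (hc : c ≠ 0) :
    algebraMap A ↥O c ∉ 𝔓 := by
  obtain ⟨n, u, rfl⟩ := IsDiscreteValuationRing.eq_unit_mul_pow_irreducible hc hτ
  rw [map_mul, map_pow]
  intro h
  rcases Ideal.IsPrime.mem_or_mem inferInstance h with h | h
  · have hu : IsUnit (algebraMap A ↥O (u : A)) := (u.isUnit).map _
    exact (Ideal.IsPrime.ne_top inferInstance) (Ideal.eq_top_of_isUnit_mem 𝔓 h hu)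
  · exact hτ𝔓 (Ideal.IsPrime.mem_of_pow_mem inferInstance n h)

/-- **[EV]**: a valuation ring `V ⊇ O` with residue field `Frac A`, centred inside the proper
ideal `𝔫 ∋ τ`, gives an `A`-algebra homomorphism `ev : O → A` ("evaluation at the rational
point"), with `y - ev y ∈ 𝔪_V` for all `y ∈ O`; it is local at `𝔫`. -/
theorem lnd_ev (τ : A) (hτ : Irreducible τ) (hτ0 : algebraMap A F τ ≠ 0)
    (O : Subalgebra A F) (𝔫 : Ideal ↥O) (h𝔫 : 𝔫 ≠ ⊤) (hτn : algebraMap A ↥O τ ∈ 𝔫)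
    (V : ValuationSubring F) (hOV : ∀ x ∈ O, x ∈ V) (hτV : (algebraMap A F τ)⁻¹ ∈ V)
    (hcen : ∀ x : ↥O, (x : F) ∈ V.nonunits → x ∈ 𝔫)
    (hrat : ∀ y ∈ O, ∃ a b : A, b ≠ 0 ∧
      algebraMap A F b * y - algebraMap A F a ∈ V.nonunits) :
    ∃ ev : ↥O →ₐ[A] A, (∀ y : ↥O, (y : F) - algebraMap A F (ev y) ∈ V.nonunits) ∧
      ∀ x ∈ 𝔫, ¬ IsUnit (ev x) := by
  have hAV : ∀ a : A, algebraMap A F a ∈ V := fun a => hOV _ (O.algebraMap_mem a)
  have hu : ∀ a : A, a ≠ 0 → lndU V (algebraMap A F a) :=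
    lnd_const_unit τ hτ hτ0 V hAV hτV
  have h1n : (1 : ↥O) ∉ 𝔫 := fun h => h𝔫 ((Ideal.eq_top_iff_one 𝔫).mpr h)
  -- existence of the value
  have hex : ∀ y : ↥O, ∃ c : A, (y : F) - algebraMap A F c ∈ V.nonunits := by
    intro y
    obtain ⟨a, b, hb, hab⟩ := hrat y y.2
    rcases ValuationRing.dvd_total b a with ⟨c, rfl⟩ | ⟨d, rfl⟩
    · refine ⟨c, lnd_nu_of_unit_mul V (hu b hb) ?_⟩
      have h1 : algebraMap A F b * ((y : F) - algebraMap A F c)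
          = algebraMap A F b * y - algebraMap A F (b * c) := by
        rw [map_mul]; ring
      rw [h1]; exact hab
    · have ha : a ≠ 0 := left_ne_zero_of_mul hb
      have h1 : algebraMap A F a * (algebraMap A F d * (y : F) - 1) ∈ V.nonunits := by
        have h2 : algebraMap A F a * (algebraMap A F d * (y : F) - 1)
            = algebraMap A F (a * d) * y - algebraMap A F a := by
          rw [map_mul]; ring
        rw [h2]; exact hab
      have h3 : algebraMap A F d * (y : F) - 1 ∈ V.nonunits :=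
        lnd_nu_of_unit_mul V (hu a ha) h1
      by_cases hd : IsUnit d
      · obtain ⟨u, rfl⟩ := hd
        refine ⟨((u⁻¹ : Aˣ) : A), lnd_nu_of_unit_mul V (hu (u : A) u.ne_zero) ?_⟩
        have h4 : algebraMap A F (u : A) * ((y : F) - algebraMap A F ((u⁻¹ : Aˣ) : A))
            = algebraMap A F (u : A) * (y : F) - 1 := by
          rw [mul_sub, ← map_mul, Units.mul_inv, map_one]
        rw [h4]; exact h3
      · exfalso
        have hdm : d ∈ maximalIdeal A := (mem_maximalIdeal d).mpr hd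
        rw [hτ.maximalIdeal_eq, Ideal.mem_span_singleton] at hdm
        obtain ⟨d', rfl⟩ := hdm
        set z : ↥O := algebraMap A ↥O τ * (algebraMap A ↥O d' * y) - 1 with hz
        have hzF : (z : F) = algebraMap A F (τ * d') * (y : F) - 1 := by
          rw [hz, map_mul]
          push_cast
          ring
        have hzn : z ∈ 𝔫 := hcen z (by rw [hzF]; exact h3)
        have h5 : (1 : ↥O) = algebraMap A ↥O τ * (algebraMap A ↥O d' * y) - z := by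
          rw [hz]; ring
        exact h1n (h5 ▸ 𝔫.sub_mem (𝔫.mul_mem_right _ hτn) hzn)
  -- uniqueness of the value
  have huniq : ∀ (y : ↥O) (c c' : A), (y : F) - algebraMap A F c ∈ V.nonunits →
      (y : F) - algebraMap A F c' ∈ V.nonunits → c = c' := by
    intro y c c' h1 h2
    by_contra hne
    have h3 : algebraMap A F (c - c') ∈ V.nonunits := by
      have h4 : algebraMap A F (c - c') = ((y : F) - algebraMap A F c') -
          ((y : F) - algebraMap A F c) := by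
        rw [map_sub]; ring
      rw [h4]; exact V.nonunits.sub_mem h2 h1
    exact lndU_not_mem V (hu _ (sub_ne_zero.mpr hne)) h3
  choose e he using hex
  have hval : ∀ (y : ↥O) (c : A), (y : F) - algebraMap A F c ∈ V.nonunits → e y = c :=
    fun y c hc => huniq y _ _ (he y) hc
  refine ⟨{ toFun := e
            map_one' := hval 1 1 (by
              rw [Subalgebra.coe_one, map_one, sub_self]; exact V.nonunits.zero_mem)
            map_mul' := fun x y => hval (x * y) (e x * e y) (by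
              have h1 : ((x * y : ↥O) : F) - algebraMap A F (e x * e y)
                  = (x : F) * ((y : F) - algebraMap A F (e y))
                    + algebraMap A F (e y) * ((x : F) - algebraMap A F (e x)) := by
                rw [Subalgebra.coe_mul, map_mul]; ring
              rw [h1]
              exact V.nonunits.add_mem (lnd_nu_mul V (hOV _ x.2) (he y))
                (lnd_nu_mul V (hAV _) (he x)))
            map_zero' := hval 0 0 (by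
              rw [Subalgebra.coe_zero, map_zero, sub_self]; exact V.nonunits.zero_mem)
            map_add' := fun x y => hval (x + y) (e x + e y) (by
              have h1 : ((x + y : ↥O) : F) - algebraMap A F (e x + e y)
                  = ((x : F) - algebraMap A F (e x)) + ((y : F) - algebraMap A F (e y)) := by
                rw [Subalgebra.coe_add, map_add]; ring
              rw [h1]
              exact V.nonunits.add_mem (he x) (he y))
            commutes' := fun a => hval _ a (by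
              rw [Subalgebra.coe_algebraMap, sub_self]; exact V.nonunits.zero_mem) }, he, ?_⟩
  intro x hx hux
  obtain ⟨u, hu'⟩ := hux
  have h1 : (x : F) - algebraMap A F (u : A) ∈ V.nonunits := by
    have := he x
    rw [show e x = (u : A) from hu'.symm] at this
    exact this
  have h2 : x - algebraMap A ↥O (u : A) ∈ 𝔫 := hcen _ (by
    rw [Subalgebra.coe_sub, Subalgebra.coe_algebraMap]; exact h1)
  have h3 : algebraMap A ↥O (u : A) ∈ 𝔫 := by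
    have h4 : algebraMap A ↥O (u : A) = x - (x - algebraMap A ↥O (u : A)) := by ring
    rw [h4]; exact 𝔫.sub_mem hx h2
  exact h𝔫 (Ideal.eq_top_of_isUnit_mem 𝔫 h3 ((u.isUnit).map _))

/-- The rationality hypothesis `hrat` of `lnd_main` from its form with `K = Frac A`. -/
theorem lnd_rat_of_frac {K : Type*} [Field K] [Algebra A K] [IsFractionRing A K] [Algebra K F]
    [IsScalarTower A K F] (V : ValuationSubring F) (hAV : ∀ a : A, algebraMap A F a ∈ V)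
    (y : F) (c : K) (h : y - algebraMap K F c ∈ V.nonunits) :
    ∃ a b : A, b ≠ 0 ∧ algebraMap A F b * y - algebraMap A F a ∈ V.nonunits := by
  obtain ⟨a, b, hb, rfl⟩ := IsFractionRing.div_surjective (A := A) c
  have hb0 : b ≠ 0 := nonZeroDivisors.ne_zero hb
  have hbK : algebraMap A K b ≠ 0 := fun h0 =>
    hb0 ((IsFractionRing.injective A K) (by rw [h0, map_zero]))
  refine ⟨a, b, hb0, ?_⟩
  have h1 : algebraMap A F b * y - algebraMap A F a
      = algebraMap A F b * (y - algebraMap K F (algebraMap A K a / algebraMap A K b)) := by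
    rw [mul_sub, IsScalarTower.algebraMap_apply A K F b, ← map_mul, mul_div_cancel₀ _ hbK,
      ← IsScalarTower.algebraMap_apply A K F a]
  rw [h1]
  exact lnd_nu_mul V (hAV b) h

end Dvr

/-! ### The local statement at a crossing point -/

section Main

variable {A F : Type*} [CommRing A] [IsDomain A] [IsDiscreteValuationRing A] [Field F]
  [Algebra A F]

/-- The local datum at one horizontal prime `𝔓 ≤ 𝔫`: an element `γ` with `f / γ ^ m` a unit at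
`𝔓` and `γ` a unit at every other horizontal prime through `𝔫`. -/
theorem lnd_datum (τ : A) (hτ : Irreducible τ) (hτ0 : algebraMap A F τ ≠ 0)
    (O : Subalgebra A F) (𝔫 : Ideal ↥O) [h𝔫 : 𝔫.IsMaximal] (hτn : algebraMap A ↥O τ ∈ 𝔫)
    (hplace : ∀ 𝔓 : Ideal ↥O, 𝔓.IsPrime → 𝔓 ≤ 𝔫 → 𝔓 ≠ ⊥ → algebraMap A ↥O τ ∉ 𝔓 →
      ∃ V : ValuationSubring F, IsPrincipalIdealRing V ∧ (∀ x ∈ O, x ∈ V) ∧
        (∀ x : ↥O, (x : F) ∈ V.nonunits ↔ x ∈ 𝔓) ∧
        ∀ x ∈ V, ∃ s : ↥O, s ∉ 𝔓 ∧ (s : F) * x ∈ O)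
    (m : ℕ) (f : F) (hf : f ≠ 0)
    (hord : ∀ V : ValuationSubring F, (∀ a : A, algebraMap A F a ∈ V) →
      (algebraMap A F τ)⁻¹ ∈ V → IsPrincipalIdealRing V →
      ∃ w : F, w ≠ 0 ∧ f * w ^ m ∈ V ∧ (f * w ^ m)⁻¹ ∈ V)
    (hrat : ∀ V : ValuationSubring F, (∀ a : A, algebraMap A F a ∈ V) →
      (algebraMap A F τ)⁻¹ ∈ V → IsPrincipalIdealRing V → V ≠ ⊤ → (f ∉ V ∨ f⁻¹ ∉ V) →
      ∀ y ∈ V, ∃ a b : A, b ≠ 0 ∧ algebraMap A F b * y - algebraMap A F a ∈ V.nonunits)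
    (hgam : ∀ (ev : ↥O →ₐ[A] A) (V : ValuationSubring F), IsPrincipalIdealRing V →
      (∀ x ∈ O, x ∈ V) → (∀ x ∈ V, ∃ s : ↥O, ev s ≠ 0 ∧ (s : F) * x ∈ O) →
      (∀ y : ↥O, (y : F) - algebraMap A F (ev y) ∈ V.nonunits) →
      (∀ x ∈ 𝔫, ¬ IsUnit (ev x)) → ∃ g : ↥O, ev g = 0 ∧
      ∃ c : A, c ≠ 0 ∧ ∀ w : ↥O, ev w = 0 →
        ∃ s u : ↥O, s ∉ 𝔫 ∧ algebraMap A ↥O c * (s * w) = g * u)
    (𝔓 : Ideal ↥O) (hp : 𝔓.IsPrime) (hle : 𝔓 ≤ 𝔫) (hne : 𝔓 ≠ ⊥)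
    (hτ𝔓 : algebraMap A ↥O τ ∉ 𝔓) :
    ∃ γ : F, γ ≠ 0 ∧ lndUO O 𝔓 (f * (γ ^ m)⁻¹) ∧
      ∀ 𝔓' : Ideal ↥O, 𝔓'.IsPrime → 𝔓' ≤ 𝔫 → 𝔓' ≠ ⊥ → algebraMap A ↥O τ ∉ 𝔓' → 𝔓' ≠ 𝔓 →
        lndUO O 𝔓' γ := by
  obtain ⟨V, hVpir, hOV, hcen, hloc⟩ := hplace 𝔓 hp hle hne hτ𝔓
  have := hVpir
  by_cases hfu : lndU V f
  · refine ⟨1, one_ne_zero, ?_, fun 𝔓' hp' _ _ _ _ => ?_⟩
    · rw [one_pow, inv_one, mul_one]
      exact (lndUO_iff O 𝔓 V hOV hcen hloc f).mpr hfu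
    · have := hp'
      exact lndUO_one O 𝔓'
  have hAV : ∀ a : A, algebraMap A F a ∈ V := fun a => hOV _ (O.algebraMap_mem a)
  have hτu : lndU V (algebraMap A F τ) :=
    lndU_of_mem V (hAV τ) fun h => hτ𝔓 ((hcen (algebraMap A ↥O τ)).mp h)
  have hτV : (algebraMap A F τ)⁻¹ ∈ V := lndU_mem V (lndU_inv V hτu)
  have hu : ∀ a : A, a ≠ 0 → lndU V (algebraMap A F a) :=
    lnd_const_unit τ hτ hτ0 V hAV hτV
  obtain ⟨x0, hx0𝔓, hx00⟩ := Submodule.exists_mem_ne_zero_of_ne_bot hne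
  have hx00' : (x0 : F) ≠ 0 := fun h => hx00 (Subtype.ext h)
  have hVtop : V ≠ ⊤ := by
    intro htop
    have h1 : (x0 : F) ∈ V.nonunits := (hcen x0).mpr hx0𝔓
    have h2 : (x0 : F)⁻¹ ∈ V := by rw [htop]; exact ValuationSubring.mem_top _
    exact lndU_not_mem V (lndU_of_mem_inv V (hOV _ x0.2) h2 hx00') h1
  have hfV : f ∉ V ∨ f⁻¹ ∉ V := by
    by_contra hcon
    rw [not_or, not_not, not_not] at hcon
    exact hfu (lndU_of_mem_inv V hcon.1 hcon.2 hf)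
  have hratV := hrat V hAV hτV hVpir hVtop hfV
  obtain ⟨ev, hev, hevloc⟩ := lnd_ev τ hτ hτ0 O 𝔫 h𝔫.ne_top hτn V hOV hτV
    (fun x hx => hle ((hcen x).mp hx)) (fun y hy => hratV y (hOV y hy))
  -- the kernel of `ev` is `𝔓`
  have hker : ∀ w : ↥O, ev w = 0 ↔ w ∈ 𝔓 := by
    intro w
    constructor
    · intro hw
      have h1 := hev w
      rw [hw, map_zero, sub_zero] at h1
      exact (hcen w).mp h1
    · intro hw
      by_contra hne0
      have h1 : (w : F) ∈ V.nonunits := (hcen w).mpr hw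
      have h2 : algebraMap A F (ev w) ∈ V.nonunits := by
        have h3 : algebraMap A F (ev w) = (w : F) - ((w : F) - algebraMap A F (ev w)) := by ring
        rw [h3]; exact V.nonunits.sub_mem h1 (hev w)
      exact lndU_not_mem V (hu _ hne0) h2
  obtain ⟨g, hevg, c, hc, hgen⟩ := hgam ev V hVpir hOV
    (fun x hx => by
      obtain ⟨s, hs, hsx⟩ := hloc x hx
      exact ⟨s, fun h => hs ((hker s).mp h), hsx⟩) hev hevloc
  have hg𝔓 : g ∈ 𝔓 := (hker g).mp hevg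
  have hgnu : (g : F) ∈ V.nonunits := (hcen g).mpr hg𝔓
  have hunit𝔓 : ∀ a : ↥O, a ∉ 𝔓 → lndU V (a : F) := fun a ha =>
    lndU_of_mem V (hOV _ a.2) fun h => ha ((hcen a).mp h)
  have hcO : ∀ 𝔓' : Ideal ↥O, 𝔓'.IsPrime → algebraMap A ↥O τ ∉ 𝔓' → algebraMap A ↥O c ∉ 𝔓' :=
    fun 𝔓' hp' hτ' => by
      have := hp'
      exact lnd_const_not_mem τ hτ O 𝔓' hτ' c hc
  have hg0 : (g : F) ≠ 0 := by
    intro h0
    have hg0' : g = 0 := Subtype.ext h0
    obtain ⟨s, u, hs, hsu⟩ := hgen x0 ((hker x0).mpr hx0𝔓)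
    rw [hg0', zero_mul] at hsu
    rcases mul_eq_zero.mp hsu with h | h
    · exact hcO 𝔓 hp hτ𝔓 (h ▸ 𝔓.zero_mem)
    · rcases mul_eq_zero.mp h with h | h
      · exact hs (h ▸ 𝔫.zero_mem)
      · exact hx00 h
  -- `g` generates the maximal ideal of `V`
  have hgenV : ∀ x ∈ V.nonunits, ∃ v ∈ V, x = (g : F) * v := by
    intro x hx
    obtain ⟨s, hs, hsx⟩ := hloc x (V.nonunits_subset hx)
    set w : ↥O := ⟨(s : F) * x, hsx⟩ with hw
    have hw𝔓 : w ∈ 𝔓 := (hcen w).mp (lnd_nu_mul V (hOV _ s.2) hx)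
    obtain ⟨s1, u, hs1, hsu⟩ := hgen w ((hker w).mpr hw𝔓)
    have hsuF : algebraMap A F c * ((s1 : F) * ((s : F) * x)) = (g : F) * (u : F) := by
      have := congrArg (fun z : ↥O => (z : F)) hsu
      simpa using this
    have hden : lndU V (algebraMap A F c * ((s1 : F) * (s : F))) :=
      lndU_mul V (hu c hc) (lndU_mul V (hunit𝔓 s1 fun h => hs1 (hle h)) (hunit𝔓 s hs))
    have hden0 := lndU_ne_zero V hden
    refine ⟨(u : F) * (algebraMap A F c * ((s1 : F) * (s : F)))⁻¹,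
      V.mul_mem _ _ (hOV _ u.2) (lndU_mem V (lndU_inv V hden)), ?_⟩
    have h5 : (g : F) * (u : F) = (algebraMap A F c * ((s1 : F) * (s : F))) * x := by
      rw [← hsuF]; ring
    rw [← mul_assoc, h5, mul_comm _ x, mul_assoc, mul_inv_cancel₀ hden0, mul_one]
  obtain ⟨w, hw0, hw1, hw2⟩ := hord V hAV hτV hVpir
  have hfw : lndU V (f * w ^ m) :=
    lndU_of_mem_inv V hw1 hw2 (mul_ne_zero hf (pow_ne_zero _ hw0))
  obtain ⟨e, he⟩ := lnd_unif V (g : F) hg0 hgnu hgenV w hw0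
  refine ⟨(g : F) ^ e, zpow_ne_zero _ hg0, ?_, ?_⟩
  · rw [lndUO_iff O 𝔓 V hOV hcen hloc]
    have h1 : f * (((g : F) ^ e) ^ m)⁻¹ = f * w ^ m * ((w * (g : F) ^ e) ^ m)⁻¹ := by
      have hge : (g : F) ^ e ≠ 0 := zpow_ne_zero _ hg0
      field_simp
      rw [mul_pow]
    rw [h1]
    exact lndU_mul V hfw (lndU_inv V (lndU_pow V he m))
  · intro 𝔓' hp' hle' hne' hτ' hne𝔓
    have := hp'
    refine lndUO_zpow O 𝔓' (lndUO_of_mem O 𝔓' g fun hg' => hne𝔓 ?_) e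
    -- `g ∈ 𝔓'` forces `𝔓 ≤ 𝔓'`, hence equality
    have h𝔓𝔓' : 𝔓 ≤ 𝔓' := by
      intro y hy
      obtain ⟨s, u, hs, hsu⟩ := hgen y ((hker y).mpr hy)
      have h1 : algebraMap A ↥O c * (s * y) ∈ 𝔓' := by
        rw [hsu]; exact 𝔓'.mul_mem_right _ hg'
      rcases Ideal.IsPrime.mem_or_mem hp' h1 with h | h
      · exact absurd h (hcO 𝔓' hp' hτ')
      · rcases Ideal.IsPrime.mem_or_mem hp' h with h | h
        · exact absurd (hle' h) hs
        · exact h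
    obtain ⟨V', hVpir', hOV', hcen', hloc'⟩ := hplace 𝔓' hp' hle' hne' hτ'
    have := hVpir'
    have := hp
    exact le_antisymm (lnd_height O 𝔓 𝔓' h𝔓𝔓' hne V' hOV' (fun x hx => (hcen' x).mpr hx) hloc')
      h𝔓𝔓'

/-- **(LOC) at a crossing point**, general form: the hypothesis `hgam` is only needed for the
evaluation homomorphisms `ev` of the principal valuation rings `V = O_𝔓` with residue field
`Frac A` centred at a prime `𝔓 ≤ 𝔫` (`𝔓 = ker ev`). -/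
theorem lnd_main_pl (τ : A) (hτ : Irreducible τ) (hτ0 : algebraMap A F τ ≠ 0)
    (O : Subalgebra A F) [IsNoetherianRing ↥O]
    (hfrac : ∀ x : F, ∃ ψ ∈ O, ψ ≠ 0 ∧ ψ * x ∈ O)
    (𝔫 : Ideal ↥O) [h𝔫 : 𝔫.IsMaximal] (hτn : algebraMap A ↥O τ ∈ 𝔫)
    (hplace : ∀ 𝔓 : Ideal ↥O, 𝔓.IsPrime → 𝔓 ≤ 𝔫 → 𝔓 ≠ ⊥ → algebraMap A ↥O τ ∉ 𝔓 →
      ∃ V : ValuationSubring F, IsPrincipalIdealRing V ∧ (∀ x ∈ O, x ∈ V) ∧
        (∀ x : ↥O, (x : F) ∈ V.nonunits ↔ x ∈ 𝔓) ∧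
        ∀ x ∈ V, ∃ s : ↥O, s ∉ 𝔓 ∧ (s : F) * x ∈ O)
    (m : ℕ) (f : F) (hf : f ≠ 0)
    (hord : ∀ V : ValuationSubring F, (∀ a : A, algebraMap A F a ∈ V) →
      (algebraMap A F τ)⁻¹ ∈ V → IsPrincipalIdealRing V →
      ∃ w : F, w ≠ 0 ∧ f * w ^ m ∈ V ∧ (f * w ^ m)⁻¹ ∈ V)
    (hrat : ∀ V : ValuationSubring F, (∀ a : A, algebraMap A F a ∈ V) →
      (algebraMap A F τ)⁻¹ ∈ V → IsPrincipalIdealRing V → V ≠ ⊤ → (f ∉ V ∨ f⁻¹ ∉ V) →
      ∀ y ∈ V, ∃ a b : A, b ≠ 0 ∧ algebraMap A F b * y - algebraMap A F a ∈ V.nonunits)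
    (hgam : ∀ (ev : ↥O →ₐ[A] A) (V : ValuationSubring F), IsPrincipalIdealRing V →
      (∀ x ∈ O, x ∈ V) → (∀ x ∈ V, ∃ s : ↥O, ev s ≠ 0 ∧ (s : F) * x ∈ O) →
      (∀ y : ↥O, (y : F) - algebraMap A F (ev y) ∈ V.nonunits) →
      (∀ x ∈ 𝔫, ¬ IsUnit (ev x)) → ∃ g : ↥O, ev g = 0 ∧
      ∃ c : A, c ≠ 0 ∧ ∀ w : ↥O, ev w = 0 →
        ∃ s u : ↥O, s ∉ 𝔫 ∧ algebraMap A ↥O c * (s * w) = g * u) :
    ∃ g : F, g ≠ 0 ∧ ∃ (a b s s' : ↥O) (k l : ℕ), s ∉ 𝔫 ∧ s' ∉ 𝔫 ∧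
      f * (s : F) * algebraMap A F τ ^ k = (a : F) * g ^ m ∧
      g ^ m * (s' : F) * algebraMap A F τ ^ l = (b : F) * f := by
  classical
  set τO : ↥O := algebraMap A ↥O τ with hτO
  have hdat := lnd_datum τ hτ hτ0 O 𝔫 hτn hplace m f hf hord hrat hgam
  -- numerator and denominator of `f`
  obtain ⟨ψ, hψO, hψ0, hψf⟩ := hfrac f
  set b0 : ↥O := ⟨ψ, hψO⟩ with hb0
  set a0 : ↥O := ⟨ψ * f, hψf⟩ with ha0
  have hab0 : a0 * b0 ≠ 0 :=
    mul_ne_zero (fun h => (mul_ne_zero hψ0 hf) (congrArg Subtype.val h))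
      (fun h => hψ0 (congrArg Subtype.val h))
  have hfUO : ∀ 𝔓 : Ideal ↥O, 𝔓.IsPrime → a0 * b0 ∉ 𝔓 → lndUO O 𝔓 f := fun 𝔓 _ h =>
    ⟨a0, b0, fun ha => h (𝔓.mul_mem_right _ ha), fun hb => h (𝔓.mul_mem_left _ hb),
      mul_comm _ _⟩
  -- the finite set of bad primes
  let B : Set (Ideal ↥O) := {𝔓 | 𝔓.IsPrime ∧ 𝔓 ≤ 𝔫 ∧ 𝔓 ≠ ⊥ ∧ τO ∉ 𝔓 ∧ a0 * b0 ∈ 𝔓}
  have hBfin : B.Finite := by
    refine Set.Finite.subset
      (Ideal.finite_minimalPrimes_of_isNoetherianRing ↥O (Ideal.span {a0 * b0})) ?_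
    rintro 𝔓 ⟨hp, hle, hne, hτ𝔓, hab⟩
    obtain ⟨V, hVpir, hOV, hcen, hloc⟩ := hplace 𝔓 hp hle hne hτ𝔓
    have := hVpir
    refine ⟨⟨hp, (Ideal.span_singleton_le_iff_mem _).mpr hab⟩, ?_⟩
    rintro q ⟨hq, hIq⟩ hq𝔓
    have := hq
    refine lnd_height O q 𝔓 hq𝔓 ?_ V hOV (fun x hx => (hcen x).mpr hx) hloc
    intro hbot
    have h1 : a0 * b0 ∈ q := (Ideal.span_singleton_le_iff_mem _).mp hIq
    rw [hbot] at h1
    exact hab0 (Ideal.mem_bot.mp h1)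
  -- choose the local data
  have hex : ∀ 𝔓 : Ideal ↥O, ∃ γ : F, γ ≠ 0 ∧ (𝔓 ∈ B → lndUO O 𝔓 (f * (γ ^ m)⁻¹) ∧
      ∀ 𝔓' : Ideal ↥O, 𝔓'.IsPrime → 𝔓' ≤ 𝔫 → 𝔓' ≠ ⊥ → τO ∉ 𝔓' → 𝔓' ≠ 𝔓 → lndUO O 𝔓' γ) := by
    intro 𝔓
    by_cases h : 𝔓 ∈ B
    · obtain ⟨hp, hle, hne, hτ𝔓, -⟩ := h
      obtain ⟨γ, h1, h2, h3⟩ := hdat 𝔓 hp hle hne hτ𝔓
      exact ⟨γ, h1, fun _ => ⟨h2, h3⟩⟩
    · exact ⟨1, one_ne_zero, fun h' => absurd h' h⟩
  choose γ hγ0 hγ using hex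
  set g : F := ∏ 𝔓 ∈ hBfin.toFinset, γ 𝔓 with hg
  have hg0 : g ≠ 0 := Finset.prod_ne_zero_iff.mpr fun 𝔓 _ => hγ0 𝔓
  -- `f / g ^ m` is a unit at every prime through `𝔫` not containing `τ`
  have hkey : ∀ 𝔓' : Ideal ↥O, 𝔓'.IsPrime → 𝔓' ≤ 𝔫 → τO ∉ 𝔓' →
      lndUO O 𝔓' (f * (g ^ m)⁻¹) := by
    intro 𝔓' hp' hle' hτ'
    have := hp'
    by_cases hbot : 𝔓' = ⊥
    · have hu0 : f * (g ^ m)⁻¹ ≠ 0 := mul_ne_zero hf (inv_ne_zero (pow_ne_zero _ hg0))
      obtain ⟨φ, hφO, hφ0, hφu⟩ := hfrac (f * (g ^ m)⁻¹)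
      refine ⟨⟨φ * (f * (g ^ m)⁻¹), hφu⟩, ⟨φ, hφO⟩, ?_, ?_, mul_comm _ _⟩
      · rw [hbot, Ideal.mem_bot]
        intro h
        exact (mul_ne_zero hφ0 hu0) (congrArg Subtype.val h)
      · rw [hbot, Ideal.mem_bot]
        intro h
        exact hφ0 (congrArg Subtype.val h)
    by_cases hB' : a0 * b0 ∈ 𝔓'
    · have hmem : 𝔓' ∈ B := ⟨hp', hle', hbot, hτ', hB'⟩
      have hmemF : 𝔓' ∈ hBfin.toFinset := hBfin.mem_toFinset.mpr hmem
      have hsplit : g = γ 𝔓' * ∏ 𝔓 ∈ hBfin.toFinset.erase 𝔓', γ 𝔓 := by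
        rw [hg, Finset.mul_prod_erase _ _ hmemF]
      have h1 : f * (g ^ m)⁻¹ = f * ((γ 𝔓') ^ m)⁻¹ *
          ((∏ 𝔓 ∈ hBfin.toFinset.erase 𝔓', γ 𝔓) ^ m)⁻¹ := by
        rw [hsplit, mul_pow, mul_inv, mul_assoc]
      rw [h1]
      refine lndUO_mul O 𝔓' ((hγ 𝔓' hmem).1)
        (lndUO_inv O 𝔓' (lndUO_pow O 𝔓' (lndUO_prod O 𝔓' _ _ ?_) m))
      intro 𝔓 h𝔓
      rw [Finset.mem_erase] at h𝔓
      exact (hγ 𝔓 (hBfin.mem_toFinset.mp h𝔓.2)).2 𝔓' hp' hle' hbot hτ' (Ne.symm h𝔓.1)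
    · refine lndUO_mul O 𝔓' (hfUO 𝔓' hp' hB')
        (lndUO_inv O 𝔓' (lndUO_pow O 𝔓' (lndUO_prod O 𝔓' _ _ ?_) m))
      intro 𝔓 h𝔓
      have h𝔓B : 𝔓 ∈ B := hBfin.mem_toFinset.mp h𝔓
      refine (hγ 𝔓 h𝔓B).2 𝔓' hp' hle' hbot hτ' ?_
      rintro rfl
      exact hB' h𝔓B.2.2.2.2
  -- conclusion by the ideal-of-denominators criterion
  have hprime : 𝔫.IsPrime := h𝔫.isPrime
  obtain ⟨s, k, hs, hmem⟩ := lnd_mem_loc O τO 𝔫 (f * (g ^ m)⁻¹) (fun 𝔓' hp' hle' hτ' => by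
    obtain ⟨a, s, -, hs, h⟩ := hkey 𝔓' hp' hle' hτ'
    exact ⟨s, hs, by rw [mul_comm, h]; exact a.2⟩)
  obtain ⟨s', l, hs', hmem'⟩ := lnd_mem_loc O τO 𝔫 (f * (g ^ m)⁻¹)⁻¹
    (fun 𝔓' hp' hle' hτ' => by
      obtain ⟨a, s, -, hs, h⟩ := lndUO_inv O 𝔓' (hkey 𝔓' hp' hle' hτ')
      exact ⟨s, hs, by rw [mul_comm, h]; exact a.2⟩)
  have hgm : g ^ m ≠ 0 := pow_ne_zero _ hg0
  have hτOF : (τO : F) = algebraMap A F τ := rfl
  refine ⟨g, hg0, ⟨_, hmem⟩, ⟨_, hmem'⟩, s, s', k, l, hs, hs', ?_, ?_⟩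
  · show f * (s : F) * algebraMap A F τ ^ k
      = ((s : F) * (τO : F) ^ k * (f * (g ^ m)⁻¹)) * g ^ m
    rw [hτOF]
    field_simp
  · show g ^ m * (s' : F) * algebraMap A F τ ^ l
      = ((s' : F) * (τO : F) ^ l * (f * (g ^ m)⁻¹)⁻¹) * f
    rw [hτOF]
    field_simp

/-- **(LOC) at a crossing point.**  See the module docstring. -/
theorem lnd_main (τ : A) (hτ : Irreducible τ) (hτ0 : algebraMap A F τ ≠ 0)
    (O : Subalgebra A F) [IsNoetherianRing ↥O]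
    (hfrac : ∀ x : F, ∃ ψ ∈ O, ψ ≠ 0 ∧ ψ * x ∈ O)
    (𝔫 : Ideal ↥O) [h𝔫 : 𝔫.IsMaximal] (hτn : algebraMap A ↥O τ ∈ 𝔫)
    (hplace : ∀ 𝔓 : Ideal ↥O, 𝔓.IsPrime → 𝔓 ≤ 𝔫 → 𝔓 ≠ ⊥ → algebraMap A ↥O τ ∉ 𝔓 →
      ∃ V : ValuationSubring F, IsPrincipalIdealRing V ∧ (∀ x ∈ O, x ∈ V) ∧
        (∀ x : ↥O, (x : F) ∈ V.nonunits ↔ x ∈ 𝔓) ∧
        ∀ x ∈ V, ∃ s : ↥O, s ∉ 𝔓 ∧ (s : F) * x ∈ O)
    (m : ℕ) (f : F) (hf : f ≠ 0)
    (hord : ∀ V : ValuationSubring F, (∀ a : A, algebraMap A F a ∈ V) →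
      (algebraMap A F τ)⁻¹ ∈ V → IsPrincipalIdealRing V →
      ∃ w : F, w ≠ 0 ∧ f * w ^ m ∈ V ∧ (f * w ^ m)⁻¹ ∈ V)
    (hrat : ∀ V : ValuationSubring F, (∀ a : A, algebraMap A F a ∈ V) →
      (algebraMap A F τ)⁻¹ ∈ V → IsPrincipalIdealRing V → V ≠ ⊤ → (f ∉ V ∨ f⁻¹ ∉ V) →
      ∀ y ∈ V, ∃ a b : A, b ≠ 0 ∧ algebraMap A F b * y - algebraMap A F a ∈ V.nonunits)
    (hgam : ∀ ev : ↥O →ₐ[A] A, (∀ x ∈ 𝔫, ¬ IsUnit (ev x)) → ∃ g : ↥O, ev g = 0 ∧
      ∃ c : A, c ≠ 0 ∧ ∀ w : ↥O, ev w = 0 →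
        ∃ s u : ↥O, s ∉ 𝔫 ∧ algebraMap A ↥O c * (s * w) = g * u) :
    ∃ g : F, g ≠ 0 ∧ ∃ (a b s s' : ↥O) (k l : ℕ), s ∉ 𝔫 ∧ s' ∉ 𝔫 ∧
      f * (s : F) * algebraMap A F τ ^ k = (a : F) * g ^ m ∧
      g ^ m * (s' : F) * algebraMap A F τ ^ l = (b : F) * f :=
  lnd_main_pl τ hτ hτ0 O hfrac 𝔫 hτn hplace m f hf hord hrat
    (fun ev _ _ _ _ _ hloc => hgam ev hloc)

/-- The hypothesis `hgam` of `lnd_main` from its form over any localization `Λ` of `O` at `𝔫`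
(the form in which the node lemma is proved). -/
theorem lnd_gam_of_loc (O : Subalgebra A F) (𝔫 : Ideal ↥O) [h𝔫 : 𝔫.IsMaximal]
    (Λ : Type*) [CommRing Λ] [Algebra ↥O Λ] [Algebra A Λ] [IsScalarTower A ↥O Λ]
    [IsLocalization.AtPrime Λ 𝔫]
    (hΛ : ∀ ev : Λ →ₐ[A] A, ∃ g : Λ, ev g = 0 ∧ ∃ c : A, c ≠ 0 ∧
      ∀ w : Λ, ev w = 0 → ∃ u : Λ, algebraMap A Λ c * w = g * u)
    (ev : ↥O →ₐ[A] A) (hev : ∀ x ∈ 𝔫, ¬ IsUnit (ev x)) :
    ∃ g : ↥O, ev g = 0 ∧ ∃ c : A, c ≠ 0 ∧ ∀ w : ↥O, ev w = 0 →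
      ∃ s u : ↥O, s ∉ 𝔫 ∧ algebraMap A ↥O c * (s * w) = g * u := by
  have hinj : Function.Injective (algebraMap ↥O Λ) :=
    IsLocalization.injective Λ 𝔫.primeCompl_le_nonZeroDivisors
  -- `ev` inverts the complement of `𝔫`
  have hunit : ∀ y : 𝔫.primeCompl, IsUnit (ev (y : ↥O)) := by
    rintro ⟨y, hy⟩
    obtain ⟨r, n, hn, hrn⟩ := h𝔫.exists_inv hy
    have h1 : ev r * ev y + ev n = 1 := by rw [← map_mul, ← map_add, hrn, map_one]
    rcases IsLocalRing.isUnit_or_isUnit_of_add_one h1 with h | h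
    · exact isUnit_of_mul_isUnit_right h
    · exact absurd h (hev n hn)
  let evΛ : Λ →ₐ[A] A := IsLocalization.liftAlgHom (M := 𝔫.primeCompl) (f := ev) hunit
  have hevΛ : ∀ x : ↥O, evΛ (algebraMap ↥O Λ x) = ev x := fun x => by
    show IsLocalization.lift hunit (algebraMap ↥O Λ x) = ev x
    rw [IsLocalization.lift_eq]
    rfl
  obtain ⟨gΛ, hgΛ, c, hc, hgen⟩ := hΛ evΛ
  obtain ⟨g0, s0, hg0⟩ := IsLocalization.exists_mk'_eq 𝔫.primeCompl gΛ
  have hg0' : gΛ * algebraMap ↥O Λ (s0 : ↥O) = algebraMap ↥O Λ g0 := by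
    rw [← hg0, IsLocalization.mk'_spec]
  refine ⟨g0, ?_, c, hc, fun w hw => ?_⟩
  · rw [← hevΛ, ← hg0', map_mul, hgΛ, zero_mul]
  · obtain ⟨u, hu⟩ := hgen (algebraMap ↥O Λ w) (by rw [hevΛ, hw])
    obtain ⟨u0, s1, hu0⟩ := IsLocalization.exists_mk'_eq 𝔫.primeCompl u
    have hu0' : u * algebraMap ↥O Λ (s1 : ↥O) = algebraMap ↥O Λ u0 := by
      rw [← hu0, IsLocalization.mk'_spec]
    refine ⟨(s0 : ↥O) * (s1 : ↥O), u0, fun h => ?_, hinj ?_⟩
    · rcases Ideal.IsPrime.mem_or_mem h𝔫.isPrime h with h | h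
      · exact s0.2 h
      · exact s1.2 h
    · rw [map_mul, map_mul, map_mul, map_mul, ← IsScalarTower.algebraMap_apply A ↥O Λ,
        ← hg0', ← hu0']
      calc algebraMap A Λ c * (algebraMap ↥O Λ (s0 : ↥O) * algebraMap ↥O Λ (s1 : ↥O) *
            algebraMap ↥O Λ w)
          = (algebraMap A Λ c * algebraMap ↥O Λ w) *
            (algebraMap ↥O Λ (s0 : ↥O) * algebraMap ↥O Λ (s1 : ↥O)) := by ring
        _ = gΛ * u * (algebraMap ↥O Λ (s0 : ↥O) * algebraMap ↥O Λ (s1 : ↥O)) := by rw [hu]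
        _ = gΛ * algebraMap ↥O Λ (s0 : ↥O) * (u * algebraMap ↥O Λ (s1 : ↥O)) := by ring

end Main

end Fermat.Agent.S34
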