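import Mathlib
import Fermat.Prelude.Def_AlgebraicCurve_DivisorClassGroup
import Fermat.Agent.S18.Charts
import Fermat.Agent.S18.CoreInstHord
import Fermat.Agent.S24.SumFormulaBase
import Fermat.Agent.S34.HorizPlace
import Fermat.Agent.S34.LocNode
import Fermat.Agent.S34.InstAbs

/-!
# S34, leaf LOC-NODE-INST: `(LOC)` at a crossing point of an integral-closure chart

Glue between `lnd_main_pl` (LocNode), `hzp_main` (HorizPlace), `cinst_hord` (S18) and the shape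
`S34Loc` consumed by the abstract assembly (InstAbs).

* `lni_pir_comap`, `lni_hord_comap`, `lni_hrat_comap`: transport of the valuation-subring forms
  of the place hypotheses along a field automorphism fixing `A` (the swap).
* `lni_hrat_of_place`: the rationality hypothesis of `lnd_main` from its `Place` form.
* `lni_gam_one`: for one evaluation homomorphism `ev : O → A` local at `𝔫`, its extension to a
  localization `Λ` of `O` at `𝔫`, and the transfer of the node statement from `Λ` to `O`.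
* `lni_node`: `S34Loc τ m (chtO A0 {t}) f 𝔫` from the valuation-subring forms of the place
  hypotheses for `f` and the node statement `hgam` at `𝔫`.
* `lni_node_swap`: the same for `f = f₀` and `f = w.symm f₀`, from the `Place` forms for `f₀`.
-/

set_option autoImplicit false

open Polynomial AlgebraicCurve

namespace Fermat.Agent.S34

open Fermat.Agent.S18

/-! ### Transport along an automorphism -/

section Transport

variable {A F : Type*} [CommRing A] [Field F] [Algebra A F]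

/-- The pull-back of a principal valuation ring under a field automorphism is principal. -/
theorem lni_pir_comap (V : ValuationSubring F) (φ : F ≃+* F) (h : IsPrincipalIdealRing V) :
    IsPrincipalIdealRing (V.comap (φ : F →+* F)) := by
  let ψ : ↥V →+* ↥(V.comap (φ : F →+* F)) :=
    { toFun := fun x => ⟨φ.symm x, by
        rw [ValuationSubring.mem_comap]
        show φ (φ.symm x) ∈ V
        rw [RingEquiv.apply_symm_apply]; exact x.2⟩
      map_one' := Subtype.ext (map_one φ.symm)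
      map_mul' := fun x y => Subtype.ext (map_mul φ.symm _ _)
      map_zero' := Subtype.ext (map_zero φ.symm)
      map_add' := fun x y => Subtype.ext (map_add φ.symm _ _) }
  refine IsPrincipalIdealRing.of_surjective ψ fun y => ⟨⟨φ y, y.2⟩, Subtype.ext ?_⟩
  show φ.symm (φ y) = y
  rw [RingEquiv.symm_apply_apply]

theorem lni_nonunits_comap (V : ValuationSubring F) (φ : F ≃+* F) (x : F) :
    x ∈ (V.comap (φ : F →+* F)).nonunits ↔ φ x ∈ V.nonunits := by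
  rw [ValuationSubring.mem_nonunits_iff_or, ValuationSubring.mem_nonunits_iff_or,
    ValuationSubring.mem_comap]
  show x = 0 ∨ φ x⁻¹ ∉ V ↔ φ x = 0 ∨ (φ x)⁻¹ ∉ V
  rw [map_inv₀, map_eq_zero]

/-- Transport of the hypothesis `hord` along an automorphism fixing `A`. -/
theorem lni_hord_comap (τ : A) (m : ℕ) (f : F) (φ : F ≃+* F)
    (hφA : ∀ a : A, φ (algebraMap A F a) = algebraMap A F a)
    (hord : ∀ V : ValuationSubring F, (∀ a : A, algebraMap A F a ∈ V) →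
      (algebraMap A F τ)⁻¹ ∈ V → IsPrincipalIdealRing V →
      ∃ w : F, w ≠ 0 ∧ f * w ^ m ∈ V ∧ (f * w ^ m)⁻¹ ∈ V) :
    ∀ V : ValuationSubring F, (∀ a : A, algebraMap A F a ∈ V) →
      (algebraMap A F τ)⁻¹ ∈ V → IsPrincipalIdealRing V →
      ∃ w : F, w ≠ 0 ∧ φ f * w ^ m ∈ V ∧ (φ f * w ^ m)⁻¹ ∈ V := by
  intro V hAV hτV hV
  obtain ⟨w, hw0, h1, h2⟩ := hord (V.comap (φ : F →+* F))
    (fun a => by
      rw [ValuationSubring.mem_comap]
      show φ (algebraMap A F a) ∈ V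
      rw [hφA]; exact hAV a)
    (by
      rw [ValuationSubring.mem_comap]
      show φ (algebraMap A F τ)⁻¹ ∈ V
      rw [map_inv₀, hφA]; exact hτV)
    (lni_pir_comap V φ hV)
  refine ⟨φ w, (map_ne_zero φ).mpr hw0, ?_, ?_⟩
  · have h3 : φ (f * w ^ m) ∈ V := h1
    rwa [map_mul, map_pow] at h3
  · have h3 : φ (f * w ^ m)⁻¹ ∈ V := h2
    rwa [map_inv₀, map_mul, map_pow] at h3

/-- Transport of the hypothesis `hrat` along an automorphism fixing `A`. -/
theorem lni_hrat_comap (τ : A) (f : F) (φ : F ≃+* F)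
    (hφA : ∀ a : A, φ (algebraMap A F a) = algebraMap A F a)
    (hrat : ∀ V : ValuationSubring F, (∀ a : A, algebraMap A F a ∈ V) →
      (algebraMap A F τ)⁻¹ ∈ V → IsPrincipalIdealRing V → V ≠ ⊤ → (f ∉ V ∨ f⁻¹ ∉ V) →
      ∀ y ∈ V, ∃ a b : A, b ≠ 0 ∧ algebraMap A F b * y - algebraMap A F a ∈ V.nonunits) :
    ∀ V : ValuationSubring F, (∀ a : A, algebraMap A F a ∈ V) →
      (algebraMap A F τ)⁻¹ ∈ V → IsPrincipalIdealRing V → V ≠ ⊤ → (φ f ∉ V ∨ (φ f)⁻¹ ∉ V) →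
      ∀ y ∈ V, ∃ a b : A, b ≠ 0 ∧ algebraMap A F b * y - algebraMap A F a ∈ V.nonunits := by
  intro V hAV hτV hV hVtop hfV y hy
  have hmem : ∀ x : F, x ∈ V.comap (φ : F →+* F) ↔ φ x ∈ V := fun x => Iff.rfl
  have hV'top : V.comap (φ : F →+* F) ≠ ⊤ := by
    intro h
    apply hVtop
    refine SetLike.ext fun x => ⟨fun _ => ValuationSubring.mem_top x, fun _ => ?_⟩
    have h1 : φ.symm x ∈ V.comap (φ : F →+* F) := by rw [h]; exact ValuationSubring.mem_top _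
    rw [hmem, RingEquiv.apply_symm_apply] at h1
    exact h1
  have hfV' : f ∉ V.comap (φ : F →+* F) ∨ f⁻¹ ∉ V.comap (φ : F →+* F) := by
    rcases hfV with h | h
    · exact Or.inl fun h' => h ((hmem f).mp h')
    · refine Or.inr fun h' => h ?_
      have h1 := (hmem f⁻¹).mp h'
      rwa [map_inv₀] at h1
  obtain ⟨a, b, hb, hab⟩ := hrat (V.comap (φ : F →+* F))
    (fun a => by rw [hmem, hφA]; exact hAV a)
    (by rw [hmem, map_inv₀, hφA]; exact hτV)
    (lni_pir_comap V φ hV) hV'top hfV' (φ.symm y)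
    (by rw [hmem, RingEquiv.apply_symm_apply]; exact hy)
  refine ⟨a, b, hb, ?_⟩
  have h1 := (lni_nonunits_comap V φ _).mp hab
  rwa [map_sub, map_mul, hφA, hφA, RingEquiv.apply_symm_apply] at h1

end Transport

/-! ### One evaluation homomorphism -/

section Gam

variable {A F : Type*} [CommRing A] [IsLocalRing A] [Field F] [Algebra A F]

/-- For an `A`-algebra homomorphism `ev : O → A` which is local at the maximal ideal `𝔫`: its
extension `evΛ` to any localization `Λ` of `O` at `𝔫`, and the transfer of the node statement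
for `evΛ` to the form consumed by `lnd_main_pl`. -/
theorem lni_gam_one (O : Subalgebra A F) (𝔫 : Ideal ↥O) [h𝔫 : 𝔫.IsMaximal]
    (Λ : Type*) [CommRing Λ] [Algebra ↥O Λ] [Algebra A Λ] [IsScalarTower A ↥O Λ]
    [IsLocalization.AtPrime Λ 𝔫]
    (ev : ↥O →ₐ[A] A) (hev : ∀ x ∈ 𝔫, ¬ IsUnit (ev x)) :
    ∃ evΛ : Λ →ₐ[A] A, (∀ x : ↥O, evΛ (algebraMap ↥O Λ x) = ev x) ∧
      ((∃ g : Λ, evΛ g = 0 ∧ ∃ c : A, c ≠ 0 ∧
          ∀ w : Λ, evΛ w = 0 → ∃ u : Λ, algebraMap A Λ c * w = g * u) →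
        ∃ g : ↥O, ev g = 0 ∧ ∃ c : A, c ≠ 0 ∧ ∀ w : ↥O, ev w = 0 →
          ∃ s u : ↥O, s ∉ 𝔫 ∧ algebraMap A ↥O c * (s * w) = g * u) := by
  have hinj : Function.Injective (algebraMap ↥O Λ) :=
    IsLocalization.injective Λ 𝔫.primeCompl_le_nonZeroDivisors
  have hunit : ∀ y : 𝔫.primeCompl, IsUnit (ev (y : ↥O)) := by
    rintro ⟨y, hy⟩
    obtain ⟨r, n, hn, hrn⟩ := h𝔫.exists_inv hy
    have h1 : ev r * ev y + ev n = 1 := by rw [← map_mul, ← map_add, hrn, map_one]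
    rcases IsLocalRing.isUnit_or_isUnit_of_add_one h1 with h | h
    · exact isUnit_of_mul_isUnit_right h
    · exact absurd h (hev n hn)
  let evΛ : Λ →ₐ[A] A := IsLocalization.liftAlgHom (M := 𝔫.primeCompl) (f := ev) hunit
  have hevΛ : ∀ x : ↥O, evΛ (algebraMap ↥O Λ x) = ev x := fun x => by
    show IsLocalization.lift hunit (algebraMap ↥O Λ x) = ev x
    rw [IsLocalization.lift_eq]
    rfl
  refine ⟨evΛ, hevΛ, ?_⟩
  rintro ⟨gΛ, hgΛ, c, hc, hgen⟩
  obtain ⟨g0, s0, hg0⟩ := IsLocalization.exists_mk'_eq 𝔫.primeCompl gΛ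
  have hg0' : gΛ * algebraMap ↥O Λ (s0 : ↥O) = algebraMap ↥O Λ g0 := by
    rw [← hg0, IsLocalization.mk'_spec]
  refine ⟨g0, ?_, c, hc, fun w hw => ?_⟩
  · rw [← hevΛ, ← hg0', map_mul, hgΛ, zero_mul]
  · obtain ⟨u, hu⟩ := hgen (algebraMap ↥O Λ w) (by rw [hevΛ, hw])
    obtain ⟨u0, s1, hu0⟩ := IsLocalization.exists_mk'_eq 𝔫.primeCompl u
    have hu0' : u * algebraMap ↥O Λ (s1 : ↥O) = algebraMap ↥O Λ u0 := by
      rw [← hu0, IsLocalization.mk'_spec]
    refine ⟨(s0 : ↥O) * (s1 : ↥O), u0, fun h => ?_, hinj ?_⟩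
    · rcases Ideal.IsPrime.mem_or_mem h𝔫.isPrime h with h | h
      · exact s0.2 h
      · exact s1.2 h
    · rw [map_mul, map_mul, map_mul, map_mul, ← IsScalarTower.algebraMap_apply A ↥O Λ,
        ← hg0', ← hu0']
      calc algebraMap A Λ c * (algebraMap ↥O Λ (s0 : ↥O) * algebraMap ↥O Λ (s1 : ↥O) *
            algebraMap ↥O Λ w)
          = (algebraMap A Λ c * algebraMap ↥O Λ w) *
            (algebraMap ↥O Λ (s0 : ↥O) * algebraMap ↥O Λ (s1 : ↥O)) := by ring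
        _ = gΛ * u * (algebraMap ↥O Λ (s0 : ↥O) * algebraMap ↥O Λ (s1 : ↥O)) := by rw [hu]
        _ = gΛ * algebraMap ↥O Λ (s0 : ↥O) * (u * algebraMap ↥O Λ (s1 : ↥O)) := by ring

end Gam

/-! ### The crossing points of an integral-closure chart -/

section Node

variable {A0 K0 F : Type*} [CommRing A0] [IsDomain A0] [IsDiscreteValuationRing A0]
  [Field K0] [Algebra A0 K0] [IsFractionRing A0 K0] [CharZero K0]
  [Field F] [Algebra A0 F] [Algebra K0 F] [IsScalarTower A0 K0 F]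

omit [CharZero K0] in
/-- The rationality hypothesis `hrat` of `lnd_main` from its `Place` form. -/
theorem lni_hrat_of_place (τ : A0) (hτ : Irreducible τ) (f : F)
    (hratQ : ∀ Q : Place K0 F, Q.ord f ≠ 0 → ∀ y ∈ Q.toValuationSubring,
      ∃ c : K0, y - algebraMap K0 F c ∈ Q.toValuationSubring.nonunits) :
    ∀ V : ValuationSubring F, (∀ a : A0, algebraMap A0 F a ∈ V) →
      (algebraMap A0 F τ)⁻¹ ∈ V → IsPrincipalIdealRing V → V ≠ ⊤ → (f ∉ V ∨ f⁻¹ ∉ V) →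
      ∀ y ∈ V, ∃ a b : A0, b ≠ 0 ∧ algebraMap A0 F b * y - algebraMap A0 F a ∈ V.nonunits := by
  intro V hAV hτV hV hVtop hfV y hy
  let Q : Place K0 F := ⟨V, cinst_field_mem τ hτ V hAV hτV, hVtop, hV⟩
  have hQ : Q.ord f ≠ 0 := by
    intro h0
    rcases hfV with h | h
    · exact h ((Fermat.Agent.S24.sf_ord_nonneg_iff Q f).mp (le_of_eq h0.symm))
    · exact h ((Fermat.Agent.S24.sf_ord_nonpos_iff Q f).mp (le_of_eq h0))
  obtain ⟨c, hc⟩ := hratQ Q hQ y hy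
  exact lnd_rat_of_frac V hAV y c hc

/-- **(LOC) at a closed point `𝔫` of the chart `chtO A0 {t}`**, from the valuation-subring forms
of the place hypotheses for `f` and the node statement `hgam` at `𝔫`. -/
theorem lni_node {τ : A0} (hτ : Irreducible τ) (t : F) (ht : Transcendental K0 t)
    (hfin : ∃ (n : ℕ) (β : Fin n → F), ∀ x : F, ∃ (a : Fin n → A0[X]) (d : A0[X]),
      aeval t d ≠ 0 ∧ aeval t d * x = ∑ i, aeval t (a i) * β i)
    [IsNoetherianRing ↥(chtO A0 {t})] (m : ℕ) (f : F) (hf : f ≠ 0)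
    (hord : ∀ V : ValuationSubring F, (∀ a : A0, algebraMap A0 F a ∈ V) →
      (algebraMap A0 F τ)⁻¹ ∈ V → IsPrincipalIdealRing V →
      ∃ w : F, w ≠ 0 ∧ f * w ^ m ∈ V ∧ (f * w ^ m)⁻¹ ∈ V)
    (hrat : ∀ V : ValuationSubring F, (∀ a : A0, algebraMap A0 F a ∈ V) →
      (algebraMap A0 F τ)⁻¹ ∈ V → IsPrincipalIdealRing V → V ≠ ⊤ → (f ∉ V ∨ f⁻¹ ∉ V) →
      ∀ y ∈ V, ∃ a b : A0, b ≠ 0 ∧ algebraMap A0 F b * y - algebraMap A0 F a ∈ V.nonunits)
    (𝔫 : Ideal ↥(chtO A0 {t})) [𝔫.IsMaximal] (hτ𝔫 : algebraMap A0 ↥(chtO A0 {t}) τ ∈ 𝔫)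
    (hgam : ∀ (ev : ↥(chtO A0 {t}) →ₐ[A0] A0) (V : ValuationSubring F), IsPrincipalIdealRing V →
      (∀ x ∈ chtO A0 {t}, x ∈ V) →
      (∀ x ∈ V, ∃ s : ↥(chtO A0 {t}), ev s ≠ 0 ∧ (s : F) * x ∈ chtO A0 {t}) →
      (∀ y : ↥(chtO A0 {t}), (y : F) - algebraMap A0 F (ev y) ∈ V.nonunits) →
      (∀ x ∈ 𝔫, ¬ IsUnit (ev x)) → ∃ g : ↥(chtO A0 {t}), ev g = 0 ∧
      ∃ c : A0, c ≠ 0 ∧ ∀ w : ↥(chtO A0 {t}), ev w = 0 →
        ∃ s u : ↥(chtO A0 {t}), s ∉ 𝔫 ∧ algebraMap A0 ↥(chtO A0 {t}) c * (s * w) = g * u) :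
    S34Loc τ m (chtO A0 {t}) f 𝔫 := by
  have htA : Transcendental A0 t := fun h =>
    ht (h.extendScalars (IsFractionRing.injective A0 K0))
  have hτ0 : algebraMap A0 F τ ≠ 0 := by
    rw [IsScalarTower.algebraMap_apply A0 K0 F, Ne, map_eq_zero,
      map_eq_zero_iff _ (IsFractionRing.injective A0 K0)]
    exact hτ.ne_zero
  exact lnd_main_pl τ hτ hτ0 (chtO A0 {t})
    (fun x => by
      obtain ⟨a, ha, s, hs, hs0, h⟩ := cht_hfrac t htA hfin x
      exact ⟨s, hs, hs0, by rw [mul_comm, h]; exact ha⟩)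
    𝔫 hτ𝔫
    (fun 𝔓 hp _ hne hτ𝔓 => by
      obtain ⟨V, h1, -, -, -, h2, h3, h4⟩ := hzp_main hτ t ht hfin 𝔓 hp hne hτ𝔓
      exact ⟨V, h1, h2, h3, h4⟩)
    m f hf hord hrat hgam

/-- **(LOC) at a crossing point for `f₀` and its swap**, from the `Place` forms of the
hypotheses for `f₀` (divisibility of the orders by `m`; zeros and poles `K0`-rational). -/
theorem lni_node_swap {τ : A0} (hτ : Irreducible τ) (t : F) (ht : Transcendental K0 t)
    (hfin : ∃ (n : ℕ) (β : Fin n → F), ∀ x : F, ∃ (a : Fin n → A0[X]) (d : A0[X]),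
      aeval t d ≠ 0 ∧ aeval t d * x = ∑ i, aeval t (a i) * β i)
    [IsNoetherianRing ↥(chtO A0 {t})] (m : ℕ) (f₀ : F) (hf₀ : f₀ ≠ 0)
    (hdiv : ∀ Q : Place K0 F, (m : ℤ) ∣ Q.ord f₀)
    (hratQ : ∀ Q : Place K0 F, Q.ord f₀ ≠ 0 → ∀ y ∈ Q.toValuationSubring,
      ∃ c : K0, y - algebraMap K0 F c ∈ Q.toValuationSubring.nonunits)
    (w : F ≃+* F) (hwA : ∀ a : A0, w (algebraMap A0 F a) = algebraMap A0 F a)
    (f : F) (hff : f = f₀ ∨ f = w.symm f₀)
    (𝔫 : Ideal ↥(chtO A0 {t})) [𝔫.IsMaximal] (hτ𝔫 : algebraMap A0 ↥(chtO A0 {t}) τ ∈ 𝔫)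
    (hgam : ∀ (ev : ↥(chtO A0 {t}) →ₐ[A0] A0) (V : ValuationSubring F), IsPrincipalIdealRing V →
      (∀ x ∈ chtO A0 {t}, x ∈ V) →
      (∀ x ∈ V, ∃ s : ↥(chtO A0 {t}), ev s ≠ 0 ∧ (s : F) * x ∈ chtO A0 {t}) →
      (∀ y : ↥(chtO A0 {t}), (y : F) - algebraMap A0 F (ev y) ∈ V.nonunits) →
      (∀ x ∈ 𝔫, ¬ IsUnit (ev x)) → ∃ g : ↥(chtO A0 {t}), ev g = 0 ∧
      ∃ c : A0, c ≠ 0 ∧ ∀ w : ↥(chtO A0 {t}), ev w = 0 →
        ∃ s u : ↥(chtO A0 {t}), s ∉ 𝔫 ∧ algebraMap A0 ↥(chtO A0 {t}) c * (s * w) = g * u) :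
    S34Loc τ m (chtO A0 {t}) f 𝔫 := by
  have hord₀ := cinst_hord (K := K0) τ hτ m f₀ hdiv
  have hrat₀ := lni_hrat_of_place (K0 := K0) τ hτ f₀ hratQ
  have hsymmA : ∀ a : A0, w.symm (algebraMap A0 F a) = algebraMap A0 F a := fun a => by
    rw [RingEquiv.symm_apply_eq, hwA]
  rcases hff with rfl | rfl
  · exact lni_node (K0 := K0) hτ t ht hfin m f hf₀ hord₀ hrat₀ 𝔫 hτ𝔫 hgam
  · exact lni_node (K0 := K0) hτ t ht hfin m (w.symm f₀) ((map_ne_zero w.symm).mpr hf₀)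
      (lni_hord_comap τ m f₀ w.symm hsymmA hord₀) (lni_hrat_comap τ f₀ w.symm hsymmA hrat₀)
      𝔫 hτ𝔫 hgam

end Node

end Fermat.Agent.S34
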