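/-
S34 [A-SIGMA-INST]: the `σ`-hypotheses of `s34ia_main` / `ulo_main` at the concrete carrier of
`S34/Val2Def.lean`.

Setting: `K0` a field over `ℚ` with an embedding into `ℚ̄`, `A0 : ValuationSubring K0` a discrete
valuation ring, `q ∤ M` a prime, `F := laurentBaseChange K0 (modularFunctionFieldFull (M * q))`,
`V₁ := va2V1 M q K0 A0` (Gauss valuation ring), `V₂ := va2V2 M q hM K0 A0` (its pull-back under the
swap), `s : K0 ≃ₐ[ℚ] K0` in the inertia group of `A0`,
`σ' := arithmeticRingAut (modularFunctionFieldFull (M * q)) s`, `τ : A0` irreducible, and any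
`[Algebra A0 F] [IsScalarTower A0 K0 F]`.

* `sgi_algebraMap`  : `algebraMap A0 F a = algebraMap K0 F a`;
* `sgi_hστ`         : `σ' τ = ε * τ` with `ε` a unit of `A0`;
* `sgi_hσV1`, `sgi_hσV2` : `(σ' x - x) * τ⁻¹ ∈ V_j` for `x ∈ V_j`;
* `sgi_hσu1`, `sgi_hσu2` : `σ' g * g⁻¹ ∈ V_j` for `g ≠ 0`;
* `sgi_hσA`         : `σ'` maps constants of `A0` to constants of `A0`;
* `sgi_fix_t`       : `σ' t = t` for the chart coordinate `t = (h - c1) / (h - c0)` with base
  points fixed by `s`;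
* `sgi_hσO`, `sgi_hσO_inv` : `σ'` preserves the charts `chtO A0 {t}` and `chtO A0 {t⁻¹}`;
* `sgi_restrict_inertia`, `sgi_restrict_fix` : an element of the inertia group of a valuation
  subring `A` of `ℚ̄` restricts to an element of the inertia group of `A ∩ K1` for `K1 / ℚ` normal,
  and the restriction fixes every element of `K1` fixed by `σ`;
* `sgi_smul`        : `arithmeticGalois F₀ s • x = arithmeticRingAut F₀ s x`.
-/
import Fermat.Agent.S34.SigmaVal
import Fermat.Agent.S34.Val2Def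
import Fermat.Agent.S34.InstChoice
import Fermat.Agent.S18.CoreInstChart

set_option autoImplicit false

noncomputable section

open ModularCurve AlgebraicCurve

namespace Fermat.Agent.S34

open Fermat.Agent.S18 Fermat.Agent.S37

local notation "Qb" => AlgebraicClosure ℚ

section Concrete

variable (M q : ℕ) [NeZero M] [hq : Fact q.Prime] (hM : ¬ q ∣ M)
  (K0 : Type*) [Field K0] [Algebra ℚ K0] [Algebra K0 Qb]
  (A0 : ValuationSubring K0) [IsDiscreteValuationRing ↥A0]
  [Algebra ↥A0 ↥(laurentBaseChange K0 (modularFunctionFieldFull (M * q)))]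
  [IsScalarTower ↥A0 K0 ↥(laurentBaseChange K0 (modularFunctionFieldFull (M * q)))]

omit [NeZero M] hq [Algebra K0 Qb] [IsDiscreteValuationRing ↥A0] in
/-- the constants of `A0` inside the function field -/
theorem sgi_algebraMap (a : A0) :
    algebraMap ↥A0 ↥(laurentBaseChange K0 (modularFunctionFieldFull (M * q))) a
      = algebraMap K0 ↥(laurentBaseChange K0 (modularFunctionFieldFull (M * q))) (a : K0) :=
  IsScalarTower.algebraMap_apply ↥A0 K0 _ a

omit [Algebra K0 Qb] [Algebra ↥A0 ↥(laurentBaseChange K0 (modularFunctionFieldFull (M * q)))]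
  [IsScalarTower ↥A0 K0 ↥(laurentBaseChange K0 (modularFunctionFieldFull (M * q)))] in
/-- every element of the function field over `K0` is a constant times a Gauss unit -/
theorem sgi_hF : ∀ x ∈ laurentBaseChange K0 (modularFunctionFieldFull (M * q)), gdvProp A0 x :=
  fun _ hx => gdv_full_le A0 (M * q) hx

omit [NeZero M] hq [Algebra K0 Qb] in
/-- **`hστ`** -/
theorem sgi_hστ {τ : A0} (hτ : Irreducible τ) {s : K0 ≃ₐ[ℚ] K0}
    (hs : s ∈ A0.decompositionSubgroup ℚ) :
    ∃ ε : A0, IsUnit ε ∧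
      arithmeticRingAut (modularFunctionFieldFull (M * q)) s
          (algebraMap ↥A0 ↥(laurentBaseChange K0 (modularFunctionFieldFull (M * q))) τ)
        = algebraMap ↥A0 ↥(laurentBaseChange K0 (modularFunctionFieldFull (M * q))) ε *
          algebraMap ↥A0 ↥(laurentBaseChange K0 (modularFunctionFieldFull (M * q))) τ := by
  obtain ⟨ε, hε, h⟩ := sgv_hστ A0 (modularFunctionFieldFull (M * q)) hs τ hτ.ne_zero
  refine ⟨ε, hε, ?_⟩
  rw [sgi_algebraMap, sgi_algebraMap, h]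

omit [Algebra K0 Qb] in
/-- **`hσV₁`** -/
theorem sgi_hσV1 {τ : A0} (hτ : Irreducible τ) {s : K0 ≃ₐ[ℚ] K0}
    (hs : s ∈ A0.inertiaSubgroupIn ℚ) :
    ∀ x ∈ va2V1 M q K0 A0,
      (arithmeticRingAut (modularFunctionFieldFull (M * q)) s x - x) *
        (algebraMap ↥A0 ↥(laurentBaseChange K0 (modularFunctionFieldFull (M * q))) τ)⁻¹
        ∈ va2V1 M q K0 A0 := by
  intro x hx
  rw [sgi_algebraMap]
  exact sgv_hσV A0 (modularFunctionFieldFull (M * q)) (va2V1 M q K0 A0) (mem_va2V1 M q K0 A0)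
    (sgi_hF M q K0 A0) τ ((IsDiscreteValuationRing.irreducible_iff_uniformizer τ).mp hτ)
    hτ.ne_zero hs x hx

/-- **`hσV₂`** -/
theorem sgi_hσV2 {τ : A0} (hτ : Irreducible τ) {s : K0 ≃ₐ[ℚ] K0}
    (hs : s ∈ A0.inertiaSubgroupIn ℚ) :
    ∀ x ∈ va2V2 M q hM K0 A0,
      (arithmeticRingAut (modularFunctionFieldFull (M * q)) s x - x) *
        (algebraMap ↥A0 ↥(laurentBaseChange K0 (modularFunctionFieldFull (M * q))) τ)⁻¹
        ∈ va2V2 M q hM K0 A0 := by
  intro x hx
  rw [mem_va2V2] at hx ⊢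
  rw [sgi_algebraMap, map_mul, map_sub, map_inv₀, va2Swap_const, va2Swap_gal,
    ← sgi_algebraMap M q K0 A0]
  exact sgi_hσV1 M q K0 A0 hτ hs _ hx

omit [Algebra K0 Qb] [Algebra ↥A0 ↥(laurentBaseChange K0 (modularFunctionFieldFull (M * q)))]
  [IsScalarTower ↥A0 K0 ↥(laurentBaseChange K0 (modularFunctionFieldFull (M * q)))] in
/-- **`hσu₁`** -/
theorem sgi_hσu1 {s : K0 ≃ₐ[ℚ] K0} (hs : s ∈ A0.decompositionSubgroup ℚ) :
    ∀ g : ↥(laurentBaseChange K0 (modularFunctionFieldFull (M * q))), g ≠ 0 →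
      arithmeticRingAut (modularFunctionFieldFull (M * q)) s g * g⁻¹ ∈ va2V1 M q K0 A0 :=
  fun g hg => sgv_hσu A0 (modularFunctionFieldFull (M * q)) (va2V1 M q K0 A0)
    (mem_va2V1 M q K0 A0) (sgi_hF M q K0 A0) hs g hg

omit [Algebra ↥A0 ↥(laurentBaseChange K0 (modularFunctionFieldFull (M * q)))]
  [IsScalarTower ↥A0 K0 ↥(laurentBaseChange K0 (modularFunctionFieldFull (M * q)))] in
/-- **`hσu₂`** -/
theorem sgi_hσu2 {s : K0 ≃ₐ[ℚ] K0} (hs : s ∈ A0.decompositionSubgroup ℚ) :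
    ∀ g : ↥(laurentBaseChange K0 (modularFunctionFieldFull (M * q))), g ≠ 0 →
      arithmeticRingAut (modularFunctionFieldFull (M * q)) s g * g⁻¹ ∈ va2V2 M q hM K0 A0 := by
  intro g hg
  rw [mem_va2V2, map_mul, map_inv₀, va2Swap_gal]
  exact sgi_hσu1 M q K0 A0 hs _ (by rw [Ne, map_eq_zero]; exact hg)

omit [NeZero M] hq [Algebra K0 Qb] [IsDiscreteValuationRing ↥A0] in
/-- `σ'` maps the constants of `A0` to constants of `A0` -/
theorem sgi_hσA {s : K0 ≃ₐ[ℚ] K0} (hs : s ∈ A0.decompositionSubgroup ℚ) :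
    ∀ a : A0, ∃ a' : A0,
      arithmeticRingAut (modularFunctionFieldFull (M * q)) s
          (algebraMap ↥A0 ↥(laurentBaseChange K0 (modularFunctionFieldFull (M * q))) a)
        = algebraMap ↥A0 ↥(laurentBaseChange K0 (modularFunctionFieldFull (M * q))) a' := by
  intro a
  refine ⟨⟨s (a : K0), jrg_mem_of_mem_decomp ℚ A0 ⟨s, hs⟩ a.2⟩, ?_⟩
  rw [sgi_algebraMap, sgi_algebraMap, arithmeticRingAut_algebraMap]

omit [NeZero M] hq [Algebra K0 Qb] [IsDiscreteValuationRing ↥A0]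
  [Algebra ↥A0 ↥(laurentBaseChange K0 (modularFunctionFieldFull (M * q)))]
  [IsScalarTower ↥A0 K0 ↥(laurentBaseChange K0 (modularFunctionFieldFull (M * q)))] in
/-- `σ'` fixes the chart coordinate when `s` fixes the base points -/
theorem sgi_fix_t {a2 ℓ : ℕ} (H : HauptRec a2 ℓ) {s : K0 ≃ₐ[ℚ] K0} (c0 c1 : K0)
    (hc0 : s c0 = c0) (hc1 : s c1 = c1)
    (t : ↥(laurentBaseChange K0 (modularFunctionFieldFull (M * q))))
    (ht : (t : LaurentSeries K0) = cinstU H K0 c0 c1) :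
    arithmeticRingAut (modularFunctionFieldFull (M * q)) s t = t := by
  apply Subtype.ext
  rw [coe_arithmeticRingAut_apply, ht, cinstU_coeffMap]
  have h0 : (s : K0 →+* K0) c0 = c0 := hc0
  have h1 : (s : K0 →+* K0) c1 = c1 := hc1
  rw [h0, h1]

omit [NeZero M] hq [Algebra K0 Qb] [IsDiscreteValuationRing ↥A0] in
/-- **`hσO₀`** -/
theorem sgi_hσO {s : K0 ≃ₐ[ℚ] K0} (hs : s ∈ A0.decompositionSubgroup ℚ)
    (t : ↥(laurentBaseChange K0 (modularFunctionFieldFull (M * q))))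
    (ht : arithmeticRingAut (modularFunctionFieldFull (M * q)) s t = t) :
    ∀ x ∈ chtO ↥A0 ({t} : Set ↥(laurentBaseChange K0 (modularFunctionFieldFull (M * q)))),
      arithmeticRingAut (modularFunctionFieldFull (M * q)) s x
        ∈ chtO ↥A0 ({t} : Set ↥(laurentBaseChange K0 (modularFunctionFieldFull (M * q)))) :=
  fun _ hx => s34ic_chtO_stable _ (sgi_hσA M q K0 A0 hs) t ht hx

omit [NeZero M] hq [Algebra K0 Qb] [IsDiscreteValuationRing ↥A0] in
/-- **`hσO₁`** -/
theorem sgi_hσO_inv {s : K0 ≃ₐ[ℚ] K0} (hs : s ∈ A0.decompositionSubgroup ℚ)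
    (t : ↥(laurentBaseChange K0 (modularFunctionFieldFull (M * q))))
    (ht : arithmeticRingAut (modularFunctionFieldFull (M * q)) s t = t) :
    ∀ x ∈ chtO ↥A0 ({t⁻¹} : Set ↥(laurentBaseChange K0 (modularFunctionFieldFull (M * q)))),
      arithmeticRingAut (modularFunctionFieldFull (M * q)) s x
        ∈ chtO ↥A0 ({t⁻¹} : Set ↥(laurentBaseChange K0 (modularFunctionFieldFull (M * q)))) :=
  fun _ hx => s34ic_chtO_stable _ (sgi_hσA M q K0 A0 hs) t⁻¹ (by rw [map_inv₀, ht]) hx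

end Concrete

section Restrict

/-- the inertia group is contained in the decomposition group -/
theorem sgi_inertia_le_decomp {K0 : Type*} [Field K0] [Algebra ℚ K0] (A0 : ValuationSubring K0)
    {s : K0 ≃ₐ[ℚ] K0} (hs : s ∈ A0.inertiaSubgroupIn ℚ) : s ∈ A0.decompositionSubgroup ℚ :=
  jrg_inertia_mem_decomp ℚ A0 hs

/-- restriction of inertia to a normal number field -/
theorem sgi_restrict_inertia (A : ValuationSubring Qb) (K1 : IntermediateField ℚ Qb)
    [Normal ℚ K1] {σ : Qb ≃ₐ[ℚ] Qb} (hσ : σ ∈ A.inertiaSubgroupIn ℚ) :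
    σ.restrictNormal K1 ∈ (A.comap (algebraMap ↥K1 Qb)).inertiaSubgroupIn ℚ :=
  @sgv_restrict_inertia ℚ Qb _ _ _ K1 ‹_› A σ hσ

/-- the restriction fixes what `σ` fixes -/
theorem sgi_restrict_fix (K1 : IntermediateField ℚ Qb) [Normal ℚ K1] (σ : Qb ≃ₐ[ℚ] Qb)
    (c : K1) (hc : σ (c : Qb) = (c : Qb)) : σ.restrictNormal K1 c = c := by
  apply Subtype.ext
  have h := AlgEquiv.restrictNormal_commutes σ K1 c
  rw [IntermediateField.algebraMap_apply, IntermediateField.algebraMap_apply] at h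
  rw [h, hc]

/-- the `•`-form of the coefficientwise action -/
theorem sgi_smul {L : Type*} [Field L] [Algebra ℚ L] (F₀ : IntermediateField ℚ (LaurentSeries ℚ))
    (s : L ≃ₐ[ℚ] L) (x : ↥(laurentBaseChange L F₀)) :
    arithmeticGalois F₀ s • x = arithmeticRingAut F₀ s x := rfl

end Restrict

end Fermat.Agent.S34
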