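import Mathlib
import Fermat.Prelude.Def_AlgebraicCurve_DivisorClassGroup
import Fermat.Agent.S34.Val2Swap

/-!
# S34, leaf SWAP-RAT: transport of the hypotheses on the Kummer function along the swap

* `swr_transport`: for a `K`-algebra automorphism `w` of a function field `F / K`, the
  hypotheses "`m ∣ ord_Q f` at all places" and "the zeros and poles of `f` are `K`-rational
  places" pass from `f` to `w f` (places are permuted by `w`, `Place.ord_smul`, `Place.deg_smul`);
* `swr_hord`: the same for the valuation-subring form `hord` of the abstract core, along a ring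
  automorphism fixing the constants `A`;
* `swrEquiv M ℓ hℓ hM K0`: the swap `va2SwapEquiv` of the level-`M ℓ` function field over `K0` as
  a `K0`-algebra automorphism (`swrEquiv_apply`, `swrEquiv_symm_apply`, `swrEquiv_toRingEquiv`).

Names are prefixed `swr`.
-/

set_option autoImplicit false

open AlgebraicCurve ModularCurve
open scoped Pointwise

namespace Fermat.Agent.S34

local notation "Qb" => AlgebraicClosure ℚ

section Abs

variable {K F : Type*} [Field K] [Field F] [Algebra K F]

theorem swr_mem_smul (w : F ≃ₐ[K] F) (A : ValuationSubring F) (x : F) :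
    x ∈ (w • A : ValuationSubring F) ↔ w.symm x ∈ A := by
  rw [ValuationSubring.mem_pointwise_smul_iff_inv_smul_mem]
  rfl

theorem swr_nonunits_smul (w : F ≃ₐ[K] F) (A : ValuationSubring F) (x : F) :
    x ∈ (w • A : ValuationSubring F).nonunits ↔ w.symm x ∈ A.nonunits := by
  rw [ValuationSubring.mem_nonunits_iff_or, ValuationSubring.mem_nonunits_iff_or, swr_mem_smul,
    map_inv₀]
  constructor
  · rintro (h | h)
    · left
      rw [h, map_zero]
    · exact Or.inr h
  · rintro (h | h)
    · left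
      exact (map_eq_zero_iff w.symm w.symm.injective).mp h
    · exact Or.inr h

/-- the order of `w f` at `Q` is the order of `f` at `w⁻¹ • Q` -/
theorem swr_ord (w : F ≃ₐ[K] F) (Q : Place K F) (f : F) :
    Q.ord (w f) = (w⁻¹ • Q).ord f := by
  have h := Place.ord_smul w (w⁻¹ • Q) f
  rwa [smul_inv_smul] at h

/-- **SWAP-RAT, abstract form.**  Divisibility of all orders by `m` and `K`-rationality of the
zeros and poles pass from `f` to `w f`. -/
theorem swr_transport (w : F ≃ₐ[K] F) (m : ℕ) (f : F)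
    (hdiv : ∀ Q : AlgebraicCurve.Place K F, (m : ℤ) ∣ Q.ord f)
    (hrat : ∀ Q : AlgebraicCurve.Place K F, Q.ord f ≠ 0 → Q.deg = 1 ∧
      ∀ y ∈ Q.toValuationSubring, ∃ c : K,
        y - algebraMap K F c ∈ Q.toValuationSubring.nonunits) :
    (∀ Q : AlgebraicCurve.Place K F, (m : ℤ) ∣ Q.ord (w f)) ∧
    (∀ Q : AlgebraicCurve.Place K F, Q.ord (w f) ≠ 0 → Q.deg = 1 ∧
      ∀ y ∈ Q.toValuationSubring, ∃ c : K,
        y - algebraMap K F c ∈ Q.toValuationSubring.nonunits) := by
  refine ⟨fun Q => ?_, fun Q hQ => ?_⟩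
  · rw [swr_ord]
    exact hdiv _
  · rw [swr_ord] at hQ
    obtain ⟨hdeg, hres⟩ := hrat (w⁻¹ • Q) hQ
    have hQeq : w • (w⁻¹ • Q) = Q := smul_inv_smul w Q
    refine ⟨?_, fun y hy => ?_⟩
    · rw [← hQeq, Place.deg_smul]
      exact hdeg
    · have hy' : w.symm y ∈ (w⁻¹ • Q).toValuationSubring := by
        have h1 : y ∈ (w • (w⁻¹ • Q).toValuationSubring : ValuationSubring F) := by
          rw [← Place.smul_toValuationSubring, hQeq]
          exact hy
        exact (swr_mem_smul w _ y).mp h1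
      obtain ⟨c, hc⟩ := hres _ hy'
      refine ⟨c, ?_⟩
      have h2 : y - algebraMap K F c ∈
          (w • (w⁻¹ • Q).toValuationSubring : ValuationSubring F).nonunits := by
        rw [swr_nonunits_smul, map_sub, AlgEquiv.commutes]
        exact hc
      rwa [← Place.smul_toValuationSubring, hQeq] at h2

end Abs

section Hord

variable {A F : Type*} [CommRing A] [Field F] [Algebra A F]

/-- Transport of the hypothesis `hord` of the abstract core along a ring automorphism fixing the
constants. -/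
theorem swr_hord (w : F ≃+* F) (hwA : ∀ a : A, w (algebraMap A F a) = algebraMap A F a)
    (τ : A) (m : ℕ) (f : F)
    (hord : ∀ V : ValuationSubring F, (∀ a : A, algebraMap A F a ∈ V) →
        (algebraMap A F τ)⁻¹ ∈ V → IsPrincipalIdealRing V →
        ∃ g : F, g ≠ 0 ∧ f * g ^ m ∈ V ∧ (f * g ^ m)⁻¹ ∈ V) :
    ∀ V : ValuationSubring F, (∀ a : A, algebraMap A F a ∈ V) →
        (algebraMap A F τ)⁻¹ ∈ V → IsPrincipalIdealRing V →
        ∃ g : F, g ≠ 0 ∧ w f * g ^ m ∈ V ∧ (w f * g ^ m)⁻¹ ∈ V := by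
  intro V hAV hτV hV
  -- the pull-back `V' = {x | w x ∈ V}`
  let V' : ValuationSubring F := V.comap (w : F →+* F)
  have hmem : ∀ x : F, x ∈ V' ↔ w x ∈ V := fun x => Iff.rfl
  have hAV' : ∀ a : A, algebraMap A F a ∈ V' := fun a => by
    rw [hmem, hwA]
    exact hAV a
  have hτV' : (algebraMap A F τ)⁻¹ ∈ V' := by
    rw [hmem, map_inv₀, hwA]
    exact hτV
  -- `V' ≃+* V`
  let e : ↥V' ≃+* ↥V :=
    { toFun := fun x => ⟨w x, (hmem x).mp x.2⟩
      invFun := fun y => ⟨w.symm y, by
        rw [hmem, RingEquiv.apply_symm_apply]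
        exact y.2⟩
      left_inv := fun x => Subtype.ext (w.symm_apply_apply x)
      right_inv := fun y => Subtype.ext (w.apply_symm_apply y)
      map_mul' := fun x y => Subtype.ext (map_mul w (x : F) (y : F))
      map_add' := fun x y => Subtype.ext (map_add w (x : F) (y : F)) }
  have hV' : IsPrincipalIdealRing ↥V' :=
    IsPrincipalIdealRing.of_surjective (e.symm : ↥V →+* ↥V') e.symm.surjective
  obtain ⟨g, hg0, h1, h2⟩ := hord V' hAV' hτV' hV'
  refine ⟨w g, (map_ne_zero_iff w w.injective).mpr hg0, ?_, ?_⟩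
  · have := (hmem _).mp h1
    rwa [map_mul, map_pow] at this
  · have := (hmem _).mp h2
    rwa [map_inv₀, map_mul, map_pow] at this

end Hord

section Inst

variable (M ℓ : ℕ) [NeZero M] [NeZero ℓ] (hℓ : ℓ.Prime) (hM : ¬ ℓ ∣ M)
  (K0 : Type*) [Field K0] [Algebra ℚ K0] [Algebra K0 Qb]

/-- The swap of the level-`M ℓ` function field over `K0` as a `K0`-algebra automorphism. -/
noncomputable def swrEquiv :
    ↥(laurentBaseChange K0 (modularFunctionFieldFull (M * ℓ))) ≃ₐ[K0]
      ↥(laurentBaseChange K0 (modularFunctionFieldFull (M * ℓ))) :=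
  AlgEquiv.ofRingEquiv (f := va2SwapEquiv M ℓ hℓ hM K0) (va2Swap_const M ℓ hℓ hM K0)

theorem swrEquiv_apply (x : ↥(laurentBaseChange K0 (modularFunctionFieldFull (M * ℓ)))) :
    swrEquiv M ℓ hℓ hM K0 x = va2SwapEquiv M ℓ hℓ hM K0 x := rfl

theorem swrEquiv_symm_apply (x : ↥(laurentBaseChange K0 (modularFunctionFieldFull (M * ℓ)))) :
    (swrEquiv M ℓ hℓ hM K0).symm x = (va2SwapEquiv M ℓ hℓ hM K0).symm x := rfl

theorem swrEquiv_toRingEquiv :
    (swrEquiv M ℓ hℓ hM K0).toRingEquiv = va2SwapEquiv M ℓ hℓ hM K0 := rfl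

/-- **SWAP-RAT for the swap**: the hypotheses of the core statement pass from `f₀` to
`wsw.symm f₀`. -/
theorem swr_transport_swap (m : ℕ)
    (f : ↥(laurentBaseChange K0 (modularFunctionFieldFull (M * ℓ))))
    (hdiv : ∀ Q : AlgebraicCurve.Place K0
        ↥(laurentBaseChange K0 (modularFunctionFieldFull (M * ℓ))), (m : ℤ) ∣ Q.ord f)
    (hrat : ∀ Q : AlgebraicCurve.Place K0
        ↥(laurentBaseChange K0 (modularFunctionFieldFull (M * ℓ))), Q.ord f ≠ 0 → Q.deg = 1 ∧
      ∀ y ∈ Q.toValuationSubring, ∃ c : K0,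
        y - algebraMap K0 ↥(laurentBaseChange K0 (modularFunctionFieldFull (M * ℓ))) c ∈
          Q.toValuationSubring.nonunits) :
    (∀ Q : AlgebraicCurve.Place K0
        ↥(laurentBaseChange K0 (modularFunctionFieldFull (M * ℓ))),
      (m : ℤ) ∣ Q.ord ((va2SwapEquiv M ℓ hℓ hM K0).symm f)) ∧
    (∀ Q : AlgebraicCurve.Place K0
        ↥(laurentBaseChange K0 (modularFunctionFieldFull (M * ℓ))),
      Q.ord ((va2SwapEquiv M ℓ hℓ hM K0).symm f) ≠ 0 → Q.deg = 1 ∧
      ∀ y ∈ Q.toValuationSubring, ∃ c : K0,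
        y - algebraMap K0 ↥(laurentBaseChange K0 (modularFunctionFieldFull (M * ℓ))) c ∈
          Q.toValuationSubring.nonunits) :=
  swr_transport (swrEquiv M ℓ hℓ hM K0).symm m f hdiv hrat

end Inst

end Fermat.Agent.S34
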