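import Mathlib
import Fermat.Agent.S18.CoreInstMain
import Fermat.Agent.S34.InstMod
import Fermat.Agent.S34.KummerJ
import Fermat.Agent.S34.LocNodeInst
import Fermat.Agent.S34.SwapRat
import Fermat.Agent.S34.SigmaInst

/-!
# S34, package INST-MOD, part 2: the core statement over a normal number field

* `S34imVal`, `S34imComp`, `S34imDom`, `S34imNode` (and the `f`-free form `S34imGam` of the
  last one): the four chart statements still to be supplied by the packages A-INST, B1-COMP,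
  DOM and NODE, for ONE chart coordinate `t = (h - c1) / (h - c0)` of the level-`M q` function
  field over a field `K0` with a discrete valuation subring `A0`.
* `s34im_node_of_gam`: `S34imGam → S34imNode` (`lni_node`).
* `s34im_K1`: for a finite normal `K1 ⊆ ℚ̄` containing the base points, `A0 = A ∩ K1`:
  the four statements for `(c0, c1)` and `(c1, c0)` imply `S34hCore K1 σ (M q) m`.
* `S34imPack`, `s34im_main`: the form `∃ T, ∀ K1 ⊇ T, S34hCore K1 σ (M q) m` consumed by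
  `s34h_main`, with the base points chosen by `s34ic_choice`.
-/

set_option autoImplicit false
set_option linter.unusedSectionVars false

noncomputable section

open ModularCurve AlgebraicCurve Polynomial
open Fermat.Agent.S18 Fermat.Agent.S37

namespace Fermat.Agent.S34

local notation "Qb" => AlgebraicClosure ℚ

section Contracts

variable (M q : ℕ) [NeZero M] [hq : Fact q.Prime] (hM : ¬ q ∣ M)
  (K0 : Type*) [Field K0] [Algebra ℚ K0] [Algebra K0 Qb]
  (A0 : ValuationSubring K0) [IsDiscreteValuationRing ↥A0]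
  {a2 : ℕ} (H : HauptRec a2 q)

/-- contract (A-INST): the chart coordinate is a unit of the second valuation ring, and the two
valuation rings are the only ones with the trace of `V₁` on `K0(t)` -/
def S34imVal (c0 c1 : K0) : Prop :=
  ∀ t : ↥(laurentBaseChange K0 (modularFunctionFieldFull (M * q))),
    (t : LaurentSeries K0) = cinstU H K0 c0 c1 →
    t ∈ va2V2 M q hM K0 A0 ∧ t⁻¹ ∈ va2V2 M q hM K0 A0 ∧
      ∀ O' : ValuationSubring ↥(laurentBaseChange K0 (modularFunctionFieldFull (M * q))),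
        ChtSame K0 (va2V1 M q K0 A0) t O' →
          O' = va2V1 M q K0 A0 ∨ O' = va2V2 M q hM K0 A0

/-- contract (B1-COMP): the first component of the special fibre of the chart is Dedekind -/
def S34imComp (c0 c1 : K0) : Prop :=
  ∀ t : ↥(laurentBaseChange K0 (modularFunctionFieldFull (M * q))),
    (t : LaurentSeries K0) = cinstU H K0 c0 c1 →
    ∀ [Algebra A0 ↥(laurentBaseChange K0 (modularFunctionFieldFull (M * q)))]
      [IsScalarTower A0 K0 ↥(laurentBaseChange K0 (modularFunctionFieldFull (M * q)))]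
      (τ : A0), Irreducible τ →
    ∀ 𝔭 : Ideal ↥(chtO A0 {t}),
      (∀ x : ↥(chtO A0 {t}), x ∈ 𝔭 ↔
        (x : ↥(laurentBaseChange K0 (modularFunctionFieldFull (M * q)))) ∈
          (va2V1 M q K0 A0).nonunits) →
      IsDedekindDomain (↥(chtO A0 {t}) ⧸ 𝔭)

/-- contract (DOM): at every closed point of the special fibre of the chart, the swapped chart
coordinate or its inverse is regular -/
def S34imDom (c0 c1 : K0) : Prop :=
  ∀ t : ↥(laurentBaseChange K0 (modularFunctionFieldFull (M * q))),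
    (t : LaurentSeries K0) = cinstU H K0 c0 c1 →
    ∀ [Algebra A0 ↥(laurentBaseChange K0 (modularFunctionFieldFull (M * q)))]
      [IsScalarTower A0 K0 ↥(laurentBaseChange K0 (modularFunctionFieldFull (M * q)))]
      (τ : A0), Irreducible τ →
    ∀ 𝔫 : Ideal ↥(chtO A0 {t}), 𝔫.IsMaximal → algebraMap A0 ↥(chtO A0 {t}) τ ∈ 𝔫 →
      (∃ r : ↥(chtO A0 {t}),
        (r : ↥(laurentBaseChange K0 (modularFunctionFieldFull (M * q)))) ∈
          (va2V1 M q K0 A0).nonunits ∧ r ∉ 𝔫) →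
      (∃ a s : ↥(chtO A0 {t}), s ∉ 𝔫 ∧ va2SwapEquiv M q hq.out hM K0 t *
        (s : ↥(laurentBaseChange K0 (modularFunctionFieldFull (M * q)))) = a) ∨
      (∃ a s : ↥(chtO A0 {t}), s ∉ 𝔫 ∧ va2SwapEquiv M q hq.out hM K0 t⁻¹ *
        (s : ↥(laurentBaseChange K0 (modularFunctionFieldFull (M * q)))) = a)

/-- contract (NODE): `(LOC)` at the crossing points of the chart, for every function whose
divisor is divisible by `m` with `K0`-rational support -/
def S34imNode (m : ℕ) (c0 c1 : K0) : Prop :=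
  ∀ t : ↥(laurentBaseChange K0 (modularFunctionFieldFull (M * q))),
    (t : LaurentSeries K0) = cinstU H K0 c0 c1 →
    ∀ [Algebra A0 ↥(laurentBaseChange K0 (modularFunctionFieldFull (M * q)))]
      [IsScalarTower A0 K0 ↥(laurentBaseChange K0 (modularFunctionFieldFull (M * q)))]
      (τ : A0), Irreducible τ →
    ∀ f : ↥(laurentBaseChange K0 (modularFunctionFieldFull (M * q))), f ≠ 0 →
      (∀ Q : Place K0 ↥(laurentBaseChange K0 (modularFunctionFieldFull (M * q))),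
        (m : ℤ) ∣ Q.ord f) →
      (∀ Q : Place K0 ↥(laurentBaseChange K0 (modularFunctionFieldFull (M * q))),
        Q.ord f ≠ 0 → ∀ y ∈ Q.toValuationSubring, ∃ c : K0,
          y - algebraMap K0 ↥(laurentBaseChange K0 (modularFunctionFieldFull (M * q))) c ∈
            Q.toValuationSubring.nonunits) →
    ∀ 𝔫 : Ideal ↥(chtO A0 {t}), 𝔫.IsMaximal →
      (∀ x : ↥(chtO A0 {t}),
        (x : ↥(laurentBaseChange K0 (modularFunctionFieldFull (M * q)))) ∈
          (va2V1 M q K0 A0).nonunits → x ∈ 𝔫) →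
      (∀ x : ↥(chtO A0 {t}),
        (x : ↥(laurentBaseChange K0 (modularFunctionFieldFull (M * q)))) ∈
          (va2V2 M q hM K0 A0).nonunits → x ∈ 𝔫) →
      S34Loc τ m (chtO A0 {t}) f 𝔫

/-- contract (NODE), `f`-free form: at a crossing point `𝔫` of the chart, the kernel of every
evaluation homomorphism `ev : O → A0` of a `K0`-rational place centred at `𝔫` is, locally at
`𝔫` and up to a nonzero constant, principal -/
def S34imGam (c0 c1 : K0) : Prop :=
  ∀ t : ↥(laurentBaseChange K0 (modularFunctionFieldFull (M * q))),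
    (t : LaurentSeries K0) = cinstU H K0 c0 c1 →
    ∀ [Algebra A0 ↥(laurentBaseChange K0 (modularFunctionFieldFull (M * q)))]
      [IsScalarTower A0 K0 ↥(laurentBaseChange K0 (modularFunctionFieldFull (M * q)))]
      (τ : A0), Irreducible τ →
    ∀ 𝔫 : Ideal ↥(chtO A0 {t}), 𝔫.IsMaximal →
      (∀ x : ↥(chtO A0 {t}),
        (x : ↥(laurentBaseChange K0 (modularFunctionFieldFull (M * q)))) ∈
          (va2V1 M q K0 A0).nonunits → x ∈ 𝔫) →
      (∀ x : ↥(chtO A0 {t}),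
        (x : ↥(laurentBaseChange K0 (modularFunctionFieldFull (M * q)))) ∈
          (va2V2 M q hM K0 A0).nonunits → x ∈ 𝔫) →
    ∀ (ev : ↥(chtO A0 {t}) →ₐ[A0] A0)
      (V : ValuationSubring ↥(laurentBaseChange K0 (modularFunctionFieldFull (M * q)))),
      IsPrincipalIdealRing V → (∀ x ∈ chtO A0 {t}, x ∈ V) →
      (∀ x ∈ V, ∃ s : ↥(chtO A0 {t}), ev s ≠ 0 ∧
        (s : ↥(laurentBaseChange K0 (modularFunctionFieldFull (M * q)))) * x ∈ chtO A0 {t}) →
      (∀ y : ↥(chtO A0 {t}),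
        (y : ↥(laurentBaseChange K0 (modularFunctionFieldFull (M * q)))) -
          algebraMap A0 ↥(laurentBaseChange K0 (modularFunctionFieldFull (M * q))) (ev y) ∈
            V.nonunits) →
      (∀ x ∈ 𝔫, ¬ IsUnit (ev x)) →
      ∃ g : ↥(chtO A0 {t}), ev g = 0 ∧ ∃ c : A0, c ≠ 0 ∧ ∀ w : ↥(chtO A0 {t}), ev w = 0 →
        ∃ s u : ↥(chtO A0 {t}), s ∉ 𝔫 ∧ algebraMap A0 ↥(chtO A0 {t}) c * (s * w) = g * u

/-- the basic facts about the second valuation ring -/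
theorem s34im_V2_basic
    [Algebra A0 ↥(laurentBaseChange K0 (modularFunctionFieldFull (M * q)))]
    [IsScalarTower A0 K0 ↥(laurentBaseChange K0 (modularFunctionFieldFull (M * q)))]
    (τ : A0) (hτ : Irreducible τ) :
    (∀ a : A0, algebraMap A0 ↥(laurentBaseChange K0 (modularFunctionFieldFull (M * q))) a ∈
      va2V2 M q hM K0 A0) ∧
    algebraMap A0 ↥(laurentBaseChange K0 (modularFunctionFieldFull (M * q))) τ ∈
      (va2V2 M q hM K0 A0).nonunits ∧
    ∀ x ∈ (va2V2 M q hM K0 A0).nonunits,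
      x * (algebraMap A0 ↥(laurentBaseChange K0 (modularFunctionFieldFull (M * q))) τ)⁻¹ ∈
        va2V2 M q hM K0 A0 := by
  have hVG : ∀ x : ↥(laurentBaseChange K0 (modularFunctionFieldFull (M * q))),
      x ∈ va2V1 M q K0 A0 ↔ (x : LaurentSeries K0) ∈ grV A0 := fun x => Iff.rfl
  have hgdv : ∀ x ∈ laurentBaseChange K0 (modularFunctionFieldFull (M * q)), gdvProp A0 x :=
    fun x hx => gdv_full_le A0 (M * q) hx
  have hmap : ∀ a : A0,
      algebraMap A0 ↥(laurentBaseChange K0 (modularFunctionFieldFull (M * q))) a =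
        algebraMap K0 ↥(laurentBaseChange K0 (modularFunctionFieldFull (M * q))) (a : K0) :=
    fun a => IsScalarTower.algebraMap_apply A0 K0
      ↥(laurentBaseChange K0 (modularFunctionFieldFull (M * q))) a
  have hτmax : τ ∈ IsLocalRing.maximalIdeal A0 := by
    rw [IsLocalRing.mem_maximalIdeal, mem_nonunits_iff]
    exact hτ.not_isUnit
  have hA : ∀ a : A0,
      algebraMap A0 ↥(laurentBaseChange K0 (modularFunctionFieldFull (M * q))) a ∈
        va2V1 M q K0 A0 := fun a => by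
    rw [hmap]
    exact (cinst_algebraMap_mem_iff (va2V1 M q K0 A0) hVG _).mpr a.2
  have hτV : algebraMap A0 ↥(laurentBaseChange K0 (modularFunctionFieldFull (M * q))) τ ∈
      (va2V1 M q K0 A0).nonunits := by
    rw [hmap]
    exact cinst_algebraMap_mem_nonunits (va2V1 M q K0 A0) hVG τ hτmax
  have hτF : algebraMap A0 ↥(laurentBaseChange K0 (modularFunctionFieldFull (M * q))) τ ≠ 0 := by
    rw [hmap, Ne, map_eq_zero]
    intro h0
    exact hτ.ne_zero (Subtype.ext h0)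
  have hτgen : ∀ x ∈ (va2V1 M q K0 A0).nonunits,
      x * (algebraMap A0 ↥(laurentBaseChange K0 (modularFunctionFieldFull (M * q))) τ)⁻¹ ∈
        va2V1 M q K0 A0 := by
    intro x hx
    obtain ⟨y, hy, hxy⟩ :=
      cinst_nonunits_eq_mul (va2V1 M q K0 A0) hVG hgdv τ hτ.maximalIdeal_eq x hx
    rw [hxy, ← hmap, mul_comm _ y, mul_inv_cancel_right₀ hτF]
    exact hy
  have hwA : ∀ a : A0, va2SwapEquiv M q hq.out hM K0
      (algebraMap A0 ↥(laurentBaseChange K0 (modularFunctionFieldFull (M * q))) a) =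
      algebraMap A0 ↥(laurentBaseChange K0 (modularFunctionFieldFull (M * q))) a := by
    intro a
    rw [hmap]
    exact va2Swap_const M q hq.out hM K0 _
  refine ⟨fun a => ?_, ?_, fun x hx => ?_⟩
  · rw [mem_va2V2, ← va2SwapEquiv_apply, hwA]
    exact hA a
  · rw [s34im_mem_V2_nonunits, ← va2SwapEquiv_apply, hwA]
    exact hτV
  · rw [s34im_mem_V2_nonunits] at hx
    rw [mem_va2V2, map_mul, map_inv₀, ← va2SwapEquiv_apply M q hq.out hM K0
      (algebraMap A0 ↥(laurentBaseChange K0 (modularFunctionFieldFull (M * q))) τ), hwA]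
    exact hτgen _ hx

/-- the chart ring is noetherian (given the contract (A-INST)) -/
theorem s34im_noeth
    [Algebra A0 ↥(laurentBaseChange K0 (modularFunctionFieldFull (M * q)))]
    [IsScalarTower A0 K0 ↥(laurentBaseChange K0 (modularFunctionFieldFull (M * q)))]
    (c0 c1 : A0) (hc : IsLocalRing.residue A0 c0 ≠ IsLocalRing.residue A0 c1)
    (t : ↥(laurentBaseChange K0 (modularFunctionFieldFull (M * q))))
    (ht : (t : LaurentSeries K0) = cinstU H K0 (c0 : K0) (c1 : K0))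
    (τ : A0) (hτ : Irreducible τ)
    (hVal : S34imVal M q hM K0 A0 H (c0 : K0) (c1 : K0)) :
    IsNoetherianRing ↥(chtO A0 {t}) := by
  have hVG : ∀ x : ↥(laurentBaseChange K0 (modularFunctionFieldFull (M * q))),
      x ∈ va2V1 M q K0 A0 ↔ (x : LaurentSeries K0) ∈ grV A0 := fun x => Iff.rfl
  obtain ⟨hA₂, -, hτgen₂⟩ := s34im_V2_basic M q hM K0 A0 τ hτ
  obtain ⟨htV₂, htV₂', hex⟩ := hVal t ht
  obtain ⟨-, ht₀, -, ⟨b0, hb0, hspan0⟩, -⟩ :=
    c2i_chart A0 (M * q) H (va2V1 M q K0 A0) (va2V2 M q hM K0 A0) hVG c0 c1 hc t ht τ hτ hA₂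
      hτgen₂ htV₂ htV₂' hex 1 one_pos
  exact cz_noeth t (chtO A0 {t}) ht₀ b0 hb0 hspan0

/-- the `f`-free form of the contract (NODE) implies the contract (NODE) -/
theorem s34im_node_of_gam (c0 c1 : A0)
    (hc : IsLocalRing.residue A0 c0 ≠ IsLocalRing.residue A0 c1)
    (hVal : S34imVal M q hM K0 A0 H (c0 : K0) (c1 : K0))
    (h : S34imGam M q hM K0 A0 H (c0 : K0) (c1 : K0)) (m : ℕ) :
    S34imNode M q hM K0 A0 H m (c0 : K0) (c1 : K0) := by
  intro t ht _ _ τ hτ f hf hdiv hrat 𝔫 h𝔫 hc₁ hc₂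
  have : CharZero K0 := algebraRat.charZero K0
  have hVG : ∀ x : ↥(laurentBaseChange K0 (modularFunctionFieldFull (M * q))),
      x ∈ va2V1 M q K0 A0 ↔ (x : LaurentSeries K0) ∈ grV A0 := fun x => Iff.rfl
  obtain ⟨-, hτV, -, htt, -, -, -, hfin, -⟩ :=
    c2i_hyps A0 (M * q) H (va2V1 M q K0 A0) hVG c0 c1 hc t ht τ hτ
  have hτ𝔫 : algebraMap A0 ↥(chtO A0 {t}) τ ∈ 𝔫 := hc₁ _ hτV
  have : IsNoetherianRing ↥(chtO A0 {t}) := s34im_noeth M q hM K0 A0 H c0 c1 hc t ht τ hτ hVal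
  exact lni_node (K0 := K0) hτ t htt hfin m f hf
    (cinst_hord (K := K0) τ hτ m f hdiv) (lni_hrat_of_place (K0 := K0) τ hτ f hrat) 𝔫 hτ𝔫
    (h t ht τ hτ 𝔫 h𝔫 hc₁ hc₂)

end Contracts

section K1

variable (M q : ℕ) [NeZero M] [hq : Fact q.Prime] (hM : ¬ q ∣ M)
  {a2 : ℕ} (H : HauptRec a2 q)

/-- **INST-MOD over a normal number field**: the four chart statements for the pairs of base
points `(c0, c1)` and `(c1, c0)` imply the core statement `S34hCore`. -/
theorem s34im_K1 (ha2 : a2 ∣ M * q) (A : ValuationSubring Qb) (hA : A.LiesOverPrime q)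
    (σ : Qb ≃ₐ[ℚ] Qb) (hσ : σ ∈ A.inertiaSubgroupIn ℚ) (m : ℕ) (hm : m ≠ 0)
    (hmq : m.Coprime q)
    (K1 : IntermediateField ℚ Qb) [FiniteDimensional ℚ K1] [Normal ℚ K1]
    [IsDiscreteValuationRing ↥(A.comap (algebraMap ↥K1 Qb))]
    (c0 c1 : ↥K1) (hc0 : (c0 : Qb) ∈ A) (hc1 : (c1 : Qb) ∈ A) (hne : c0 ≠ c1)
    (h01 : ((c0 : Qb) - (c1 : Qb))⁻¹ ∈ A)
    (hσ0 : σ (c0 : Qb) = c0) (hσ1 : σ (c1 : Qb) = c1)
    (hVal : S34imVal M q hM ↥K1 (A.comap (algebraMap ↥K1 Qb)) H c0 c1)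
    (hComp₀ : S34imComp M q ↥K1 (A.comap (algebraMap ↥K1 Qb)) H c0 c1)
    (hComp₁ : S34imComp M q ↥K1 (A.comap (algebraMap ↥K1 Qb)) H c1 c0)
    (hDom₀ : S34imDom M q hM ↥K1 (A.comap (algebraMap ↥K1 Qb)) H c0 c1)
    (hDom₁ : S34imDom M q hM ↥K1 (A.comap (algebraMap ↥K1 Qb)) H c1 c0)
    (hNode₀ : S34imNode M q hM ↥K1 (A.comap (algebraMap ↥K1 Qb)) H m c0 c1)
    (hNode₁ : S34imNode M q hM ↥K1 (A.comap (algebraMap ↥K1 Qb)) H m c1 c0) :
    S34hCore K1 σ (M * q) m := by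
  classical
  intro f0 hf0 hdiv hrat
  have hA0 : (A.comap (algebraMap ↥K1 Qb)).LiesOverPrime q :=
    (dvd_isDVR_comap q hq.out.ne_zero A hA K1).2.2
  have hs : σ.restrictNormal ↥K1 ∈ (A.comap (algebraMap ↥K1 Qb)).inertiaSubgroupIn ℚ :=
    sgi_restrict_inertia A K1 hσ
  by_cases hm1 : m = 1
  · -- the trivial case
    subst hm1
    have h1 : arithmeticRingAut (modularFunctionFieldFull (M * q)) (σ.restrictNormal ↥K1) f0
        ≠ 0 := (_root_.map_ne_zero _).mpr hf0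
    have h2 : arithmeticRingAut (modularFunctionFieldFull (M * q)) (σ.restrictNormal ↥K1)
        (arithmeticRingAut (modularFunctionFieldFull (M * q)) (σ.restrictNormal ↥K1) f0)
        ≠ 0 := (_root_.map_ne_zero _).mpr h1
    refine ⟨1, arithmeticRingAut (modularFunctionFieldFull (M * q)) (σ.restrictNormal ↥K1)
        (arithmeticRingAut (modularFunctionFieldFull (M * q)) (σ.restrictNormal ↥K1) f0) * f0 /
        (arithmeticRingAut (modularFunctionFieldFull (M * q)) (σ.restrictNormal ↥K1) f0) ^ 2,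
      div_ne_zero (mul_ne_zero h2 hf0) (pow_ne_zero 2 h1), ?_⟩
    simp only [sgi_smul]
    rw [map_one, one_mul, pow_one, div_mul_cancel₀ _ (pow_ne_zero 2 h1)]
  have hm2 : 2 ≤ m := by omega
  let _ : Algebra ↥(A.comap (algebraMap ↥K1 Qb))
      ↥(laurentBaseChange ↥K1 (modularFunctionFieldFull (M * q))) :=
    ((algebraMap ↥K1 ↥(laurentBaseChange ↥K1 (modularFunctionFieldFull (M * q)))).comp
      (A.comap (algebraMap ↥K1 Qb)).subtype).toAlgebra
  have : IsScalarTower ↥(A.comap (algebraMap ↥K1 Qb)) ↥K1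
      ↥(laurentBaseChange ↥K1 (modularFunctionFieldFull (M * q))) :=
    IsScalarTower.of_algebraMap_eq (fun _ => rfl)
  obtain ⟨τ, hτ⟩ := IsDiscreteValuationRing.exists_irreducible ↥(A.comap (algebraMap ↥K1 Qb))
  -- the base points
  let c0' : ↥(A.comap (algebraMap ↥K1 Qb)) := ⟨c0, hc0⟩
  let c1' : ↥(A.comap (algebraMap ↥K1 Qb)) := ⟨c1, hc1⟩
  have hc : IsLocalRing.residue ↥(A.comap (algebraMap ↥K1 Qb)) c0' ≠
      IsLocalRing.residue ↥(A.comap (algebraMap ↥K1 Qb)) c1' := by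
    intro h
    have hmm : c0' - c1' ∈ IsLocalRing.maximalIdeal ↥(A.comap (algebraMap ↥K1 Qb)) := by
      rw [← IsLocalRing.residue_eq_zero_iff, map_sub, h, sub_self]
    have h01' : (c0 - c1)⁻¹ ∈ A.comap (algebraMap ↥K1 Qb) := by
      show algebraMap ↥K1 Qb (c0 - c1)⁻¹ ∈ A
      rw [map_inv₀, map_sub]
      exact h01
    refine hmm (isUnit_iff_exists_inv.mpr ⟨⟨(c0 - c1)⁻¹, h01'⟩, ?_⟩)
    exact Subtype.ext (mul_inv_cancel₀ (sub_ne_zero.mpr hne))
  -- the chart coordinate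
  let t : ↥(laurentBaseChange ↥K1 (modularFunctionFieldFull (M * q))) :=
    ⟨cinstU H ↥K1 c0 c1, cinstU_mem H ↥K1 ha2 c0 c1⟩
  have ht : (t : LaurentSeries ↥K1) = cinstU H ↥K1 c0 c1 := rfl
  have htinv : ((t⁻¹ : ↥(laurentBaseChange ↥K1 (modularFunctionFieldFull (M * q)))) :
      LaurentSeries ↥K1) = cinstU H ↥K1 c1 c0 := by
    rw [← cinstU_inv]
    rfl
  obtain ⟨htV₂, htV₂', hex⟩ := hVal t ht
  have hmA : IsUnit ((m : ℕ) : ↥(A.comap (algebraMap ↥K1 Qb))) :=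
    cinst_isUnit_natCast (A.comap (algebraMap ↥K1 Qb)) q hA0 m hmq
  -- the hypotheses on `f0` and on its swap
  have hratQ : ∀ Q : Place ↥K1 ↥(laurentBaseChange ↥K1 (modularFunctionFieldFull (M * q))),
      Q.ord f0 ≠ 0 → Q.deg = 1 ∧ ∀ y ∈ Q.toValuationSubring, ∃ c : ↥K1,
        y - algebraMap ↥K1 ↥(laurentBaseChange ↥K1 (modularFunctionFieldFull (M * q))) c ∈
          Q.toValuationSubring.nonunits := fun Q hQ => ⟨(hrat Q hQ).1, (hrat Q hQ).2.2⟩
  obtain ⟨hdiv', hrat'⟩ := swr_transport_swap M q hq.out hM ↥K1 m f0 hdiv hratQ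
  have hf0' : (va2SwapEquiv M q hq.out hM ↥K1).symm f0 ≠ 0 := (_root_.map_ne_zero _).mpr hf0
  have key := s34im_field M q hM ↥K1 (A.comap (algebraMap ↥K1 Qb)) H (σ.restrictNormal ↥K1) hs
    c0' c1' hc (sgi_restrict_fix K1 σ c0 hσ0) (sgi_restrict_fix K1 σ c1 hσ1) t ht τ hτ
    htV₂ htV₂' hex m hm2 hmA (hComp₀ t ht τ hτ) (hComp₁ t⁻¹ htinv τ hτ) (hDom₀ t ht τ hτ)
    (fun 𝔫 h1 h2 h3 => by
      have h := hDom₁ t⁻¹ htinv τ hτ 𝔫 h1 h2 h3
      rw [inv_inv] at h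
      exact h.symm)
    f0 hf0 hdiv
    (fun f hf 𝔫 h𝔫 hc₁ hc₂ => by
      rcases hf with rfl | rfl
      · exact hNode₀ t ht τ hτ f hf0 hdiv (fun Q hQ => (hratQ Q hQ).2) 𝔫 h𝔫 hc₁ hc₂
      · exact hNode₀ t ht τ hτ _ hf0' hdiv' (fun Q hQ => (hrat' Q hQ).2) 𝔫 h𝔫 hc₁ hc₂)
    (fun f hf 𝔫 h𝔫 hc₁ hc₂ => by
      rcases hf with rfl | rfl
      · exact hNode₁ t⁻¹ htinv τ hτ f hf0 hdiv (fun Q hQ => (hratQ Q hQ).2) 𝔫 h𝔫 hc₁ hc₂
      · exact hNode₁ t⁻¹ htinv τ hτ _ hf0' hdiv' (fun Q hQ => (hrat' Q hQ).2) 𝔫 h𝔫 hc₁ hc₂)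
  exact key

end K1

section Main

variable (M q : ℕ) [NeZero M] [hq : Fact q.Prime] (hM : ¬ q ∣ M)
  {a2 : ℕ} (H : HauptRec a2 q)

/-- the four chart statements for the chart coordinate `(h - c1) / (h - c0)` over the trace on
a number field `K1 ⊆ ℚ̄` of a valuation subring of `ℚ̄` over `q` -/
def S34imPack (A : ValuationSubring Qb) (hA : A.LiesOverPrime q) (m : ℕ)
    (K1 : IntermediateField ℚ Qb) [FiniteDimensional ℚ K1] (c0 c1 : ↥K1) : Prop :=
  haveI := (dvd_isDVR_comap q hq.out.ne_zero A hA K1).1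
  S34imVal M q hM ↥K1 (A.comap (algebraMap ↥K1 Qb)) H c0 c1 ∧
    S34imComp M q ↥K1 (A.comap (algebraMap ↥K1 Qb)) H c0 c1 ∧
    S34imDom M q hM ↥K1 (A.comap (algebraMap ↥K1 Qb)) H c0 c1 ∧
    S34imNode M q hM ↥K1 (A.comap (algebraMap ↥K1 Qb)) H m c0 c1

/-- **INST-MOD**: the hypothesis `hcore` of `s34h_main` at the level `M q`, from the four chart
statements for every admissible pair of base points over all number fields containing a finite
set. -/
theorem s34im_main (ha2 : a2 ∣ M * q) (A : ValuationSubring Qb) (hA : A.LiesOverPrime q)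
    (σ : Qb ≃ₐ[ℚ] Qb) (hσ : σ ∈ A.inertiaSubgroupIn ℚ) (m : ℕ) (hm : m ≠ 0)
    (hmq : m.Coprime q)
    (hpack : ∀ c0 c1 : Qb, c0 ∈ A → c1 ∈ A → smi2U A (c0 - c1) →
      smi2U A (aeval c0 H.Qrad) → smi2U A (aeval c1 H.Qrad) →
      ∃ T : Finset Qb, ∀ (K1 : IntermediateField ℚ Qb) [FiniteDimensional ℚ K1] [Normal ℚ K1],
        (∀ c ∈ T, c ∈ K1) → ∀ (h0 : c0 ∈ K1) (h1 : c1 ∈ K1),
          S34imPack M q hM H A hA m K1 ⟨c0, h0⟩ ⟨c1, h1⟩) :
    ∃ T : Finset Qb, ∀ (K1 : IntermediateField ℚ Qb) [FiniteDimensional ℚ K1] [Normal ℚ K1],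
      (∀ c ∈ T, c ∈ K1) → S34hCore K1 σ (M * q) m := by
  classical
  obtain ⟨c0, c1, hc0, hc1, h01, hQ0, hQ1, hσ0, hσ1⟩ := s34ic_choice hq.out H A hA
  have h10 : smi2U A (c1 - c0) := by
    obtain ⟨h1, h2, h3⟩ := h01
    refine ⟨?_, ?_, ?_⟩
    · rw [← neg_sub]; exact A.neg_mem _ h1
    · rw [← neg_sub]; exact neg_ne_zero.mpr h2
    · rw [← neg_sub, inv_neg]; exact A.neg_mem _ h3
  obtain ⟨T₀, hT₀⟩ := hpack c0 c1 hc0 hc1 h01 hQ0 hQ1
  obtain ⟨T₁, hT₁⟩ := hpack c1 c0 hc1 hc0 h10 hQ1 hQ0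
  refine ⟨T₀ ∪ T₁ ∪ {c0, c1}, fun K1 _ _ hT => ?_⟩
  have hK0 : c0 ∈ K1 := hT c0 (by simp)
  have hK1 : c1 ∈ K1 := hT c1 (by simp)
  have hP₀ := hT₀ K1 (fun c hc => hT c (by simp [hc])) hK0 hK1
  have hP₁ := hT₁ K1 (fun c hc => hT c (by simp [hc])) hK1 hK0
  have := (dvd_isDVR_comap q hq.out.ne_zero A hA K1).1
  obtain ⟨hV₀, hC₀, hD₀, hN₀⟩ := hP₀
  obtain ⟨-, hC₁, hD₁, hN₁⟩ := hP₁
  refine s34im_K1 M q hM H ha2 A hA σ hσ m hm hmq K1 ⟨c0, hK0⟩ ⟨c1, hK1⟩ hc0 hc1 ?_ h01.2.2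
    (hσ0 σ hσ) (hσ1 σ hσ) hV₀ hC₀ hC₁ hD₀ hD₁ hN₀ hN₁
  intro h
  exact h01.2.1 (sub_eq_zero.mpr (congrArg Subtype.val h))

end Main

end Fermat.Agent.S34
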