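import Mathlib
import Fermat.Agent.S34.InstMod2
import Fermat.Agent.S34.Val2Inst
import Fermat.Agent.S34.DomInst

/-!
# S34, package INST-MOD, part 3 (InstGeom): the chart statements from the packages

* `s34if_val`: the contract `S34imVal` from A-INST (`va2_htV2`, `va2_htV2'`, `va2_hex`).
* `s34if_dom`: the contract `S34imDom` from DOM-INST (`dmi_dom`).
* `s34if_pack`: `S34imPack` over the trace on a number field of a valuation subring of `ℚ̄`,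
  from the contracts `S34imComp` (B1-COMP) and `S34imGam` (NODE).
* `s34if_main_of`: the hypothesis `hcore` of `s34h_main` from `S34imComp` and `S34imGam` for
  every admissible pair of base points over all number fields containing a finite set.
-/

set_option autoImplicit false
set_option linter.unusedSectionVars false

noncomputable section

open ModularCurve AlgebraicCurve Polynomial
open Fermat.Agent.S18 Fermat.Agent.S37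

namespace Fermat.Agent.S34

local notation "Qb" => AlgebraicClosure ℚ

section Field

variable (M q : ℕ) [NeZero M] [hq : Fact q.Prime] (hM : ¬ q ∣ M)
  (K0 : Type*) [Field K0] [Algebra ℚ K0] [Algebra K0 Qb]
  (A0 : ValuationSubring K0) [IsDiscreteValuationRing ↥A0]
  {a2 : ℕ} (H : HauptRec a2 q)

/-- the contract (A-INST) -/
theorem s34if_val (ha2 : a2 ∣ M) (hA0 : A0.LiesOverPrime q) (c0 c1 : A0)
    (hc : IsLocalRing.residue A0 c0 ≠ IsLocalRing.residue A0 c1) :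
    S34imVal M q hM K0 A0 H (c0 : K0) (c1 : K0) := fun t ht =>
  ⟨va2_htV2 A0 M q hM H ha2 c0 c1 t ht, va2_htV2' A0 M q hM H ha2 c0 c1 t ht,
    fun O' hO' => va2_hex A0 M q hM H ha2 hA0 c0 c1 hc t ht O' hO'⟩

/-- the contract (DOM) -/
theorem s34if_dom (ha2 : a2 ∣ M) (hA0 : A0.LiesOverPrime q) (c0 c1 : A0)
    (hc : IsLocalRing.residue A0 c0 ≠ IsLocalRing.residue A0 c1)
    (hQ0 : smi2U A0 (aeval (c0 : K0) H.Qrad)) (hQ1 : smi2U A0 (aeval (c1 : K0) H.Qrad)) :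
    S34imDom M q hM K0 A0 H (c0 : K0) (c1 : K0) := fun t ht _ _ τ hτ =>
  (dmi_dom A0 M q hq.out hM H ha2 hA0 c0 c1 hc hQ0 hQ1 t ht τ hτ (va2V1 M q K0 A0)).1

/-- the four chart statements over a field of definition, from the contracts (B1-COMP) and
(NODE) -/
theorem s34if_field (ha2 : a2 ∣ M) (hA0 : A0.LiesOverPrime q) (c0 c1 : A0)
    (hc : IsLocalRing.residue A0 c0 ≠ IsLocalRing.residue A0 c1)
    (hQ0 : smi2U A0 (aeval (c0 : K0) H.Qrad)) (hQ1 : smi2U A0 (aeval (c1 : K0) H.Qrad))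
    (hComp : S34imComp M q K0 A0 H (c0 : K0) (c1 : K0))
    (hGam : S34imGam M q hM K0 A0 H (c0 : K0) (c1 : K0)) (m : ℕ) :
    S34imVal M q hM K0 A0 H (c0 : K0) (c1 : K0) ∧
      S34imComp M q K0 A0 H (c0 : K0) (c1 : K0) ∧
      S34imDom M q hM K0 A0 H (c0 : K0) (c1 : K0) ∧
      S34imNode M q hM K0 A0 H m (c0 : K0) (c1 : K0) :=
  ⟨s34if_val M q hM K0 A0 H ha2 hA0 c0 c1 hc, hComp,
    s34if_dom M q hM K0 A0 H ha2 hA0 c0 c1 hc hQ0 hQ1,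
    s34im_node_of_gam M q hM K0 A0 H c0 c1 hc (s34if_val M q hM K0 A0 H ha2 hA0 c0 c1 hc) hGam m⟩

end Field

section Main

variable (M q : ℕ) [NeZero M] [hq : Fact q.Prime] (hM : ¬ q ∣ M)
  {a2 : ℕ} (H : HauptRec a2 q)

/-- `S34imPack` from the contracts (B1-COMP) and (NODE) -/
theorem s34if_pack (ha2 : a2 ∣ M) (A : ValuationSubring Qb) (hA : A.LiesOverPrime q) (m : ℕ)
    (K1 : IntermediateField ℚ Qb) [FiniteDimensional ℚ K1]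
    [IsDiscreteValuationRing ↥(A.comap (algebraMap ↥K1 Qb))]
    (c0 c1 : Qb) (hc0 : c0 ∈ A) (hc1 : c1 ∈ A) (h01 : smi2U A (c0 - c1))
    (hQ0 : smi2U A (aeval c0 H.Qrad)) (hQ1 : smi2U A (aeval c1 H.Qrad))
    (h0 : c0 ∈ K1) (h1 : c1 ∈ K1)
    (hComp : S34imComp M q ↥K1 (A.comap (algebraMap ↥K1 Qb)) H ⟨c0, h0⟩ ⟨c1, h1⟩)
    (hGam : S34imGam M q hM ↥K1 (A.comap (algebraMap ↥K1 Qb)) H ⟨c0, h0⟩ ⟨c1, h1⟩) :
    S34imPack M q hM H A hA m K1 ⟨c0, h0⟩ ⟨c1, h1⟩ := by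
  have hA0 : (A.comap (algebraMap ↥K1 Qb)).LiesOverPrime q :=
    (dvd_isDVR_comap q hq.out.ne_zero A hA K1).2.2
  have hc : IsLocalRing.residue ↥(A.comap (algebraMap ↥K1 Qb)) (⟨⟨c0, h0⟩, hc0⟩) ≠
      IsLocalRing.residue ↥(A.comap (algebraMap ↥K1 Qb)) (⟨⟨c1, h1⟩, hc1⟩) := by
    intro h
    have hmm : (⟨⟨c0, h0⟩, hc0⟩ - ⟨⟨c1, h1⟩, hc1⟩ : ↥(A.comap (algebraMap ↥K1 Qb))) ∈
        IsLocalRing.maximalIdeal ↥(A.comap (algebraMap ↥K1 Qb)) := by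
      rw [← IsLocalRing.residue_eq_zero_iff, map_sub, h, sub_self]
    have h01' : ((⟨c0, h0⟩ : ↥K1) - ⟨c1, h1⟩)⁻¹ ∈ A.comap (algebraMap ↥K1 Qb) := by
      show algebraMap ↥K1 Qb ((⟨c0, h0⟩ : ↥K1) - ⟨c1, h1⟩)⁻¹ ∈ A
      rw [map_inv₀, map_sub]
      exact h01.2.2
    have hne : (⟨c0, h0⟩ : ↥K1) ≠ ⟨c1, h1⟩ := fun h =>
      h01.2.1 (sub_eq_zero.mpr (congrArg Subtype.val h))
    refine hmm (isUnit_iff_exists_inv.mpr ⟨⟨((⟨c0, h0⟩ : ↥K1) - ⟨c1, h1⟩)⁻¹, h01'⟩, ?_⟩)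
    exact Subtype.ext (mul_inv_cancel₀ (sub_ne_zero.mpr hne))
  have hQ0' : smi2U (A.comap (algebraMap ↥K1 Qb)) (aeval (⟨c0, h0⟩ : ↥K1) H.Qrad) :=
    (dmi_smi2U_comap_aeval (algebraMap ↥K1 Qb) A ⟨c0, h0⟩ H.Qrad).mpr hQ0
  have hQ1' : smi2U (A.comap (algebraMap ↥K1 Qb)) (aeval (⟨c1, h1⟩ : ↥K1) H.Qrad) :=
    (dmi_smi2U_comap_aeval (algebraMap ↥K1 Qb) A ⟨c1, h1⟩ H.Qrad).mpr hQ1
  exact s34if_field M q hM ↥K1 (A.comap (algebraMap ↥K1 Qb)) H ha2 hA0 ⟨⟨c0, h0⟩, hc0⟩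
    ⟨⟨c1, h1⟩, hc1⟩ hc hQ0' hQ1' hComp hGam m

/-- **INST-MOD, final form modulo (B1-COMP) and (NODE)**: the hypothesis `hcore` of `s34h_main`
at the level `M q`. -/
theorem s34if_main_of (ha2 : a2 ∣ M) (A : ValuationSubring Qb) (hA : A.LiesOverPrime q)
    (σ : Qb ≃ₐ[ℚ] Qb) (hσ : σ ∈ A.inertiaSubgroupIn ℚ) (m : ℕ) (hm : m ≠ 0)
    (hmq : m.Coprime q)
    (hComp : ∀ c0 c1 : Qb, c0 ∈ A → c1 ∈ A → smi2U A (c0 - c1) →
      smi2U A (aeval c0 H.Qrad) → smi2U A (aeval c1 H.Qrad) →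
      ∃ T : Finset Qb, ∀ (K1 : IntermediateField ℚ Qb) [FiniteDimensional ℚ K1] [Normal ℚ K1]
        [IsDiscreteValuationRing ↥(A.comap (algebraMap ↥K1 Qb))],
        (∀ c ∈ T, c ∈ K1) → ∀ (h0 : c0 ∈ K1) (h1 : c1 ∈ K1),
          S34imComp M q ↥K1 (A.comap (algebraMap ↥K1 Qb)) H ⟨c0, h0⟩ ⟨c1, h1⟩)
    (hGam : ∀ c0 c1 : Qb, c0 ∈ A → c1 ∈ A → smi2U A (c0 - c1) →
      smi2U A (aeval c0 H.Qrad) → smi2U A (aeval c1 H.Qrad) →
      ∃ T : Finset Qb, ∀ (K1 : IntermediateField ℚ Qb) [FiniteDimensional ℚ K1] [Normal ℚ K1]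
        [IsDiscreteValuationRing ↥(A.comap (algebraMap ↥K1 Qb))],
        (∀ c ∈ T, c ∈ K1) → ∀ (h0 : c0 ∈ K1) (h1 : c1 ∈ K1),
          S34imGam M q hM ↥K1 (A.comap (algebraMap ↥K1 Qb)) H ⟨c0, h0⟩ ⟨c1, h1⟩) :
    ∃ T : Finset Qb, ∀ (K1 : IntermediateField ℚ Qb) [FiniteDimensional ℚ K1] [Normal ℚ K1],
      (∀ c ∈ T, c ∈ K1) → S34hCore K1 σ (M * q) m := by
  classical
  refine s34im_main M q hM H (ha2.mul_right q) A hA σ hσ m hm hmq ?_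
  intro c0 c1 hc0 hc1 h01 hQ0 hQ1
  obtain ⟨T₁, hT₁⟩ := hComp c0 c1 hc0 hc1 h01 hQ0 hQ1
  obtain ⟨T₂, hT₂⟩ := hGam c0 c1 hc0 hc1 h01 hQ0 hQ1
  refine ⟨T₁ ∪ T₂, fun K1 _ _ hT h0 h1 => ?_⟩
  have := (dvd_isDVR_comap q hq.out.ne_zero A hA K1).1
  exact s34if_pack M q hM H ha2 A hA m K1 c0 c1 hc0 hc1 h01 hQ0 hQ1 h0 h1
    (hT₁ K1 (fun c hc => hT c (Finset.mem_union_left _ hc)) h0 h1)
    (hT₂ K1 (fun c hc => hT c (Finset.mem_union_right _ hc)) h0 h1)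

end Main

end Fermat.Agent.S34
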