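import Mathlib
import Fermat.Agent.S18.SMInst
import Fermat.Agent.S18.SMQ
import Fermat.Agent.S18.SMInstDescB

/-!
# S34, leaf SM-GIVEN: the special fibre of a Hauptmodul chart for GIVEN base points

S18's `sminst_main` hides its own base points.  For the level-raising argument of S34 one pair
of base points `(c0, c1)` has to be used for everything, so the Dedekind property of the special
fibre of the level-`N'` chart `t = (h - c1) / (h - c0)` is needed for a given admissible pair.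

* `smg_chart`: for `c0 ≠ c1` in `A` with `c0 - c1` and `Qrad(c0)` units of `A`: there is a
  finite set `T ⊆ ℚ̄` such that over every number field `K0 ⊇ T ∪ {c0, c1}` the statement
  `cinstSMChart` holds for `(c0, c1)` over `A ∩ K0`.
* `smg_both`: the same for both charts `(c0, c1)` and `(c1, c0)` (`Qrad(c1)` a unit as well).
* `smg_pair`: the unfolded form for a chart coordinate `t` and its inverse.
-/

set_option autoImplicit false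

noncomputable section

open ModularCurve Polynomial
open Fermat.Agent.S18

namespace Fermat.Agent.S34

local notation "Qb" => AlgebraicClosure ℚ

/-- **(SM) for one chart with given base points.** -/
theorem smg_chart (N' : ℕ) [NeZero N'] {ℓ : ℕ} [Fact ℓ.Prime] (hℓN' : ¬ ℓ ∣ N') {a2 : ℕ}
    (H : HauptRec a2 ℓ) (ha2 : a2 ∣ N') (A : ValuationSubring Qb) (hA : A.LiesOverPrime ℓ)
    (c0 c1 : Qb) (hc0 : c0 ∈ A) (hc1 : c1 ∈ A) (h01 : (c0 - c1)⁻¹ ∈ A) (hc : c0 ≠ c1)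
    (hq0 : (Polynomial.aeval c0 H.Qrad)⁻¹ ∈ A) (hq0' : Polynomial.aeval c0 H.Qrad ≠ 0) :
    ∃ T : Finset Qb, ∀ (K0 : IntermediateField ℚ Qb) [FiniteDimensional ℚ K0]
      (_ : ∀ c ∈ T, c ∈ K0) (h0 : c0 ∈ K0) (h1 : c1 ∈ K0),
      cinstSMChart ↥K0 (A.comap (algebraMap ↥K0 Qb)) N' H ⟨c0, h0⟩ ⟨c1, h1⟩ := by
  classical
  obtain ⟨htV, b, hb, hbint, hli, hspan⟩ := smq_main N' hℓN' H ha2 A hA c0 c1 hc0 hc1 h01 hc hq0
    hq0' ⟨cinstU H Qb c0 c1, cinstU_mem H Qb ha2 c0 c1⟩ rfl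
  obtain ⟨T, hT⟩ := smib_main N' A _ b hbint
  refine ⟨T, fun K0 _ hK0 h0 h1 => ?_⟩
  have := (dvd_isDVR_comap ℓ (Fact.out : ℓ.Prime).ne_zero A hA K0).1
  have _algQ : Algebra.IsAlgebraic ℚ Qb := AlgebraicClosure.isAlgebraic ℚ
  have : Algebra.IsAlgebraic ↥K0 Qb := Algebra.IsAlgebraic.tower_top (K := ℚ) ↥K0
  exact sminst_chart_stmt (K₀ := ↥K0) A hA N' hℓN' H ⟨c0, h0⟩ ⟨c1, h1⟩ hc0 hc1
    (fun h => hc (congrArg Subtype.val h)) h01 _ rfl b ⟨htV, hb, hli, hspan⟩ (hT K0 hK0)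

/-- **(SM) for both charts with given base points.** -/
theorem smg_both (N' : ℕ) [NeZero N'] {ℓ : ℕ} [Fact ℓ.Prime] (hℓN' : ¬ ℓ ∣ N') {a2 : ℕ}
    (H : HauptRec a2 ℓ) (ha2 : a2 ∣ N') (A : ValuationSubring Qb) (hA : A.LiesOverPrime ℓ)
    (c0 c1 : Qb) (hc0 : c0 ∈ A) (hc1 : c1 ∈ A) (h01 : (c0 - c1)⁻¹ ∈ A) (hc : c0 ≠ c1)
    (hq0 : (Polynomial.aeval c0 H.Qrad)⁻¹ ∈ A) (hq0' : Polynomial.aeval c0 H.Qrad ≠ 0)
    (hq1 : (Polynomial.aeval c1 H.Qrad)⁻¹ ∈ A) (hq1' : Polynomial.aeval c1 H.Qrad ≠ 0) :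
    ∃ T : Finset Qb, ∀ (K0 : IntermediateField ℚ Qb) [FiniteDimensional ℚ K0]
      (_ : ∀ c ∈ T, c ∈ K0) (h0 : c0 ∈ K0) (h1 : c1 ∈ K0),
      cinstSMChart ↥K0 (A.comap (algebraMap ↥K0 Qb)) N' H ⟨c0, h0⟩ ⟨c1, h1⟩ ∧
      cinstSMChart ↥K0 (A.comap (algebraMap ↥K0 Qb)) N' H ⟨c1, h1⟩ ⟨c0, h0⟩ := by
  classical
  have h10 : (c1 - c0)⁻¹ ∈ A := by
    rw [← neg_sub, inv_neg]
    exact A.neg_mem _ h01
  obtain ⟨T, hT⟩ := smg_chart N' hℓN' H ha2 A hA c0 c1 hc0 hc1 h01 hc hq0 hq0'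
  obtain ⟨T', hT'⟩ := smg_chart N' hℓN' H ha2 A hA c1 c0 hc1 hc0 h10 hc.symm hq1 hq1'
  refine ⟨T ∪ T', fun K0 _ hK0 h0 h1 => ⟨?_, ?_⟩⟩
  · exact hT K0 (fun c hc => hK0 c (Finset.mem_union_left _ hc)) h0 h1
  · exact hT' K0 (fun c hc => hK0 c (Finset.mem_union_right _ hc)) h1 h0

/-- **(SM) for a chart coordinate and its inverse**, unfolded: the special fibres of the two
charts `chtO A₀ {t}`, `chtO A₀ {t⁻¹}` of the level-`N'` function field over `K0` are Dedekind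
domains, for `t = (h - c1) / (h - c0)` with given base points. -/
theorem smg_pair (N' : ℕ) [NeZero N'] {ℓ : ℕ} [Fact ℓ.Prime] (hℓN' : ¬ ℓ ∣ N') {a2 : ℕ}
    (H : HauptRec a2 ℓ) (ha2 : a2 ∣ N') (A : ValuationSubring Qb) (hA : A.LiesOverPrime ℓ)
    (c0 c1 : Qb) (hc0 : c0 ∈ A) (hc1 : c1 ∈ A) (h01 : (c0 - c1)⁻¹ ∈ A) (hc : c0 ≠ c1)
    (hq0 : (Polynomial.aeval c0 H.Qrad)⁻¹ ∈ A) (hq0' : Polynomial.aeval c0 H.Qrad ≠ 0)
    (hq1 : (Polynomial.aeval c1 H.Qrad)⁻¹ ∈ A) (hq1' : Polynomial.aeval c1 H.Qrad ≠ 0) :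
    ∃ T : Finset Qb, ∀ (K0 : IntermediateField ℚ Qb) [FiniteDimensional ℚ K0]
      (_ : ∀ c ∈ T, c ∈ K0) (h0 : c0 ∈ K0) (h1 : c1 ∈ K0)
      (t : ↥(laurentBaseChange ↥K0 (modularFunctionFieldFull N')))
      (_ : (t : LaurentSeries ↥K0) = cinstU H ↥K0 ⟨c0, h0⟩ ⟨c1, h1⟩)
      [Algebra ↥(A.comap (algebraMap ↥K0 Qb))
        ↥(laurentBaseChange ↥K0 (modularFunctionFieldFull N'))]
      [IsScalarTower ↥(A.comap (algebraMap ↥K0 Qb)) ↥K0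
        ↥(laurentBaseChange ↥K0 (modularFunctionFieldFull N'))]
      (τ : ↥(A.comap (algebraMap ↥K0 Qb))), Irreducible τ →
      IsDedekindDomain (↥(chtO ↥(A.comap (algebraMap ↥K0 Qb)) {t}) ⧸
        Ideal.span {algebraMap ↥(A.comap (algebraMap ↥K0 Qb))
          ↥(chtO ↥(A.comap (algebraMap ↥K0 Qb)) {t}) τ}) ∧
      IsDedekindDomain (↥(chtO ↥(A.comap (algebraMap ↥K0 Qb)) {t⁻¹}) ⧸
        Ideal.span {algebraMap ↥(A.comap (algebraMap ↥K0 Qb))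
          ↥(chtO ↥(A.comap (algebraMap ↥K0 Qb)) {t⁻¹}) τ}) := by
  obtain ⟨T, hT⟩ := smg_both N' hℓN' H ha2 A hA c0 c1 hc0 hc1 h01 hc hq0 hq0' hq1 hq1'
  refine ⟨T, fun K0 _ hK0 h0 h1 t ht _ _ τ hτ => ?_⟩
  obtain ⟨hD0, hD1⟩ := hT K0 hK0 h0 h1
  refine ⟨hD0 t ht τ hτ, hD1 t⁻¹ ?_ τ hτ⟩
  rw [IntermediateField.coe_inv, ht, cinstU_inv]

end Fermat.Agent.S34
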