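import Mathlib
import Fermat.Agent.S18.DvrDef
import Fermat.Agent.S34.SMGiven
import Fermat.Agent.S34.UnramPack
import Fermat.Agent.S34.DomInst

/-!
# S34, package INST-MOD, part 4 (InstInputs): the inputs of the chart packages over number fields

`s34if_inputs`: `A` a valuation subring of `ℚ̄` over `q ∤ M`, `c0, c1 ∈ A` admissible base
points (`c0 - c1`, `Qrad(c0)`, `Qrad(c1)` units of `A`).  There is a finite set `T ⊆ ℚ̄` such
that for every number field `K1 ⊆ ℚ̄` containing `T`, `c0`, `c1`, with `A0 = A ∩ K1`: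

* `A0` lies over `q` and has finite residue field;
* `c0`, `c1` have distinct residues in `A0`, and `Qrad(c0)`, `Qrad(c1)` are units of `A0`;
* the special fibres of the two level-`M` Hauptmodul charts are Dedekind (`cinstSMChart`, for
  `(c0, c1)` and `(c1, c0)`);
* the two level-`M` Hauptmodul charts are unramified over the coordinate line away from the
  cusps (`unrChart`, for `(c0, c1)` and `(c1, c0)`).

These are all the hypotheses on the field of definition used by the chart packages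
(B1-COMP, DOM, NODE).
-/

set_option autoImplicit false

noncomputable section

open ModularCurve Polynomial
open Fermat.Agent.S18

namespace Fermat.Agent.S34

local notation "Qb" => AlgebraicClosure ℚ

/-- distinct residues of two elements of the trace of a valuation subring whose difference is a
unit -/
theorem s34if_residue_ne (A : ValuationSubring Qb) (K1 : IntermediateField ℚ Qb)
    [IsDiscreteValuationRing ↥(A.comap (algebraMap ↥K1 Qb))]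
    (c0 c1 : Qb) (hc0 : c0 ∈ A) (hc1 : c1 ∈ A) (h01 : smi2U A (c0 - c1))
    (h0 : c0 ∈ K1) (h1 : c1 ∈ K1) :
    IsLocalRing.residue ↥(A.comap (algebraMap ↥K1 Qb))
        ⟨⟨c0, h0⟩, ValuationSubring.mem_comap.mpr hc0⟩ ≠
      IsLocalRing.residue ↥(A.comap (algebraMap ↥K1 Qb))
        ⟨⟨c1, h1⟩, ValuationSubring.mem_comap.mpr hc1⟩ := by
  intro h
  have hmm : (⟨⟨c0, h0⟩, ValuationSubring.mem_comap.mpr hc0⟩ -
      ⟨⟨c1, h1⟩, ValuationSubring.mem_comap.mpr hc1⟩ : ↥(A.comap (algebraMap ↥K1 Qb))) ∈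
      IsLocalRing.maximalIdeal ↥(A.comap (algebraMap ↥K1 Qb)) := by
    rw [← IsLocalRing.residue_eq_zero_iff, map_sub, h, sub_self]
  have h01' : ((⟨c0, h0⟩ : ↥K1) - ⟨c1, h1⟩)⁻¹ ∈ A.comap (algebraMap ↥K1 Qb) := by
    show algebraMap ↥K1 Qb ((⟨c0, h0⟩ : ↥K1) - ⟨c1, h1⟩)⁻¹ ∈ A
    rw [map_inv₀, map_sub]
    exact h01.2.2
  have hne : (⟨c0, h0⟩ : ↥K1) ≠ ⟨c1, h1⟩ := fun h =>
    h01.2.1 (sub_eq_zero.mpr (congrArg Subtype.val h))
  refine hmm (isUnit_iff_exists_inv.mpr ⟨⟨((⟨c0, h0⟩ : ↥K1) - ⟨c1, h1⟩)⁻¹, h01'⟩, ?_⟩)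
  exact Subtype.ext (mul_inv_cancel₀ (sub_ne_zero.mpr hne))

/-- **The inputs of the chart packages over the number fields containing a finite set.** -/
theorem s34if_inputs (M q : ℕ) [NeZero M] [hq : Fact q.Prime] (hM : ¬ q ∣ M) {a2 : ℕ}
    (H : HauptRec a2 q) (ha2 : a2 ∣ M) (A : ValuationSubring Qb) (hA : A.LiesOverPrime q)
    (c0 c1 : Qb) (hc0 : c0 ∈ A) (hc1 : c1 ∈ A) (h01 : smi2U A (c0 - c1))
    (hQ0 : smi2U A (aeval c0 H.Qrad)) (hQ1 : smi2U A (aeval c1 H.Qrad)) :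
    ∃ T : Finset Qb, ∀ (K1 : IntermediateField ℚ Qb) [FiniteDimensional ℚ K1]
      [IsDiscreteValuationRing ↥(A.comap (algebraMap ↥K1 Qb))],
      (∀ c ∈ T, c ∈ K1) → ∀ (h0 : c0 ∈ K1) (h1 : c1 ∈ K1),
        (A.comap (algebraMap ↥K1 Qb)).LiesOverPrime q ∧
        Finite (IsLocalRing.ResidueField ↥(A.comap (algebraMap ↥K1 Qb))) ∧
        IsLocalRing.residue ↥(A.comap (algebraMap ↥K1 Qb))
            ⟨⟨c0, h0⟩, ValuationSubring.mem_comap.mpr hc0⟩ ≠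
          IsLocalRing.residue ↥(A.comap (algebraMap ↥K1 Qb))
            ⟨⟨c1, h1⟩, ValuationSubring.mem_comap.mpr hc1⟩ ∧
        smi2U (A.comap (algebraMap ↥K1 Qb)) (aeval (⟨c0, h0⟩ : ↥K1) H.Qrad) ∧
        smi2U (A.comap (algebraMap ↥K1 Qb)) (aeval (⟨c1, h1⟩ : ↥K1) H.Qrad) ∧
        cinstSMChart ↥K1 (A.comap (algebraMap ↥K1 Qb)) M H ⟨c0, h0⟩ ⟨c1, h1⟩ ∧
        cinstSMChart ↥K1 (A.comap (algebraMap ↥K1 Qb)) M H ⟨c1, h1⟩ ⟨c0, h0⟩ ∧
        unrChart ↥K1 (A.comap (algebraMap ↥K1 Qb)) M H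
          ⟨⟨c0, h0⟩, ValuationSubring.mem_comap.mpr hc0⟩
          ⟨⟨c1, h1⟩, ValuationSubring.mem_comap.mpr hc1⟩ ∧
        unrChart ↥K1 (A.comap (algebraMap ↥K1 Qb)) M H
          ⟨⟨c1, h1⟩, ValuationSubring.mem_comap.mpr hc1⟩
          ⟨⟨c0, h0⟩, ValuationSubring.mem_comap.mpr hc0⟩ := by
  classical
  have hne : c0 ≠ c1 := sub_ne_zero.mp h01.2.1
  obtain ⟨T₁, hT₁⟩ := smg_both M hM H ha2 A hA c0 c1 hc0 hc1 h01.2.2 hne hQ0.2.2 hQ0.2.1
    hQ1.2.2 hQ1.2.1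
  obtain ⟨T₂, hT₂⟩ := unr_pair M hM H ha2 A hA c0 c1 hc0 hc1 h01 hQ0 hQ1
  refine ⟨T₁ ∪ T₂, fun K1 _ _ hT h0 h1 => ?_⟩
  obtain ⟨-, hfin, hA0⟩ := dvd_isDVR_comap q hq.out.ne_zero A hA K1
  obtain ⟨hSM0, hSM1⟩ := hT₁ K1 (fun c hc => hT c (Finset.mem_union_left _ hc)) h0 h1
  obtain ⟨hu0, hu1⟩ := hT₂ K1 (fun c hc => hT c (Finset.mem_union_right _ hc)) h0 h1
  exact ⟨hA0, hfin, s34if_residue_ne A K1 c0 c1 hc0 hc1 h01 h0 h1,
    (dmi_smi2U_comap_aeval (algebraMap ↥K1 Qb) A ⟨c0, h0⟩ H.Qrad).mpr hQ0,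
    (dmi_smi2U_comap_aeval (algebraMap ↥K1 Qb) A ⟨c1, h1⟩ H.Qrad).mpr hQ1,
    hSM0, hSM1, hu0, hu1⟩

end Fermat.Agent.S34
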