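import Mathlib
import Fermat.Agent.S34.InstGeom
import Fermat.Agent.S34.InstInputs

/-!
# S34, package INST-MOD, part 5 (InstReduce): reduction to two statements over a generic field

`s34if_reduce`: the hypothesis `hcore` of `s34h_main` at the level `M q` follows from the
contracts `S34imComp` (B1-COMP) and `S34imGam` (NODE) over a GENERIC field of definition `K0`
with a discrete valuation subring `A0` over `q`, for base points `c0, c1 ∈ A0` with distinct
residues, under the hypotheses which `s34if_inputs` provides over number fields: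
finite residue field, `Qrad(c0)`, `Qrad(c1)` units of `A0`, `cinstSMChart` and `unrChart` at
the level `M` for both orientations `(c0, c1)`, `(c1, c0)`.
-/

set_option autoImplicit false

noncomputable section

open ModularCurve AlgebraicCurve Polynomial
open Fermat.Agent.S18 Fermat.Agent.S37

namespace Fermat.Agent.S34

local notation "Qb" => AlgebraicClosure ℚ

/-- **INST-MOD, reduction to the generic-field forms of (B1-COMP) and (NODE).** -/
theorem s34if_reduce (M q : ℕ) [NeZero M] [hq : Fact q.Prime] (hM : ¬ q ∣ M) {a2 : ℕ}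
    (H : HauptRec a2 q) (ha2 : a2 ∣ M) (A : ValuationSubring Qb) (hA : A.LiesOverPrime q)
    (σ : Qb ≃ₐ[ℚ] Qb) (hσ : σ ∈ A.inertiaSubgroupIn ℚ) (m : ℕ) (hm : m ≠ 0)
    (hmq : m.Coprime q)
    (hComp : ∀ (K0 : Type) [Field K0] [Algebra ℚ K0] [Algebra K0 Qb]
      (A0 : ValuationSubring K0) [IsDiscreteValuationRing ↥A0],
      A0.LiesOverPrime q → ∀ c0 c1 : A0,
      IsLocalRing.residue ↥A0 c0 ≠ IsLocalRing.residue ↥A0 c1 →
      cinstSMChart K0 A0 M H (c0 : K0) (c1 : K0) →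
      S34imComp M q K0 A0 H (c0 : K0) (c1 : K0))
    (hGam : ∀ (K0 : Type) [Field K0] [Algebra ℚ K0] [Algebra K0 Qb]
      (A0 : ValuationSubring K0) [IsDiscreteValuationRing ↥A0]
      [Finite (IsLocalRing.ResidueField ↥A0)],
      A0.LiesOverPrime q → ∀ c0 c1 : A0,
      IsLocalRing.residue ↥A0 c0 ≠ IsLocalRing.residue ↥A0 c1 →
      smi2U A0 (aeval (c0 : K0) H.Qrad) → smi2U A0 (aeval (c1 : K0) H.Qrad) →
      cinstSMChart K0 A0 M H (c0 : K0) (c1 : K0) →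
      cinstSMChart K0 A0 M H (c1 : K0) (c0 : K0) →
      unrChart K0 A0 M H c0 c1 → unrChart K0 A0 M H c1 c0 →
      S34imGam M q hM K0 A0 H (c0 : K0) (c1 : K0)) :
    ∃ T : Finset Qb, ∀ (K1 : IntermediateField ℚ Qb) [FiniteDimensional ℚ K1] [Normal ℚ K1],
      (∀ c ∈ T, c ∈ K1) → S34hCore K1 σ (M * q) m := by
  classical
  refine s34if_main_of M q hM H ha2 A hA σ hσ m hm hmq ?_ ?_
  · intro c0 c1 hc0 hc1 h01 hQ0 hQ1
    obtain ⟨T, hT⟩ := s34if_inputs M q hM H ha2 A hA c0 c1 hc0 hc1 h01 hQ0 hQ1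
    refine ⟨T, fun K1 _ _ _ hTK h0 h1 => ?_⟩
    obtain ⟨hA0, -, hc, -, -, hSM0, -, -, -⟩ := hT K1 hTK h0 h1
    exact hComp ↥K1 (A.comap (algebraMap ↥K1 Qb)) hA0
      ⟨⟨c0, h0⟩, ValuationSubring.mem_comap.mpr hc0⟩
      ⟨⟨c1, h1⟩, ValuationSubring.mem_comap.mpr hc1⟩ hc hSM0
  · intro c0 c1 hc0 hc1 h01 hQ0 hQ1
    obtain ⟨T, hT⟩ := s34if_inputs M q hM H ha2 A hA c0 c1 hc0 hc1 h01 hQ0 hQ1
    refine ⟨T, fun K1 _ _ _ hTK h0 h1 => ?_⟩
    obtain ⟨hA0, hfin, hc, hQ0', hQ1', hSM0, hSM1, hu0, hu1⟩ := hT K1 hTK h0 h1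
    exact hGam ↥K1 (A.comap (algebraMap ↥K1 Qb)) hA0
      ⟨⟨c0, h0⟩, ValuationSubring.mem_comap.mpr hc0⟩
      ⟨⟨c1, h1⟩, ValuationSubring.mem_comap.mpr hc1⟩ hc hQ0' hQ1' hSM0 hSM1 hu0 hu1

end Fermat.Agent.S34
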