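import Mathlib
import Fermat.Agent.S34.InstReduce
import Fermat.Agent.S34.CompInst

/-!
# S34, package INST-MOD, part 6 (InstComp): reduction to the node statement

`s34if_reduce_gam`: the hypothesis `hcore` of `s34h_main` at the level `M q` follows from the
contract `S34imGam` (NODE) over a generic field of definition; the contract (B1-COMP) is
discharged by `cmi_hD`.
-/

set_option autoImplicit false

noncomputable section

open ModularCurve AlgebraicCurve Polynomial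
open Fermat.Agent.S18 Fermat.Agent.S37

namespace Fermat.Agent.S34

local notation "Qb" => AlgebraicClosure ℚ

/-- the contract (B1-COMP) over a generic field of definition -/
theorem s34if_comp (M q : ℕ) [NeZero M] [hq : Fact q.Prime] (hM : ¬ q ∣ M) {a2 : ℕ}
    (H : HauptRec a2 q) (ha2 : a2 ∣ M)
    (K0 : Type*) [Field K0] [Algebra ℚ K0] [Algebra K0 Qb]
    (A0 : ValuationSubring K0) [IsDiscreteValuationRing ↥A0]
    (hA0 : A0.LiesOverPrime q) (c0 c1 : A0)
    (hc : IsLocalRing.residue ↥A0 c0 ≠ IsLocalRing.residue ↥A0 c1)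
    (hSM : cinstSMChart K0 A0 M H (c0 : K0) (c1 : K0)) :
    S34imComp M q K0 A0 H (c0 : K0) (c1 : K0) :=
  fun t ht _ _ τ hτ 𝔭 h𝔭 => cmi_hD M q hM K0 A0 H ha2 hA0 c0 c1 hc hSM t ht τ hτ 𝔭 h𝔭

/-- **INST-MOD, reduction to the generic-field form of (NODE).** -/
theorem s34if_reduce_gam (M q : ℕ) [NeZero M] [hq : Fact q.Prime] (hM : ¬ q ∣ M) {a2 : ℕ}
    (H : HauptRec a2 q) (ha2 : a2 ∣ M) (A : ValuationSubring Qb) (hA : A.LiesOverPrime q)
    (σ : Qb ≃ₐ[ℚ] Qb) (hσ : σ ∈ A.inertiaSubgroupIn ℚ) (m : ℕ) (hm : m ≠ 0)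
    (hmq : m.Coprime q)
    (hGam : ∀ (K0 : Type) [Field K0] [Algebra ℚ K0] [Algebra K0 Qb]
      (A0 : ValuationSubring K0) [IsDiscreteValuationRing ↥A0]
      [Finite (IsLocalRing.ResidueField ↥A0)],
      A0.LiesOverPrime q → ∀ c0 c1 : A0,
      IsLocalRing.residue ↥A0 c0 ≠ IsLocalRing.residue ↥A0 c1 →
      smi2U A0 (aeval (c0 : K0) H.Qrad) → smi2U A0 (aeval (c1 : K0) H.Qrad) →
      cinstSMChart K0 A0 M H (c0 : K0) (c1 : K0) →
      cinstSMChart K0 A0 M H (c1 : K0) (c0 : K0) →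
      unrChart K0 A0 M H c0 c1 → unrChart K0 A0 M H c1 c0 →
      S34imGam M q hM K0 A0 H (c0 : K0) (c1 : K0)) :
    ∃ T : Finset Qb, ∀ (K1 : IntermediateField ℚ Qb) [FiniteDimensional ℚ K1] [Normal ℚ K1],
      (∀ c ∈ T, c ∈ K1) → S34hCore K1 σ (M * q) m :=
  s34if_reduce M q hM H ha2 A hA σ hσ m hm hmq
    (fun K0 _ _ _ A0 _ hA0 c0 c1 hc hSM => s34if_comp M q hM H ha2 K0 A0 hA0 c0 c1 hc hSM) hGam

end Fermat.Agent.S34
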