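import Mathlib
import Fermat.Prelude.Def_AlgebraicCurve_DivisorClassGroup
import Fermat.Agent.S24.SumFormulaBase
import Fermat.Agent.S18.PlaceDict

/-!
# S34, abstract leaf NODE-LOC: the local statement (LOC) at a crossing point

`A` a discrete valuation ring with uniformiser `τ` and fraction field `K`, `F / K` a function
field, `Λ ⊆ F` a noetherian local `A`-subalgebra with `τ` in its maximal ideal (the local ring of
the model at a closed point of the special fibre).  Assume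

* `hDVR`: for every nonzero prime `𝔓` of `Λ` not containing `τ`, the localisation `Λ_𝔓` is the
  valuation ring of a place of `F / K`  (`Λ[1/τ]` is a Dedekind domain);
* `hnode`: the kernel of every `A`-point `ev : Λ → A` is principal up to a nonzero constant
  (the conclusion of `nda_main`);
* `f₀ ≠ 0` has all its orders divisible by `m`, and its zeros and poles are `K`-rational.

Then `f₀ / g ^ m` is a unit of `Λ[1/τ]` for some `g` (`ndl_main`); `ndl_chart` is the same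
statement in the shape of the hypothesis `hloc` of `ulo_main`.
-/

set_option autoImplicit false
set_option linter.unusedSectionVars false

namespace Fermat.Agent.S34

open AlgebraicCurve Fermat.Agent.S24 Fermat.Agent.S18

section NodeLoc

variable {A K F : Type*} [CommRing A] [IsDomain A] [IsDiscreteValuationRing A]
  [Field K] [Algebra A K] [IsFractionRing A K] [Field F] [Algebra A F] [Algebra K F]
  [IsScalarTower A K F]

/-- membership in the maximal ideal of the valuation ring of a place, in terms of `ord`. -/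
theorem ndl_mem_nonunits_iff (Q : Place K F) (x : F) :
    x ∈ Q.toValuationSubring.nonunits ↔ x = 0 ∨ 0 < Q.ord x := by
  rw [ValuationSubring.mem_nonunits_iff_exists_mem_maximalIdeal]
  constructor
  · rintro ⟨hx, hm⟩
    rcases (sf_mem_maximalIdeal_iff_ord Q ⟨x, hx⟩).mp hm with h | h
    · left; exact congrArg Subtype.val h
    · right; exact h
  · rintro (rfl | h)
    · exact ⟨zero_mem _, (sf_mem_maximalIdeal_iff_ord Q ⟨0, zero_mem _⟩).mpr (Or.inl rfl)⟩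
    · have hx : x ∈ Q.toValuationSubring := (sf_ord_nonneg_iff Q x).mp h.le
      exact ⟨hx, (sf_mem_maximalIdeal_iff_ord Q ⟨x, hx⟩).mpr (Or.inr h)⟩

/-- the order of a product of integer powers. -/
theorem ndl_ord_prod_zpow (Q : Place K F) {ι : Type*} (s : Finset ι) (g : ι → F) (e : ι → ℤ)
    (hg : ∀ i ∈ s, g i ≠ 0) :
    Q.ord (∏ i ∈ s, g i ^ e i) = ∑ i ∈ s, e i * Q.ord (g i) := by
  classical
  induction s using Finset.induction_on with
  | empty => simp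
  | insert i s hi ih =>
    rw [Finset.prod_insert hi, Finset.sum_insert hi]
    have h1 : g i ^ e i ≠ 0 := zpow_ne_zero _ (hg i (Finset.mem_insert_self i s))
    have h2 : ∏ j ∈ s, g j ^ e j ≠ 0 := by
      rw [Finset.prod_ne_zero_iff]
      intro j hj
      exact zpow_ne_zero _ (hg j (Finset.mem_insert_of_mem hj))
    rw [Q.ord_mul h1 h2, Q.ord_zpow, ih (fun j hj => hg j (Finset.mem_insert_of_mem hj))]

/-- a nonzero constant has order zero at every place. -/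
theorem ndl_ord_const (Q : Place K F) (c : A) : Q.ord (algebraMap A F c) = 0 := by
  rw [IsScalarTower.algebraMap_apply A K F]
  exact sf_ord_algebraMap Q _

theorem ndl_const_ne_zero (K : Type*) {A F : Type*} [CommRing A] [IsDomain A] [Field K]
    [Algebra A K] [IsFractionRing A K] [Field F] [Algebra A F] [Algebra K F]
    [IsScalarTower A K F] (c : A) (hc : c ≠ 0) : algebraMap A F c ≠ 0 := by
  rw [IsScalarTower.algebraMap_apply A K F]
  intro h
  have h1 := (map_eq_zero (algebraMap K F)).mp h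
  exact hc ((IsFractionRing.injective A K) (by rw [h1, map_zero]))

/-- `Λ_𝔓` is the valuation ring of the place `Q`. -/
def NdlIsLoc (Λ : Subalgebra A F) (𝔓 : Ideal Λ) (Q : Place K F) : Prop :=
  (∀ x : Λ, (x : F) ∈ Q.toValuationSubring) ∧
  (∀ x : Λ, x ∈ 𝔓 ↔ (x : F) ∈ Q.toValuationSubring.nonunits) ∧
  (∀ y ∈ Q.toValuationSubring, ∃ a s : Λ, s ∉ 𝔓 ∧ y * (s : F) = (a : F))

/-- The inclusion of a subalgebra into the valuation ring of a place containing it. -/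
def ndlIncl (Λ : Subalgebra A F) (Q : Place K F) (hc : ∀ x : Λ, (x : F) ∈ Q.toValuationSubring) :
    Λ →+* Q.toValuationSubring where
  toFun x := ⟨(x : F), hc x⟩
  map_one' := rfl
  map_mul' _ _ := rfl
  map_zero' := rfl
  map_add' _ _ := rfl

/-- The centre on `Λ` of a place whose valuation ring contains `Λ`. -/
def ndlCentre (Λ : Subalgebra A F) (Q : Place K F) (hc : ∀ x : Λ, (x : F) ∈ Q.toValuationSubring) :
    Ideal Λ :=
  (IsLocalRing.maximalIdeal Q.toValuationSubring).comap (ndlIncl Λ Q hc)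

instance ndlCentre_isPrime (Λ : Subalgebra A F) (Q : Place K F)
    (hc : ∀ x : Λ, (x : F) ∈ Q.toValuationSubring) : (ndlCentre Λ Q hc).IsPrime :=
  Ideal.comap_isPrime _ _

theorem ndl_mem_centre (Λ : Subalgebra A F) (Q : Place K F)
    (hc : ∀ x : Λ, (x : F) ∈ Q.toValuationSubring) (x : Λ) :
    x ∈ ndlCentre Λ Q hc ↔ (x : F) ∈ Q.toValuationSubring.nonunits := by
  rw [ValuationSubring.mem_nonunits_iff_exists_mem_maximalIdeal]
  constructor
  · intro h
    exact ⟨hc x, h⟩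
  · rintro ⟨_, h⟩
    exact h

theorem ndl_mem_centre_ord (Λ : Subalgebra A F) (Q : Place K F)
    (hc : ∀ x : Λ, (x : F) ∈ Q.toValuationSubring) (x : Λ) :
    x ∈ ndlCentre Λ Q hc ↔ x = 0 ∨ 0 < Q.ord (x : F) := by
  rw [ndl_mem_centre, ndl_mem_nonunits_iff]
  constructor
  · rintro (h | h)
    · left; exact Subtype.ext h
    · right; exact h
  · rintro (h | h)
    · left; rw [h]; rfl
    · right; exact h

/-- an element of `Λ` outside the centre of `Q` has order zero at `Q`. -/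
theorem ndl_ord_of_not_mem (Λ : Subalgebra A F) (Q : Place K F)
    (hc : ∀ x : Λ, (x : F) ∈ Q.toValuationSubring) (x : Λ) (hx : x ∉ ndlCentre Λ Q hc) :
    Q.ord (x : F) = 0 := by
  have h1 : 0 ≤ Q.ord (x : F) := (sf_ord_nonneg_iff Q _).mpr (hc x)
  have h2 : ¬ 0 < Q.ord (x : F) := fun h => hx ((ndl_mem_centre_ord Λ Q hc x).mpr (Or.inr h))
  omega

/-- a nonzero constant does not lie in the centre of a place. -/
theorem ndl_const_not_mem (Λ : Subalgebra A F) (Q : Place K F)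
    (hc : ∀ x : Λ, (x : F) ∈ Q.toValuationSubring) (c : A) (hc0 : c ≠ 0) :
    algebraMap A Λ c ∉ ndlCentre Λ Q hc := by
  rw [ndl_mem_centre_ord]
  rintro (h | h)
  · have h1 : ((algebraMap A Λ c : Λ) : F) = 0 := by rw [h]; rfl
    exact ndl_const_ne_zero K c hc0 h1
  · have h1 : ((algebraMap A Λ c : Λ) : F) = algebraMap A F c := rfl
    rw [h1, ndl_ord_const] at h
    exact lt_irrefl _ h

/-- If `NdlIsLoc Λ 𝔓 Q` then `𝔓` is the centre of `Q`. -/
theorem ndl_isLoc_centre (Λ : Subalgebra A F) (𝔓 : Ideal Λ) (Q : Place K F)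
    (h : NdlIsLoc Λ 𝔓 Q) : 𝔓 = ndlCentre Λ Q h.1 := by
  ext x
  rw [h.2.1 x, ndl_mem_centre]

/-- **INT.**  An element which is integral at all places centred on `Λ` lies in `Λ[1/τ]`. -/
theorem ndl_int (τ : A) (Λ : Subalgebra A F)
    (hfrac : ∀ x : F, ∃ a b : Λ, b ≠ 0 ∧ x * (b : F) = (a : F))
    (hDVR : ∀ 𝔓 : Ideal Λ, 𝔓.IsPrime → 𝔓 ≠ ⊥ → algebraMap A Λ τ ∉ 𝔓 →
      ∃ Q : Place K F, NdlIsLoc Λ 𝔓 Q)
    (z : F) (hz : ∀ Q : Place K F, (∀ x : Λ, (x : F) ∈ Q.toValuationSubring) →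
      z ∈ Q.toValuationSubring) :
    ∃ (l : Λ) (k : ℕ), z * algebraMap A F τ ^ k = (l : F) := by
  classical
  have hτc : ((algebraMap A Λ τ : Λ) : F) = algebraMap A F τ := rfl
  let J : Ideal Λ :=
    { carrier := {x | ∃ (k : ℕ) (μ : Λ), (x : F) * z * algebraMap A F τ ^ k = (μ : F)}
      zero_mem' := ⟨0, 0, by simp⟩
      add_mem' := by
        rintro x x' ⟨k, μ, h⟩ ⟨k', μ', h'⟩
        refine ⟨k + k', μ * algebraMap A Λ τ ^ k' + μ' * algebraMap A Λ τ ^ k, ?_⟩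
        push_cast
        rw [← h, ← h']
        ring
      smul_mem' := by
        rintro r x ⟨k, μ, h⟩
        refine ⟨k, r * μ, ?_⟩
        rw [smul_eq_mul]
        push_cast
        rw [← h]
        ring }
  have hJmem : ∀ x : Λ, x ∈ J ↔ ∃ (k : ℕ) (μ : Λ), (x : F) * z * algebraMap A F τ ^ k = (μ : F) :=
    fun x => Iff.rfl
  by_cases hJ : Disjoint (J : Set Λ) (Submonoid.powers (algebraMap A Λ τ) : Set Λ)
  · exfalso
    obtain ⟨𝔓, h𝔓, hJ𝔓, hdisj⟩ :=
      Ideal.exists_le_prime_disjoint J (Submonoid.powers (algebraMap A Λ τ)) hJ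
    have hτ𝔓 : algebraMap A Λ τ ∉ 𝔓 := fun h =>
      Set.disjoint_left.mp hdisj h (Submonoid.mem_powers _)
    obtain ⟨a, b, hb, hab⟩ := hfrac z
    have hbJ : b ∈ J := (hJmem b).mpr ⟨0, a, by rw [pow_zero, mul_one, mul_comm]; exact hab⟩
    have h𝔓0 : 𝔓 ≠ ⊥ := by
      intro h
      have h1 := hJ𝔓 hbJ
      rw [h, Ideal.mem_bot] at h1
      exact hb h1
    obtain ⟨Q, hQ⟩ := hDVR 𝔓 h𝔓 h𝔓0 hτ𝔓
    obtain ⟨a', s, hs, has⟩ := hQ.2.2 z (hz Q hQ.1)
    exact hs (hJ𝔓 ((hJmem s).mpr ⟨0, a', by rw [pow_zero, mul_one, mul_comm]; exact has⟩))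
  · rw [Set.not_disjoint_iff] at hJ
    obtain ⟨x, hxJ, ⟨j, hj⟩⟩ := hJ
    obtain ⟨k, μ, h⟩ := (hJmem x).mp hxJ
    refine ⟨μ, j + k, ?_⟩
    rw [← h, ← hj]
    push_cast
    ring

/-- A place centred on `Λ` with nonzero centre is the localisation of `Λ` at its centre. -/
theorem ndl_place_of_centre (τ : A) (hτ0 : τ ≠ 0) (Λ : Subalgebra A F)
    (hDVR : ∀ 𝔓 : Ideal Λ, 𝔓.IsPrime → 𝔓 ≠ ⊥ → algebraMap A Λ τ ∉ 𝔓 →
      ∃ Q : Place K F, NdlIsLoc Λ 𝔓 Q)
    (Q : Place K F) (hc : ∀ x : Λ, (x : F) ∈ Q.toValuationSubring)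
    (h0 : ndlCentre Λ Q hc ≠ ⊥) :
    ∀ y ∈ Q.toValuationSubring, ∃ a s : Λ, s ∉ ndlCentre Λ Q hc ∧ y * (s : F) = (a : F) := by
  obtain ⟨Q', hQ'⟩ := hDVR (ndlCentre Λ Q hc) inferInstance h0
    (ndl_const_not_mem Λ Q hc τ hτ0)
  have hle : Q'.toValuationSubring ≤ Q.toValuationSubring := by
    intro y hy
    obtain ⟨a, s, hs, has⟩ := hQ'.2.2 y hy
    have hs0 : (s : F) ≠ 0 := by
      intro h
      apply hs
      have : s = 0 := Subtype.ext h
      rw [this]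
      exact Ideal.zero_mem _
    have hsord : Q.ord (s : F) = 0 := ndl_ord_of_not_mem Λ Q hc s hs
    have hsinv : (s : F)⁻¹ ∈ Q.toValuationSubring :=
      (sf_ord_nonpos_iff Q _).mp (le_of_eq hsord)
    have hy' : y = (a : F) * (s : F)⁻¹ := by
      rw [← has, mul_assoc, mul_inv_cancel₀ hs0, mul_one]
    rw [hy']
    exact mul_mem (hc a) hsinv
  have hQQ : Q' = Q := pld_eq_of_le hle
  subst hQQ
  exact hQ'.2.2

/-- Two places centred on `Λ` with comparable nonzero centres are equal. -/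
theorem ndl_centre_mono (τ : A) (hτ0 : τ ≠ 0) (Λ : Subalgebra A F)
    (hDVR : ∀ 𝔓 : Ideal Λ, 𝔓.IsPrime → 𝔓 ≠ ⊥ → algebraMap A Λ τ ∉ 𝔓 →
      ∃ Q : Place K F, NdlIsLoc Λ 𝔓 Q)
    (Q Q' : Place K F) (hc : ∀ x : Λ, (x : F) ∈ Q.toValuationSubring)
    (hc' : ∀ x : Λ, (x : F) ∈ Q'.toValuationSubring)
    (h0 : ndlCentre Λ Q hc ≠ ⊥) (hle : ndlCentre Λ Q hc ≤ ndlCentre Λ Q' hc') : Q' = Q := by
  have h0' : ndlCentre Λ Q' hc' ≠ ⊥ := by
    intro h
    rw [h, le_bot_iff] at hle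
    exact h0 hle
  apply pld_eq_of_le
  intro y hy
  obtain ⟨a, s, hs, has⟩ := ndl_place_of_centre τ hτ0 Λ hDVR Q' hc' h0' y hy
  have hs' : s ∉ ndlCentre Λ Q hc := fun h => hs (hle h)
  have hs0 : (s : F) ≠ 0 := by
    intro h
    apply hs
    have : s = 0 := Subtype.ext h
    rw [this]
    exact Ideal.zero_mem _
  have hsord : Q.ord (s : F) = 0 := ndl_ord_of_not_mem Λ Q hc s hs'
  have hsinv : (s : F)⁻¹ ∈ Q.toValuationSubring :=
    (sf_ord_nonpos_iff Q _).mp (le_of_eq hsord)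
  have hy' : y = (a : F) * (s : F)⁻¹ := by
    rw [← has, mul_assoc, mul_inv_cancel₀ hs0, mul_one]
  rw [hy']
  exact mul_mem (hc a) hsinv

/-- **Evaluation at a rational place.**  A `K`-rational place centred on the local ring `Λ`
(with `τ` in its maximal ideal) defines an `A`-point of `Λ` whose kernel is the centre. -/
theorem ndl_exists_ev (τ : A) (hτ : Irreducible τ) (Λ : Subalgebra A F) [IsLocalRing Λ]
    (hτΛ : algebraMap A Λ τ ∈ IsLocalRing.maximalIdeal Λ)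
    (Q : Place K F) (hc : ∀ x : Λ, (x : F) ∈ Q.toValuationSubring)
    (hrat : ∀ y ∈ Q.toValuationSubring,
      ∃ c : K, y - algebraMap K F c ∈ Q.toValuationSubring.nonunits) :
    ∃ ev : Λ →ₐ[A] A, ∀ y : Λ, ev y = 0 ↔ y ∈ ndlCentre Λ Q hc := by
  classical
  let ι : Λ →+* Q.toValuationSubring := ndlIncl Λ Q hc
  let jK : K →+* Q.toValuationSubring := algebraMap K Q.toValuationSubring
  let res : Q.toValuationSubring →+* IsLocalRing.ResidueField Q.toValuationSubring :=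
    IsLocalRing.residue Q.toValuationSubring
  let φ : Λ →+* IsLocalRing.ResidueField Q.toValuationSubring := res.comp ι
  let ψ : A →+* IsLocalRing.ResidueField Q.toValuationSubring :=
    (res.comp jK).comp (algebraMap A K)
  have hψinj : Function.Injective ψ :=
    (res.comp jK).injective.comp (IsFractionRing.injective A K)
  have hιA : ∀ a : A, ι (algebraMap A Λ a) = jK (algebraMap A K a) := by
    intro a
    apply Subtype.ext
    change algebraMap A F a = algebraMap K F (algebraMap A K a)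
    rw [← IsScalarTower.algebraMap_apply A K F]
  have hrange : ∀ y : Λ, ∃ a : A, ψ a = φ y := by
    intro y
    obtain ⟨c, hcy⟩ := hrat (y : F) (hc y)
    have h1 : res (ι y) = res (jK c) := by
      rw [← sub_eq_zero, ← map_sub, IsLocalRing.residue_eq_zero_iff]
      obtain ⟨hmem, hmax⟩ := (ValuationSubring.mem_nonunits_iff_exists_mem_maximalIdeal).mp hcy
      have h2 : ι y - jK c = ⟨(y : F) - algebraMap K F c, hmem⟩ := Subtype.ext rfl
      rw [h2]
      exact hmax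
    rcases eq_or_ne c 0 with rfl | hc0
    · refine ⟨0, ?_⟩
      change res (jK (algebraMap A K 0)) = res (ι y)
      rw [h1, map_zero]
    rcases ValuationRing.isInteger_or_isInteger A c with ⟨a, ha⟩ | ⟨a', ha'⟩
    · refine ⟨a, ?_⟩
      change res (jK (algebraMap A K a)) = res (ι y)
      rw [ha, h1]
    · by_cases hu : IsUnit a'
      · obtain ⟨u, rfl⟩ := hu
        refine ⟨((u⁻¹ : Aˣ) : A), ?_⟩
        have h3 : algebraMap A K ((u⁻¹ : Aˣ) : A) = c := by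
          have h4 : algebraMap A K ((u⁻¹ : Aˣ) : A) * algebraMap A K (u : A) = 1 := by
            rw [← map_mul, Units.inv_mul, map_one]
          rw [ha'] at h4
          have h5 : algebraMap A K ((u⁻¹ : Aˣ) : A) = (c⁻¹)⁻¹ :=
            eq_inv_of_mul_eq_one_left h4
          rw [h5, inv_inv]
        change res (jK (algebraMap A K ((u⁻¹ : Aˣ) : A))) = res (ι y)
        rw [h3, h1]
      · exfalso
        have ha'm : a' ∈ IsLocalRing.maximalIdeal A := hu
        rw [hτ.maximalIdeal_eq, Ideal.mem_span_singleton'] at ha'm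
        obtain ⟨a'', rfl⟩ := ha'm
        set l : Λ := y * algebraMap A Λ (a'' * τ) with hl
        have hlm : l ∈ IsLocalRing.maximalIdeal Λ := by
          rw [hl, map_mul, ← mul_assoc]
          exact Ideal.mul_mem_left _ _ hτΛ
        have hunit : IsUnit (l - 1) := by
          by_contra hnu
          have h2 : (l - 1) ∈ IsLocalRing.maximalIdeal Λ := hnu
          have h3 : (1 : Λ) ∈ IsLocalRing.maximalIdeal Λ := by
            have h4 := Ideal.sub_mem _ hlm h2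
            rwa [sub_sub_cancel] at h4
          exact (Ideal.ne_top_iff_one _).mp (IsLocalRing.maximalIdeal.isMaximal Λ).ne_top h3
        have hιunit : IsUnit (ι (l - 1)) := hunit.map ι
        have hres : res (ι (l - 1)) = 0 := by
          rw [map_sub, map_sub, map_one, map_one, sub_eq_zero, hl, map_mul, map_mul, hιA, h1,
            ha', ← map_mul, ← map_mul, mul_inv_cancel₀ hc0, map_one, map_one]
        have hmem : ι (l - 1) ∈ IsLocalRing.maximalIdeal Q.toValuationSubring :=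
          (IsLocalRing.residue_eq_zero_iff _).mp hres
        exact hmem hιunit
  choose ev₀ hev₀ using hrange
  let ev : Λ →ₐ[A] A :=
    { toFun := ev₀
      map_one' := hψinj (by rw [hev₀, map_one, map_one])
      map_mul' := fun x y => hψinj (by rw [hev₀, map_mul, map_mul, hev₀, hev₀])
      map_zero' := hψinj (by rw [hev₀, map_zero, map_zero])
      map_add' := fun x y => hψinj (by rw [hev₀, map_add, map_add, hev₀, hev₀])
      commutes' := fun a => hψinj (by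
        rw [hev₀]
        change res (ι (algebraMap A Λ a)) = res (jK (algebraMap A K a))
        rw [hιA]) }
  refine ⟨ev, fun y => ?_⟩
  have hevy : ψ (ev y) = φ y := hev₀ y
  constructor
  · intro h
    rw [h, map_zero] at hevy
    exact (IsLocalRing.residue_eq_zero_iff _).mp hevy.symm
  · intro h
    apply hψinj
    rw [hevy, map_zero]
    exact (IsLocalRing.residue_eq_zero_iff _).mpr h

/-- **A generator at a bad place.**  At a rational place `Q` centred on `Λ` with nonzero centre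
there is `g ∈ Λ` of order one at `Q` and of order zero at every other place centred on `Λ`. -/
theorem ndl_gen (τ : A) (hτ : Irreducible τ) (Λ : Subalgebra A F) [IsLocalRing Λ]
    (hτΛ : algebraMap A Λ τ ∈ IsLocalRing.maximalIdeal Λ)
    (hDVR : ∀ 𝔓 : Ideal Λ, 𝔓.IsPrime → 𝔓 ≠ ⊥ → algebraMap A Λ τ ∉ 𝔓 →
      ∃ Q : Place K F, NdlIsLoc Λ 𝔓 Q)
    (hnode : ∀ ev : Λ →ₐ[A] A, ∃ g : Λ, ev g = 0 ∧ ∃ c : A, c ≠ 0 ∧
      ∀ w : Λ, ev w = 0 → ∃ u : Λ, algebraMap A Λ c * w = g * u)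
    (Q : Place K F) (hc : ∀ x : Λ, (x : F) ∈ Q.toValuationSubring)
    (h0 : ndlCentre Λ Q hc ≠ ⊥)
    (hrat : ∀ y ∈ Q.toValuationSubring,
      ∃ c : K, y - algebraMap K F c ∈ Q.toValuationSubring.nonunits) :
    ∃ g : Λ, (g : F) ≠ 0 ∧ Q.ord (g : F) = 1 ∧
      ∀ Q' : Place K F, (∀ x : Λ, (x : F) ∈ Q'.toValuationSubring) → Q' ≠ Q →
        Q'.ord (g : F) = 0 := by
  classical
  have hτ0 : τ ≠ 0 := hτ.ne_zero
  obtain ⟨ev, hev⟩ := ndl_exists_ev τ hτ Λ hτΛ Q hc hrat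
  obtain ⟨g, hg0, c, hc0, hgen⟩ := hnode ev
  have hgcen : g ∈ ndlCentre Λ Q hc := (hev g).mp hg0
  -- a uniformiser of `Q` written as a fraction of `Λ`
  obtain ⟨ϖ, hϖ⟩ := IsDiscreteValuationRing.exists_irreducible Q.toValuationSubring
  have hϖord : Q.ord (ϖ : F) = 1 := Q.ord_coe_irreducible hϖ
  have hϖ0 : (ϖ : F) ≠ 0 := by
    intro h
    rw [h, Q.ord_zero] at hϖord
    exact zero_ne_one hϖord
  obtain ⟨a₁, s₁, hs₁, has₁⟩ := ndl_place_of_centre τ hτ0 Λ hDVR Q hc h0 (ϖ : F) ϖ.2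
  have hs₁0 : (s₁ : F) ≠ 0 := by
    intro h
    apply hs₁
    have : s₁ = 0 := Subtype.ext h
    rw [this]
    exact Ideal.zero_mem _
  have hs₁ord : Q.ord (s₁ : F) = 0 := ndl_ord_of_not_mem Λ Q hc s₁ hs₁
  have ha₁0 : (a₁ : F) ≠ 0 := by rw [← has₁]; exact mul_ne_zero hϖ0 hs₁0
  have ha₁ord : Q.ord (a₁ : F) = 1 := by
    rw [← has₁, Q.ord_mul hϖ0 hs₁0, hϖord, hs₁ord, add_zero]
  have ha₁cen : a₁ ∈ ndlCentre Λ Q hc :=
    (ndl_mem_centre_ord Λ Q hc a₁).mpr (Or.inr (by rw [ha₁ord]; exact one_pos))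
  obtain ⟨u, hu⟩ := hgen a₁ ((hev a₁).mpr ha₁cen)
  have huF : algebraMap A F c * (a₁ : F) = (g : F) * (u : F) := by
    have := congrArg (fun x : Λ => (x : F)) hu
    exact this
  have hcF0 : algebraMap A F c ≠ 0 := ndl_const_ne_zero K c hc0
  have hgu0 : (g : F) * (u : F) ≠ 0 := by rw [← huF]; exact mul_ne_zero hcF0 ha₁0
  have hgF0 : (g : F) ≠ 0 := left_ne_zero_of_mul hgu0
  have huF0 : (u : F) ≠ 0 := right_ne_zero_of_mul hgu0
  have hgord1 : 0 < Q.ord (g : F) := by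
    rcases (ndl_mem_centre_ord Λ Q hc g).mp hgcen with h | h
    · exact absurd (by rw [h]; rfl) hgF0
    · exact h
  have huord : 0 ≤ Q.ord (u : F) := (sf_ord_nonneg_iff Q _).mpr (hc u)
  have hsum : Q.ord (algebraMap A F c) + Q.ord (a₁ : F) = Q.ord (g : F) + Q.ord (u : F) := by
    rw [← Q.ord_mul hcF0 ha₁0, ← Q.ord_mul hgF0 huF0, huF]
  rw [ndl_ord_const, ha₁ord] at hsum
  refine ⟨g, hgF0, by omega, ?_⟩
  intro Q' hc' hne
  have h1 : 0 ≤ Q'.ord (g : F) := (sf_ord_nonneg_iff Q' _).mpr (hc' g)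
  by_contra hne0
  have hpos : 0 < Q'.ord (g : F) := by omega
  have hgcen' : g ∈ ndlCentre Λ Q' hc' := (ndl_mem_centre_ord Λ Q' hc' g).mpr (Or.inr hpos)
  have hle : ndlCentre Λ Q hc ≤ ndlCentre Λ Q' hc' := by
    intro w hw
    obtain ⟨u', hu'⟩ := hgen w ((hev w).mpr hw)
    have h2 : algebraMap A Λ c * w ∈ ndlCentre Λ Q' hc' := by
      rw [hu']
      exact Ideal.mul_mem_right _ _ hgcen'
    rcases (ndlCentre_isPrime Λ Q' hc').mem_or_mem h2 with h3 | h3
    · exact absurd h3 (ndl_const_not_mem Λ Q' hc' c hc0)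
    · exact h3
  exact hne (ndl_centre_mono τ hτ0 Λ hDVR Q Q' hc hc' h0 hle)

/-- **(LOC) at a crossing point**, local form: `f₀ / g ^ m` is a unit of `Λ[1/τ]`. -/
theorem ndl_main (τ : A) (hτ : Irreducible τ) (Λ : Subalgebra A F) [IsLocalRing Λ]
    [IsNoetherianRing Λ] (hτΛ : algebraMap A Λ τ ∈ IsLocalRing.maximalIdeal Λ)
    (hfrac : ∀ x : F, ∃ a b : Λ, b ≠ 0 ∧ x * (b : F) = (a : F))
    (hDVR : ∀ 𝔓 : Ideal Λ, 𝔓.IsPrime → 𝔓 ≠ ⊥ → algebraMap A Λ τ ∉ 𝔓 →
      ∃ Q : Place K F, NdlIsLoc Λ 𝔓 Q)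
    (m : ℕ) (f₀ : F) (hf₀ : f₀ ≠ 0)
    (hpl : ∀ Q : Place K F, (m : ℤ) ∣ Q.ord f₀)
    (hrat : ∀ Q : Place K F, Q.ord f₀ ≠ 0 → ∀ y ∈ Q.toValuationSubring,
      ∃ c : K, y - algebraMap K F c ∈ Q.toValuationSubring.nonunits)
    (hnode : ∀ ev : Λ →ₐ[A] A, ∃ g : Λ, ev g = 0 ∧ ∃ c : A, c ≠ 0 ∧
      ∀ w : Λ, ev w = 0 → ∃ u : Λ, algebraMap A Λ c * w = g * u) :
    ∃ g : F, g ≠ 0 ∧ ∃ (a b : Λ) (k l : ℕ),
      f₀ * algebraMap A F τ ^ k = (a : F) * g ^ m ∧
      g ^ m * algebraMap A F τ ^ l = (b : F) * f₀ := by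
  classical
  have hτ0 : τ ≠ 0 := hτ.ne_zero
  obtain ⟨a, b, hb, hab⟩ := hfrac f₀
  have hbF : (b : F) ≠ 0 := fun h => hb (Subtype.ext h)
  have haF : (a : F) ≠ 0 := by rw [← hab]; exact mul_ne_zero hf₀ hbF
  have ha : a ≠ 0 := fun h => haF (by rw [h]; rfl)
  have hab0 : a * b ≠ 0 := mul_ne_zero ha hb
  -- the bad places
  let 𝒬 : Set (Place K F) := {Q | (∀ x : Λ, (x : F) ∈ Q.toValuationSubring) ∧ Q.ord f₀ ≠ 0}
  let cen : Place K F → Ideal Λ := fun Q =>
    if hc : ∀ x : Λ, (x : F) ∈ Q.toValuationSubring then ndlCentre Λ Q hc else ⊥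
  have hcen : ∀ (Q : Place K F) (hc : ∀ x : Λ, (x : F) ∈ Q.toValuationSubring),
      cen Q = ndlCentre Λ Q hc := fun Q hc => dif_pos hc
  have hab_mem : ∀ (Q : Place K F) (hc : ∀ x : Λ, (x : F) ∈ Q.toValuationSubring), Q.ord f₀ ≠ 0 →
      a * b ∈ ndlCentre Λ Q hc := by
    intro Q hc hord
    by_contra hnot
    have ha' : a ∉ ndlCentre Λ Q hc := fun h => hnot (Ideal.mul_mem_right _ _ h)
    have hb' : b ∉ ndlCentre Λ Q hc := fun h => hnot (Ideal.mul_mem_left _ _ h)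
    have h1 := ndl_ord_of_not_mem Λ Q hc a ha'
    have h2 := ndl_ord_of_not_mem Λ Q hc b hb'
    have h3 : Q.ord f₀ + Q.ord (b : F) = Q.ord (a : F) := by
      rw [← Q.ord_mul hf₀ hbF, hab]
    omega
  have hcen0 : ∀ (Q : Place K F) (hc : ∀ x : Λ, (x : F) ∈ Q.toValuationSubring), Q.ord f₀ ≠ 0 →
      ndlCentre Λ Q hc ≠ ⊥ := by
    intro Q hc hord h
    have h1 := hab_mem Q hc hord
    rw [h, Ideal.mem_bot] at h1
    exact hab0 h1
  -- finiteness of the set of bad places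
  have hfin : 𝒬.Finite := by
    have himg : (cen '' 𝒬) ⊆ (Ideal.span {a * b}).minimalPrimes := by
      rintro _ ⟨Q, ⟨hc, hord⟩, rfl⟩
      rw [hcen Q hc]
      refine ⟨⟨inferInstance, ?_⟩, ?_⟩
      · rw [Ideal.span_singleton_le_iff_mem]
        exact hab_mem Q hc hord
      · rintro q ⟨hq, hqle⟩ hqcen
        have habq : a * b ∈ q := hqle (Ideal.mem_span_singleton_self _)
        have hq0 : q ≠ ⊥ := by
          intro h
          rw [h, Ideal.mem_bot] at habq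
          exact hab0 habq
        have hτq : algebraMap A Λ τ ∉ q := fun h =>
          ndl_const_not_mem Λ Q hc τ hτ0 (hqcen h)
        obtain ⟨Q'', hQ''⟩ := hDVR q hq hq0 hτq
        have hqeq : q = ndlCentre Λ Q'' hQ''.1 := ndl_isLoc_centre Λ q Q'' hQ''
        have h0'' : ndlCentre Λ Q'' hQ''.1 ≠ ⊥ := by rw [← hqeq]; exact hq0
        have hle'' : ndlCentre Λ Q'' hQ''.1 ≤ ndlCentre Λ Q hc := by rw [← hqeq]; exact hqcen
        have hQQ : Q = Q'' := ndl_centre_mono τ hτ0 Λ hDVR Q'' Q hQ''.1 hc h0'' hle''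
        subst hQQ
        rw [hqeq]
    have hinj : Set.InjOn cen 𝒬 := by
      rintro Q₁ ⟨hc₁, hord₁⟩ Q₂ ⟨hc₂, hord₂⟩ h
      rw [hcen Q₁ hc₁, hcen Q₂ hc₂] at h
      exact (ndl_centre_mono τ hτ0 Λ hDVR Q₁ Q₂ hc₁ hc₂ (hcen0 Q₁ hc₁ hord₁) (le_of_eq h)).symm
    exact Set.Finite.of_finite_image
      ((Ideal.finite_minimalPrimes_of_isNoetherianRing Λ _).subset himg) hinj
  -- generators at the bad places
  have hgenex : ∀ Q : Place K F, Q ∈ 𝒬 → ∃ g : Λ, (g : F) ≠ 0 ∧ Q.ord (g : F) = 1 ∧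
      ∀ Q' : Place K F, (∀ x : Λ, (x : F) ∈ Q'.toValuationSubring) → Q' ≠ Q →
        Q'.ord (g : F) = 0 := by
    rintro Q ⟨hc, hord⟩
    exact ndl_gen τ hτ Λ hτΛ hDVR hnode Q hc (hcen0 Q hc hord) (hrat Q hord)
  choose! g hg using hgenex
  let S : Finset (Place K F) := hfin.toFinset
  let e : Place K F → ℤ := fun Q => Q.ord f₀ / (m : ℤ)
  have he : ∀ Q, (m : ℤ) * e Q = Q.ord f₀ := fun Q => Int.mul_ediv_cancel' (hpl Q)
  let G : F := ∏ Q ∈ S, ((g Q : Λ) : F) ^ e Q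
  have hgS : ∀ Q ∈ S, ((g Q : Λ) : F) ≠ 0 := fun Q hQ =>
    (hg Q (hfin.mem_toFinset.mp hQ)).1
  have hG0 : G ≠ 0 := by
    rw [Finset.prod_ne_zero_iff]
    intro Q hQ
    exact zpow_ne_zero _ (hgS Q hQ)
  have hGord : ∀ Q' : Place K F, (∀ x : Λ, (x : F) ∈ Q'.toValuationSubring) →
      (m : ℤ) * Q'.ord G = Q'.ord f₀ := by
    intro Q' hc'
    rw [ndl_ord_prod_zpow Q' S (fun Q => ((g Q : Λ) : F)) e hgS]
    by_cases hQ' : Q' ∈ 𝒬
    · rw [Finset.sum_eq_single Q']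
      · rw [(hg Q' hQ').2.1, mul_one, he]
      · intro Q hQ hne
        rw [(hg Q (hfin.mem_toFinset.mp hQ)).2.2 Q' hc' (Ne.symm hne), mul_zero]
      · intro h
        exact absurd (hfin.mem_toFinset.mpr hQ') h
    · have h0 : Q'.ord f₀ = 0 := by
        by_contra h
        exact hQ' ⟨hc', h⟩
      rw [h0, Finset.sum_eq_zero, mul_zero]
      intro Q hQ
      have hne : Q' ≠ Q := fun h => hQ' (h ▸ hfin.mem_toFinset.mp hQ)
      rw [(hg Q (hfin.mem_toFinset.mp hQ)).2.2 Q' hc' hne, mul_zero]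
  have hGm0 : G ^ m ≠ 0 := pow_ne_zero _ hG0
  have hGmord : ∀ Q' : Place K F, Q'.ord (G ^ m) = (m : ℤ) * Q'.ord G := by
    intro Q'
    rw [← zpow_natCast, Q'.ord_zpow]
  have hz1 : ∀ Q' : Place K F, (∀ x : Λ, (x : F) ∈ Q'.toValuationSubring) →
      f₀ * (G ^ m)⁻¹ ∈ Q'.toValuationSubring := by
    intro Q' hc'
    rw [← sf_ord_nonneg_iff, Q'.ord_mul hf₀ (inv_ne_zero hGm0), Q'.ord_inv, hGmord,
      hGord Q' hc']
    omega
  have hz2 : ∀ Q' : Place K F, (∀ x : Λ, (x : F) ∈ Q'.toValuationSubring) →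
      G ^ m * f₀⁻¹ ∈ Q'.toValuationSubring := by
    intro Q' hc'
    rw [← sf_ord_nonneg_iff, Q'.ord_mul hGm0 (inv_ne_zero hf₀), Q'.ord_inv, hGmord,
      hGord Q' hc']
    omega
  obtain ⟨l₁, k₁, h1⟩ := ndl_int τ Λ hfrac hDVR _ hz1
  obtain ⟨l₂, k₂, h2⟩ := ndl_int τ Λ hfrac hDVR _ hz2
  refine ⟨G, hG0, l₁, l₂, k₁, k₂, ?_, ?_⟩
  · rw [← h1]
    field_simp
  · rw [← h2]
    field_simp

/-- **(LOC) at a crossing point**, in the shape of the hypothesis `hloc` of `ulo_main`: `O` a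
chart, `𝔫` a maximal ideal, `Λ` the local ring of `O` at `𝔫` inside `F`. -/
theorem ndl_chart (τ : A) (hτ : Irreducible τ) (O : Subalgebra A F) (𝔫 : Ideal O)
    (Λ : Subalgebra A F) [IsLocalRing Λ]
    [IsNoetherianRing Λ] (hτΛ : algebraMap A Λ τ ∈ IsLocalRing.maximalIdeal Λ)
    (hΛ : ∀ y : Λ, ∃ a s : O, s ∉ 𝔫 ∧ (y : F) * (s : F) = (a : F))
    (hfrac : ∀ x : F, ∃ a b : Λ, b ≠ 0 ∧ x * (b : F) = (a : F))
    (hDVR : ∀ 𝔓 : Ideal Λ, 𝔓.IsPrime → 𝔓 ≠ ⊥ → algebraMap A Λ τ ∉ 𝔓 →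
      ∃ Q : Place K F, NdlIsLoc Λ 𝔓 Q)
    (m : ℕ) (f₀ : F) (hf₀ : f₀ ≠ 0)
    (hpl : ∀ Q : Place K F, (m : ℤ) ∣ Q.ord f₀)
    (hrat : ∀ Q : Place K F, Q.ord f₀ ≠ 0 → ∀ y ∈ Q.toValuationSubring,
      ∃ c : K, y - algebraMap K F c ∈ Q.toValuationSubring.nonunits)
    (hnode : ∀ ev : Λ →ₐ[A] A, ∃ g : Λ, ev g = 0 ∧ ∃ c : A, c ≠ 0 ∧
      ∀ w : Λ, ev w = 0 → ∃ u : Λ, algebraMap A Λ c * w = g * u) :
    ∃ g : F, g ≠ 0 ∧ ∃ (a b s s' : O) (k l : ℕ), s ∉ 𝔫 ∧ s' ∉ 𝔫 ∧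
      f₀ * (s : F) * algebraMap A F τ ^ k = (a : F) * g ^ m ∧
      g ^ m * (s' : F) * algebraMap A F τ ^ l = (b : F) * f₀ := by
  obtain ⟨g, hg, a, b, k, l, h1, h2⟩ :=
    ndl_main τ hτ Λ hτΛ hfrac hDVR m f₀ hf₀ hpl hrat hnode
  obtain ⟨a', s, hs, has⟩ := hΛ a
  obtain ⟨b', s', hs', hbs⟩ := hΛ b
  refine ⟨g, hg, a', b', s, s', k, l, hs, hs', ?_, ?_⟩
  · rw [← has]
    calc f₀ * (s : F) * algebraMap A F τ ^ k = (f₀ * algebraMap A F τ ^ k) * (s : F) := by ring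
      _ = (a : F) * g ^ m * (s : F) := by rw [h1]
      _ = (a : F) * (s : F) * g ^ m := by ring
  · rw [← hbs]
    calc g ^ m * (s' : F) * algebraMap A F τ ^ l = (g ^ m * algebraMap A F τ ^ l) * (s' : F) := by
          ring
      _ = (b : F) * f₀ * (s' : F) := by rw [h2]
      _ = (b : F) * (s' : F) * f₀ := by ring

end NodeLoc

end Fermat.Agent.S34
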