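import Mathlib
import Fermat.Prelude.Def_AlgebraicCurve_DivisorClassGroup
import Fermat.Agent.S34.NodeLoc
import Fermat.Agent.S34.LocNodeInst

/-!
# S34, leaf LOC-RING: the local ring of a chart at a closed point, inside the function field

`O : Subalgebra A F` a chart, `𝔫` a prime ideal of `O`.

* `ndrLoc O 𝔫 : Subalgebra A F` := `{x | ∃ a s : O, s ∉ 𝔫 ∧ x * s = a}`, with the inclusion
  `Algebra ↥O ↥(ndrLoc O 𝔫)`; it is a localization of `O` at `𝔫` (`IsLocalization.AtPrime`),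
  hence a local ring, noetherian if `O` is.
* `ndr_maximalIdeal`, `ndr_mem_maximalIdeal_iff`, `ndr_tau_mem`, `ndr_hΛ`, `ndr_hfrac`.
* `ndr_hDVR`: the hypothesis `hDVR` of `ndl_chart` for `ndrLoc O 𝔫` from the conclusion of
  `hzp_main` for `O`.
* `ndr_ev`: an `A`-point `ev : O → A` local at `𝔫`, given with its place `V` (the data that
  `lnd_main_pl` hands to its hypothesis `hgam`), extends to an `A`-point `evΛ` of `ndrLoc O 𝔫`
  with the same place; and the conclusion of `nda_main` for `evΛ` gives the conclusion of `hgam`.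
-/

set_option autoImplicit false

open AlgebraicCurve IsLocalRing

namespace Fermat.Agent.S34

section Def

variable {A F : Type*} [CommRing A] [Field F] [Algebra A F]

/-- The localization of the chart `O` at the prime `𝔫`, as a subalgebra of `F`. -/
def ndrLoc (O : Subalgebra A F) (𝔫 : Ideal ↥O) [h𝔫 : 𝔫.IsPrime] : Subalgebra A F where
  carrier := {x | ∃ a s : ↥O, s ∉ 𝔫 ∧ x * (s : F) = (a : F)}
  mul_mem' := by
    rintro x y ⟨a, s, hs, h1⟩ ⟨b, r, hr, h2⟩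
    refine ⟨a * b, s * r, fun h => (h𝔫.mem_or_mem h).elim hs hr, ?_⟩
    rw [Subalgebra.coe_mul, Subalgebra.coe_mul, ← h1, ← h2]; ring
  add_mem' := by
    rintro x y ⟨a, s, hs, h1⟩ ⟨b, r, hr, h2⟩
    refine ⟨a * r + b * s, s * r, fun h => (h𝔫.mem_or_mem h).elim hs hr, ?_⟩
    rw [Subalgebra.coe_add, Subalgebra.coe_mul, Subalgebra.coe_mul, Subalgebra.coe_mul,
      ← h1, ← h2]; ring
  algebraMap_mem' := fun c =>
    ⟨algebraMap A ↥O c, 1, fun h => h𝔫.ne_top ((Ideal.eq_top_iff_one 𝔫).mpr h), by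
      rw [Subalgebra.coe_one, mul_one, Subalgebra.coe_algebraMap]⟩

variable (O : Subalgebra A F) (𝔫 : Ideal ↥O) [h𝔫 : 𝔫.IsPrime]

theorem ndr_mem_iff (x : F) :
    x ∈ ndrLoc O 𝔫 ↔ ∃ a s : ↥O, s ∉ 𝔫 ∧ x * (s : F) = (a : F) := Iff.rfl

theorem ndr_le : O ≤ ndrLoc O 𝔫 := fun x hx =>
  ⟨⟨x, hx⟩, 1, fun h => h𝔫.ne_top ((Ideal.eq_top_iff_one 𝔫).mpr h), by
    rw [Subalgebra.coe_one, mul_one]⟩

/-- The inclusion of the chart into its local ring. -/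
instance ndrAlgebra : Algebra ↥O ↥(ndrLoc O 𝔫) :=
  (Subalgebra.inclusion (ndr_le O 𝔫)).toRingHom.toAlgebra

theorem ndr_coe_algebraMap (x : ↥O) : ((algebraMap ↥O ↥(ndrLoc O 𝔫) x : ↥(ndrLoc O 𝔫)) : F)
    = (x : F) := rfl

instance ndrIsScalarTower : IsScalarTower A ↥O ↥(ndrLoc O 𝔫) :=
  IsScalarTower.of_algebraMap_eq fun _ => rfl

theorem ndr_algebraMap_injective : Function.Injective (algebraMap ↥O ↥(ndrLoc O 𝔫)) := by
  intro x y h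
  exact Subtype.ext (congrArg (fun z : ↥(ndrLoc O 𝔫) => (z : F)) h)

/-- The hypothesis `hΛ` of `ndl_chart`. -/
theorem ndr_hΛ (y : ↥(ndrLoc O 𝔫)) : ∃ a s : ↥O, s ∉ 𝔫 ∧ (y : F) * (s : F) = (a : F) := y.2

theorem ndr_inv_mem (s : ↥O) (hs : s ∉ 𝔫) : (s : F)⁻¹ ∈ ndrLoc O 𝔫 := by
  have hs0 : (s : F) ≠ 0 := by
    intro h
    have : s = 0 := Subtype.ext h
    exact hs (this ▸ 𝔫.zero_mem)
  exact ⟨1, s, hs, by rw [Subalgebra.coe_one, inv_mul_cancel₀ hs0]⟩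

instance ndrIsLocalization : IsLocalization.AtPrime ↥(ndrLoc O 𝔫) 𝔫 where
  map_units := by
    rintro ⟨s, hs⟩
    have hs0 : (s : F) ≠ 0 := by
      intro h
      have : s = 0 := Subtype.ext h
      exact hs (this ▸ 𝔫.zero_mem)
    refine IsUnit.of_mul_eq_one (⟨(s : F)⁻¹, ndr_inv_mem O 𝔫 s hs⟩ : ↥(ndrLoc O 𝔫)) ?_
    apply Subtype.ext
    show (s : F) * (s : F)⁻¹ = 1
    exact mul_inv_cancel₀ hs0
  surj := by
    rintro ⟨z, a, s, hs, h⟩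
    exact ⟨(a, ⟨s, hs⟩), Subtype.ext h⟩
  exists_of_eq := by
    intro x y h
    exact ⟨1, by rw [ndr_algebraMap_injective O 𝔫 h]⟩

instance ndrIsLocalRing : IsLocalRing ↥(ndrLoc O 𝔫) :=
  IsLocalization.AtPrime.isLocalRing ↥(ndrLoc O 𝔫) 𝔫

instance ndrIsNoetherianRing [IsNoetherianRing ↥O] : IsNoetherianRing ↥(ndrLoc O 𝔫) :=
  IsLocalization.isNoetherianRing 𝔫.primeCompl ↥(ndrLoc O 𝔫) inferInstance

/-- The maximal ideal of the local ring is generated by the image of `𝔫`. -/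
theorem ndr_maximalIdeal :
    maximalIdeal ↥(ndrLoc O 𝔫) = Ideal.map (algebraMap ↥O ↥(ndrLoc O 𝔫)) 𝔫 :=
  (IsLocalization.AtPrime.map_eq_maximalIdeal 𝔫 ↥(ndrLoc O 𝔫)).symm

theorem ndr_algebraMap_mem_maximalIdeal_iff (x : ↥O) :
    algebraMap ↥O ↥(ndrLoc O 𝔫) x ∈ maximalIdeal ↥(ndrLoc O 𝔫) ↔ x ∈ 𝔫 :=
  IsLocalization.AtPrime.to_map_mem_maximal_iff ↥(ndrLoc O 𝔫) 𝔫 x

theorem ndr_isUnit_algebraMap (s : ↥O) (hs : s ∉ 𝔫) :
    IsUnit (algebraMap ↥O ↥(ndrLoc O 𝔫) s) :=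
  IsLocalization.map_units ↥(ndrLoc O 𝔫) (⟨s, hs⟩ : 𝔫.primeCompl)

/-- Elementwise description of the maximal ideal. -/
theorem ndr_mem_maximalIdeal_iff (x : ↥(ndrLoc O 𝔫)) :
    x ∈ maximalIdeal ↥(ndrLoc O 𝔫) ↔
      ∃ a s : ↥O, a ∈ 𝔫 ∧ s ∉ 𝔫 ∧ (x : F) * (s : F) = (a : F) := by
  constructor
  · intro hx
    obtain ⟨a, s, hs, h⟩ := x.2
    refine ⟨a, s, ?_, hs, h⟩
    rw [← ndr_algebraMap_mem_maximalIdeal_iff O 𝔫]
    have h1 : algebraMap ↥O ↥(ndrLoc O 𝔫) a = x * algebraMap ↥O ↥(ndrLoc O 𝔫) s :=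
      Subtype.ext h.symm
    rw [h1]
    exact Ideal.mul_mem_right _ _ hx
  · rintro ⟨a, s, ha, hs, h⟩
    have h1 : x * algebraMap ↥O ↥(ndrLoc O 𝔫) s = algebraMap ↥O ↥(ndrLoc O 𝔫) a :=
      Subtype.ext h
    have h2 : x * algebraMap ↥O ↥(ndrLoc O 𝔫) s ∈ maximalIdeal ↥(ndrLoc O 𝔫) := by
      rw [h1]; exact (ndr_algebraMap_mem_maximalIdeal_iff O 𝔫 a).mpr ha
    exact (Ideal.mul_unit_mem_iff_mem _ (ndr_isUnit_algebraMap O 𝔫 s hs)).mp h2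

theorem ndr_tau_mem (τ : A) (hτ : algebraMap A ↥O τ ∈ 𝔫) :
    algebraMap A ↥(ndrLoc O 𝔫) τ ∈ maximalIdeal ↥(ndrLoc O 𝔫) := by
  rw [IsScalarTower.algebraMap_apply A ↥O ↥(ndrLoc O 𝔫)]
  exact (ndr_algebraMap_mem_maximalIdeal_iff O 𝔫 _).mpr hτ

/-- The hypothesis `hfrac` of `ndl_chart` from the chart `hfrac`. -/
theorem ndr_hfrac (hfrac : ∀ x : F, ∃ a ∈ O, ∃ s ∈ O, s ≠ 0 ∧ x * s = a) (x : F) :
    ∃ a b : ↥(ndrLoc O 𝔫), b ≠ 0 ∧ x * (b : F) = (a : F) := by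
  obtain ⟨a, ha, s, hs, hs0, h⟩ := hfrac x
  exact ⟨⟨a, ndr_le O 𝔫 ha⟩, ⟨s, ndr_le O 𝔫 hs⟩, fun h0 => hs0 (congrArg Subtype.val h0), h⟩

end Def

/-! ### Horizontal primes of the local ring are places -/

section DVR

variable {A K F : Type*} [CommRing A] [Field K] [Field F] [Algebra A F] [Algebra K F]

/-- The hypothesis `hDVR` of `ndl_chart` for the local ring `ndrLoc O 𝔫`, from the conclusion
of `hzp_main` for the chart `O`. -/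
theorem ndr_hDVR (τ : A) (O : Subalgebra A F) (𝔫 : Ideal ↥O) [h𝔫 : 𝔫.IsPrime]
    (hpl : ∀ P : Ideal ↥O, P.IsPrime → P ≠ ⊥ → algebraMap A ↥O τ ∉ P →
      ∃ V : ValuationSubring F, IsPrincipalIdealRing V ∧ V ≠ ⊤ ∧
        (∀ c : K, algebraMap K F c ∈ V) ∧ (algebraMap A F τ)⁻¹ ∈ V ∧
        (∀ x ∈ O, x ∈ V) ∧ (∀ x : ↥O, (x : F) ∈ V.nonunits ↔ x ∈ P) ∧
        ∀ x ∈ V, ∃ s : ↥O, s ∉ P ∧ (s : F) * x ∈ O)
    (𝔓 : Ideal ↥(ndrLoc O 𝔫)) (h𝔓 : 𝔓.IsPrime) (h𝔓0 : 𝔓 ≠ ⊥)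
    (hτ𝔓 : algebraMap A ↥(ndrLoc O 𝔫) τ ∉ 𝔓) :
    ∃ Q : Place K F, NdlIsLoc (ndrLoc O 𝔫) 𝔓 Q := by
  set P : Ideal ↥O := 𝔓.comap (algebraMap ↥O ↥(ndrLoc O 𝔫)) with hP
  have hPprime : P.IsPrime := Ideal.comap_isPrime _ 𝔓
  have hmemP : ∀ a : ↥O, a ∈ P ↔ algebraMap ↥O ↥(ndrLoc O 𝔫) a ∈ 𝔓 := fun a => Iff.rfl
  -- `P ≤ 𝔫`
  have hP𝔫 : P ≤ 𝔫 := by
    intro a ha
    have h1 : algebraMap ↥O ↥(ndrLoc O 𝔫) a ∈ maximalIdeal ↥(ndrLoc O 𝔫) :=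
      IsLocalRing.le_maximalIdeal h𝔓.ne_top ((hmemP a).mp ha)
    exact (ndr_algebraMap_mem_maximalIdeal_iff O 𝔫 a).mp h1
  -- `P ≠ ⊥`
  have hP0 : P ≠ ⊥ := by
    obtain ⟨x, hx𝔓, hx0⟩ := Submodule.exists_mem_ne_zero_of_ne_bot h𝔓0
    obtain ⟨a, s, hs, h⟩ := x.2
    have h1 : algebraMap ↥O ↥(ndrLoc O 𝔫) a = x * algebraMap ↥O ↥(ndrLoc O 𝔫) s :=
      Subtype.ext h.symm
    have haP : a ∈ P := by
      rw [hmemP, h1]; exact 𝔓.mul_mem_right _ hx𝔓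
    intro hbot
    rw [hbot, Ideal.mem_bot] at haP
    have hs0 : (s : F) ≠ 0 := by
      intro h0
      have : s = 0 := Subtype.ext h0
      exact hs (this ▸ 𝔫.zero_mem)
    have hx0' : (x : F) ≠ 0 := fun h0 => hx0 (Subtype.ext h0)
    have h2 : (a : F) = 0 := by rw [haP]; rfl
    rw [h2] at h
    exact (mul_ne_zero hx0' hs0) h
  have hτP : algebraMap A ↥O τ ∉ P := by
    intro h
    apply hτ𝔓
    rw [IsScalarTower.algebraMap_apply A ↥O ↥(ndrLoc O 𝔫)]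
    exact (hmemP _).mp h
  obtain ⟨V, hVpir, hVtop, hKV, -, hOV, hcen, hloc⟩ := hpl P hPprime hP0 hτP
  -- elements of `O` outside `𝔫` are units of `V`
  have hunit : ∀ s : ↥O, s ∉ 𝔫 → lndU V (s : F) := fun s hs =>
    lndU_of_mem V (hOV _ s.2) fun h => hs (hP𝔫 ((hcen s).mp h))
  refine ⟨⟨V, hKV, hVtop, hVpir⟩, ?_, ?_, ?_⟩
  · intro x
    obtain ⟨a, s, hs, h⟩ := x.2
    have hs0 := lndU_ne_zero V (hunit s hs)
    have h1 : (x : F) = (a : F) * (s : F)⁻¹ := by rw [← h]; field_simp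
    show (x : F) ∈ V
    rw [h1]
    exact V.mul_mem _ _ (hOV _ a.2) (lndU_mem V (lndU_inv V (hunit s hs)))
  · intro x
    obtain ⟨a, s, hs, h⟩ := x.2
    have h1 : x * algebraMap ↥O ↥(ndrLoc O 𝔫) s = algebraMap ↥O ↥(ndrLoc O 𝔫) a :=
      Subtype.ext h
    have hsu := ndr_isUnit_algebraMap O 𝔫 s hs
    show x ∈ 𝔓 ↔ (x : F) ∈ V.nonunits
    constructor
    · intro hx
      have haP : a ∈ P := by
        rw [hmemP, ← h1]; exact 𝔓.mul_mem_right _ hx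
      have h2 : (a : F) ∈ V.nonunits := (hcen a).mpr haP
      rw [← h, mul_comm] at h2
      exact lnd_nu_of_unit_mul V (hunit s hs) h2
    · intro hx
      have h2 : (a : F) ∈ V.nonunits := by
        rw [← h, mul_comm]; exact lnd_nu_mul V (hOV _ s.2) hx
      have haP : a ∈ P := (hcen a).mp h2
      have h3 : x * algebraMap ↥O ↥(ndrLoc O 𝔫) s ∈ 𝔓 := by rw [h1]; exact (hmemP a).mp haP
      exact (Ideal.mul_unit_mem_iff_mem _ hsu).mp h3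
  · intro y hy
    obtain ⟨s, hs, hsy⟩ := hloc y hy
    refine ⟨⟨(s : F) * y, ndr_le O 𝔫 hsy⟩, algebraMap ↥O ↥(ndrLoc O 𝔫) s,
      fun h => hs ((hmemP s).mpr h), ?_⟩
    show y * (s : F) = (s : F) * y
    exact mul_comm _ _

end DVR

/-! ### `A`-points of the local ring -/

section Ev

variable {A F : Type*} [CommRing A] [IsLocalRing A] [Field F] [Algebra A F]

/-- An `A`-point `ev` of the chart which is local at `𝔫`, given with its place `V`, extends to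
an `A`-point `evΛ` of the local ring `ndrLoc O 𝔫` with the same place, and the conclusion of
`nda_main` for `evΛ` gives the conclusion of the hypothesis `hgam` of `lnd_main_pl` for `ev`. -/
theorem ndr_ev (O : Subalgebra A F) (𝔫 : Ideal ↥O) [h𝔫 : 𝔫.IsMaximal]
    (ev : ↥O →ₐ[A] A) (V : ValuationSubring F) (hOV : ∀ x ∈ O, x ∈ V)
    (hVO : ∀ x ∈ V, ∃ s : ↥O, ev s ≠ 0 ∧ (s : F) * x ∈ O)
    (hev : ∀ y : ↥O, (y : F) - algebraMap A F (ev y) ∈ V.nonunits)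
    (hloc : ∀ x ∈ 𝔫, ¬ IsUnit (ev x)) :
    ∃ evΛ : ↥(ndrLoc O 𝔫) →ₐ[A] A,
      (∀ x : ↥O, evΛ (algebraMap ↥O ↥(ndrLoc O 𝔫) x) = ev x) ∧
      (∀ y : ↥(ndrLoc O 𝔫), (y : F) ∈ V) ∧
      (∀ y : ↥(ndrLoc O 𝔫), (y : F) - algebraMap A F (evΛ y) ∈ V.nonunits) ∧
      (∀ x ∈ V, ∃ s : ↥(ndrLoc O 𝔫), evΛ s ≠ 0 ∧ (s : F) * x ∈ ndrLoc O 𝔫) ∧
      ((∃ g : ↥(ndrLoc O 𝔫), evΛ g = 0 ∧ ∃ c : A, c ≠ 0 ∧
          ∀ w : ↥(ndrLoc O 𝔫), evΛ w = 0 →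
            ∃ u : ↥(ndrLoc O 𝔫), algebraMap A ↥(ndrLoc O 𝔫) c * w = g * u) →
        ∃ g : ↥O, ev g = 0 ∧ ∃ c : A, c ≠ 0 ∧ ∀ w : ↥O, ev w = 0 →
          ∃ s u : ↥O, s ∉ 𝔫 ∧ algebraMap A ↥O c * (s * w) = g * u) := by
  have hprime : 𝔫.IsPrime := h𝔫.isPrime
  obtain ⟨evΛ, hevΛ, htr⟩ := lni_gam_one O 𝔫 ↥(ndrLoc O 𝔫) ev hloc
  have hAV : ∀ a : A, algebraMap A F a ∈ V := fun a => hOV _ (O.algebraMap_mem a)
  -- `ev` inverts the complement of `𝔫`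
  have hunitA : ∀ s : ↥O, s ∉ 𝔫 → IsUnit (ev s) := by
    intro s hs
    obtain ⟨r, n, hn, hrn⟩ := h𝔫.exists_inv hs
    have h1 : ev r * ev s + ev n = 1 := by rw [← map_mul, ← map_add, hrn, map_one]
    rcases IsLocalRing.isUnit_or_isUnit_of_add_one h1 with h | h
    · exact isUnit_of_mul_isUnit_right h
    · exact absurd h (hloc n hn)
  -- units of `A` are units of `V`
  have huV : ∀ a : A, IsUnit a → lndU V (algebraMap A F a) := by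
    rintro a ⟨u, rfl⟩
    have h1 : algebraMap A F (u : A) * algebraMap A F ((u⁻¹ : Aˣ) : A) = 1 := by
      rw [← map_mul, Units.mul_inv, map_one]
    have h2 : (algebraMap A F (u : A))⁻¹ = algebraMap A F ((u⁻¹ : Aˣ) : A) :=
      inv_eq_of_mul_eq_one_right h1
    refine lndU_of_mem_inv V (hAV _) (by rw [h2]; exact hAV _) ?_
    intro h0
    rw [h0, zero_mul] at h1
    exact zero_ne_one h1
  -- elements of `O` outside `𝔫` are units of `V`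
  have hsV : ∀ s : ↥O, s ∉ 𝔫 → lndU V (s : F) := by
    intro s hs
    refine lndU_of_mem V (hOV _ s.2) fun h => ?_
    have h1 : algebraMap A F (ev s) ∈ V.nonunits := by
      have h2 : algebraMap A F (ev s) = (s : F) - ((s : F) - algebraMap A F (ev s)) := by ring
      rw [h2]; exact V.nonunits.sub_mem h (hev s)
    exact lndU_not_mem V (huV _ (hunitA s hs)) h1
  have hΛV : ∀ y : ↥(ndrLoc O 𝔫), (y : F) ∈ V := by
    intro y
    obtain ⟨a, s, hs, h⟩ := y.2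
    have hs0 := lndU_ne_zero V (hsV s hs)
    have h1 : (y : F) = (a : F) * (s : F)⁻¹ := by rw [← h]; field_simp
    rw [h1]
    exact V.mul_mem _ _ (hOV _ a.2) (lndU_mem V (lndU_inv V (hsV s hs)))
  refine ⟨evΛ, hevΛ, hΛV, ?_, ?_, htr⟩
  · intro y
    obtain ⟨a, s, hs, h⟩ := y.2
    have h1 : y * algebraMap ↥O ↥(ndrLoc O 𝔫) s = algebraMap ↥O ↥(ndrLoc O 𝔫) a :=
      Subtype.ext h
    have h2 : evΛ y * ev s = ev a := by
      rw [← hevΛ s, ← hevΛ a, ← map_mul, h1]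
    have h3 : algebraMap A F (evΛ y) * algebraMap A F (ev s) = algebraMap A F (ev a) := by
      rw [← map_mul, h2]
    have h4 : (s : F) * ((y : F) - algebraMap A F (evΛ y))
        = ((a : F) - algebraMap A F (ev a))
          - algebraMap A F (evΛ y) * ((s : F) - algebraMap A F (ev s)) := by
      rw [← h3, ← h]; ring
    have h5 : (s : F) * ((y : F) - algebraMap A F (evΛ y)) ∈ V.nonunits := by
      rw [h4]
      exact V.nonunits.sub_mem (hev a) (lnd_nu_mul V (hAV _) (hev s))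
    exact lnd_nu_of_unit_mul V (hsV s hs) h5
  · intro x hx
    obtain ⟨s, hs, hsx⟩ := hVO x hx
    exact ⟨algebraMap ↥O ↥(ndrLoc O 𝔫) s, by rw [hevΛ]; exact hs, ndr_le O 𝔫 hsx⟩

end Ev

end Fermat.Agent.S34
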