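import Mathlib
import Fermat.Agent.S34.CuspAbs

/-!
# S34, abstract leaf NODE-FIN: the local ring at a crossing point

Abstract pieces of the instantiation of `nda_main` at a crossing point `𝔫` of the special
fibre of the level-`M q` chart `O` (complementing `ndg_adjoin_eq_top` / `ndg_surj`):

* `ndf_max` : the maximal ideal of the local ring `Λ` at a crossing point is `(τ, x, y)` as soon
  as the two branches satisfy `𝔪 = P₁ + (y)` and `𝔪 = P₂ + (x)` and the fibre is reduced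
  (`P₁ ∩ P₂ ⊆ (τ)`, `τ, x ∈ P₁`).  No discrete valuation ring hypothesis.
* `ndf_inv_integral`, `ndf_integral`, `ndf_closed`, `ndf_finite` : the crossing point is the
  only point of `O` over the point below it on the level-`M` chart `O₀`; hence the local ring
  `O_𝔫` is integral over the local ring `Λ₀` of `O₀`, equal to the integral closure of `Λ₀` in
  `F`, and a finite `Λ₀`-module (the hypothesis `Module.Finite Λ₀ Λ` of `ndg_surj`).
  Inputs: `O = O₀ + p₁` (residue degree one on the first component), `O ^ q ⊆ O₀ + p₂` (the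
  second component is purely inseparable over the level-`M` curve), `p₁ ∩ p₂ ⊆ τ O`.
* `ndf_lift_elem`, `ndf_lift_pow` : the elementwise form of `s34c_lift`, giving
  `O ^ q ⊆ O₀ + p₂` from "the `q`-th powers of the residues lie in the residue field of `O₀`".
-/

set_option autoImplicit false

namespace Fermat.Agent.S34

open IsLocalRing

/-- **Maximal ideal at a crossing point.**  `Λ` local, `P₁`, `P₂` ideals with
`P₁ ∩ P₂ ⊆ (τ)`, `τ, x ∈ P₁`, and the two branch conditions `𝔪 = P₁ + (y)`, `𝔪 = P₂ + (x)`.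
Then `P₁ = (τ, x)` and `𝔪 = (τ, x, y)`. -/
theorem ndf_max {Λ : Type*} [CommRing Λ] [IsLocalRing Λ] (τ x y : Λ) (P₁ P₂ : Ideal Λ)
    (hred : ∀ z ∈ P₁, z ∈ P₂ → z ∈ Ideal.span {τ})
    (hτ : τ ∈ P₁) (hx : x ∈ P₁) (hP₁ : P₁ ≤ maximalIdeal Λ) (hy : y ∈ maximalIdeal Λ)
    (hB₁ : ∀ z ∈ maximalIdeal Λ, ∃ b : Λ, z - y * b ∈ P₁)
    (hB₂ : ∀ z ∈ maximalIdeal Λ, ∃ b : Λ, z - x * b ∈ P₂) :
    P₁ = Ideal.span {τ, x} ∧ maximalIdeal Λ = Ideal.span {τ, x, y} := by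
  have h1 : P₁ ≤ Ideal.span {τ, x} := by
    intro z hz
    obtain ⟨b, hb⟩ := hB₂ z (hP₁ hz)
    have hb1 : z - x * b ∈ P₁ := P₁.sub_mem hz (P₁.mul_mem_right _ hx)
    have h2 := hred _ hb1 hb
    rw [Ideal.mem_span_singleton'] at h2
    obtain ⟨c, hc⟩ := h2
    rw [Ideal.mem_span_pair]
    exact ⟨c, b, by linear_combination hc⟩
  have h1' : P₁ = Ideal.span {τ, x} := by
    refine le_antisymm h1 ?_
    rw [Ideal.span_le]
    rintro w (rfl | rfl)
    · exact hτ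
    · exact hx
  refine ⟨h1', le_antisymm ?_ ?_⟩
  · intro z hz
    obtain ⟨b, hb⟩ := hB₁ z hz
    have h2 := h1 hb
    rw [Ideal.mem_span_pair] at h2
    obtain ⟨c, d, hcd⟩ := h2
    have : z = c * τ + d * x + b * y := by linear_combination -hcd
    rw [this]
    refine Ideal.add_mem _ (Ideal.add_mem _ ?_ ?_) ?_
    · exact Ideal.mul_mem_left _ _ (Ideal.subset_span (by simp))
    · exact Ideal.mul_mem_left _ _ (Ideal.subset_span (by simp))
    · exact Ideal.mul_mem_left _ _ (Ideal.subset_span (by simp))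
  · rw [Ideal.span_le]
    rintro w (rfl | rfl | rfl)
    · exact hP₁ hτ
    · exact hP₁ hx
    · exact hy

section Unique

variable {A F : Type*} [CommRing A] [Field F] [Algebra A F]
variable {Λ₀ : Type*} [CommRing Λ₀] [Algebra Λ₀ F]

/-- **The crossing point is the only point over the point below.**  `O` a chart ring with a
maximal ideal `𝔫`, `O₀ ⊆ F` a set ("the chart of the lower level"), `Λ₀` a local ring mapping
to `F` whose image contains `O₀` and is contained in `O_𝔫` ("the local ring of `O₀` at the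
point below `𝔫`"), `O` integral over `Λ₀`.  Two ideals `p₁, p₂ ⊆ 𝔫` with `p₁ ∩ p₂ ⊆ τ O`,
`O = O₀ + p₁` and `O ^ q ⊆ O₀ + p₂`.  Then every `s ∈ O \ 𝔫` is invertible in the integral
closure of `Λ₀` in `F`. -/
theorem ndf_inv_integral [IsLocalRing Λ₀] (O : Subalgebra A F)
    (𝔫 : Ideal ↥O) [h𝔫 : 𝔫.IsMaximal]
    (O₀ : Set F) (hΛ₀ : ∀ z ∈ O₀, ∃ y : Λ₀, algebraMap Λ₀ F y = z)
    (hloc : ∀ y : Λ₀, ∃ a s : ↥O, s ∉ 𝔫 ∧ algebraMap Λ₀ F y * (s : F) = (a : F))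
    (hint : ∀ z ∈ O, IsIntegral Λ₀ z)
    (τ : ↥O) (hτ𝔫 : τ ∈ 𝔫) (hτ₀ : (τ : F) ∈ O₀)
    (p₁ p₂ : Ideal ↥O) (hp₁ : p₁ ≤ 𝔫) (hp₂ : p₂ ≤ 𝔫)
    (hred : ∀ z ∈ p₁, z ∈ p₂ → z ∈ Ideal.span {τ})
    (q : ℕ) (hq : q ≠ 0)
    (hlift : ∀ z : ↥O, ∃ z₀ : ↥O, (z₀ : F) ∈ O₀ ∧ z - z₀ ∈ p₁)
    (hinsep : ∀ z : ↥O, ∃ z₀ : ↥O, (z₀ : F) ∈ O₀ ∧ z ^ q - z₀ ∈ p₂)
    (s : ↥O) (hs : s ∉ 𝔫) : IsIntegral Λ₀ (s : F)⁻¹ := by
  classical
  have hOC : ∀ z : ↥O, (z : F) ∈ integralClosure Λ₀ F := fun z => hint z z.2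
  let f : ↥O →+* ↥(integralClosure Λ₀ F) :=
    { toFun := fun z => ⟨(z : F), hOC z⟩
      map_one' := rfl
      map_mul' := fun _ _ => rfl
      map_zero' := rfl
      map_add' := fun _ _ => rfl }
  by_contra hcon
  have hsu : ¬ IsUnit (f s) := by
    intro hu
    obtain ⟨u, hu⟩ := hu.exists_right_inv
    apply hcon
    have h1 : (s : F) * (u : F) = 1 := congrArg (fun c : ↥(integralClosure Λ₀ F) => (c : F)) hu
    have h2 : (s : F)⁻¹ = (u : F) := by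
      rw [inv_eq_iff_eq_inv]
      exact eq_inv_of_mul_eq_one_left h1
    rw [h2]
    exact u.2
  obtain ⟨M, hM, hsM⟩ := exists_max_ideal_of_mem_nonunits hsu
  have h𝔮 : (M.comap f).IsPrime := Ideal.comap_isPrime f M
  have hcomap : M.comap (algebraMap Λ₀ ↥(integralClosure Λ₀ F)) = maximalIdeal Λ₀ := by
    have : (M.comap (algebraMap Λ₀ ↥(integralClosure Λ₀ F))).IsMaximal :=
      Ideal.isMaximal_comap_of_isIntegral_of_isMaximal M
    exact IsLocalRing.eq_maximalIdeal this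
  have key : ∀ z : ↥O, z ∈ 𝔫 → (z : F) ∈ O₀ → z ∈ M.comap f := by
    intro z hz hz0
    obtain ⟨y, hy⟩ := hΛ₀ _ hz0
    have hnu : y ∈ maximalIdeal Λ₀ := by
      rw [mem_maximalIdeal, mem_nonunits_iff]
      intro hu
      obtain ⟨v, hv⟩ := hu.exists_right_inv
      obtain ⟨a, s₁, hs₁, has⟩ := hloc v
      apply hs₁
      have h1 : (z : F) * algebraMap Λ₀ F v = 1 := by
        rw [← hy, ← map_mul, hv, map_one]
      have h2 : s₁ = z * a := by
        apply Subtype.ext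
        push_cast
        rw [← has, ← mul_assoc, h1, one_mul]
      rw [h2]
      exact 𝔫.mul_mem_right _ hz
    rw [← hcomap, Ideal.mem_comap] at hnu
    have h3 : algebraMap Λ₀ ↥(integralClosure Λ₀ F) y = f z := Subtype.ext hy
    rw [Ideal.mem_comap, ← h3]
    exact hnu
  have hτ𝔮 : τ ∈ M.comap f := key τ hτ𝔫 hτ₀
  have hcase : p₁ ≤ M.comap f ∨ p₂ ≤ M.comap f := by
    apply (Ideal.IsPrime.mul_le h𝔮).mp
    intro w hw
    have hw' := Ideal.mul_le_inf hw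
    have h3 := hred w hw'.1 hw'.2
    rw [Ideal.mem_span_singleton'] at h3
    obtain ⟨c, rfl⟩ := h3
    exact Ideal.mul_mem_left _ _ hτ𝔮
  have hle : 𝔫 ≤ M.comap f := by
    intro z hz
    rcases hcase with h | h
    · obtain ⟨z₀, hz₀, hz₁⟩ := hlift z
      have h2 : z₀ ∈ 𝔫 := by
        have := 𝔫.sub_mem hz (hp₁ hz₁)
        simpa using this
      have h3 := key z₀ h2 hz₀
      have := Ideal.add_mem _ (h hz₁) h3
      simpa using this
    · obtain ⟨z₀, hz₀, hz₁⟩ := hinsep z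
      have h2 : z₀ ∈ 𝔫 := by
        have := 𝔫.sub_mem (Ideal.pow_mem_of_mem 𝔫 hz q (Nat.pos_of_ne_zero hq)) (hp₂ hz₁)
        simpa using this
      have h3 := key z₀ h2 hz₀
      have h4 : z ^ q ∈ M.comap f := by
        have := Ideal.add_mem _ (h hz₁) h3
        simpa using this
      exact Ideal.IsPrime.mem_of_pow_mem h𝔮 q h4
  have heq : 𝔫 = M.comap f := Ideal.IsMaximal.eq_of_le h𝔫 (Ideal.IsPrime.ne_top h𝔮) hle
  apply hs
  rw [heq]
  exact hsM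

/-- Under the hypotheses of `ndf_inv_integral`, every element of the local ring `O_𝔫` is
integral over `Λ₀`. -/
theorem ndf_integral [IsLocalRing Λ₀] (O : Subalgebra A F)
    (𝔫 : Ideal ↥O) [h𝔫 : 𝔫.IsMaximal]
    (O₀ : Set F) (hΛ₀ : ∀ z ∈ O₀, ∃ y : Λ₀, algebraMap Λ₀ F y = z)
    (hloc : ∀ y : Λ₀, ∃ a s : ↥O, s ∉ 𝔫 ∧ algebraMap Λ₀ F y * (s : F) = (a : F))
    (hint : ∀ z ∈ O, IsIntegral Λ₀ z)
    (τ : ↥O) (hτ𝔫 : τ ∈ 𝔫) (hτ₀ : (τ : F) ∈ O₀)
    (p₁ p₂ : Ideal ↥O) (hp₁ : p₁ ≤ 𝔫) (hp₂ : p₂ ≤ 𝔫)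
    (hred : ∀ z ∈ p₁, z ∈ p₂ → z ∈ Ideal.span {τ})
    (q : ℕ) (hq : q ≠ 0)
    (hlift : ∀ z : ↥O, ∃ z₀ : ↥O, (z₀ : F) ∈ O₀ ∧ z - z₀ ∈ p₁)
    (hinsep : ∀ z : ↥O, ∃ z₀ : ↥O, (z₀ : F) ∈ O₀ ∧ z ^ q - z₀ ∈ p₂)
    (z : F) (hz : ∃ a s : ↥O, s ∉ 𝔫 ∧ z * (s : F) = (a : F)) : IsIntegral Λ₀ z := by
  obtain ⟨a, s, hs, has⟩ := hz
  have hs0 : (s : F) ≠ 0 := by
    intro h0
    apply hs
    have : s = 0 := Subtype.ext h0
    rw [this]
    exact 𝔫.zero_mem
  have hz' : z = (a : F) * (s : F)⁻¹ := by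
    rw [← has, mul_assoc, mul_inv_cancel₀ hs0, mul_one]
  rw [hz']
  exact (hint a a.2).mul
    (ndf_inv_integral O 𝔫 O₀ hΛ₀ hloc hint τ hτ𝔫 hτ₀ p₁ p₂ hp₁ hp₂ hred q hq hlift hinsep s hs)

/-- Conversely, if `O` is integrally closed in `F` and the image of `Λ₀` lies in `O_𝔫`, every
element of `F` integral over `Λ₀` lies in `O_𝔫`. -/
theorem ndf_closed (O : Subalgebra A F) (𝔫 : Ideal ↥O) [𝔫.IsPrime]
    (hcl : ∀ x : F, IsIntegral ↥O x → x ∈ O)
    (hloc : ∀ y : Λ₀, ∃ a s : ↥O, s ∉ 𝔫 ∧ algebraMap Λ₀ F y * (s : F) = (a : F))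
    (z : F) (hz : IsIntegral Λ₀ z) : ∃ a s : ↥O, s ∉ 𝔫 ∧ z * (s : F) = (a : F) := by
  obtain ⟨p, hp, hpz⟩ := hz
  have hz' : IsIntegral ↥(algebraMap Λ₀ F).range z := by
    refine ⟨p.map (algebraMap Λ₀ F).rangeRestrict, hp.map _, ?_⟩
    rw [Polynomial.eval₂_map]
    exact hpz
  have hR : ∀ r ∈ (algebraMap Λ₀ F).range, ∃ s a : ↥O, s ∉ 𝔫 ∧ (s : F) * r = a := by
    rintro r ⟨y, rfl⟩
    obtain ⟨a, s, hs, has⟩ := hloc y
    exact ⟨s, a, hs, by rw [mul_comm]; exact has⟩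
  obtain ⟨s, a, hs, has⟩ := cpa_mem_loc_of_isIntegral O 𝔫 hcl (algebraMap Λ₀ F).range hR z hz'
  exact ⟨a, s, hs, by rw [mul_comm]; exact has⟩

end Unique

section Finite

/-- Finiteness of an integral closure, elementwise form of Mathlib's
`IsIntegralClosure.finite`. -/
theorem ndf_finite_of_integral {Λ₀ K F Λ : Type*} [CommRing Λ₀] [IsDomain Λ₀]
    [IsNoetherianRing Λ₀] [IsIntegrallyClosed Λ₀] [Field K] [Algebra Λ₀ K] [IsFractionRing Λ₀ K]
    [Field F] [Algebra K F] [Algebra Λ₀ F] [IsScalarTower Λ₀ K F] [FiniteDimensional K F]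
    [Algebra.IsSeparable K F] [CommRing Λ] [Algebra Λ₀ Λ] [Algebra Λ F] [IsScalarTower Λ₀ Λ F]
    (hinj : Function.Injective (algebraMap Λ F))
    (hint : ∀ z : Λ, IsIntegral Λ₀ (algebraMap Λ F z))
    (hcl : ∀ z : F, IsIntegral Λ₀ z → ∃ y : Λ, algebraMap Λ F y = z) : Module.Finite Λ₀ Λ := by
  have : IsIntegralClosure Λ Λ₀ F :=
    ⟨hinj, fun {x} => ⟨hcl x, fun ⟨y, hy⟩ => hy ▸ hint y⟩⟩
  exact IsIntegralClosure.finite Λ₀ K F Λ

variable {A F : Type*} [CommRing A] [Field F] [Algebra A F]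

/-- **Finiteness of the local ring at a crossing point over the local ring below.**
`Λ` is any subalgebra of `F` with carrier the localisation `O_𝔫`; `Λ₀` is a noetherian
integrally closed local domain with fraction field `K`, `F / K` finite separable; the geometric
hypotheses are those of `ndf_inv_integral`, and `O` is integrally closed in `F`. -/
theorem ndf_finite {Λ₀ K : Type*} [CommRing Λ₀] [IsDomain Λ₀] [IsLocalRing Λ₀]
    [IsNoetherianRing Λ₀] [IsIntegrallyClosed Λ₀] [Field K] [Algebra Λ₀ K] [IsFractionRing Λ₀ K]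
    [Algebra K F] [Algebra Λ₀ F] [IsScalarTower Λ₀ K F] [FiniteDimensional K F]
    [Algebra.IsSeparable K F]
    (O : Subalgebra A F) (𝔫 : Ideal ↥O) [h𝔫 : 𝔫.IsMaximal]
    (hcl : ∀ x : F, IsIntegral ↥O x → x ∈ O)
    (O₀ : Set F) (hΛ₀ : ∀ z ∈ O₀, ∃ y : Λ₀, algebraMap Λ₀ F y = z)
    (hloc : ∀ y : Λ₀, ∃ a s : ↥O, s ∉ 𝔫 ∧ algebraMap Λ₀ F y * (s : F) = (a : F))
    (hint : ∀ z ∈ O, IsIntegral Λ₀ z)
    (τ : ↥O) (hτ𝔫 : τ ∈ 𝔫) (hτ₀ : (τ : F) ∈ O₀)
    (p₁ p₂ : Ideal ↥O) (hp₁ : p₁ ≤ 𝔫) (hp₂ : p₂ ≤ 𝔫)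
    (hred : ∀ z ∈ p₁, z ∈ p₂ → z ∈ Ideal.span {τ})
    (q : ℕ) (hq : q ≠ 0)
    (hlift : ∀ z : ↥O, ∃ z₀ : ↥O, (z₀ : F) ∈ O₀ ∧ z - z₀ ∈ p₁)
    (hinsep : ∀ z : ↥O, ∃ z₀ : ↥O, (z₀ : F) ∈ O₀ ∧ z ^ q - z₀ ∈ p₂)
    (Λ : Subalgebra A F)
    (hΛ : ∀ z : F, z ∈ Λ ↔ ∃ a s : ↥O, s ∉ 𝔫 ∧ z * (s : F) = (a : F))
    [Algebra Λ₀ ↥Λ] [IsScalarTower Λ₀ ↥Λ F] : Module.Finite Λ₀ ↥Λ := by
  have : 𝔫.IsPrime := h𝔫.isPrime
  refine ndf_finite_of_integral (K := K) (F := F) Subtype.coe_injective ?_ ?_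
  · intro z
    exact ndf_integral O 𝔫 O₀ hΛ₀ hloc hint τ hτ𝔫 hτ₀ p₁ p₂ hp₁ hp₂ hred q hq hlift hinsep _
      ((hΛ _).mp z.2)
  · intro z hz
    exact ⟨⟨z, (hΛ z).mpr (ndf_closed O 𝔫 hcl hloc z hz)⟩, rfl⟩

end Finite

section Lift

variable {A F B : Type*} [CommRing A] [Field F] [Algebra A F] [CommRing B] [IsDomain B]

/-- Elementwise form of `s34c_lift` (same proof): `OE` a subalgebra of `F` inside a valuation
subring `V`, `πE : OE → B` onto an integrally closed domain with kernel `OE ∩ 𝔪_V`.  If `x ∈ V`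
is integral over `OE` and its residue lies in the fraction field of the image of `OE`
(`x * s - a ∈ 𝔪_V` with `s ∉ 𝔪_V`), then `x` is congruent modulo `𝔪_V` to an element of `OE`. -/
theorem ndf_lift_elem [IsIntegrallyClosed B] (OE : Subalgebra A F) (V : ValuationSubring F)
    (hOEV : ∀ x ∈ OE, x ∈ V) (πE : OE →+* B) (hπE : Function.Surjective πE)
    (hker : ∀ x : OE, πE x = 0 ↔ (x : F) ∈ V.nonunits)
    (x : F) (hxV : x ∈ V) (hxint : IsIntegral OE x)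
    (hres : ∃ a s : OE, (s : F) ∉ V.nonunits ∧ x * (s : F) - (a : F) ∈ V.nonunits) :
    ∃ b : OE, x - (b : F) ∈ V.nonunits := by
  classical
  -- the residue map of `V` and its restriction to `OE`
  set ρ : V →+* IsLocalRing.ResidueField V := IsLocalRing.residue V with hρ
  have hρ0 : ∀ y : V, ρ y = 0 ↔ (y : F) ∈ V.nonunits := by
    intro y
    rw [hρ, IsLocalRing.residue_eq_zero_iff, ValuationSubring.mem_nonunits_iff_exists_mem_maximalIdeal]
    exact ⟨fun h => ⟨y.2, h⟩, fun ⟨_, h⟩ => h⟩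
  let ι : OE →+* V :=
    { toFun := fun y => ⟨(y : F), hOEV _ y.2⟩
      map_one' := rfl
      map_mul' := fun _ _ => rfl
      map_zero' := rfl
      map_add' := fun _ _ => rfl }
  set g : OE →+* IsLocalRing.ResidueField V := ρ.comp ι with hg
  have hg0 : ∀ y : OE, g y = 0 ↔ πE y = 0 := fun y => by
    rw [hker y, hg, RingHom.comp_apply, hρ0]
    exact Iff.rfl
  -- `B` embeds into the residue field
  let φ : B →+* IsLocalRing.ResidueField V :=
    RingHom.liftOfRightInverse πE (Function.surjInv hπE) (Function.rightInverse_surjInv hπE)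
      ⟨g, fun y hy => (RingHom.mem_ker).mpr ((hg0 y).mpr ((RingHom.mem_ker).mp hy))⟩
  have hφ : ∀ y : OE, φ (πE y) = g y := fun y =>
    RingHom.liftOfRightInverse_comp_apply πE (Function.surjInv hπE)
      (Function.rightInverse_surjInv hπE) _ y
  have hφinj : Function.Injective φ := by
    rw [injective_iff_map_eq_zero]
    intro z hz
    obtain ⟨y, rfl⟩ := hπE z
    rw [hφ] at hz
    exact (hg0 y).mp hz
  let Φ : FractionRing B →+* IsLocalRing.ResidueField V := IsFractionRing.lift hφinj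
  have hΦ : ∀ z : B, Φ (algebraMap B (FractionRing B) z) = φ z := fun z =>
    IsFractionRing.lift_algebraMap hφinj z
  have hΦinj : Function.Injective Φ := Φ.injective
  -- the data for `x`
  obtain ⟨a, s, hs, hxs⟩ := hres
  obtain ⟨P, hPmonic, hPx⟩ := hxint
  set ξ : IsLocalRing.ResidueField V := ρ ⟨x, hxV⟩ with hξ
  have hgs : g s ≠ 0 := fun h0 => hs ((hker s).mp ((hg0 s).mp h0))
  have hπs : πE s ≠ 0 := fun h0 => hgs ((hg0 s).mpr h0)
  have hξs : ξ * g s = g a := by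
    have h1 : ρ (⟨x, hxV⟩ * ι s - ι a) = 0 := (hρ0 _).mpr hxs
    rw [map_sub, map_mul, sub_eq_zero] at h1
    exact h1
  -- `ξ` is a root of the image of `P`
  have h1 : Polynomial.eval₂ ι (⟨x, hxV⟩ : V) P = 0 := by
    apply Subtype.ext
    have h2 := Polynomial.hom_eval₂ P ι (V.subtype : V →+* F) (⟨x, hxV⟩ : V)
    have h3 : (V.subtype : V →+* F).comp ι = algebraMap OE F := RingHom.ext fun _ => rfl
    rw [h3] at h2
    exact h2.trans hPx
  have hroot : Polynomial.eval₂ g ξ P = 0 := by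
    have h4 := Polynomial.hom_eval₂ P ι ρ (⟨x, hxV⟩ : V)
    rw [h1, map_zero] at h4
    exact h4.symm
  -- the corresponding element of the fraction field of `B` is integral
  set z : FractionRing B :=
    algebraMap B (FractionRing B) (πE a) / algebraMap B (FractionRing B) (πE s) with hz
  have hzξ : Φ z = ξ := by
    rw [hz, map_div₀, hΦ, hΦ, hφ, hφ, ← hξs, mul_div_assoc, div_self hgs, mul_one]
  have hzint : IsIntegral B z := by
    refine ⟨P.map πE, hPmonic.map _, ?_⟩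
    apply hΦinj
    rw [map_zero, Polynomial.hom_eval₂, Polynomial.eval₂_map, hzξ]
    have h5 : (Φ.comp (algebraMap B (FractionRing B))).comp πE = g :=
      RingHom.ext fun y => by
        rw [RingHom.comp_apply, RingHom.comp_apply, hΦ, hφ]
    rw [h5]
    exact hroot
  obtain ⟨bb, hbb⟩ := IsIntegrallyClosed.isIntegral_iff.mp hzint
  obtain ⟨b, rfl⟩ := hπE bb
  refine ⟨b, ?_⟩
  have h6 : ρ (⟨x, hxV⟩ - ι b) = 0 := by
    rw [map_sub, sub_eq_zero, ← hξ, ← hzξ, ← hbb, hΦ, hφ]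
    rfl
  exact (hρ0 _).mp h6


/-- **Purely inseparable lift.**  `OE ≤ OF`, `OF` integral over `OE` and contained in `V`; if the
`q`-th powers of the elements of `OF` have residues in the fraction field of the image of `OE`,
then `OF ^ q ⊆ OE + (OF ∩ 𝔪_V)`.  (`q = 1`: `s34c_lift`.) -/
theorem ndf_lift_pow [IsIntegrallyClosed B] (OE OF : Subalgebra A F) (hle : OE ≤ OF)
    (V : ValuationSubring F) (hOFV : ∀ x ∈ OF, x ∈ V) (hint : ∀ x ∈ OF, IsIntegral OE x)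
    (πE : OE →+* B) (hπE : Function.Surjective πE)
    (hker : ∀ x : OE, πE x = 0 ↔ (x : F) ∈ V.nonunits) (q : ℕ)
    (hres : ∀ x ∈ OF, ∃ a s : OE, (s : F) ∉ V.nonunits ∧ x ^ q * (s : F) - (a : F) ∈ V.nonunits)
    (x : F) (hx : x ∈ OF) : ∃ b : OE, x ^ q - (b : F) ∈ V.nonunits :=
  ndf_lift_elem OE V (fun y hy => hOFV y (hle hy)) πE hπE hker (x ^ q)
    (hOFV _ (pow_mem hx q)) (hint _ (pow_mem hx q)) (hres x hx)

end Lift

end Fermat.Agent.S34
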