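import Mathlib
import Fermat.Agent.S34.LocRing
import Fermat.Agent.S34.NodeFin
import Fermat.Agent.S34.KronVal
import Fermat.Agent.S34.Val2Inst
import Fermat.Agent.S34.Charts2Inst
import Fermat.Agent.S34.NodeUnif

/-!
# S34, leaf NODE-IDEALS: the two branch ideals of the local ring at a crossing point

`O : Subalgebra A F` a chart, `𝔫` a prime of `O`, `Λ = ndrLoc O 𝔫` its local ring, `V₁`, `V₂` two
valuation subrings of `F` containing `O` whose centres on `O` are contained in `𝔫` (`𝔫` is a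
crossing point of the two components of the special fibre).

Abstract part:
* `ndiP Λ V`: the ideal `Λ ∩ 𝔪_V` of a subalgebra `Λ ⊆ V` (`ndi_mem_P`), proper (`ndi_P_le_max`);
* `ndi_loc_mem`: `Λ = O_𝔫 ⊆ V` when the centre of `V` on `O` is contained in `𝔫`;
* `ndi_nu_of_loc`: numerators of elements of `Λ ∩ 𝔪_V` lie in `O ∩ 𝔪_V`;
* `ndi_hred`: the reduced special fibre localised: `Λ ∩ 𝔪_{V₁} ∩ 𝔪_{V₂} ⊆ τ Λ` from the chart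
  statement `O ∩ 𝔪_{V₁} ∩ 𝔪_{V₂} ⊆ τ O` (`hVτ` of `cht2_all`);
* `ndi_hxy`: `x ∈ 𝔪_{V₁}`, `y ∈ 𝔪_{V₂}` ⟹ `x * y ∈ τ Λ` (the hypothesis `hxy` of `ndq_main`);
* `ndi_max`: `𝔪_Λ = (τ, x, y)` from the two branch conditions in `F`-form (via `ndf_max`; the
  hypothesis `hmax` of `ndq_main`).

Concrete part (the carrier of `Val2Def`: level `M q`, `V₁ = va2V1`, `V₂ = va2V2`, Hauptmodul
`h` of level `a2 ∣ M`, `α h` its image at level `M q`, `β h = w (α h) = h(t^q)`):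
* `ndi_alpha_h`, `ndi_swap_h`: `α h = nunH K0 (M q)`, `w (α h) = β h`, `w (β h) = α h`;
* `ndi_kron1`: `α h, β h ∈ V₁` and `(α h) ^ q - β h ∈ 𝔪_{V₁}`;
* `ndi_kron2`: `α h, β h ∈ V₂` and `α h - (β h) ^ q ∈ 𝔪_{V₂}`;
* `ndi_hVtau`: `O ∩ 𝔪_{V₁} ∩ 𝔪_{V₂} ⊆ τ O` for the Hauptmodul chart `O = chtO A0 {t}`;
* `ndi_main`: at a crossing point `𝔫` of `chtO A0 {t}`, for `h, θ ∈ Λ = ndrLoc (chtO A0 {t}) 𝔫`
  with `h = α h`, `θ = β h` in `F`: `Λ ⊆ V₁ ∩ V₂`, the localised reducedness, `h ^ q - θ ∈ 𝔪_{V₁}`,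
  `h - θ ^ q ∈ 𝔪_{V₂}`, `hxy` of `ndq_main`, and `hmax` of `ndq_main` from the two branch
  conditions.

Names are prefixed `ndi`.
-/

set_option autoImplicit false
set_option linter.unusedSectionVars false

noncomputable section

open ModularCurve AlgebraicCurve IsLocalRing
open Fermat.Agent.S18 Fermat.Agent.S37

namespace Fermat.Agent.S34

local notation "Qb" => AlgebraicClosure ℚ

/-! ### Abstract part -/

section Abs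

variable {A F : Type*} [CommRing A] [Field F] [Algebra A F]

theorem ndi_nu_add (V : ValuationSubring F) {x y : F} (hx : x ∈ V.nonunits)
    (hy : y ∈ V.nonunits) : x + y ∈ V.nonunits := by
  rw [V.mem_nonunits_iff] at hx hy ⊢
  exact Valuation.map_add_lt _ hx hy

theorem ndi_nu_zero (V : ValuationSubring F) : (0 : F) ∈ V.nonunits := by
  rw [V.mem_nonunits_iff, map_zero]
  exact zero_lt_one

theorem ndi_nu_neg (V : ValuationSubring F) {x : F} (hx : x ∈ V.nonunits) : -x ∈ V.nonunits := by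
  rw [V.mem_nonunits_iff] at hx ⊢
  rwa [Valuation.map_neg]

theorem ndi_nu_sub (V : ValuationSubring F) {x y : F} (hx : x ∈ V.nonunits)
    (hy : y ∈ V.nonunits) : x - y ∈ V.nonunits := by
  rw [sub_eq_add_neg]
  exact ndi_nu_add V hx (ndi_nu_neg V hy)

theorem ndi_one_not_nu (V : ValuationSubring F) : (1 : F) ∉ V.nonunits := by
  rw [V.mem_nonunits_iff, map_one]
  exact lt_irrefl _

/-- The branch ideal `Λ ∩ 𝔪_V` of a subalgebra `Λ` of `F` (an honest description for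
`Λ ⊆ V`: `ndi_mem_P`). -/
def ndiP (Λ : Subalgebra A F) (V : ValuationSubring F) : Ideal ↥Λ :=
  Ideal.span {z : ↥Λ | (z : F) ∈ V.nonunits}

theorem ndi_mem_P (Λ : Subalgebra A F) (V : ValuationSubring F)
    (hΛV : ∀ y : ↥Λ, (y : F) ∈ V) (z : ↥Λ) :
    z ∈ ndiP Λ V ↔ (z : F) ∈ V.nonunits := by
  constructor
  · intro hz
    have hz' : z ∈ Submodule.span ↥Λ {w : ↥Λ | (w : F) ∈ V.nonunits} := hz
    refine Submodule.span_induction (p := fun (w : ↥Λ) _ => (w : F) ∈ V.nonunits) ?_ ?_ ?_ ?_ hz'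
    · intro w hw
      exact hw
    · exact ndi_nu_zero V
    · intro u v _ _ hu hv
      exact ndi_nu_add V hu hv
    · intro a u _ hu
      exact lnd_nu_mul V (hΛV a) hu
  · intro hz
    exact Ideal.subset_span hz

theorem ndi_P_ne_top (Λ : Subalgebra A F) (V : ValuationSubring F)
    (hΛV : ∀ y : ↥Λ, (y : F) ∈ V) : ndiP Λ V ≠ ⊤ := by
  intro h
  have h1 : (1 : ↥Λ) ∈ ndiP Λ V := by rw [h]; exact Submodule.mem_top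
  exact ndi_one_not_nu V ((ndi_mem_P Λ V hΛV 1).mp h1)

theorem ndi_P_le_max (Λ : Subalgebra A F) [IsLocalRing ↥Λ] (V : ValuationSubring F)
    (hΛV : ∀ y : ↥Λ, (y : F) ∈ V) : ndiP Λ V ≤ maximalIdeal ↥Λ :=
  IsLocalRing.le_maximalIdeal (ndi_P_ne_top Λ V hΛV)

variable (O : Subalgebra A F) (𝔫 : Ideal ↥O) [h𝔫 : 𝔫.IsPrime]

/-- elements of the chart outside `𝔫` are units of a valuation ring whose centre lies in `𝔫` -/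
theorem ndi_unit (V : ValuationSubring F) (hOV : ∀ x ∈ O, x ∈ V)
    (hcen : ∀ x : ↥O, (x : F) ∈ V.nonunits → x ∈ 𝔫) (s : ↥O) (hs : s ∉ 𝔫) : lndU V (s : F) :=
  lndU_of_mem V (hOV _ s.2) fun h => hs (hcen s h)

/-- **The local ring at a point of the centre lies in the valuation ring.** -/
theorem ndi_loc_mem (V : ValuationSubring F) (hOV : ∀ x ∈ O, x ∈ V)
    (hcen : ∀ x : ↥O, (x : F) ∈ V.nonunits → x ∈ 𝔫) (y : ↥(ndrLoc O 𝔫)) : (y : F) ∈ V := by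
  obtain ⟨a, s, hs, h⟩ := y.2
  have hsu := ndi_unit O 𝔫 V hOV hcen s hs
  have hs0 := lndU_ne_zero V hsu
  have h1 : (y : F) = (a : F) * (s : F)⁻¹ := by rw [← h]; field_simp
  rw [h1]
  exact V.mul_mem _ _ (hOV _ a.2) (lndU_mem V (lndU_inv V hsu))

/-- numerators of elements of `O_𝔫 ∩ 𝔪_V` lie in `𝔪_V` -/
theorem ndi_nu_of_loc (V : ValuationSubring F) (hOV : ∀ x ∈ O, x ∈ V)
    (z : F) (hz : z ∈ V.nonunits) (a s : ↥O) (h : z * (s : F) = (a : F)) :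
    (a : F) ∈ V.nonunits := by
  rw [← h, mul_comm]
  exact lnd_nu_mul V (hOV _ s.2) hz

/-- **Reducedness of the special fibre, localised.**  If `O ∩ 𝔪_{V₁} ∩ 𝔪_{V₂} ⊆ τ O`, then
`O_𝔫 ∩ 𝔪_{V₁} ∩ 𝔪_{V₂} ⊆ τ O_𝔫`. -/
theorem ndi_hred (V₁ V₂ : ValuationSubring F) (hOV₁ : ∀ x ∈ O, x ∈ V₁) (hOV₂ : ∀ x ∈ O, x ∈ V₂)
    (τ : A)
    (hVτ : ∀ x ∈ O, x ∈ V₁.nonunits → x ∈ V₂.nonunits → ∃ y ∈ O, x = algebraMap A F τ * y)
    (z : ↥(ndrLoc O 𝔫)) (h1 : (z : F) ∈ V₁.nonunits) (h2 : (z : F) ∈ V₂.nonunits) :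
    z ∈ Ideal.span {algebraMap A ↥(ndrLoc O 𝔫) τ} := by
  obtain ⟨a, s, hs, h⟩ := z.2
  have ha1 := ndi_nu_of_loc O V₁ hOV₁ _ h1 a s h
  have ha2 := ndi_nu_of_loc O V₂ hOV₂ _ h2 a s h
  obtain ⟨b, hb, hab⟩ := hVτ _ a.2 ha1 ha2
  have hs0 : (s : F) ≠ 0 := by
    intro h0
    have : s = 0 := Subtype.ext h0
    exact hs (this ▸ 𝔫.zero_mem)
  rw [Ideal.mem_span_singleton']
  refine ⟨⟨b * (s : F)⁻¹, ⟨⟨b, hb⟩, s, hs, ?_⟩⟩, ?_⟩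
  · show b * (s : F)⁻¹ * (s : F) = b
    rw [mul_assoc, inv_mul_cancel₀ hs0, mul_one]
  · apply Subtype.ext
    show b * (s : F)⁻¹ * algebraMap A F τ = (z : F)
    have h3 : (z : F) = (a : F) * (s : F)⁻¹ := by rw [← h]; field_simp
    rw [h3, hab]
    ring

/-- `ndi_hred` for the branch ideals (the hypothesis `hred` of `ndf_max`). -/
theorem ndi_hred_P (V₁ V₂ : ValuationSubring F) (hOV₁ : ∀ x ∈ O, x ∈ V₁)
    (hOV₂ : ∀ x ∈ O, x ∈ V₂)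
    (hΛV₁ : ∀ y : ↥(ndrLoc O 𝔫), (y : F) ∈ V₁) (hΛV₂ : ∀ y : ↥(ndrLoc O 𝔫), (y : F) ∈ V₂)
    (τ : A)
    (hVτ : ∀ x ∈ O, x ∈ V₁.nonunits → x ∈ V₂.nonunits → ∃ y ∈ O, x = algebraMap A F τ * y)
    (z : ↥(ndrLoc O 𝔫)) (h1 : z ∈ ndiP (ndrLoc O 𝔫) V₁) (h2 : z ∈ ndiP (ndrLoc O 𝔫) V₂) :
    z ∈ Ideal.span {algebraMap A ↥(ndrLoc O 𝔫) τ} :=
  ndi_hred O 𝔫 V₁ V₂ hOV₁ hOV₂ τ hVτ z ((ndi_mem_P _ V₁ hΛV₁ z).mp h1)
    ((ndi_mem_P _ V₂ hΛV₂ z).mp h2)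

/-- **`hxy` of `ndq_main`.**  `x ∈ 𝔪_{V₁}`, `y ∈ 𝔪_{V₂}` ⟹ `x * y ∈ τ Λ`. -/
theorem ndi_hxy (V₁ V₂ : ValuationSubring F) (hOV₁ : ∀ x ∈ O, x ∈ V₁) (hOV₂ : ∀ x ∈ O, x ∈ V₂)
    (hΛV₁ : ∀ y : ↥(ndrLoc O 𝔫), (y : F) ∈ V₁) (hΛV₂ : ∀ y : ↥(ndrLoc O 𝔫), (y : F) ∈ V₂)
    (τ : A)
    (hVτ : ∀ x ∈ O, x ∈ V₁.nonunits → x ∈ V₂.nonunits → ∃ y ∈ O, x = algebraMap A F τ * y)
    (x y : ↥(ndrLoc O 𝔫)) (hx : (x : F) ∈ V₁.nonunits) (hy : (y : F) ∈ V₂.nonunits) :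
    ∃ l : ↥(ndrLoc O 𝔫), x * y = algebraMap A ↥(ndrLoc O 𝔫) τ * l := by
  have h1 : ((x * y : ↥(ndrLoc O 𝔫)) : F) ∈ V₁.nonunits := by
    show (x : F) * (y : F) ∈ V₁.nonunits
    rw [mul_comm]
    exact lnd_nu_mul V₁ (hΛV₁ y) hx
  have h2 : ((x * y : ↥(ndrLoc O 𝔫)) : F) ∈ V₂.nonunits :=
    lnd_nu_mul V₂ (hΛV₂ x) hy
  have h3 := ndi_hred O 𝔫 V₁ V₂ hOV₁ hOV₂ τ hVτ (x * y) h1 h2
  rw [Ideal.mem_span_singleton'] at h3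
  obtain ⟨l, hl⟩ := h3
  exact ⟨l, by rw [← hl, mul_comm]⟩

/-- **`hmax` of `ndq_main`.**  The maximal ideal of the local ring at a crossing point is
`(τ, x, y)`, from the two branch conditions in `F`-form. -/
theorem ndi_max (V₁ V₂ : ValuationSubring F) (hOV₁ : ∀ x ∈ O, x ∈ V₁) (hOV₂ : ∀ x ∈ O, x ∈ V₂)
    (hΛV₁ : ∀ y : ↥(ndrLoc O 𝔫), (y : F) ∈ V₁) (hΛV₂ : ∀ y : ↥(ndrLoc O 𝔫), (y : F) ∈ V₂)
    (τ : A) (hτV₁ : algebraMap A F τ ∈ V₁.nonunits)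
    (hVτ : ∀ x ∈ O, x ∈ V₁.nonunits → x ∈ V₂.nonunits → ∃ y ∈ O, x = algebraMap A F τ * y)
    (x y : ↥(ndrLoc O 𝔫)) (hx : (x : F) ∈ V₁.nonunits) (hy : (y : F) ∈ V₂.nonunits)
    (hB₁ : ∀ z ∈ maximalIdeal ↥(ndrLoc O 𝔫), ∃ b : ↥(ndrLoc O 𝔫),
      (z : F) - (y : F) * (b : F) ∈ V₁.nonunits)
    (hB₂ : ∀ z ∈ maximalIdeal ↥(ndrLoc O 𝔫), ∃ b : ↥(ndrLoc O 𝔫),
      (z : F) - (x : F) * (b : F) ∈ V₂.nonunits) :
    maximalIdeal ↥(ndrLoc O 𝔫) = Ideal.span {algebraMap A ↥(ndrLoc O 𝔫) τ, x, y} := by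
  refine (ndf_max (algebraMap A ↥(ndrLoc O 𝔫) τ) x y (ndiP (ndrLoc O 𝔫) V₁)
    (ndiP (ndrLoc O 𝔫) V₂) ?_ ?_ ?_ ?_ ?_ ?_ ?_).2
  · exact fun z h1 h2 => ndi_hred_P O 𝔫 V₁ V₂ hOV₁ hOV₂ hΛV₁ hΛV₂ τ hVτ z h1 h2
  · exact (ndi_mem_P _ V₁ hΛV₁ _).mpr hτV₁
  · exact (ndi_mem_P _ V₁ hΛV₁ _).mpr hx
  · exact ndi_P_le_max _ V₁ hΛV₁
  · exact ndi_P_le_max _ V₂ hΛV₂ ((ndi_mem_P _ V₂ hΛV₂ _).mpr hy)
  · intro z hz
    obtain ⟨b, hb⟩ := hB₁ z hz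
    exact ⟨b, (ndi_mem_P _ V₁ hΛV₁ _).mpr hb⟩
  · intro z hz
    obtain ⟨b, hb⟩ := hB₂ z hz
    exact ⟨b, (ndi_mem_P _ V₂ hΛV₂ _).mpr hb⟩

end Abs

/-! ### Concrete part: the level-`M q` carrier -/

section Conc

variable (M q : ℕ) [NeZero M] [hq : Fact q.Prime] (hM : ¬ q ∣ M)
  (K0 : Type*) [Field K0] [Algebra ℚ K0] [Algebra K0 Qb]
  (A0 : ValuationSubring K0) [IsDiscreteValuationRing ↥A0]
  {a2 : ℕ} (H : HauptRec a2 q) (ha2 : a2 ∣ M)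

/-- `α h` is the Hauptmodul at level `M q`. -/
theorem ndi_alpha_h :
    heckeAlphaBar K0 M q (nunH K0 M H ha2) = nunH K0 (M * q) H (ha2.mul_right q) :=
  Subtype.ext (coe_heckeAlphaBar M q _)

/-- `w (α h) = β h`. -/
theorem ndi_swap_h :
    va2Swap M q hq.out hM K0 (nunH K0 (M * q) H (ha2.mul_right q))
      = heckeBetaBar K0 M q (nunH K0 M H ha2) := by
  rw [← ndi_alpha_h M q K0 H ha2, va2Swap_alpha]

/-- `w (β h) = α h`. -/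
theorem ndi_swap_bh :
    va2Swap M q hq.out hM K0 (heckeBetaBar K0 M q (nunH K0 M H ha2))
      = nunH K0 (M * q) H (ha2.mul_right q) := by
  rw [va2Swap_beta, ndi_alpha_h M q K0 H ha2]

/-- **Kronecker's congruence for the Hauptmodul in `V₁`**: `(α h) ^ q - β h ∈ 𝔪_{V₁}`. -/
theorem ndi_kron1 (hA0 : A0.LiesOverPrime q) :
    heckeAlphaBar K0 M q (nunH K0 M H ha2) ∈ va2V1 M q K0 A0 ∧
    heckeBetaBar K0 M q (nunH K0 M H ha2) ∈ va2V1 M q K0 A0 ∧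
    heckeAlphaBar K0 M q (nunH K0 M H ha2) ^ q - heckeBetaBar K0 M q (nunH K0 M H ha2)
      ∈ (va2V1 M q K0 A0).nonunits :=
  krv_V1_gen' A0 q hq.out hA0 (va2V1 M q K0 A0) (fun _ => Iff.rfl) _ _ H.hZ
    (by rw [coe_heckeAlphaBar]; rfl) (by rw [coe_heckeBetaBar, coe_heckeAlphaBar])

/-- **Kronecker's congruence for the Hauptmodul in `V₂`**: `α h - (β h) ^ q ∈ 𝔪_{V₂}`. -/
theorem ndi_kron2 (hA0 : A0.LiesOverPrime q) :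
    heckeAlphaBar K0 M q (nunH K0 M H ha2) ∈ va2V2 M q hM K0 A0 ∧
    heckeBetaBar K0 M q (nunH K0 M H ha2) ∈ va2V2 M q hM K0 A0 ∧
    heckeAlphaBar K0 M q (nunH K0 M H ha2) - heckeBetaBar K0 M q (nunH K0 M H ha2) ^ q
      ∈ (va2V2 M q hM K0 A0).nonunits :=
  krv_V2_gen' A0 q hq.out hA0 (va2V1 M q K0 A0) (fun _ => Iff.rfl)
    (va2Swap M q hq.out hM K0) (va2V2 M q hM K0 A0) (fun _ => Iff.rfl) _ _ H.hZ
    (by rw [coe_heckeAlphaBar]; rfl) (by rw [coe_heckeBetaBar, coe_heckeAlphaBar])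
    (va2Swap_alpha M q hq.out hM K0 _) (va2Swap_beta M q hq.out hM K0 _)

include ha2 in
/-- **The special fibre of the Hauptmodul chart at level `M q` is reduced**: the chart lies in
both valuation rings, `τ ∈ 𝔪_{V₁}`, and `O ∩ 𝔪_{V₁} ∩ 𝔪_{V₂} = τ O`. -/
theorem ndi_hVtau [Algebra A0 ↥(laurentBaseChange K0 (modularFunctionFieldFull (M * q)))] [IsScalarTower A0 K0 ↥(laurentBaseChange K0 (modularFunctionFieldFull (M * q)))]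
    (hA0 : A0.LiesOverPrime q)
    (c0 c1 : A0) (hc : IsLocalRing.residue A0 c0 ≠ IsLocalRing.residue A0 c1)
    (t : ↥(laurentBaseChange K0 (modularFunctionFieldFull (M * q)))) (ht : (t : LaurentSeries K0) = cinstU H K0 (c0 : K0) (c1 : K0))
    (τ : A0) (hτ : Irreducible τ) :
    (∀ x ∈ chtO A0 {t}, x ∈ va2V1 M q K0 A0 ∧ x ∈ va2V2 M q hM K0 A0) ∧
    algebraMap A0 ↥(laurentBaseChange K0 (modularFunctionFieldFull (M * q))) τ ∈ (va2V1 M q K0 A0).nonunits ∧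
    (∀ x ∈ chtO A0 {t}, x ∈ (va2V1 M q K0 A0).nonunits → x ∈ (va2V2 M q hM K0 A0).nonunits →
      ∃ y ∈ chtO A0 {t}, x = algebraMap A0 ↥(laurentBaseChange K0 (modularFunctionFieldFull (M * q))) τ * y) := by
  obtain ⟨-, hτV, -⟩ := c2i_hyps A0 (M * q) H (va2V1 M q K0 A0) (fun _ => Iff.rfl) c0 c1 hc t ht
    τ hτ
  obtain ⟨-, -, -, -, -, -, -, -, -, -, -, hV0, -, -, -, hVτ, -⟩ :=
    c2i_chart A0 (M * q) H (va2V1 M q K0 A0) (va2V2 M q hM K0 A0) (fun _ => Iff.rfl) c0 c1 hc t ht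
      τ hτ (va2_hA2 A0 M q hM) (va2_htaugen2 A0 M q hM τ hτ) (va2_htV2 A0 M q hM H ha2 c0 c1 t ht)
      (va2_htV2' A0 M q hM H ha2 c0 c1 t ht) (va2_hex A0 M q hM H ha2 hA0 c0 c1 hc t ht) 1
      Nat.one_pos
  exact ⟨hV0, hτV, hVτ⟩

/-- **NODE-IDEALS at a crossing point of the Hauptmodul chart at level `M q`.**
`𝔫` a prime of `O = chtO A0 {t}` containing the centres of `V₁ = va2V1` and `V₂ = va2V2`,
`Λ = ndrLoc O 𝔫`, `h, θ ∈ Λ` with `h = α h`, `θ = β h` in `F`.  Then: `Λ ⊆ V₁ ∩ V₂`;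
`Λ ∩ 𝔪_{V₁} ∩ 𝔪_{V₂} ⊆ τ Λ`; `x = h ^ q - θ ∈ 𝔪_{V₁}`, `y = h - θ ^ q ∈ 𝔪_{V₂}`;
`x * y ∈ τ Λ` (`hxy` of `ndq_main`); and `𝔪_Λ = (τ, x, y)` (`hmax` of `ndq_main`) from the two
branch conditions. -/
theorem ndi_main [Algebra A0 ↥(laurentBaseChange K0 (modularFunctionFieldFull (M * q)))] [IsScalarTower A0 K0 ↥(laurentBaseChange K0 (modularFunctionFieldFull (M * q)))]
    (hA0 : A0.LiesOverPrime q)
    (c0 c1 : A0) (hc : IsLocalRing.residue A0 c0 ≠ IsLocalRing.residue A0 c1)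
    (t : ↥(laurentBaseChange K0 (modularFunctionFieldFull (M * q)))) (ht : (t : LaurentSeries K0) = cinstU H K0 (c0 : K0) (c1 : K0))
    (τ : A0) (hτ : Irreducible τ)
    (𝔫 : Ideal ↥(chtO A0 {t})) [h𝔫 : 𝔫.IsPrime]
    (hcr₁ : ∀ x : ↥(chtO A0 {t}), (x : ↥(laurentBaseChange K0 (modularFunctionFieldFull (M * q)))) ∈ (va2V1 M q K0 A0).nonunits → x ∈ 𝔫)
    (hcr₂ : ∀ x : ↥(chtO A0 {t}), (x : ↥(laurentBaseChange K0 (modularFunctionFieldFull (M * q)))) ∈ (va2V2 M q hM K0 A0).nonunits → x ∈ 𝔫)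
    (h θ : ↥(ndrLoc (chtO A0 {t}) 𝔫))
    (hh : (h : ↥(laurentBaseChange K0 (modularFunctionFieldFull (M * q)))) = heckeAlphaBar K0 M q (nunH K0 M H ha2))
    (hθ : (θ : ↥(laurentBaseChange K0 (modularFunctionFieldFull (M * q)))) = heckeBetaBar K0 M q (nunH K0 M H ha2)) :
    (∀ y : ↥(ndrLoc (chtO A0 {t}) 𝔫),
      (y : ↥(laurentBaseChange K0 (modularFunctionFieldFull (M * q)))) ∈ va2V1 M q K0 A0 ∧ (y : ↥(laurentBaseChange K0 (modularFunctionFieldFull (M * q)))) ∈ va2V2 M q hM K0 A0) ∧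
    (∀ z : ↥(ndrLoc (chtO A0 {t}) 𝔫), (z : ↥(laurentBaseChange K0 (modularFunctionFieldFull (M * q)))) ∈ (va2V1 M q K0 A0).nonunits →
      (z : ↥(laurentBaseChange K0 (modularFunctionFieldFull (M * q)))) ∈ (va2V2 M q hM K0 A0).nonunits →
      z ∈ Ideal.span {algebraMap A0 ↥(ndrLoc (chtO A0 {t}) 𝔫) τ}) ∧
    ((h ^ q - θ : ↥(ndrLoc (chtO A0 {t}) 𝔫)) : ↥(laurentBaseChange K0 (modularFunctionFieldFull (M * q)))) ∈ (va2V1 M q K0 A0).nonunits ∧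
    ((h - θ ^ q : ↥(ndrLoc (chtO A0 {t}) 𝔫)) : ↥(laurentBaseChange K0 (modularFunctionFieldFull (M * q)))) ∈ (va2V2 M q hM K0 A0).nonunits ∧
    (∃ l : ↥(ndrLoc (chtO A0 {t}) 𝔫),
      (h ^ q - θ) * (h - θ ^ q) = algebraMap A0 ↥(ndrLoc (chtO A0 {t}) 𝔫) τ * l) ∧
    ((∀ z ∈ maximalIdeal ↥(ndrLoc (chtO A0 {t}) 𝔫), ∃ b : ↥(ndrLoc (chtO A0 {t}) 𝔫),
        (z : ↥(laurentBaseChange K0 (modularFunctionFieldFull (M * q)))) - ((h - θ ^ q : ↥(ndrLoc (chtO A0 {t}) 𝔫)) : ↥(laurentBaseChange K0 (modularFunctionFieldFull (M * q)))) * (b : ↥(laurentBaseChange K0 (modularFunctionFieldFull (M * q))))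
          ∈ (va2V1 M q K0 A0).nonunits) →
      (∀ z ∈ maximalIdeal ↥(ndrLoc (chtO A0 {t}) 𝔫), ∃ b : ↥(ndrLoc (chtO A0 {t}) 𝔫),
        (z : ↥(laurentBaseChange K0 (modularFunctionFieldFull (M * q)))) - ((h ^ q - θ : ↥(ndrLoc (chtO A0 {t}) 𝔫)) : ↥(laurentBaseChange K0 (modularFunctionFieldFull (M * q)))) * (b : ↥(laurentBaseChange K0 (modularFunctionFieldFull (M * q))))
          ∈ (va2V2 M q hM K0 A0).nonunits) →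
      maximalIdeal ↥(ndrLoc (chtO A0 {t}) 𝔫)
        = Ideal.span {algebraMap A0 ↥(ndrLoc (chtO A0 {t}) 𝔫) τ, h ^ q - θ, h - θ ^ q}) := by
  obtain ⟨hV0, hτV, hVτ⟩ := ndi_hVtau M q hM K0 A0 H ha2 hA0 c0 c1 hc t ht τ hτ
  have hOV₁ : ∀ x ∈ chtO A0 {t}, x ∈ va2V1 M q K0 A0 := fun x hx => (hV0 x hx).1
  have hOV₂ : ∀ x ∈ chtO A0 {t}, x ∈ va2V2 M q hM K0 A0 := fun x hx => (hV0 x hx).2
  have hΛV₁ : ∀ y : ↥(ndrLoc (chtO A0 {t}) 𝔫), (y : ↥(laurentBaseChange K0 (modularFunctionFieldFull (M * q)))) ∈ va2V1 M q K0 A0 :=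
    ndi_loc_mem (chtO A0 {t}) 𝔫 _ hOV₁ hcr₁
  have hΛV₂ : ∀ y : ↥(ndrLoc (chtO A0 {t}) 𝔫), (y : ↥(laurentBaseChange K0 (modularFunctionFieldFull (M * q)))) ∈ va2V2 M q hM K0 A0 :=
    ndi_loc_mem (chtO A0 {t}) 𝔫 _ hOV₂ hcr₂
  have hx : ((h ^ q - θ : ↥(ndrLoc (chtO A0 {t}) 𝔫)) : ↥(laurentBaseChange K0 (modularFunctionFieldFull (M * q)))) ∈ (va2V1 M q K0 A0).nonunits := by
    have h1 : ((h ^ q - θ : ↥(ndrLoc (chtO A0 {t}) 𝔫)) : ↥(laurentBaseChange K0 (modularFunctionFieldFull (M * q)))) = (h : ↥(laurentBaseChange K0 (modularFunctionFieldFull (M * q)))) ^ q - (θ : ↥(laurentBaseChange K0 (modularFunctionFieldFull (M * q)))) := rfl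
    rw [h1, hh, hθ]
    exact (ndi_kron1 M q K0 A0 H ha2 hA0).2.2
  have hy : ((h - θ ^ q : ↥(ndrLoc (chtO A0 {t}) 𝔫)) : ↥(laurentBaseChange K0 (modularFunctionFieldFull (M * q)))) ∈ (va2V2 M q hM K0 A0).nonunits := by
    have h1 : ((h - θ ^ q : ↥(ndrLoc (chtO A0 {t}) 𝔫)) : ↥(laurentBaseChange K0 (modularFunctionFieldFull (M * q)))) = (h : ↥(laurentBaseChange K0 (modularFunctionFieldFull (M * q)))) - (θ : ↥(laurentBaseChange K0 (modularFunctionFieldFull (M * q)))) ^ q := rfl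
    rw [h1, hh, hθ]
    exact (ndi_kron2 M q hM K0 A0 H ha2 hA0).2.2
  refine ⟨fun y => ⟨hΛV₁ y, hΛV₂ y⟩, ?_, hx, hy, ?_, ?_⟩
  · exact fun z h1 h2 => ndi_hred (chtO A0 {t}) 𝔫 _ _ hOV₁ hOV₂ τ hVτ z h1 h2
  · exact ndi_hxy (chtO A0 {t}) 𝔫 _ _ hOV₁ hOV₂ hΛV₁ hΛV₂ τ hVτ _ _ hx hy
  · intro hB₁ hB₂
    exact ndi_max (chtO A0 {t}) 𝔫 _ _ hOV₁ hOV₂ hΛV₁ hΛV₂ τ hτV hVτ _ _ hx hy hB₁ hB₂

end Conc

end Fermat.Agent.S34
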