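import Mathlib
import Fermat.Agent.S18.CechChart
import Fermat.Agent.S34.NodeIdeals

/-!
# S34, leaf NODE-CHART: the chart facts of `ngl_main` at both levels

The hypotheses of the abstract glue `ngl_main` which only concern the Hauptmodul charts:

at an arbitrary level `N` (used for `N = M`, the chart `OM = chtO A0 {tM}`, and for `N = M q`,
the chart `O = chtO A0 {t}`), `t` with expansion `cinstU H K0 c0 c1`:
* `nch_cl`    : the chart is integrally closed in its field (`hOMcl`, `hOcl`; generic);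
* `nch_frac`  : every element of the field is a quotient of chart elements (`hOMfrac`, `hOfrac`);
* `nch_noeth` : the chart is a noetherian ring;
* `nch_level` : the three together;

at level `M q`, for the two valuation rings `V₁ = va2V1`, `V₂ = va2V2`:
* `nch_O1`, `nch_O2` : the chart lies in `V₁` and in `V₂` (`hO₁`, `hO₂`);
* `nch_tau1`  : `τ ∈ 𝔪_{V₁}` (`hτ₁`);
* `nch_red`   : the special fibre is reduced, subtype form (`hred`);
* `nch_tau_mem` : `τ` lies in every prime containing the centre of `V₁` (`hτ𝔫`);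
* `nch_top`   : all the level-`M q` facts together.

Names are prefixed `nch_`.
-/

set_option autoImplicit false
set_option linter.unusedSectionVars false

noncomputable section

open ModularCurve AlgebraicCurve Polynomial
open Fermat.Agent.S18 Fermat.Agent.S37

namespace Fermat.Agent.S34

local notation "Qb" => AlgebraicClosure ℚ

/-- **The chart is integrally closed in its field** (`hOcl`, `hOMcl` of `ngl_main`). -/
theorem nch_cl {A F : Type*} [CommRing A] [Field F] [Algebra A F] (t : F) (x : F)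
    (hx : IsIntegral ↥(chtO A {t}) x) : x ∈ chtO A {t} :=
  cht_integral_closed {t} hx

section Level

variable {K0 : Type*} [Field K0] [Algebra ℚ K0] (A0 : ValuationSubring K0)
  [IsDiscreteValuationRing A0] (N : ℕ) [NeZero N]
  {a2 ℓ : ℕ} [Fact ℓ.Prime] (H : HauptRec a2 ℓ)

/-- transcendence of the chart coordinate over `A0` and the finiteness datum `hfin` -/
theorem nch_hfin
    [Algebra A0 ↥(laurentBaseChange K0 (modularFunctionFieldFull N))]
    [IsScalarTower A0 K0 ↥(laurentBaseChange K0 (modularFunctionFieldFull N))]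
    (c0 c1 : A0) (hc : IsLocalRing.residue A0 c0 ≠ IsLocalRing.residue A0 c1)
    (t : ↥(laurentBaseChange K0 (modularFunctionFieldFull N)))
    (ht : (t : LaurentSeries K0) = cinstU H K0 (c0 : K0) (c1 : K0)) :
    Transcendental A0 t ∧
    ∃ (n : ℕ) (β : Fin n → ↥(laurentBaseChange K0 (modularFunctionFieldFull N))),
      ∀ x : ↥(laurentBaseChange K0 (modularFunctionFieldFull N)),
        ∃ (a : Fin n → A0[X]) (d : A0[X]),
          aeval t d ≠ 0 ∧ aeval t d * x = ∑ i, aeval t (a i) * β i := by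
  obtain ⟨τ, hτ⟩ := IsDiscreteValuationRing.exists_irreducible A0
  obtain ⟨-, -, -, htt, -, -, -, hfin, -⟩ :=
    c2i_hyps A0 N H (graOf (gra_decomp_dvr A0 N)) (fun _ => Iff.rfl) c0 c1 hc t ht τ hτ
  exact ⟨fun h => htt (h.extendScalars (IsFractionRing.injective A0 K0)), hfin⟩

/-- **Every element of the level-`N` field is a quotient of chart elements** (`hOfrac`,
`hOMfrac` of `ngl_main`). -/
theorem nch_frac
    [Algebra A0 ↥(laurentBaseChange K0 (modularFunctionFieldFull N))]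
    [IsScalarTower A0 K0 ↥(laurentBaseChange K0 (modularFunctionFieldFull N))]
    (c0 c1 : A0) (hc : IsLocalRing.residue A0 c0 ≠ IsLocalRing.residue A0 c1)
    (t : ↥(laurentBaseChange K0 (modularFunctionFieldFull N)))
    (ht : (t : LaurentSeries K0) = cinstU H K0 (c0 : K0) (c1 : K0))
    (x : ↥(laurentBaseChange K0 (modularFunctionFieldFull N))) :
    ∃ a ∈ chtO A0 {t}, ∃ s ∈ chtO A0 {t}, s ≠ 0 ∧ x * s = a := by
  obtain ⟨htA, hfin⟩ := nch_hfin A0 N H c0 c1 hc t ht
  exact cht_hfrac t htA hfin x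

/-- **The level-`N` Hauptmodul chart is a noetherian ring.** -/
theorem nch_noeth
    [Algebra A0 ↥(laurentBaseChange K0 (modularFunctionFieldFull N))]
    [IsScalarTower A0 K0 ↥(laurentBaseChange K0 (modularFunctionFieldFull N))]
    (c0 c1 : A0) (hc : IsLocalRing.residue A0 c0 ≠ IsLocalRing.residue A0 c1)
    (t : ↥(laurentBaseChange K0 (modularFunctionFieldFull N)))
    (ht : (t : LaurentSeries K0) = cinstU H K0 (c0 : K0) (c1 : K0)) :
    IsNoetherianRing ↥(chtO A0 {t}) := by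
  obtain ⟨htA, hfin⟩ := nch_hfin A0 N H c0 c1 hc t ht
  have : CharZero K0 := algebraRat.charZero K0
  have : CharZero A0 := (algebraMap A0 K0).charZero
  obtain ⟨b, hb, hspan⟩ := cht_h4 t htA hfin
  exact cz_noeth t (chtO A0 {t}) (cht_h1 t).1 b hb hspan

/-- The chart facts at level `N`: noetherian, integrally closed, fraction field. -/
theorem nch_level
    [Algebra A0 ↥(laurentBaseChange K0 (modularFunctionFieldFull N))]
    [IsScalarTower A0 K0 ↥(laurentBaseChange K0 (modularFunctionFieldFull N))]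
    (c0 c1 : A0) (hc : IsLocalRing.residue A0 c0 ≠ IsLocalRing.residue A0 c1)
    (t : ↥(laurentBaseChange K0 (modularFunctionFieldFull N)))
    (ht : (t : LaurentSeries K0) = cinstU H K0 (c0 : K0) (c1 : K0)) :
    IsNoetherianRing ↥(chtO A0 {t}) ∧
    (∀ x : ↥(laurentBaseChange K0 (modularFunctionFieldFull N)),
      IsIntegral ↥(chtO A0 {t}) x → x ∈ chtO A0 {t}) ∧
    (∀ x : ↥(laurentBaseChange K0 (modularFunctionFieldFull N)),
      ∃ a ∈ chtO A0 {t}, ∃ s ∈ chtO A0 {t}, s ≠ 0 ∧ x * s = a) :=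
  ⟨nch_noeth A0 N H c0 c1 hc t ht, fun x hx => nch_cl t x hx,
    fun x => nch_frac A0 N H c0 c1 hc t ht x⟩

end Level

section Top

variable (M q : ℕ) [NeZero M] [hq : Fact q.Prime] (hM : ¬ q ∣ M)
  (K0 : Type*) [Field K0] [Algebra ℚ K0] [Algebra K0 Qb]
  (A0 : ValuationSubring K0) [IsDiscreteValuationRing ↥A0]
  {a2 : ℕ} (H : HauptRec a2 q) (ha2 : a2 ∣ M)

omit [Algebra K0 Qb] in
/-- `hτ₁` of `ngl_main`: `τ ∈ 𝔪_{V₁}`. -/
theorem nch_tau1 [Algebra A0 ↥(laurentBaseChange K0 (modularFunctionFieldFull (M * q)))]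
    [IsScalarTower A0 K0 ↥(laurentBaseChange K0 (modularFunctionFieldFull (M * q)))]
    (c0 c1 : A0) (hc : IsLocalRing.residue A0 c0 ≠ IsLocalRing.residue A0 c1)
    (t : ↥(laurentBaseChange K0 (modularFunctionFieldFull (M * q))))
    (ht : (t : LaurentSeries K0) = cinstU H K0 (c0 : K0) (c1 : K0))
    (τ : A0) (hτ : Irreducible τ) :
    algebraMap A0 ↥(laurentBaseChange K0 (modularFunctionFieldFull (M * q))) τ
      ∈ (va2V1 M q K0 A0).nonunits :=
  (c2i_hyps A0 (M * q) H (va2V1 M q K0 A0) (fun _ => Iff.rfl) c0 c1 hc t ht τ hτ).2.1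

omit [Algebra K0 Qb] in
/-- `hO₁` of `ngl_main`: the level-`M q` chart lies in `V₁`. -/
theorem nch_O1 [Algebra A0 ↥(laurentBaseChange K0 (modularFunctionFieldFull (M * q)))]
    [IsScalarTower A0 K0 ↥(laurentBaseChange K0 (modularFunctionFieldFull (M * q)))]
    (c0 c1 : A0) (hc : IsLocalRing.residue A0 c0 ≠ IsLocalRing.residue A0 c1)
    (t : ↥(laurentBaseChange K0 (modularFunctionFieldFull (M * q))))
    (ht : (t : LaurentSeries K0) = cinstU H K0 (c0 : K0) (c1 : K0))
    (x : ↥(laurentBaseChange K0 (modularFunctionFieldFull (M * q)))) (hx : x ∈ chtO A0 {t}) :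
    x ∈ va2V1 M q K0 A0 := by
  obtain ⟨τ, hτ⟩ := IsDiscreteValuationRing.exists_irreducible A0
  obtain ⟨hA, -, -, -, htV, -⟩ :=
    c2i_hyps A0 (M * q) H (va2V1 M q K0 A0) (fun _ => Iff.rfl) c0 c1 hc t ht τ hτ
  exact cht_le_valuationSubring (va2V1 M q K0 A0) hA (s := {t}) (by rintro y rfl; exact htV) hx

include ha2 in
/-- `hO₂` of `ngl_main`: the level-`M q` chart lies in `V₂`. -/
theorem nch_O2 [Algebra A0 ↥(laurentBaseChange K0 (modularFunctionFieldFull (M * q)))]
    [IsScalarTower A0 K0 ↥(laurentBaseChange K0 (modularFunctionFieldFull (M * q)))]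
    (hA0 : A0.LiesOverPrime q)
    (c0 c1 : A0) (hc : IsLocalRing.residue A0 c0 ≠ IsLocalRing.residue A0 c1)
    (t : ↥(laurentBaseChange K0 (modularFunctionFieldFull (M * q))))
    (ht : (t : LaurentSeries K0) = cinstU H K0 (c0 : K0) (c1 : K0))
    (x : ↥(laurentBaseChange K0 (modularFunctionFieldFull (M * q)))) (hx : x ∈ chtO A0 {t}) :
    x ∈ va2V2 M q hM K0 A0 := by
  obtain ⟨τ, hτ⟩ := IsDiscreteValuationRing.exists_irreducible A0
  exact ((ndi_hVtau M q hM K0 A0 H ha2 hA0 c0 c1 hc t ht τ hτ).1 x hx).2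

include ha2 in
/-- `hred` of `ngl_main`: the special fibre of the level-`M q` chart is reduced
(`O ∩ 𝔪_{V₁} ∩ 𝔪_{V₂} = τ O`), subtype form. -/
theorem nch_red [Algebra A0 ↥(laurentBaseChange K0 (modularFunctionFieldFull (M * q)))]
    [IsScalarTower A0 K0 ↥(laurentBaseChange K0 (modularFunctionFieldFull (M * q)))]
    (hA0 : A0.LiesOverPrime q)
    (c0 c1 : A0) (hc : IsLocalRing.residue A0 c0 ≠ IsLocalRing.residue A0 c1)
    (t : ↥(laurentBaseChange K0 (modularFunctionFieldFull (M * q))))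
    (ht : (t : LaurentSeries K0) = cinstU H K0 (c0 : K0) (c1 : K0))
    (τ : A0) (hτ : Irreducible τ) (x : ↥(chtO A0 {t}))
    (h1 : (x : ↥(laurentBaseChange K0 (modularFunctionFieldFull (M * q))))
      ∈ (va2V1 M q K0 A0).nonunits)
    (h2 : (x : ↥(laurentBaseChange K0 (modularFunctionFieldFull (M * q))))
      ∈ (va2V2 M q hM K0 A0).nonunits) :
    ∃ u : ↥(chtO A0 {t}), x = algebraMap A0 ↥(chtO A0 {t}) τ * u := by
  obtain ⟨y, hy, hxy⟩ :=
    (ndi_hVtau M q hM K0 A0 H ha2 hA0 c0 c1 hc t ht τ hτ).2.2 _ x.2 h1 h2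
  exact ⟨⟨y, hy⟩, Subtype.ext hxy⟩

omit [Algebra K0 Qb] in
/-- `hτ𝔫` of `ngl_main`: `τ` lies in every ideal of the chart containing the centre of `V₁`. -/
theorem nch_tau_mem [Algebra A0 ↥(laurentBaseChange K0 (modularFunctionFieldFull (M * q)))]
    [IsScalarTower A0 K0 ↥(laurentBaseChange K0 (modularFunctionFieldFull (M * q)))]
    (c0 c1 : A0) (hc : IsLocalRing.residue A0 c0 ≠ IsLocalRing.residue A0 c1)
    (t : ↥(laurentBaseChange K0 (modularFunctionFieldFull (M * q))))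
    (ht : (t : LaurentSeries K0) = cinstU H K0 (c0 : K0) (c1 : K0))
    (τ : A0) (hτ : Irreducible τ) (𝔫 : Ideal ↥(chtO A0 {t}))
    (hc₁ : ∀ x : ↥(chtO A0 {t}),
      (x : ↥(laurentBaseChange K0 (modularFunctionFieldFull (M * q))))
        ∈ (va2V1 M q K0 A0).nonunits → x ∈ 𝔫) :
    algebraMap A0 ↥(chtO A0 {t}) τ ∈ 𝔫 :=
  hc₁ _ (nch_tau1 M q K0 A0 H c0 c1 hc t ht τ hτ)

include ha2 in
/-- **All the chart facts of `ngl_main` at level `M q`**: noetherian, integrally closed,
fraction field, `O ⊆ V₁`, `O ⊆ V₂`, `τ ∈ 𝔪_{V₁}`, reduced special fibre. -/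
theorem nch_top [Algebra A0 ↥(laurentBaseChange K0 (modularFunctionFieldFull (M * q)))]
    [IsScalarTower A0 K0 ↥(laurentBaseChange K0 (modularFunctionFieldFull (M * q)))]
    (hA0 : A0.LiesOverPrime q)
    (c0 c1 : A0) (hc : IsLocalRing.residue A0 c0 ≠ IsLocalRing.residue A0 c1)
    (t : ↥(laurentBaseChange K0 (modularFunctionFieldFull (M * q))))
    (ht : (t : LaurentSeries K0) = cinstU H K0 (c0 : K0) (c1 : K0))
    (τ : A0) (hτ : Irreducible τ) :
    IsNoetherianRing ↥(chtO A0 {t}) ∧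
    (∀ x : ↥(laurentBaseChange K0 (modularFunctionFieldFull (M * q))),
      IsIntegral ↥(chtO A0 {t}) x → x ∈ chtO A0 {t}) ∧
    (∀ x : ↥(laurentBaseChange K0 (modularFunctionFieldFull (M * q))),
      ∃ a ∈ chtO A0 {t}, ∃ s ∈ chtO A0 {t}, s ≠ 0 ∧ x * s = a) ∧
    (∀ x ∈ chtO A0 {t}, x ∈ va2V1 M q K0 A0) ∧
    (∀ x ∈ chtO A0 {t}, x ∈ va2V2 M q hM K0 A0) ∧
    algebraMap A0 ↥(laurentBaseChange K0 (modularFunctionFieldFull (M * q))) τ
      ∈ (va2V1 M q K0 A0).nonunits ∧
    (∀ x : ↥(chtO A0 {t}),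
      (x : ↥(laurentBaseChange K0 (modularFunctionFieldFull (M * q))))
        ∈ (va2V1 M q K0 A0).nonunits →
      (x : ↥(laurentBaseChange K0 (modularFunctionFieldFull (M * q))))
        ∈ (va2V2 M q hM K0 A0).nonunits →
      ∃ u : ↥(chtO A0 {t}), x = algebraMap A0 ↥(chtO A0 {t}) τ * u) :=
  ⟨nch_noeth A0 (M * q) H c0 c1 hc t ht, fun x hx => nch_cl t x hx,
    fun x => nch_frac A0 (M * q) H c0 c1 hc t ht x,
    fun x hx => nch_O1 M q K0 A0 H c0 c1 hc t ht x hx,
    fun x hx => nch_O2 M q hM K0 A0 H ha2 hA0 c0 c1 hc t ht x hx,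
    nch_tau1 M q K0 A0 H c0 c1 hc t ht τ hτ,
    fun x h1 h2 => nch_red M q hM K0 A0 H ha2 hA0 c0 c1 hc t ht τ hτ x h1 h2⟩

end Top

end Fermat.Agent.S34
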