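import Mathlib
import Fermat.Agent.S37.FrobSeries
import Fermat.Agent.S34.TwoValSwapExh

/-!
# S34, leaf NODE-INSEP: pure inseparability of the second valuation over `α`

Setting of `tvx_exh` (S34/TwoValSwapExh): `α β : E →+* F`, `w : F →+* F` exchanging `α` and `β`,
`V₁` a valuation subring of `F` with residue map `ρ₁ : V₁ → L` such that `ρ₁ ∘ α = ρE` and
`ρ₁ ∘ β = φ ∘ ρE`, `V₂ = V₁.comap w`.

The endomorphism `φ` (`t ↦ t^ℓ` on `k((t))` in the instantiation) is the `ℓ`-power Frobenius only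
up to the coefficientwise Frobenius twist (`tvf_pow_char`), so `z ^ ℓ` need not be congruent to an
element of `α VE` modulo the non-units of `V₂`.  What the residue-degree-one facts do give:

* `isv_frob_iter`: `x ^ (ℓ ^ f) = (t ↦ t^ℓ)^[f] x` on `k((t))` when `c ^ (ℓ ^ f) = c` on `k`;
* `isv_chain`: the residues `φ^[n] (ρE a)` are residues of elements of `VE`;
* `isv_pow`: every `z ∈ V₂` has `z ^ (ℓ ^ f) ≡ α a` modulo the non-units of `V₂`, `a ∈ VE`.
-/

set_option autoImplicit false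

open ModularCurve

namespace Fermat.Agent.S34

open Fermat.Agent.S37

section Series

variable {k : Type*} [Field k] (l : ℕ) [Fact l.Prime] [CharP k l]

/-- `x ^ (ℓ ^ n) = (sⁿ x)(t^(ℓ^n))`, `s` the coefficientwise Frobenius -/
theorem isv_frob_iter_aux (n : ℕ) (x : LaurentSeries k) :
    x ^ (l ^ n) = (qExpand k l)^[n] (coeffMap (iterateFrobenius k l n) x) := by
  induction n generalizing x with
  | zero =>
    rw [pow_zero, pow_one, Function.iterate_zero, id_eq]
    ext m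
    rw [coeffMap_coeff, iterateFrobenius_def, pow_zero, pow_one]
  | succ n ih =>
    rw [pow_succ', pow_mul, ih (x ^ l), tvf_pow_char l x, coeffMap_qExpand,
      Function.iterate_succ_apply]
    congr 2
    ext m
    rw [coeffMap_coeff, coeffMap_coeff, coeffMap_coeff, iterateFrobenius_def, frobenius_def,
      iterateFrobenius_def, ← pow_mul, pow_succ']

/-- **iterated Frobenius on Laurent series**: if `c ^ (ℓ ^ f) = c` on the coefficient field,
then `x ^ (ℓ ^ f) = x(t^(ℓ^f))`. -/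
theorem isv_frob_iter (f : ℕ) (hk : ∀ c : k, c ^ (l ^ f) = c) (x : LaurentSeries k) :
    x ^ (l ^ f) = (qExpand k l)^[f] x := by
  rw [isv_frob_iter_aux l f x]
  congr 1
  ext m
  rw [coeffMap_coeff, iterateFrobenius_def, hk]

end Series

section Nonunits

variable {F : Type*} [Field F]

theorem isv_mem_nonunits_iff (W : ValuationSubring F) (x : F) :
    x ∈ W.nonunits ↔ x = 0 ∨ x⁻¹ ∉ W := by
  rw [ValuationSubring.mem_nonunits_iff]
  constructor
  · intro h
    by_cases hx : x = 0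
    · exact Or.inl hx
    · right
      intro hinv
      have h1 := (W.valuation_le_one_iff x⁻¹).mpr hinv
      rw [map_inv₀] at h1
      have h0 : W.valuation x ≠ 0 := (Valuation.ne_zero_iff _).mpr hx
      have h2 : 1 ≤ W.valuation x := by
        rwa [inv_le_one₀ (zero_lt_iff.mpr h0)] at h1
      exact absurd h (not_lt.mpr h2)
  · rintro (rfl | h)
    · rw [map_zero]
      exact zero_lt_one
    · by_contra hlt
      rw [not_lt] at hlt
      apply h
      rw [← W.valuation_le_one_iff, map_inv₀]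
      have hx0 : W.valuation x ≠ 0 := fun h0 => by
        rw [h0] at hlt
        exact absurd hlt (not_le.mpr zero_lt_one)
      rwa [inv_le_one₀ (zero_lt_iff.mpr hx0)]

theorem isv_nonunits_add (W : ValuationSubring F) {x y : F} (hx : x ∈ W.nonunits)
    (hy : y ∈ W.nonunits) : x + y ∈ W.nonunits := by
  rw [ValuationSubring.mem_nonunits_iff] at hx hy ⊢
  exact lt_of_le_of_lt (Valuation.map_add _ _ _) (max_lt hx hy)

theorem isv_nonunits_mul_mem (W : ValuationSubring F) {x y : F} (hx : x ∈ W)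
    (hy : y ∈ W.nonunits) : x * y ∈ W.nonunits := by
  rw [ValuationSubring.mem_nonunits_iff] at hy ⊢
  rw [map_mul]
  have h1 := (W.valuation_le_one_iff x).mpr hx
  calc W.valuation x * W.valuation y ≤ 1 * W.valuation y := mul_le_mul_left h1 _
    _ = W.valuation y := one_mul _
    _ < 1 := hy

/-- `x ≡ y` modulo the non-units implies `x ^ n ≡ y ^ n` -/
theorem isv_nonunits_sub_pow (W : ValuationSubring F) {x y : F} (hx : x ∈ W) (hy : y ∈ W)
    (h : x - y ∈ W.nonunits) (n : ℕ) : x ^ n - y ^ n ∈ W.nonunits := by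
  obtain ⟨c, hc⟩ := sub_dvd_pow_sub_pow (⟨x, hx⟩ : W) ⟨y, hy⟩ n
  have h1 : x ^ n - y ^ n = (c : F) * (x - y) := by
    have := congrArg (fun u : W => (u : F)) hc
    push_cast at this
    rw [this, mul_comm]
  rw [h1]
  exact isv_nonunits_mul_mem W c.2 h

/-- non-units of a pulled-back valuation subring -/
theorem isv_mem_nonunits_comap {F' : Type*} [Field F'] (w : F →+* F') (V : ValuationSubring F')
    (x : F) : x ∈ (V.comap w).nonunits ↔ w x ∈ V.nonunits := by
  rw [isv_mem_nonunits_iff, isv_mem_nonunits_iff, ValuationSubring.mem_comap, map_inv₀,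
    map_eq_zero]

/-- a residue map into a field vanishes exactly on the non-units, half 1 -/
theorem isv_nonunits_of_res {L : Type*} [Field L] (V : ValuationSubring F)
    (rho : V.toSubring →+* L) (z : F) (hz : z ∈ V) (h : rho ⟨z, hz⟩ = 0) : z ∈ V.nonunits := by
  rw [isv_mem_nonunits_iff]
  by_contra hcon
  rw [not_or, not_not] at hcon
  obtain ⟨hz0, hzi⟩ := hcon
  have h1 : rho (⟨z, hz⟩ * ⟨z⁻¹, hzi⟩) = 1 := by
    have : (⟨z, hz⟩ * ⟨z⁻¹, hzi⟩ : V.toSubring) = 1 := by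
      apply Subtype.ext
      show z * z⁻¹ = 1
      exact mul_inv_cancel₀ hz0
    rw [this, map_one]
  rw [map_mul, h, zero_mul] at h1
  exact zero_ne_one h1

/-- a residue map into a field vanishes exactly on the non-units, half 2 -/
theorem isv_res_of_nonunits {L : Type*} [Field L] (V : ValuationSubring F)
    (rho : V.toSubring →+* L) (hinv : ∀ z : V.toSubring, rho z ≠ 0 → (z : F)⁻¹ ∈ V)
    (z : F) (hz : z ∈ V) (h : z ∈ V.nonunits) : rho ⟨z, hz⟩ = 0 := by
  by_contra hne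
  have h1 := hinv ⟨z, hz⟩ hne
  rw [isv_mem_nonunits_iff] at h
  rcases h with h | h
  · apply hne
    have : (⟨z, hz⟩ : V.toSubring) = 0 := Subtype.ext h
    rw [this, map_zero]
  · exact h h1

end Nonunits

section Core

variable {E F L : Type*} [Field E] [Field F] [Field L]
  (l : ℕ)
  (alpha beta : E →+* F)
  (w : F →+* F) (hwa : ∀ a, w (alpha a) = beta a) (hwb : ∀ a, w (beta a) = alpha a)
  (VE : ValuationSubring E) (rhoE : VE →+* L)
  (V1 : ValuationSubring F) (rho1 : V1.toSubring →+* L)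
  (hinv : ∀ z : V1.toSubring, rho1 z ≠ 0 → (z : F)⁻¹ ∈ V1)
  (phi : L →+* L)
  (ha : ∀ a (h : a ∈ VE), ∃ h1 : alpha a ∈ V1, rho1 ⟨alpha a, h1⟩ = rhoE ⟨a, h⟩)
  (hb : ∀ a (h : a ∈ VE), ∃ h1 : beta a ∈ V1, rho1 ⟨beta a, h1⟩ = phi (rhoE ⟨a, h⟩))
  (hres1 : ∀ x ∈ V1, ∃ a ∈ VE, x - alpha a ∈ V1.nonunits)

include hinv ha hb hres1 in
/-- the residues `φ^[n] (ρE a)` are residues of elements of `VE` (`φ κ_E ⊆ κ_E`, from the residue
degree one of `V₁` over `α`) -/
theorem isv_chain (a : E) (haE : a ∈ VE) (n : ℕ) :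
    ∃ (c : E) (hc : c ∈ VE), rhoE ⟨c, hc⟩ = phi^[n] (rhoE ⟨a, haE⟩) := by
  induction n with
  | zero => exact ⟨a, haE, rfl⟩
  | succ n ih =>
    obtain ⟨c, hc, hcn⟩ := ih
    obtain ⟨h1, hr1⟩ := hb c hc
    obtain ⟨c', hc', hcc⟩ := hres1 (beta c) h1
    obtain ⟨h1', hr1'⟩ := ha c' hc'
    refine ⟨c', hc', ?_⟩
    have h0 := isv_res_of_nonunits V1 rho1 hinv _ (V1.sub_mem h1 h1') hcc
    have h2 : (⟨beta c - alpha c', V1.sub_mem h1 h1'⟩ : V1.toSubring)
        = ⟨beta c, h1⟩ - ⟨alpha c', h1'⟩ := rfl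
    rw [h2, map_sub, sub_eq_zero, hr1, hr1'] at h0
    rw [Function.iterate_succ_apply', ← hcn, h0]

include hwa hwb hinv ha hb hres1 in
/-- **Pure inseparability of `V₂ = V₁.comap w` over `α`**: with `ℓ ^ f` the cardinality of the
constant field (`hQ`), every `z ∈ V₂` satisfies `z ^ (ℓ ^ f) ≡ α a` modulo the non-units of `V₂`
for some `a ∈ VE`. -/
theorem isv_pow (f : ℕ) (hf : 1 ≤ f)
    (hQ : ∀ a (h : a ∈ VE), (rhoE ⟨a, h⟩) ^ (l ^ f) = phi^[f] (rhoE ⟨a, h⟩))
    (hres2 : ∀ x ∈ V1.comap w, ∃ a ∈ VE, x - beta a ∈ (V1.comap w).nonunits)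
    (z : F) (hz : z ∈ V1.comap w) :
    ∃ a ∈ VE, z ^ (l ^ f) - alpha a ∈ (V1.comap w).nonunits := by
  obtain ⟨a, haE, hza⟩ := hres2 z hz
  obtain ⟨c, hc, hcn⟩ := isv_chain alpha beta VE rhoE V1 rho1 hinv phi ha hb hres1 a haE (f - 1)
  refine ⟨c, hc, ?_⟩
  -- `β a ∈ V₂`
  have hba2 : beta a ∈ V1.comap w := by
    rw [ValuationSubring.mem_comap, hwb]
    exact (ha a haE).1
  -- first part: `z ^ Q - (β a) ^ Q`
  have hp1 : z ^ (l ^ f) - beta a ^ (l ^ f) ∈ (V1.comap w).nonunits :=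
    isv_nonunits_sub_pow _ hz hba2 hza _
  -- second part: `β (a ^ Q) - α c`
  have haQ : a ^ (l ^ f) ∈ VE := VE.pow_mem haE _
  obtain ⟨h1, hr1⟩ := ha (a ^ (l ^ f)) haQ
  obtain ⟨h2, hr2⟩ := hb c hc
  have hzero : rho1 ⟨alpha (a ^ (l ^ f)) - beta c, V1.sub_mem h1 h2⟩ = 0 := by
    have h3 : (⟨alpha (a ^ (l ^ f)) - beta c, V1.sub_mem h1 h2⟩ : V1.toSubring)
        = ⟨alpha (a ^ (l ^ f)), h1⟩ - ⟨beta c, h2⟩ := rfl
    have h4 : (⟨a ^ (l ^ f), haQ⟩ : VE) = ⟨a, haE⟩ ^ (l ^ f) := rfl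
    rw [h3, map_sub, hr1, hr2, h4, map_pow, hQ a haE, hcn, ← Function.iterate_succ_apply' phi,
      Nat.succ_eq_add_one, Nat.sub_add_cancel hf, sub_self]
  have hp2 : beta (a ^ (l ^ f)) - alpha c ∈ (V1.comap w).nonunits := by
    rw [isv_mem_nonunits_comap, map_sub, hwb, hwa]
    exact isv_nonunits_of_res V1 rho1 _ _ hzero
  have hsum : z ^ (l ^ f) - alpha c
      = (z ^ (l ^ f) - beta a ^ (l ^ f)) + (beta (a ^ (l ^ f)) - alpha c) := by
    rw [map_pow]
    ring
  rw [hsum]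
  exact isv_nonunits_add _ hp1 hp2

end Core

end Fermat.Agent.S34
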