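import Mathlib
import Fermat.Agent.S34.InsepVal
import Fermat.Agent.S34.Val2Exh

/-!
# S34, leaf NODE-INSEP, part (C): pure inseparability of `V₂` over `α` at the `K0` level

`K0` a field with an embedding into `ℚ̄`, `A0` a discrete valuation subring of `K0` over the prime
`q ∤ M` whose residue field `k` satisfies `c ^ (q ^ f) = c` (`f ≥ 1`; e.g. `|k| = q ^ f`),
`V₂ = va2V2` the second valuation of the level-`M q` function field.

* `isk_pow`: every `z ∈ V₂` has `z ^ (q ^ f) ≡ α a` modulo the non-units of `V₂` for a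
  Gauss-integral `a` of level `M`;
* `isk_pow_mul`: the same for `z ^ (q ^ (f * r))`, `r ≥ 1`.

The exponent `q` itself is not available: `ρ₂ ∘ α = (t ↦ t^q) ∘ ρ₂ ∘ β`, and `t ↦ t^q` is the
Frobenius only up to the coefficientwise Frobenius twist.
-/

set_option autoImplicit false

noncomputable section

open AlgebraicCurve ModularCurve Fermat.Agent.S18 Fermat.Agent.S37

namespace Fermat.Agent.S34

local notation "Qb" => AlgebraicClosure ℚ

section Main

variable (M q : ℕ) [NeZero M] [hq : Fact q.Prime] (hM : ¬ q ∣ M)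
  (K0 : Type*) [Field K0] [Algebra ℚ K0] [Algebra K0 Qb]
  (A0 : ValuationSubring K0) [IsDiscreteValuationRing ↥A0]

include hM in
/-- **Pure inseparability of `V₂` over `α` at the `K0` level.** -/
theorem isk_pow (hA0 : A0.LiesOverPrime q)
    (hdeg : finrankAlong K0 (heckeAlphaBar K0 M q) = q + 1)
    (f : ℕ) (hf : 1 ≤ f) (hk : ∀ c : IsLocalRing.ResidueField A0, c ^ (q ^ f) = c)
    (z : ↥(laurentBaseChange K0 (modularFunctionFieldFull (M * q))))
    (hz : z ∈ va2V2 M q hM K0 A0) :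
    ∃ a : ↥(laurentBaseChange K0 (modularFunctionFieldFull M)),
      (a : LaurentSeries K0) ∈ grV A0 ∧
        z ^ (q ^ f) - heckeAlphaBar K0 M q a ∈ (va2V2 M q hM K0 A0).nonunits := by
  have hcharA : CharP (IsLocalRing.ResidueField A0) q := grc_charP A0 q hA0
  obtain ⟨a, ha, hnon⟩ := isv_pow q (heckeAlphaBar K0 M q).toRingHom
    (heckeBetaBar K0 M q).toRingHom
    (va2Swap M q hq.out hM K0) (va2Swap_alpha M q hq.out hM K0)
    (va2Swap_beta M q hq.out hM K0)
    (grO A0 hA0 M hM) (grRes A0 hA0 M hM)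
    (va2V1 M q K0 A0) (va2xRho1 M q K0 A0) (va2x_hinv M q K0 A0)
    (qExpand (IsLocalRing.ResidueField A0) q)
    (va2x_ha M q hM K0 A0 hA0) (va2x_hb M q hM K0 A0 hA0)
    (fun x hx => va2x_res_one M q hM K0 A0 hA0 hdeg x hx)
    f hf (fun a h => isv_frob_iter q f hk _)
    (fun x hx => va2x_res_one' M q hM K0 A0 hA0 hdeg x hx) z hz
  exact ⟨a, ha, hnon⟩

include hM in
/-- the same for the exponents `q ^ (f * r)`, `r ≥ 1` -/
theorem isk_pow_mul (hA0 : A0.LiesOverPrime q)
    (hdeg : finrankAlong K0 (heckeAlphaBar K0 M q) = q + 1)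
    (f : ℕ) (hf : 1 ≤ f) (hk : ∀ c : IsLocalRing.ResidueField A0, c ^ (q ^ f) = c)
    (r : ℕ) (hr : 1 ≤ r)
    (z : ↥(laurentBaseChange K0 (modularFunctionFieldFull (M * q))))
    (hz : z ∈ va2V2 M q hM K0 A0) :
    ∃ a : ↥(laurentBaseChange K0 (modularFunctionFieldFull M)),
      (a : LaurentSeries K0) ∈ grV A0 ∧
        z ^ (q ^ (f * r)) - heckeAlphaBar K0 M q a ∈ (va2V2 M q hM K0 A0).nonunits := by
  refine isk_pow M q hM K0 A0 hA0 hdeg (f * r) (Nat.mul_pos hf hr) (fun c => ?_) z hz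
  induction r with
  | zero => exact absurd hr (by norm_num)
  | succ r ih =>
    rcases Nat.eq_zero_or_pos r with h0 | h0
    · subst h0
      rw [zero_add, mul_one]
      exact hk c
    · rw [Nat.mul_succ, pow_add, pow_mul, ih h0, hk]

end Main

end Fermat.Agent.S34
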