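import Mathlib
import Fermat.Agent.S34.InsepInst
import Fermat.Agent.S34.NodeFin
import Fermat.Agent.S18.CechChart
import Fermat.Agent.S18.Charts
import Fermat.Agent.S18.CoreInstGauss
import Fermat.Agent.S37.TwoVal

/-!
# S34, leaf NODE-INSEP, chart form: `hinsep` of `ndf_finite`

`E = K0(X₀(M))`, `F = K0(X₀(M q))`, `α = heckeAlphaBar K0 M q`, `V₂ = va2V2`, `A0` a discrete
valuation subring of `K0` over `q ∤ M` whose residue field satisfies `c ^ (q ^ f) = c`.
`O_M = chtO A0 {tM}` a chart of level `M` (integral closure of `A0[tM]` in `E`) with Dedekind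
special fibre, `O = chtO A0 {α tM}` the chart of level `M q` with the same coordinate.

* `isc_alpha_mem`, `isc_alpha_nonunits`: for a Gauss-integral `a` of level `M`, `α a ∈ V₂`, and
  `α a` is a non-unit of `V₂` iff `a` is a Gauss non-unit;
* `isc_abs`: the abstract statement (any fields `E`, `F`), via `ndf_lift_elem`;
* `isc_main`: every `z ∈ O` has `z ^ (q ^ f) ≡ α z₀` modulo the non-units of `V₂` for some
  `z₀ ∈ O_M`;
* `isc_hinsep`: the same in the exact shape of the hypothesis `hinsep` of `ndf_finite` (with its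
  exponent `q := q ^ f`); `isc_map_chart`: `α (chtO A {tM}) ⊆ chtO A {α tM}`.
-/

set_option autoImplicit false

noncomputable section

open AlgebraicCurve ModularCurve Fermat.Agent.S18 Fermat.Agent.S37

namespace Fermat.Agent.S34

local notation "Qb" => AlgebraicClosure ℚ

section Abs

variable {A E F : Type*} [CommRing A] [Field E] [Field F] [Algebra A E] [Algebra A F]

/-- Abstract chart form.  `α : E → F`, `OM ⊆ E` a noetherian chart ring inside a valuation ring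
`VE` whose non-units in `OM` are the multiples of `τ` and with `VE = OM` localised at `(τ)`,
`OM / τ` Dedekind; `V₂` a valuation ring of `F` with `α VE ⊆ V₂` and `α⁻¹ 𝔪_{V₂} = 𝔪_{VE}` on
`VE`.  If `z ∈ V₂` is integral over `α OM` and `z ^ Q ≡ α a₀` modulo `𝔪_{V₂}` with `a₀ ∈ VE`,
then `z ^ Q ≡ α z₀` modulo `𝔪_{V₂}` with `z₀ ∈ OM`. -/
theorem isc_abs (α : E →ₐ[A] F) (τ : A) (VE : ValuationSubring E) (V2 : ValuationSubring F)
    (OM : Subalgebra A E) (hnoeth : IsNoetherianRing ↥OM)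
    (hτVE : algebraMap A E τ ∈ VE.nonunits) (hτ0 : algebraMap A E τ ≠ 0)
    (hfracM : ∀ x : E, ∃ a ∈ OM, ∃ s ∈ OM, s ≠ 0 ∧ x * s = a)
    (hVM : ∀ x ∈ OM, x ∈ VE)
    (hVτM : ∀ x ∈ OM, x ∈ VE.nonunits → ∃ y ∈ OM, x = algebraMap A E τ * y)
    (hSM : IsDedekindDomain (↥OM ⧸ Ideal.span {algebraMap A ↥OM τ}))
    (hmem : ∀ a ∈ VE, α a ∈ V2)
    (hbridge : ∀ a ∈ VE, (α a ∈ V2.nonunits ↔ a ∈ VE.nonunits))
    (Q : ℕ) (z : F) (hzV : z ∈ V2) (hzint : IsIntegral ↥(OM.map α) z)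
    (hpow : ∃ a0 ∈ VE, z ^ Q - α a0 ∈ V2.nonunits) :
    ∃ z0 ∈ OM, z ^ Q - α z0 ∈ V2.nonunits := by
  classical
  have hαinj : Function.Injective α := α.toRingHom.injective
  let e : ↥OM ≃ₐ[A] ↥(OM.map α) := OM.equivMapOfInjective α hαinj
  have he : ∀ x : ↥OM, ((e x : ↥(OM.map α)) : F) = α (x : E) :=
    fun x => Subalgebra.coe_equivMapOfInjective_apply _ _ _ x
  have hesymm : ∀ y : ↥(OM.map α), (y : F) = α ((e.symm y : ↥OM) : E) := by
    intro y
    rw [← he, AlgEquiv.apply_symm_apply]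
  let πE : ↥(OM.map α) →+* (↥OM ⧸ Ideal.span {algebraMap A ↥OM τ}) :=
    (Ideal.Quotient.mk _).comp (e.symm : ↥(OM.map α) →+* ↥OM)
  have hπE : Function.Surjective πE :=
    Ideal.Quotient.mk_surjective.comp e.symm.surjective
  have hOEV : ∀ x ∈ OM.map α, x ∈ V2 := by
    rintro x ⟨y, hy, rfl⟩
    exact hmem y (hVM y hy)
  have hker : ∀ x : ↥(OM.map α), πE x = 0 ↔ (x : F) ∈ V2.nonunits := by
    intro x
    rw [hesymm x, hbridge _ (hVM _ (e.symm x).2)]
    show Ideal.Quotient.mk _ (e.symm x) = 0 ↔ _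
    rw [Ideal.Quotient.eq_zero_iff_mem, Ideal.mem_span_singleton]
    exact cz_dvd_iff τ VE OM hτVE hVM hVτM (e.symm x)
  have hres : ∃ a s : ↥(OM.map α), (s : F) ∉ V2.nonunits ∧
      z ^ Q * (s : F) - (a : F) ∈ V2.nonunits := by
    obtain ⟨a0, ha0, hnon⟩ := hpow
    obtain ⟨a, s, hs, has⟩ := cz_frac1 τ VE OM hτVE hτ0 hfracM hVM hVτM a0 ha0
    refine ⟨e a, e s, ?_, ?_⟩
    · rw [he, hbridge _ (hVM _ s.2)]
      exact cz_not_mem_of_val_one VE _ hs
    · have h1 : z ^ Q * α (s : E) - α (a : E) = α (s : E) * (z ^ Q - α a0) := by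
        rw [← has, map_mul]
        ring
      rw [he, he, h1]
      exact isv_nonunits_mul_mem _ (hmem _ (hVM _ s.2)) hnon
  have := hSM
  obtain ⟨b, hb⟩ := ndf_lift_elem (OM.map α) V2 hOEV πE hπE hker (z ^ Q) (pow_mem hzV Q)
    (hzint.pow Q) hres
  refine ⟨((e.symm b : ↥OM) : E), (e.symm b).2, ?_⟩
  rw [← hesymm b]
  exact hb

/-- an algebra homomorphism maps the integral-closure chart of `tM` into that of `α tM` -/
theorem isc_map_chart (α : E →ₐ[A] F) (tM : E) (x : E) (hx : x ∈ chtO A {tM}) :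
    α x ∈ chtO A {α tM} := by
  obtain ⟨p, hp, hc, hpx⟩ := cht_mem_iff_poly.mp hx
  refine cht_mem_iff_poly.mpr ⟨p.map (α : E →+* F), hp.map _, fun i => ?_, ?_⟩
  · rw [Polynomial.coeff_map]
    have h1 : α (p.coeff i) ∈ (Algebra.adjoin A {tM}).map α := ⟨_, hc i, rfl⟩
    rw [AlgHom.map_adjoin, Set.image_singleton] at h1
    exact h1
  · rw [Polynomial.eval_map]
    have h2 := Polynomial.eval₂_at_apply (p := p) (α : E →+* F) x
    rw [hpx, map_zero] at h2
    exact h2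

end Abs

section Main

variable (M q : ℕ) [NeZero M] [hq : Fact q.Prime] (hM : ¬ q ∣ M)
  (K0 : Type*) [Field K0] [Algebra ℚ K0] [Algebra K0 Qb]
  (A0 : ValuationSubring K0) [IsDiscreteValuationRing ↥A0]

/-- the `α`-image of a Gauss-integral element of level `M` lies in `V₂` -/
theorem isc_alpha_mem (a : ↥(laurentBaseChange K0 (modularFunctionFieldFull M)))
    (ha : (a : LaurentSeries K0) ∈ grV A0) :
    heckeAlphaBar K0 M q a ∈ va2V2 M q hM K0 A0 := by
  rw [mem_va2V2, va2Swap_alpha, mem_va2V1, coe_heckeBetaBar]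
  exact tv_qExpand_mem A0 q ha

/-- for a Gauss-integral `a` of level `M`: `α a` is a non-unit of `V₂` iff the Gauss residue of
`a` vanishes -/
theorem isc_alpha_nonunits (a : ↥(laurentBaseChange K0 (modularFunctionFieldFull M)))
    (ha : (a : LaurentSeries K0) ∈ grV A0) :
    heckeAlphaBar K0 M q a ∈ (va2V2 M q hM K0 A0).nonunits ↔
      grRho A0 ⟨(a : LaurentSeries K0), ha⟩ = 0 := by
  have h1 := tv_grRho_qExpand A0 q ha
  show heckeAlphaBar K0 M q a ∈
    ((va2V1 M q K0 A0).comap (va2Swap M q hq.out hM K0)).nonunits ↔ _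
  rw [isv_mem_nonunits_comap, va2Swap_alpha,
    cinst_mem_nonunits_iff (va2V1 M q K0 A0) (fun y => mem_va2V1 M q K0 A0 y)]
  constructor
  · rintro ⟨h, h0⟩
    have h2 : grRho A0 ⟨qExpand K0 q (a : LaurentSeries K0), tv_qExpand_mem A0 q ha⟩ = 0 := h0
    rw [h1] at h2
    exact (map_eq_zero_iff _ (qExpand_injective q)).mp h2
  · intro h0
    refine ⟨tv_qExpand_mem A0 q ha, ?_⟩
    show grRho A0 ⟨qExpand K0 q (a : LaurentSeries K0), tv_qExpand_mem A0 q ha⟩ = 0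
    rw [h1, h0, map_zero]

/-- **Chart form of the pure inseparability of `V₂` over `α`** (= `hinsep` of `ndf_finite`).
The level-`M` hypotheses are conjuncts of the S18 chart bundle (`cht_all` / `chg_all`) for the
Gauss valuation ring `VE` of level `M`, and the Dedekind property of the special fibre of the
level-`M` chart (`cinstSMChart`). -/
theorem isc_main
    [Algebra ↥A0 ↥(laurentBaseChange K0 (modularFunctionFieldFull M))]
    [IsScalarTower ↥A0 K0 ↥(laurentBaseChange K0 (modularFunctionFieldFull M))]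
    [Algebra ↥A0 ↥(laurentBaseChange K0 (modularFunctionFieldFull (M * q)))]
    [IsScalarTower ↥A0 K0 ↥(laurentBaseChange K0 (modularFunctionFieldFull (M * q)))]
    (hA0 : A0.LiesOverPrime q)
    (hdeg : finrankAlong K0 (heckeAlphaBar K0 M q) = q + 1)
    (f : ℕ) (hf : 1 ≤ f) (hk : ∀ c : IsLocalRing.ResidueField ↥A0, c ^ (q ^ f) = c)
    (τ : ↥A0) (hτ : Irreducible τ)
    (VE : ValuationSubring ↥(laurentBaseChange K0 (modularFunctionFieldFull M)))
    (hVE : ∀ x : ↥(laurentBaseChange K0 (modularFunctionFieldFull M)),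
      x ∈ VE ↔ (x : LaurentSeries K0) ∈ grV A0)
    (tM : ↥(laurentBaseChange K0 (modularFunctionFieldFull M)))
    (hnoeth : IsNoetherianRing ↥(chtO ↥A0 {tM}))
    (hfracM : ∀ x : ↥(laurentBaseChange K0 (modularFunctionFieldFull M)),
      ∃ a ∈ chtO ↥A0 {tM}, ∃ s ∈ chtO ↥A0 {tM}, s ≠ 0 ∧ x * s = a)
    (hVM : ∀ x ∈ chtO ↥A0 {tM}, x ∈ VE)
    (hVτM : ∀ x ∈ chtO ↥A0 {tM}, x ∈ VE.nonunits →
      ∃ y ∈ chtO ↥A0 {tM},
        x = algebraMap ↥A0 ↥(laurentBaseChange K0 (modularFunctionFieldFull M)) τ * y)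
    (hSM : IsDedekindDomain
      (↥(chtO ↥A0 {tM}) ⧸ Ideal.span {algebraMap ↥A0 ↥(chtO ↥A0 {tM}) τ}))
    (t : ↥(laurentBaseChange K0 (modularFunctionFieldFull (M * q))))
    (htt : heckeAlphaBar K0 M q tM = t)
    (hO2 : ∀ x ∈ chtO ↥A0 {t}, x ∈ va2V2 M q hM K0 A0)
    (z : ↥(laurentBaseChange K0 (modularFunctionFieldFull (M * q))))
    (hz : z ∈ chtO ↥A0 {t}) :
    ∃ z0 ∈ chtO ↥A0 {tM},
      z ^ (q ^ f) - heckeAlphaBar K0 M q z0 ∈ (va2V2 M q hM K0 A0).nonunits := by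
  have hτVE : algebraMap ↥A0 ↥(laurentBaseChange K0 (modularFunctionFieldFull M)) τ
      ∈ VE.nonunits := by
    rw [IsScalarTower.algebraMap_apply ↥A0 K0
      ↥(laurentBaseChange K0 (modularFunctionFieldFull M))]
    refine cinst_algebraMap_mem_nonunits VE hVE τ ?_
    rw [IsLocalRing.mem_maximalIdeal, mem_nonunits_iff]
    exact hτ.not_isUnit
  have hτ0 : algebraMap ↥A0 ↥(laurentBaseChange K0 (modularFunctionFieldFull M)) τ ≠ 0 := by
    rw [IsScalarTower.algebraMap_apply ↥A0 K0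
      ↥(laurentBaseChange K0 (modularFunctionFieldFull M)), Ne, map_eq_zero]
    intro h0
    exact hτ.ne_zero (Subtype.ext h0)
  have hbridge : ∀ a : ↥(laurentBaseChange K0 (modularFunctionFieldFull M)), a ∈ VE →
      (heckeAlphaBar K0 M q a ∈ (va2V2 M q hM K0 A0).nonunits ↔ a ∈ VE.nonunits) := by
    intro a ha
    have ha' := (hVE a).mp ha
    rw [isc_alpha_nonunits M q hM K0 A0 a ha', cinst_mem_nonunits_iff VE hVE a]
    exact ⟨fun h => ⟨ha', h⟩, fun ⟨_, h⟩ => h⟩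
  obtain ⟨a0, ha0, hnon⟩ := isk_pow M q hM K0 A0 hA0 hdeg f hf hk z (hO2 z hz)
  exact isc_abs ((heckeAlphaBar K0 M q).restrictScalars ↥A0) τ VE (va2V2 M q hM K0 A0)
    (chtO ↥A0 {tM}) hnoeth hτVE hτ0 hfracM hVM hVτM hSM
    (fun a ha => isc_alpha_mem M q hM K0 A0 a ((hVE a).mp ha)) hbridge (q ^ f) z (hO2 z hz)
    (by
      obtain ⟨p, hp, hc, hpx⟩ := (cht_isIntegral_iff (Algebra.adjoin ↥A0 {t}) z).mp hz
      refine (cht_isIntegral_iff _ z).mpr ⟨p, hp, fun i => ?_, hpx⟩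
      refine (Algebra.adjoin_le ?_ : Algebra.adjoin ↥A0 {t} ≤ _) (hc i)
      rintro _ rfl
      exact ⟨tM, (cht_h1 tM).1, htt⟩)
    ⟨a0, (hVE a0).mpr ha0, hnon⟩

/-- `isc_main` in the exact shape of the hypothesis `hinsep` of `ndf_finite` (exponent `q ^ f`,
`O₀` = the `α`-image of the level-`M` chart, `p₂` any ideal of the level-`M q` chart containing
its elements that are non-units of `V₂`). -/
theorem isc_hinsep
    [Algebra ↥A0 ↥(laurentBaseChange K0 (modularFunctionFieldFull M))]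
    [IsScalarTower ↥A0 K0 ↥(laurentBaseChange K0 (modularFunctionFieldFull M))]
    [Algebra ↥A0 ↥(laurentBaseChange K0 (modularFunctionFieldFull (M * q)))]
    [IsScalarTower ↥A0 K0 ↥(laurentBaseChange K0 (modularFunctionFieldFull (M * q)))]
    (hA0 : A0.LiesOverPrime q)
    (hdeg : finrankAlong K0 (heckeAlphaBar K0 M q) = q + 1)
    (f : ℕ) (hf : 1 ≤ f) (hk : ∀ c : IsLocalRing.ResidueField ↥A0, c ^ (q ^ f) = c)
    (τ : ↥A0) (hτ : Irreducible τ)
    (VE : ValuationSubring ↥(laurentBaseChange K0 (modularFunctionFieldFull M)))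
    (hVE : ∀ x : ↥(laurentBaseChange K0 (modularFunctionFieldFull M)),
      x ∈ VE ↔ (x : LaurentSeries K0) ∈ grV A0)
    (tM : ↥(laurentBaseChange K0 (modularFunctionFieldFull M)))
    (hnoeth : IsNoetherianRing ↥(chtO ↥A0 {tM}))
    (hfracM : ∀ x : ↥(laurentBaseChange K0 (modularFunctionFieldFull M)),
      ∃ a ∈ chtO ↥A0 {tM}, ∃ s ∈ chtO ↥A0 {tM}, s ≠ 0 ∧ x * s = a)
    (hVM : ∀ x ∈ chtO ↥A0 {tM}, x ∈ VE)
    (hVτM : ∀ x ∈ chtO ↥A0 {tM}, x ∈ VE.nonunits →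
      ∃ y ∈ chtO ↥A0 {tM},
        x = algebraMap ↥A0 ↥(laurentBaseChange K0 (modularFunctionFieldFull M)) τ * y)
    (hSM : IsDedekindDomain
      (↥(chtO ↥A0 {tM}) ⧸ Ideal.span {algebraMap ↥A0 ↥(chtO ↥A0 {tM}) τ}))
    (t : ↥(laurentBaseChange K0 (modularFunctionFieldFull (M * q))))
    (htt : heckeAlphaBar K0 M q tM = t)
    (hO2 : ∀ x ∈ chtO ↥A0 {t}, x ∈ va2V2 M q hM K0 A0)
    (p₂ : Ideal ↥(chtO ↥A0 {t}))
    (hp₂ : ∀ x : ↥(chtO ↥A0 {t}),
      (x : ↥(laurentBaseChange K0 (modularFunctionFieldFull (M * q))))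
        ∈ (va2V2 M q hM K0 A0).nonunits → x ∈ p₂)
    (z : ↥(chtO ↥A0 {t})) :
    ∃ z₀ : ↥(chtO ↥A0 {t}),
      (z₀ : ↥(laurentBaseChange K0 (modularFunctionFieldFull (M * q))))
        ∈ (fun x => heckeAlphaBar K0 M q x) ''
          ((chtO ↥A0 {tM} : Subalgebra ↥A0 ↥(laurentBaseChange K0 (modularFunctionFieldFull M))) :
            Set ↥(laurentBaseChange K0 (modularFunctionFieldFull M))) ∧
      z ^ (q ^ f) - z₀ ∈ p₂ := by
  obtain ⟨z0, hz0, hnon⟩ := isc_main M q hM K0 A0 hA0 hdeg f hf hk τ hτ VE hVE tM hnoeth hfracM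
    hVM hVτM hSM t htt hO2 (z : ↥(laurentBaseChange K0 (modularFunctionFieldFull (M * q)))) z.2
  have hmem : heckeAlphaBar K0 M q z0 ∈ chtO ↥A0 {t} := by
    have h1 := isc_map_chart ((heckeAlphaBar K0 M q).restrictScalars ↥A0) tM z0 hz0
    have h2 : ((heckeAlphaBar K0 M q).restrictScalars ↥A0) tM = t := htt
    rw [h2] at h1
    exact h1
  exact ⟨⟨heckeAlphaBar K0 M q z0, hmem⟩, ⟨z0, hz0, rfl⟩, hp₂ _ hnon⟩

end Main

end Fermat.Agent.S34
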