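import Mathlib
import Fermat.Agent.S34.Val2Exh
import Fermat.Agent.S34.InsepVal

/-!
# S34, package A [VAL2]: pure inseparability of `V₂` over `α` at the `K0` level

Setting of `Val2Exh`: `K0` a field with an embedding into `ℚ̄`, `A0` a discrete valuation subring
of `K0` over the prime `q ∤ M`, `V₂ = va2V2`.  If `c ^ (q ^ f) = c` on the residue field of `A0`
(`f ≥ 1`), then every `z ∈ V₂` satisfies `z ^ (q ^ f) ≡ α a` modulo `𝔪_{V₂}` for a Gauss-integral
`a` of level `M` (`va2i_pow`; instance of `isv_pow`).  For a finite residue field such an `f`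
exists (`va2i_exists_card`, `va2i_pow_finite`).
-/

set_option autoImplicit false

noncomputable section

open AlgebraicCurve ModularCurve Fermat.Agent.S18 Fermat.Agent.S37

namespace Fermat.Agent.S34

local notation "Qb" => AlgebraicClosure ℚ

section Main

variable (M q : ℕ) [NeZero M] [hq : Fact q.Prime] (hM : ¬ q ∣ M)
  (K0 : Type*) [Field K0] [Algebra ℚ K0] [Algebra K0 Qb]
  (A0 : ValuationSubring K0) [IsDiscreteValuationRing ↥A0]

/-- **Pure inseparability of `V₂` over `α`, `K0` level.** -/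
theorem va2i_pow (hA0 : A0.LiesOverPrime q)
    (hdeg : finrankAlong K0 (heckeAlphaBar K0 M q) = q + 1)
    (f : ℕ) (hf : 1 ≤ f) (hk : ∀ c : IsLocalRing.ResidueField ↥A0, c ^ (q ^ f) = c)
    (z : ↥(laurentBaseChange K0 (modularFunctionFieldFull (M * q))))
    (hz : z ∈ va2V2 M q hM K0 A0) :
    ∃ a : ↥(laurentBaseChange K0 (modularFunctionFieldFull M)),
      (a : LaurentSeries K0) ∈ grV A0 ∧
        z ^ (q ^ f) - heckeAlphaBar K0 M q a ∈ (va2V2 M q hM K0 A0).nonunits := by
  have hcharA : CharP (IsLocalRing.ResidueField A0) q := grc_charP A0 q hA0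
  obtain ⟨a, ha, hnon⟩ := isv_pow q (heckeAlphaBar K0 M q).toRingHom
    (heckeBetaBar K0 M q).toRingHom (va2Swap M q hq.out hM K0)
    (va2Swap_alpha M q hq.out hM K0) (va2Swap_beta M q hq.out hM K0)
    (grO A0 hA0 M hM) (grRes A0 hA0 M hM)
    (va2V1 M q K0 A0) (va2xRho1 M q K0 A0) (va2x_hinv M q K0 A0)
    (qExpand (IsLocalRing.ResidueField A0) q)
    (va2x_ha M q hM K0 A0 hA0) (va2x_hb M q hM K0 A0 hA0)
    (fun x hx => by
      obtain ⟨a, ha, hnon⟩ := va2x_res_one M q hM K0 A0 hA0 hdeg x hx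
      exact ⟨a, ha, hnon⟩)
    f hf (fun a h => isv_frob_iter q f hk _)
    (fun x hx => by
      obtain ⟨a, ha, hnon⟩ := va2x_res_one' M q hM K0 A0 hA0 hdeg x hx
      exact ⟨a, ha, hnon⟩)
    z hz
  exact ⟨a, ha, hnon⟩

omit [NeZero M] hq [Algebra ℚ K0] [Algebra K0 Qb] [IsDiscreteValuationRing ↥A0] in
/-- a finite residue field of characteristic `q` is fixed by a power of the `q`-Frobenius -/
theorem va2i_exists_card [Finite (IsLocalRing.ResidueField ↥A0)]
    [CharP (IsLocalRing.ResidueField ↥A0) q] :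
    ∃ f : ℕ, 1 ≤ f ∧ ∀ c : IsLocalRing.ResidueField ↥A0, c ^ (q ^ f) = c := by
  classical
  have := Fintype.ofFinite (IsLocalRing.ResidueField ↥A0)
  obtain ⟨n, -, hn⟩ := FiniteField.card (IsLocalRing.ResidueField ↥A0) q
  refine ⟨n, n.pos, fun c => ?_⟩
  rw [← hn]
  exact FiniteField.pow_card c

/-- **Pure inseparability of `V₂` over `α`, `K0` level, finite residue field.** -/
theorem va2i_pow_finite [Finite (IsLocalRing.ResidueField ↥A0)] (hA0 : A0.LiesOverPrime q)
    (hdeg : finrankAlong K0 (heckeAlphaBar K0 M q) = q + 1) :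
    ∃ Q : ℕ, 0 < Q ∧ ∀ z ∈ va2V2 M q hM K0 A0,
      ∃ a : ↥(laurentBaseChange K0 (modularFunctionFieldFull M)),
        (a : LaurentSeries K0) ∈ grV A0 ∧
          z ^ Q - heckeAlphaBar K0 M q a ∈ (va2V2 M q hM K0 A0).nonunits := by
  have hcharA : CharP (IsLocalRing.ResidueField A0) q := grc_charP A0 q hA0
  obtain ⟨f, hf, hk⟩ := va2i_exists_card q K0 A0
  exact ⟨q ^ f, pow_pos hq.out.pos f,
    fun z hz => va2i_pow M q hM K0 A0 hA0 hdeg f hf hk z hz⟩

end Main

end Fermat.Agent.S34
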