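import Mathlib
import Fermat.Agent.S34.InsepChart
import Fermat.Agent.S34.Val2Insep
import Fermat.Agent.S34.Val2Res
import Fermat.Agent.S34.Val2Deg
import Fermat.Agent.S34.Val2Inst
import Fermat.Agent.S34.Charts2Inst
import Fermat.Agent.S18.CoreInst
import Fermat.Agent.S18.CoreInstFinal
import Fermat.Agent.S18.CechChart

/-!
# S34, leaf NODE-INSEP, packaged form

`isc_main` (S34/InsepChart) with every chart hypothesis discharged for the Hauptmodul chart
coordinate `cinstU H K0 c0 c1` of two base points with distinct residues, a discrete valuation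
subring `A0` of `K0` over `q ∤ M` with FINITE residue field:

* `ispk_chartM`: the level-`M` chart facts used by `isc_main` (noetherian, fractions, inside the
  Gauss ring, Gauss non-units are the multiples of `τ`);
* `ispk_hO2`: the level-`M q` chart lies in `V₂ = va2V2`;
* `ispk_pow`: `isc_main` for the two charts with exponent `q ^ f`;
* `ispk_main`: `∃ Q ≠ 0, ∀ z ∈ chtO A0 {t}, ∃ z₀ ∈ chtO A0 {tM}, z ^ Q - α z₀ ∈ 𝔪_{V₂}` -- the
  hypothesis `hinsep` of the abstract node glue, the only remaining input being the Dedekind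
  special fibre of the level-`M` chart (`cinstSMChart`).
-/

set_option autoImplicit false

noncomputable section

open AlgebraicCurve ModularCurve Polynomial Fermat.Agent.S18 Fermat.Agent.S28 Fermat.Agent.S37
open scoped IntermediateField

namespace Fermat.Agent.S34

local notation "Qb" => AlgebraicClosure ℚ

section LevelM

variable {K0 : Type*} [Field K0] [Algebra ℚ K0] (A0 : ValuationSubring K0)
  [IsDiscreteValuationRing ↥A0] {ℓ : ℕ} [Fact ℓ.Prime] (hA0 : A0.LiesOverPrime ℓ)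
  (M : ℕ) [NeZero M] (hℓM : ¬ ℓ ∣ M) {a2 : ℕ} (H : HauptRec a2 ℓ)

include hA0 hℓM in
/-- The level-`M` chart facts used by `isc_main`. -/
theorem ispk_chartM
    [Algebra ↥A0 ↥(laurentBaseChange K0 (modularFunctionFieldFull M))]
    [IsScalarTower ↥A0 K0 ↥(laurentBaseChange K0 (modularFunctionFieldFull M))]
    (c0 c1 : ↥A0) (hc : IsLocalRing.residue ↥A0 c0 ≠ IsLocalRing.residue ↥A0 c1)
    (t : ↥(laurentBaseChange K0 (modularFunctionFieldFull M)))
    (ht : (t : LaurentSeries K0) = cinstU H K0 (c0 : K0) (c1 : K0))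
    (τ : ↥A0) (hτ : Irreducible τ) :
    IsNoetherianRing ↥(chtO ↥A0 {t}) ∧
    (∀ x : ↥(laurentBaseChange K0 (modularFunctionFieldFull M)),
      ∃ a ∈ chtO ↥A0 {t}, ∃ s ∈ chtO ↥A0 {t}, s ≠ 0 ∧ x * s = a) ∧
    (∀ x ∈ chtO ↥A0 {t}, x ∈ grO A0 hA0 M hℓM) ∧
    (∀ x ∈ chtO ↥A0 {t}, x ∈ (grO A0 hA0 M hℓM).nonunits →
      ∃ y ∈ chtO ↥A0 {t},
        x = algebraMap ↥A0 ↥(laurentBaseChange K0 (modularFunctionFieldFull M)) τ * y) := by
  classical
  have : CharZero K0 := algebraRat.charZero K0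
  have hVG : ∀ x : ↥(laurentBaseChange K0 (modularFunctionFieldFull M)),
      x ∈ grO A0 hA0 M hℓM ↔ (x : LaurentSeries K0) ∈ grV A0 := fun x => Iff.rfl
  obtain ⟨hA, hτV, hτgen, htt, htV, htV', hG, hfin, hconst⟩ :=
    c2i_hyps A0 M H (grO A0 hA0 M hℓM) hVG c0 c1 hc t ht τ hτ
  have hc' : (c0 : K0) ≠ (c1 : K0) := by
    intro h0
    apply hc
    rw [Subtype.ext h0]
  have hL := cinst_adjoin_grJ_le M H _ _ hc' t ht
  have huniq := cht_huniq_of_sub (K0 := K0) (L := ↥K0⟮grJ K0 M⟯) (grO A0 hA0 M hℓM) t hL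
    (gr_unique_j A0 hA0 M hℓM)
  obtain ⟨-, h2, -, ⟨b0, hb0, hspan0⟩, -, -, -, hfrac0, -, -, -, hV0, -, hVτ0, -⟩ :=
    cht_all (K0 := K0) (grO A0 hA0 M hℓM) hA hτ hτV hτgen t htt htV htV' hG hfin huniq hconst 1
      one_pos
  exact ⟨cz_noeth t _ h2 b0 hb0 hspan0, hfrac0, hV0, hVτ0⟩

end LevelM

section LevelMq

variable (M q : ℕ) [NeZero M] [hq : Fact q.Prime] (hM : ¬ q ∣ M)
  (K0 : Type*) [Field K0] [Algebra ℚ K0] [Algebra K0 Qb]
  (A0 : ValuationSubring K0) [IsDiscreteValuationRing ↥A0]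

/-- The level-`M q` chart of a coordinate coming from a Gauss-integral coordinate of level `M`
with Gauss-integral `q`-expansion twist lies in `V₂`. -/
theorem ispk_hO2
    [Algebra ↥A0 ↥(laurentBaseChange K0 (modularFunctionFieldFull (M * q)))]
    [IsScalarTower ↥A0 K0 ↥(laurentBaseChange K0 (modularFunctionFieldFull (M * q)))]
    (tM : ↥(laurentBaseChange K0 (modularFunctionFieldFull M)))
    (htM : (tM : LaurentSeries K0) ∈ grV A0)
    (t : ↥(laurentBaseChange K0 (modularFunctionFieldFull (M * q))))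
    (htt : heckeAlphaBar K0 M q tM = t)
    (x : ↥(laurentBaseChange K0 (modularFunctionFieldFull (M * q))))
    (hx : x ∈ chtO ↥A0 {t}) : x ∈ va2V2 M q hM K0 A0 := by
  refine cht_le_valuationSubring (va2V2 M q hM K0 A0) (va2_hA2 A0 M q hM) (s := {t}) ?_ hx
  rintro y rfl
  rw [← htt]
  exact isc_alpha_mem M q hM K0 A0 tM htM

variable {a2 : ℕ} (H : HauptRec a2 q)

/-- `isc_main` for the Hauptmodul charts, exponent `q ^ f`. -/
theorem ispk_pow (hA0 : A0.LiesOverPrime q)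
    [Algebra ↥A0 ↥(laurentBaseChange K0 (modularFunctionFieldFull M))]
    [IsScalarTower ↥A0 K0 ↥(laurentBaseChange K0 (modularFunctionFieldFull M))]
    [Algebra ↥A0 ↥(laurentBaseChange K0 (modularFunctionFieldFull (M * q)))]
    [IsScalarTower ↥A0 K0 ↥(laurentBaseChange K0 (modularFunctionFieldFull (M * q)))]
    (f : ℕ) (hf : 1 ≤ f) (hk : ∀ c : IsLocalRing.ResidueField ↥A0, c ^ (q ^ f) = c)
    (c0 c1 : ↥A0) (hc : IsLocalRing.residue ↥A0 c0 ≠ IsLocalRing.residue ↥A0 c1)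
    (tM : ↥(laurentBaseChange K0 (modularFunctionFieldFull M)))
    (htM : (tM : LaurentSeries K0) = cinstU H K0 (c0 : K0) (c1 : K0))
    (t : ↥(laurentBaseChange K0 (modularFunctionFieldFull (M * q))))
    (ht : (t : LaurentSeries K0) = cinstU H K0 (c0 : K0) (c1 : K0))
    (τ : ↥A0) (hτ : Irreducible τ)
    (hSM : IsDedekindDomain
      (↥(chtO ↥A0 {tM}) ⧸ Ideal.span {algebraMap ↥A0 ↥(chtO ↥A0 {tM}) τ}))
    (z : ↥(laurentBaseChange K0 (modularFunctionFieldFull (M * q))))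
    (hz : z ∈ chtO ↥A0 {t}) :
    ∃ z0 ∈ chtO ↥A0 {tM},
      z ^ (q ^ f) - heckeAlphaBar K0 M q z0 ∈ (va2V2 M q hM K0 A0).nonunits := by
  obtain ⟨hnoeth, hfracM, hVM, hVτM⟩ := ispk_chartM A0 hA0 M hM H c0 c1 hc tM htM τ hτ
  have htt : heckeAlphaBar K0 M q tM = t := by
    apply Subtype.ext
    rw [coe_heckeAlphaBar, htM, ht]
  have htMV : (tM : LaurentSeries K0) ∈ grV A0 := by
    rw [htM]
    exact cinstU_mem_grV H A0 c0 c1
  exact isc_main M q hM K0 A0 hA0 (va2d_finrank K0 M hq.out hM) f hf hk τ hτ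
    (grO A0 hA0 M hM) (fun _ => Iff.rfl) tM hnoeth hfracM hVM hVτM hSM t htt
    (fun x hx => ispk_hO2 M q hM K0 A0 tM htMV t htt x hx) z hz

/-- **`hinsep` of the node glue at the `K0` level**: for a discrete valuation subring `A0` over
`q` with finite residue field there is an exponent `Q ≠ 0` (a power of `q`) such that every
element `z` of the level-`M q` chart satisfies `z ^ Q ≡ α z₀` modulo the maximal ideal of `V₂`
with `z₀` in the level-`M` chart.  Only input: the Dedekind special fibre of the level-`M`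
chart (`cinstSMChart`). -/
theorem ispk_main (hA0 : A0.LiesOverPrime q)
    [Finite (IsLocalRing.ResidueField ↥A0)]
    [Algebra ↥A0 ↥(laurentBaseChange K0 (modularFunctionFieldFull M))]
    [IsScalarTower ↥A0 K0 ↥(laurentBaseChange K0 (modularFunctionFieldFull M))]
    [Algebra ↥A0 ↥(laurentBaseChange K0 (modularFunctionFieldFull (M * q)))]
    [IsScalarTower ↥A0 K0 ↥(laurentBaseChange K0 (modularFunctionFieldFull (M * q)))]
    (c0 c1 : ↥A0) (hc : IsLocalRing.residue ↥A0 c0 ≠ IsLocalRing.residue ↥A0 c1)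
    (tM : ↥(laurentBaseChange K0 (modularFunctionFieldFull M)))
    (htM : (tM : LaurentSeries K0) = cinstU H K0 (c0 : K0) (c1 : K0))
    (t : ↥(laurentBaseChange K0 (modularFunctionFieldFull (M * q))))
    (ht : (t : LaurentSeries K0) = cinstU H K0 (c0 : K0) (c1 : K0))
    (τ : ↥A0) (hτ : Irreducible τ)
    (hSM : IsDedekindDomain
      (↥(chtO ↥A0 {tM}) ⧸ Ideal.span {algebraMap ↥A0 ↥(chtO ↥A0 {tM}) τ})) :
    ∃ Q : ℕ, Q ≠ 0 ∧ ∀ z : ↥(chtO ↥A0 {t}), ∃ z0 ∈ chtO ↥A0 {tM},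
      (z : ↥(laurentBaseChange K0 (modularFunctionFieldFull (M * q)))) ^ Q
        - heckeAlphaBar K0 M q z0 ∈ (va2V2 M q hM K0 A0).nonunits := by
  have hcharA : CharP (IsLocalRing.ResidueField ↥A0) q := grc_charP A0 q hA0
  obtain ⟨f, hf, hk⟩ := va2i_exists_card q K0 A0
  refine ⟨q ^ f, pow_ne_zero _ hq.out.ne_zero, fun z => ?_⟩
  exact ispk_pow M q hM K0 A0 H hA0 f hf hk c0 c1 hc tM htM t ht τ hτ hSM z z.2

/-- `ispk_main` with the special-fibre hypothesis in the S18 shape `cinstSMChart`. -/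
theorem ispk_main_sm (hA0 : A0.LiesOverPrime q)
    [Finite (IsLocalRing.ResidueField ↥A0)]
    [Algebra ↥A0 ↥(laurentBaseChange K0 (modularFunctionFieldFull M))]
    [IsScalarTower ↥A0 K0 ↥(laurentBaseChange K0 (modularFunctionFieldFull M))]
    [Algebra ↥A0 ↥(laurentBaseChange K0 (modularFunctionFieldFull (M * q)))]
    [IsScalarTower ↥A0 K0 ↥(laurentBaseChange K0 (modularFunctionFieldFull (M * q)))]
    (c0 c1 : ↥A0) (hc : IsLocalRing.residue ↥A0 c0 ≠ IsLocalRing.residue ↥A0 c1)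
    (hSM : cinstSMChart K0 A0 M H (c0 : K0) (c1 : K0))
    (tM : ↥(laurentBaseChange K0 (modularFunctionFieldFull M)))
    (htM : (tM : LaurentSeries K0) = cinstU H K0 (c0 : K0) (c1 : K0))
    (t : ↥(laurentBaseChange K0 (modularFunctionFieldFull (M * q))))
    (ht : (t : LaurentSeries K0) = cinstU H K0 (c0 : K0) (c1 : K0)) :
    ∃ Q : ℕ, Q ≠ 0 ∧ ∀ z : ↥(chtO ↥A0 {t}), ∃ z0 ∈ chtO ↥A0 {tM},
      (z : ↥(laurentBaseChange K0 (modularFunctionFieldFull (M * q)))) ^ Q
        - heckeAlphaBar K0 M q z0 ∈ (va2V2 M q hM K0 A0).nonunits := by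
  obtain ⟨τ, hτ⟩ := IsDiscreteValuationRing.exists_irreducible ↥A0
  exact ispk_main M q hM K0 A0 H hA0 c0 c1 hc tM htM t ht τ hτ (hSM tM htM τ hτ)

end LevelMq

end Fermat.Agent.S34
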