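import Mathlib
import Fermat.Agent.S34.Val2Exh
import Fermat.Agent.S18.Charts

/-!
# S34, package A [VAL2]: membership one-liners for `α`, `β` and the two valuation rings

Carrier of `Val2Def`: `E = K0(X₀(M))`, `F = K0(X₀(M q))`, `α = heckeAlphaBar K0 M q`,
`β = heckeBetaBar K0 M q`, `V₁ = va2V1 M q K0 A0`, `V₂ = va2V2 M q hM K0 A0`.  The Gauss valuation
ring of `E` is any valuation subring `VE` with `x ∈ VE ↔ (x : K0((q))) ∈ grV A0`
(e.g. `graOf (gra_decomp_dvr A0 M)`, `grO A0 hA0 M hM`, `cinstVG`).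

* `va2m_alpha_mem1`, `va2m_beta_mem1`, `va2m_alpha_mem2`, `va2m_beta_mem2`: for a Gauss-integral
  `a` of level `M`, `α a` and `β a` lie in `V₁` and in `V₂`;
* `va2m_alpha_nonunits1`, `va2m_beta_nonunits1`, `va2m_alpha_nonunits2`, `va2m_beta_nonunits2`:
  `α a ∈ 𝔪_{V_i} ↔ a ∈ 𝔪_{VE}` and `β a ∈ 𝔪_{V_i} ↔ a ∈ 𝔪_{VE}` (`i = 1, 2`);
  `va2m_alpha_nonunits_iff`: `α a ∈ 𝔪_{V₁} ↔ α a ∈ 𝔪_{V₂}`;
* `va2m_alpha_mem1_iff`, … : `α a ∈ V_i ↔ a ∈ VE`, `β a ∈ V_i ↔ a ∈ VE`;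
* `va2m_alpha_algebraMap`, `va2m_beta_algebraMap` (constants of `A0`, e.g. `τ`),
  `va2m_chtO_map`, `va2m_alpha_chtO`, `va2m_beta_chtO` (images of the level-`M` chart ring).
-/

set_option autoImplicit false

noncomputable section

open AlgebraicCurve ModularCurve Polynomial Fermat.Agent.S18 Fermat.Agent.S37

namespace Fermat.Agent.S34

local notation "Qb" => AlgebraicClosure ℚ

/-- the image of a chart ring under an algebra homomorphism lies in the chart ring of the image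
coordinate -/
theorem va2m_chtO_map {A0 E F : Type*} [CommRing A0] [Field E] [Field F] [Algebra A0 E]
    [Algebra A0 F] (φ : E →ₐ[A0] F) (s x : E) (hx : x ∈ chtO A0 {s}) : φ x ∈ chtO A0 {φ s} := by
  obtain ⟨p, hp, hcoeff, hpx⟩ := (cht_isIntegral_iff (Algebra.adjoin A0 {s}) x).mp hx
  refine (cht_isIntegral_iff (Algebra.adjoin A0 {φ s}) (φ x)).mpr
    ⟨p.map (φ : E →+* F), hp.map _, fun i => ?_, ?_⟩
  · rw [coeff_map]
    have h1 : (φ : E →+* F) (p.coeff i) ∈ (Algebra.adjoin A0 {s}).map φ := ⟨_, hcoeff i, rfl⟩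
    rw [AlgHom.map_adjoin, Set.image_singleton] at h1
    exact h1
  · rw [eval_map, show φ x = (φ : E →+* F) x from rfl, eval₂_at_apply, hpx, map_zero]

section Main

variable (M q : ℕ) [NeZero M] [hq : Fact q.Prime] (hM : ¬ q ∣ M)
  (K0 : Type*) [Field K0] [Algebra ℚ K0] [Algebra K0 Qb]
  (A0 : ValuationSubring K0) [IsDiscreteValuationRing ↥A0]

/-! ### Memberships -/

omit [Algebra K0 Qb] in
theorem va2m_alpha_mem1 (a : ↥(laurentBaseChange K0 (modularFunctionFieldFull M)))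
    (ha : (a : LaurentSeries K0) ∈ grV A0) : heckeAlphaBar K0 M q a ∈ va2V1 M q K0 A0 := by
  rw [mem_va2V1, coe_heckeAlphaBar]
  exact ha

omit [Algebra K0 Qb] in
theorem va2m_beta_mem1 (a : ↥(laurentBaseChange K0 (modularFunctionFieldFull M)))
    (ha : (a : LaurentSeries K0) ∈ grV A0) : heckeBetaBar K0 M q a ∈ va2V1 M q K0 A0 := by
  rw [mem_va2V1, coe_heckeBetaBar]
  exact tv_qExpand_mem A0 q ha

theorem va2m_alpha_mem2 (a : ↥(laurentBaseChange K0 (modularFunctionFieldFull M)))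
    (ha : (a : LaurentSeries K0) ∈ grV A0) : heckeAlphaBar K0 M q a ∈ va2V2 M q hM K0 A0 := by
  rw [mem_va2V2, va2Swap_alpha]
  exact va2m_beta_mem1 M q K0 A0 a ha

theorem va2m_beta_mem2 (a : ↥(laurentBaseChange K0 (modularFunctionFieldFull M)))
    (ha : (a : LaurentSeries K0) ∈ grV A0) : heckeBetaBar K0 M q a ∈ va2V2 M q hM K0 A0 := by
  rw [mem_va2V2, va2Swap_beta]
  exact va2m_alpha_mem1 M q K0 A0 a ha

/-! ### Non-units -/

variable (VE : ValuationSubring ↥(laurentBaseChange K0 (modularFunctionFieldFull M)))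
  (hVE : ∀ x : ↥(laurentBaseChange K0 (modularFunctionFieldFull M)),
    x ∈ VE ↔ (x : LaurentSeries K0) ∈ grV A0)

include hVE in
omit [Algebra K0 Qb] in
/-- `α a ∈ 𝔪_{V₁} ↔ a ∈ 𝔪_{VE}` -/
theorem va2m_alpha_nonunits1 (a : ↥(laurentBaseChange K0 (modularFunctionFieldFull M))) :
    heckeAlphaBar K0 M q a ∈ (va2V1 M q K0 A0).nonunits ↔ a ∈ VE.nonunits := by
  rw [cinst_mem_nonunits_iff (va2V1 M q K0 A0) (fun y => mem_va2V1 M q K0 A0 y),
    cinst_mem_nonunits_iff VE hVE]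
  have hcoe : ((heckeAlphaBar K0 M q a : ↥(laurentBaseChange K0 (modularFunctionFieldFull (M * q)))) :
      LaurentSeries K0) = (a : LaurentSeries K0) := coe_heckeAlphaBar M q a
  constructor
  · rintro ⟨h, hρ⟩
    have h' : (a : LaurentSeries K0) ∈ grV A0 := hcoe ▸ h
    refine ⟨h', ?_⟩
    rw [← hρ]
    exact congrArg (grRho A0) (Subtype.ext hcoe.symm)
  · rintro ⟨h, hρ⟩
    have h' : ((heckeAlphaBar K0 M q a :
        ↥(laurentBaseChange K0 (modularFunctionFieldFull (M * q)))) : LaurentSeries K0) ∈ grV A0 :=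
      hcoe.symm ▸ h
    refine ⟨h', ?_⟩
    rw [← hρ]
    exact congrArg (grRho A0) (Subtype.ext hcoe)

include hVE in
omit [Algebra K0 Qb] in
/-- `β a ∈ 𝔪_{V₁}` for `a ∈ 𝔪_{VE}` -/
theorem va2m_beta_nonunits1_of (a : ↥(laurentBaseChange K0 (modularFunctionFieldFull M)))
    (ha : a ∈ VE.nonunits) : heckeBetaBar K0 M q a ∈ (va2V1 M q K0 A0).nonunits := by
  rw [cinst_mem_nonunits_iff (va2V1 M q K0 A0) (fun y => mem_va2V1 M q K0 A0 y)]
  obtain ⟨h, hρ⟩ := (cinst_mem_nonunits_iff VE hVE a).mp ha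
  have hcoe : ((heckeBetaBar K0 M q a : ↥(laurentBaseChange K0 (modularFunctionFieldFull (M * q)))) :
      LaurentSeries K0) = qExpand K0 q (a : LaurentSeries K0) := coe_heckeBetaBar M q a
  have h' : ((heckeBetaBar K0 M q a :
      ↥(laurentBaseChange K0 (modularFunctionFieldFull (M * q)))) : LaurentSeries K0) ∈ grV A0 :=
    hcoe.symm ▸ tv_qExpand_mem A0 q h
  refine ⟨h', ?_⟩
  have h1 : grRho A0 ⟨_, h'⟩ = grRho A0 ⟨qExpand K0 q (a : LaurentSeries K0),
      tv_qExpand_mem A0 q h⟩ := congrArg (grRho A0) (Subtype.ext hcoe)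
  rw [h1, tv_grRho_qExpand A0 q h, hρ, map_zero]

include hVE in
omit [Algebra K0 Qb] in
/-- `β a ∈ V₁ ↔ a ∈ VE` -/
theorem va2m_beta_mem1_iff (a : ↥(laurentBaseChange K0 (modularFunctionFieldFull M))) :
    heckeBetaBar K0 M q a ∈ va2V1 M q K0 A0 ↔ a ∈ VE := by
  constructor
  · intro h
    by_contra hn
    have h1 : a⁻¹ ∈ VE.nonunits := VE.inv_mem_nonunits_iff.mpr (Or.inr hn)
    have h2 := va2m_beta_nonunits1_of M q K0 A0 VE hVE a⁻¹ h1
    rw [map_inv₀, ValuationSubring.inv_mem_nonunits_iff] at h2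
    rcases h2 with h0 | h0
    · rw [map_eq_zero] at h0
      exact hn (h0 ▸ VE.zero_mem)
    · exact h0 h
  · intro h
    exact va2m_beta_mem1 M q K0 A0 a ((hVE a).mp h)

include hVE in
omit [Algebra K0 Qb] in
/-- `β a ∈ 𝔪_{V₁} ↔ a ∈ 𝔪_{VE}` -/
theorem va2m_beta_nonunits1 (a : ↥(laurentBaseChange K0 (modularFunctionFieldFull M))) :
    heckeBetaBar K0 M q a ∈ (va2V1 M q K0 A0).nonunits ↔ a ∈ VE.nonunits := by
  refine ⟨fun h => ?_, va2m_beta_nonunits1_of M q K0 A0 VE hVE a⟩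
  have key : ∀ (W : ValuationSubring ↥(laurentBaseChange K0 (modularFunctionFieldFull (M * q))))
      (y : ↥(laurentBaseChange K0 (modularFunctionFieldFull (M * q)))),
      y ∈ W.nonunits ↔ (y = 0 ∨ y⁻¹ ∉ W) := by
    intro W y
    have h' := W.inv_mem_nonunits_iff (x := y⁻¹)
    rw [inv_inv] at h'
    rw [h', inv_eq_zero]
  have keyE : ∀ y : ↥(laurentBaseChange K0 (modularFunctionFieldFull M)),
      y ∈ VE.nonunits ↔ (y = 0 ∨ y⁻¹ ∉ VE) := by
    intro y
    have h' := VE.inv_mem_nonunits_iff (x := y⁻¹)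
    rw [inv_inv] at h'
    rw [h', inv_eq_zero]
  rw [key, map_eq_zero, ← map_inv₀, va2m_beta_mem1_iff M q K0 A0 VE hVE] at h
  exact (keyE a).mpr h

include hVE in
/-- `α a ∈ 𝔪_{V₂} ↔ a ∈ 𝔪_{VE}` -/
theorem va2m_alpha_nonunits2 (a : ↥(laurentBaseChange K0 (modularFunctionFieldFull M))) :
    heckeAlphaBar K0 M q a ∈ (va2V2 M q hM K0 A0).nonunits ↔ a ∈ VE.nonunits := by
  show heckeAlphaBar K0 M q a ∈
    ((va2V1 M q K0 A0).comap (va2Swap M q hq.out hM K0)).nonunits ↔ a ∈ VE.nonunits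
  rw [va2x_comap_nonunits, va2Swap_alpha]
  exact va2m_beta_nonunits1 M q K0 A0 VE hVE a

include hVE in
/-- `β a ∈ 𝔪_{V₂} ↔ a ∈ 𝔪_{VE}` -/
theorem va2m_beta_nonunits2 (a : ↥(laurentBaseChange K0 (modularFunctionFieldFull M))) :
    heckeBetaBar K0 M q a ∈ (va2V2 M q hM K0 A0).nonunits ↔ a ∈ VE.nonunits := by
  show heckeBetaBar K0 M q a ∈
    ((va2V1 M q K0 A0).comap (va2Swap M q hq.out hM K0)).nonunits ↔ a ∈ VE.nonunits
  rw [va2x_comap_nonunits, va2Swap_beta]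
  exact va2m_alpha_nonunits1 M q K0 A0 VE hVE a

omit [IsDiscreteValuationRing ↥A0] [Algebra K0 Qb] in
/-- the Gauss valuation ring of level `M` in the `graOf` form satisfies `hVE` -/
theorem va2m_hVE_graOf [IsDiscreteValuationRing ↥A0]
    (x : ↥(laurentBaseChange K0 (modularFunctionFieldFull M))) :
    x ∈ graOf (gra_decomp_dvr A0 M) ↔ (x : LaurentSeries K0) ∈ grV A0 := Iff.rfl

/-- `α a ∈ 𝔪_{V₁} ↔ α a ∈ 𝔪_{V₂}`: on the `α`-image of the level-`M` field the two valuations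
have the same non-units. -/
theorem va2m_alpha_nonunits_iff (a : ↥(laurentBaseChange K0 (modularFunctionFieldFull M))) :
    heckeAlphaBar K0 M q a ∈ (va2V1 M q K0 A0).nonunits ↔
      heckeAlphaBar K0 M q a ∈ (va2V2 M q hM K0 A0).nonunits := by
  rw [va2m_alpha_nonunits1 M q K0 A0 (graOf (gra_decomp_dvr A0 M)) (fun _ => Iff.rfl),
    va2m_alpha_nonunits2 M q hM K0 A0 (graOf (gra_decomp_dvr A0 M)) (fun _ => Iff.rfl)]

/-- `β a ∈ 𝔪_{V₁} ↔ β a ∈ 𝔪_{V₂}`. -/
theorem va2m_beta_nonunits_iff (a : ↥(laurentBaseChange K0 (modularFunctionFieldFull M))) :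
    heckeBetaBar K0 M q a ∈ (va2V1 M q K0 A0).nonunits ↔
      heckeBetaBar K0 M q a ∈ (va2V2 M q hM K0 A0).nonunits := by
  rw [va2m_beta_nonunits1 M q K0 A0 (graOf (gra_decomp_dvr A0 M)) (fun _ => Iff.rfl),
    va2m_beta_nonunits2 M q hM K0 A0 (graOf (gra_decomp_dvr A0 M)) (fun _ => Iff.rfl)]

include hVE in
omit [Algebra K0 Qb] in
/-- `α a ∈ V₁ ↔ a ∈ VE` -/
theorem va2m_alpha_mem1_iff (a : ↥(laurentBaseChange K0 (modularFunctionFieldFull M))) :
    heckeAlphaBar K0 M q a ∈ va2V1 M q K0 A0 ↔ a ∈ VE := by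
  rw [mem_va2V1, coe_heckeAlphaBar, hVE]

include hVE in
/-- `α a ∈ V₂ ↔ a ∈ VE` -/
theorem va2m_alpha_mem2_iff (a : ↥(laurentBaseChange K0 (modularFunctionFieldFull M))) :
    heckeAlphaBar K0 M q a ∈ va2V2 M q hM K0 A0 ↔ a ∈ VE := by
  rw [mem_va2V2, va2Swap_alpha]
  exact va2m_beta_mem1_iff M q K0 A0 VE hVE a

include hVE in
/-- `β a ∈ V₂ ↔ a ∈ VE` -/
theorem va2m_beta_mem2_iff (a : ↥(laurentBaseChange K0 (modularFunctionFieldFull M))) :
    heckeBetaBar K0 M q a ∈ va2V2 M q hM K0 A0 ↔ a ∈ VE := by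
  rw [mem_va2V2, va2Swap_beta]
  exact va2m_alpha_mem1_iff M q K0 A0 VE hVE a

/-! ### Constants and chart rings -/

section Chart

variable [Algebra A0 ↥(laurentBaseChange K0 (modularFunctionFieldFull M))]
  [IsScalarTower A0 K0 ↥(laurentBaseChange K0 (modularFunctionFieldFull M))]
  [Algebra A0 ↥(laurentBaseChange K0 (modularFunctionFieldFull (M * q)))]
  [IsScalarTower A0 K0 ↥(laurentBaseChange K0 (modularFunctionFieldFull (M * q)))]

omit [Algebra K0 Qb] [IsDiscreteValuationRing ↥A0] in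
theorem va2m_alpha_algebraMap (c : A0) :
    heckeAlphaBar K0 M q (algebraMap A0 ↥(laurentBaseChange K0 (modularFunctionFieldFull M)) c)
      = algebraMap A0 ↥(laurentBaseChange K0 (modularFunctionFieldFull (M * q))) c := by
  rw [IsScalarTower.algebraMap_apply A0 K0 ↥(laurentBaseChange K0 (modularFunctionFieldFull M)),
    AlgHom.commutes,
    ← IsScalarTower.algebraMap_apply A0 K0
      ↥(laurentBaseChange K0 (modularFunctionFieldFull (M * q)))]

omit [NeZero M] [Algebra K0 Qb] [IsDiscreteValuationRing ↥A0] in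
theorem va2m_beta_algebraMap (c : A0) :
    heckeBetaBar K0 M q (algebraMap A0 ↥(laurentBaseChange K0 (modularFunctionFieldFull M)) c)
      = algebraMap A0 ↥(laurentBaseChange K0 (modularFunctionFieldFull (M * q))) c := by
  rw [IsScalarTower.algebraMap_apply A0 K0 ↥(laurentBaseChange K0 (modularFunctionFieldFull M)),
    AlgHom.commutes,
    ← IsScalarTower.algebraMap_apply A0 K0
      ↥(laurentBaseChange K0 (modularFunctionFieldFull (M * q)))]

omit [Algebra K0 Qb] [IsDiscreteValuationRing ↥A0] in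
/-- `α` maps the level-`M` chart ring of `tM` into the level-`M q` chart ring of `α tM`. -/
theorem va2m_alpha_chtO (tM x : ↥(laurentBaseChange K0 (modularFunctionFieldFull M)))
    (hx : x ∈ chtO A0 {tM}) :
    heckeAlphaBar K0 M q x ∈ chtO A0 {heckeAlphaBar K0 M q tM} :=
  va2m_chtO_map ((heckeAlphaBar K0 M q).restrictScalars A0) tM x hx

omit [NeZero M] [Algebra K0 Qb] [IsDiscreteValuationRing ↥A0] in
/-- `β` maps the level-`M` chart ring of `tM` into the level-`M q` chart ring of `β tM`. -/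
theorem va2m_beta_chtO (tM x : ↥(laurentBaseChange K0 (modularFunctionFieldFull M)))
    (hx : x ∈ chtO A0 {tM}) :
    heckeBetaBar K0 M q x ∈ chtO A0 {heckeBetaBar K0 M q tM} :=
  va2m_chtO_map ((heckeBetaBar K0 M q).restrictScalars A0) tM x hx

end Chart

end Main

end Fermat.Agent.S34
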