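import Mathlib
import Fermat.Agent.S34.InsepChart
import Fermat.Agent.S34.Val2Res
import Fermat.Agent.S34.Val2Mem

/-!
# S34, LIFT-INST: the level-`M q` Hauptmodul chart is the level-`M` chart modulo `𝔪_{V₁}`

Concrete inputs `hαO`, `hint`, `hlift` of the abstract node glue (`ngl_main`) at the `Val2Def`
carrier: `E` = level-`M` function field over `K0`, `F` = level-`M q` function field,
`α = heckeAlphaBar K0 M q`, `OM = chtO A0 {tM}`, `O = chtO A0 {t}` with `α tM = t`,
`V₁ = va2V1 M q K0 A0`.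

* `lfi_hint_abs`, `lfi_hint_map`, `lfi_hint` : the upper chart is integral over the lower chart;
* `lfi_hlift_aux` : `O = α(OM) + (O ∩ 𝔪_{V₁})` from the chart bundle of level `M` and the
  Dedekind property of the special fibre of the level-`M` chart;
* `lfi_hlift` : the same with the chart bundle discharged for the Hauptmodul coordinate
  `tM = cinstU H K0 c0 c1`; the only remaining hypothesis is `hSM`.
-/

set_option autoImplicit false

open AlgebraicCurve ModularCurve Polynomial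
open Fermat.Agent.S28 Fermat.Agent.S18 Fermat.Agent.S37
open scoped IntermediateField

namespace Fermat.Agent.S34

local notation "Qb" => AlgebraicClosure ℚ

section Abs

variable {A E F : Type*} [CommRing A] [Field E] [Field F] [Algebra A E] [Algebra A F]

/-- Integrality of the upper chart over the lower chart, for the algebra structure of `F` over
the subalgebra `chtO A {tM}` of `E` induced by `[Algebra E F]` (the instance path of the
hypothesis `hint` of `ngl_main`). -/
theorem lfi_hint_abs [Algebra E F] [IsScalarTower A E F] (tM : E) (z : F)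
    (hz : z ∈ chtO A {algebraMap E F tM}) : IsIntegral ↥(chtO A {tM}) z := by
  obtain ⟨p, hp, hc, hpx⟩ := (cht_isIntegral_iff (Algebra.adjoin A {algebraMap E F tM}) z).mp hz
  have hl : p ∈ lifts (algebraMap ↥(chtO A {tM}) F) := by
    rw [lifts_iff_coeff_lifts]
    intro n
    have h1 : p.coeff n ∈ (Algebra.adjoin A {tM}).map (IsScalarTower.toAlgHom A E F) := by
      rw [AlgHom.map_adjoin, Set.image_singleton]
      exact hc n
    obtain ⟨y, hy, hyc⟩ := h1
    exact ⟨⟨y, cht_adjoin_le {tM} hy⟩, hyc⟩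
  obtain ⟨r, hr, -, hrm⟩ := lifts_and_natDegree_eq_and_monic hl hp
  refine ⟨r, hrm, ?_⟩
  rw [← eval_map, hr]
  exact hpx

/-- Integrality of the upper chart over the image of the lower chart under an algebra
homomorphism (the `Subalgebra.map` form, as used by `s34c_lift` / `isc_abs`). -/
theorem lfi_hint_map (α : E →ₐ[A] F) (tM : E) (z : F) (hz : z ∈ chtO A {α tM}) :
    IsIntegral ↥((chtO A {tM}).map α) z := by
  obtain ⟨p, hp, hc, hpx⟩ := (cht_isIntegral_iff (Algebra.adjoin A {α tM}) z).mp hz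
  refine (cht_isIntegral_iff _ z).mpr ⟨p, hp, fun i => ?_, hpx⟩
  refine (Algebra.adjoin_le ?_ : Algebra.adjoin A {α tM} ≤ _) (hc i)
  rintro _ rfl
  exact ⟨tM, (cht_h1 tM).1, rfl⟩

end Abs

section Main

variable (M q : ℕ) [NeZero M] [hq : Fact q.Prime] (hM : ¬ q ∣ M)
  (K0 : Type*) [Field K0] [Algebra ℚ K0] [Algebra K0 Qb]
  (A0 : ValuationSubring K0) [IsDiscreteValuationRing ↥A0]

omit [Algebra K0 Qb] [IsDiscreteValuationRing ↥A0] in
/-- `hint` of `ngl_main` at the concrete carrier, for the algebra structure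
`algebraAlong (heckeAlphaBar K0 M q)` of the level-`M q` field over the level-`M` field. -/
theorem lfi_hint
    [Algebra ↥A0 ↥(laurentBaseChange K0 (modularFunctionFieldFull M))]
    [IsScalarTower ↥A0 K0 ↥(laurentBaseChange K0 (modularFunctionFieldFull M))]
    [Algebra ↥A0 ↥(laurentBaseChange K0 (modularFunctionFieldFull (M * q)))]
    [IsScalarTower ↥A0 K0 ↥(laurentBaseChange K0 (modularFunctionFieldFull (M * q)))]
    (tM : ↥(laurentBaseChange K0 (modularFunctionFieldFull M)))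
    (z : ↥(laurentBaseChange K0 (modularFunctionFieldFull (M * q))))
    (hz : z ∈ chtO ↥A0 {heckeAlphaBar K0 M q tM}) :
    letI := algebraAlong (heckeAlphaBar K0 M q)
    IsIntegral ↥(chtO ↥A0 {tM}) z := by
  letI := algebraAlong (heckeAlphaBar K0 M q)
  haveI : IsScalarTower ↥A0 ↥(laurentBaseChange K0 (modularFunctionFieldFull M))
      ↥(laurentBaseChange K0 (modularFunctionFieldFull (M * q))) :=
    IsScalarTower.of_algebraMap_eq fun c => (va2m_alpha_algebraMap M q K0 A0 c).symm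
  exact lfi_hint_abs tM z hz

include hM in
/-- **`hlift`, bundle form.**  Every element of the level-`M q` chart is congruent modulo
`𝔪_{V₁}` to the `α`-image of an element of the level-`M` chart.  Hypotheses = conjuncts of the
S18 chart bundle at level `M` and the Dedekind property of the special fibre of the level-`M`
chart (same shapes as in `isc_main`). -/
theorem lfi_hlift_aux
    [Algebra ↥A0 ↥(laurentBaseChange K0 (modularFunctionFieldFull M))]
    [IsScalarTower ↥A0 K0 ↥(laurentBaseChange K0 (modularFunctionFieldFull M))]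
    [Algebra ↥A0 ↥(laurentBaseChange K0 (modularFunctionFieldFull (M * q)))]
    [IsScalarTower ↥A0 K0 ↥(laurentBaseChange K0 (modularFunctionFieldFull (M * q)))]
    (hA0 : A0.LiesOverPrime q)
    (τ : ↥A0) (hτ : Irreducible τ)
    (VE : ValuationSubring ↥(laurentBaseChange K0 (modularFunctionFieldFull M)))
    (hVE : ∀ x : ↥(laurentBaseChange K0 (modularFunctionFieldFull M)),
      x ∈ VE ↔ (x : LaurentSeries K0) ∈ grV A0)
    (tM : ↥(laurentBaseChange K0 (modularFunctionFieldFull M)))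
    (hnoeth : IsNoetherianRing ↥(chtO ↥A0 {tM}))
    (hfracM : ∀ x : ↥(laurentBaseChange K0 (modularFunctionFieldFull M)),
      ∃ a ∈ chtO ↥A0 {tM}, ∃ s ∈ chtO ↥A0 {tM}, s ≠ 0 ∧ x * s = a)
    (hVM : ∀ x ∈ chtO ↥A0 {tM}, x ∈ VE)
    (hVτM : ∀ x ∈ chtO ↥A0 {tM}, x ∈ VE.nonunits →
      ∃ y ∈ chtO ↥A0 {tM},
        x = algebraMap ↥A0 ↥(laurentBaseChange K0 (modularFunctionFieldFull M)) τ * y)
    (hSM : IsDedekindDomain
      (↥(chtO ↥A0 {tM}) ⧸ Ideal.span {algebraMap ↥A0 ↥(chtO ↥A0 {tM}) τ}))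
    (t : ↥(laurentBaseChange K0 (modularFunctionFieldFull (M * q))))
    (htt : heckeAlphaBar K0 M q tM = t)
    (hO1 : ∀ x ∈ chtO ↥A0 {t}, x ∈ va2V1 M q K0 A0)
    (z : ↥(laurentBaseChange K0 (modularFunctionFieldFull (M * q))))
    (hz : z ∈ chtO ↥A0 {t}) :
    ∃ z0 ∈ chtO ↥A0 {tM},
      z - heckeAlphaBar K0 M q z0 ∈ (va2V1 M q K0 A0).nonunits := by
  have hτVE : algebraMap ↥A0 ↥(laurentBaseChange K0 (modularFunctionFieldFull M)) τ
      ∈ VE.nonunits := by
    rw [IsScalarTower.algebraMap_apply ↥A0 K0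
      ↥(laurentBaseChange K0 (modularFunctionFieldFull M))]
    refine cinst_algebraMap_mem_nonunits VE hVE τ ?_
    rw [IsLocalRing.mem_maximalIdeal, mem_nonunits_iff]
    exact hτ.not_isUnit
  have hτ0 : algebraMap ↥A0 ↥(laurentBaseChange K0 (modularFunctionFieldFull M)) τ ≠ 0 := by
    rw [IsScalarTower.algebraMap_apply ↥A0 K0
      ↥(laurentBaseChange K0 (modularFunctionFieldFull M)), Ne, map_eq_zero]
    intro h0
    exact hτ.ne_zero (Subtype.ext h0)
  obtain ⟨a0, ha0, hnon⟩ :=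
    va2x_res_one M q hM K0 A0 hA0 (va2d_finrank K0 M hq.out hM) z (hO1 z hz)
  have key := isc_abs ((heckeAlphaBar K0 M q).restrictScalars ↥A0) τ VE (va2V1 M q K0 A0)
    (chtO ↥A0 {tM}) hnoeth hτVE hτ0 hfracM hVM hVτM hSM
    (fun a ha => va2m_alpha_mem1 M q K0 A0 a ((hVE a).mp ha))
    (fun a _ => va2m_alpha_nonunits1 M q K0 A0 VE hVE a) 1 z (hO1 z hz)
    (by
      have h1 := lfi_hint_map ((heckeAlphaBar K0 M q).restrictScalars ↥A0) tM z
      have h2 : ((heckeAlphaBar K0 M q).restrictScalars ↥A0) tM = t := htt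
      rw [h2] at h1
      exact h1 hz)
    ⟨a0, (hVE a0).mpr ha0, by rw [pow_one]; exact hnon⟩
  obtain ⟨z0, hz0, h⟩ := key
  refine ⟨z0, hz0, ?_⟩
  rw [pow_one] at h
  exact h

include hM in
/-- **`hlift` for the Hauptmodul charts.**  `tM` and `t` the chart coordinates
`cinstU H K0 c0 c1` of level `M` and level `M q`; if the special fibre of the level-`M` chart is
a Dedekind domain (S18 (SM) for the pair `(c0, c1)`), then
`chtO A0 {t} = α (chtO A0 {tM}) + (chtO A0 {t} ∩ 𝔪_{V₁})`. -/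
theorem lfi_hlift (hA0 : A0.LiesOverPrime q) {a2 : ℕ} (H : HauptRec a2 q)
    [Algebra ↥A0 ↥(laurentBaseChange K0 (modularFunctionFieldFull M))]
    [IsScalarTower ↥A0 K0 ↥(laurentBaseChange K0 (modularFunctionFieldFull M))]
    [Algebra ↥A0 ↥(laurentBaseChange K0 (modularFunctionFieldFull (M * q)))]
    [IsScalarTower ↥A0 K0 ↥(laurentBaseChange K0 (modularFunctionFieldFull (M * q)))]
    (c0 c1 : ↥A0) (hc : IsLocalRing.residue ↥A0 c0 ≠ IsLocalRing.residue ↥A0 c1)
    (tM : ↥(laurentBaseChange K0 (modularFunctionFieldFull M)))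
    (htM : (tM : LaurentSeries K0) = cinstU H K0 (c0 : K0) (c1 : K0))
    (τ : ↥A0) (hτ : Irreducible τ)
    (hSM : IsDedekindDomain
      (↥(chtO ↥A0 {tM}) ⧸ Ideal.span {algebraMap ↥A0 ↥(chtO ↥A0 {tM}) τ}))
    (t : ↥(laurentBaseChange K0 (modularFunctionFieldFull (M * q))))
    (ht : (t : LaurentSeries K0) = cinstU H K0 (c0 : K0) (c1 : K0))
    (z : ↥(laurentBaseChange K0 (modularFunctionFieldFull (M * q))))
    (hz : z ∈ chtO ↥A0 {t}) :
    ∃ z0 ∈ chtO ↥A0 {tM},
      z - heckeAlphaBar K0 M q z0 ∈ (va2V1 M q K0 A0).nonunits := by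
  classical
  have : CharZero K0 := algebraRat.charZero K0
  have hVG : ∀ x : ↥(laurentBaseChange K0 (modularFunctionFieldFull M)),
      x ∈ grO A0 hA0 M hM ↔ (x : LaurentSeries K0) ∈ grV A0 := fun x => Iff.rfl
  obtain ⟨hA, hτV, hτgen, htt, htV, htV', hG, hfin, hconst⟩ :=
    c2i_hyps A0 M H (grO A0 hA0 M hM) hVG c0 c1 hc tM htM τ hτ
  have hc' : (c0 : K0) ≠ (c1 : K0) := by
    intro h0
    apply hc
    rw [Subtype.ext h0]
  have hL := cinst_adjoin_grJ_le M H _ _ hc' tM htM
  have huniq := cht_huniq_of_sub (K0 := K0) (L := ↥K0⟮grJ K0 M⟯) (grO A0 hA0 M hM) tM hL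
    (gr_unique_j A0 hA0 M hM)
  obtain ⟨-, h2, -, ⟨b0, hb0, hspan0⟩, -, -, -, hfrac0, -, -, -, hV0, -, hVτ0, -⟩ :=
    cht_all (K0 := K0) (grO A0 hA0 M hM) hA hτ hτV hτgen tM htt htV htV' hG hfin huniq hconst 1
      one_pos
  have hN0 : IsNoetherianRing ↥(chtO ↥A0 {tM}) := cz_noeth tM _ h2 b0 hb0 hspan0
  have hαt : heckeAlphaBar K0 M q tM = t :=
    Subtype.ext ((coe_heckeAlphaBar M q tM).trans (htM.trans ht.symm))
  have hAF : ∀ a : ↥A0,
      algebraMap ↥A0 ↥(laurentBaseChange K0 (modularFunctionFieldFull (M * q))) a ∈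
        va2V1 M q K0 A0 := by
    intro a
    rw [← va2m_alpha_algebraMap M q K0 A0 a]
    exact va2m_alpha_mem1 M q K0 A0 _ ((hVG _).mp (hA a))
  have hO1 : ∀ x ∈ chtO ↥A0 {t}, x ∈ va2V1 M q K0 A0 := by
    intro x hx
    refine cht_le_valuationSubring (va2V1 M q K0 A0) hAF ?_ hx
    rintro y rfl
    rw [← hαt]
    exact va2m_alpha_mem1 M q K0 A0 _ ((hVG _).mp htV)
  exact lfi_hlift_aux M q hM K0 A0 hA0 τ hτ (grO A0 hA0 M hM) hVG tM hN0 hfrac0 hV0 hVτ0 hSM t hαt
    hO1 z hz

end Main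

end Fermat.Agent.S34
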