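import Mathlib

/-!
# S34, abstract leaf NODE-ALG: a horizontal point through a node is principal up to a constant

`A` a discrete valuation ring with uniformiser `τ`, `Λ` a noetherian local `A`-algebra presented as
`R / (Φ)` (`π : R → Λ` onto with kernel `(Φ)`), `D` an `A`-derivation of `R`, and `X, Y, G : R`
with `X * Y - τ * G = Φ` such that the maximal ideal of `Λ` is `(τ, π X, π Y)` ("the special fibre
is a node with branches `X = 0`, `Y = 0`").  For an `A`-point `ev : Λ → A` at which the derivative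
`D Φ` does not vanish, the kernel of `ev` is principal up to a nonzero constant:
there are `g ∈ ker ev` and `c ≠ 0` in `A` with `c • ker ev ⊆ g Λ` (`nda_main`).

Proof: rectify the coordinates (`x_n y_n = τ ^ n g_n`, `x_{n+1} = x_n - τ ^ n β`, ...) until
`v (ev x_n) < n` or `v (ev y_n) < n`; the process stops because `π (D Φ) ∈ (x_n, y_n, τ ^ n)`.
-/

set_option autoImplicit false
set_option linter.unusedSectionVars false

namespace Fermat.Agent.S34

open IsLocalRing

section NodeAlg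

variable {A : Type*} [CommRing A] [IsDomain A] [IsDiscreteValuationRing A]
variable {Λ : Type*} [CommRing Λ] [Algebra A Λ] [IsLocalRing Λ]

/-- `1 - m` is a unit for `m` in the maximal ideal. -/
theorem nda_one_sub_isUnit {m : Λ} (hm : m ∈ maximalIdeal Λ) : IsUnit (1 - m) := by
  by_contra hnu
  have h2 : (1 - m) ∈ maximalIdeal Λ := (mem_maximalIdeal _).mpr hnu
  have h3 : (1 : Λ) ∈ maximalIdeal Λ := by
    have := Ideal.add_mem _ h2 hm
    simp at this
  exact (Ideal.ne_top_iff_one _).mp (maximalIdeal.isMaximal Λ).ne_top h3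

/-- An `A`-algebra map `Λ → A` sends the maximal ideal into the maximal ideal. -/
theorem nda_ev_mem (ev : Λ →ₐ[A] A) {w : Λ} (hw : w ∈ maximalIdeal Λ) :
    ev w ∈ maximalIdeal A := by
  rw [mem_maximalIdeal, mem_nonunits_iff]
  rintro ⟨u, hu⟩
  have h1 : IsUnit (1 - algebraMap A Λ (↑u⁻¹) * w) :=
    nda_one_sub_isUnit (Ideal.mul_mem_left _ _ hw)
  have h0 : ev (1 - algebraMap A Λ (↑u⁻¹) * w) = 0 := by
    rw [map_sub, map_one, map_mul, AlgHom.commutes, ← hu]
    simp
  have := h1.map ev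
  rw [h0] at this
  exact not_isUnit_zero this

/-- Elements outside the kernel-preimage: if `ev w` is a non-unit then `w` is a non-unit. -/
theorem nda_mem_of_ev (ev : Λ →ₐ[A] A) {w : Λ} (hw : ev w ∈ maximalIdeal A) :
    w ∈ maximalIdeal Λ := by
  rw [mem_maximalIdeal, mem_nonunits_iff]
  intro hu
  exact (mem_maximalIdeal _).mp hw (hu.map ev)

/-- In a discrete valuation ring: either `v a < n` or `τ ^ n ∣ a`. -/
theorem nda_dichotomy {τ : A} (hτ : Irreducible τ) (a : A) (n : ℕ) :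
    (∃ t : A, τ ^ n = a * (τ * t)) ∨ τ ^ n ∣ a := by
  by_cases ha : a = 0
  · right; rw [ha]; exact dvd_zero _
  obtain ⟨i, hi⟩ := IsDiscreteValuationRing.associated_pow_irreducible ha hτ
  obtain ⟨u, hu⟩ := hi.symm
  -- hu : τ ^ i * u = a
  by_cases hin : i < n
  · left
    refine ⟨↑u⁻¹ * τ ^ (n - i - 1), ?_⟩
    rw [← hu]
    have : n = i + 1 + (n - i - 1) := by omega
    conv_lhs => rw [this, pow_add, pow_succ]
    have h1 : (u : A) * ↑u⁻¹ = 1 := Units.mul_inv u
    calc τ ^ i * τ * τ ^ (n - i - 1) = τ ^ i * τ * τ ^ (n - i - 1) * ((u : A) * ↑u⁻¹) := by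
          rw [h1, mul_one]
      _ = τ ^ i * ↑u * (τ * (↑u⁻¹ * τ ^ (n - i - 1))) := by ring
  · right
    rw [← hu]
    have : i = n + (i - n) := by omega
    rw [this, pow_add, mul_assoc]
    exact dvd_mul_right _ _

end NodeAlg

section Main

variable {A : Type*} [CommRing A] [IsDomain A] [IsDiscreteValuationRing A]
variable {Λ : Type*} [CommRing Λ] [Algebra A Λ] [IsLocalRing Λ] [IsNoetherianRing Λ]
variable {R : Type*} [CommRing R] [Algebra A R]

/-- The maximal ideal in rectified coordinates. -/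
theorem nda_max_repr {τ : A} (π : R →ₐ[A] Λ) {X Y : R}
    (hmax : maximalIdeal Λ = Ideal.span {algebraMap A Λ τ, π X, π Y})
    {Xn Yn ux uy : R} (hx : Xn = X + algebraMap A R τ * ux) (hy : Yn = Y + algebraMap A R τ * uy)
    {w : Λ} (hw : w ∈ maximalIdeal Λ) :
    ∃ c₁ c₂ c₃ : Λ, w = algebraMap A Λ τ * c₁ + π Xn * c₂ + π Yn * c₃ := by
  rw [hmax, Ideal.mem_span_insert] at hw
  obtain ⟨a₁, z, hz, rfl⟩ := hw
  rw [Ideal.mem_span_pair] at hz
  obtain ⟨a₂, a₃, rfl⟩ := hz
  refine ⟨a₁ - π ux * a₂ - π uy * a₃, a₂, a₃, ?_⟩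
  rw [hx, hy]
  simp only [map_add, map_mul, AlgHom.commutes]
  ring

theorem nda_tau_mem {τ : A} (π : R →ₐ[A] Λ) {X Y : R}
    (hmax : maximalIdeal Λ = Ideal.span {algebraMap A Λ τ, π X, π Y}) :
    algebraMap A Λ τ ∈ maximalIdeal Λ := by
  rw [hmax]; exact Ideal.subset_span (by simp)

theorem nda_x_mem {τ : A} (π : R →ₐ[A] Λ) {X Y : R}
    (hmax : maximalIdeal Λ = Ideal.span {algebraMap A Λ τ, π X, π Y})
    {Xn ux : R} (hx : Xn = X + algebraMap A R τ * ux) : π Xn ∈ maximalIdeal Λ := by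
  rw [hx, map_add, map_mul, AlgHom.commutes]
  refine Ideal.add_mem _ ?_ (Ideal.mul_mem_right _ _ (nda_tau_mem π hmax))
  rw [hmax]; exact Ideal.subset_span (by simp)

theorem nda_y_mem {τ : A} (π : R →ₐ[A] Λ) {X Y : R}
    (hmax : maximalIdeal Λ = Ideal.span {algebraMap A Λ τ, π X, π Y})
    {Yn uy : R} (hy : Yn = Y + algebraMap A R τ * uy) : π Yn ∈ maximalIdeal Λ := by
  rw [hy, map_add, map_mul, AlgHom.commutes]
  refine Ideal.add_mem _ ?_ (Ideal.mul_mem_right _ _ (nda_tau_mem π hmax))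
  rw [hmax]; exact Ideal.subset_span (by simp)

/-- The kernel of an `A`-point is generated by the two rectified coordinates minus their
values. -/
theorem nda_ker_repr {τ : A} (hτ : Irreducible τ) (π : R →ₐ[A] Λ) {X Y : R}
    (hmax : maximalIdeal Λ = Ideal.span {algebraMap A Λ τ, π X, π Y})
    {Xn Yn ux uy : R} (hx : Xn = X + algebraMap A R τ * ux) (hy : Yn = Y + algebraMap A R τ * uy)
    (ev : Λ →ₐ[A] A) {w : Λ} (hw : ev w = 0) :
    ∃ c₂ c₃ : Λ, w = (π Xn - algebraMap A Λ (ev (π Xn))) * c₂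
      + (π Yn - algebraMap A Λ (ev (π Yn))) * c₃ := by
  set xn := π Xn with hxn
  set yn := π Yn with hyn
  set a := ev xn with ha
  set b := ev yn with hb
  have hτ0 : τ ≠ 0 := hτ.ne_zero
  have hmA : maximalIdeal A = Ideal.span {τ} := hτ.maximalIdeal_eq
  obtain ⟨a', ha'⟩ : ∃ a', a' * τ = a := by
    have := nda_ev_mem ev (nda_x_mem π hmax hx)
    rw [hmA, Ideal.mem_span_singleton'] at this
    exact this
  obtain ⟨b', hb'⟩ : ∃ b', b' * τ = b := by
    have := nda_ev_mem ev (nda_y_mem π hmax hy)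
    rw [hmA, Ideal.mem_span_singleton'] at this
    exact this
  let K : Ideal Λ := RingHom.ker (ev : Λ →+* A)
  let I' : Ideal Λ := Ideal.span {xn - algebraMap A Λ a, yn - algebraMap A Λ b}
  have hKI : K ≤ I' := by
    refine Submodule.le_of_le_smul_of_le_jacobson_bot (I := maximalIdeal Λ)
      (IsNoetherian.noetherian K) ?_ ?_
    · rw [IsLocalRing.jacobson_eq_maximalIdeal ⊥ bot_ne_top]
    · intro v hv
      have hv0 : ev v = 0 := hv
      have hvm : v ∈ maximalIdeal Λ := by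
        apply nda_mem_of_ev ev
        rw [hv0]; exact Ideal.zero_mem _
      obtain ⟨c₁, c₂, c₃, hc⟩ := nda_max_repr π hmax hx hy hvm
      set v' := c₁ + algebraMap A Λ a' * c₂ + algebraMap A Λ b' * c₃ with hv'
      have hdec : v = ((xn - algebraMap A Λ a) * c₂ + (yn - algebraMap A Λ b) * c₃)
          + algebraMap A Λ τ * v' := by
        rw [hc, hv', ← ha', ← hb']
        simp only [map_mul]
        ring
      have hv'K : v' ∈ K := by
        have h1 : ev (algebraMap A Λ τ * v') = 0 := by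
          have h2 : algebraMap A Λ τ * v' = v - ((xn - algebraMap A Λ a) * c₂
              + (yn - algebraMap A Λ b) * c₃) := by rw [hdec]; ring
          rw [h2, map_sub, hv0, map_add, map_mul, map_mul, map_sub, map_sub, AlgHom.commutes,
            AlgHom.commutes]
          simp [ha, hb]
        rw [map_mul, AlgHom.commutes] at h1
        have h3 : ev v' = 0 := by
          rcases mul_eq_zero.mp h1 with h | h
          · exact absurd h hτ0
          · exact h
        exact h3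
      rw [hdec]
      refine Submodule.add_mem_sup ?_ ?_
      · refine Ideal.add_mem _ (Ideal.mul_mem_right _ _ (Ideal.subset_span (by simp)))
          (Ideal.mul_mem_right _ _ (Ideal.subset_span (by simp)))
      · have : algebraMap A Λ τ * v' = algebraMap A Λ τ • v' := rfl
        rw [this]
        exact Submodule.smul_mem_smul (nda_tau_mem π hmax) hv'K
  have hwK : w ∈ K := hw
  have := hKI hwK
  rw [Ideal.mem_span_pair] at this
  obtain ⟨c₂, c₃, h⟩ := this
  exact ⟨c₂, c₃, by rw [← h]; ring⟩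

/-- The derivative of the relation lies in `(x_n, y_n, τ ^ n)`. -/
theorem nda_deriv {τ : A} (π : R →ₐ[A] Λ) {Φ X Y : R} (hΦ : π Φ = 0)
    (hmax : maximalIdeal Λ = Ideal.span {algebraMap A Λ τ, π X, π Y})
    (D : Derivation A R R) {n : ℕ} {Xn Yn Gn W' : R}
    (hrel : Xn * Yn - algebraMap A R τ ^ n * Gn = (1 + algebraMap A R τ * W') * Φ) :
    ∃ p₁ p₂ p₃ : Λ, π (D Φ) = π Xn * p₁ + π Yn * p₂ + algebraMap A Λ τ ^ n * p₃ := by
  have hD := congrArg D hrel
  have ht : D (algebraMap A R τ ^ n) = 0 := by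
    rw [← map_pow]; exact D.map_algebraMap _
  rw [map_sub, D.leibniz, D.leibniz, D.leibniz, ht, smul_zero, add_zero] at hD
  have hπ := congrArg π hD
  simp only [map_sub, map_add, smul_eq_mul, map_mul, map_pow, AlgHom.commutes, hΦ, zero_mul,
    add_zero, map_one] at hπ
  -- hπ : π Xn * π (D Yn) + π Yn * π (D Xn) - τ ^ n * π (D Gn) = (1 + τ * π W') * π (D Φ)
  have hu : IsUnit (1 + algebraMap A Λ τ * π W') := by
    have h1 : (1 : Λ) + algebraMap A Λ τ * π W' = 1 - (algebraMap A Λ τ * (- π W')) := by ring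
    rw [h1]
    exact nda_one_sub_isUnit (Ideal.mul_mem_right _ _ (nda_tau_mem π hmax))
  obtain ⟨u, hu⟩ := hu
  refine ⟨↑u⁻¹ * π (D Yn), ↑u⁻¹ * π (D Xn), - (↑u⁻¹ * π (D Gn)), ?_⟩
  have h2 : π (D Φ) = ↑u⁻¹ * ((1 + algebraMap A Λ τ * π W') * π (D Φ)) := by
    rw [← hu, ← mul_assoc, Units.inv_mul, one_mul]
  rw [h2, ← hπ]
  ring

/-- The conclusion of `nda_main`. -/
def NdaGoal (ev : Λ →ₐ[A] A) : Prop :=
  ∃ g : Λ, ev g = 0 ∧ ∃ c : A, c ≠ 0 ∧ ∀ w : Λ, ev w = 0 → ∃ u : Λ, algebraMap A Λ c * w = g * u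

/-- Case A/B: one coordinate value has valuation `< n`. -/
theorem nda_case {τ : A} (hτ : Irreducible τ) (ev : Λ →ₐ[A] A) (htm : algebraMap A Λ τ ∈ maximalIdeal Λ)
    {n : ℕ} {xn yn gn : Λ} (hrel : xn * yn = algebraMap A Λ τ ^ n * gn)
    (hker : ∀ w : Λ, ev w = 0 → ∃ c₂ c₃ : Λ, w = (xn - algebraMap A Λ (ev xn)) * c₂
      + (yn - algebraMap A Λ (ev yn)) * c₃)
    {t : A} (ht : τ ^ n = ev xn * (τ * t)) : NdaGoal ev := by
  set a := ev xn with ha
  set b := ev yn with hb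
  set g0 := ev gn with hg0
  have hab : a * b = τ ^ n * g0 := by
    have := congrArg ev hrel
    rw [map_mul, map_mul, map_pow, AlgHom.commutes] at this
    exact this
  have ha0 : a ≠ 0 := by
    intro h0
    rw [h0, zero_mul] at ht
    exact pow_ne_zero n hτ.ne_zero ht
  obtain ⟨r, s, hrs⟩ := hker (gn - algebraMap A Λ g0) (by rw [map_sub, AlgHom.commutes]; simp [hg0])
  have habΛ : algebraMap A Λ a * algebraMap A Λ b = algebraMap A Λ τ ^ n * algebraMap A Λ g0 := by
    rw [← map_mul, hab, map_mul, map_pow]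
  have htΛ : algebraMap A Λ τ ^ n = algebraMap A Λ a * (algebraMap A Λ τ * algebraMap A Λ t) := by
    rw [← map_pow, ht, map_mul, map_mul]
  -- (a - τ ^ n s)(y_n - b) = (x_n - a)(τ ^ n r - y_n)
  have key : (algebraMap A Λ a - algebraMap A Λ τ ^ n * s) * (yn - algebraMap A Λ b)
      = (xn - algebraMap A Λ a) * (algebraMap A Λ τ ^ n * r - yn) := by
    linear_combination hrel - habΛ + algebraMap A Λ τ ^ n * hrs
  have hv : IsUnit (1 - algebraMap A Λ τ * (algebraMap A Λ t * s)) :=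
    nda_one_sub_isUnit (Ideal.mul_mem_right _ _ htm)
  obtain ⟨v, hv⟩ := hv
  have key2 : algebraMap A Λ a * (yn - algebraMap A Λ b)
      = (xn - algebraMap A Λ a) * ((algebraMap A Λ τ ^ n * r - yn) * ↑v⁻¹) := by
    have h1 : algebraMap A Λ a - algebraMap A Λ τ ^ n * s = algebraMap A Λ a * ↑v := by
      rw [hv, htΛ]; ring
    rw [h1] at key
    calc algebraMap A Λ a * (yn - algebraMap A Λ b)
        = (algebraMap A Λ a * ↑v * (yn - algebraMap A Λ b)) * ↑v⁻¹ := by
          have : (↑v : Λ) * ↑v⁻¹ = 1 := Units.mul_inv v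
          calc algebraMap A Λ a * (yn - algebraMap A Λ b)
              = algebraMap A Λ a * (yn - algebraMap A Λ b) * ((↑v : Λ) * ↑v⁻¹) := by
                rw [this, mul_one]
            _ = _ := by ring
      _ = _ := by rw [key]; ring
  refine ⟨xn - algebraMap A Λ a, by rw [map_sub, AlgHom.commutes]; simp [ha], a, ha0, ?_⟩
  intro w hw
  obtain ⟨c₂, c₃, hc⟩ := hker w hw
  refine ⟨algebraMap A Λ a * c₂ + (algebraMap A Λ τ ^ n * r - yn) * ↑v⁻¹ * c₃, ?_⟩
  rw [hc]
  linear_combination c₃ * key2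

/-- The rectification induction. -/
theorem nda_aux {τ : A} (hτ : Irreducible τ) (π : R →ₐ[A] Λ) (hπ : Function.Surjective π)
    {Φ X Y : R} (hker : ∀ r : R, π r = 0 → ∃ w : R, r = w * Φ) (hΦ : π Φ = 0)
    (hmax : maximalIdeal Λ = Ideal.span {algebraMap A Λ τ, π X, π Y})
    (D : Derivation A R R) (ev : Λ →ₐ[A] A) (k : ℕ) :
    ∀ (m : ℕ) (Xn Yn Gn W' ux uy : R),
      Xn * Yn - algebraMap A R τ ^ (m + 1) * Gn = (1 + algebraMap A R τ * W') * Φ →
      Xn = X + algebraMap A R τ * ux → Yn = Y + algebraMap A R τ * uy →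
      ¬ τ ^ (m + 1 + k) ∣ ev (π (D Φ)) → NdaGoal ev := by
  induction k with
  | zero =>
    intro m Xn Yn Gn W' ux uy hrel hx hy hnd
    have htm := nda_tau_mem π hmax
    have hrelΛ : π Xn * π Yn = algebraMap A Λ τ ^ (m + 1) * π Gn := by
      have := congrArg π hrel
      simp only [map_sub, map_mul, map_pow, AlgHom.commutes, hΦ, mul_zero] at this
      exact sub_eq_zero.mp this
    have hkerev := fun w hw => nda_ker_repr hτ π hmax hx hy ev (w := w) hw
    rcases nda_dichotomy hτ (ev (π Xn)) (m + 1) with ⟨t, ht⟩ | hda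
    · exact nda_case hτ ev htm hrelΛ hkerev ht
    rcases nda_dichotomy hτ (ev (π Yn)) (m + 1) with ⟨t, ht⟩ | hdb
    · refine nda_case hτ ev htm (xn := π Yn) (yn := π Xn) (by rw [mul_comm]; exact hrelΛ) ?_ ht
      intro w hw
      obtain ⟨c₂, c₃, h⟩ := hkerev w hw
      exact ⟨c₃, c₂, by rw [h]; ring⟩
    exfalso
    apply hnd
    obtain ⟨p₁, p₂, p₃, hp⟩ := nda_deriv π hΦ hmax D hrel
    rw [hp, map_add, map_add, map_mul, map_mul, map_mul, map_pow, AlgHom.commutes, add_zero]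
    exact dvd_add (dvd_add (Dvd.dvd.mul_right hda _) (Dvd.dvd.mul_right hdb _))
      (dvd_mul_right _ _)
  | succ k ih =>
    intro m Xn Yn Gn W' ux uy hrel hx hy hnd
    have htm := nda_tau_mem π hmax
    have hrelΛ : π Xn * π Yn = algebraMap A Λ τ ^ (m + 1) * π Gn := by
      have := congrArg π hrel
      simp only [map_sub, map_mul, map_pow, AlgHom.commutes, hΦ, mul_zero] at this
      exact sub_eq_zero.mp this
    have hkerev := fun w hw => nda_ker_repr hτ π hmax hx hy ev (w := w) hw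
    rcases nda_dichotomy hτ (ev (π Xn)) (m + 1) with ⟨t, ht⟩ | hda
    · exact nda_case hτ ev htm hrelΛ hkerev ht
    rcases nda_dichotomy hτ (ev (π Yn)) (m + 1) with ⟨t, ht⟩ | hdb
    · refine nda_case hτ ev htm (xn := π Yn) (yn := π Xn) (by rw [mul_comm]; exact hrelΛ) ?_ ht
      intro w hw
      obtain ⟨c₂, c₃, h⟩ := hkerev w hw
      exact ⟨c₃, c₂, by rw [h]; ring⟩
    -- case C: both values divisible by τ ^ (m+1); the next stage exists
    have hτ0 : τ ≠ 0 := hτ.ne_zero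
    obtain ⟨a₁, ha₁⟩ := hda
    obtain ⟨b₁, hb₁⟩ := hdb
    have hab : ev (π Xn) * ev (π Yn) = τ ^ (m + 1) * ev (π Gn) := by
      have := congrArg ev hrelΛ
      rw [map_mul, map_mul, map_pow, AlgHom.commutes] at this
      exact this
    have hg0 : ev (π Gn) = τ ^ (m + 1) * (a₁ * b₁) := by
      have h1 : τ ^ (m + 1) * ev (π Gn) = τ ^ (m + 1) * (τ ^ (m + 1) * (a₁ * b₁)) := by
        rw [← hab, ha₁, hb₁]; ring
      exact mul_left_cancel₀ (pow_ne_zero _ hτ0) h1
    have hgm : π Gn ∈ maximalIdeal Λ := by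
      apply nda_mem_of_ev ev
      rw [hg0, hτ.maximalIdeal_eq, Ideal.mem_span_singleton]
      exact Dvd.dvd.mul_right (dvd_pow_self τ (Nat.succ_ne_zero m)) _
    obtain ⟨γ, α, β, hdec⟩ := nda_max_repr π hmax hx hy hgm
    obtain ⟨α', rfl⟩ := hπ α
    obtain ⟨β', rfl⟩ := hπ β
    obtain ⟨γ', rfl⟩ := hπ γ
    obtain ⟨W₂, hW₂⟩ := hker (Gn - (algebraMap A R τ * γ' + Xn * α' + Yn * β')) (by
      rw [map_sub, hdec]
      simp only [map_add, map_mul, AlgHom.commutes]
      ring)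
    refine ih (m + 1) (Xn - algebraMap A R τ ^ (m + 1) * β') (Yn - algebraMap A R τ ^ (m + 1) * α')
      (γ' + algebraMap A R τ ^ m * (α' * β')) (W' + algebraMap A R τ ^ m * W₂)
      (ux - algebraMap A R τ ^ m * β') (uy - algebraMap A R τ ^ m * α') ?_ ?_ ?_ ?_
    · linear_combination hrel + algebraMap A R τ ^ (m + 1) * hW₂
    · rw [hx]; ring
    · rw [hy]; ring
    · have : m + 1 + 1 + k = m + 1 + (k + 1) := by omega
      rw [this]; exact hnd

/-- **NODE-ALG.**  `A` a discrete valuation ring with uniformiser `τ`, `Λ = R / (Φ)` a noetherian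
local `A`-algebra with maximal ideal `(τ, X, Y)`, `X * Y - τ * G = Φ` in `R`, `D` an
`A`-derivation of `R`, `ev : Λ → A` an `A`-point with `ev (D Φ) ≠ 0`.  Then `ker ev` is principal
up to a nonzero constant of `A`. -/
theorem nda_main {τ : A} (hτ : Irreducible τ) (π : R →ₐ[A] Λ) (hπ : Function.Surjective π)
    {Φ X Y G : R} (hker : ∀ r : R, π r = 0 → ∃ w : R, r = w * Φ) (hΦ : π Φ = 0)
    (hXY : X * Y - algebraMap A R τ * G = Φ)
    (hmax : maximalIdeal Λ = Ideal.span {algebraMap A Λ τ, π X, π Y})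
    (D : Derivation A R R) (ev : Λ →ₐ[A] A) (hz : ev (π (D Φ)) ≠ 0) :
    ∃ g : Λ, ev g = 0 ∧ ∃ c : A, c ≠ 0 ∧
      ∀ w : Λ, ev w = 0 → ∃ u : Λ, algebraMap A Λ c * w = g * u := by
  -- a power of `τ` not dividing `ev (D Φ)`
  obtain ⟨k, hk⟩ : ∃ k : ℕ, ¬ τ ^ (0 + 1 + k) ∣ ev (π (D Φ)) := by
    obtain ⟨i, hi⟩ := IsDiscreteValuationRing.associated_pow_irreducible hz hτ
    refine ⟨i, fun hd => ?_⟩
    obtain ⟨u, hu⟩ := hi.symm
    rw [← hu] at hd
    have h1 : τ ^ (0 + 1 + i) ∣ τ ^ i := by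
      obtain ⟨c, hc⟩ := hd
      refine ⟨c * ↑u⁻¹, ?_⟩
      have : τ ^ i = τ ^ i * ↑u * ↑u⁻¹ := by rw [mul_assoc, Units.mul_inv, mul_one]
      rw [this, hc]; ring
    have h2 := (pow_dvd_pow_iff hτ.ne_zero hτ.not_isUnit).mp h1
    omega
  exact nda_aux hτ π hπ hker hΦ hmax D ev k 0 X Y G 0 0 0
    (by rw [zero_add, pow_one, mul_zero, add_zero, one_mul]; exact hXY)
    (by rw [mul_zero, add_zero]) (by rw [mul_zero, add_zero]) hk

/-- **Unramifiedness criterion supplying the hypothesis `hz` of `nda_main`.**  If some `π r₀` with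
`ev (π r₀) = 0` and `ev (π (D r₀)) = 0` (in the application: `r₀ = h - h (P)`, a constant of
the derivation `D = d/dY`) divides, up to a factor `s` with `ev s ≠ 0`, an element `π r₁` with
`ev (π r₁) = 0` and `ev (π (D r₁)) ≠ 0` (in the application: `r₁ = Y - θ (P)`, `D r₁ = 1`; the
divisibility says that `h - h (P)` is a local parameter at the point `P`), then the derivative of
the defining equation does not vanish at the point. -/
theorem nda_hz (π : R →ₐ[A] Λ) (hπ : Function.Surjective π) {Φ : R}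
    (hker : ∀ r : R, π r = 0 → ∃ w : R, r = w * Φ) (hΦ : π Φ = 0)
    (D : Derivation A R R) (ev : Λ →ₐ[A] A) {r₀ r₁ : R}
    (h0 : ev (π r₀) = 0) (hD0 : ev (π (D r₀)) = 0)
    (h1 : ev (π r₁) = 0) (hD1 : ev (π (D r₁)) ≠ 0)
    (hunif : ∃ s u : Λ, ev s ≠ 0 ∧ s * π r₁ = π r₀ * u) :
    ev (π (D Φ)) ≠ 0 := by
  intro hzero
  obtain ⟨s, u, hs, hsu⟩ := hunif
  obtain ⟨S, rfl⟩ := hπ s
  obtain ⟨U, rfl⟩ := hπ u
  have hk : π (S * r₁ - r₀ * U) = 0 := by
    rw [map_sub, map_mul, map_mul, hsu, sub_self]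
  obtain ⟨W, hW⟩ := hker _ hk
  have hD : D (S * r₁ - r₀ * U) = D (W * Φ) := by rw [hW]
  rw [map_sub, Derivation.leibniz, Derivation.leibniz, Derivation.leibniz] at hD
  have hE := congrArg (fun r => ev (π r)) hD
  simp only [smul_eq_mul, map_sub, map_add, map_mul, h0, hD0, h1, hzero, hΦ,
    mul_zero, zero_mul, add_zero, sub_zero] at hE
  rcases mul_eq_zero.mp hE with h | h
  · exact hs h
  · exact hD1 h

/-- `nda_main` with the non-vanishing of the derivative replaced by the local-parameter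
hypothesis of `nda_hz`. -/
theorem nda_main_unif {τ : A} (hτ : Irreducible τ) (π : R →ₐ[A] Λ) (hπ : Function.Surjective π)
    {Φ X Y G : R} (hker : ∀ r : R, π r = 0 → ∃ w : R, r = w * Φ) (hΦ : π Φ = 0)
    (hXY : X * Y - algebraMap A R τ * G = Φ)
    (hmax : maximalIdeal Λ = Ideal.span {algebraMap A Λ τ, π X, π Y})
    (D : Derivation A R R) (ev : Λ →ₐ[A] A) {r₀ r₁ : R}
    (h0 : ev (π r₀) = 0) (hD0 : ev (π (D r₀)) = 0)
    (h1 : ev (π r₁) = 0) (hD1 : ev (π (D r₁)) ≠ 0)
    (hunif : ∃ s u : Λ, ev s ≠ 0 ∧ s * π r₁ = π r₀ * u) :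
    ∃ g : Λ, ev g = 0 ∧ ∃ c : A, c ≠ 0 ∧
      ∀ w : Λ, ev w = 0 → ∃ u : Λ, algebraMap A Λ c * w = g * u :=
  nda_main hτ π hπ hker hΦ hXY hmax D ev (nda_hz π hπ hker hΦ D ev h0 hD0 h1 hD1 hunif)

end Main

end Fermat.Agent.S34
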