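import Mathlib

/-!
# S34, abstract leaf NODE-GEN: monogenicity of a finite local extension (`hπ` of `nda_main`)

The abstract half of D-NODE-INST (a): "`Λ = Λ₀[θ]`".

* `ndg_map_le`: a finite local algebra `Λ` over a local ring `Λ₀` is local over it:
  `𝔪₀ Λ ≤ 𝔪_Λ`.
* `ndg_adjoin_eq_top`: `Λ₀`, `Λ` local rings, `Λ` a finite `Λ₀`-module with the same residue
  field, `B` a `Λ₀`-subalgebra of `Λ` containing a set `S ⊆ 𝔪_Λ` with `𝔪_Λ ≤ (S) + 𝔪₀ Λ`.
  Then `B = Λ`.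
* `ndg_surj`: the evaluation `Λ₀[X] → Λ` at `θ` is surjective when
  `𝔪_Λ ≤ (P₁(θ), P₂(θ)) + 𝔪₀ Λ` for two polynomials `P₁`, `P₂` (at a node:
  `P₁ = h ^ q - X`, `P₂ = h - X ^ q`, and `𝔪_Λ = (τ, x, y)`).
-/

set_option autoImplicit false

namespace Fermat.Agent.S34

open Polynomial IsLocalRing

section NodeGen

variable {Λ₀ Λ : Type*} [CommRing Λ₀] [IsLocalRing Λ₀] [CommRing Λ] [IsLocalRing Λ]
  [Algebra Λ₀ Λ] [Module.Finite Λ₀ Λ]

/-- A finite local algebra over a local ring is local over it: `𝔪₀ Λ ≤ 𝔪_Λ`. -/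
theorem ndg_map_le :
    (maximalIdeal Λ₀).map (algebraMap Λ₀ Λ) ≤ maximalIdeal Λ := by
  rw [Ideal.map_le_iff_le_comap]
  intro a ha
  rw [Ideal.mem_comap]
  by_contra hu
  have hunit : IsUnit (algebraMap Λ₀ Λ a) := by
    by_contra h
    exact hu ((IsLocalRing.mem_maximalIdeal _).mpr h)
  obtain ⟨u, hu'⟩ := hunit
  have htop : (⊤ : Submodule Λ₀ Λ) ≤ maximalIdeal Λ₀ • (⊤ : Submodule Λ₀ Λ) := by
    intro z _
    have hz : z = a • ((↑u⁻¹ : Λ) * z) := by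
      rw [Algebra.smul_def, ← mul_assoc, ← hu', Units.mul_inv, one_mul]
    rw [hz]
    exact Submodule.smul_mem_smul ha Submodule.mem_top
  have hbot := Submodule.eq_bot_of_le_smul_of_le_jacobson_bot (maximalIdeal Λ₀)
    (⊤ : Submodule Λ₀ Λ) Module.Finite.fg_top htop
    (by rw [IsLocalRing.jacobson_eq_maximalIdeal ⊥ bot_ne_top])
  have h1 : (1 : Λ) ∈ (⊥ : Submodule Λ₀ Λ) := hbot ▸ Submodule.mem_top
  exact one_ne_zero ((Submodule.mem_bot Λ₀).mp h1)

/-- **Monogenicity criterion.**  `Λ₀`, `Λ` local rings, `Λ` a finite `Λ₀`-module with the same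
residue field; `B` a `Λ₀`-subalgebra of `Λ` containing a set `S ⊆ 𝔪_Λ` such that
`𝔪_Λ ≤ (S) + 𝔪₀ Λ`.  Then `B = Λ`. -/
theorem ndg_adjoin_eq_top (B : Subalgebra Λ₀ Λ)
    (hres : ∀ z : Λ, ∃ a : Λ₀, z - algebraMap Λ₀ Λ a ∈ maximalIdeal Λ)
    (S : Set Λ) (hSB : ∀ s ∈ S, s ∈ B) (hSm : ∀ s ∈ S, s ∈ maximalIdeal Λ)
    (hmax : maximalIdeal Λ ≤ Ideal.span S ⊔ (maximalIdeal Λ₀).map (algebraMap Λ₀ Λ)) :
    B = ⊤ := by
  classical
  set m0Λ : Ideal Λ := (maximalIdeal Λ₀).map (algebraMap Λ₀ Λ) with hm0Λ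
  have hloc : m0Λ ≤ maximalIdeal Λ := ndg_map_le
  -- the `B`-submodule `P = B + 𝔪₀ Λ`
  let P : Submodule ↥B Λ :=
    { carrier := {z | ∃ b ∈ B, z - b ∈ m0Λ}
      add_mem' := by
        rintro z z' ⟨b, hb, h⟩ ⟨b', hb', h'⟩
        refine ⟨b + b', B.add_mem hb hb', ?_⟩
        have h2 := m0Λ.add_mem h h'
        have h3 : z + z' - (b + b') = z - b + (z' - b') := by ring
        rw [h3]
        exact h2
      zero_mem' := ⟨0, B.zero_mem, by simp⟩
      smul_mem' := by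
        rintro c z ⟨b, hb, h⟩
        refine ⟨(c : Λ) * b, B.mul_mem c.2 hb, ?_⟩
        have h2 : c • z - (c : Λ) * b = (c : Λ) * (z - b) := by
          rw [mul_sub]
          rfl
        rw [h2]
        exact m0Λ.mul_mem_left _ h }
  have hP : ∀ z : Λ, z ∈ P ↔ ∃ b ∈ B, z - b ∈ m0Λ := fun _ => Iff.rfl
  have hfinB : Module.Finite ↥B Λ := Module.Finite.of_restrictScalars_finite Λ₀ ↥B Λ
  -- the ideal of `B` generated by `S` and `𝔪₀`
  let I : Ideal ↥B := Ideal.span ({s : ↥B | (s : Λ) ∈ S} ∪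
    Set.range (fun a : maximalIdeal Λ₀ => algebraMap Λ₀ ↥B (a : Λ₀)))
  have hIm : ∀ r : ↥B, r ∈ I → (r : Λ) ∈ maximalIdeal Λ := by
    intro r hr
    have hle : I ≤ Ideal.comap (B.val : ↥B →+* Λ) (maximalIdeal Λ) := by
      refine Ideal.span_le.mpr ?_
      rintro x (hx | ⟨a, rfl⟩)
      · exact hSm _ hx
      · exact hloc (Ideal.mem_map_of_mem _ a.2)
    exact hle hr
  -- the strong form of `𝔪_Λ (Λ / P) ≤ I (Λ / P)`
  have hA : ∀ μ ∈ Ideal.span S, ∀ w : Λ,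
      (Submodule.Quotient.mk (w * μ) : Λ ⧸ P) ∈ I • (⊤ : Submodule ↥B (Λ ⧸ P)) := by
    intro μ hμ
    induction hμ using Submodule.span_induction with
    | mem x hx =>
      intro w
      have hxI : (⟨x, hSB x hx⟩ : ↥B) ∈ I := Ideal.subset_span (Or.inl hx)
      have h2 : (Submodule.Quotient.mk (w * x) : Λ ⧸ P)
          = (⟨x, hSB x hx⟩ : ↥B) • (Submodule.Quotient.mk w : Λ ⧸ P) := by
        rw [← Submodule.Quotient.mk_smul]
        congr 1
        exact mul_comm w x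
      rw [h2]
      exact Submodule.smul_mem_smul hxI Submodule.mem_top
    | zero =>
      intro w
      rw [mul_zero, Submodule.Quotient.mk_zero]
      exact Submodule.zero_mem _
    | add x y _ _ ihx ihy =>
      intro w
      rw [mul_add, Submodule.Quotient.mk_add]
      exact Submodule.add_mem _ (ihx w) (ihy w)
    | smul c x _ ih =>
      intro w
      have h2 : w * c • x = (w * c) * x := by rw [smul_eq_mul, mul_assoc]
      rw [h2]
      exact ih (w * c)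
  have hB : ∀ μ ∈ Ideal.span (algebraMap Λ₀ Λ '' (maximalIdeal Λ₀ : Set Λ₀)), ∀ w : Λ,
      (Submodule.Quotient.mk (w * μ) : Λ ⧸ P) ∈ I • (⊤ : Submodule ↥B (Λ ⧸ P)) := by
    intro μ hμ
    induction hμ using Submodule.span_induction with
    | mem x hx =>
      intro w
      obtain ⟨a, ha, rfl⟩ := hx
      have haI : algebraMap Λ₀ ↥B a ∈ I := Ideal.subset_span (Or.inr ⟨⟨a, ha⟩, rfl⟩)
      have h3 : (Submodule.Quotient.mk (w * algebraMap Λ₀ Λ a) : Λ ⧸ P)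
          = (algebraMap Λ₀ ↥B a) • (Submodule.Quotient.mk w : Λ ⧸ P) := by
        rw [← Submodule.Quotient.mk_smul]
        congr 1
        exact mul_comm w _
      rw [h3]
      exact Submodule.smul_mem_smul haI Submodule.mem_top
    | zero =>
      intro w
      rw [mul_zero, Submodule.Quotient.mk_zero]
      exact Submodule.zero_mem _
    | add x y _ _ ihx ihy =>
      intro w
      rw [mul_add, Submodule.Quotient.mk_add]
      exact Submodule.add_mem _ (ihx w) (ihy w)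
    | smul c x _ ih =>
      intro w
      have h3 : w * c • x = (w * c) * x := by rw [smul_eq_mul, mul_assoc]
      rw [h3]
      exact ih (w * c)
  have hstrong : ∀ μ ∈ Ideal.span S ⊔ m0Λ, ∀ w : Λ,
      (Submodule.Quotient.mk (w * μ) : Λ ⧸ P) ∈ I • (⊤ : Submodule ↥B (Λ ⧸ P)) := by
    intro μ hμ w
    obtain ⟨μ₁, hμ₁, μ₂, hμ₂, rfl⟩ := Submodule.mem_sup.mp hμ
    rw [mul_add, Submodule.Quotient.mk_add]
    exact Submodule.add_mem _ (hA μ₁ hμ₁ w) (hB μ₂ hμ₂ w)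
  have hI : (⊤ : Submodule ↥B (Λ ⧸ P)) ≤ I • (⊤ : Submodule ↥B (Λ ⧸ P)) := by
    rintro x -
    obtain ⟨z, rfl⟩ := Submodule.Quotient.mk_surjective P x
    obtain ⟨a, ha⟩ := hres z
    have h1 := hstrong _ (hmax ha) 1
    rw [one_mul] at h1
    have h2 : (Submodule.Quotient.mk z : Λ ⧸ P)
        = Submodule.Quotient.mk (z - algebraMap Λ₀ Λ a) := by
      rw [Submodule.Quotient.eq]
      refine (hP _).mpr ⟨algebraMap Λ₀ Λ a, B.algebraMap_mem a, ?_⟩
      have h3 : z - (z - algebraMap Λ₀ Λ a) - algebraMap Λ₀ Λ a = 0 := by ring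
      rw [h3]
      exact m0Λ.zero_mem
    rw [h2]
    exact h1
  obtain ⟨r, hr1, hr0⟩ := Submodule.exists_sub_one_mem_and_smul_eq_zero_of_fg_of_le_smul I
    (⊤ : Submodule ↥B (Λ ⧸ P)) Module.Finite.fg_top hI
  have hrm : (1 : Λ) - (r : Λ) ∈ maximalIdeal Λ := by
    have h1 := hIm (r - 1) hr1
    have h2 : (1 : Λ) - (r : Λ) = -(((r - 1 : ↥B)) : Λ) := by
      push_cast
      ring
    rw [h2]
    exact (maximalIdeal Λ).neg_mem h1
  have hru : IsUnit (r : Λ) := by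
    have h1 := IsLocalRing.isUnit_one_sub_self_of_mem_nonunits ((1 : Λ) - (r : Λ))
      ((IsLocalRing.mem_maximalIdeal _).mp hrm)
    rwa [sub_sub_cancel] at h1
  -- every element lies in `B + 𝔪₀ Λ`
  have key : ∀ z : Λ, ∃ b ∈ B, z - b ∈ m0Λ := by
    intro z
    obtain ⟨u, hu⟩ := hru
    have h0 := hr0 (Submodule.Quotient.mk ((↑u⁻¹ : Λ) * z)) Submodule.mem_top
    rw [← Submodule.Quotient.mk_smul, Submodule.Quotient.mk_eq_zero] at h0
    have h1 : r • ((↑u⁻¹ : Λ) * z) = z := by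
      show (r : Λ) * ((↑u⁻¹ : Λ) * z) = z
      rw [← mul_assoc, ← hu, Units.mul_inv, one_mul]
    rw [h1] at h0
    exact (hP z).mp h0
  -- Nakayama over `Λ₀`
  have htop : (⊤ : Submodule Λ₀ Λ) ≤
      Subalgebra.toSubmodule B ⊔ maximalIdeal Λ₀ • (⊤ : Submodule Λ₀ Λ) := by
    intro z _
    obtain ⟨b, hb, h⟩ := key z
    have hz : z = b + (z - b) := by ring
    rw [hz]
    refine Submodule.add_mem_sup hb ?_
    rw [Ideal.smul_top_eq_map]
    exact h
  have hle := Submodule.le_of_le_smul_of_le_jacobson_bot (N := Subalgebra.toSubmodule B)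
    (N' := (⊤ : Submodule Λ₀ Λ)) Module.Finite.fg_top
    (by rw [IsLocalRing.jacobson_eq_maximalIdeal ⊥ bot_ne_top]) htop
  exact eq_top_iff.mpr (fun z _ => hle Submodule.mem_top)

/-- **`Λ = Λ₀[θ]`.**  The evaluation `Λ₀[X] → Λ` at `θ` is surjective when `Λ` is a finite local
`Λ₀`-algebra with the same residue field and `𝔪_Λ ≤ (P₁(θ), P₂(θ)) + 𝔪₀ Λ`. -/
theorem ndg_surj (θ : Λ)
    (hres : ∀ z : Λ, ∃ a : Λ₀, z - algebraMap Λ₀ Λ a ∈ maximalIdeal Λ)
    (P₁ P₂ : Λ₀[X]) (h₁ : aeval θ P₁ ∈ maximalIdeal Λ) (h₂ : aeval θ P₂ ∈ maximalIdeal Λ)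
    (hmax : maximalIdeal Λ ≤ Ideal.span {aeval θ P₁, aeval θ P₂} ⊔
      (maximalIdeal Λ₀).map (algebraMap Λ₀ Λ)) :
    Function.Surjective (aeval θ : Λ₀[X] →ₐ[Λ₀] Λ) := by
  have h := ndg_adjoin_eq_top (aeval θ : Λ₀[X] →ₐ[Λ₀] Λ).range hres {aeval θ P₁, aeval θ P₂}
    (by
      rintro s (rfl | rfl)
      · exact ⟨P₁, rfl⟩
      · exact ⟨P₂, rfl⟩)
    (by
      rintro s (rfl | rfl)
      · exact h₁
      · exact h₂)
    hmax
  exact (AlgHom.range_eq_top _).mp h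

end NodeGen

end Fermat.Agent.S34
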