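import Mathlib

/-!
# S34, abstract leaf NODE-PRES: the presentation hypotheses of `nda_main` from a monic equation

* `ndp_kron`: "Kronecker's congruence for free".  If `Λ = Λ₀[Y] / (Φ)` with `Φ` monic and `P` is
  a monic polynomial of the same degree whose image in `Λ` is divisible by `t`, then
  `P - t * G = Φ` for some `G`.
-/

set_option autoImplicit false

namespace Fermat.Agent.S34

open Polynomial

section Kron

variable {Λ₀ : Type*} [CommRing Λ₀] {Λ : Type*} [CommRing Λ]

/-- Kronecker's congruence for free: a monic `P` of the same degree as the monic generator `Φ`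
of the kernel of `π : Λ₀[Y] → Λ`, whose image is divisible by `t`, satisfies `P - t * G = Φ`. -/
theorem ndp_kron (π : Λ₀[X] →+* Λ) (hπ : Function.Surjective π) {Φ : Λ₀[X]} (hΦm : Φ.Monic)
    (hker : ∀ r : Λ₀[X], π r = 0 → ∃ w : Λ₀[X], r = w * Φ) (hΦ : π Φ = 0)
    {P : Λ₀[X]} (hPm : P.Monic) (hdeg : P.natDegree = Φ.natDegree) (t : Λ₀)
    (hP : ∃ l : Λ, π P = π (C t) * l) :
    ∃ G : Λ₀[X], P - C t * G = Φ := by
  classical
  obtain ⟨l, hl⟩ := hP
  obtain ⟨L, rfl⟩ := hπ l
  nontriviality Λ₀
  -- reduce `L` modulo `Φ`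
  set L' : Λ₀[X] := L %ₘ Φ with hL'
  have hLL' : π L' = π L := by
    have h1 : L %ₘ Φ + Φ * (L /ₘ Φ) = L := Polynomial.modByMonic_add_div L Φ
    have h2 : π (L %ₘ Φ + Φ * (L /ₘ Φ)) = π L := by rw [h1]
    rw [map_add, map_mul, hΦ, zero_mul, add_zero] at h2
    exact h2
  have hL'deg : L'.degree < Φ.degree := Polynomial.degree_modByMonic_lt L hΦm
  have hk : π (P - C t * L' - Φ) = 0 := by
    rw [map_sub, map_sub, map_mul, hLL', hΦ, hl, sub_self, sub_zero]
  obtain ⟨W, hW⟩ := hker _ hk
  -- degree count: `P - C t * L' - Φ` has degree `< deg Φ`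
  have hd1 : (P - Φ).degree < Φ.degree := by
    have h := Polynomial.degree_sub_lt_left (p := P) (q := Φ)
      (by rw [Polynomial.degree_eq_natDegree hPm.ne_zero,
            Polynomial.degree_eq_natDegree hΦm.ne_zero, hdeg])
      hPm.ne_zero (by rw [hPm.leadingCoeff, hΦm.leadingCoeff])
    calc (P - Φ).degree < P.degree := h
      _ = Φ.degree := by
        rw [Polynomial.degree_eq_natDegree hPm.ne_zero,
          Polynomial.degree_eq_natDegree hΦm.ne_zero, hdeg]
  have hd2 : (C t * L').degree < Φ.degree := by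
    refine lt_of_le_of_lt ?_ hL'deg
    calc (C t * L').degree ≤ (C t).degree + L'.degree := Polynomial.degree_mul_le _ _
      _ ≤ 0 + L'.degree := by gcongr; exact Polynomial.degree_C_le
      _ = L'.degree := zero_add _
  have hd3 : (P - C t * L' - Φ).degree < Φ.degree := by
    have : P - C t * L' - Φ = (P - Φ) - C t * L' := by ring
    rw [this]
    exact lt_of_le_of_lt (Polynomial.degree_sub_le _ _) (max_lt hd1 hd2)
  have hW0 : W = 0 := by
    by_contra hne
    have h4 : (W * Φ).degree = W.degree + Φ.degree := hΦm.degree_mul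
    rw [hW, h4] at hd3
    have h5 : (0 : WithBot ℕ) ≤ W.degree := Polynomial.zero_le_degree_iff.mpr hne
    have h6 : Φ.degree ≤ W.degree + Φ.degree := by
      calc Φ.degree = 0 + Φ.degree := (zero_add _).symm
        _ ≤ W.degree + Φ.degree := by gcongr
    exact absurd hd3 (not_lt.mpr h6)
  refine ⟨L', ?_⟩
  rw [hW0, zero_mul] at hW
  exact sub_eq_zero.mp hW

end Kron

end Fermat.Agent.S34
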