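import Mathlib
import Fermat.Agent.S34.NodeAlg
import Fermat.Agent.S34.NodePres
import Fermat.Agent.S34.NodeGen

/-!
# S34, abstract leaf NODE-POLY: the node presentation `Λ = Λ₀[Y] / (Φ)` and the assembly of
`nda_main_unif`

`Λ₀ ⊆ Λ` local rings (the local ring of the level-`M'` chart below a crossing point, and the local
ring of the chart at the crossing point), `Λ` finite over `Λ₀`, `Λ₀` integrally closed,
`θ ∈ Λ` (`= h_q`), `h ∈ Λ₀`, `x = h ^ q - θ`, `y = h - θ ^ q`.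

* `ndq_ker`: the kernel of `Λ₀[Y] → Λ`, `Y ↦ θ`, is generated by the minimal polynomial.
* `ndqD`: the derivation `d/dY` of `Λ₀[Y]`, `A`-linear.
* `ndq_monic`, `ndq_natDegree`: `(h ^ q - Y) * (h - Y ^ q)` is monic of degree `q + 1`.
* `ndq_main`: the conclusion of `nda_main_unif` (the kernel of an `A`-point of `Λ` is principal
  up to a constant) from: `𝔪_Λ = (τ, x, y)`, `x * y ∈ τ Λ`, `deg (minpoly θ) = q + 1`, and
  "`h - h(P)` is a local parameter at `P`".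
-/

set_option autoImplicit false

namespace Fermat.Agent.S34

open Polynomial IsLocalRing

section Ker

variable {Λ₀ Λ : Type*} [CommRing Λ₀] [IsDomain Λ₀] [IsIntegrallyClosed Λ₀]
  [CommRing Λ] [IsDomain Λ] [Algebra Λ₀ Λ]

/-- The kernel of the evaluation at an integral element over an integrally closed domain is
generated by the minimal polynomial (the shape of `hker` in `nda_main`). -/
theorem ndq_ker (hinj : Function.Injective (algebraMap Λ₀ Λ)) {θ : Λ} (hθ : IsIntegral Λ₀ θ)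
    (r : Λ₀[X]) (hr : aeval θ r = 0) : ∃ w : Λ₀[X], r = w * minpoly Λ₀ θ := by
  have : Module.IsTorsionFree Λ₀ Λ := Module.isTorsionFree_iff_algebraMap_injective.mpr hinj
  obtain ⟨w, hw⟩ := minpoly.isIntegrallyClosed_dvd hθ hr
  exact ⟨w, by rw [hw, mul_comm]⟩

end Ker

section Deriv

variable (A : Type*) [CommRing A] (Λ₀ : Type*) [CommRing Λ₀] [Algebra A Λ₀]

/-- The derivation `d/dY` of `Λ₀[Y]`, as an `A`-derivation. -/
noncomputable def ndqD : Derivation A Λ₀[X] Λ₀[X] :=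
  (Polynomial.derivative' : Derivation Λ₀ Λ₀[X] Λ₀[X]).restrictScalars A

@[simp]
theorem ndqD_apply (p : Λ₀[X]) : ndqD A Λ₀ p = derivative p := rfl

end Deriv

section Monic

variable {Λ₀ : Type*} [CommRing Λ₀]

theorem ndq_mul_eq (a b : Λ₀) (q : ℕ) :
    (C a - X) * (C b - X ^ q) = (X - C a) * (X ^ q - C b) := by ring

variable [Nontrivial Λ₀]

theorem ndq_monic (a b : Λ₀) {q : ℕ} (hq : q ≠ 0) : ((C a - X) * (C b - X ^ q)).Monic := by
  rw [ndq_mul_eq]
  exact (monic_X_sub_C a).mul (monic_X_pow_sub_C b hq)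

theorem ndq_natDegree (a b : Λ₀) {q : ℕ} (hq : q ≠ 0) :
    ((C a - X) * (C b - X ^ q)).natDegree = q + 1 := by
  rw [ndq_mul_eq, (monic_X_sub_C a).natDegree_mul (monic_X_pow_sub_C b hq), natDegree_X_sub_C,
    natDegree_X_pow_sub_C, add_comm]

end Monic

section Main

variable {A : Type*} [CommRing A] [IsDomain A] [IsDiscreteValuationRing A]
variable {Λ₀ : Type*} [CommRing Λ₀] [IsDomain Λ₀] [IsIntegrallyClosed Λ₀] [IsLocalRing Λ₀]
  [Algebra A Λ₀]
variable {Λ : Type*} [CommRing Λ] [IsDomain Λ] [IsLocalRing Λ] [IsNoetherianRing Λ]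
  [Algebra A Λ] [Algebra Λ₀ Λ] [IsScalarTower A Λ₀ Λ] [Module.Finite Λ₀ Λ]

/-- **NODE-INST, abstract assembly.**  The conclusion of `nda_main_unif` for the presentation
`Λ = Λ₀[Y] / (minpoly θ)`, `X = h ^ q - Y`, `Y = h - Y ^ q`. -/
theorem ndq_main (hinj : Function.Injective (algebraMap Λ₀ Λ))
    {τ : A} (hτ : Irreducible τ) (hτ0 : algebraMap A Λ₀ τ ∈ maximalIdeal Λ₀)
    {q : ℕ} (hq : q ≠ 0) (h : Λ₀) (θ : Λ)
    (hdeg : (minpoly Λ₀ θ).natDegree = q + 1)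
    (hxy : ∃ l : Λ, (algebraMap Λ₀ Λ h ^ q - θ) * (algebraMap Λ₀ Λ h - θ ^ q)
      = algebraMap A Λ τ * l)
    (hmax : maximalIdeal Λ = Ideal.span
      {algebraMap A Λ τ, algebraMap Λ₀ Λ h ^ q - θ, algebraMap Λ₀ Λ h - θ ^ q})
    (ev : Λ →ₐ[A] A)
    (hunif : ∃ s u : Λ, ev s ≠ 0 ∧
      s * (θ - algebraMap A Λ (ev θ))
        = (algebraMap Λ₀ Λ h - algebraMap A Λ (ev (algebraMap Λ₀ Λ h))) * u) :
    ∃ g : Λ, ev g = 0 ∧ ∃ c : A, c ≠ 0 ∧
      ∀ w : Λ, ev w = 0 → ∃ u : Λ, algebraMap A Λ c * w = g * u := by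
  classical
  have hθ : IsIntegral Λ₀ θ := Algebra.IsIntegral.isIntegral θ
  set x : Λ := algebraMap Λ₀ Λ h ^ q - θ with hx
  set y : Λ := algebraMap Λ₀ Λ h - θ ^ q with hy
  set Φ : Λ₀[X] := minpoly Λ₀ θ with hΦdef
  have hΦm : Φ.Monic := minpoly.monic hθ
  -- the two polynomials
  set PX : Λ₀[X] := C (h ^ q) - X with hPX
  set PY : Λ₀[X] := C h - X ^ q with hPY
  have hPXθ : aeval θ PX = x := by
    rw [hPX, map_sub, aeval_C, aeval_X, map_pow]
  have hPYθ : aeval θ PY = y := by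
    rw [hPY, map_sub, aeval_C, map_pow, aeval_X]
  have hτΛ : algebraMap A Λ τ = algebraMap Λ₀ Λ (algebraMap A Λ₀ τ) :=
    IsScalarTower.algebraMap_apply A Λ₀ Λ τ
  have hxm : x ∈ maximalIdeal Λ := by
    rw [hmax]
    exact Ideal.subset_span (by simp)
  have hym : y ∈ maximalIdeal Λ := by
    rw [hmax]
    exact Ideal.subset_span (by simp)
  -- residue fields agree, by the `A`-point
  have hres : ∀ z : Λ, ∃ a : Λ₀, z - algebraMap Λ₀ Λ a ∈ maximalIdeal Λ := by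
    intro z
    refine ⟨algebraMap A Λ₀ (ev z), nda_mem_of_ev ev ?_⟩
    rw [← IsScalarTower.algebraMap_apply A Λ₀ Λ, map_sub, AlgHom.commutes, Algebra.algebraMap_self,
      RingHom.id_apply, sub_self]
    exact Ideal.zero_mem _
  -- surjectivity
  have hsurj : Function.Surjective (aeval θ : Λ₀[X] →ₐ[Λ₀] Λ) := by
    refine ndg_surj θ hres PX PY (hPXθ ▸ hxm) (hPYθ ▸ hym) ?_
    rw [hPXθ, hPYθ, hmax]
    refine Ideal.span_le.mpr ?_
    rintro z (rfl | rfl | rfl)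
    · refine Ideal.mem_sup_right ?_
      rw [hτΛ]
      exact Ideal.mem_map_of_mem _ hτ0
    · exact Ideal.mem_sup_left (Ideal.subset_span (by simp))
    · exact Ideal.mem_sup_left (Ideal.subset_span (by simp))
  -- the `A`-algebra map
  let π : Λ₀[X] →ₐ[A] Λ := (aeval θ : Λ₀[X] →ₐ[Λ₀] Λ).restrictScalars A
  have hπ : ∀ p : Λ₀[X], π p = aeval θ p := fun _ => rfl
  have hπsurj : Function.Surjective π := hsurj
  have hker : ∀ r : Λ₀[X], π r = 0 → ∃ w : Λ₀[X], r = w * Φ := fun r hr =>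
    ndq_ker hinj hθ r hr
  have hΦ0 : π Φ = 0 := minpoly.aeval Λ₀ θ
  -- Kronecker's congruence for free
  have hPm : (PX * PY).Monic := ndq_monic (h ^ q) h hq
  have hPdeg : (PX * PY).natDegree = Φ.natDegree := by
    rw [hdeg]
    exact ndq_natDegree (h ^ q) h hq
  obtain ⟨G, hG⟩ := ndp_kron (π : Λ₀[X] →+* Λ) hπsurj hΦm hker hΦ0 hPm hPdeg (algebraMap A Λ₀ τ)
    (by
      obtain ⟨l, hl⟩ := hxy
      refine ⟨l, ?_⟩
      show π (PX * PY) = π (C (algebraMap A Λ₀ τ)) * l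
      rw [hπ, hπ, map_mul, hPXθ, hPYθ, aeval_C, ← hτΛ]
      exact hl)
  have hXY : PX * PY - algebraMap A Λ₀[X] τ * G = Φ := by
    rw [Polynomial.algebraMap_apply]
    exact hG
  have hmax' : maximalIdeal Λ = Ideal.span {algebraMap A Λ τ, π PX, π PY} := by
    rw [hπ, hπ, hPXθ, hPYθ]
    exact hmax
  -- the uniformiser hypothesis
  set r₀ : Λ₀[X] := C (h - algebraMap A Λ₀ (ev (algebraMap Λ₀ Λ h))) with hr₀
  set r₁ : Λ₀[X] := X - C (algebraMap A Λ₀ (ev θ)) with hr₁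
  have hπr₀ : π r₀ = algebraMap Λ₀ Λ h - algebraMap A Λ (ev (algebraMap Λ₀ Λ h)) := by
    rw [hπ, hr₀, aeval_C, map_sub, ← IsScalarTower.algebraMap_apply A Λ₀ Λ]
  have hπr₁ : π r₁ = θ - algebraMap A Λ (ev θ) := by
    rw [hπ, hr₁, map_sub, aeval_X, aeval_C, ← IsScalarTower.algebraMap_apply A Λ₀ Λ]
  have h0 : ev (π r₀) = 0 := by
    rw [hπr₀, map_sub, AlgHom.commutes, Algebra.algebraMap_self, RingHom.id_apply, sub_self]
  have h1 : ev (π r₁) = 0 := by
    rw [hπr₁, map_sub, AlgHom.commutes, Algebra.algebraMap_self, RingHom.id_apply, sub_self]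
  have hD0 : ev (π (ndqD A Λ₀ r₀)) = 0 := by
    rw [ndqD_apply, hr₀, derivative_C, map_zero, map_zero]
  have hD1 : ev (π (ndqD A Λ₀ r₁)) ≠ 0 := by
    rw [ndqD_apply, hr₁, derivative_sub, derivative_X, derivative_C, sub_zero, map_one, map_one]
    exact one_ne_zero
  have hunif' : ∃ s u : Λ, ev s ≠ 0 ∧ s * π r₁ = π r₀ * u := by
    rw [hπr₀, hπr₁]
    exact hunif
  exact nda_main_unif hτ π hπsurj hker hΦ0 hXY hmax' (ndqD A Λ₀) ev h0 hD0 h1 hD1 hunif'

end Main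

end Fermat.Agent.S34
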