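import Mathlib
import Fermat.Agent.S34.NodePoly

/-!
# S34, abstract leaf NODE-DEG: the degree of the minimal polynomial in a monogenic extension

`Λ₀ ⊆ Λ` domains with fraction fields `E ⊆ F`, `Λ₀` integrally closed, `Λ = Λ₀[θ]`.

* `ndd_adjoin_eq_top`: `F = E(θ)` (`F` given with `hfrac`: every element is a quotient of
  elements of `Λ`; no `IsFractionRing Λ F` instance needed).
* `ndd_natDegree` (`ndd_natDegree_frac`): the minimal polynomial of `θ` over `Λ₀` has degree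
  `[F : E]` (the hypothesis `hdeg` of `ndq_main`, with `[F : E] = q + 1`).
* `ndd_surj`: `Λ = Λ₀[θ]` at a node carrying an `A`-point (the hypotheses of `ndq_main`).
* `ndd_main`: `ndq_main` with `hdeg` replaced by `[Frac Λ : Frac Λ₀] = q + 1`.
-/

set_option autoImplicit false

namespace Fermat.Agent.S34

open Polynomial

section NodeDeg

variable {Λ₀ Λ E F : Type*} [CommRing Λ₀] [IsDomain Λ₀] [CommRing Λ] [IsDomain Λ]
  [Algebra Λ₀ Λ] [Field E] [Field F] [Algebra Λ₀ E] [IsFractionRing Λ₀ E] [Algebra Λ F]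
  [Algebra E F] [Algebra Λ₀ F] [IsScalarTower Λ₀ E F] [IsScalarTower Λ₀ Λ F]

omit [IsDomain Λ₀] [IsDomain Λ] [IsFractionRing Λ₀ E] in
/-- If `Λ = Λ₀[θ]` and every element of `F` is a quotient of elements of `Λ`, then
`F = E(θ)`. -/
theorem ndd_adjoin_eq_top (hinjF : Function.Injective (algebraMap Λ F))
    (hfrac : ∀ x : F, ∃ a b : Λ, b ≠ 0 ∧ x * algebraMap Λ F b = algebraMap Λ F a) (θ : Λ)
    (hsurj : Function.Surjective (aeval θ : Λ₀[X] →ₐ[Λ₀] Λ)) :
    IntermediateField.adjoin E {algebraMap Λ F θ} = ⊤ := by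
  rw [eq_top_iff]
  intro x _
  have key : ∀ z : Λ, algebraMap Λ F z ∈ IntermediateField.adjoin E {algebraMap Λ F θ} := by
    intro z
    obtain ⟨p, rfl⟩ := hsurj z
    rw [← aeval_algebraMap_apply, ← aeval_map_algebraMap E]
    exact IntermediateField.algebra_adjoin_le_adjoin E _
      (Polynomial.aeval_mem_adjoin_singleton E (algebraMap Λ F θ))
  obtain ⟨a, b, hb, hx⟩ := hfrac x
  have hb' : algebraMap Λ F b ≠ 0 := fun h0 => hb (hinjF (by rw [h0, map_zero]))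
  have hx' : x = algebraMap Λ F a / algebraMap Λ F b := by
    rw [eq_div_iff hb']
    exact hx
  rw [hx']
  exact div_mem (key a) (key b)

variable [IsIntegrallyClosed Λ₀]

/-- The minimal polynomial of a generator `θ` of `Λ = Λ₀[θ]` over the integrally closed domain
`Λ₀` has degree `[F : E]` (`E = Frac Λ₀`, every element of `F` a quotient of elements of
`Λ`). -/
theorem ndd_natDegree (hinjF : Function.Injective (algebraMap Λ F))
    (hfrac : ∀ x : F, ∃ a b : Λ, b ≠ 0 ∧ x * algebraMap Λ F b = algebraMap Λ F a) (θ : Λ)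
    (hθ : IsIntegral Λ₀ θ) (hsurj : Function.Surjective (aeval θ : Λ₀[X] →ₐ[Λ₀] Λ)) :
    (minpoly Λ₀ θ).natDegree = Module.finrank E F := by
  have h1 : minpoly E (algebraMap Λ F θ) = (minpoly Λ₀ θ).map (algebraMap Λ₀ E) :=
    minpoly.isIntegrallyClosed_eq_field_fractions E F hθ
  have hθF : IsIntegral E (algebraMap Λ F θ) :=
    (hθ.map (IsScalarTower.toAlgHom Λ₀ Λ F)).tower_top
  have h2 : Module.finrank E ↥(IntermediateField.adjoin E {algebraMap Λ F θ})
      = (minpoly E (algebraMap Λ F θ)).natDegree := IntermediateField.adjoin.finrank hθF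
  have h3 : Module.finrank E ↥(IntermediateField.adjoin E {algebraMap Λ F θ})
      = Module.finrank E F := by
    have h4 := congrArg (fun K : IntermediateField E F => Module.finrank E ↥K)
      (ndd_adjoin_eq_top (E := E) (F := F) hinjF hfrac θ hsurj)
    rw [h4]
    exact IntermediateField.finrank_top'
  rw [← h3, h2, h1, (minpoly.monic hθ).natDegree_map]

/-- `ndd_natDegree` when `F` is the fraction field of `Λ`. -/
theorem ndd_natDegree_frac [IsFractionRing Λ F] (θ : Λ)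
    (hθ : IsIntegral Λ₀ θ) (hsurj : Function.Surjective (aeval θ : Λ₀[X] →ₐ[Λ₀] Λ)) :
    (minpoly Λ₀ θ).natDegree = Module.finrank E F := by
  refine ndd_natDegree (IsFractionRing.injective Λ F) (fun x => ?_) θ hθ hsurj
  obtain ⟨a, b, hb, rfl⟩ := IsFractionRing.div_surjective (A := Λ) x
  have hb0 : b ≠ 0 := nonZeroDivisors.ne_zero hb
  have hb' : algebraMap Λ F b ≠ 0 := fun h0 =>
    hb0 (IsFractionRing.injective Λ F (by rw [h0, map_zero]))
  exact ⟨a, b, hb0, div_mul_cancel₀ _ hb'⟩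

end NodeDeg

section Main

open IsLocalRing

variable {A : Type*} [CommRing A] [IsDomain A] [IsDiscreteValuationRing A]
variable {Λ₀ : Type*} [CommRing Λ₀] [IsDomain Λ₀] [IsIntegrallyClosed Λ₀] [IsLocalRing Λ₀]
  [Algebra A Λ₀]
variable {Λ : Type*} [CommRing Λ] [IsDomain Λ] [IsLocalRing Λ] [IsNoetherianRing Λ]
  [Algebra A Λ] [Algebra Λ₀ Λ] [IsScalarTower A Λ₀ Λ] [Module.Finite Λ₀ Λ]

omit [IsDomain Λ₀] [IsIntegrallyClosed Λ₀] [IsDomain Λ] [IsNoetherianRing Λ] in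
/-- `Λ = Λ₀[θ]` at a node carrying an `A`-point. -/
theorem ndd_surj {τ : A} (hτ0 : algebraMap A Λ₀ τ ∈ maximalIdeal Λ₀) {q : ℕ} (h : Λ₀) (θ : Λ)
    (hmax : maximalIdeal Λ = Ideal.span
      {algebraMap A Λ τ, algebraMap Λ₀ Λ h ^ q - θ, algebraMap Λ₀ Λ h - θ ^ q})
    (ev : Λ →ₐ[A] A) :
    Function.Surjective (aeval θ : Λ₀[X] →ₐ[Λ₀] Λ) := by
  have hPXθ : aeval θ (C (h ^ q) - X : Λ₀[X]) = algebraMap Λ₀ Λ h ^ q - θ := by
    rw [map_sub, aeval_C, aeval_X, map_pow]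
  have hPYθ : aeval θ (C h - X ^ q : Λ₀[X]) = algebraMap Λ₀ Λ h - θ ^ q := by
    rw [map_sub, aeval_C, map_pow, aeval_X]
  have hτΛ : algebraMap A Λ τ = algebraMap Λ₀ Λ (algebraMap A Λ₀ τ) :=
    IsScalarTower.algebraMap_apply A Λ₀ Λ τ
  have hxm : algebraMap Λ₀ Λ h ^ q - θ ∈ maximalIdeal Λ := by
    rw [hmax]
    exact Ideal.subset_span (by simp)
  have hym : algebraMap Λ₀ Λ h - θ ^ q ∈ maximalIdeal Λ := by
    rw [hmax]
    exact Ideal.subset_span (by simp)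
  have hres : ∀ z : Λ, ∃ a : Λ₀, z - algebraMap Λ₀ Λ a ∈ maximalIdeal Λ := by
    intro z
    refine ⟨algebraMap A Λ₀ (ev z), nda_mem_of_ev ev ?_⟩
    rw [← IsScalarTower.algebraMap_apply A Λ₀ Λ, map_sub, AlgHom.commutes, Algebra.algebraMap_self,
      RingHom.id_apply, sub_self]
    exact Ideal.zero_mem _
  refine ndg_surj θ hres (C (h ^ q) - X) (C h - X ^ q) (hPXθ ▸ hxm) (hPYθ ▸ hym) ?_
  rw [hPXθ, hPYθ, hmax]
  refine Ideal.span_le.mpr ?_
  rintro z (rfl | rfl | rfl)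
  · refine Ideal.mem_sup_right ?_
    rw [hτΛ]
    exact Ideal.mem_map_of_mem _ hτ0
  · exact Ideal.mem_sup_left (Ideal.subset_span (by simp))
  · exact Ideal.mem_sup_left (Ideal.subset_span (by simp))

/-- **NODE-INST, abstract assembly, fraction-field form.**  `ndq_main` with the degree hypothesis
replaced by `[Frac Λ : Frac Λ₀] = q + 1`. -/
theorem ndd_main {E F : Type*} [Field E] [Field F] [Algebra Λ₀ E] [IsFractionRing Λ₀ E]
    [Algebra Λ F] [Algebra E F] [Algebra Λ₀ F] [IsScalarTower Λ₀ E F]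
    [IsScalarTower Λ₀ Λ F] (hinjF : Function.Injective (algebraMap Λ F))
    (hfrac : ∀ x : F, ∃ a b : Λ, b ≠ 0 ∧ x * algebraMap Λ F b = algebraMap Λ F a)
    (hinj : Function.Injective (algebraMap Λ₀ Λ))
    {τ : A} (hτ : Irreducible τ) (hτ0 : algebraMap A Λ₀ τ ∈ maximalIdeal Λ₀)
    {q : ℕ} (hq : q ≠ 0) (hfin : Module.finrank E F = q + 1) (h : Λ₀) (θ : Λ)
    (hxy : ∃ l : Λ, (algebraMap Λ₀ Λ h ^ q - θ) * (algebraMap Λ₀ Λ h - θ ^ q)
      = algebraMap A Λ τ * l)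
    (hmax : maximalIdeal Λ = Ideal.span
      {algebraMap A Λ τ, algebraMap Λ₀ Λ h ^ q - θ, algebraMap Λ₀ Λ h - θ ^ q})
    (ev : Λ →ₐ[A] A)
    (hunif : ∃ s u : Λ, ev s ≠ 0 ∧
      s * (θ - algebraMap A Λ (ev θ))
        = (algebraMap Λ₀ Λ h - algebraMap A Λ (ev (algebraMap Λ₀ Λ h))) * u) :
    ∃ g : Λ, ev g = 0 ∧ ∃ c : A, c ≠ 0 ∧
      ∀ w : Λ, ev w = 0 → ∃ u : Λ, algebraMap A Λ c * w = g * u := by
  have hsurj := ndd_surj hτ0 h θ hmax ev
  have hdeg : (minpoly Λ₀ θ).natDegree = q + 1 := by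
    rw [ndd_natDegree (E := E) (F := F) hinjF hfrac θ (Algebra.IsIntegral.isIntegral θ) hsurj,
      hfin]
  exact ndq_main hinj hτ hτ0 hq h θ hdeg hxy hmax ev hunif

end Main

end Fermat.Agent.S34
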