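import Mathlib
import Fermat.Agent.S34.LocRing
import Fermat.Agent.S34.NodeFin
import Fermat.Agent.S34.NodeDeg

/-!
# S34, D-NODE-INST, abstract glue: the node statement `hgam` at a crossing point

`E ⊆ F` fields (the function fields of levels `M` and `M q`, `F` an `E`-algebra through the
degeneracy map), `OM ⊆ E`, `O ⊆ F` the two charts, `𝔫` a crossing point of the special fibre of
`O` (a maximal ideal containing the traces of the maximal ideals of the two valuation rings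
`V₁`, `V₂`), `h ∈ E` the Hauptmodul, `θ ∈ F` its swap.

`ngl_main` derives the hypothesis `hgam` of `lni_node_swap` (for one `A`-point `ev` with its
place `V`) from elementwise facts about the charts.  The carriers are fixed here once:
`Λ := ndrLoc O 𝔫`, `Λ₀ := ndrLoc OM 𝔫₀` with `𝔫₀` the trace of `𝔫` on `OM`.
-/

set_option autoImplicit false

namespace Fermat.Agent.S34

open Polynomial IsLocalRing

section Basic

variable {A F : Type*} [CommRing A] [Field F] [Algebra A F]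

/-- The trace on a subalgebra `S ⊆ V` of the maximal ideal of a valuation subring `V`. -/
def nglIdeal (S : Subalgebra A F) (V : ValuationSubring F) (hSV : ∀ x ∈ S, x ∈ V) :
    Ideal ↥S where
  carrier := {x | (x : F) ∈ V.nonunits}
  add_mem' := fun {_ _} ha hb => V.nonunits.add_mem ha hb
  zero_mem' := V.nonunits.zero_mem
  smul_mem' := fun c _ hx => lnd_nu_mul V (hSV _ c.2) hx

theorem ngl_mem_ideal (S : Subalgebra A F) (V : ValuationSubring F) (hSV : ∀ x ∈ S, x ∈ V)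
    (x : ↥S) : x ∈ nglIdeal S V hSV ↔ (x : F) ∈ V.nonunits := Iff.rfl

variable (O : Subalgebra A F) (𝔫 : Ideal ↥O) [h𝔫 : 𝔫.IsPrime]

omit h𝔫 in
/-- Elements of the chart outside a point over the trace of `𝔪_V` are units of `V`. -/
theorem ngl_unit (V : ValuationSubring F) (hOV : ∀ x ∈ O, x ∈ V)
    (hc : ∀ x : ↥O, (x : F) ∈ V.nonunits → x ∈ 𝔫) (s : ↥O) (hs : s ∉ 𝔫) : lndU V (s : F) :=
  lndU_of_mem V (hOV _ s.2) fun h => hs (hc s h)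

/-- The local ring at a point over the trace of `𝔪_V` lies in `V`. -/
theorem ngl_loc_le (V : ValuationSubring F) (hOV : ∀ x ∈ O, x ∈ V)
    (hc : ∀ x : ↥O, (x : F) ∈ V.nonunits → x ∈ 𝔫) (x : F) (hx : x ∈ ndrLoc O 𝔫) : x ∈ V := by
  obtain ⟨a, s, hs, h⟩ := hx
  have hu := ngl_unit O 𝔫 V hOV hc s hs
  have hs0 := lndU_ne_zero V hu
  have h1 : x = (a : F) * (s : F)⁻¹ := by rw [← h]; field_simp
  rw [h1]
  exact V.mul_mem _ _ (hOV _ a.2) (lndU_mem V (lndU_inv V hu))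

/-- A quotient `u / s` with `s ∉ 𝔫` as an element of the local ring. -/
theorem ngl_div_mem (u s : ↥O) (hs : s ∉ 𝔫) : (u : F) * (s : F)⁻¹ ∈ ndrLoc O 𝔫 := by
  have hs0 : (s : F) ≠ 0 := by
    intro h0
    apply hs
    have : s = 0 := Subtype.ext h0
    rw [this]
    exact 𝔫.zero_mem
  exact ⟨u, s, hs, by field_simp⟩

/-- The trace of `𝔪_V` on the local ring lies in the maximal ideal. -/
theorem ngl_ideal_le_max (V : ValuationSubring F) (hOV : ∀ x ∈ O, x ∈ V)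
    (hc : ∀ x : ↥O, (x : F) ∈ V.nonunits → x ∈ 𝔫) (z : ↥(ndrLoc O 𝔫))
    (hz : (z : F) ∈ V.nonunits) : z ∈ maximalIdeal ↥(ndrLoc O 𝔫) := by
  obtain ⟨a, s, hs, h⟩ := z.2
  rw [ndr_mem_maximalIdeal_iff]
  refine ⟨a, s, hc a ?_, hs, h⟩
  rw [← h, mul_comm]
  exact lnd_nu_mul V (hOV _ s.2) hz

/-- The fibre is reduced at the local ring. -/
theorem ngl_red (τ : A) (V₁ V₂ : ValuationSubring F) (hO₁ : ∀ x ∈ O, x ∈ V₁)
    (hO₂ : ∀ x ∈ O, x ∈ V₂)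
    (hred : ∀ x : ↥O, (x : F) ∈ V₁.nonunits → (x : F) ∈ V₂.nonunits →
      ∃ u : ↥O, x = algebraMap A ↥O τ * u)
    (z : ↥(ndrLoc O 𝔫)) (hz₁ : (z : F) ∈ V₁.nonunits) (hz₂ : (z : F) ∈ V₂.nonunits) :
    z ∈ Ideal.span {algebraMap A ↥(ndrLoc O 𝔫) τ} := by
  obtain ⟨a, s, hs, h⟩ := z.2
  have ha₁ : (a : F) ∈ V₁.nonunits := by
    rw [← h, mul_comm]
    exact lnd_nu_mul V₁ (hO₁ _ s.2) hz₁
  have ha₂ : (a : F) ∈ V₂.nonunits := by
    rw [← h, mul_comm]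
    exact lnd_nu_mul V₂ (hO₂ _ s.2) hz₂
  obtain ⟨u, hu⟩ := hred a ha₁ ha₂
  have hs0 : (s : F) ≠ 0 := by
    intro h0
    apply hs
    have : s = 0 := Subtype.ext h0
    rw [this]
    exact 𝔫.zero_mem
  rw [Ideal.mem_span_singleton']
  refine ⟨⟨(u : F) * (s : F)⁻¹, ngl_div_mem O 𝔫 u s hs⟩, Subtype.ext ?_⟩
  have hu' : (a : F) = algebraMap A F τ * (u : F) := by
    have := congrArg (fun c : ↥O => (c : F)) hu
    simpa using this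
  show (u : F) * (s : F)⁻¹ * algebraMap A F τ = (z : F)
  have h2 : (z : F) = (a : F) * (s : F)⁻¹ := by rw [← h]; field_simp
  rw [h2, hu']
  ring

/-- The branch statement, from the chart to the local ring. -/
theorem ngl_branch (V : ValuationSubring F) (hOV : ∀ x ∈ O, x ∈ V)
    (hc : ∀ x : ↥O, (x : F) ∈ V.nonunits → x ∈ 𝔫) (y : F)
    (hB : ∀ a : ↥O, a ∈ 𝔫 → ∃ b c : ↥O, c ∉ 𝔫 ∧
      (a : F) * (c : F) - y * (b : F) ∈ V.nonunits)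
    (z : ↥(ndrLoc O 𝔫)) (hz : z ∈ maximalIdeal ↥(ndrLoc O 𝔫)) :
    ∃ b : ↥(ndrLoc O 𝔫), (z : F) - y * (b : F) ∈ V.nonunits := by
  rw [ndr_mem_maximalIdeal_iff] at hz
  obtain ⟨a, s, ha, hs, h⟩ := hz
  obtain ⟨b, c, hc', hb⟩ := hB a ha
  have hcs : c * s ∉ 𝔫 := fun hm => (h𝔫.mem_or_mem hm).elim hc' hs
  have hu := ngl_unit O 𝔫 V hOV hc (c * s) hcs
  have hs0 : (s : F) ≠ 0 := by
    intro h0
    apply hs
    have : s = 0 := Subtype.ext h0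
    rw [this]
    exact 𝔫.zero_mem
  have hc0 : (c : F) ≠ 0 := by
    intro h0
    apply hc'
    have : c = 0 := Subtype.ext h0
    rw [this]
    exact 𝔫.zero_mem
  refine ⟨⟨(b : F) * ((c * s : ↥O) : F)⁻¹, ngl_div_mem O 𝔫 b (c * s) hcs⟩, ?_⟩
  have h2 : (z : F) - y * ((b : F) * ((c * s : ↥O) : F)⁻¹)
      = ((c * s : ↥O) : F)⁻¹ * ((a : F) * (c : F) - y * (b : F)) := by
    rw [← h]
    push_cast
    field_simp
  show (z : F) - y * ((b : F) * ((c * s : ↥O) : F)⁻¹) ∈ V.nonunits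
  rw [h2]
  exact lnd_nu_mul V (lndU_mem V (lndU_inv V hu)) hb

end Basic

section Down

variable {A E F : Type*} [CommRing A] [Field E] [Field F] [Algebra A E] [Algebra A F]
  [Algebra E F] [IsScalarTower A E F]

/-- The restriction of `E → F` to the charts. -/
def nglDown (OM : Subalgebra A E) (O : Subalgebra A F)
    (hαO : ∀ x ∈ OM, algebraMap E F x ∈ O) : ↥OM →ₐ[A] ↥O where
  toFun x := ⟨algebraMap E F (x : E), hαO _ x.2⟩
  map_one' := Subtype.ext (map_one _)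
  map_mul' _ _ := Subtype.ext (map_mul _ _ _)
  map_zero' := Subtype.ext (map_zero _)
  map_add' _ _ := Subtype.ext (map_add _ _ _)
  commutes' c := Subtype.ext (IsScalarTower.algebraMap_apply A E F c).symm

theorem nglDown_coe (OM : Subalgebra A E) (O : Subalgebra A F)
    (hαO : ∀ x ∈ OM, algebraMap E F x ∈ O) (x : ↥OM) :
    ((nglDown OM O hαO x : ↥O) : F) = algebraMap E F (x : E) := rfl

/-- The trace on the lower chart of a prime of the upper chart. -/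
def nglTrace (OM : Subalgebra A E) (O : Subalgebra A F)
    (hαO : ∀ x ∈ OM, algebraMap E F x ∈ O) (𝔫 : Ideal ↥O) : Ideal ↥OM :=
  𝔫.comap (nglDown OM O hαO)

instance nglTrace_isPrime (OM : Subalgebra A E) (O : Subalgebra A F)
    (hαO : ∀ x ∈ OM, algebraMap E F x ∈ O) (𝔫 : Ideal ↥O) [h𝔫 : 𝔫.IsPrime] :
    (nglTrace OM O hαO 𝔫).IsPrime :=
  Ideal.comap_isPrime (nglDown OM O hαO) 𝔫

theorem ngl_mem_trace (OM : Subalgebra A E) (O : Subalgebra A F)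
    (hαO : ∀ x ∈ OM, algebraMap E F x ∈ O) (𝔫 : Ideal ↥O) (x : ↥OM) :
    x ∈ nglTrace OM O hαO 𝔫 ↔ nglDown OM O hαO x ∈ 𝔫 := Iff.rfl

/-- The local ring of the lower chart maps into the local ring of the upper chart. -/
theorem ngl_down_mem (OM : Subalgebra A E) (O : Subalgebra A F)
    (hαO : ∀ x ∈ OM, algebraMap E F x ∈ O) (𝔫 : Ideal ↥O) [h𝔫 : 𝔫.IsPrime]
    (y : E) (hy : y ∈ ndrLoc OM (nglTrace OM O hαO 𝔫)) : algebraMap E F y ∈ ndrLoc O 𝔫 := by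
  obtain ⟨a, s, hs, h⟩ := hy
  refine ⟨nglDown OM O hαO a, nglDown OM O hαO s, hs, ?_⟩
  rw [nglDown_coe, nglDown_coe, ← map_mul, h]

/-- The map between the local rings. -/
def nglLoc (OM : Subalgebra A E) (O : Subalgebra A F)
    (hαO : ∀ x ∈ OM, algebraMap E F x ∈ O) (𝔫 : Ideal ↥O) [h𝔫 : 𝔫.IsPrime] :
    ↥(ndrLoc OM (nglTrace OM O hαO 𝔫)) →+* ↥(ndrLoc O 𝔫) where
  toFun y := ⟨algebraMap E F (y : E), ngl_down_mem OM O hαO 𝔫 _ y.2⟩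
  map_one' := Subtype.ext (map_one _)
  map_mul' _ _ := Subtype.ext (map_mul _ _ _)
  map_zero' := Subtype.ext (map_zero _)
  map_add' _ _ := Subtype.ext (map_add _ _ _)

theorem nglLoc_coe (OM : Subalgebra A E) (O : Subalgebra A F)
    (hαO : ∀ x ∈ OM, algebraMap E F x ∈ O) (𝔫 : Ideal ↥O) [h𝔫 : 𝔫.IsPrime]
    (y : ↥(ndrLoc OM (nglTrace OM O hαO 𝔫))) :
    ((nglLoc OM O hαO 𝔫 y : ↥(ndrLoc O 𝔫)) : F) = algebraMap E F (y : E) := rfl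

end Down

section LocProps

variable {A F : Type*} [CommRing A] [Field F] [Algebra A F]
  (O : Subalgebra A F) (𝔫 : Ideal ↥O) [h𝔫 : 𝔫.IsPrime]

/-- The field is the fraction field of the local ring of a chart. -/
theorem ngl_isFractionRing (hfrac : ∀ x : F, ∃ a ∈ O, ∃ s ∈ O, s ≠ 0 ∧ x * s = a) :
    IsFractionRing ↥(ndrLoc O 𝔫) F := by
  refine IsFractionRing.of_field _ _ fun z => ?_
  obtain ⟨a, ha, s, hs, hs0, h⟩ := hfrac z
  refine ⟨⟨a, ndr_le O 𝔫 ha⟩, ⟨s, ndr_le O 𝔫 hs⟩, ?_⟩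
  show z = a / s
  rw [eq_div_iff hs0]
  exact h

/-- The local ring of an integrally closed chart is integrally closed. -/
theorem ngl_isIntegrallyClosed (hcl : ∀ x : F, IsIntegral ↥O x → x ∈ O)
    (hfrac : ∀ x : F, ∃ a ∈ O, ∃ s ∈ O, s ≠ 0 ∧ x * s = a) :
    IsIntegrallyClosed ↥(ndrLoc O 𝔫) := by
  have := ngl_isFractionRing O 𝔫 hfrac
  refine (isIntegrallyClosed_iff F).mpr fun {x} hx => ?_
  exact ⟨⟨x, ndf_closed O 𝔫 hcl (fun y => y.2) x hx⟩, rfl⟩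

end LocProps

section Glue

variable {A E F : Type*} [CommRing A] [IsDomain A] [IsDiscreteValuationRing A]
  [Field E] [Field F] [Algebra A E] [Algebra A F] [Algebra E F] [IsScalarTower A E F]

/-- **NODE-INST, abstract glue.**  The hypothesis `hgam` of `lni_node_swap` at a crossing point
`𝔫` of the chart `O` of the upper level, for one `A`-point `ev` with its place `V`, from
elementwise facts about the charts `OM ⊆ E`, `O ⊆ F`. -/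
theorem ngl_main [FiniteDimensional E F] [CharZero E]
    {τ : A} (hτ : Irreducible τ) {q : ℕ} (hq : q ≠ 0)
    (hfr : Module.finrank E F = q + 1)
    -- the two charts
    (OM : Subalgebra A E) (O : Subalgebra A F) [IsNoetherianRing ↥OM] [IsNoetherianRing ↥O]
    (hαO : ∀ x ∈ OM, algebraMap E F x ∈ O)
    (hOMcl : ∀ x : E, IsIntegral ↥OM x → x ∈ OM)
    (hOMfrac : ∀ x : E, ∃ a ∈ OM, ∃ s ∈ OM, s ≠ 0 ∧ x * s = a)
    (hOcl : ∀ x : F, IsIntegral ↥O x → x ∈ O)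
    (hOfrac : ∀ x : F, ∃ a ∈ O, ∃ s ∈ O, s ≠ 0 ∧ x * s = a)
    (hint : ∀ z ∈ O, IsIntegral ↥OM z)
    -- the crossing point
    (𝔫 : Ideal ↥O) [h𝔫 : 𝔫.IsMaximal] (hτ𝔫 : algebraMap A ↥O τ ∈ 𝔫)
    (V₁ V₂ : ValuationSubring F) (hO₁ : ∀ x ∈ O, x ∈ V₁) (hO₂ : ∀ x ∈ O, x ∈ V₂)
    (hτ₁ : algebraMap A F τ ∈ V₁.nonunits)
    (hc₁ : ∀ x : ↥O, (x : F) ∈ V₁.nonunits → x ∈ 𝔫)
    (hc₂ : ∀ x : ↥O, (x : F) ∈ V₂.nonunits → x ∈ 𝔫)
    (hred : ∀ x : ↥O, (x : F) ∈ V₁.nonunits → (x : F) ∈ V₂.nonunits →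
      ∃ u : ↥O, x = algebraMap A ↥O τ * u)
    -- residue degree one on the first component, pure inseparability on the second
    (hlift : ∀ z : ↥O, ∃ z₀ ∈ OM, (z : F) - algebraMap E F z₀ ∈ V₁.nonunits)
    (Q : ℕ) (hQ : Q ≠ 0)
    (hinsep : ∀ z : ↥O, ∃ z₀ ∈ OM, (z : F) ^ Q - algebraMap E F z₀ ∈ V₂.nonunits)
    -- the Hauptmodul and its swap lie in the local ring at the crossing point
    (h : E) (hh : ∃ a s : ↥O, s ∉ 𝔫 ∧ algebraMap E F h * (s : F) = (a : F))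
    (θ : F) (hθ : ∃ a s : ↥O, s ∉ 𝔫 ∧ θ * (s : F) = (a : F))
    -- Kronecker's congruences
    (hk₁ : algebraMap E F h ^ q - θ ∈ V₁.nonunits)
    (hk₂ : algebraMap E F h - θ ^ q ∈ V₂.nonunits)
    -- the two branches
    (hB₁ : ∀ a : ↥O, a ∈ 𝔫 → ∃ b c : ↥O, c ∉ 𝔫 ∧
      (a : F) * (c : F) - (algebraMap E F h - θ ^ q) * (b : F) ∈ V₁.nonunits)
    (hB₂ : ∀ a : ↥O, a ∈ 𝔫 → ∃ b c : ↥O, c ∉ 𝔫 ∧
      (a : F) * (c : F) - (algebraMap E F h ^ q - θ) * (b : F) ∈ V₂.nonunits)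
    -- the `A`-point and its place
    (ev : ↥O →ₐ[A] A) (V : ValuationSubring F) (hOV : ∀ x ∈ O, x ∈ V)
    (hVO : ∀ x ∈ V, ∃ s : ↥O, ev s ≠ 0 ∧ (s : F) * x ∈ O)
    (hev : ∀ y : ↥O, (y : F) - algebraMap A F (ev y) ∈ V.nonunits)
    (hloc : ∀ x ∈ 𝔫, ¬ IsUnit (ev x))
    (hunif : ∀ a b : A, algebraMap E F h - algebraMap A F a ∈ V.nonunits →
      θ - algebraMap A F b ∈ V.nonunits →
      ∃ s u : ↥O, (s : F) ∉ V.nonunits ∧
        (s : F) * (θ - algebraMap A F b) = (algebraMap E F h - algebraMap A F a) * (u : F)) :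
    ∃ g : ↥O, ev g = 0 ∧ ∃ c : A, c ≠ 0 ∧ ∀ w : ↥O, ev w = 0 →
      ∃ s u : ↥O, s ∉ 𝔫 ∧ algebraMap A ↥O c * (s * w) = g * u := by
  classical
  have hprime : 𝔫.IsPrime := h𝔫.isPrime
  obtain ⟨evΛ, hevO, hΛV, hevΛ, hVΛ, htr⟩ := ndr_ev O 𝔫 ev V hOV hVO hev hloc
  apply htr
  -- the lower local ring
  have hfrE : IsFractionRing ↥(ndrLoc OM (nglTrace OM O hαO 𝔫)) E :=
    ngl_isFractionRing OM _ hOMfrac
  have hicl : IsIntegrallyClosed ↥(ndrLoc OM (nglTrace OM O hαO 𝔫)) :=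
    ngl_isIntegrallyClosed OM _ hOMcl hOMfrac
  letI algΛ : Algebra ↥(ndrLoc OM (nglTrace OM O hαO 𝔫)) ↥(ndrLoc O 𝔫) :=
    (nglLoc OM O hαO 𝔫).toAlgebra
  have st1 : IsScalarTower A ↥(ndrLoc OM (nglTrace OM O hαO 𝔫)) ↥(ndrLoc O 𝔫) :=
    IsScalarTower.of_algebraMap_eq fun c => Subtype.ext (IsScalarTower.algebraMap_apply A E F c)
  have st2 : IsScalarTower ↥(ndrLoc OM (nglTrace OM O hαO 𝔫)) ↥(ndrLoc O 𝔫) F :=
    IsScalarTower.of_algebraMap_eq fun y => rfl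
  have st3 : IsScalarTower ↥OM ↥(ndrLoc OM (nglTrace OM O hαO 𝔫)) F :=
    IsScalarTower.of_algebraMap_eq fun y => rfl
  -- finiteness of the upper local ring over the lower one
  have hfin : Module.Finite ↥(ndrLoc OM (nglTrace OM O hαO 𝔫)) ↥(ndrLoc O 𝔫) := by
    refine ndf_finite (K := E) O 𝔫 hOcl {z | ∃ x ∈ OM, algebraMap E F x = z} ?_ ?_ ?_
      (algebraMap A ↥O τ) hτ𝔫 ?_ (nglIdeal O V₁ hO₁) (nglIdeal O V₂ hO₂) (fun x hx => hc₁ x hx)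
      (fun x hx => hc₂ x hx) ?_ Q hQ ?_ ?_ (ndrLoc O 𝔫) (fun z => Iff.rfl)
    · rintro z ⟨x, hx, rfl⟩
      exact ⟨⟨x, ndr_le OM _ hx⟩, rfl⟩
    · intro y
      exact ngl_down_mem OM O hαO 𝔫 _ y.2
    · intro z hz
      exact (hint z hz).tower_top
    · exact ⟨algebraMap A E τ, OM.algebraMap_mem τ, (IsScalarTower.algebraMap_apply A E F τ).symm⟩
    · intro z h1 h2
      obtain ⟨u, hu⟩ := hred z h1 h2
      rw [Ideal.mem_span_singleton']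
      exact ⟨u, by rw [hu, mul_comm]⟩
    · intro z
      obtain ⟨z₀, hz₀, hz⟩ := hlift z
      exact ⟨⟨algebraMap E F z₀, hαO _ hz₀⟩, ⟨z₀, hz₀, rfl⟩, hz⟩
    · intro z
      obtain ⟨z₀, hz₀, hz⟩ := hinsep z
      exact ⟨⟨algebraMap E F z₀, hαO _ hz₀⟩, ⟨z₀, hz₀, rfl⟩, hz⟩
  -- the Hauptmodul lies in the lower local ring
  obtain ⟨h₀, hh₀⟩ : ∃ h₀ : ↥(ndrLoc OM (nglTrace OM O hαO 𝔫)), (h₀ : E) = h := by
    have h1 : IsIntegral ↥(ndrLoc OM (nglTrace OM O hαO 𝔫))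
        (⟨algebraMap E F h, hh⟩ : ↥(ndrLoc O 𝔫)) := Algebra.IsIntegral.isIntegral _
    have h2 : IsIntegral ↥(ndrLoc OM (nglTrace OM O hαO 𝔫)) (algebraMap E F h) :=
      h1.map (IsScalarTower.toAlgHom ↥(ndrLoc OM (nglTrace OM O hαO 𝔫)) ↥(ndrLoc O 𝔫) F)
    have h3 : IsIntegral ↥(ndrLoc OM (nglTrace OM O hαO 𝔫)) h :=
      (isIntegral_algHom_iff (IsScalarTower.toAlgHom ↥(ndrLoc OM (nglTrace OM O hαO 𝔫)) E F)
        (algebraMap E F).injective).mp h2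
    obtain ⟨y, hy⟩ := IsIntegrallyClosed.isIntegral_iff.mp h3
    exact ⟨y, hy⟩
  set θΛ : ↥(ndrLoc O 𝔫) := ⟨θ, hθ⟩ with hθΛ
  have hinjF : Function.Injective (algebraMap ↥(ndrLoc O 𝔫) F) := Subtype.coe_injective
  have hfracΛ : ∀ x : F, ∃ a b : ↥(ndrLoc O 𝔫), b ≠ 0 ∧
      x * algebraMap ↥(ndrLoc O 𝔫) F b = algebraMap ↥(ndrLoc O 𝔫) F a :=
    ndr_hfrac O 𝔫 hOfrac
  have hinj : Function.Injective
      (algebraMap ↥(ndrLoc OM (nglTrace OM O hαO 𝔫)) ↥(ndrLoc O 𝔫)) := by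
    intro y y' hyy
    have h1 : algebraMap E F (y : E) = algebraMap E F (y' : E) :=
      congrArg (fun c : ↥(ndrLoc O 𝔫) => (c : F)) hyy
    exact Subtype.ext ((algebraMap E F).injective h1)
  have hτ0 : algebraMap A ↥(ndrLoc OM (nglTrace OM O hαO 𝔫)) τ ∈
      maximalIdeal ↥(ndrLoc OM (nglTrace OM O hαO 𝔫)) := by
    refine ndr_tau_mem OM _ τ ?_
    rw [ngl_mem_trace, AlgHom.commutes]
    exact hτ𝔫
  -- coordinates in `F`
  have hxF : ((algebraMap ↥(ndrLoc OM (nglTrace OM O hαO 𝔫)) ↥(ndrLoc O 𝔫) h₀ ^ q - θΛ :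
      ↥(ndrLoc O 𝔫)) : F) = algebraMap E F h ^ q - θ := by
    rw [← hh₀]
    rfl
  have hyF : ((algebraMap ↥(ndrLoc OM (nglTrace OM O hαO 𝔫)) ↥(ndrLoc O 𝔫) h₀ - θΛ ^ q :
      ↥(ndrLoc O 𝔫)) : F) = algebraMap E F h - θ ^ q := by
    rw [← hh₀]
    rfl
  have hΛ₁ : ∀ x ∈ ndrLoc O 𝔫, x ∈ V₁ := ngl_loc_le O 𝔫 V₁ hO₁ hc₁
  have hΛ₂ : ∀ x ∈ ndrLoc O 𝔫, x ∈ V₂ := ngl_loc_le O 𝔫 V₂ hO₂ hc₂
  set x : ↥(ndrLoc O 𝔫) :=
    algebraMap ↥(ndrLoc OM (nglTrace OM O hαO 𝔫)) ↥(ndrLoc O 𝔫) h₀ ^ q - θΛ with hx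
  set y : ↥(ndrLoc O 𝔫) :=
    algebraMap ↥(ndrLoc OM (nglTrace OM O hαO 𝔫)) ↥(ndrLoc O 𝔫) h₀ - θΛ ^ q with hy
  have hx₁ : (x : F) ∈ V₁.nonunits := by rw [hxF]; exact hk₁
  have hy₂ : (y : F) ∈ V₂.nonunits := by rw [hyF]; exact hk₂
  -- `x * y ∈ τ Λ`
  have hxy : ∃ l : ↥(ndrLoc O 𝔫), x * y = algebraMap A ↥(ndrLoc O 𝔫) τ * l := by
    have h1 : ((x * y : ↥(ndrLoc O 𝔫)) : F) ∈ V₁.nonunits := by
      have : ((x * y : ↥(ndrLoc O 𝔫)) : F) = (y : F) * (x : F) := by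
        rw [mul_comm]; rfl
      rw [this]
      exact lnd_nu_mul V₁ (hΛ₁ _ y.2) hx₁
    have h2 : ((x * y : ↥(ndrLoc O 𝔫)) : F) ∈ V₂.nonunits :=
      lnd_nu_mul V₂ (hΛ₂ _ x.2) hy₂
    have h3 := ngl_red O 𝔫 τ V₁ V₂ hO₁ hO₂ hred (x * y) h1 h2
    rw [Ideal.mem_span_singleton'] at h3
    obtain ⟨l, hl⟩ := h3
    exact ⟨l, by rw [← hl, mul_comm]⟩
  -- the maximal ideal
  have hmax : maximalIdeal ↥(ndrLoc O 𝔫) =
      Ideal.span {algebraMap A ↥(ndrLoc O 𝔫) τ, x, y} := by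
    refine (ndf_max (algebraMap A ↥(ndrLoc O 𝔫) τ) x y (nglIdeal (ndrLoc O 𝔫) V₁ hΛ₁)
      (nglIdeal (ndrLoc O 𝔫) V₂ hΛ₂) ?_ ?_ hx₁ ?_ ?_ ?_ ?_).2
    · intro z h1 h2
      exact ngl_red O 𝔫 τ V₁ V₂ hO₁ hO₂ hred z h1 h2
    · exact hτ₁
    · intro z hz
      exact ngl_ideal_le_max O 𝔫 V₁ hO₁ hc₁ z hz
    · exact ngl_ideal_le_max O 𝔫 V₂ hO₂ hc₂ y hy₂
    · intro z hz
      obtain ⟨b, hb⟩ := ngl_branch O 𝔫 V₁ hO₁ hc₁ _ hB₁ z hz
      refine ⟨b, ?_⟩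
      show ((z - y * b : ↥(ndrLoc O 𝔫)) : F) ∈ V₁.nonunits
      have : ((z - y * b : ↥(ndrLoc O 𝔫)) : F) = (z : F) - (y : F) * (b : F) := rfl
      rw [this, hyF]
      exact hb
    · intro z hz
      obtain ⟨b, hb⟩ := ngl_branch O 𝔫 V₂ hO₂ hc₂ _ hB₂ z hz
      refine ⟨b, ?_⟩
      show ((z - x * b : ↥(ndrLoc O 𝔫)) : F) ∈ V₂.nonunits
      have : ((z - x * b : ↥(ndrLoc O 𝔫)) : F) = (z : F) - (x : F) * (b : F) := rfl
      rw [this, hxF]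
      exact hb
  -- the uniformiser hypothesis
  have hunif' : ∃ s u : ↥(ndrLoc O 𝔫), evΛ s ≠ 0 ∧
      s * (θΛ - algebraMap A ↥(ndrLoc O 𝔫) (evΛ θΛ)) =
        (algebraMap ↥(ndrLoc OM (nglTrace OM O hαO 𝔫)) ↥(ndrLoc O 𝔫) h₀ -
          algebraMap A ↥(ndrLoc O 𝔫)
            (evΛ (algebraMap ↥(ndrLoc OM (nglTrace OM O hαO 𝔫)) ↥(ndrLoc O 𝔫) h₀))) * u := by
    have ha := hevΛ (algebraMap ↥(ndrLoc OM (nglTrace OM O hαO 𝔫)) ↥(ndrLoc O 𝔫) h₀)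
    have hb := hevΛ θΛ
    have hcoe : ((algebraMap ↥(ndrLoc OM (nglTrace OM O hαO 𝔫)) ↥(ndrLoc O 𝔫) h₀ :
        ↥(ndrLoc O 𝔫)) : F) = algebraMap E F h := by
      rw [← hh₀]; rfl
    rw [hcoe] at ha
    obtain ⟨s, u, hs, hsu⟩ := hunif _ _ ha hb
    refine ⟨algebraMap ↥O ↥(ndrLoc O 𝔫) s, algebraMap ↥O ↥(ndrLoc O 𝔫) u, ?_, Subtype.ext ?_⟩
    · rw [hevO]
      intro h0
      apply hs
      have h1 := hev s
      rw [h0, map_zero, sub_zero] at h1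
      exact h1
    · show (s : F) * (θ - algebraMap A F (evΛ θΛ)) =
        (((algebraMap ↥(ndrLoc OM (nglTrace OM O hαO 𝔫)) ↥(ndrLoc O 𝔫) h₀ : ↥(ndrLoc O 𝔫)) : F)
          - algebraMap A F
            (evΛ (algebraMap ↥(ndrLoc OM (nglTrace OM O hαO 𝔫)) ↥(ndrLoc O 𝔫) h₀))) * (u : F)
      rw [hcoe]
      exact hsu
  exact ndd_main (E := E) (F := F) hinjF hfracΛ hinj hτ hτ0 hq hfr h₀ θΛ hxy hmax evΛ hunif'

end Glue

end Fermat.Agent.S34
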