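import Mathlib
import Fermat.Agent.S34.InstMod
import Fermat.Agent.S34.LocNodeInst
import Fermat.Agent.S34.Val2Inst

/-!
# S34, seam NODE-PACK: from the node statement to the hypotheses `hnode₀`, `hnode₁` of INST-MOD

* `S34Gam O 𝔫`: the node statement at a closed point `𝔫` of a chart `O` (the hypothesis `hgam`
  of `lni_node_swap`): for every evaluation homomorphism `ev : O → A` which is local at `𝔫` and
  comes with its principal valuation ring `V`, the kernel of `ev` is principal at `𝔫` up to a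
  nonzero constant.
* `ndpk_node`: at the concrete carrier of `s34im_field` (level `M q` over `K0`, the valuation
  rings `va2V1`, `va2V2`, the Hauptmodul chart coordinate `t`): if the node statement holds at
  the crossing points of the two charts, then the hypotheses `hnode₀` and `hnode₁` of
  `s34im_field` hold (verbatim) for every `f₀ ≠ 0` whose orders are divisible by `m` and whose
  zeros and poles are `K0`-rational.
-/

set_option autoImplicit false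
set_option linter.unusedSectionVars false

noncomputable section

open ModularCurve AlgebraicCurve Polynomial
open Fermat.Agent.S18 Fermat.Agent.S37

namespace Fermat.Agent.S34

local notation "Qb" => AlgebraicClosure ℚ

/-- The node statement at a closed point `𝔫` of a chart `O` (the hypothesis `hgam` of
`lni_node_swap`, verbatim). -/
def S34Gam {A F : Type*} [CommRing A] [Field F] [Algebra A F] (O : Subalgebra A F)
    (𝔫 : Ideal ↥O) : Prop :=
  ∀ (ev : ↥O →ₐ[A] A) (V : ValuationSubring F), IsPrincipalIdealRing V →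
    (∀ x ∈ O, x ∈ V) →
    (∀ x ∈ V, ∃ s : ↥O, ev s ≠ 0 ∧ (s : F) * x ∈ O) →
    (∀ y : ↥O, (y : F) - algebraMap A F (ev y) ∈ V.nonunits) →
    (∀ x ∈ 𝔫, ¬ IsUnit (ev x)) → ∃ g : ↥O, ev g = 0 ∧
    ∃ c : A, c ≠ 0 ∧ ∀ w : ↥O, ev w = 0 →
      ∃ s u : ↥O, s ∉ 𝔫 ∧ algebraMap A ↥O c * (s * w) = g * u

section Field

variable (M q : ℕ) [NeZero M] [hq : Fact q.Prime] (hM : ¬ q ∣ M)
  (K0 : Type*) [Field K0] [Algebra ℚ K0] [Algebra K0 Qb]
  (A0 : ValuationSubring K0) [IsDiscreteValuationRing ↥A0]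
  {a2 : ℕ} (H : HauptRec a2 q)

/-- **NODE-PACK.**  The hypotheses `hnode₀`, `hnode₁` of `s34im_field` from the node statement
at the crossing points of the two charts. -/
theorem ndpk_node
    [Algebra A0 ↥(laurentBaseChange K0 (modularFunctionFieldFull (M * q)))]
    [IsScalarTower A0 K0 ↥(laurentBaseChange K0 (modularFunctionFieldFull (M * q)))]
    (c0 c1 : A0) (hc : IsLocalRing.residue A0 c0 ≠ IsLocalRing.residue A0 c1)
    (t : ↥(laurentBaseChange K0 (modularFunctionFieldFull (M * q))))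
    (ht : (t : LaurentSeries K0) = cinstU H K0 (c0 : K0) (c1 : K0))
    (τ : A0) (hτ : Irreducible τ) (m : ℕ)
    (f₀ : ↥(laurentBaseChange K0 (modularFunctionFieldFull (M * q)))) (hf₀ : f₀ ≠ 0)
    (hdiv : ∀ Q : AlgebraicCurve.Place K0 ↥(laurentBaseChange K0 (modularFunctionFieldFull (M * q))),
      (m : ℤ) ∣ Q.ord f₀)
    (hratQ : ∀ Q : AlgebraicCurve.Place K0 ↥(laurentBaseChange K0 (modularFunctionFieldFull (M * q))),
      Q.ord f₀ ≠ 0 → ∀ y ∈ Q.toValuationSubring,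
        ∃ c : K0, y - algebraMap K0 ↥(laurentBaseChange K0 (modularFunctionFieldFull (M * q))) c
          ∈ Q.toValuationSubring.nonunits)
    -- the node statement at the crossing points of the two charts
    (hgam₀ : ∀ 𝔫 : Ideal ↥(chtO A0 {t}), 𝔫.IsMaximal →
      (∀ x : ↥(chtO A0 {t}), (x : ↥(laurentBaseChange K0 (modularFunctionFieldFull (M * q)))) ∈ (va2V1 M q K0 A0).nonunits → x ∈ 𝔫) →
      (∀ x : ↥(chtO A0 {t}), (x : ↥(laurentBaseChange K0 (modularFunctionFieldFull (M * q)))) ∈ (va2V2 M q hM K0 A0).nonunits → x ∈ 𝔫) →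
      S34Gam (chtO A0 {t}) 𝔫)
    (hgam₁ : ∀ 𝔫 : Ideal ↥(chtO A0 {t⁻¹}), 𝔫.IsMaximal →
      (∀ x : ↥(chtO A0 {t⁻¹}), (x : ↥(laurentBaseChange K0 (modularFunctionFieldFull (M * q)))) ∈ (va2V1 M q K0 A0).nonunits → x ∈ 𝔫) →
      (∀ x : ↥(chtO A0 {t⁻¹}), (x : ↥(laurentBaseChange K0 (modularFunctionFieldFull (M * q)))) ∈ (va2V2 M q hM K0 A0).nonunits → x ∈ 𝔫) →
      S34Gam (chtO A0 {t⁻¹}) 𝔫) :
    (∀ f : ↥(laurentBaseChange K0 (modularFunctionFieldFull (M * q))), f = f₀ ∨ f = (va2SwapEquiv M q hq.out hM K0).symm f₀ →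
      ∀ 𝔫 : Ideal ↥(chtO A0 {t}), 𝔫.IsMaximal →
      (∀ x : ↥(chtO A0 {t}), (x : ↥(laurentBaseChange K0 (modularFunctionFieldFull (M * q)))) ∈ (va2V1 M q K0 A0).nonunits → x ∈ 𝔫) →
      (∀ x : ↥(chtO A0 {t}), (x : ↥(laurentBaseChange K0 (modularFunctionFieldFull (M * q)))) ∈ (va2V2 M q hM K0 A0).nonunits → x ∈ 𝔫) →
      S34Loc τ m (chtO A0 {t}) f 𝔫) ∧
    (∀ f : ↥(laurentBaseChange K0 (modularFunctionFieldFull (M * q))), f = f₀ ∨ f = (va2SwapEquiv M q hq.out hM K0).symm f₀ →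
      ∀ 𝔫 : Ideal ↥(chtO A0 {t⁻¹}), 𝔫.IsMaximal →
      (∀ x : ↥(chtO A0 {t⁻¹}), (x : ↥(laurentBaseChange K0 (modularFunctionFieldFull (M * q)))) ∈ (va2V1 M q K0 A0).nonunits → x ∈ 𝔫) →
      (∀ x : ↥(chtO A0 {t⁻¹}), (x : ↥(laurentBaseChange K0 (modularFunctionFieldFull (M * q)))) ∈ (va2V2 M q hM K0 A0).nonunits → x ∈ 𝔫) →
      S34Loc τ m (chtO A0 {t⁻¹}) f 𝔫) := by
  classical
  have : CharZero K0 := algebraRat.charZero K0
  have hVG : ∀ x : ↥(laurentBaseChange K0 (modularFunctionFieldFull (M * q))),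
      x ∈ va2V1 M q K0 A0 ↔ (x : LaurentSeries K0) ∈ grV A0 := fun x => Iff.rfl
  obtain ⟨-, hτV, -, htt, -, -, -, hfin, -⟩ :=
    c2i_hyps A0 (M * q) H (va2V1 M q K0 A0) hVG c0 c1 hc t ht τ hτ
  have ht0 : t ≠ 0 := by
    rintro rfl
    exact htt isAlgebraic_zero
  have htA : Transcendental A0 t := fun h =>
    htt (h.extendScalars (IsFractionRing.injective A0 K0))
  have htt' : Transcendental K0 t⁻¹ := fun h => htt (IsAlgebraic.inv_iff.mp h)
  have htA' : Transcendental A0 t⁻¹ := fun h =>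
    htt' (h.extendScalars (IsFractionRing.injective A0 K0))
  have hfin' := cht_hfin_inv (R := A0) t ht0 hfin
  obtain ⟨b0, hb0, hspan0⟩ := cht_h4 t htA hfin
  obtain ⟨b1, hb1, hspan1⟩ := cht_h4 t⁻¹ htA' hfin'
  have hN0 : IsNoetherianRing ↥(chtO A0 {t}) := cz_noeth t _ (cht_h1 t).1 b0 hb0 hspan0
  have hN1 : IsNoetherianRing ↥(chtO A0 {t⁻¹}) := cz_noeth t⁻¹ _ (cht_h1 t).2 b1 hb1 hspan1
  have hwA : ∀ a : A0, va2SwapEquiv M q hq.out hM K0
      (algebraMap A0 ↥(laurentBaseChange K0 (modularFunctionFieldFull (M * q))) a) =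
      algebraMap A0 ↥(laurentBaseChange K0 (modularFunctionFieldFull (M * q))) a :=
    fun a => va2_hwA A0 M q hM a
  refine ⟨?_, ?_⟩
  · intro f hff 𝔫 h𝔫 h1 h2
    have hτ𝔫 : algebraMap A0 ↥(chtO A0 {t}) τ ∈ 𝔫 := h1 _ hτV
    exact lni_node_swap (K0 := K0) hτ t htt hfin m f₀ hf₀ hdiv hratQ
      (va2SwapEquiv M q hq.out hM K0) hwA f hff 𝔫 hτ𝔫 (hgam₀ 𝔫 h𝔫 h1 h2)
  · intro f hff 𝔫 h𝔫 h1 h2
    have hτ𝔫 : algebraMap A0 ↥(chtO A0 {t⁻¹}) τ ∈ 𝔫 := h1 _ hτV
    exact lni_node_swap (K0 := K0) hτ t⁻¹ htt' hfin' m f₀ hf₀ hdiv hratQ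
      (va2SwapEquiv M q hq.out hM K0) hwA f hff 𝔫 hτ𝔫 (hgam₁ 𝔫 h𝔫 h1 h2)

end Field

end Fermat.Agent.S34
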