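import Mathlib
import Fermat.Agent.S34.NodeGlue
import Fermat.Agent.S34.NodePack
import Fermat.Agent.S34.CuspInst
import Fermat.Agent.S34.InsepPack
import Fermat.Agent.S34.LiftInst
import Fermat.Agent.S34.Val2Mem
import Fermat.Agent.S34.Val2Deg
import Fermat.Agent.S34.Val2Inst
import Fermat.Agent.S34.Charts2Inst
import Fermat.Agent.S34.InstMod2

/-!
# S34, NODE-INST-K0: the node statement at the crossing points of the Hauptmodul charts

`K0` a field with an embedding into `ℚ̄`, `A0` a discrete valuation subring of `K0` over `q` with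
finite residue field, `q ∤ M`, `a2 ∣ M` the level of the Hauptmodul record `H`, `E = K0(X₀(M))`,
`F = K0(X₀(M q))` (an `E`-algebra along `heckeAlphaBar`), `t = (h - c1) / (h - c0)` the chart
coordinate, `V₁ = va2V1`, `V₂ = va2V2`.

* `nik_gam`: at a crossing point `𝔫` of the chart `chtO A0 {t}` (a maximal ideal containing the
  traces of `𝔪_{V₁}` and `𝔪_{V₂}`) the node statement `S34Gam (chtO A0 {t}) 𝔫` holds.  This is
  `ngl_main` at the concrete carrier: the chart bundles of both levels, the degree, the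
  integrality and lifting statements, pure inseparability, non-cuspidality of the crossing
  points and the Kronecker congruences are discharged from the landed files; the remaining
  hypotheses are (SM) for the level-`M` chart (`cinstSMChart`), the two branch statements
  `hB₁`, `hB₂` and the local-parameter statement `hunif`, in the shapes of `ngl_main`.
* `nik_imgam`: the same in the shape `S34imGam` consumed by INST-MOD (every chart coordinate,
  every compatible `A0`-algebra structure, every uniformizer).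
-/

set_option autoImplicit false
set_option linter.unusedSectionVars false

noncomputable section

open ModularCurve AlgebraicCurve Polynomial
open Fermat.Agent.S18 Fermat.Agent.S37

namespace Fermat.Agent.S34

local notation "Qb" => AlgebraicClosure ℚ

section Field

variable (M q : ℕ) [NeZero M] [hq : Fact q.Prime] (hM : ¬ q ∣ M)
  (K0 : Type*) [Field K0] [Algebra ℚ K0] [Algebra K0 Qb]
  (A0 : ValuationSubring K0) [IsDiscreteValuationRing ↥A0]
  {a2 : ℕ} (H : HauptRec a2 q)

/-- The node statement at a crossing point of the chart `chtO A0 {t}`. -/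
theorem nik_gam (ha2 : a2 ∣ M)
    [Algebra ↥A0 ↥(laurentBaseChange K0 (modularFunctionFieldFull M))]
    [IsScalarTower ↥A0 K0 ↥(laurentBaseChange K0 (modularFunctionFieldFull M))]
    [Algebra ↥A0 ↥(laurentBaseChange K0 (modularFunctionFieldFull (M * q)))]
    [IsScalarTower ↥A0 K0 ↥(laurentBaseChange K0 (modularFunctionFieldFull (M * q)))]
    [Finite (IsLocalRing.ResidueField ↥A0)]
    (hA0 : A0.LiesOverPrime q)
    (c0 c1 : A0) (hc : IsLocalRing.residue A0 c0 ≠ IsLocalRing.residue A0 c1)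
    (hSM : cinstSMChart K0 A0 M H (c0 : K0) (c1 : K0))
    (t : ↥(laurentBaseChange K0 (modularFunctionFieldFull (M * q))))
    (ht : (t : LaurentSeries K0) = cinstU H K0 (c0 : K0) (c1 : K0))
    (τ : A0) (hτ : Irreducible τ)
    (𝔫 : Ideal ↥(chtO A0 {t})) [h𝔫 : 𝔫.IsMaximal]
    (hc₁ : ∀ x : ↥(chtO A0 {t}),
      (x : ↥(laurentBaseChange K0 (modularFunctionFieldFull (M * q)))) ∈
        (va2V1 M q K0 A0).nonunits → x ∈ 𝔫)
    (hc₂ : ∀ x : ↥(chtO A0 {t}),
      (x : ↥(laurentBaseChange K0 (modularFunctionFieldFull (M * q)))) ∈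
        (va2V2 M q hM K0 A0).nonunits → x ∈ 𝔫)
    -- the two branches [BRANCH-INST]
    (hB₁ : ∀ a : ↥(chtO A0 {t}), a ∈ 𝔫 → ∃ b c : ↥(chtO A0 {t}), c ∉ 𝔫 ∧
      (a : ↥(laurentBaseChange K0 (modularFunctionFieldFull (M * q)))) *
          (c : ↥(laurentBaseChange K0 (modularFunctionFieldFull (M * q)))) -
        (heckeAlphaBar K0 M q (nunH K0 M H ha2) -
          heckeBetaBar K0 M q (nunH K0 M H ha2) ^ q) *
          (b : ↥(laurentBaseChange K0 (modularFunctionFieldFull (M * q))))
        ∈ (va2V1 M q K0 A0).nonunits)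
    (hB₂ : ∀ a : ↥(chtO A0 {t}), a ∈ 𝔫 → ∃ b c : ↥(chtO A0 {t}), c ∉ 𝔫 ∧
      (a : ↥(laurentBaseChange K0 (modularFunctionFieldFull (M * q)))) *
          (c : ↥(laurentBaseChange K0 (modularFunctionFieldFull (M * q)))) -
        (heckeAlphaBar K0 M q (nunH K0 M H ha2) ^ q -
          heckeBetaBar K0 M q (nunH K0 M H ha2)) *
          (b : ↥(laurentBaseChange K0 (modularFunctionFieldFull (M * q))))
        ∈ (va2V2 M q hM K0 A0).nonunits)
    -- the local parameter at the rational points through `𝔫` [NODE-UNIF]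
    (hunif : ∀ (ev : ↥(chtO A0 {t}) →ₐ[↥A0] ↥A0)
      (V : ValuationSubring ↥(laurentBaseChange K0 (modularFunctionFieldFull (M * q)))),
      IsPrincipalIdealRing V → (∀ x ∈ chtO A0 {t}, x ∈ V) →
      (∀ x ∈ V, ∃ s : ↥(chtO A0 {t}), ev s ≠ 0 ∧
        (s : ↥(laurentBaseChange K0 (modularFunctionFieldFull (M * q)))) * x ∈ chtO A0 {t}) →
      (∀ y : ↥(chtO A0 {t}), (y : ↥(laurentBaseChange K0 (modularFunctionFieldFull (M * q)))) -
        algebraMap ↥A0 ↥(laurentBaseChange K0 (modularFunctionFieldFull (M * q))) (ev y)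
          ∈ V.nonunits) →
      (∀ x ∈ 𝔫, ¬ IsUnit (ev x)) →
      ∀ a b : ↥A0,
        heckeAlphaBar K0 M q (nunH K0 M H ha2) -
          algebraMap ↥A0 ↥(laurentBaseChange K0 (modularFunctionFieldFull (M * q))) a
            ∈ V.nonunits →
        heckeBetaBar K0 M q (nunH K0 M H ha2) -
          algebraMap ↥A0 ↥(laurentBaseChange K0 (modularFunctionFieldFull (M * q))) b
            ∈ V.nonunits →
        ∃ s u : ↥(chtO A0 {t}),
          (s : ↥(laurentBaseChange K0 (modularFunctionFieldFull (M * q)))) ∉ V.nonunits ∧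
          (s : ↥(laurentBaseChange K0 (modularFunctionFieldFull (M * q)))) *
            (heckeBetaBar K0 M q (nunH K0 M H ha2) -
              algebraMap ↥A0 ↥(laurentBaseChange K0 (modularFunctionFieldFull (M * q))) b) =
          (heckeAlphaBar K0 M q (nunH K0 M H ha2) -
            algebraMap ↥A0 ↥(laurentBaseChange K0 (modularFunctionFieldFull (M * q))) a) *
              (u : ↥(laurentBaseChange K0 (modularFunctionFieldFull (M * q))))) :
    S34Gam (chtO A0 {t}) 𝔫 := by
  classical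
  have hcz : CharZero K0 := algebraRat.charZero K0
  -- the level-`M` chart coordinate
  obtain ⟨tM, htM⟩ : ∃ tM : ↥(laurentBaseChange K0 (modularFunctionFieldFull M)),
      (tM : LaurentSeries K0) = cinstU H K0 (c0 : K0) (c1 : K0) :=
    ⟨⟨cinstU H K0 (c0 : K0) (c1 : K0), cinstU_mem H K0 ha2 _ _⟩, rfl⟩
  have htt : heckeAlphaBar K0 M q tM = t :=
    Subtype.ext ((coe_heckeAlphaBar M q tM).trans (htM.trans ht.symm))
  -- the chart bundle of level `M`
  obtain ⟨hnoethM, hfracM, hVM, hVτM⟩ := ispk_chartM A0 hA0 M hM H c0 c1 hc tM htM τ hτ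
  -- the chart bundle of level `M q`
  have hVG : ∀ x : ↥(laurentBaseChange K0 (modularFunctionFieldFull (M * q))),
      x ∈ va2V1 M q K0 A0 ↔ (x : LaurentSeries K0) ∈ grV A0 := fun x => Iff.rfl
  obtain ⟨hA, hτV, hτgen, htr, htV, htV', hG, hfin, hconst⟩ :=
    c2i_hyps A0 (M * q) H (va2V1 M q K0 A0) hVG c0 c1 hc t ht τ hτ
  obtain ⟨-, h2, -, ⟨b0, hb0, hspan0⟩, -, -, -, hfrac0, -, -, -, hV0, -, -, -, hred0, -⟩ :=
    c2i_chart A0 (M * q) H (va2V1 M q K0 A0) (va2V2 M q hM K0 A0) hVG c0 c1 hc t ht τ hτ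
      (va2_hA2 A0 M q hM) (va2_htaugen2 A0 M q hM τ hτ) (va2_htV2 A0 M q hM H ha2 c0 c1 t ht)
      (va2_htV2' A0 M q hM H ha2 c0 c1 t ht) (va2_hex A0 M q hM H ha2 hA0 c0 c1 hc t ht) 1 one_pos
  have hN0 : IsNoetherianRing ↥(chtO A0 {t}) := cz_noeth t _ h2 b0 hb0 hspan0
  -- the algebra structure of level `M q` over level `M`
  let algEF : Algebra ↥(laurentBaseChange K0 (modularFunctionFieldFull M))
      ↥(laurentBaseChange K0 (modularFunctionFieldFull (M * q))) :=
    algebraAlong (heckeAlphaBar K0 M q)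
  have tw : IsScalarTower ↥A0 ↥(laurentBaseChange K0 (modularFunctionFieldFull M))
      ↥(laurentBaseChange K0 (modularFunctionFieldFull (M * q))) :=
    IsScalarTower.of_algebraMap_eq fun c => (va2m_alpha_algebraMap M q K0 A0 c).symm
  have hfd : FiniteDimensional ↥(laurentBaseChange K0 (modularFunctionFieldFull M))
      ↥(laurentBaseChange K0 (modularFunctionFieldFull (M * q))) := va2d_finite K0 M hq.out hM
  have hczE : CharZero ↥(laurentBaseChange K0 (modularFunctionFieldFull M)) :=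
    charZero_of_injective_algebraMap
      (algebraMap K0 ↥(laurentBaseChange K0 (modularFunctionFieldFull M))).injective
  have hfr : Module.finrank ↥(laurentBaseChange K0 (modularFunctionFieldFull M))
      ↥(laurentBaseChange K0 (modularFunctionFieldFull (M * q))) = q + 1 :=
    va2d_finrank K0 M hq.out hM
  obtain ⟨Q, hQ, hinsep⟩ := ispk_main_sm M q hM K0 A0 H hA0 c0 c1 hc hSM tM htM t ht
  have hτ𝔫 : algebraMap ↥A0 ↥(chtO A0 {t}) τ ∈ 𝔫 := hc₁ _ hτV
  obtain ⟨-, -, hh, hθ⟩ := cni_crossing M q hM K0 A0 H ha2 hA0 c0 c1 hc t ht 𝔫 hc₁ hc₂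
  obtain ⟨⟨-, -, hk1⟩, ⟨-, -, hk2⟩⟩ := cni_h_kron M q hM K0 A0 H (ha2.mul_right q) hA0
    (va2V1 M q K0 A0) hVG (va2V2 M q hM K0 A0) (fun _ => Iff.rfl)
  have hαh : nunH K0 (M * q) H (ha2.mul_right q) = heckeAlphaBar K0 M q (nunH K0 M H ha2) :=
    (cni_alpha_h M q K0 H (ha2.mul_right q) ha2).symm
  have hβh : va2Swap M q hq.out hM K0 (nunH K0 (M * q) H (ha2.mul_right q)) =
      heckeBetaBar K0 M q (nunH K0 M H ha2) :=
    cni_swap_h M q hM K0 H (ha2.mul_right q) ha2
  rw [hβh] at hθ hk1 hk2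
  rw [hαh] at hh hk1 hk2
  intro ev V hpir hOV hVO hev hloc
  exact ngl_main hτ hq.out.ne_zero hfr (chtO ↥A0 {tM}) (chtO ↥A0 {t})
    (fun x hx => by
      have h1 := va2m_alpha_chtO M q K0 A0 tM x hx
      rw [htt] at h1
      exact h1)
    (fun x hx => cht_integral_closed {tM} hx) hfracM
    (fun x hx => cht_integral_closed {t} hx) hfrac0
    (fun z hz => lfi_hint_abs tM z (by
      have h1 : algebraMap ↥(laurentBaseChange K0 (modularFunctionFieldFull M))
          ↥(laurentBaseChange K0 (modularFunctionFieldFull (M * q))) tM = t := htt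
      rw [h1]
      exact hz))
    𝔫 hτ𝔫 (va2V1 M q K0 A0) (va2V2 M q hM K0 A0) (fun x hx => (hV0 x hx).1)
    (fun x hx => (hV0 x hx).2) hτV hc₁ hc₂
    (fun x h1 h2 => by
      obtain ⟨y, hy, hxy⟩ := hred0 x x.2 h1 h2
      exact ⟨⟨y, hy⟩, Subtype.ext hxy⟩)
    (fun z => lfi_hlift M q hM K0 A0 hA0 H c0 c1 hc tM htM τ hτ (hSM tM htM τ hτ) t ht z z.2)
    Q hQ hinsep (nunH K0 M H ha2) hh (heckeBetaBar K0 M q (nunH K0 M H ha2)) hθ hk1 hk2 hB₁ hB₂
    ev V hOV hVO hev hloc (hunif ev V hpir hOV hVO hev hloc)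

/-- **NODE-INST at the `K0` level**, in the shape `S34imGam` consumed by INST-MOD: the node
statement at the crossing points of the chart `chtO A0 {t}`, `t = (h - c1) / (h - c0)`, from the
two branch statements and the local-parameter statement (each for every chart coordinate `t`,
every compatible `A0`-algebra structure and every uniformizer). -/
theorem nik_imgam (ha2 : a2 ∣ M) [Finite (IsLocalRing.ResidueField ↥A0)]
    (hA0 : A0.LiesOverPrime q)
    (c0 c1 : A0) (hc : IsLocalRing.residue A0 c0 ≠ IsLocalRing.residue A0 c1)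
    (hSM : cinstSMChart K0 A0 M H (c0 : K0) (c1 : K0))
    (hB₁ : ∀ t : ↥(laurentBaseChange K0 (modularFunctionFieldFull (M * q))),
      (t : LaurentSeries K0) = cinstU H K0 (c0 : K0) (c1 : K0) →
      ∀ [Algebra ↥A0 ↥(laurentBaseChange K0 (modularFunctionFieldFull (M * q)))]
        [IsScalarTower ↥A0 K0 ↥(laurentBaseChange K0 (modularFunctionFieldFull (M * q)))]
        (τ : A0), Irreducible τ →
      ∀ 𝔫 : Ideal ↥(chtO A0 {t}), 𝔫.IsMaximal →
      (∀ x : ↥(chtO A0 {t}),
        (x : ↥(laurentBaseChange K0 (modularFunctionFieldFull (M * q)))) ∈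
          (va2V1 M q K0 A0).nonunits → x ∈ 𝔫) →
      (∀ x : ↥(chtO A0 {t}),
        (x : ↥(laurentBaseChange K0 (modularFunctionFieldFull (M * q)))) ∈
          (va2V2 M q hM K0 A0).nonunits → x ∈ 𝔫) →
      ∀ a : ↥(chtO A0 {t}), a ∈ 𝔫 → ∃ b c : ↥(chtO A0 {t}), c ∉ 𝔫 ∧
        (a : ↥(laurentBaseChange K0 (modularFunctionFieldFull (M * q)))) *
            (c : ↥(laurentBaseChange K0 (modularFunctionFieldFull (M * q)))) -
          (heckeAlphaBar K0 M q (nunH K0 M H ha2) -
            heckeBetaBar K0 M q (nunH K0 M H ha2) ^ q) *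
            (b : ↥(laurentBaseChange K0 (modularFunctionFieldFull (M * q))))
          ∈ (va2V1 M q K0 A0).nonunits)
    (hB₂ : ∀ t : ↥(laurentBaseChange K0 (modularFunctionFieldFull (M * q))),
      (t : LaurentSeries K0) = cinstU H K0 (c0 : K0) (c1 : K0) →
      ∀ [Algebra ↥A0 ↥(laurentBaseChange K0 (modularFunctionFieldFull (M * q)))]
        [IsScalarTower ↥A0 K0 ↥(laurentBaseChange K0 (modularFunctionFieldFull (M * q)))]
        (τ : A0), Irreducible τ →
      ∀ 𝔫 : Ideal ↥(chtO A0 {t}), 𝔫.IsMaximal →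
      (∀ x : ↥(chtO A0 {t}),
        (x : ↥(laurentBaseChange K0 (modularFunctionFieldFull (M * q)))) ∈
          (va2V1 M q K0 A0).nonunits → x ∈ 𝔫) →
      (∀ x : ↥(chtO A0 {t}),
        (x : ↥(laurentBaseChange K0 (modularFunctionFieldFull (M * q)))) ∈
          (va2V2 M q hM K0 A0).nonunits → x ∈ 𝔫) →
      ∀ a : ↥(chtO A0 {t}), a ∈ 𝔫 → ∃ b c : ↥(chtO A0 {t}), c ∉ 𝔫 ∧
        (a : ↥(laurentBaseChange K0 (modularFunctionFieldFull (M * q)))) *
            (c : ↥(laurentBaseChange K0 (modularFunctionFieldFull (M * q)))) -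
          (heckeAlphaBar K0 M q (nunH K0 M H ha2) ^ q -
            heckeBetaBar K0 M q (nunH K0 M H ha2)) *
            (b : ↥(laurentBaseChange K0 (modularFunctionFieldFull (M * q))))
          ∈ (va2V2 M q hM K0 A0).nonunits)
    (hunif : ∀ t : ↥(laurentBaseChange K0 (modularFunctionFieldFull (M * q))),
      (t : LaurentSeries K0) = cinstU H K0 (c0 : K0) (c1 : K0) →
      ∀ [Algebra ↥A0 ↥(laurentBaseChange K0 (modularFunctionFieldFull (M * q)))]
        [IsScalarTower ↥A0 K0 ↥(laurentBaseChange K0 (modularFunctionFieldFull (M * q)))]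
        (τ : A0), Irreducible τ →
      ∀ 𝔫 : Ideal ↥(chtO A0 {t}), 𝔫.IsMaximal →
      (∀ x : ↥(chtO A0 {t}),
        (x : ↥(laurentBaseChange K0 (modularFunctionFieldFull (M * q)))) ∈
          (va2V1 M q K0 A0).nonunits → x ∈ 𝔫) →
      (∀ x : ↥(chtO A0 {t}),
        (x : ↥(laurentBaseChange K0 (modularFunctionFieldFull (M * q)))) ∈
          (va2V2 M q hM K0 A0).nonunits → x ∈ 𝔫) →
      ∀ (ev : ↥(chtO A0 {t}) →ₐ[↥A0] ↥A0)
        (V : ValuationSubring ↥(laurentBaseChange K0 (modularFunctionFieldFull (M * q)))),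
        IsPrincipalIdealRing V → (∀ x ∈ chtO A0 {t}, x ∈ V) →
        (∀ x ∈ V, ∃ s : ↥(chtO A0 {t}), ev s ≠ 0 ∧
          (s : ↥(laurentBaseChange K0 (modularFunctionFieldFull (M * q)))) * x ∈ chtO A0 {t}) →
        (∀ y : ↥(chtO A0 {t}),
          (y : ↥(laurentBaseChange K0 (modularFunctionFieldFull (M * q)))) -
            algebraMap ↥A0 ↥(laurentBaseChange K0 (modularFunctionFieldFull (M * q))) (ev y)
              ∈ V.nonunits) →
        (∀ x ∈ 𝔫, ¬ IsUnit (ev x)) →
        ∀ a b : ↥A0,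
          heckeAlphaBar K0 M q (nunH K0 M H ha2) -
            algebraMap ↥A0 ↥(laurentBaseChange K0 (modularFunctionFieldFull (M * q))) a
              ∈ V.nonunits →
          heckeBetaBar K0 M q (nunH K0 M H ha2) -
            algebraMap ↥A0 ↥(laurentBaseChange K0 (modularFunctionFieldFull (M * q))) b
              ∈ V.nonunits →
          ∃ s u : ↥(chtO A0 {t}),
            (s : ↥(laurentBaseChange K0 (modularFunctionFieldFull (M * q)))) ∉ V.nonunits ∧
            (s : ↥(laurentBaseChange K0 (modularFunctionFieldFull (M * q)))) *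
              (heckeBetaBar K0 M q (nunH K0 M H ha2) -
                algebraMap ↥A0 ↥(laurentBaseChange K0 (modularFunctionFieldFull (M * q))) b) =
            (heckeAlphaBar K0 M q (nunH K0 M H ha2) -
              algebraMap ↥A0 ↥(laurentBaseChange K0 (modularFunctionFieldFull (M * q))) a) *
                (u : ↥(laurentBaseChange K0 (modularFunctionFieldFull (M * q))))) :
    S34imGam M q hM K0 A0 H (c0 : K0) (c1 : K0) := by
  intro t ht _ _ τ hτ 𝔫 h𝔫 hc₁ hc₂
  let algE : Algebra ↥A0 ↥(laurentBaseChange K0 (modularFunctionFieldFull M)) :=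
    ((algebraMap K0 ↥(laurentBaseChange K0 (modularFunctionFieldFull M))).comp
      A0.subtype).toAlgebra
  have twE : IsScalarTower ↥A0 K0 ↥(laurentBaseChange K0 (modularFunctionFieldFull M)) :=
    IsScalarTower.of_algebraMap_eq (fun _ => rfl)
  exact nik_gam M q hM K0 A0 H ha2 hA0 c0 c1 hc hSM t ht τ hτ 𝔫 hc₁ hc₂
    (hB₁ t ht τ hτ 𝔫 h𝔫 hc₁ hc₂) (hB₂ t ht τ hτ 𝔫 h𝔫 hc₁ hc₂)
    (hunif t ht τ hτ 𝔫 h𝔫 hc₁ hc₂)

end Field

end Fermat.Agent.S34
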