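import Fermat.Agent.S34.NodeUnifLam
import Fermat.Agent.S34.CuspInst
import Fermat.Agent.S34.LocRing
import Fermat.Agent.S34.Charts2Inst

/-!
# S34, leaf [NODE-UNIF-INST]: the local-parameter hypothesis `hunif` of the node glue at the
concrete carrier

Carrier: level `M q` over `K0`, `A0` a discrete valuation ring of `K0` over `q`, the Hauptmodul
chart `chtO A0 {t}` (`t = cinstU H K0 c0 c1`), the valuation rings `va2V1`, `va2V2`, a crossing
point `𝔫` (a maximal ideal containing the centres of both), and an `A0`-point `ev` of the chart,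
local at `𝔫`, with its principal valuation ring `V` (the data of `S34Gam` / `hgam`).

* `nui_noncusp`: the value `a = h (P) ∈ A0` of the Hauptmodul at the point is non-cuspidal,
  `Qrad (a) ≠ 0` (from `j, h ∈ O_𝔫`, `j Q(h) = P(h)` and the Bezout relation of `P, Q` mod `q`);
* `nui_hunif`: `hunif` of the node glue: for `a, b ∈ A0` with `α h - a, θ - b ∈ 𝔪_V` there are
  `s, u` in the chart, `s` a unit of `V`, with `s (θ - b) = (α h - a) u`.
-/

set_option autoImplicit false
set_option linter.unusedSectionVars false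

noncomputable section

open ModularCurve AlgebraicCurve Polynomial
open Fermat.Agent.S18 Fermat.Agent.S24 Fermat.Agent.S37

namespace Fermat.Agent.S34

local notation "Qb" => AlgebraicClosure ℚ

section Field

variable (M q : ℕ) [NeZero M] [hq : Fact q.Prime] (hM : ¬ q ∣ M)
  (K0 : Type*) [Field K0] [Algebra ℚ K0] [Algebra K0 Qb]
  (A0 : ValuationSubring K0) [IsDiscreteValuationRing ↥A0]
  {a2 : ℕ} (H : HauptRec a2 q)

/-- **The value of the Hauptmodul at a rational point through a crossing point is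
non-cuspidal.** -/
theorem nui_noncusp (ha2 : a2 ∣ M)
    [Algebra A0 ↥(laurentBaseChange K0 (modularFunctionFieldFull (M * q)))]
    [IsScalarTower A0 K0 ↥(laurentBaseChange K0 (modularFunctionFieldFull (M * q)))]
    (hA0 : A0.LiesOverPrime q)
    (c0 c1 : A0) (hc : IsLocalRing.residue A0 c0 ≠ IsLocalRing.residue A0 c1)
    (t : ↥(laurentBaseChange K0 (modularFunctionFieldFull (M * q))))
    (ht : (t : LaurentSeries K0) = cinstU H K0 (c0 : K0) (c1 : K0))
    (𝔫 : Ideal ↥(chtO A0 {t})) [h𝔫 : 𝔫.IsMaximal]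
    (hc₁ : ∀ x : ↥(chtO A0 {t}),
      (x : ↥(laurentBaseChange K0 (modularFunctionFieldFull (M * q)))) ∈
        (va2V1 M q K0 A0).nonunits → x ∈ 𝔫)
    (hc₂ : ∀ x : ↥(chtO A0 {t}),
      (x : ↥(laurentBaseChange K0 (modularFunctionFieldFull (M * q)))) ∈
        (va2V2 M q hM K0 A0).nonunits → x ∈ 𝔫)
    (ev : ↥(chtO A0 {t}) →ₐ[A0] A0)
    (V : ValuationSubring ↥(laurentBaseChange K0 (modularFunctionFieldFull (M * q))))
    (hOV : ∀ x ∈ chtO A0 {t}, x ∈ V)
    (hVO : ∀ x ∈ V, ∃ s : ↥(chtO A0 {t}), ev s ≠ 0 ∧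
      (s : ↥(laurentBaseChange K0 (modularFunctionFieldFull (M * q)))) * x ∈ chtO A0 {t})
    (hev : ∀ y : ↥(chtO A0 {t}),
      (y : ↥(laurentBaseChange K0 (modularFunctionFieldFull (M * q)))) -
        algebraMap A0 ↥(laurentBaseChange K0 (modularFunctionFieldFull (M * q))) (ev y) ∈
          V.nonunits)
    (hloc : ∀ x ∈ 𝔫, ¬ IsUnit (ev x))
    (hconst : ∀ b : A0,
      algebraMap A0 ↥(laurentBaseChange K0 (modularFunctionFieldFull (M * q))) b ∈ V.nonunits →
        b = 0)
    (a : A0)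
    (ha : nunH K0 (M * q) H (ha2.mul_right q) -
      algebraMap A0 ↥(laurentBaseChange K0 (modularFunctionFieldFull (M * q))) a ∈ V.nonunits) :
    aeval a H.Qrad ≠ 0 := by
  have : 𝔫.IsPrime := h𝔫.isPrime
  obtain ⟨evΛ, -, -, h3, -, -⟩ := ndr_ev (chtO A0 {t}) 𝔫 ev V hOV hVO hev hloc
  obtain ⟨hJ, -, hh, -⟩ := cni_crossing M q hM K0 A0 H ha2 hA0 c0 c1 hc t ht 𝔫 hc₁ hc₂
  -- `j` and `h` as elements of the local ring
  set JΛ : ↥(ndrLoc (chtO A0 {t}) 𝔫) := ⟨va2Jd K0 (M * q) 1 (one_dvd _), hJ⟩ with hJΛ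
  set hΛ : ↥(ndrLoc (chtO A0 {t}) 𝔫) := ⟨nunH K0 (M * q) H (ha2.mul_right q), hh⟩ with hhΛ
  have hcoe : ∀ p : ℤ[X], ((aeval hΛ p : ↥(ndrLoc (chtO A0 {t}) 𝔫)) :
      ↥(laurentBaseChange K0 (modularFunctionFieldFull (M * q)))) =
      aeval (nunH K0 (M * q) H (ha2.mul_right q)) p := fun p =>
    cni_map_aeval ((ndrLoc (chtO A0 {t}) 𝔫).val :
      ↥(ndrLoc (chtO A0 {t}) 𝔫) →+* ↥(laurentBaseChange K0 (modularFunctionFieldFull (M * q))))
      hΛ p
  have hrel : JΛ * aeval hΛ H.Q = aeval hΛ H.P := by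
    apply Subtype.ext
    rw [Subalgebra.coe_mul, hcoe, hcoe]
    exact cni_rel K0 (M * q) H (ha2.mul_right q)
  -- evaluate at the point
  have hrelA : evΛ JΛ * aeval (evΛ hΛ) H.Q = aeval (evΛ hΛ) H.P := by
    have h1 := congrArg evΛ hrel
    rw [map_mul] at h1
    have h2 : ∀ p : ℤ[X], evΛ (aeval hΛ p) = aeval (evΛ hΛ) p := fun p =>
      cni_map_aeval (evΛ : ↥(ndrLoc (chtO A0 {t}) 𝔫) →+* A0) hΛ p
    rw [h2, h2] at h1
    exact h1
  -- the value of `h` is `a`
  have hval : evΛ hΛ = a := by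
    have h1 := h3 hΛ
    have h2 : algebraMap A0 ↥(laurentBaseChange K0 (modularFunctionFieldFull (M * q)))
        (evΛ hΛ - a) ∈ V.nonunits := by
      have h4 : algebraMap A0 ↥(laurentBaseChange K0 (modularFunctionFieldFull (M * q)))
          (evΛ hΛ - a) =
          (nunH K0 (M * q) H (ha2.mul_right q) -
            algebraMap A0 ↥(laurentBaseChange K0 (modularFunctionFieldFull (M * q))) a) +
          -((hΛ : ↥(laurentBaseChange K0 (modularFunctionFieldFull (M * q)))) -
            algebraMap A0 ↥(laurentBaseChange K0 (modularFunctionFieldFull (M * q)))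
              (evΛ hΛ)) := by
        rw [map_sub]
        have : (hΛ : ↥(laurentBaseChange K0 (modularFunctionFieldFull (M * q)))) =
          nunH K0 (M * q) H (ha2.mul_right q) := rfl
        rw [this]
        ring
      rw [h4]
      exact V.nonunits.add_mem ha (V.nonunits.neg_mem h1)
    exact sub_eq_zero.mp (hconst _ h2)
  rw [hval] at hrelA
  -- the Bezout relation
  intro h0
  obtain ⟨U, W', W, hUV⟩ := cni_bezout H
  obtain ⟨D, hD⟩ := H.Qrad_dvd
  have hQ0 : aeval a H.Q = 0 := by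
    rw [hD, map_mul, h0, zero_mul]
  have hP0 : aeval a H.P = 0 := by
    rw [← hrelA, hQ0, mul_zero]
  have h5 := congrArg (aeval a) hUV
  rw [map_add, map_mul, map_mul, hP0, hQ0, mul_zero, mul_zero, add_zero, map_add, map_one,
    map_mul, aeval_C] at h5
  -- `q` is a non-unit of `A0`
  have hqA : ((q : ℕ) : K0) ∈ A0.nonunits := hA0
  rw [ValuationSubring.mem_nonunits_iff_or] at hqA
  have h6 : (1 : K0) + (q : K0) * ((aeval a W : A0) : K0) = 0 := by
    have h7 : ((0 : A0) : K0) = ((1 + algebraMap ℤ ↥A0 (q : ℤ) * aeval a W : A0) : K0) :=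
      congrArg (fun x : A0 => (x : K0)) h5
    rw [eq_intCast] at h7
    push_cast at h7
    exact h7.symm
  rcases hqA with hq0 | hqinv
  · rw [hq0, zero_mul, add_zero] at h6
    exact one_ne_zero h6
  · apply hqinv
    have hq0 : ((q : ℕ) : K0) ≠ 0 := by
      intro hq0
      rw [hq0, zero_mul, add_zero] at h6
      exact one_ne_zero h6
    have h8 : ((q : ℕ) : K0)⁻¹ = -((aeval a W : A0) : K0) := by
      apply inv_eq_of_mul_eq_one_right
      linear_combination -h6
    rw [h8]
    exact A0.neg_mem _ (aeval a W : A0).2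

/-- **[NODE-UNIF-INST]** = the hypothesis `hunif` of the node glue at the concrete carrier.
For a rational point `ev` (with its principal valuation ring `V`) through a crossing point `𝔫`
of the chart `chtO A0 {t}`: if `α h - a` and `θ - b` vanish at the point (`a, b ∈ A0`), then
`s * (θ - b) = (α h - a) * u` with `s, u` in the chart, `s` a unit of `V`. -/
theorem nui_hunif (ha2 : a2 ∣ M)
    [Algebra A0 ↥(laurentBaseChange K0 (modularFunctionFieldFull (M * q)))]
    [IsScalarTower A0 K0 ↥(laurentBaseChange K0 (modularFunctionFieldFull (M * q)))]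
    (hA0 : A0.LiesOverPrime q)
    (c0 c1 : A0) (hc : IsLocalRing.residue A0 c0 ≠ IsLocalRing.residue A0 c1)
    (t : ↥(laurentBaseChange K0 (modularFunctionFieldFull (M * q))))
    (ht : (t : LaurentSeries K0) = cinstU H K0 (c0 : K0) (c1 : K0))
    (τ : A0) (hτ : Irreducible τ)
    (𝔫 : Ideal ↥(chtO A0 {t})) [h𝔫 : 𝔫.IsMaximal]
    (hc₁ : ∀ x : ↥(chtO A0 {t}),
      (x : ↥(laurentBaseChange K0 (modularFunctionFieldFull (M * q)))) ∈
        (va2V1 M q K0 A0).nonunits → x ∈ 𝔫)
    (hc₂ : ∀ x : ↥(chtO A0 {t}),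
      (x : ↥(laurentBaseChange K0 (modularFunctionFieldFull (M * q)))) ∈
        (va2V2 M q hM K0 A0).nonunits → x ∈ 𝔫)
    (ev : ↥(chtO A0 {t}) →ₐ[A0] A0)
    (V : ValuationSubring ↥(laurentBaseChange K0 (modularFunctionFieldFull (M * q))))
    (hpir : IsPrincipalIdealRing V)
    (hOV : ∀ x ∈ chtO A0 {t}, x ∈ V)
    (hVO : ∀ x ∈ V, ∃ s : ↥(chtO A0 {t}), ev s ≠ 0 ∧
      (s : ↥(laurentBaseChange K0 (modularFunctionFieldFull (M * q)))) * x ∈ chtO A0 {t})
    (hev : ∀ y : ↥(chtO A0 {t}),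
      (y : ↥(laurentBaseChange K0 (modularFunctionFieldFull (M * q)))) -
        algebraMap A0 ↥(laurentBaseChange K0 (modularFunctionFieldFull (M * q))) (ev y) ∈
          V.nonunits)
    (hloc : ∀ x ∈ 𝔫, ¬ IsUnit (ev x))
    (θ : ↥(laurentBaseChange K0 (modularFunctionFieldFull (M * q)))) :
    ∀ a b : A0,
      heckeAlphaBar K0 M q (nunH K0 M H ha2) -
        algebraMap A0 ↥(laurentBaseChange K0 (modularFunctionFieldFull (M * q))) a ∈
          V.nonunits →
      θ - algebraMap A0 ↥(laurentBaseChange K0 (modularFunctionFieldFull (M * q))) b ∈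
          V.nonunits →
      ∃ s u : ↥(chtO A0 {t}),
        (s : ↥(laurentBaseChange K0 (modularFunctionFieldFull (M * q)))) ∉ V.nonunits ∧
        (s : ↥(laurentBaseChange K0 (modularFunctionFieldFull (M * q)))) *
            (θ - algebraMap A0 ↥(laurentBaseChange K0 (modularFunctionFieldFull (M * q))) b) =
          (heckeAlphaBar K0 M q (nunH K0 M H ha2) -
            algebraMap A0 ↥(laurentBaseChange K0 (modularFunctionFieldFull (M * q))) a) *
              (u : ↥(laurentBaseChange K0 (modularFunctionFieldFull (M * q)))) := by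
  intro a b ha hb
  have _cz : CharZero K0 := algebraRat.charZero K0
  rw [cni_alpha_h M q K0 H (ha2.mul_right q) ha2] at ha ⊢
  -- transcendence and finiteness of the chart coordinate
  obtain ⟨-, -, -, htt, -, -, -, hfin, -⟩ :=
    c2i_hyps A0 (M * q) H (va2V1 M q K0 A0) (fun _ => Iff.rfl) c0 c1 hc t ht τ hτ
  -- the chart coordinate is not a constant
  have hy0 : ((⟨t, (cht_h1 t).1⟩ : ↥(chtO A0 {t})) :
      ↥(laurentBaseChange K0 (modularFunctionFieldFull (M * q)))) ≠
      algebraMap A0 ↥(laurentBaseChange K0 (modularFunctionFieldFull (M * q)))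
        (ev ⟨t, (cht_h1 t).1⟩) := by
    intro h0
    apply htt
    have h1 : t = algebraMap K0 ↥(laurentBaseChange K0 (modularFunctionFieldFull (M * q)))
        (algebraMap A0 K0 (ev ⟨t, (cht_h1 t).1⟩)) := by
      rw [← IsScalarTower.algebraMap_apply]
      exact h0
    rw [h1]
    exact isAlgebraic_algebraMap _
  -- `V` is a place
  obtain ⟨P, rfl⟩ := nul_place (K0 := K0) hτ (chtO A0 {t}) ev V hpir
    (fun y => ⟨hOV y y.2, hev y⟩) hVO _ hy0
  -- constants of `A0` in the maximal ideal vanish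
  have hconst : ∀ b : A0,
      algebraMap A0 ↥(laurentBaseChange K0 (modularFunctionFieldFull (M * q))) b ∈
        P.toValuationSubring.nonunits → b = 0 := by
    intro b hb
    by_contra hb0
    rw [ValuationSubring.mem_nonunits_iff_or] at hb
    have hbK : algebraMap A0 K0 b ≠ 0 :=
      (map_ne_zero_iff _ (IsFractionRing.injective A0 K0)).mpr hb0
    rcases hb with hb | hb
    · rw [IsScalarTower.algebraMap_apply A0 K0] at hb
      exact hbK ((map_eq_zero _).mp hb)
    · apply hb
      rw [IsScalarTower.algebraMap_apply A0 K0, ← map_inv₀]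
      exact P.algebraMap_mem' _
  -- the value is non-cuspidal
  have hnc : aeval a H.Qrad ≠ 0 :=
    nui_noncusp M q hM K0 A0 H ha2 hA0 c0 c1 hc t ht 𝔫 hc₁ hc₂ ev P.toValuationSubring
      hOV hVO hev hloc hconst a ha
  have hc' : aeval (algebraMap A0 K0 a) H.Qrad ≠ 0 := by
    rw [aeval_algebraMap_apply]
    exact (map_ne_zero_iff _ (IsFractionRing.injective A0 K0)).mpr hnc
  have hcP : nunH K0 (M * q) H (ha2.mul_right q) -
      algebraMap K0 ↥(laurentBaseChange K0 (modularFunctionFieldFull (M * q)))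
        (algebraMap A0 K0 a) ∈ P.toValuationSubring.nonunits := by
    rw [← IsScalarTower.algebraMap_apply]
    exact ha
  obtain ⟨s, u, hs, hsu⟩ := nun_unif K0 (M * q) H (ha2.mul_right q) hτ t htt hfin P hOV
    (algebraMap A0 K0 a) hc' hcP _ hb
  refine ⟨s, u, hs, ?_⟩
  rw [hsu, ← IsScalarTower.algebraMap_apply]

end Field


end Fermat.Agent.S34
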