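import Mathlib
import Fermat.Agent.S34.DomAbs

/-!
# S34, seam adapter for the branch statements

`unr_seam_hB`: the conclusion of the abstract branch statement (`bra_main`, in the
`dmaLoc` / `dmaMax` language: `∀ z ∈ 𝔫 O_𝔫, ∃ b ∈ O_𝔫, z - x * b ∈ 𝔪_V`) gives the chart form
consumed by the node glue (`hB₁` / `hB₂`):
`∀ a ∈ 𝔫, ∃ b c ∈ O, c ∉ 𝔫 ∧ a * c - x * b ∈ 𝔪_V`.

`unr_seam_hB'`: the converse.
-/

set_option autoImplicit false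

namespace Fermat.Agent.S34

section UnrSeam

variable {A F : Type*} [CommRing A] [Field F] [Algebra A F]

theorem unr_seam_hB (O : Subalgebra A F) (𝔫 : Ideal ↥O) [𝔫.IsPrime] (V : ValuationSubring F)
    (hOV : ∀ x ∈ O, x ∈ V) (x : F)
    (hbra : ∀ z ∈ dmaMax O 𝔫, ∃ b : F, b ∈ dmaLoc O 𝔫 ∧ z - x * b ∈ V.nonunits)
    (a : ↥O) (ha : a ∈ 𝔫) :
    ∃ b c : ↥O, c ∉ 𝔫 ∧ (a : F) * (c : F) - x * (b : F) ∈ V.nonunits := by
  have h1 : (1 : ↥O) ∉ 𝔫 := fun h =>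
    (Ideal.IsPrime.ne_top ‹𝔫.IsPrime›) ((Ideal.eq_top_iff_one 𝔫).mpr h)
  have haM : (a : F) ∈ dmaMax O 𝔫 :=
    (mem_dmaMax O 𝔫).mpr ⟨a, 1, ha, h1, by rw [OneMemClass.coe_one, mul_one]⟩
  obtain ⟨b', hb', hz⟩ := hbra (a : F) haM
  obtain ⟨b0, s, hs, hbs⟩ := (mem_dmaLoc O 𝔫).mp hb'
  refine ⟨b0, s, hs, ?_⟩
  have h2 : (a : F) * (s : F) - x * (b0 : F) = ((a : F) - x * b') * (s : F) := by
    rw [← hbs]; ring
  rw [h2, ValuationSubring.mem_nonunits_iff, map_mul]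
  exact mul_lt_one_of_lt_of_le ((ValuationSubring.mem_nonunits_iff _).mp hz)
    ((V.valuation_le_one_iff _).mpr (hOV _ s.2))

theorem unr_seam_hB' (O : Subalgebra A F) (𝔫 : Ideal ↥O) [𝔫.IsPrime] (V : ValuationSubring F)
    (hOV : ∀ x ∈ O, x ∈ V) (hV𝔫 : ∀ x : ↥O, (x : F) ∈ V.nonunits → x ∈ 𝔫) (x : F)
    (hB : ∀ a : ↥O, a ∈ 𝔫 → ∃ b c : ↥O, c ∉ 𝔫 ∧ (a : F) * (c : F) - x * (b : F) ∈ V.nonunits)
    (z : F) (hz : z ∈ dmaMax O 𝔫) :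
    ∃ b : F, b ∈ dmaLoc O 𝔫 ∧ z - x * b ∈ V.nonunits := by
  obtain ⟨a, s, ha, hs, hzs⟩ := (mem_dmaMax O 𝔫).mp hz
  obtain ⟨b, c, hc, hbc⟩ := hB a ha
  have hsF : (s : F) ≠ 0 := fun h => hs (by
    have : s = 0 := Subtype.ext h
    rw [this]; exact 𝔫.zero_mem)
  have hcF : (c : F) ≠ 0 := fun h => hc (by
    have : c = 0 := Subtype.ext h
    rw [this]; exact 𝔫.zero_mem)
  have hinv : ∀ u : ↥O, u ∉ 𝔫 → (u : F)⁻¹ ∈ V := by
    intro u hu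
    have hu' : (u : F) ∉ V.nonunits := fun h => hu (hV𝔫 u h)
    rw [ValuationSubring.mem_nonunits_iff, not_lt] at hu'
    have h1 : V.valuation (u : F) = 1 :=
      le_antisymm ((V.valuation_le_one_iff _).mpr (hOV _ u.2)) hu'
    rw [← V.valuation_le_one_iff, map_inv₀, h1, inv_one]
  refine ⟨(b : F) * ((s : F) * (c : F))⁻¹, (mem_dmaLoc O 𝔫).mpr ⟨b, s * c, fun h =>
    (Ideal.IsPrime.mem_or_mem ‹𝔫.IsPrime› h).elim hs hc, ?_⟩, ?_⟩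
  · show (b : F) * ((s : F) * (c : F))⁻¹ * ((s : F) * (c : F)) = (b : F)
    field_simp
  · have h2 : z - x * ((b : F) * ((s : F) * (c : F))⁻¹) =
        ((a : F) * (c : F) - x * (b : F)) * ((s : F)⁻¹ * (c : F)⁻¹) := by
      rw [← hzs]
      field_simp
    rw [h2, ValuationSubring.mem_nonunits_iff, map_mul]
    exact mul_lt_one_of_lt_of_le ((ValuationSubring.mem_nonunits_iff _).mp hbc)
      ((V.valuation_le_one_iff _).mpr (V.mul_mem _ _ (hinv s hs) (hinv c hc)))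

end UnrSeam

end Fermat.Agent.S34
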