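import Mathlib
import Fermat.Agent.S34.InstComp
import Fermat.Agent.S34.NodeInstK0
import Fermat.Agent.S34.NodeUnifInst
import Fermat.Agent.S34.BranchInst
import Fermat.Agent.S34.BranchInst2
import Fermat.Agent.S34.UnramSeam
import Fermat.Agent.S34.CuspInst
import Fermat.Agent.S34.NodeChart

/-!
# S34, package INST-MOD, final part (InstFinal): the core statement

* `s34if_branch`: the two branch statements `hB₁`, `hB₂` of `nik_imgam` at a crossing point of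
  a chart, from `bri_main`, `brj_node_J` (with `cni_crossing`, `dmi_dom_aux`, `unr_seam_hB`).
* `s34if_gam`: the contract `S34imGam` (NODE) over a generic field of definition
  (`nik_imgam`, `nui_hunif`).
* `s34im_final`: for a prime `q ∤ M0`, a Hauptmodul record of level `a2 ∣ M0`, a valuation
  subring `A` of `ℚ̄` over `q`, `σ` in its inertia group and `m ≠ 0` prime to `q`: the
  hypothesis `hcore` of `s34h_main` at the level `M0 q`.
-/

set_option autoImplicit false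
set_option linter.unusedSectionVars false

noncomputable section

open ModularCurve AlgebraicCurve Polynomial
open Fermat.Agent.S18 Fermat.Agent.S37

namespace Fermat.Agent.S34

local notation "Qb" => AlgebraicClosure ℚ

section Field

variable (M q : ℕ) [NeZero M] [hq : Fact q.Prime] (hM : ¬ q ∣ M)
  (K0 : Type*) [Field K0] [Algebra ℚ K0] [Algebra K0 Qb]
  (A0 : ValuationSubring K0) [IsDiscreteValuationRing ↥A0]
  {a2 : ℕ} (H : HauptRec a2 q)

/-- the two branch statements at a crossing point of the chart `chtO A0 {t}` -/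
theorem s34if_branch (ha2 : a2 ∣ M) (hA0 : A0.LiesOverPrime q) (c0 c1 : A0)
    (hc : IsLocalRing.residue ↥A0 c0 ≠ IsLocalRing.residue ↥A0 c1)
    (hQ0 : smi2U A0 (aeval (c0 : K0) H.Qrad))
    (hSM0 : cinstSMChart K0 A0 M H (c0 : K0) (c1 : K0))
    (hSM1 : cinstSMChart K0 A0 M H (c1 : K0) (c0 : K0))
    (hu0 : unrChart K0 A0 M H c0 c1) (hu1 : unrChart K0 A0 M H c1 c0)
    (t : ↥(laurentBaseChange K0 (modularFunctionFieldFull (M * q))))
    (ht : (t : LaurentSeries K0) = cinstU H K0 (c0 : K0) (c1 : K0))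
    [Algebra ↥A0 ↥(laurentBaseChange K0 (modularFunctionFieldFull (M * q)))]
    [IsScalarTower ↥A0 K0 ↥(laurentBaseChange K0 (modularFunctionFieldFull (M * q)))]
    (τ : A0) (hτ : Irreducible τ)
    (𝔫 : Ideal ↥(chtO A0 {t})) (h𝔫 : 𝔫.IsMaximal)
    (hc₁ : ∀ x : ↥(chtO A0 {t}),
      (x : ↥(laurentBaseChange K0 (modularFunctionFieldFull (M * q)))) ∈
        (va2V1 M q K0 A0).nonunits → x ∈ 𝔫)
    (hc₂ : ∀ x : ↥(chtO A0 {t}),
      (x : ↥(laurentBaseChange K0 (modularFunctionFieldFull (M * q)))) ∈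
        (va2V2 M q hM K0 A0).nonunits → x ∈ 𝔫) :
    (∀ a : ↥(chtO A0 {t}), a ∈ 𝔫 → ∃ b c : ↥(chtO A0 {t}), c ∉ 𝔫 ∧
        (a : ↥(laurentBaseChange K0 (modularFunctionFieldFull (M * q)))) *
            (c : ↥(laurentBaseChange K0 (modularFunctionFieldFull (M * q)))) -
          (heckeAlphaBar K0 M q (nunH K0 M H ha2) -
            heckeBetaBar K0 M q (nunH K0 M H ha2) ^ q) *
            (b : ↥(laurentBaseChange K0 (modularFunctionFieldFull (M * q))))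
          ∈ (va2V1 M q K0 A0).nonunits) ∧
    (∀ a : ↥(chtO A0 {t}), a ∈ 𝔫 → ∃ b c : ↥(chtO A0 {t}), c ∉ 𝔫 ∧
        (a : ↥(laurentBaseChange K0 (modularFunctionFieldFull (M * q)))) *
            (c : ↥(laurentBaseChange K0 (modularFunctionFieldFull (M * q)))) -
          (heckeAlphaBar K0 M q (nunH K0 M H ha2) ^ q -
            heckeBetaBar K0 M q (nunH K0 M H ha2)) *
            (b : ↥(laurentBaseChange K0 (modularFunctionFieldFull (M * q))))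
          ∈ (va2V2 M q hM K0 A0).nonunits) := by
  classical
  have := h𝔫.isPrime
  -- the level-`M` chart
  let algE : Algebra ↥A0 ↥(laurentBaseChange K0 (modularFunctionFieldFull M)) :=
    ((algebraMap K0 ↥(laurentBaseChange K0 (modularFunctionFieldFull M))).comp
      A0.subtype).toAlgebra
  have towE : IsScalarTower ↥A0 K0 ↥(laurentBaseChange K0 (modularFunctionFieldFull M)) :=
    IsScalarTower.of_algebraMap_eq (fun _ => rfl)
  let tM : ↥(laurentBaseChange K0 (modularFunctionFieldFull M)) :=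
    ⟨cinstU H K0 (c0 : K0) (c1 : K0), cinstU_mem H K0 ha2 _ _⟩
  have htM : (tM : LaurentSeries K0) = cinstU H K0 (c0 : K0) (c1 : K0) := rfl
  have htM' : ((tM⁻¹ : ↥(laurentBaseChange K0 (modularFunctionFieldFull M))) :
      LaurentSeries K0) = cinstU H K0 (c1 : K0) (c0 : K0) := by
    rw [IntermediateField.coe_inv, htM, cinstU_inv]
  have hD0 : IsDedekindDomain (↥(chtO A0 {tM}) ⧸
      Ideal.span {algebraMap A0 ↥(chtO A0 {tM}) τ}) := hSM0 tM htM τ hτ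
  have hD1 : IsDedekindDomain (↥(chtO A0 {tM⁻¹}) ⧸
      Ideal.span {algebraMap A0 ↥(chtO A0 {tM⁻¹}) τ}) := hSM1 tM⁻¹ htM' τ hτ
  -- the chart of level `M q`
  have hO₁ : ∀ x ∈ chtO A0 {t}, x ∈ va2V1 M q K0 A0 := fun x hx =>
    nch_O1 M q K0 A0 H c0 c1 hc t ht x hx
  have hO₂ : ∀ x ∈ chtO A0 {t}, x ∈ va2V2 M q hM K0 A0 := fun x hx =>
    nch_O2 M q hM K0 A0 H ha2 hA0 c0 c1 hc t ht x hx
  have hint : ∀ x : ↥(laurentBaseChange K0 (modularFunctionFieldFull (M * q))),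
      IsIntegral ↥(chtO A0 {t}) x → x ∈ chtO A0 {t} := fun x hx => cht_integral_closed {t} hx
  have hτ𝔫 : algebraMap A0 ↥(chtO A0 {t}) τ ∈ 𝔫 :=
    nch_tau_mem M q K0 A0 H c0 c1 hc t ht τ hτ 𝔫 hc₁
  have hJ := (cni_crossing M q hM K0 A0 H ha2 hA0 c0 c1 hc t ht 𝔫 hc₁ hc₂).1
  -- domination
  have hc' : smi2U A0 ((c0 : K0) - (c1 : K0)) := by
    have h : IsLocalRing.residue A0 (c0 - c1) ≠ 0 := by
      rw [map_sub, sub_ne_zero]
      exact hc
    exact smi2U_of_residue_ne_zero h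
  have hdom := dmi_dom_aux A0 M q hq.out hM H ha2 hA0 c0 c1 hc'.2.2 (sub_ne_zero.mp hc'.2.1)
    (smi2_Q_unit H A0 c0.2 hQ0).2.2 (smi2_Q_unit H A0 c0.2 hQ0).2.1 t ht τ hτ 𝔫 h𝔫.isPrime hτ𝔫
  -- the dictionary
  have e1 : heckeAlphaBar K0 M q (nunH K0 M H ha2) = dmiH K0 (M * q) H (ha2.mul_right q) :=
    cni_alpha_h M q K0 H (ha2.mul_right q) ha2
  have e2 : heckeBetaBar K0 M q (nunH K0 M H ha2) =
      va2Swap M q hq.out hM K0 (dmiH K0 (M * q) H (ha2.mul_right q)) :=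
    (cni_swap_h M q hM K0 H (ha2.mul_right q) ha2).symm
  rw [e1, e2]
  refine ⟨fun a ha => ?_, fun a ha => ?_⟩
  · exact unr_seam_hB (chtO A0 {t}) 𝔫 (va2V1 M q K0 A0) hO₁ _
      (fun z hz => bri_main M q hM K0 A0 hA0 H ha2 c0 c1 hc hu0 tM htM t ht τ hτ hD0 𝔫 hc₁ hc₂
        hJ z hz) a ha
  · exact unr_seam_hB (chtO A0 {t}) 𝔫 (va2V2 M q hM K0 A0) hO₂ _
      (fun z hz => brj_node_J M q hM K0 A0 hA0 H ha2 τ hτ c0 c1 hc tM htM hu0 hu1 t ht
        (chtO A0 {t}) hint hO₁ hO₂ 𝔫 hc₁ hc₂ hJ hdom z hz) a ha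

/-- the contract (NODE) over a generic field of definition -/
theorem s34if_gam (ha2 : a2 ∣ M) [Finite (IsLocalRing.ResidueField ↥A0)]
    (hA0 : A0.LiesOverPrime q) (c0 c1 : A0)
    (hc : IsLocalRing.residue ↥A0 c0 ≠ IsLocalRing.residue ↥A0 c1)
    (hQ0 : smi2U A0 (aeval (c0 : K0) H.Qrad))
    (hSM0 : cinstSMChart K0 A0 M H (c0 : K0) (c1 : K0))
    (hSM1 : cinstSMChart K0 A0 M H (c1 : K0) (c0 : K0))
    (hu0 : unrChart K0 A0 M H c0 c1) (hu1 : unrChart K0 A0 M H c1 c0) :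
    S34imGam M q hM K0 A0 H (c0 : K0) (c1 : K0) := by
  refine nik_imgam M q hM K0 A0 H ha2 hA0 c0 c1 hc hSM0 ?_ ?_ ?_
  · intro t ht _ _ τ hτ 𝔫 h𝔫 hc₁ hc₂
    exact (s34if_branch M q hM K0 A0 H ha2 hA0 c0 c1 hc hQ0 hSM0 hSM1 hu0 hu1 t ht τ hτ 𝔫 h𝔫
      hc₁ hc₂).1
  · intro t ht _ _ τ hτ 𝔫 h𝔫 hc₁ hc₂
    exact (s34if_branch M q hM K0 A0 H ha2 hA0 c0 c1 hc hQ0 hSM0 hSM1 hu0 hu1 t ht τ hτ 𝔫 h𝔫
      hc₁ hc₂).2
  · intro t ht _ _ τ hτ 𝔫 h𝔫 hc₁ hc₂ ev V hpir hOV hVO hev hloc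
    have := h𝔫
    exact nui_hunif M q hM K0 A0 H ha2 hA0 c0 c1 hc t ht τ hτ 𝔫 hc₁ hc₂ ev V hpir hOV hVO hev
      hloc _

end Field

/-- **INST-MOD, final form**: the hypothesis `hcore` of `s34h_main` at the level `M0 q`. -/
theorem s34im_final (M0 q : ℕ) [NeZero M0] [hq : Fact q.Prime] (hqM : ¬ q ∣ M0) {a2 : ℕ}
    (Hr : HauptRec a2 q) (ha2 : a2 ∣ M0) (A : ValuationSubring Qb) (hA : A.LiesOverPrime q)
    (σ : Qb ≃ₐ[ℚ] Qb) (hσ : σ ∈ A.inertiaSubgroupIn ℚ) (m : ℕ) (hm : m ≠ 0)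
    (hmq : m.Coprime q) :
    ∃ T : Finset Qb, ∀ (K1 : IntermediateField ℚ Qb) [FiniteDimensional ℚ K1] [Normal ℚ K1],
      (∀ c ∈ T, c ∈ K1) → S34hCore K1 σ (M0 * q) m :=
  s34if_reduce_gam M0 q hqM Hr ha2 A hA σ hσ m hm hmq
    (fun K0 _ _ _ A0 _ _ hA0 c0 c1 hc hQ0 _ hSM0 hSM1 hu0 hu1 =>
      s34if_gam M0 q hqM K0 A0 Hr ha2 hA0 c0 c1 hc hQ0 hSM0 hSM1 hu0 hu1)

end Fermat.Agent.S34
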