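import Mathlib
import Fermat.Prelude.Def_CuspForm_HeckeGaloisRepDatum
import Fermat.Prelude.Def_GaloisRep_LocalConditions
import Fermat.Agent.S31.TraceInst
import Fermat.Agent.S37.LevelUp
import Fermat.Agent.S30.TorsLevel

/-!
# S34, package TRANSFER: unipotent inertia from the torsion of `J₀(N)`

`s34t_main`: in a Hecke–Galois datum of level `N`, the Galois representation is unipotent on
inertia at a prime `q ≠ p` as soon as, for some fixed `d ≠ 0`,

  `d • (σ - 1)² = 0` on `J₀(N)[p ^ n]` for every `n` and every `σ` in an inertia group at `q`.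

(The trace argument of S31: `σ` agrees with a power `τ ^ b` of a Frobenius element on a finite
level, `V_b(T_ℓ, ℓ) = σ + σ⁻¹` on the torsion, so the noncommutative polynomial
`d (V_b(x_ℓ, ℓ) - 2)` in the Hecke operators kills the torsion and the Hecke transfer gives
`d (trace ρ(σ) - 2) ∈ 𝔪_T ^ n` for all `n`.  The determinant comes from the same statement for
`σ²` and `trace (M²) = (trace M)² - 2 det M`.)
-/

set_option autoImplicit false

open ModularCurve AlgebraicCurve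

namespace Fermat.Agent.S34

open Fermat.Agent.S29 Fermat.Agent.S30 Fermat.Agent.S31 Polynomial

local notation "Qb" => AlgebraicClosure ℚ

/-- The characteristic polynomial of an endomorphism of a free module of rank two. -/
theorem s34t_charpoly {T : Type*} [CommRing T] {V : Type*} [AddCommGroup V] [Module T V]
    [Module.Free T V] [Module.Finite T V] (hV : Module.finrank T V = 2) (M : Module.End T V) :
    LinearMap.charpoly M = X ^ 2 - C (LinearMap.trace T V M) * X + C (LinearMap.det M) := by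
  nontriviality T
  let b := Module.finBasisOfFinrankEq T V hV
  rw [← LinearMap.charpoly_toMatrix M b, Matrix.charpoly_fin_two,
    ← LinearMap.trace_eq_matrix_trace T b M, LinearMap.det_toMatrix b M]

/-- **Abstract trace argument for a unipotent element.** -/
theorem s34t_abs {G : Type*} [Group G] {T : Type*} [CommRing T] (𝔞 : Ideal T) {V : Type*}
    [AddCommGroup V] [Module T V] [Module.Free T V] [Module.Finite T V]
    (hV : Module.finrank T V = 2) (ρ : G →* Module.End T V) {E : Type*} [Ring E] (ρJ : G →* E)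
    {I : Type*} (t : I → T) (θ : I → E) (ℓ : I → ℕ) (σ : G)
    (hD : ∃ (τ : G) (i : I) (m : ℕ),
      LinearMap.charpoly (ρ τ) = X ^ 2 - C (t i) * X + C ((ℓ i : ℕ) : T) ∧
      ρJ τ * ρJ τ - θ i * ρJ τ + ((ℓ i : ℕ) : E) = 0 ∧ θ i * ρJ τ = ρJ τ * θ i ∧
      LinearMap.trace T V (ρ (τ ^ m)) - LinearMap.trace T V (ρ σ) ∈ 𝔞 ∧ ρJ (τ ^ m) = ρJ σ ∧
      ((ℓ i : ℕ) : E) ^ m = 1)
    (hR : ∀ P : FreeAlgebra ℤ I, FreeAlgebra.lift ℤ θ P = 0 → FreeAlgebra.lift ℤ t P ∈ 𝔞)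
    (d : ℕ) (hu : (d : E) * (ρJ σ * ρJ σ - (ρJ σ + ρJ σ) + 1) = 0) :
    (d : T) * (LinearMap.trace T V (ρ σ) - 2) ∈ 𝔞 := by
  obtain ⟨τ, i, m, hcp, hrel, hcomm, htr, hJ, hε⟩ := hD
  have e1 : LinearMap.trace T V (ρ (τ ^ m)) = lucV (t i) ((ℓ i : ℕ) : T) m :=
    luc_trace_rep hV ρ τ _ _ hcp m
  have e2 := luc_rep ρJ τ (θ i) ((ℓ i : ℕ) : E) hrel hcomm (Nat.cast_commute (ℓ i) _).eq m
  rw [hJ, tra_inv_eq ρJ (τ ^ m) σ hJ, hε, one_mul] at e2
  have hinv : ρJ σ⁻¹ * ρJ σ = 1 := by rw [← map_mul, inv_mul_cancel, map_one]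
  have h2 : lucV (θ i) ((ℓ i : ℕ) : E) m - 2 = ρJ σ⁻¹ * (ρJ σ * ρJ σ - (ρJ σ + ρJ σ) + 1) := by
    rw [← e2, mul_add, mul_sub, mul_add, ← mul_assoc, hinv, one_mul, mul_one,
      ← one_add_one_eq_two]
    abel
  have h3 : (d : E) * (lucV (θ i) ((ℓ i : ℕ) : E) m - 2) = 0 := by
    rw [h2, ← mul_assoc, (Nat.cast_commute d (ρJ σ⁻¹)).eq, mul_assoc, hu, mul_zero]
  have hP : FreeAlgebra.lift ℤ θ ((d : FreeAlgebra ℤ I) *
      (lucV (FreeAlgebra.ι ℤ i) ((ℓ i : ℕ) : FreeAlgebra ℤ I) m - 2)) = 0 := by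
    rw [map_mul, map_natCast, map_sub, luc_lift_natCast, map_ofNat]
    exact h3
  have h4 := hR _ hP
  rw [map_mul, map_natCast, map_sub, luc_lift_natCast, map_ofNat, ← e1] at h4
  have h5 : (d : T) * (LinearMap.trace T V (ρ σ) - 2) =
      (d : T) * (LinearMap.trace T V (ρ (τ ^ m)) - 2) -
        (d : T) * (LinearMap.trace T V (ρ (τ ^ m)) - LinearMap.trace T V (ρ σ)) := by
    ring
  rw [h5]
  exact 𝔞.sub_mem h4 (𝔞.mul_mem_left _ htr)

/-- A free module over a domain of characteristic zero has no `ℤ`-torsion. -/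
theorem s34t_torsion_free (𝒪 : Type*) [CommRing 𝒪] [IsDomain 𝒪] [CharZero 𝒪] {T : Type*}
    [CommRing T] [Algebra 𝒪 T] [Module.Free 𝒪 T] (d : ℕ) (hd : d ≠ 0) (x : T)
    (h : (d : T) * x = 0) : x = 0 := by
  have h1 : (d : 𝒪) • x = 0 := by
    rw [Nat.cast_smul_eq_nsmul, nsmul_eq_mul]
    exact h
  rcases smul_eq_zero.mp h1 with h2 | h2
  · exact absurd h2 (Nat.cast_ne_zero.mpr hd)
  · exact h2

section main

variable {p : ℕ} {N : ℕ} [NeZero N] {S : Finset ℕ}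
  {𝒪 : Type} [CommRing 𝒪] [IsDomain 𝒪] [IsDiscreteValuationRing 𝒪]
  [IsAdicComplete (IsLocalRing.maximalIdeal 𝒪) 𝒪] [CharZero 𝒪]
  {θ : CuspForm.heckeAlgebra N 2 (↑S : Set ℕ) →+* IsLocalRing.ResidueField 𝒪}
  {T : Type} [CommRing T] [IsLocalRing T] [IsNoetherianRing T]
  [IsAdicComplete (IsLocalRing.maximalIdeal T) T] [Algebra 𝒪 T] [IsLocalHom (algebraMap 𝒪 T)]
  [Module.Finite 𝒪 T] [Module.Free 𝒪 T]

/-- **The trace of a unipotent inertia element is `2`.** -/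
theorem s34t_trace (hp : p.Prime) (hp𝒪 : (p : 𝒪) ∈ IsLocalRing.maximalIdeal 𝒪) (_hpS : p ∈ S)
    (hNS : ∀ q : ℕ, q.Prime → q ∣ N → q ∈ S)
    (H : CuspForm.HeckeGaloisRepDatum N (↑S : Set ℕ) 𝒪 θ T) (hcmp : TrcCmp N p)
    (q : ℕ) (hq : q.Prime) (hqp : q ≠ p) (d : ℕ) (hd : d ≠ 0)
    (A : ValuationSubring Qb) (hA : A.LiesOverPrime q)
    (σ : Qb ≃ₐ[ℚ] Qb) (hσ : σ ∈ A.inertiaSubgroupIn ℚ)
    (hunip : ∀ (n : ℕ) (x : JZero N), p ^ n • x = 0 →
      d • (σ • σ • x - (σ • x + σ • x) + x) = 0) :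
    LinearMap.trace T H.ρ.V (H.ρ.ρ σ) = 2 := by
  have : Fact p.Prime := ⟨hp⟩
  have hpT : (p : T) ∈ IsLocalRing.maximalIdeal T := by
    have h := map_nonunit (algebraMap 𝒪 T) (p : 𝒪) hp𝒪
    rwa [map_natCast] at h
  have key : (d : T) * (LinearMap.trace T H.ρ.V (H.ρ.ρ σ) - 2) = 0 := by
    apply tra_eq_of_local
    intro n
    rw [sub_zero]
    obtain ⟨v, hv⟩ := hres_final N (↑S : Set ℕ) p
    obtain ⟨hfin, Φ, hΦS, hΦT⟩ := hcmp (n + v)
    have := hfin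
    have : NeZero (p ^ (n + v)) := ⟨pow_ne_zero _ hp.ne_zero⟩
    obtain ⟨L₀, hL₀, htr⟩ := trc_trace_congr H.ρ n
    have := hL₀
    refine s34t_abs (IsLocalRing.maximalIdeal T ^ n) H.ρ.finrank_eq H.ρ.ρ
      (trcRhoJ N (p ^ (n + v)))
      (fun l : HresIdx N (↑S : Set ℕ) => H.π (CuspForm.heckeAlgebra.T l.2.1 l.2.2.1 l.2.2.2))
      (trcTheta N (p ^ (n + v)) (↑S : Set ℕ)) (fun l => l.1) σ ?_ ?_ d ?_
    · -- density
      obtain ⟨ℓ, hℓ, hℓS, hℓp, A', hA', τ, hτ, b, hb, hJ, hε⟩ :=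
        trc_density N p (n + v) L₀ S σ
      have hℓN : ¬ ℓ ∣ N := fun h => hℓS (hNS ℓ hℓ h)
      have hℓS' : ℓ ∉ (↑S : Set ℕ) := fun h => hℓS (Finset.mem_coe.mp h)
      have hℓm : ¬ ℓ ∣ N * p ^ (n + v) := trc_not_dvd hp hℓ hℓN hℓp _
      refine ⟨τ, ⟨ℓ, hℓ, hℓN, hℓS'⟩, b, H.charpoly_frob ℓ hℓ hℓN hℓS' A' hA' τ hτ,
        trc_frob_rel N _ _ ⟨ℓ, hℓ, hℓN, hℓS'⟩ hℓm A' hA' τ hτ,
        trc_comm N _ _ ⟨ℓ, hℓ, hℓN, hℓS'⟩ hℓm τ, htr _ _ hb, ?_, ?_⟩
      · exact LinearMap.ext fun x => LinearMap.congr_fun hJ x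
      · rw [trcEps_inertia p (n + v) q hq hqp A hA σ hσ] at hε
        rw [trc_natCast_pow N _ ℓ b _ hε]
        unfold trcScal
        rw [trc_natCast_eq N (p ^ (n + v)) (1 : ZMod (p ^ (n + v))).val 1
          (by rw [ZMod.natCast_zmod_val, Nat.cast_one]), Nat.cast_one]
    · -- HECKERES
      intro P hP
      obtain ⟨Q, hQ⟩ := hv (n + v) (Nat.le_add_left v n) (TrcX N (p ^ (n + v)))
        (trcTheta N (p ^ (n + v)) (↑S : Set ℕ)) Φ
        (fun l c => hΦT l.1 l.2.1 l.2.2.1 c) hΦS P (fun c => LinearMap.congr_fun hP c)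
      have e1 := trc_lift_comp H.π
        (fun l : HresIdx N (↑S : Set ℕ) => CuspForm.heckeAlgebra.T l.2.1 l.2.2.1 l.2.2.2) P
      have e2 : FreeAlgebra.lift ℤ
          (fun l : HresIdx N (↑S : Set ℕ) => CuspForm.heckeAlgebra.T l.2.1 l.2.2.1 l.2.2.2) P
          = hresT N (↑S : Set ℕ) P := rfl
      rw [e1, e2, hQ, Nat.add_sub_cancel, map_zsmul, zsmul_eq_mul]
      refine Ideal.mul_mem_right _ _ ?_
      push_cast
      exact Ideal.pow_mem_pow hpT n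
    · -- the unipotency hypothesis on the torsion
      refine LinearMap.ext fun x => Subtype.ext ?_
      have hx : p ^ (n + v) • (x : JZero N) = 0 := by
        have h := Pic0.mem_torsion.mp x.2
        rwa [natCast_zsmul] at h
      have h := hunip (n + v) (x : JZero N) hx
      simp only [Module.End.mul_apply, LinearMap.add_apply, LinearMap.sub_apply,
        Module.End.one_apply, Module.End.natCast_apply, LinearMap.zero_apply,
        trcRhoJ_apply, AddSubgroup.coe_nsmul, AddSubgroup.coe_add, AddSubgroup.coe_sub,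
        JZero.coe_torsionGaloisRep_apply, ZeroMemClass.coe_zero]
      exact h
  have h2 := s34t_torsion_free 𝒪 d hd _ key
  exact sub_eq_zero.mp h2

/-- **S34 from the unipotency of inertia on the torsion of `J₀(N)`.** -/
theorem s34t_main (hp : p.Prime) (hp𝒪 : (p : 𝒪) ∈ IsLocalRing.maximalIdeal 𝒪) (hpS : p ∈ S)
    (hNS : ∀ q : ℕ, q.Prime → q ∣ N → q ∈ S)
    (H : CuspForm.HeckeGaloisRepDatum N (↑S : Set ℕ) 𝒪 θ T) (hcmp : TrcCmp N p)
    (q : ℕ) (hq : q.Prime) (hqp : q ≠ p) (d : ℕ) (hd : d ≠ 0)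
    (hunip : ∀ (n : ℕ) (A : ValuationSubring Qb), A.LiesOverPrime q →
      ∀ σ ∈ A.inertiaSubgroupIn ℚ, ∀ x : JZero N, p ^ n • x = 0 →
        d • (σ • σ • x - (σ • x + σ • x) + x) = 0) :
    H.ρ.IsUnipotentOnInertiaAt q := by
  intro A hA σ hσ
  have h1 := s34t_trace hp hp𝒪 hpS hNS H hcmp q hq hqp d hd A hA σ hσ
    (fun n x hx => hunip n A hA σ hσ x hx)
  have h2 := s34t_trace hp hp𝒪 hpS hNS H hcmp q hq hqp d hd A hA (σ * σ)
    (mul_mem hσ hσ) (fun n x hx => hunip n A hA (σ * σ) (mul_mem hσ hσ) x hx)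
  have hcp := s34t_charpoly H.ρ.finrank_eq (H.ρ.ρ σ)
  have h3 := luc_trace_rep H.ρ.finrank_eq H.ρ.ρ σ _ _ hcp 2
  rw [pow_two, h2, h1] at h3
  have h4 : (2 : T) * (LinearMap.det (H.ρ.ρ σ) - 1) = 0 := by
    have e : lucV (2 : T) (LinearMap.det (H.ρ.ρ σ)) 2 = 2 * 2 - LinearMap.det (H.ρ.ρ σ) * 2 := rfl
    rw [e] at h3
    linear_combination h3
  have h5 : LinearMap.det (H.ρ.ρ σ) = 1 := by
    have h4' : ((2 : ℕ) : T) * (LinearMap.det (H.ρ.ρ σ) - 1) = 0 := by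
      rw [Nat.cast_ofNat]
      exact h4
    have h6 := s34t_torsion_free 𝒪 2 two_ne_zero _ h4'
    exact sub_eq_zero.mp h6
  rw [hcp, h1, h5, map_one, map_ofNat]
  ring

end main

/-! ### Descent from an auxiliary level -/

/-- **Descent.**  The unipotency statement on the torsion of `J₀(a ^ k * N)` (`a` prime) implies
the one on the torsion of `J₀(N)`: the pull-back `J₀(N) → J₀(a ^ k * N)` is Galois-equivariant
and injective on torsion. -/
theorem s34t_descent (N a k : ℕ) [NeZero N] (ha : a.Prime) (p : ℕ) (hp : p ≠ 0) (d : ℕ)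
    (σ : Qb ≃ₐ[ℚ] Qb)
    (h' : ∀ (n : ℕ) (y : JZero (a ^ k * N)), p ^ n • y = 0 →
      d • (σ • σ • y - (σ • y + σ • y) + y) = 0)
    (n : ℕ) (x : JZero N) (hx : p ^ n • x = 0) :
    d • (σ • σ • x - (σ • x + σ • x) + x) = 0 := by
  have : NeZero (a ^ k * N) := ⟨Nat.mul_ne_zero (pow_ne_zero k ha.ne_zero) (NeZero.ne N)⟩
  have hdvd : N ∣ a ^ k * N := dvd_mul_left N (a ^ k)
  have hσ0 : σ • (0 : JZero N) = 0 :=
    map_zero (DistribSMul.toAddMonoidHom (JZero N) σ)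
  have hσx : p ^ n • (σ • x) = 0 := by
    rw [← tlv_galois_nsmul, hx, hσ0]
  have hσσx : p ^ n • (σ • σ • x) = 0 := by
    rw [← tlv_galois_nsmul, hσx, hσ0]
  refine Fermat.Agent.S37.lvl_injective_torsion N (a ^ k * N) hdvd
    (Fermat.Agent.S37.lvl_num N a k (NeZero.pos N) ha) _ (p ^ n) (pow_ne_zero n hp) ?_ ?_
  · have h0 : p ^ n • (σ • σ • x - (σ • x + σ • x) + x) = 0 := by
      rw [nsmul_add, nsmul_sub, nsmul_add, hσσx, hσx, hx, add_zero, add_zero, sub_zero]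
    rw [smul_comm, h0, nsmul_zero]
  · have hy : p ^ n • Fermat.Agent.S37.lvlPullback N (a ^ k * N) hdvd x = 0 := by
      rw [← map_nsmul, hx, map_zero]
    have h := h' n _ hy
    rw [map_nsmul, map_add, map_sub, map_add, Fermat.Agent.S37.lvl_smul,
      Fermat.Agent.S37.lvl_smul]
    exact h

end Fermat.Agent.S34
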