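import Mathlib
import Fermat.Agent.S34.CuspInst

/-!
# S34, work package CUSP-GLUE, part 3: the `h`-hypotheses of the node glue

The four hypotheses `hh`, `hθ`, `hk₁`, `hk₂` of `ngl_main` (S34/NodeGlue.lean) at the concrete
carrier, with `h := nunH K0 M H ha2` the Hauptmodul at level `M`, `algebraMap E F h` spelled as
`heckeAlphaBar K0 M q h` (this is what it unfolds to under
`letI := algebraAlong (heckeAlphaBar K0 M q)`) and `θ := heckeBetaBar K0 M q h`:

* `cnd_hh`, `cnd_htheta`: `α h` and `β h` lie in the local ring of the chart at a crossing point;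
* `cnd_hk1`, `cnd_hk2`: `(α h) ^ q - β h ∈ 𝔪_{V₁}`, `α h - (β h) ^ q ∈ 𝔪_{V₂}`.
-/

set_option autoImplicit false
set_option linter.unusedSectionVars false

noncomputable section

open ModularCurve AlgebraicCurve Polynomial
open Fermat.Agent.S18 Fermat.Agent.S28

namespace Fermat.Agent.S34

local notation "Qb" => AlgebraicClosure ℚ

section Main

variable (M q : ℕ) [NeZero M] [hq : Fact q.Prime] (hM : ¬ q ∣ M)
  (K0 : Type*) [Field K0] [Algebra ℚ K0] [Algebra K0 Qb]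
  (A0 : ValuationSubring K0) [IsDiscreteValuationRing ↥A0]
  {a2 : ℕ} (H : HauptRec a2 q)

/-- `hh` of `ngl_main`: the Hauptmodul lies in the local ring at a crossing point -/
theorem cnd_hh (ha2 : a2 ∣ M)
    [Algebra A0 ↥(laurentBaseChange K0 (modularFunctionFieldFull (M * q)))]
    [IsScalarTower A0 K0 ↥(laurentBaseChange K0 (modularFunctionFieldFull (M * q)))]
    (hA0 : A0.LiesOverPrime q)
    (c0 c1 : A0) (hc : IsLocalRing.residue A0 c0 ≠ IsLocalRing.residue A0 c1)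
    (t : ↥(laurentBaseChange K0 (modularFunctionFieldFull (M * q))))
    (ht : (t : LaurentSeries K0) = cinstU H K0 (c0 : K0) (c1 : K0))
    (𝔫 : Ideal ↥(chtO A0 {t})) [𝔫.IsPrime]
    (hc₁ : ∀ x : ↥(chtO A0 {t}),
      (x : ↥(laurentBaseChange K0 (modularFunctionFieldFull (M * q)))) ∈
        (va2V1 M q K0 A0).nonunits → x ∈ 𝔫)
    (hc₂ : ∀ x : ↥(chtO A0 {t}),
      (x : ↥(laurentBaseChange K0 (modularFunctionFieldFull (M * q)))) ∈
        (va2V2 M q hM K0 A0).nonunits → x ∈ 𝔫) :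
    ∃ a s : ↥(chtO A0 {t}), s ∉ 𝔫 ∧ heckeAlphaBar K0 M q (nunH K0 M H ha2) *
      (s : ↥(laurentBaseChange K0 (modularFunctionFieldFull (M * q)))) =
        (a : ↥(laurentBaseChange K0 (modularFunctionFieldFull (M * q)))) := by
  rw [cni_alpha_h M q K0 H (ha2.mul_right q) ha2]
  exact (cni_crossing M q hM K0 A0 H ha2 hA0 c0 c1 hc t ht 𝔫 hc₁ hc₂).2.2.1

/-- `hθ` of `ngl_main`: the swapped Hauptmodul `θ = β h` lies in the local ring at a crossing
point -/
theorem cnd_htheta (ha2 : a2 ∣ M)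
    [Algebra A0 ↥(laurentBaseChange K0 (modularFunctionFieldFull (M * q)))]
    [IsScalarTower A0 K0 ↥(laurentBaseChange K0 (modularFunctionFieldFull (M * q)))]
    (hA0 : A0.LiesOverPrime q)
    (c0 c1 : A0) (hc : IsLocalRing.residue A0 c0 ≠ IsLocalRing.residue A0 c1)
    (t : ↥(laurentBaseChange K0 (modularFunctionFieldFull (M * q))))
    (ht : (t : LaurentSeries K0) = cinstU H K0 (c0 : K0) (c1 : K0))
    (𝔫 : Ideal ↥(chtO A0 {t})) [𝔫.IsPrime]
    (hc₁ : ∀ x : ↥(chtO A0 {t}),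
      (x : ↥(laurentBaseChange K0 (modularFunctionFieldFull (M * q)))) ∈
        (va2V1 M q K0 A0).nonunits → x ∈ 𝔫)
    (hc₂ : ∀ x : ↥(chtO A0 {t}),
      (x : ↥(laurentBaseChange K0 (modularFunctionFieldFull (M * q)))) ∈
        (va2V2 M q hM K0 A0).nonunits → x ∈ 𝔫) :
    ∃ a s : ↥(chtO A0 {t}), s ∉ 𝔫 ∧ heckeBetaBar K0 M q (nunH K0 M H ha2) *
      (s : ↥(laurentBaseChange K0 (modularFunctionFieldFull (M * q)))) =
        (a : ↥(laurentBaseChange K0 (modularFunctionFieldFull (M * q)))) := by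
  rw [← cni_swap_h M q hM K0 H (ha2.mul_right q) ha2]
  exact (cni_crossing M q hM K0 A0 H ha2 hA0 c0 c1 hc t ht 𝔫 hc₁ hc₂).2.2.2

include hM in
/-- `hk₁` of `ngl_main`: Kronecker's congruence for the Hauptmodul in `V₁` -/
theorem cnd_hk1 (ha2 : a2 ∣ M) (hA0 : A0.LiesOverPrime q) :
    heckeAlphaBar K0 M q (nunH K0 M H ha2) ^ q - heckeBetaBar K0 M q (nunH K0 M H ha2)
      ∈ (va2V1 M q K0 A0).nonunits := by
  rw [cni_alpha_h M q K0 H (ha2.mul_right q) ha2, ← cni_swap_h M q hM K0 H (ha2.mul_right q) ha2]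
  exact (cni_h_kron M q hM K0 A0 H (ha2.mul_right q) hA0 (va2V1 M q K0 A0) (fun _ => Iff.rfl)
    (va2V2 M q hM K0 A0) (fun _ => Iff.rfl)).1.2.2

/-- `hk₂` of `ngl_main`: Kronecker's congruence for the Hauptmodul in `V₂` -/
theorem cnd_hk2 (ha2 : a2 ∣ M) (hA0 : A0.LiesOverPrime q) :
    heckeAlphaBar K0 M q (nunH K0 M H ha2) - heckeBetaBar K0 M q (nunH K0 M H ha2) ^ q
      ∈ (va2V2 M q hM K0 A0).nonunits := by
  rw [cni_alpha_h M q K0 H (ha2.mul_right q) ha2, ← cni_swap_h M q hM K0 H (ha2.mul_right q) ha2]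
  exact (cni_h_kron M q hM K0 A0 H (ha2.mul_right q) hA0 (va2V1 M q K0 A0) (fun _ => Iff.rfl)
    (va2V2 M q hM K0 A0) (fun _ => Iff.rfl)).2.2.2

end Main

end Fermat.Agent.S34
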