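import Mathlib
import Fermat.Agent.S34.BranchInst
import Fermat.Agent.S34.CuspNode
import Fermat.Agent.S34.UnramSeam
import Fermat.Agent.S18.CoreInstFinal

/-!
# S34, package BRANCH-INST (branch 1), seam to the node glue

`brs_hB1`: the hypothesis `hB₁` of `ngl_main` VERBATIM at the `K0` carrier
(`A := A0`, `E`, `F` the function fields of level `M`, `M q` over `K0`,
`algebraMap E F = heckeAlphaBar K0 M q`, `O := chtO A0 {t}`, `V₁ := va2V1 M q K0 A0`,
`h := nunH K0 M H ha2`, `θ := heckeBetaBar K0 M q h`), for a general admissible pair of base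
points `(c0, c1)` (so the second chart `t⁻¹` is the same theorem at `(c1, c0, t⁻¹)`):

`∀ a ∈ 𝔫, ∃ b c ∈ O, c ∉ 𝔫 ∧ a * c - (α h - θ ^ q) * b ∈ 𝔪_{V₁}`

at every prime `𝔫` of the chart satisfying the two crossing hypotheses.  Inputs: `bri_main`
(BRANCH-INST), `cni_crossing` (crossing points are not cuspidal), `unr_seam_hB`, the Dedekind
special fibre of the level-`M` chart (`cinstSMChart`) and `unrChart` (D-UNRAM).
-/

set_option autoImplicit false
set_option linter.unusedSectionVars false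

noncomputable section

open AlgebraicCurve ModularCurve Polynomial
open Fermat.Agent.S18 Fermat.Agent.S28 Fermat.Agent.S37

namespace Fermat.Agent.S34

local notation "Qb" => AlgebraicClosure ℚ

section Seam

variable (M q : ℕ) [NeZero M] [hq : Fact q.Prime] (hM : ¬ q ∣ M)
  (K0 : Type*) [Field K0] [Algebra ℚ K0] [Algebra K0 Qb]
  (A0 : ValuationSubring K0) [IsDiscreteValuationRing ↥A0]

set_option quotPrecheck false in
local notation "FM" => ↥(laurentBaseChange K0 (modularFunctionFieldFull M))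

set_option quotPrecheck false in
local notation "FMq" => ↥(laurentBaseChange K0 (modularFunctionFieldFull (M * q)))

/-- the uniformiser of the first branch in the two spellings -/
theorem brs_y_eq {a2 : ℕ} (H : HauptRec a2 q) (ha2 : a2 ∣ M) :
    heckeAlphaBar K0 M q (nunH K0 M H ha2) - heckeBetaBar K0 M q (nunH K0 M H ha2) ^ q
      = dmiH K0 (M * q) H (ha2.mul_right q) -
          va2Swap M q hq.out hM K0 (dmiH K0 (M * q) H (ha2.mul_right q)) ^ q := by
  have h1 : heckeAlphaBar K0 M q (nunH K0 M H ha2) = dmiH K0 (M * q) H (ha2.mul_right q) :=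
    Subtype.ext (by
      rw [coe_heckeAlphaBar]
      rfl)
  rw [← h1, va2Swap_alpha]

/-- **`hB₁` of `ngl_main`, `K0` carrier** (one chart, general admissible base points). -/
theorem brs_hB1 (hA0 : A0.LiesOverPrime q) {a2 : ℕ} (H : HauptRec a2 q) (ha2 : a2 ∣ M)
    [Algebra A0 FM] [IsScalarTower A0 K0 FM] [Algebra A0 FMq] [IsScalarTower A0 K0 FMq]
    (c0 c1 : A0) (hc : IsLocalRing.residue A0 c0 ≠ IsLocalRing.residue A0 c1)
    (hSM : cinstSMChart K0 A0 M H (c0 : K0) (c1 : K0))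
    (huc : unrChart K0 A0 M H c0 c1)
    (tM : FM) (htM : (tM : LaurentSeries K0) = cinstU H K0 (c0 : K0) (c1 : K0))
    (t : FMq) (ht : (t : LaurentSeries K0) = cinstU H K0 (c0 : K0) (c1 : K0))
    (τ : A0) (hτ : Irreducible τ)
    (𝔫 : Ideal ↥(chtO A0 {t})) [𝔫.IsPrime]
    (hc₁ : ∀ x : ↥(chtO A0 {t}), (x : FMq) ∈ (va2V1 M q K0 A0).nonunits → x ∈ 𝔫)
    (hc₂ : ∀ x : ↥(chtO A0 {t}), (x : FMq) ∈ (va2V2 M q hM K0 A0).nonunits → x ∈ 𝔫) :
    ∀ a : ↥(chtO A0 {t}), a ∈ 𝔫 → ∃ b c : ↥(chtO A0 {t}), c ∉ 𝔫 ∧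
      (a : FMq) * (c : FMq) -
        (heckeAlphaBar K0 M q (nunH K0 M H ha2) - heckeBetaBar K0 M q (nunH K0 M H ha2) ^ q) *
          (b : FMq) ∈ (va2V1 M q K0 A0).nonunits := by
  intro a ha
  have hJ : va2Jd K0 (M * q) 1 (one_dvd _) ∈ dmaLoc (chtO A0 {t}) 𝔫 :=
    (cni_crossing M q hM K0 A0 H ha2 hA0 c0 c1 hc t ht 𝔫 hc₁ hc₂).1
  have hD : IsDedekindDomain (↥(chtO A0 {tM}) ⧸ Ideal.span {algebraMap A0 ↥(chtO A0 {tM}) τ}) :=
    hSM tM htM τ hτ
  have hVG : ∀ x : FMq, x ∈ va2V1 M q K0 A0 ↔ (x : LaurentSeries K0) ∈ grV A0 :=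
    fun x => Iff.rfl
  obtain ⟨hA, -, -, -, htV, -, -, -, -⟩ :=
    c2i_hyps A0 (M * q) H (va2V1 M q K0 A0) hVG c0 c1 hc t ht τ hτ
  have hO₁ : ∀ x ∈ chtO A0 {t}, x ∈ va2V1 M q K0 A0 := fun x hx =>
    cht_le_valuationSubring (va2V1 M q K0 A0) hA
      (fun y hy => by rw [Set.mem_singleton_iff.mp hy]; exact htV) hx
  rw [brs_y_eq M q hM K0 H ha2]
  exact unr_seam_hB (chtO A0 {t}) 𝔫 (va2V1 M q K0 A0) hO₁ _
    (fun z hz => bri_main M q hM K0 A0 hA0 H ha2 c0 c1 hc huc tM htM t ht τ hτ hD 𝔫 hc₁ hc₂ hJ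
      z hz) a ha

end Seam

end Fermat.Agent.S34
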