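import Mathlib
import Fermat.Agent.S34.BranchSeam

/-!
# S34, package BRANCH-INST (branch 1): the `hB₁` input of the node instantiation

`brs_hB1_gam`: the hypothesis `hB₁` of `nik_imgam` (S34/NodeInstK0) VERBATIM -- for every chart
coordinate `t` of level `M q` with expansion `cinstU H K0 c0 c1`, every compatible
`A0`-algebra structure on the level-`M q` function field, every uniformiser `τ` and every
maximal ideal `𝔫` of the chart satisfying the two crossing hypotheses:

`∀ a ∈ 𝔫, ∃ b c ∈ chtO A0 {t}, c ∉ 𝔫 ∧ a * c - (α h - (β h) ^ q) * b ∈ 𝔪_{V₁}`.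

Inputs: the Dedekind special fibre of the level-`M` chart (`cinstSMChart`) and `unrChart` for
the same base points.  The `A0`-algebra structure of the level-`M` function field is built
inside.
-/

set_option autoImplicit false
set_option linter.unusedSectionVars false

noncomputable section

open AlgebraicCurve ModularCurve Polynomial
open Fermat.Agent.S18 Fermat.Agent.S28 Fermat.Agent.S37

namespace Fermat.Agent.S34

local notation "Qb" => AlgebraicClosure ℚ

section Node1

variable (M q : ℕ) [NeZero M] [hq : Fact q.Prime] (hM : ¬ q ∣ M)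
  (K0 : Type*) [Field K0] [Algebra ℚ K0] [Algebra K0 Qb]
  (A0 : ValuationSubring K0) [IsDiscreteValuationRing ↥A0]
  {a2 : ℕ} (H : HauptRec a2 q)

/-- **`hB₁` of `nik_imgam`, verbatim.** -/
theorem brs_hB1_gam (ha2 : a2 ∣ M) (hA0 : A0.LiesOverPrime q)
    (c0 c1 : A0) (hc : IsLocalRing.residue A0 c0 ≠ IsLocalRing.residue A0 c1)
    (hSM : cinstSMChart K0 A0 M H (c0 : K0) (c1 : K0))
    (huc : unrChart K0 A0 M H c0 c1) :
    ∀ t : ↥(laurentBaseChange K0 (modularFunctionFieldFull (M * q))),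
      (t : LaurentSeries K0) = cinstU H K0 (c0 : K0) (c1 : K0) →
      ∀ [Algebra ↥A0 ↥(laurentBaseChange K0 (modularFunctionFieldFull (M * q)))]
        [IsScalarTower ↥A0 K0 ↥(laurentBaseChange K0 (modularFunctionFieldFull (M * q)))]
        (τ : A0), Irreducible τ →
      ∀ 𝔫 : Ideal ↥(chtO A0 {t}), 𝔫.IsMaximal →
      (∀ x : ↥(chtO A0 {t}),
        (x : ↥(laurentBaseChange K0 (modularFunctionFieldFull (M * q)))) ∈
          (va2V1 M q K0 A0).nonunits → x ∈ 𝔫) →
      (∀ x : ↥(chtO A0 {t}),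
        (x : ↥(laurentBaseChange K0 (modularFunctionFieldFull (M * q)))) ∈
          (va2V2 M q hM K0 A0).nonunits → x ∈ 𝔫) →
      ∀ a : ↥(chtO A0 {t}), a ∈ 𝔫 → ∃ b c : ↥(chtO A0 {t}), c ∉ 𝔫 ∧
        (a : ↥(laurentBaseChange K0 (modularFunctionFieldFull (M * q)))) *
            (c : ↥(laurentBaseChange K0 (modularFunctionFieldFull (M * q)))) -
          (heckeAlphaBar K0 M q (nunH K0 M H ha2) -
            heckeBetaBar K0 M q (nunH K0 M H ha2) ^ q) *
            (b : ↥(laurentBaseChange K0 (modularFunctionFieldFull (M * q))))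
          ∈ (va2V1 M q K0 A0).nonunits := by
  intro t ht _ _ τ hτ 𝔫 h𝔫 hc₁ hc₂
  have hprime : 𝔫.IsPrime := h𝔫.isPrime
  let algE : Algebra ↥A0 ↥(laurentBaseChange K0 (modularFunctionFieldFull M)) :=
    ((algebraMap K0 ↥(laurentBaseChange K0 (modularFunctionFieldFull M))).comp
      A0.subtype).toAlgebra
  have twE : IsScalarTower ↥A0 K0 ↥(laurentBaseChange K0 (modularFunctionFieldFull M)) :=
    IsScalarTower.of_algebraMap_eq (fun _ => rfl)
  exact brs_hB1 M q hM K0 A0 hA0 H ha2 c0 c1 hc hSM huc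
    ⟨cinstU H K0 (c0 : K0) (c1 : K0), cinstU_mem H K0 ha2 (c0 : K0) (c1 : K0)⟩ rfl
    t ht τ hτ 𝔫 hc₁ hc₂

end Node1

end Fermat.Agent.S34
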