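import Mathlib
import Fermat.Agent.S34.BranchInst2
import Fermat.Agent.S34.CuspInst
import Fermat.Agent.S34.NodeChart
import Fermat.Agent.S34.UnramSeam
import Fermat.Agent.S18.CoreInstFinal
import Fermat.Agent.S18.SMInstChoice

/-!
# S34, package BRANCH2-NODE: the hypothesis `hB₂` of the node statement at the `K0` level

`brn_hB2`: the hypothesis `hB₂` of `nik_imgam` (S34/NodeInstK0), verbatim, from the `K0`-level
inputs of the chart packages: distinct residues of the base points, `Qrad(c0)` a unit, the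
level-`M` chart fibres Dedekind for both orientations (`cinstSMChart`) and the level-`M` charts
unramified over the `h`-line away from the cusps for both orientations (`unrChart`).

Route: `cni_crossing` (a crossing point is not cuspidal: `j ∈ O_𝔫`), `dmi_dom_aux` (domination:
`w t` or `w t⁻¹` is regular at `𝔫`), `brj_node_J` (BRANCH2-INST) and the seam adapter
`unr_seam_hB`.
-/

set_option autoImplicit false
set_option linter.unusedSectionVars false
set_option linter.style.haveILetI false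

open AlgebraicCurve ModularCurve Polynomial
open Fermat.Agent.S18 Fermat.Agent.S28

namespace Fermat.Agent.S34

local notation "Qb" => AlgebraicClosure ℚ

section BrnNode

variable (M q : ℕ) [NeZero M] [hq : Fact q.Prime] (hM : ¬ q ∣ M)
  (K0 : Type*) [Field K0] [Algebra ℚ K0] [Algebra K0 Qb]
  (A0 : ValuationSubring K0) [IsDiscreteValuationRing ↥A0]
  {a2 : ℕ} (H : HauptRec a2 q)

/-- **`hB₂` at a crossing point of the chart `chtO A0 {t}`**, for given `A0`-algebra structures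
on the function fields of both levels. -/
theorem brn_hB2_aux (ha2 : a2 ∣ M)
    [Algebra ↥A0 ↥(laurentBaseChange K0 (modularFunctionFieldFull M))]
    [IsScalarTower ↥A0 K0 ↥(laurentBaseChange K0 (modularFunctionFieldFull M))]
    [Algebra ↥A0 ↥(laurentBaseChange K0 (modularFunctionFieldFull (M * q)))]
    [IsScalarTower ↥A0 K0 ↥(laurentBaseChange K0 (modularFunctionFieldFull (M * q)))]
    (hA0 : A0.LiesOverPrime q)
    (c0 c1 : A0) (hc : IsLocalRing.residue A0 c0 ≠ IsLocalRing.residue A0 c1)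
    (hQ0 : smi2U A0 (aeval (c0 : K0) H.Qrad))
    (hSM0 : cinstSMChart K0 A0 M H (c0 : K0) (c1 : K0))
    (hSM1 : cinstSMChart K0 A0 M H (c1 : K0) (c0 : K0))
    (huc0 : unrChart K0 A0 M H c0 c1) (huc1 : unrChart K0 A0 M H c1 c0)
    (t : ↥(laurentBaseChange K0 (modularFunctionFieldFull (M * q))))
    (ht : (t : LaurentSeries K0) = cinstU H K0 (c0 : K0) (c1 : K0))
    (τ : A0) (hτ : Irreducible τ)
    (𝔫 : Ideal ↥(chtO A0 {t})) [𝔫.IsPrime]
    (hc₁ : ∀ x : ↥(chtO A0 {t}),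
      (x : ↥(laurentBaseChange K0 (modularFunctionFieldFull (M * q)))) ∈
        (va2V1 M q K0 A0).nonunits → x ∈ 𝔫)
    (hc₂ : ∀ x : ↥(chtO A0 {t}),
      (x : ↥(laurentBaseChange K0 (modularFunctionFieldFull (M * q)))) ∈
        (va2V2 M q hM K0 A0).nonunits → x ∈ 𝔫)
    (a : ↥(chtO A0 {t})) (ha : a ∈ 𝔫) :
    ∃ b c : ↥(chtO A0 {t}), c ∉ 𝔫 ∧
      (a : ↥(laurentBaseChange K0 (modularFunctionFieldFull (M * q)))) *
          (c : ↥(laurentBaseChange K0 (modularFunctionFieldFull (M * q)))) -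
        (heckeAlphaBar K0 M q (nunH K0 M H ha2) ^ q -
          heckeBetaBar K0 M q (nunH K0 M H ha2)) *
          (b : ↥(laurentBaseChange K0 (modularFunctionFieldFull (M * q))))
        ∈ (va2V2 M q hM K0 A0).nonunits := by
  classical
  -- the level-`M` chart coordinate, both orientations
  let tM : ↥(laurentBaseChange K0 (modularFunctionFieldFull M)) :=
    ⟨cinstU H K0 (c0 : K0) (c1 : K0), cinstU_mem H K0 ha2 (c0 : K0) (c1 : K0)⟩
  have htM : (tM : LaurentSeries K0) = cinstU H K0 (c0 : K0) (c1 : K0) := rfl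
  have htM' : ((tM⁻¹ : ↥(laurentBaseChange K0 (modularFunctionFieldFull M))) :
      LaurentSeries K0) = cinstU H K0 (c1 : K0) (c0 : K0) := by
    rw [IntermediateField.coe_inv, htM, cinstU_inv]
  haveI hD0 : IsDedekindDomain
      (↥(chtO A0 {tM}) ⧸ Ideal.span {algebraMap A0 ↥(chtO A0 {tM}) τ}) := hSM0 tM htM τ hτ
  haveI hD1 : IsDedekindDomain
      (↥(chtO A0 {tM⁻¹}) ⧸ Ideal.span {algebraMap A0 ↥(chtO A0 {tM⁻¹}) τ}) :=
    hSM1 tM⁻¹ htM' τ hτ
  -- chart facts at level `M q`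
  obtain ⟨-, hcl, -, hO1, hO2, -, -⟩ := nch_top M q hM K0 A0 H ha2 hA0 c0 c1 hc t ht τ hτ
  have hτ𝔫 := nch_tau_mem M q K0 A0 H c0 c1 hc t ht τ hτ 𝔫 hc₁
  -- a crossing point is not cuspidal
  obtain ⟨hJ, -, -, -⟩ := cni_crossing M q hM K0 A0 H ha2 hA0 c0 c1 hc t ht 𝔫 hc₁ hc₂
  -- domination
  have hcs : smi2U A0 ((c0 : K0) - (c1 : K0)) := by
    have h : IsLocalRing.residue A0 (c0 - c1) ≠ 0 := by
      rw [map_sub, sub_ne_zero]
      exact hc
    exact smi2U_of_residue_ne_zero h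
  have hdom := dmi_dom_aux A0 M q hq.out hM H ha2 hA0 c0 c1 hcs.2.2 (sub_ne_zero.mp hcs.2.1)
    (smi2_Q_unit H A0 c0.2 hQ0).2.2 (smi2_Q_unit H A0 c0.2 hQ0).2.1 t ht τ hτ 𝔫 inferInstance hτ𝔫
  -- the branch statement in the `dmaLoc` / `dmaMax` form
  have hbra := brj_node_J M q hM K0 A0 hA0 H ha2 τ hτ c0 c1 hc tM htM huc0 huc1 t ht
    (chtO A0 {t}) hcl hO1 hO2 𝔫 hc₁ hc₂ hJ hdom
  have hα : heckeAlphaBar K0 M q (nunH K0 M H ha2) = dmiH K0 (M * q) H (ha2.mul_right q) :=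
    brj_alpha_h M q K0 H ha2
  have hβ : heckeBetaBar K0 M q (nunH K0 M H ha2) =
      va2Swap M q hq.out hM K0 (dmiH K0 (M * q) H (ha2.mul_right q)) :=
    brj_beta_h M q hM K0 H ha2
  rw [hα, hβ]
  exact unr_seam_hB (chtO A0 {t}) 𝔫 (va2V2 M q hM K0 A0) hO2 _ hbra a ha

/-- **The hypothesis `hB₂` of `nik_imgam`, verbatim.** -/
theorem brn_hB2 (ha2 : a2 ∣ M) (hA0 : A0.LiesOverPrime q)
    (c0 c1 : A0) (hc : IsLocalRing.residue A0 c0 ≠ IsLocalRing.residue A0 c1)
    (hQ0 : smi2U A0 (aeval (c0 : K0) H.Qrad))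
    (hSM0 : cinstSMChart K0 A0 M H (c0 : K0) (c1 : K0))
    (hSM1 : cinstSMChart K0 A0 M H (c1 : K0) (c0 : K0))
    (huc0 : unrChart K0 A0 M H c0 c1) (huc1 : unrChart K0 A0 M H c1 c0) :
    ∀ t : ↥(laurentBaseChange K0 (modularFunctionFieldFull (M * q))),
      (t : LaurentSeries K0) = cinstU H K0 (c0 : K0) (c1 : K0) →
      ∀ [Algebra ↥A0 ↥(laurentBaseChange K0 (modularFunctionFieldFull (M * q)))]
        [IsScalarTower ↥A0 K0 ↥(laurentBaseChange K0 (modularFunctionFieldFull (M * q)))]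
        (τ : A0), Irreducible τ →
      ∀ 𝔫 : Ideal ↥(chtO A0 {t}), 𝔫.IsMaximal →
      (∀ x : ↥(chtO A0 {t}),
        (x : ↥(laurentBaseChange K0 (modularFunctionFieldFull (M * q)))) ∈
          (va2V1 M q K0 A0).nonunits → x ∈ 𝔫) →
      (∀ x : ↥(chtO A0 {t}),
        (x : ↥(laurentBaseChange K0 (modularFunctionFieldFull (M * q)))) ∈
          (va2V2 M q hM K0 A0).nonunits → x ∈ 𝔫) →
      ∀ a : ↥(chtO A0 {t}), a ∈ 𝔫 → ∃ b c : ↥(chtO A0 {t}), c ∉ 𝔫 ∧
        (a : ↥(laurentBaseChange K0 (modularFunctionFieldFull (M * q)))) *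
            (c : ↥(laurentBaseChange K0 (modularFunctionFieldFull (M * q)))) -
          (heckeAlphaBar K0 M q (nunH K0 M H ha2) ^ q -
            heckeBetaBar K0 M q (nunH K0 M H ha2)) *
            (b : ↥(laurentBaseChange K0 (modularFunctionFieldFull (M * q))))
          ∈ (va2V2 M q hM K0 A0).nonunits := by
  intro t ht _ _ τ hτ 𝔫 h𝔫 hc₁ hc₂ a ha
  let algE : Algebra ↥A0 ↥(laurentBaseChange K0 (modularFunctionFieldFull M)) :=
    ((algebraMap K0 ↥(laurentBaseChange K0 (modularFunctionFieldFull M))).comp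
      A0.subtype).toAlgebra
  have twE : IsScalarTower ↥A0 K0 ↥(laurentBaseChange K0 (modularFunctionFieldFull M)) :=
    IsScalarTower.of_algebraMap_eq (fun _ => rfl)
  haveI := h𝔫.isPrime
  exact brn_hB2_aux M q hM K0 A0 H ha2 hA0 c0 c1 hc hQ0 hSM0 hSM1 huc0 huc1 t ht τ hτ 𝔫 hc₁ hc₂
    a ha

end BrnNode

end Fermat.Agent.S34
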