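import Mathlib

/-!
# S34, work package B2-COMP2 (abstract half): the second component of a chart is Dedekind

* `cp2_dedekind_of_locval`: a noetherian domain all of whose localisations at maximal ideals are
  valuation rings (stated elementwise) is a Dedekind domain.
* `cp2_split`: in a Dedekind domain the two colon ideals `(y : x)` and `(x : y)` are comaximal.
* `cp2_dedekind`: `O` a noetherian subalgebra of a field `F`, `V` a valuation subring containing
  `O`, `𝔭 = O ∩ 𝔪_V`.  Given a family of subalgebras `E i` of `F` with Dedekind residue rings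
  `B i = E i / (E i ∩ 𝔪_V)` of residue degree one, such that every maximal ideal `𝔫 ⊇ 𝔭` of `O`
  has some `E i` inside the local ring `O_𝔫`, the quotient `O ⧸ 𝔭` is a Dedekind domain.
-/

set_option autoImplicit false

namespace Fermat.Agent.S34

/-- A noetherian domain all of whose localisations at maximal ideals are valuation rings is a
Dedekind domain.  The valuation-ring property is stated elementwise. -/
theorem cp2_dedekind_of_locval {R : Type*} [CommRing R] [IsDomain R] [IsNoetherianRing R]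
    (h : ∀ n : Ideal R, n.IsMaximal → ∀ r₁ r₂ : R, ∃ s c : R, s ∉ n ∧
      (s * r₂ = c * r₁ ∨ s * r₁ = c * r₂)) :
    IsDedekindDomain R := by
  have hdvr : IsDedekindDomainDvr R := by
    refine { is_dvr_at_nonzero_prime := ?_ }
    intro P hP0 hPprime
    obtain ⟨n, hn, hPn⟩ := Ideal.exists_le_maximal P hPprime.ne_top
    have hval : ValuationRing (Localization.AtPrime P) := by
      refine { cond' := ?_ }
      intro a b
      obtain ⟨⟨r₁, s₁⟩, rfl⟩ := IsLocalization.mk'_surjective P.primeCompl a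
      obtain ⟨⟨r₂, s₂⟩, rfl⟩ := IsLocalization.mk'_surjective P.primeCompl b
      obtain ⟨s, c, hs, hsc⟩ := h n hn r₁ r₂
      have hsP : s ∈ P.primeCompl := fun hmem => hs (hPn hmem)
      rcases hsc with h1 | h1
      · refine ⟨IsLocalization.mk' _ (c * s₁) (⟨s, hsP⟩ * s₂), Or.inl ?_⟩
        rw [← IsLocalization.mk'_mul, IsLocalization.mk'_eq_iff_eq]
        congr 1
        simp only [Submonoid.coe_mul]
        linear_combination (-(s₁ : R) * s₂) * h1
      · refine ⟨IsLocalization.mk' _ (c * s₂) (⟨s, hsP⟩ * s₁), Or.inr ?_⟩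
        rw [← IsLocalization.mk'_mul, IsLocalization.mk'_eq_iff_eq]
        congr 1
        simp only [Submonoid.coe_mul]
        linear_combination (-(s₁ : R) * s₂) * h1
    have hpir : IsPrincipalIdealRing (Localization.AtPrime P) :=
      ((tfae_of_isNoetherianRing_of_isLocalRing_of_isDomain (Localization.AtPrime P)).out 1 0).mp
        hval
    have hnf : ¬ IsField (Localization.AtPrime P) :=
      IsLocalization.AtPrime.not_isField R hP0 (Localization.AtPrime P)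
    exact { not_a_field' := fun h0 => hnf (IsLocalRing.isField_iff_maximalIdeal_eq.mpr h0) }
  infer_instance

/-- In a Dedekind domain the colon ideals `(y : x)` and `(x : y)` are comaximal. -/
theorem cp2_split {B : Type*} [CommRing B] [IsDedekindDomain B] (x y : B) :
    ∃ s₁ s₂ c₁ c₂ : B, s₁ + s₂ = 1 ∧ s₁ * x = c₁ * y ∧ s₂ * y = c₂ * x := by
  classical
  let I₁ : Ideal B :=
    { carrier := {s | ∃ c, s * x = c * y}
      add_mem' := by
        rintro a b ⟨c, hc⟩ ⟨d, hd⟩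
        exact ⟨c + d, by rw [add_mul, add_mul, hc, hd]⟩
      zero_mem' := ⟨0, by simp⟩
      smul_mem' := by
        rintro r a ⟨c, hc⟩
        exact ⟨r * c, by rw [smul_eq_mul, mul_assoc, hc, mul_assoc]⟩ }
  let I₂ : Ideal B :=
    { carrier := {s | ∃ c, s * y = c * x}
      add_mem' := by
        rintro a b ⟨c, hc⟩ ⟨d, hd⟩
        exact ⟨c + d, by rw [add_mul, add_mul, hc, hd]⟩
      zero_mem' := ⟨0, by simp⟩
      smul_mem' := by
        rintro r a ⟨c, hc⟩
        exact ⟨r * c, by rw [smul_eq_mul, mul_assoc, hc, mul_assoc]⟩ }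
  have htop : I₁ ⊔ I₂ = ⊤ := by
    by_contra hne
    obtain ⟨M, hM, hle⟩ := Ideal.exists_le_maximal _ hne
    have h1 : I₁ ≤ M := le_sup_left.trans hle
    have h2 : I₂ ≤ M := le_sup_right.trans hle
    by_cases hy : y = 0
    · exact hM.ne_top ((Ideal.eq_top_iff_one _).mpr (h2 ⟨0, by rw [hy]; simp⟩))
    by_cases hx : x = 0
    · exact hM.ne_top ((Ideal.eq_top_iff_one _).mpr (h1 ⟨0, by rw [hx]; simp⟩))
    by_cases hM0 : M = ⊥
    · -- `B` is a field
      have hfield : IsField B := Ring.isField_iff_maximal_bot.mpr (hM0 ▸ hM)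
      obtain ⟨z, hz⟩ := hfield.mul_inv_cancel hy
      exact hM.ne_top ((Ideal.eq_top_iff_one _).mpr
        (h1 ⟨x * z, by rw [one_mul, mul_assoc, mul_comm z y, hz, mul_one]⟩))
    · have hprime : M.IsPrime := hM.isPrime
      have hdvr : IsDiscreteValuationRing (Localization.AtPrime M) :=
        IsLocalization.AtPrime.isDiscreteValuationRing_of_dedekind_domain B hM0 _
      obtain ⟨c, hc⟩ := ValuationRing.cond (algebraMap B (Localization.AtPrime M) x)
        (algebraMap B (Localization.AtPrime M) y)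
      obtain ⟨⟨c₀, t⟩, hct⟩ := IsLocalization.surj M.primeCompl c
      simp only at hct
      have hinj : Function.Injective (algebraMap B (Localization.AtPrime M)) :=
        IsLocalization.injective _ M.primeCompl_le_nonZeroDivisors
      rcases hc with hc | hc
      · -- `x * c = y`, `c * t = c₀`, so `t * y = c₀ * x`
        have h3 : (t : B) * y = c₀ * x := by
          apply hinj
          rw [map_mul, map_mul, ← hc, ← hct]
          ring
        exact t.2 (h2 ⟨c₀, h3⟩)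
      · have h3 : (t : B) * x = c₀ * y := by
          apply hinj
          rw [map_mul, map_mul, ← hc, ← hct]
          ring
        exact t.2 (h1 ⟨c₀, h3⟩)
  have hone : (1 : B) ∈ I₁ ⊔ I₂ := by rw [htop]; trivial
  obtain ⟨s₁, ⟨c₁, hc₁⟩, s₂, ⟨c₂, hc₂⟩, hsum⟩ := Submodule.mem_sup.mp hone
  exact ⟨s₁, s₂, c₁, c₂, hsum, hc₁, hc₂⟩

section Val

variable {F : Type*} [Field F] (V : ValuationSubring F)

theorem cp2_val_eq_one {x : F} (hx : x ∈ V) (hx' : x ∉ V.nonunits) : V.valuation x = 1 := by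
  have h1 : V.valuation x ≤ 1 := (V.valuation_le_one_iff x).mpr hx
  have h2 : ¬ V.valuation x < 1 := fun h => hx' (V.mem_nonunits_iff.mpr h)
  exact le_antisymm h1 (not_lt.mp h2)

theorem cp2_mul_mem_nonunits {x y : F} (hx : x ∈ V) (hy : y ∈ V.nonunits) :
    x * y ∈ V.nonunits := by
  rw [V.mem_nonunits_iff] at hy ⊢
  rw [map_mul]
  exact mul_lt_one_of_nonneg_of_lt_one_right ((V.valuation_le_one_iff x).mpr hx) zero_le hy

theorem cp2_cancel_nonunits {x b : F} (hb : V.valuation b = 1) (h : x * b ∈ V.nonunits) :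
    x ∈ V.nonunits := by
  rw [V.mem_nonunits_iff] at h ⊢
  rwa [map_mul, hb, mul_one] at h

end Val

/-- **B2-COMP2, abstract form.**  `O` a noetherian subalgebra of a field `F`, `V` a valuation
subring with `O ≤ V`, `𝔭 = O ∩ 𝔪_V`.  Let `E i` be subalgebras of `F` with surjections
`π i : E i → B i` onto Dedekind domains with kernel `E i ∩ 𝔪_V`, of residue degree one (`hres`).
If every maximal ideal `𝔫 ⊇ 𝔭` of `O` has some `E i` inside the local ring `O_𝔫` (`hloc`), then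
`O ⧸ 𝔭` is a Dedekind domain. -/
theorem cp2_dedekind {A F : Type*} [CommRing A] [Field F] [Algebra A F]
    (O : Subalgebra A F) [IsNoetherianRing ↥O]
    (V : ValuationSubring F) (hOV : ∀ x ∈ O, x ∈ V)
    (𝔭 : Ideal ↥O) (h𝔭 : ∀ x : ↥O, x ∈ 𝔭 ↔ (x : F) ∈ V.nonunits)
    {ι : Type*} (E : ι → Subalgebra A F)
    (B : ι → Type*) [∀ i, CommRing (B i)] [∀ i, IsDedekindDomain (B i)]
    (π : ∀ i, ↥(E i) →+* B i) (hπ : ∀ i, Function.Surjective (π i))
    (hker : ∀ i (x : ↥(E i)), π i x = 0 ↔ (x : F) ∈ V.nonunits)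
    (hres : ∀ i, ∀ x ∈ V, ∃ a s : ↥(E i), (s : F) ∉ V.nonunits ∧
      x * (s : F) - (a : F) ∈ V.nonunits)
    (hloc : ∀ n : Ideal ↥O, n.IsMaximal → 𝔭 ≤ n →
      ∃ i, ∀ e ∈ E i, ∃ s : ↥O, s ∉ n ∧ (s : F) * e ∈ O) :
    IsDedekindDomain (↥O ⧸ 𝔭) := by
  classical
  -- `𝔭` is prime
  have hprime : 𝔭.IsPrime := by
    refine ⟨fun htop => ?_, fun {x y} hxy => ?_⟩
    · have h1 : (1 : ↥O) ∈ 𝔭 := by rw [htop]; trivial
      have h2 := (h𝔭 1).mp h1
      rw [V.mem_nonunits_iff] at h2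
      simp at h2
    · by_contra hcon
      push Not at hcon
      have hx1 := cp2_val_eq_one V (hOV _ x.2) (fun h => hcon.1 ((h𝔭 x).mpr h))
      have hy1 := cp2_val_eq_one V (hOV _ y.2) (fun h => hcon.2 ((h𝔭 y).mpr h))
      have h2 := (h𝔭 (x * y)).mp hxy
      rw [V.mem_nonunits_iff] at h2
      have h3 : V.valuation ((x * y : ↥O) : F) = 1 := by
        rw [show ((x * y : ↥O) : F) = (x : F) * (y : F) from rfl, map_mul, hx1, hy1, mul_one]
      rw [h3] at h2
      exact lt_irrefl _ h2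
  have hdom : IsDomain (↥O ⧸ 𝔭) := Ideal.Quotient.isDomain 𝔭
  refine cp2_dedekind_of_locval ?_
  intro nb hnb rb₁ rb₂
  obtain ⟨r₁, rfl⟩ := Ideal.Quotient.mk_surjective rb₁
  obtain ⟨r₂, rfl⟩ := Ideal.Quotient.mk_surjective rb₂
  set n : Ideal ↥O := nb.comap (Ideal.Quotient.mk 𝔭) with hn_def
  have hn : n.IsMaximal := Ideal.comap_isMaximal_of_surjective _ Ideal.Quotient.mk_surjective
  have hnprime : n.IsPrime := hn.isPrime
  have h𝔭n : 𝔭 ≤ n := by
    intro x hx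
    rw [hn_def, Ideal.mem_comap, Ideal.Quotient.eq_zero_iff_mem.mpr hx]
    exact zero_mem _
  have hmk : ∀ x : ↥O, Ideal.Quotient.mk 𝔭 x ∈ nb ↔ x ∈ n := fun x => Iff.rfl
  obtain ⟨i, hi⟩ := hloc n hn h𝔭n
  -- elements outside `n` are units of `V`
  have hunit : ∀ s : ↥O, s ∉ n → V.valuation (s : F) = 1 := fun s hs =>
    cp2_val_eq_one V (hOV _ s.2) (fun h => hs (h𝔭n ((h𝔭 s).mpr h)))
  -- `E i ⊆ V`
  have hEV : ∀ e ∈ E i, e ∈ V := by
    intro e he
    obtain ⟨s, hs, hse⟩ := hi e he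
    have h1 : V.valuation ((s : F) * e) ≤ 1 := (V.valuation_le_one_iff _).mpr (hOV _ hse)
    rw [map_mul, hunit s hs, one_mul] at h1
    exact (V.valuation_le_one_iff _).mp h1
  by_cases hr₁ : r₁ ∈ 𝔭
  · refine ⟨1, 0, ?_, Or.inr ?_⟩
    · exact fun h => hnb.ne_top ((Ideal.eq_top_iff_one _).mpr h)
    · rw [Ideal.Quotient.eq_zero_iff_mem.mpr hr₁]
      simp
  have hr₁1 : V.valuation (r₁ : F) = 1 :=
    cp2_val_eq_one V (hOV _ r₁.2) (fun h => hr₁ ((h𝔭 r₁).mpr h))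
  have hr₁0 : (r₁ : F) ≠ 0 := by
    intro h0
    rw [h0, map_zero] at hr₁1
    exact zero_ne_one hr₁1
  set z : F := (r₂ : F) / (r₁ : F) with hz_def
  have hzV : z ∈ V := by
    rw [← V.valuation_le_one_iff, hz_def, map_div₀, hr₁1, div_one]
    exact (V.valuation_le_one_iff _).mpr (hOV _ r₂.2)
  have hzr : z * (r₁ : F) = (r₂ : F) := by
    rw [hz_def, div_mul_cancel₀ _ hr₁0]
  obtain ⟨a, b, hb, hab⟩ := hres i z hzV
  have hb1 : V.valuation (b : F) = 1 := cp2_val_eq_one V (hEV _ b.2) hb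
  obtain ⟨s₁, s₂, c₁, c₂, hsum, h1, h2⟩ := cp2_split (π i a) (π i b)
  obtain ⟨S₁, rfl⟩ := hπ i s₁
  obtain ⟨S₂, rfl⟩ := hπ i s₂
  obtain ⟨C₁, rfl⟩ := hπ i c₁
  obtain ⟨C₂, rfl⟩ := hπ i c₂
  have hsum' : ((S₁ : F) + (S₂ : F) - 1) ∈ V.nonunits := by
    have h0 : π i (S₁ + S₂ - 1) = 0 := by rw [map_sub, map_add, map_one, hsum, sub_self]
    exact (hker i _).mp h0
  have h1' : ((S₁ : F) * (a : F) - (C₁ : F) * (b : F)) ∈ V.nonunits := by
    have h0 : π i (S₁ * a - C₁ * b) = 0 := by rw [map_sub, map_mul, map_mul, h1, sub_self]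
    exact (hker i _).mp h0
  have h2' : ((S₂ : F) * (b : F) - (C₂ : F) * (a : F)) ∈ V.nonunits := by
    have h0 : π i (S₂ * b - C₂ * a) = 0 := by rw [map_sub, map_mul, map_mul, h2, sub_self]
    exact (hker i _).mp h0
  obtain ⟨σ₁, hσ₁, hA₁⟩ := hi _ S₁.2
  obtain ⟨σ₂, hσ₂, hA₂⟩ := hi _ S₂.2
  obtain ⟨τ₁, hτ₁, hG₁⟩ := hi _ C₁.2
  obtain ⟨τ₂, hτ₂, hG₂⟩ := hi _ C₂.2
  set A₁ : ↥O := ⟨(σ₁ : F) * (S₁ : F), hA₁⟩ with hA₁_def
  set A₂ : ↥O := ⟨(σ₂ : F) * (S₂ : F), hA₂⟩ with hA₂_def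
  set G₁ : ↥O := ⟨(τ₁ : F) * (C₁ : F), hG₁⟩ with hG₁_def
  set G₂ : ↥O := ⟨(τ₂ : F) * (C₂ : F), hG₂⟩ with hG₂_def
  have hσV : ∀ s : ↥O, (s : F) ∈ V := fun s => hOV _ s.2
  -- not both `A₁` and `A₂` lie in `n`
  have hA : A₁ ∉ n ∨ A₂ ∉ n := by
    by_contra hcon
    push Not at hcon
    have hmem : σ₂ * A₁ + σ₁ * A₂ - σ₁ * σ₂ ∈ 𝔭 := by
      rw [h𝔭]
      have e : ((σ₂ * A₁ + σ₁ * A₂ - σ₁ * σ₂ : ↥O) : F) =
          ((σ₁ : F) * (σ₂ : F)) * ((S₁ : F) + (S₂ : F) - 1) := by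
        simp only [hA₁_def, hA₂_def, Subalgebra.coe_sub, Subalgebra.coe_add, Subalgebra.coe_mul]
        ring
      rw [e]
      exact cp2_mul_mem_nonunits V (V.mul_mem _ _ (hσV σ₁) (hσV σ₂)) hsum'
    have h3 : σ₁ * σ₂ ∈ n := by
      have h4 : σ₂ * A₁ + σ₁ * A₂ - (σ₂ * A₁ + σ₁ * A₂ - σ₁ * σ₂) ∈ n :=
        n.sub_mem (n.add_mem (n.mul_mem_left _ hcon.1) (n.mul_mem_left _ hcon.2)) (h𝔭n hmem)
      simpa using h4
    rcases hnprime.mem_or_mem h3 with h5 | h5
    · exact hσ₁ h5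
    · exact hσ₂ h5
  have hS₁V : (S₁ : F) ∈ V := hEV _ S₁.2
  have hC₂V : (C₂ : F) ∈ V := hEV _ C₂.2
  rcases hA with hA₁n | hA₂n
  · -- `S₁` is a unit at `n`: `z ≡ C₁ / S₁`
    have hkey : (S₁ : F) * z - (C₁ : F) ∈ V.nonunits := by
      apply cp2_cancel_nonunits V hb1
      have e : ((S₁ : F) * z - (C₁ : F)) * (b : F) =
          (S₁ : F) * (z * (b : F) - (a : F)) + ((S₁ : F) * (a : F) - (C₁ : F) * (b : F)) := by
        ring
      rw [e]
      exact V.nonunits.add_mem (cp2_mul_mem_nonunits V hS₁V hab) h1'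
    refine ⟨Ideal.Quotient.mk 𝔭 (τ₁ * A₁), Ideal.Quotient.mk 𝔭 (σ₁ * G₁), ?_, Or.inl ?_⟩
    · rw [hmk]
      intro h
      rcases hnprime.mem_or_mem h with h5 | h5
      · exact hτ₁ h5
      · exact hA₁n h5
    · rw [← map_mul, ← map_mul, Ideal.Quotient.eq, h𝔭]
      have e : ((τ₁ * A₁ * r₂ - σ₁ * G₁ * r₁ : ↥O) : F) =
          ((σ₁ : F) * (τ₁ : F) * (r₁ : F)) * ((S₁ : F) * z - (C₁ : F)) := by
        simp only [hA₁_def, hG₁_def, Subalgebra.coe_sub, Subalgebra.coe_mul]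
        rw [← hzr]
        ring
      rw [e]
      exact cp2_mul_mem_nonunits V
        (V.mul_mem _ _ (V.mul_mem _ _ (hσV σ₁) (hσV τ₁)) (hσV r₁)) hkey
  · have hkey : (S₂ : F) - (C₂ : F) * z ∈ V.nonunits := by
      apply cp2_cancel_nonunits V hb1
      have e : ((S₂ : F) - (C₂ : F) * z) * (b : F) =
          ((S₂ : F) * (b : F) - (C₂ : F) * (a : F)) - (C₂ : F) * (z * (b : F) - (a : F)) := by
        ring
      rw [e]
      exact V.nonunits.sub_mem h2' (cp2_mul_mem_nonunits V hC₂V hab)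
    refine ⟨Ideal.Quotient.mk 𝔭 (τ₂ * A₂), Ideal.Quotient.mk 𝔭 (σ₂ * G₂), ?_, Or.inr ?_⟩
    · rw [hmk]
      intro h
      rcases hnprime.mem_or_mem h with h5 | h5
      · exact hτ₂ h5
      · exact hA₂n h5
    · rw [← map_mul, ← map_mul, Ideal.Quotient.eq, h𝔭]
      have e : ((τ₂ * A₂ * r₁ - σ₂ * G₂ * r₂ : ↥O) : F) =
          ((σ₂ : F) * (τ₂ : F) * (r₁ : F)) * ((S₂ : F) - (C₂ : F) * z) := by
        simp only [hA₂_def, hG₂_def, Subalgebra.coe_sub, Subalgebra.coe_mul]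
        rw [← hzr]
        ring
      rw [e]
      exact cp2_mul_mem_nonunits V
        (V.mul_mem _ _ (V.mul_mem _ _ (hσV σ₂) (hσV τ₂)) (hσV r₁)) hkey

end Fermat.Agent.S34
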