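import Mathlib
import Fermat.Agent.S18.CechChart
import Fermat.Agent.S34.LocalH6

/-!
# S34, package B1-COMP (second component, local form)

Setting: `O` a noetherian domain with fraction field `F` (a chart of the model at level `q M'`),
`V` a valuation subring of `F` containing `O` (the valuation of one component of the special
fibre), `p = O ∩ 𝔪_V` the prime ideal of that component, `n ⊇ p` a closed point.  `E` is a ring
with a homomorphism `β : E → F` (the chart ring of level `M'`, embedded through a degeneracy map)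
and `I` an ideal of `E` contained in `β⁻¹ 𝔪_V` with `E ⧸ I` a Dedekind domain, such that

* `hβn`: `β E ⊆ O_n` (every `β e` is a fraction `a / s` with `s ∉ n`);
* `hres`: the residue field of `V` is generated by `β E` (residue degree one).

Then `(O ⧸ p)_n` is a valuation ring (`c2l_dichotomy`), hence principal (`c2l_hloc_quot`,
`c2l_hloc`: the hypothesis `hloc` of `lh6_local_any`), and the local statement (LOC) holds at `n`
when `n` lies on the component `p` only (`c2l_main_any`).

No global statement on `O ⧸ p` is needed: this is the form in which the second component of the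
chart (which is not stable under the swap) is controlled.
-/

set_option autoImplicit false

namespace Fermat.Agent.S34

open Fermat.Agent.S18

/-- Dichotomy in the localization of a Dedekind domain at a prime ideal, elementwise. -/
theorem c2l_dich {D : Type*} [CommRing D] [IsDedekindDomain D] (𝔮 : Ideal D) [h𝔮 : 𝔮.IsPrime]
    (a b : D) : ∃ g u : D, u ∉ 𝔮 ∧ (a * g = b * u ∨ b * g = a * u) := by
  by_cases h0 : 𝔮 = ⊥
  · by_cases ha : a = 0
    · refine ⟨0, 1, fun h => h𝔮.ne_top ((Ideal.eq_top_iff_one _).mpr h), Or.inr ?_⟩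
      rw [ha]; ring
    · refine ⟨b, a, fun h => ha ?_, Or.inl (mul_comm a b)⟩
      rw [h0, Ideal.mem_bot] at h
      exact h
  · have : IsDiscreteValuationRing (Localization.AtPrime 𝔮) :=
      IsLocalization.AtPrime.isDiscreteValuationRing_of_dedekind_domain D h0 _
    have hinj : Function.Injective (algebraMap D (Localization.AtPrime 𝔮)) :=
      IsLocalization.injective _ 𝔮.primeCompl_le_nonZeroDivisors
    obtain ⟨c, hc⟩ := ValuationRing.cond (algebraMap D (Localization.AtPrime 𝔮) a)
      (algebraMap D (Localization.AtPrime 𝔮) b)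
    obtain ⟨g, u, rfl⟩ := IsLocalization.exists_mk'_eq 𝔮.primeCompl c
    rcases hc with hc | hc
    · refine ⟨g, u, u.2, Or.inl (hinj ?_)⟩
      rw [map_mul, map_mul, ← hc, mul_assoc, IsLocalization.mk'_spec]
    · refine ⟨g, u, u.2, Or.inr (hinj ?_)⟩
      rw [map_mul, map_mul, ← hc, mul_assoc, IsLocalization.mk'_spec]

section Comp2

variable {O F E : Type*} [CommRing O] [IsDomain O] [Field F] [Algebra O F] [IsFractionRing O F]
  [CommRing E]

omit [IsDomain O] [IsFractionRing O F] [CommRing O] [Algebra O F] [CommRing E] in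
/-- an element of `V` outside `𝔪_V` is a unit of `V` -/
theorem c2l_inv_mem (V : ValuationSubring F) {X : F} (hXV : X ∈ V) (hXu : X ∉ V.nonunits) :
    X⁻¹ ∈ V := by
  have h1 : V.valuation X = 1 := by
    have hle := (V.valuation_le_one_iff X).mpr hXV
    have hnlt : ¬ V.valuation X < 1 := fun h => hXu (V.mem_nonunits_iff.mpr h)
    exact le_antisymm hle (not_lt.mp hnlt)
  rw [← V.valuation_le_one_iff, map_inv₀, h1, inv_one]

/-- **The local ring of the component at `n` is a valuation ring** (elementwise): of two elements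
of `O`, one divides the other modulo `p` after multiplication by an element outside `n`. -/
theorem c2l_dichotomy (V : ValuationSubring F) (hOV : ∀ x : O, algebraMap O F x ∈ V)
    (p : Ideal O) (hp : ∀ x : O, x ∈ p ↔ algebraMap O F x ∈ V.nonunits)
    (n : Ideal O) [hn : n.IsMaximal] (hpn : p ≤ n)
    (β : E →+* F) (I : Ideal E) [IsDedekindDomain (E ⧸ I)]
    (hI : ∀ x : E, x ∈ I → β x ∈ V.nonunits)
    (hβn : ∀ x : E, ∃ a s : O, s ∉ n ∧ β x * algebraMap O F s = algebraMap O F a)
    (hres : ∀ x ∈ V, ∃ a s : E, β s ∉ V.nonunits ∧ x * β s - β a ∈ V.nonunits)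
    (x y : O) :
    (∃ s, s ∉ n ∧ ∃ r : O, s * y - x * r ∈ p) ∨ (∃ s, s ∉ n ∧ ∃ r : O, s * x - y * r ∈ p) := by
  classical
  have h1n : (1 : O) ∉ n := fun h => hn.ne_top ((Ideal.eq_top_iff_one _).mpr h)
  by_cases hx : x ∈ p
  · exact Or.inr ⟨1, h1n, 0, by rw [one_mul, mul_zero, sub_zero]; exact hx⟩
  have hinjOF : Function.Injective (algebraMap O F) := IsFractionRing.injective O F
  -- elements outside `n` are units of `V`
  have hsV : ∀ s : O, s ∉ n → (algebraMap O F s)⁻¹ ∈ V := fun s hs =>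
    c2l_inv_mem V (hOV s) (fun h => hs (hpn ((hp s).mpr h)))
  have hs0 : ∀ s : O, s ∉ n → algebraMap O F s ≠ 0 := by
    intro s hs h0
    have : s = 0 := hinjOF (by rw [h0, map_zero])
    exact hs (this ▸ n.zero_mem)
  -- the localization at `n` inside `F`
  let R := Localization.AtPrime n
  let _ : Algebra R F := IsLocalization.localizationAlgebraOfSubmonoidLe R F n.primeCompl
    (nonZeroDivisors O) n.primeCompl_le_nonZeroDivisors
  have : IsScalarTower O R F := IsLocalization.localization_isScalarTower_of_submonoid_le R F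
    n.primeCompl (nonZeroDivisors O) n.primeCompl_le_nonZeroDivisors
  have : IsFractionRing R F :=
    IsFractionRing.isFractionRing_of_isDomain_of_isLocalization n.primeCompl R F
  have hinjRF : Function.Injective (algebraMap R F) := IsFractionRing.injective R F
  choose af sf hsf hβ using hβn
  have hβV : ∀ e : E, β e ∈ V := by
    intro e
    have h1 : β e = algebraMap O F (af e) * (algebraMap O F (sf e))⁻¹ := by
      rw [← hβ e, mul_assoc, mul_inv_cancel₀ (hs0 _ (hsf e)), mul_one]
    rw [h1]; exact V.mul_mem _ _ (hOV _) (hsV _ (hsf e))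
  have hψ0 : ∀ e : E, algebraMap R F (IsLocalization.mk' R (af e) (⟨sf e, hsf e⟩ : n.primeCompl))
      = β e := by
    intro e
    apply mul_right_cancel₀ (hs0 _ (hsf e))
    rw [hβ e, IsScalarTower.algebraMap_apply O R F (sf e), ← map_mul]
    have h2 := IsLocalization.mk'_spec R (af e) (⟨sf e, hsf e⟩ : n.primeCompl)
    rw [h2, ← IsScalarTower.algebraMap_apply]
  let ψ : E →+* R :=
    { toFun := fun e => IsLocalization.mk' R (af e) (⟨sf e, hsf e⟩ : n.primeCompl)
      map_one' := hinjRF (by rw [hψ0, map_one, map_one])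
      map_mul' := fun a b => hinjRF (by rw [hψ0, map_mul, map_mul, hψ0, hψ0])
      map_zero' := hinjRF (by rw [hψ0, map_zero, map_zero])
      map_add' := fun a b => hinjRF (by rw [hψ0, map_add, map_add, hψ0, hψ0]) }
  have hψdef : ∀ e : E, ψ e = IsLocalization.mk' R (af e) (⟨sf e, hsf e⟩ : n.primeCompl) :=
    fun _ => rfl
  set 𝔮 : Ideal E := (IsLocalRing.maximalIdeal R).comap ψ with h𝔮
  have h𝔮prime : 𝔮.IsPrime := Ideal.comap_isPrime ψ _
  have hmem𝔮 : ∀ e : E, e ∈ 𝔮 ↔ af e ∈ n := by
    intro e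
    rw [h𝔮, Ideal.mem_comap, hψdef]
    exact IsLocalization.AtPrime.mk'_mem_maximal_iff R n (af e) ⟨sf e, hsf e⟩
  have hI𝔮 : I ≤ 𝔮 := by
    intro e he
    rw [hmem𝔮]
    apply hpn
    rw [hp, ← hβ e]
    exact cz_nonunits_mul V (hI e he) (hOV _)
  -- `y / x` and its residue
  have hxu : algebraMap O F x ∉ V.nonunits := fun h => hx ((hp x).mpr h)
  set X := algebraMap O F x with hX
  set Y := algebraMap O F y with hY
  have hX0 : X ≠ 0 := fun h0 => hxu (by rw [h0]; exact V.nonunits.zero_mem)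
  have hXinv : X⁻¹ ∈ V := c2l_inv_mem V (hOV x) hxu
  obtain ⟨d, e, he, hde⟩ := hres (Y * X⁻¹) (V.mul_mem _ _ (hOV y) hXinv)
  have h1 : Y * β e - X * β d ∈ V.nonunits := by
    have h2 : Y * β e - X * β d = (Y * X⁻¹ * β e - β d) * X := by field_simp
    rw [h2]; exact cz_nonunits_mul V hde (hOV x)
  have heinv : (β e)⁻¹ ∈ V := c2l_inv_mem V (hβV e) he
  have he0 : β e ≠ 0 := fun h0 => he (by rw [h0]; exact V.nonunits.zero_mem)
  -- the dichotomy in `E ⧸ I`
  have hsurj : Function.Surjective (Ideal.Quotient.mk I) := Ideal.Quotient.mk_surjective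
  have h𝔮bar : (𝔮.map (Ideal.Quotient.mk I)).IsPrime :=
    Ideal.map_isPrime_of_surjective hsurj (by rw [Ideal.mk_ker]; exact hI𝔮)
  obtain ⟨gb, ub, hub, hcase⟩ := c2l_dich (𝔮.map (Ideal.Quotient.mk I))
    (Ideal.Quotient.mk I d) (Ideal.Quotient.mk I e)
  obtain ⟨g, rfl⟩ := hsurj gb
  obtain ⟨u, rfl⟩ := hsurj ub
  have hu𝔮 : u ∉ 𝔮 := fun h => hub (Ideal.mem_map_of_mem _ h)
  have haun : af u ∉ n := fun h => hu𝔮 ((hmem𝔮 u).mpr h)
  have hsn : af u * sf g ∉ n := by
    intro h
    rcases hn.isPrime.mem_or_mem h with h' | h'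
    exacts [haun h', hsf g h']
  -- the common computation: from a relation in `V` to a relation modulo `p`
  have hfin : ∀ Z W : O, algebraMap O F Z * β u - algebraMap O F W * β g ∈ V.nonunits →
      af u * sf g * Z - W * (af g * sf u) ∈ p := by
    intro Z W hZW
    rw [hp]
    have h3 : algebraMap O F (af u * sf g * Z - W * (af g * sf u)) =
        (algebraMap O F Z * β u - algebraMap O F W * β g) *
          (algebraMap O F (sf u) * algebraMap O F (sf g)) := by
      rw [map_sub, map_mul, map_mul, map_mul, map_mul, ← hβ u, ← hβ g]; ring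
    rw [h3]
    exact cz_nonunits_mul V hZW (V.mul_mem _ _ (hOV _) (hOV _))
  rcases hcase with hcase | hcase
  · -- `d g ≡ e u`: then `u y ≡ ...`, i.e. `y` divides `x`
    have hdg : β (d * g - e * u) ∈ V.nonunits := by
      apply hI
      rw [← Ideal.Quotient.eq_zero_iff_mem, map_sub, map_mul, map_mul, hcase, sub_self]
    have h4 : X * β u - Y * β g ∈ V.nonunits := by
      have h5 : X * β u - Y * β g =
          (β e)⁻¹ * (-(β g * (Y * β e - X * β d)) - X * β (d * g - e * u)) := by
        rw [map_sub, map_mul, map_mul]; field_simp; ring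
      rw [h5, mul_comm]
      refine cz_nonunits_mul V (V.nonunits.sub_mem (V.nonunits.neg_mem ?_) ?_) heinv
      · rw [mul_comm]; exact cz_nonunits_mul V h1 (hβV g)
      · rw [mul_comm]; exact cz_nonunits_mul V hdg (hOV x)
    exact Or.inr ⟨af u * sf g, hsn, af g * sf u, hfin x y h4⟩
  · -- `e g ≡ d u`: then `x` divides `y`
    have hdg : β (e * g - d * u) ∈ V.nonunits := by
      apply hI
      rw [← Ideal.Quotient.eq_zero_iff_mem, map_sub, map_mul, map_mul, hcase, sub_self]
    have h4 : Y * β u - X * β g ∈ V.nonunits := by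
      have h5 : Y * β u - X * β g =
          (β e)⁻¹ * (β u * (Y * β e - X * β d) - X * β (e * g - d * u)) := by
        rw [map_sub, map_mul, map_mul]; field_simp; ring
      rw [h5, mul_comm]
      refine cz_nonunits_mul V (V.nonunits.sub_mem ?_ ?_) heinv
      · rw [mul_comm]; exact cz_nonunits_mul V h1 (hβV u)
      · rw [mul_comm]; exact cz_nonunits_mul V hdg (hOV x)
    exact Or.inl ⟨af u * sf g, hsn, af g * sf u, hfin y x h4⟩

/-- **Local principality of the component at `n`** (the shape of `lh6_hloc_quot`, without any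
global hypothesis on `O ⧸ p`). -/
theorem c2l_hloc_quot [IsNoetherianRing O] (V : ValuationSubring F)
    (hOV : ∀ x : O, algebraMap O F x ∈ V)
    (p : Ideal O) (hp : ∀ x : O, x ∈ p ↔ algebraMap O F x ∈ V.nonunits)
    (n : Ideal O) [hn : n.IsMaximal] (hpn : p ≤ n)
    (β : E →+* F) (I : Ideal E) [IsDedekindDomain (E ⧸ I)]
    (hI : ∀ x : E, x ∈ I → β x ∈ V.nonunits)
    (hβn : ∀ x : E, ∃ a s : O, s ∉ n ∧ β x * algebraMap O F s = algebraMap O F a)
    (hres : ∀ x ∈ V, ∃ a s : E, β s ∉ V.nonunits ∧ x * β s - β a ∈ V.nonunits)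
    (P : Ideal O) (_hP : P ≤ n) :
    ∃ x ∈ P, ∀ y ∈ P, ∃ s, s ∉ n ∧ ∃ r : O, s * y - x * r ∈ p := by
  classical
  have h1n : (1 : O) ∉ n := fun h => hn.ne_top ((Ideal.eq_top_iff_one _).mpr h)
  have hdich := c2l_dichotomy V hOV p hp n hpn β I hI hβn hres
  obtain ⟨S, hS⟩ := (IsNoetherian.noetherian P : P.FG)
  have key : ∀ T : Finset O, (∀ z ∈ T, z ∈ P) →
      ∃ x ∈ P, ∀ y ∈ T, ∃ s, s ∉ n ∧ ∃ r : O, s * y - x * r ∈ p := by
    intro T
    induction T using Finset.induction_on with
    | empty => intro _; exact ⟨0, P.zero_mem, fun y hy => absurd hy (Finset.notMem_empty y)⟩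
    | insert z T hz ih =>
      intro hT
      obtain ⟨x, hxP, hx⟩ := ih (fun w hw => hT w (Finset.mem_insert_of_mem hw))
      rcases hdich x z with ⟨s, hs, r, hr⟩ | ⟨s, hs, r, hr⟩
      · refine ⟨x, hxP, fun y hy => ?_⟩
        rcases Finset.mem_insert.mp hy with rfl | hy
        · exact ⟨s, hs, r, hr⟩
        · exact hx y hy
      · refine ⟨z, hT z (Finset.mem_insert_self z T), fun y hy => ?_⟩
        rcases Finset.mem_insert.mp hy with rfl | hy
        · exact ⟨1, h1n, 1, by rw [one_mul, mul_one, sub_self]; exact p.zero_mem⟩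
        · obtain ⟨s', hs', r', hr'⟩ := hx y hy
          refine ⟨s * s', fun h => ?_, r * r', ?_⟩
          · rcases hn.isPrime.mem_or_mem h with h' | h'
            exacts [hs h', hs' h']
          · have h2 : s * s' * y - z * (r * r') = s * (s' * y - x * r') + r' * (s * x - z * r) := by
              ring
            rw [h2]; exact p.add_mem (p.mul_mem_left _ hr') (p.mul_mem_left _ hr)
  obtain ⟨x, hxP, hx⟩ := key S (fun z hz => by rw [← hS]; exact Ideal.subset_span hz)
  refine ⟨x, hxP, fun y hy => ?_⟩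
  rw [← hS] at hy
  induction hy using Submodule.span_induction with
  | mem y hy => exact hx y hy
  | zero => exact ⟨1, h1n, 0, by rw [mul_zero, mul_zero, sub_self]; exact p.zero_mem⟩
  | add y1 y2 _ _ h1 h2 =>
    obtain ⟨s1, hs1, r1, hr1⟩ := h1
    obtain ⟨s2, hs2, r2, hr2⟩ := h2
    refine ⟨s1 * s2, fun h => ?_, s2 * r1 + s1 * r2, ?_⟩
    · rcases hn.isPrime.mem_or_mem h with h' | h'
      exacts [hs1 h', hs2 h']
    · have h3 : s1 * s2 * (y1 + y2) - x * (s2 * r1 + s1 * r2) =
          s2 * (s1 * y1 - x * r1) + s1 * (s2 * y2 - x * r2) := by ring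
      rw [h3]; exact p.add_mem (p.mul_mem_left _ hr1) (p.mul_mem_left _ hr2)
  | smul c y _ h =>
    obtain ⟨s, hs, r, hr⟩ := h
    refine ⟨s, hs, c * r, ?_⟩
    have h3 : s * (c • y) - x * (c * r) = c * (s * y - x * r) := by rw [smul_eq_mul]; ring
    rw [h3]; exact p.mul_mem_left _ hr

/-- The hypothesis `hloc` of `lh6_local_any` at a closed point `n` of the component `p` at which
`p O_n = τ O_n`. -/
theorem c2l_hloc [IsNoetherianRing O] (V : ValuationSubring F)
    (hOV : ∀ x : O, algebraMap O F x ∈ V)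
    (p : Ideal O) (hp : ∀ x : O, x ∈ p ↔ algebraMap O F x ∈ V.nonunits)
    (n : Ideal O) [hn : n.IsMaximal] (hpn : p ≤ n)
    (β : E →+* F) (I : Ideal E) [IsDedekindDomain (E ⧸ I)]
    (hI : ∀ x : E, x ∈ I → β x ∈ V.nonunits)
    (hβn : ∀ x : E, ∃ a s : O, s ∉ n ∧ β x * algebraMap O F s = algebraMap O F a)
    (hres : ∀ x ∈ V, ∃ a s : E, β s ∉ V.nonunits ∧ x * β s - β a ∈ V.nonunits)
    (τ : O) (hpτ : ∀ y ∈ p, ∃ s, s ∉ n ∧ τ ∣ s * y)
    (P : Ideal O) (hP : P ≤ n) :
    ∃ x ∈ P, ∀ y ∈ P, ∃ s, s ∉ n ∧ ∃ r r' : O, s * y = x * r + τ * r' := by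
  obtain ⟨x, hxP, hx⟩ := c2l_hloc_quot V hOV p hp n hpn β I hI hβn hres P hP
  refine ⟨x, hxP, fun y hy => ?_⟩
  obtain ⟨s, hs, r, hr⟩ := hx y hy
  obtain ⟨s', hs', r', hr'⟩ := hpτ _ hr
  refine ⟨s' * s, fun h => ?_, s' * r, r', ?_⟩
  · rcases hn.isPrime.mem_or_mem h with h1 | h1
    · exact hs' h1
    · exact hs h1
  · have h2 : s' * s * y = x * (s' * r) + s' * (s * y - x * r) := by ring
    rw [h2, hr']

omit [IsDomain O] [IsFractionRing O F] in
/-- `p = O ∩ 𝔪_V` is a prime ideal. -/
theorem c2l_isPrime (V : ValuationSubring F) (hOV : ∀ x : O, algebraMap O F x ∈ V)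
    (p : Ideal O) (hp : ∀ x : O, x ∈ p ↔ algebraMap O F x ∈ V.nonunits) : p.IsPrime := by
  refine ⟨fun htop => ?_, fun {a b} hab => ?_⟩
  · have h1 : (1 : O) ∈ p := htop ▸ Submodule.mem_top
    rw [hp, map_one] at h1
    exact cz_one_not_mem_nonunits V h1
  · by_contra hcon
    push Not at hcon
    have ha := c2l_inv_mem V (hOV a) (fun h => hcon.1 ((hp a).mpr h))
    have hb := c2l_inv_mem V (hOV b) (fun h => hcon.2 ((hp b).mpr h))
    rw [hp, map_mul] at hab
    have h1 : (1 : F) ∈ V.nonunits := by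
      have ha0 : algebraMap O F a ≠ 0 := fun h0 =>
        hcon.1 ((hp a).mpr (by rw [h0]; exact V.nonunits.zero_mem))
      have hb0 : algebraMap O F b ≠ 0 := fun h0 =>
        hcon.2 ((hp b).mpr (by rw [h0]; exact V.nonunits.zero_mem))
      have h2 : (1 : F) = algebraMap O F a * algebraMap O F b *
          ((algebraMap O F a)⁻¹ * (algebraMap O F b)⁻¹) := by field_simp
      rw [h2]; exact cz_nonunits_mul V hab (V.mul_mem _ _ ha hb)
    exact cz_one_not_mem_nonunits V h1

/-- **(LOC) at a closed point of the second component.**  `n` is a closed point of the chart `O`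
lying on the component `p = O ∩ 𝔪_V` with `p O_n = τ O_n` (i.e. on no other component), and the
Dedekind ring `E ⧸ I` maps to the local ring at `n` with residue degree one.  Then every `f ≠ 0`
which is a unit times an `m`-th power at every place of the generic fibre is, in the localization
of `O` at `n`, a unit times an `m`-th power times a power of `τ`. -/
theorem c2l_main_any [IsNoetherianRing O] (V : ValuationSubring F)
    (hOV : ∀ x : O, algebraMap O F x ∈ V)
    (p : Ideal O) (hp : ∀ x : O, x ∈ p ↔ algebraMap O F x ∈ V.nonunits)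
    (n : Ideal O) [hn : n.IsMaximal] (hpn : p ≤ n)
    (β : E →+* F) (I : Ideal E) [IsDedekindDomain (E ⧸ I)]
    (hI : ∀ x : E, x ∈ I → β x ∈ V.nonunits)
    (hβn : ∀ x : E, ∃ a s : O, s ∉ n ∧ β x * algebraMap O F s = algebraMap O F a)
    (hres : ∀ x ∈ V, ∃ a s : E, β s ∉ V.nonunits ∧ x * β s - β a ∈ V.nonunits)
    (τ : O) (hτ0 : τ ≠ 0) (hτp : τ ∈ p) (hpτ : ∀ y ∈ p, ∃ s, s ∉ n ∧ τ ∣ s * y)
    (m : ℕ) (hm : 0 < m) (f : F) (hf0 : f ≠ 0)
    (hord : ∀ W : ValuationSubring F, (∀ x : O, algebraMap O F x ∈ W) →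
        (algebraMap O F τ)⁻¹ ∈ W → IsPrincipalIdealRing W →
        ∃ w : F, w ≠ 0 ∧ f * w ^ m ∈ W ∧ (f * w ^ m)⁻¹ ∈ W) :
    ∃ (w : F) (a s : O) (k l : ℕ), w ≠ 0 ∧ a ∉ n ∧ s ∉ n ∧
      f * w ^ m * algebraMap O F s * algebraMap O F τ ^ k =
        algebraMap O F a * algebraMap O F τ ^ l := by
  have hprime : p.IsPrime := c2l_isPrime V hOV p hp
  exact lh6_local_any τ n (hpn hτp) (lh6_prime_of_ideal τ hτ0 n p hpn hτp hpτ)
    (fun P hP => c2l_hloc V hOV p hp n hpn β I hI hβn hres τ hpτ P hP) m hm f hf0 hord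

end Comp2

end Fermat.Agent.S34
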