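import Mathlib
import Fermat.Agent.S18.DvrDef
import Fermat.Agent.S18.CoreInstHord
import Fermat.Agent.S18.GaussChart
import Fermat.Agent.S34.InstMod
import Fermat.Agent.S34.KummerJ
import Fermat.Agent.S34.SigmaInst
import Fermat.Agent.S34.InstChoice

/-!
# S34, package INST-PACK: the outer shell between `s34im_field` and the assembly

* `S34ipGeom M q hM K0 A0 H c0 c1 m`: the geometric input of `s34im_field` for ONE field of
  definition `K0`, one discrete valuation subring `A0`, one pair of base points `c0, c1` and one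
  exponent `m`: the facts about the second valuation ring (A-INST), the Dedekind property of the
  first component of the two charts (B1-COMP), domination (DOM) and, for every function `f₀`
  whose divisor is divisible by `m` and whose zeros and poles are rational, (LOC) at the crossing
  points (NODE).  The binder shapes are those of `s34im_field` verbatim.
* `s34ip_core`: over a field of definition, `S34ipGeom` gives the core identity in the `•`-form
  of `S34hCore`.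
* `s34ip_main`: the statement consumed by the assembly (`S34hCore K1 σ (M0 * q) (p ^ n)` for
  every finite normal `K1` containing a finite set) from `S34ipGeom` over the fields `K1`.
-/

set_option autoImplicit false
set_option linter.unusedSectionVars false

noncomputable section

open ModularCurve AlgebraicCurve Polynomial
open Fermat.Agent.S18 Fermat.Agent.S37

namespace Fermat.Agent.S34

local notation "Qb" => AlgebraicClosure ℚ

section Field

variable (M q : ℕ) [NeZero M] [hq : Fact q.Prime] (hM : ¬ q ∣ M)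
  (K0 : Type*) [Field K0] [Algebra ℚ K0] [Algebra K0 Qb]
  (A0 : ValuationSubring K0) [IsDiscreteValuationRing ↥A0]
  {a2 : ℕ} (H : HauptRec a2 q)

/-- **The geometric input of `s34im_field`** for one field of definition `K0`, one discrete
valuation subring `A0`, one pair of base points `c0, c1` and one exponent `m` (for every
`A0`-algebra structure on the function field compatible with the `K0`-algebra structure, every
chart coordinate `t` with underlying series `(h - c1) / (h - c0)` and every uniformizer `τ`). -/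
def S34ipGeom (c0 c1 : K0) (m : ℕ) : Prop :=
  ∀ [Algebra A0 ↥(laurentBaseChange K0 (modularFunctionFieldFull (M * q)))]
    [IsScalarTower A0 K0 ↥(laurentBaseChange K0 (modularFunctionFieldFull (M * q)))]
    (t : ↥(laurentBaseChange K0 (modularFunctionFieldFull (M * q))))
    (_ : (t : LaurentSeries K0) = cinstU H K0 c0 c1)
    (τ : A0) (_ : Irreducible τ),
    -- the facts about the second valuation ring (A-INST)
    (t ∈ va2V2 M q hM K0 A0 ∧ t⁻¹ ∈ va2V2 M q hM K0 A0 ∧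
    (∀ O' : ValuationSubring ↥(laurentBaseChange K0 (modularFunctionFieldFull (M * q))),
      ChtSame K0 (va2V1 M q K0 A0) t O' → O' = va2V1 M q K0 A0 ∨ O' = va2V2 M q hM K0 A0) ∧
    -- the first component of the special fibres of the two charts (B1-COMP)
    (∀ 𝔭 : Ideal ↥(chtO A0 {t}),
      (∀ x : ↥(chtO A0 {t}), x ∈ 𝔭 ↔ (x : ↥(laurentBaseChange K0 (modularFunctionFieldFull (M * q)))) ∈ (va2V1 M q K0 A0).nonunits) →
      IsDedekindDomain (↥(chtO A0 {t}) ⧸ 𝔭)) ∧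
    (∀ 𝔭 : Ideal ↥(chtO A0 {t⁻¹}),
      (∀ x : ↥(chtO A0 {t⁻¹}), x ∈ 𝔭 ↔ (x : ↥(laurentBaseChange K0 (modularFunctionFieldFull (M * q)))) ∈ (va2V1 M q K0 A0).nonunits) →
      IsDedekindDomain (↥(chtO A0 {t⁻¹}) ⧸ 𝔭)) ∧
    -- domination (DOM)
    (∀ 𝔫 : Ideal ↥(chtO A0 {t}), 𝔫.IsMaximal →
      algebraMap A0 ↥(chtO A0 {t}) τ ∈ 𝔫 →
      (∃ r : ↥(chtO A0 {t}), (r : ↥(laurentBaseChange K0 (modularFunctionFieldFull (M * q)))) ∈ (va2V1 M q K0 A0).nonunits ∧ r ∉ 𝔫) →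
      (∃ a s : ↥(chtO A0 {t}), s ∉ 𝔫 ∧ va2SwapEquiv M q hq.out hM K0 t * (s : ↥(laurentBaseChange K0 (modularFunctionFieldFull (M * q)))) = a) ∨
      (∃ a s : ↥(chtO A0 {t}), s ∉ 𝔫 ∧ va2SwapEquiv M q hq.out hM K0 t⁻¹ * (s : ↥(laurentBaseChange K0 (modularFunctionFieldFull (M * q)))) = a)) ∧
    (∀ 𝔫 : Ideal ↥(chtO A0 {t⁻¹}), 𝔫.IsMaximal →
      algebraMap A0 ↥(chtO A0 {t⁻¹}) τ ∈ 𝔫 →
      (∃ r : ↥(chtO A0 {t⁻¹}), (r : ↥(laurentBaseChange K0 (modularFunctionFieldFull (M * q)))) ∈ (va2V1 M q K0 A0).nonunits ∧ r ∉ 𝔫) →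
      (∃ a s : ↥(chtO A0 {t⁻¹}), s ∉ 𝔫 ∧ va2SwapEquiv M q hq.out hM K0 t * (s : ↥(laurentBaseChange K0 (modularFunctionFieldFull (M * q)))) = a) ∨
      (∃ a s : ↥(chtO A0 {t⁻¹}), s ∉ 𝔫 ∧ va2SwapEquiv M q hq.out hM K0 t⁻¹ * (s : ↥(laurentBaseChange K0 (modularFunctionFieldFull (M * q)))) = a))) ∧
    -- (LOC) at the crossing points (NODE), for `f₀` and its swap
    ∀ f₀ : ↥(laurentBaseChange K0 (modularFunctionFieldFull (M * q))), f₀ ≠ 0 →
      (∀ Q : AlgebraicCurve.Place K0 ↥(laurentBaseChange K0 (modularFunctionFieldFull (M * q))),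
        (m : ℤ) ∣ Q.ord f₀) →
      (∀ Q : AlgebraicCurve.Place K0 ↥(laurentBaseChange K0 (modularFunctionFieldFull (M * q))),
        Q.ord f₀ ≠ 0 →
        Q.deg = 1 ∧ Function.Bijective (algebraMap K0 Q.ResidueField) ∧
        ∀ y ∈ Q.toValuationSubring, ∃ c : K0,
          y - algebraMap K0 ↥(laurentBaseChange K0 (modularFunctionFieldFull (M * q))) c ∈
            Q.toValuationSubring.nonunits) →
      (∀ f : ↥(laurentBaseChange K0 (modularFunctionFieldFull (M * q))), f = f₀ ∨ f = (va2SwapEquiv M q hq.out hM K0).symm f₀ →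
        ∀ 𝔫 : Ideal ↥(chtO A0 {t}), 𝔫.IsMaximal →
        (∀ x : ↥(chtO A0 {t}), (x : ↥(laurentBaseChange K0 (modularFunctionFieldFull (M * q)))) ∈ (va2V1 M q K0 A0).nonunits → x ∈ 𝔫) →
        (∀ x : ↥(chtO A0 {t}), (x : ↥(laurentBaseChange K0 (modularFunctionFieldFull (M * q)))) ∈ (va2V2 M q hM K0 A0).nonunits → x ∈ 𝔫) →
        S34Loc τ m (chtO A0 {t}) f 𝔫) ∧
      (∀ f : ↥(laurentBaseChange K0 (modularFunctionFieldFull (M * q))), f = f₀ ∨ f = (va2SwapEquiv M q hq.out hM K0).symm f₀ →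
        ∀ 𝔫 : Ideal ↥(chtO A0 {t⁻¹}), 𝔫.IsMaximal →
        (∀ x : ↥(chtO A0 {t⁻¹}), (x : ↥(laurentBaseChange K0 (modularFunctionFieldFull (M * q)))) ∈ (va2V1 M q K0 A0).nonunits → x ∈ 𝔫) →
        (∀ x : ↥(chtO A0 {t⁻¹}), (x : ↥(laurentBaseChange K0 (modularFunctionFieldFull (M * q)))) ∈ (va2V2 M q hM K0 A0).nonunits → x ∈ 𝔫) →
        S34Loc τ m (chtO A0 {t⁻¹}) f 𝔫)

/-- **The core identity over a field of definition** from the geometric input: `K0` a field with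
an embedding into `ℚ̄`, `A0` a discrete valuation subring, `s` an inertia element fixing the base
points `c0, c1 ∈ A0` (distinct residues), `m ≥ 2` a unit of `A0`. -/
theorem s34ip_core (ha2 : a2 ∣ M)
    (s : K0 ≃ₐ[ℚ] K0) (hs : s ∈ A0.inertiaSubgroupIn ℚ)
    (c0 c1 : K0) (h0 : c0 ∈ A0) (h1 : c1 ∈ A0) (hne : c0 ≠ c1) (h01 : (c0 - c1)⁻¹ ∈ A0)
    (hs0 : s c0 = c0) (hs1 : s c1 = c1)
    (m : ℕ) (hm2 : 2 ≤ m) (hmA : IsUnit (m : A0))
    (hgeom : S34ipGeom M q hM K0 A0 H c0 c1 m)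
    (f₀ : ↥(laurentBaseChange K0 (modularFunctionFieldFull (M * q)))) (hf₀ : f₀ ≠ 0)
    (hdiv : ∀ Q : AlgebraicCurve.Place K0 ↥(laurentBaseChange K0 (modularFunctionFieldFull (M * q))),
      (m : ℤ) ∣ Q.ord f₀)
    (hrat : ∀ Q : AlgebraicCurve.Place K0 ↥(laurentBaseChange K0 (modularFunctionFieldFull (M * q))),
      Q.ord f₀ ≠ 0 →
      Q.deg = 1 ∧ Function.Bijective (algebraMap K0 Q.ResidueField) ∧
      ∀ y ∈ Q.toValuationSubring, ∃ c : K0,
        y - algebraMap K0 ↥(laurentBaseChange K0 (modularFunctionFieldFull (M * q))) c ∈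
          Q.toValuationSubring.nonunits) :
    ∃ (w : K0) (G : ↥(laurentBaseChange K0 (modularFunctionFieldFull (M * q)))), G ≠ 0 ∧
      (arithmeticGalois (modularFunctionFieldFull (M * q)) s •
        arithmeticGalois (modularFunctionFieldFull (M * q)) s • f₀) * f₀ =
      algebraMap K0 ↥(laurentBaseChange K0 (modularFunctionFieldFull (M * q))) w * G ^ m *
        (arithmeticGalois (modularFunctionFieldFull (M * q)) s • f₀) ^ 2 := by
  let _ : Algebra A0 ↥(laurentBaseChange K0 (modularFunctionFieldFull (M * q))) :=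
    ((algebraMap K0 ↥(laurentBaseChange K0 (modularFunctionFieldFull (M * q)))).comp
      A0.subtype).toAlgebra
  have : IsScalarTower A0 K0 ↥(laurentBaseChange K0 (modularFunctionFieldFull (M * q))) :=
    IsScalarTower.of_algebraMap_eq (fun _ => rfl)
  obtain ⟨τ, hτ⟩ := IsDiscreteValuationRing.exists_irreducible A0
  have hc : IsLocalRing.residue A0 (⟨c0, h0⟩ : A0) ≠ IsLocalRing.residue A0 (⟨c1, h1⟩ : A0) :=
    gch_residue_ne A0 h0 h1 hne h01
  obtain ⟨⟨htV₂, htV₂', hex, hD₀, hD₁, hdom₀, hdom₁⟩, hnode⟩ :=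
    hgeom ⟨cinstU H K0 c0 c1, cinstU_mem H K0 (ha2.mul_right q) _ _⟩ rfl τ hτ
  obtain ⟨hnode₀, hnode₁⟩ := hnode f₀ hf₀ hdiv hrat
  exact s34im_field M q hM K0 A0 H s hs ⟨c0, h0⟩ ⟨c1, h1⟩ hc hs0 hs1
    ⟨cinstU H K0 c0 c1, cinstU_mem H K0 (ha2.mul_right q) _ _⟩ rfl τ hτ htV₂ htV₂' hex m hm2 hmA
    hD₀ hD₁ hdom₀ hdom₁ f₀ hf₀ hdiv hnode₀ hnode₁

end Field

section Main

/-- **INST-PACK**: the statement consumed by the assembly.  `A` a valuation subring of `ℚ̄` over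
`q`, `σ` an element of its inertia group, `q ∤ M0`, `a2 ∣ M0` the level of a Hauptmodul record,
`m ≥ 2` prime to `q`.  If, for every pair of base points `c0, c1 ∈ A` such that `c0 - c1`,
`Qrad(c0)`, `Qrad(c1)` are units of `A`, the geometric input `S34ipGeom` holds over all finite
normal `K1 ⊆ ℚ̄` containing `c0`, `c1` and a finite set, then the core statement `S34hCore` of
the Kummer bridge holds over all finite normal `K1` containing a finite set. -/
theorem s34ip_main (M0 q : ℕ) [NeZero M0] [hq : Fact q.Prime] (hqM : ¬ q ∣ M0) {a2 : ℕ}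
    (Hr : HauptRec a2 q) (ha2 : a2 ∣ M0) (A : ValuationSubring Qb) (hA : A.LiesOverPrime q)
    (σ : Qb ≃ₐ[ℚ] Qb) (hσ : σ ∈ A.inertiaSubgroupIn ℚ) (m : ℕ) (hm2 : 2 ≤ m)
    (hmq : m.Coprime q)
    (hgeom : ∀ c0 c1 : Qb, c0 ∈ A → c1 ∈ A → smi2U A (c0 - c1) →
      smi2U A (aeval c0 Hr.Qrad) → smi2U A (aeval c1 Hr.Qrad) →
      ∃ T : Finset Qb, ∀ (K1 : IntermediateField ℚ Qb) [FiniteDimensional ℚ K1] [Normal ℚ K1]
        [IsDiscreteValuationRing ↥(A.comap (algebraMap ↥K1 Qb))]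
        (_ : ∀ c ∈ T, c ∈ K1) (hc0 : c0 ∈ K1) (hc1 : c1 ∈ K1),
        S34ipGeom M0 q hqM ↥K1 (A.comap (algebraMap ↥K1 Qb)) Hr ⟨c0, hc0⟩ ⟨c1, hc1⟩ m) :
    ∃ T : Finset Qb, ∀ (K1 : IntermediateField ℚ Qb) [FiniteDimensional ℚ K1] [Normal ℚ K1],
      (∀ c ∈ T, c ∈ K1) → S34hCore K1 σ (M0 * q) m := by
  classical
  obtain ⟨c0, c1, h0, h1, hU, hQ0, hQ1, hf0, hf1⟩ := s34ic_choice hq.out Hr A hA
  obtain ⟨T, hT⟩ := hgeom c0 c1 h0 h1 hU hQ0 hQ1
  refine ⟨insert c0 (insert c1 T), fun K1 _ _ hK1 => ?_⟩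
  have hc0 : c0 ∈ K1 := hK1 c0 (Finset.mem_insert_self _ _)
  have hc1 : c1 ∈ K1 := hK1 c1 (Finset.mem_insert_of_mem (Finset.mem_insert_self _ _))
  have hTK : ∀ c ∈ T, c ∈ K1 := fun c hc =>
    hK1 c (Finset.mem_insert_of_mem (Finset.mem_insert_of_mem hc))
  obtain ⟨hdvr, -, hqA0⟩ := dvd_isDVR_comap q hq.out.ne_zero A hA K1
  have := hdvr
  have hne : (⟨c0, hc0⟩ : ↥K1) ≠ ⟨c1, hc1⟩ := by
    intro h
    exact hU.2.1 (sub_eq_zero.mpr (congrArg Subtype.val h))
  have h01 : ((⟨c0, hc0⟩ : ↥K1) - ⟨c1, hc1⟩)⁻¹ ∈ A.comap (algebraMap ↥K1 Qb) := by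
    refine ValuationSubring.mem_comap.mpr ?_
    rw [map_inv₀, map_sub]
    exact hU.2.2
  have hmA : IsUnit ((m : ℕ) : ↥(A.comap (algebraMap ↥K1 Qb))) :=
    cinst_isUnit_natCast (A.comap (algebraMap ↥K1 Qb)) q hqA0 m hmq
  intro f0 hf0' hdiv hrat
  exact s34ip_core M0 q hqM ↥K1 (A.comap (algebraMap ↥K1 Qb)) Hr ha2 (σ.restrictNormal ↥K1)
    (sgi_restrict_inertia A K1 hσ) ⟨c0, hc0⟩ ⟨c1, hc1⟩ (ValuationSubring.mem_comap.mpr h0)
    (ValuationSubring.mem_comap.mpr h1) hne h01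
    (sgi_restrict_fix K1 σ ⟨c0, hc0⟩ (hf0 σ hσ)) (sgi_restrict_fix K1 σ ⟨c1, hc1⟩ (hf1 σ hσ))
    m hm2 hmA (hT K1 hTK hc0 hc1) f0 hf0' hdiv hrat

end Main

end Fermat.Agent.S34
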