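import Mathlib

/-!
# S34, leaf [INT]: the "Krull domain" fact for noetherian integrally closed domains

Mathlib has no Krull domains.  This file proves, from scratch, what the S34 geometry needs:

* `kri_exists_dvr_prime` : if `R` is a noetherian integrally closed domain with fraction field
  `F` and `x ∈ F` is not in `R`, then there is a prime `P` of `R` such that `R_P` is a principal
  ideal valuation ring of `F` which does not contain `x`
  (`P` is an associated prime of a principal ideal; `R = ⋂ R_P` over such primes);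
* `kri_exists_dvr_le` : the same through a given prime `n`: if `x ∉ R_n` there is such a `P ≤ n`;
* `kri_mem_localization`, `kri_unit_localization` : an element without pole (resp. with trivial
  divisor) along every such valuation ring through `n` lies in `R_n` (resp. is a unit of `R_n`);
* `kri_dvr_maximal` : a principal ideal valuation subring is a maximal proper subring;
* `kri_two_val`, `kri_two_val_unit` : the two-component form: if the special fibre `τ = 0` of `R`
  is reduced with generic points the centres of `V₁`, `V₂`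
  (`R ∩ m_{V₁} ∩ m_{V₂} = τ R`), then `x ∈ V₁ ∩ V₂` without horizontal pole through `n`
  (horizontal: `τ⁻¹ ∈ V`) lies in `R_n`;
* `kri_place_of_prime` : a prime `P ≠ ⊥` without nonzero prime strictly below it gives a
  principal ideal valuation ring `R_P` with centre `P`.
-/

set_option autoImplicit false

namespace Fermat.Agent.S34

open IsLocalRing

/-- If `y ∈ Frac S \ S` and `𝔪 · y ⊆ S` for a noetherian integrally closed local domain `S`,
then `𝔪` is principal. -/
theorem kri_maximalIdeal_isPrincipal {S F : Type*} [CommRing S] [IsDomain S] [IsLocalRing S]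
    [IsNoetherianRing S] [IsIntegrallyClosed S] [Field F] [Algebra S F] [IsFractionRing S F]
    (y : F) (hy : y ∉ Set.range (algebraMap S F))
    (hmy : ∀ z ∈ maximalIdeal S, algebraMap S F z * y ∈ Set.range (algebraMap S F)) :
    (maximalIdeal S).IsPrincipal := by
  classical
  have hinj : Function.Injective (algebraMap S F) := IsFractionRing.injective S F
  by_cases hA : ∃ z ∈ maximalIdeal S, ∃ u : S, IsUnit u ∧ algebraMap S F z * y = algebraMap S F u
  · -- case A: 𝔪 = (z)
    obtain ⟨z, hz, u, hu, hzu⟩ := hA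
    obtain ⟨u', hu'⟩ := hu.exists_right_inv
    refine ⟨⟨z, le_antisymm ?_ ?_⟩⟩
    · intro w hw
      obtain ⟨t, ht⟩ := hmy w hw
      have : w = (t * u') * z := by
        apply hinj
        have hy0 : y ≠ 0 := by
          rintro rfl
          exact hy ⟨0, by simp⟩
        have h1 : algebraMap S F u * algebraMap S F u' = 1 := by
          rw [← map_mul, hu', map_one]
        have h2 : algebraMap S F w * y = algebraMap S F t := ht.symm
        rw [map_mul, map_mul]
        have h3 : algebraMap S F w * y * (algebraMap S F u * algebraMap S F u')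
            = algebraMap S F t * algebraMap S F u' * (algebraMap S F z * y) := by
          rw [h2, hzu]; ring
        rw [h1, mul_one] at h3
        have h4 : (algebraMap S F w - algebraMap S F t * algebraMap S F u' * algebraMap S F z) * y
            = 0 := by
          rw [sub_mul, h3]; ring
        rcases mul_eq_zero.mp h4 with h5 | h5
        · exact sub_eq_zero.mp h5
        · exact absurd h5 hy0
      rw [this]
      exact Ideal.mem_span_singleton'.mpr ⟨t * u', rfl⟩
    · rw [Submodule.span_singleton_le_iff_mem]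
      exact hz
  · -- case B: 𝔪 · y ⊆ 𝔪, so y is integral, contradiction
    exfalso
    have hB : ∀ z ∈ maximalIdeal S, ∃ t ∈ maximalIdeal S,
        algebraMap S F z * y = algebraMap S F t := by
      intro z hz
      obtain ⟨t, ht⟩ := hmy z hz
      refine ⟨t, ?_, ht.symm⟩
      by_contra htm
      have : IsUnit t := by
        by_contra hnu
        exact htm ((IsLocalRing.mem_maximalIdeal t).mpr hnu)
      exact hA ⟨z, hz, t, this, ht.symm⟩
    let N : Submodule S F := Submodule.map (Algebra.linearMap S F) (maximalIdeal S)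
    have hNfg : N.FG := by
      have : (maximalIdeal S).FG := IsNoetherian.noetherian _
      exact Submodule.FG.map _ this
    have hNne : N ≠ ⊥ := by
      intro hN
      have hm : maximalIdeal S = ⊥ := by
        rw [eq_bot_iff]
        intro z hz
        have : algebraMap S F z ∈ N := Submodule.mem_map_of_mem (f := Algebra.linearMap S F) hz
        rw [hN, Submodule.mem_bot] at this
        rw [Submodule.mem_bot]
        exact hinj (by rw [this, map_zero])
      have hfield : IsField S := IsLocalRing.isField_iff_maximalIdeal_eq.mpr hm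
      have hsurj : Function.Surjective (algebraMap S F) :=
        (IsFractionRing.surjective_iff_isField (R := S) (K := F)).mpr hfield
      exact hy (hsurj y)
    have hint : IsIntegral S y := by
      refine isIntegral_of_smul_mem_submodule (M := F) N hNne hNfg y ?_
      intro n hn
      obtain ⟨z, hz, rfl⟩ := Submodule.mem_map.mp hn
      obtain ⟨t, ht, hzt⟩ := hB z hz
      refine Submodule.mem_map.mpr ⟨t, ht, ?_⟩
      show algebraMap S F t = y • algebraMap S F z
      rw [smul_eq_mul, mul_comm, hzt]
    obtain ⟨s, hs⟩ := (IsIntegrallyClosed.isIntegral_iff (R := S) (K := F)).mp hint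
    exact hy ⟨s, hs⟩

/-- Membership in the localisation of `R` at a prime, realised inside the fraction field. -/
theorem kri_mem_ofField {R F : Type*} [CommRing R] [IsDomain R] [Field F] [Algebra R F]
    [IsFractionRing R F] (P : Ideal R) [P.IsPrime] (x : F) :
    x ∈ Localization.subalgebra.ofField F P.primeCompl (Ideal.primeCompl_le_nonZeroDivisors P) ↔
      ∃ a s : R, s ∉ P ∧ x * algebraMap R F s = algebraMap R F a := by
  have hinj : Function.Injective (algebraMap R F) := IsFractionRing.injective R F
  constructor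
  · rintro ⟨a, s, hs, rfl⟩
    refine ⟨a, s, hs, ?_⟩
    have hs0 : algebraMap R F s ≠ 0 := by
      intro h
      have : s = 0 := hinj (by rw [h, map_zero])
      exact hs (this ▸ P.zero_mem)
    field_simp
  · rintro ⟨a, s, hs, h⟩
    refine ⟨a, s, hs, ?_⟩
    have hs0 : algebraMap R F s ≠ 0 := by
      intro h
      have : s = 0 := hinj (by rw [h, map_zero])
      exact hs (this ▸ P.zero_mem)
    rw [← h]; field_simp

/-- The localisation of a noetherian integrally closed domain at an associated prime of a
principal ideal is a principal ideal valuation ring. -/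
theorem kri_dvr_of_assoc {R F : Type*} [CommRing R] [IsDomain R] [IsNoetherianRing R]
    [IsIntegrallyClosed R] [Field F] [Algebra R F] [IsFractionRing R F]
    (P : Ideal R) [P.IsPrime] (b c : R) (hb : b ≠ 0) (hP : ∀ r : R, r ∈ P ↔ b ∣ r * c) :
    IsPrincipalIdealRing (Localization.subalgebra.ofField F P.primeCompl
        (Ideal.primeCompl_le_nonZeroDivisors P)) ∧
      ValuationRing (Localization.subalgebra.ofField F P.primeCompl
        (Ideal.primeCompl_le_nonZeroDivisors P)) := by
  classical
  have hinj : Function.Injective (algebraMap R F) := IsFractionRing.injective R F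
  have hb0 : algebraMap R F b ≠ 0 := fun h => hb (hinj (by rw [h, map_zero]))
  have hS : P.primeCompl ≤ nonZeroDivisors R := Ideal.primeCompl_le_nonZeroDivisors P
  let S' : Subalgebra R F := Localization.subalgebra.ofField F P.primeCompl hS
  have hloc : IsLocalization.AtPrime S' P := Localization.subalgebra.isLocalization_ofField F _ hS
  have hlocal : IsLocalRing S' := IsLocalization.AtPrime.isLocalRing S' P
  have hnoeth : IsNoetherianRing S' :=
    IsLocalization.isNoetherianRing P.primeCompl S' inferInstance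
  have hic : IsIntegrallyClosed S' := isIntegrallyClosed_of_isLocalization S' P.primeCompl hS
  have hprinc : (maximalIdeal S').IsPrincipal := by
    refine kri_maximalIdeal_isPrincipal (S := S') (F := F)
      (algebraMap R F c / algebraMap R F b) ?_ ?_
    · rintro ⟨⟨z, hz⟩, hzeq⟩
      have hzeq' : z = algebraMap R F c / algebraMap R F b := hzeq
      obtain ⟨a, s, hs, h⟩ := (kri_mem_ofField P z).mp hz
      apply hs
      rw [hP]
      refine ⟨a, ?_⟩
      apply hinj
      rw [map_mul, map_mul, ← h, hzeq']
      field_simp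
    · intro z hz
      obtain ⟨a, s, hs, h⟩ := (kri_mem_ofField P z.1).mp z.2
      have hs0 : algebraMap R F s ≠ 0 := by
        intro h0
        have : s = 0 := hinj (by rw [h0, map_zero])
        exact hs (this ▸ P.zero_mem)
      have haP : a ∈ P := by
        rw [← IsLocalization.AtPrime.to_map_mem_maximal_iff S' P a]
        have : algebraMap R S' a = z * algebraMap R S' s := by
          apply Subtype.ext
          exact h.symm
        rw [this]
        exact Ideal.mul_mem_right _ _ hz
      obtain ⟨d, hd⟩ := (hP a).mp haP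
      have hmem : (z : F) * (algebraMap R F c / algebraMap R F b) ∈ S' := by
        rw [kri_mem_ofField P]
        refine ⟨d, s, hs, ?_⟩
        have h1 : algebraMap R F a * algebraMap R F c = algebraMap R F b * algebraMap R F d := by
          rw [← map_mul, ← map_mul, hd]
        have h2 : (z : F) = algebraMap R F a / algebraMap R F s := by
          rw [← h]; field_simp
        rw [h2]
        field_simp
        linear_combination h1
      exact ⟨⟨_, hmem⟩, rfl⟩
  exact ⟨((tfae_of_isNoetherianRing_of_isLocalRing_of_isDomain S').out 4 0).mp hprinc,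
    ((tfae_of_isNoetherianRing_of_isLocalRing_of_isDomain S').out 4 1).mp hprinc⟩

/-- The valuation subring of `F` attached to a prime `P` of `R` such that `R_P` is a valuation
ring. -/
theorem kri_valuationSubring_of_prime {R F : Type*} [CommRing R] [IsDomain R] [Field F]
    [Algebra R F] [IsFractionRing R F] (P : Ideal R) [P.IsPrime]
    (hpid : IsPrincipalIdealRing (Localization.subalgebra.ofField F P.primeCompl
        (Ideal.primeCompl_le_nonZeroDivisors P)))
    (hval : ValuationRing (Localization.subalgebra.ofField F P.primeCompl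
        (Ideal.primeCompl_le_nonZeroDivisors P))) :
    ∃ V : ValuationSubring F, IsPrincipalIdealRing V ∧
      ∀ v : F, v ∈ V ↔ ∃ a s : R, s ∉ P ∧ v * algebraMap R F s = algebraMap R F a := by
  classical
  have hS : P.primeCompl ≤ nonZeroDivisors R := Ideal.primeCompl_le_nonZeroDivisors P
  let S' : Subalgebra R F := Localization.subalgebra.ofField F P.primeCompl hS
  let V : ValuationSubring F :=
    { S'.toSubring with
      mem_or_inv_mem' := by
        intro v
        rcases ValuationRing.isInteger_or_isInteger S' v with ⟨w, hw⟩ | ⟨w, hw⟩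
        · left
          rw [← hw]
          exact w.2
        · right
          rw [← hw]
          exact w.2 }
  have hVmem : ∀ v : F, v ∈ V ↔ v ∈ S' := fun v => Iff.rfl
  refine ⟨V, ?_, ?_⟩
  · let f : S' →+* V := (S'.val : S' →+* F).codRestrict V.toSubring (fun z => z.2)
    have hf : Function.Surjective f := fun v => ⟨⟨v.1, v.2⟩, rfl⟩
    exact IsPrincipalIdealRing.of_surjective f hf
  · intro v
    rw [hVmem, kri_mem_ofField P]

/-- **Krull-domain lemma.**  Let `R` be a noetherian integrally closed domain with fraction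
field `F`.  If `x ∈ F` is not in `R`, there is a prime `P` of `R` such that `R_P` is a
principal ideal valuation ring of `F` not containing `x`. -/
theorem kri_exists_dvr_prime {R F : Type*} [CommRing R] [IsDomain R] [IsNoetherianRing R]
    [IsIntegrallyClosed R] [Field F] [Algebra R F] [IsFractionRing R F]
    (x : F) (hx : x ∉ Set.range (algebraMap R F)) :
    ∃ (P : Ideal R) (_ : P.IsPrime) (V : ValuationSubring F), IsPrincipalIdealRing V ∧ x ∉ V ∧
      ∀ v : F, v ∈ V ↔ ∃ a s : R, s ∉ P ∧ v * algebraMap R F s = algebraMap R F a := by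
  classical
  have hinj : Function.Injective (algebraMap R F) := IsFractionRing.injective R F
  obtain ⟨a, b, hb, rfl⟩ := IsFractionRing.div_surjective (A := R) x
  have hb0 : b ≠ 0 := nonZeroDivisors.ne_zero hb
  have hb0' : algebraMap R F b ≠ 0 := fun h => hb0 (hinj (by rw [h, map_zero]))
  have hab : (Ideal.Quotient.mk (Ideal.span {b}) a) ≠ 0 := by
    intro h
    rw [Ideal.Quotient.eq_zero_iff_mem, Ideal.mem_span_singleton'] at h
    obtain ⟨c, hc⟩ := h
    apply hx
    refine ⟨c, ?_⟩
    rw [← hc, map_mul]; field_simp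
  obtain ⟨P, hP, hle⟩ := exists_le_isAssociatedPrime_of_isNoetherianRing R _ hab
  rw [isAssociatedPrime_iff] at hP
  obtain ⟨hPprime, y, hPy⟩ := hP
  obtain ⟨c, rfl⟩ := Ideal.Quotient.mk_surjective y
  have hsmul : ∀ r d : R, r • (Ideal.Quotient.mk (Ideal.span {b}) d) = 0 ↔ b ∣ r * d := by
    intro r d
    have : r • (Ideal.Quotient.mk (Ideal.span {b}) d)
        = Ideal.Quotient.mk (Ideal.span {b}) (r * d) := rfl
    rw [this, Ideal.Quotient.eq_zero_iff_mem, Ideal.mem_span_singleton]
  have hPmem : ∀ r : R, r ∈ P ↔ b ∣ r * c := by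
    intro r
    rw [hPy, Submodule.mem_colon_singleton, Submodule.mem_bot, hsmul]
  obtain ⟨hpid, hval⟩ := kri_dvr_of_assoc (F := F) P b c hb0 hPmem
  obtain ⟨V, hVpid, hV⟩ := kri_valuationSubring_of_prime (F := F) P hpid hval
  refine ⟨P, hPprime, V, hVpid, ?_, hV⟩
  intro hmem
  rw [hV] at hmem
  obtain ⟨a', s, hs, h⟩ := hmem
  apply hs
  apply hle
  rw [Submodule.mem_colon_singleton, Submodule.mem_bot, hsmul]
  refine ⟨a', ?_⟩
  apply hinj
  rw [map_mul, map_mul, ← h]
  field_simp

/-- The Krull-domain lemma without the prime: if `x ∉ R` there is a principal ideal valuation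
subring `V ⊇ R` of `F`, a localisation of `R`, with `x ∉ V`. -/
theorem kri_exists_dvr {R F : Type*} [CommRing R] [IsDomain R] [IsNoetherianRing R]
    [IsIntegrallyClosed R] [Field F] [Algebra R F] [IsFractionRing R F]
    (x : F) (hx : x ∉ Set.range (algebraMap R F)) :
    ∃ V : ValuationSubring F, (∀ r : R, algebraMap R F r ∈ V) ∧ IsPrincipalIdealRing V ∧ x ∉ V ∧
      ∀ v ∈ V, ∃ a s : R, algebraMap R F s ≠ 0 ∧ (algebraMap R F s)⁻¹ ∈ V ∧
        v * algebraMap R F s = algebraMap R F a := by
  have hinj : Function.Injective (algebraMap R F) := IsFractionRing.injective R F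
  obtain ⟨P, hP, V, hpid, hxV, hV⟩ := kri_exists_dvr_prime x hx
  refine ⟨V, ?_, hpid, hxV, ?_⟩
  · intro r
    rw [hV]
    exact ⟨r, 1, fun h => hP.ne_top ((Ideal.eq_top_iff_one P).mpr h), by simp⟩
  · intro v hv
    obtain ⟨a, s, hs, h⟩ := (hV v).mp hv
    have hs0 : algebraMap R F s ≠ 0 := by
      intro h0
      have : s = 0 := hinj (by rw [h0, map_zero])
      exact hs (this ▸ P.zero_mem)
    refine ⟨a, s, hs0, ?_, h⟩
    rw [hV]
    refine ⟨1, s, hs, ?_⟩
    rw [map_one]
    field_simp

/-- The Krull-domain lemma through a prime `n`: if `x ∉ R_n` there is a prime `P ≤ n` such that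
`R_P` is a principal ideal valuation ring of `F` not containing `x`. -/
theorem kri_exists_dvr_le {R F : Type*} [CommRing R] [IsDomain R] [IsNoetherianRing R]
    [IsIntegrallyClosed R] [Field F] [Algebra R F] [IsFractionRing R F]
    (n : Ideal R) [n.IsPrime] (x : F)
    (hx : ¬ ∃ a s : R, s ∉ n ∧ x * algebraMap R F s = algebraMap R F a) :
    ∃ (P : Ideal R) (_ : P.IsPrime) (V : ValuationSubring F), P ≤ n ∧ IsPrincipalIdealRing V ∧
      x ∉ V ∧ ∀ v : F, v ∈ V ↔ ∃ a s : R, s ∉ P ∧ v * algebraMap R F s = algebraMap R F a := by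
  classical
  have hinj : Function.Injective (algebraMap R F) := IsFractionRing.injective R F
  have hS : n.primeCompl ≤ nonZeroDivisors R := Ideal.primeCompl_le_nonZeroDivisors n
  let R' : Subalgebra R F := Localization.subalgebra.ofField F n.primeCompl hS
  have hloc : IsLocalization.AtPrime R' n := Localization.subalgebra.isLocalization_ofField F _ hS
  have hnoeth : IsNoetherianRing R' :=
    IsLocalization.isNoetherianRing n.primeCompl R' inferInstance
  have hic : IsIntegrallyClosed R' := isIntegrallyClosed_of_isLocalization R' n.primeCompl hS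
  have hx' : x ∉ Set.range (algebraMap R' F) := by
    rintro ⟨⟨z, hz⟩, rfl⟩
    exact hx ((kri_mem_ofField n z).mp hz)
  obtain ⟨P', hP', V, hpid, hxV, hV⟩ := kri_exists_dvr_prime (R := R') (F := F) x hx'
  have hunit : ∀ u : R, u ∉ n → algebraMap R R' u ∉ P' := fun u hu h =>
    hP'.ne_top (Ideal.eq_top_of_isUnit_mem _ h
      (IsLocalization.map_units (M := n.primeCompl) R' ⟨u, hu⟩))
  refine ⟨P'.comap (algebraMap R R'), Ideal.comap_isPrime _ _, V, ?_, hpid, hxV, ?_⟩
  · intro r hr
    by_contra hrn
    exact hunit r hrn hr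
  · intro v
    rw [hV]
    constructor
    · rintro ⟨a', s', hs', h⟩
      obtain ⟨a, w, hw, ha⟩ := (kri_mem_ofField n a'.1).mp a'.2
      obtain ⟨r, u, hu, hr⟩ := (kri_mem_ofField n s'.1).mp s'.2
      refine ⟨a * u, r * w, ?_, ?_⟩
      · intro hmem
        have hmem' : algebraMap R R' (r * w) ∈ P' := hmem
        rw [map_mul] at hmem'
        rcases hP'.mem_or_mem hmem' with h1 | h1
        · have hrs : algebraMap R R' r = s' * algebraMap R R' u := Subtype.ext hr.symm
          rw [hrs] at h1
          rcases hP'.mem_or_mem h1 with h2 | h2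
          · exact hs' h2
          · exact hunit u hu h2
        · exact hunit w hw h1
      · have h' : v * (s' : F) = (a' : F) := h
        rw [map_mul, map_mul, ← hr, ← ha, ← h']
        ring
    · rintro ⟨a, s, hs, h⟩
      exact ⟨algebraMap R R' a, algebraMap R R' s, hs, h⟩

/-- An element of `F` without pole along any principal ideal valuation ring of `F` through the
prime `n` of `R` lies in `R_n`. -/
theorem kri_mem_localization {R F : Type*} [CommRing R] [IsDomain R] [IsNoetherianRing R]
    [IsIntegrallyClosed R] [Field F] [Algebra R F] [IsFractionRing R F]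
    (n : Ideal R) [n.IsPrime] (x : F)
    (h : ∀ V : ValuationSubring F, (∀ r : R, algebraMap R F r ∈ V) →
      (∀ s : R, s ∉ n → (algebraMap R F s)⁻¹ ∈ V) → IsPrincipalIdealRing V → V ≠ ⊤ → x ∈ V) :
    ∃ a s : R, s ∉ n ∧ x * algebraMap R F s = algebraMap R F a := by
  have hinj : Function.Injective (algebraMap R F) := IsFractionRing.injective R F
  by_contra hx
  obtain ⟨P, hP, V, hPn, hpid, hxV, hV⟩ := kri_exists_dvr_le n x hx
  refine hxV (h V ?_ ?_ hpid ?_)
  · intro r
    rw [hV]
    exact ⟨r, 1, fun h => hP.ne_top ((Ideal.eq_top_iff_one P).mpr h), by simp⟩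
  · intro s hs
    have hs0 : algebraMap R F s ≠ 0 := by
      intro h0
      have : s = 0 := hinj (by rw [h0, map_zero])
      exact hs (this ▸ n.zero_mem)
    rw [hV]
    refine ⟨1, s, fun h => hs (hPn h), ?_⟩
    rw [map_one]
    field_simp
  · intro htop
    exact hxV (htop ▸ ValuationSubring.mem_top x)

/-- An element of `F` with trivial divisor along every principal ideal valuation ring of `F`
through the prime `n` of `R` is a unit of `R_n`. -/
theorem kri_unit_localization {R F : Type*} [CommRing R] [IsDomain R] [IsNoetherianRing R]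
    [IsIntegrallyClosed R] [Field F] [Algebra R F] [IsFractionRing R F]
    (n : Ideal R) [n.IsPrime] (x : F) (hx0 : x ≠ 0)
    (h : ∀ V : ValuationSubring F, (∀ r : R, algebraMap R F r ∈ V) →
      (∀ s : R, s ∉ n → (algebraMap R F s)⁻¹ ∈ V) → IsPrincipalIdealRing V → V ≠ ⊤ →
      x ∈ V ∧ x⁻¹ ∈ V) :
    ∃ a b : R, a ∉ n ∧ b ∉ n ∧ x * algebraMap R F b = algebraMap R F a := by
  have hinj : Function.Injective (algebraMap R F) := IsFractionRing.injective R F
  obtain ⟨a, s, hs, h1⟩ := kri_mem_localization n x (fun V h1 h2 h3 h4 => (h V h1 h2 h3 h4).1)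
  obtain ⟨a', s', hs', h2⟩ := kri_mem_localization n x⁻¹
    (fun V h1 h2 h3 h4 => (h V h1 h2 h3 h4).2)
  refine ⟨a, s, ?_, hs, h1⟩
  intro ha
  have hprod : a * a' = s * s' := by
    apply hinj
    rw [map_mul, map_mul, ← h1, ← h2]
    field_simp
  have : s * s' ∈ n := hprod ▸ Ideal.mul_mem_right _ _ ha
  rcases Ideal.IsPrime.mem_or_mem inferInstance this with h3 | h3
  · exact hs h3
  · exact hs' h3

/-- The nonunits of a valuation subring absorb multiplication by its elements. -/
theorem kri_nonunits_mul {F : Type*} [Field F] (V : ValuationSubring F) {x y : F}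
    (hx : x ∈ V.nonunits) (hy : y ∈ V) : x * y ∈ V.nonunits := by
  rw [ValuationSubring.mem_nonunits_iff, map_mul] at *
  have h2 := (V.valuation_le_one_iff _).mpr hy
  exact lt_of_le_of_lt (mul_le_of_le_one_right' h2) hx

/-- A principal ideal valuation subring of a field is a maximal proper subring. -/
theorem kri_dvr_maximal {F : Type*} [Field F] (V W : ValuationSubring F) (hVW : V ≤ W)
    (hV : IsPrincipalIdealRing V) (hW : W ≠ ⊤) : V = W := by
  refine le_antisymm hVW ?_
  by_contra hne
  obtain ⟨x, hxW, hxV⟩ := SetLike.not_le_iff_exists.mp hne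
  apply hW
  rw [eq_top_iff]
  intro y _
  by_cases hyV : y ∈ V
  · exact hVW hyV
  have hx' : x⁻¹ ∈ V := (V.mem_or_inv_mem x).resolve_left hxV
  have hy' : y⁻¹ ∈ V := (V.mem_or_inv_mem y).resolve_left hyV
  have hx0 : x ≠ 0 := by
    rintro rfl
    exact hxV V.zero_mem
  have hy0 : y ≠ 0 := by
    rintro rfl
    exact hyV V.zero_mem
  have hxm : (⟨x⁻¹, hx'⟩ : V) ∈ maximalIdeal V := by
    rw [mem_maximalIdeal, mem_nonunits_iff]
    intro hu
    obtain ⟨w, hw⟩ := hu.exists_right_inv
    apply hxV
    have hw' : x⁻¹ * (w : F) = 1 := congrArg Subtype.val hw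
    have : x = (w : F) := by
      field_simp at hw'
      exact hw'.symm
    rw [this]
    exact w.2
  have hyne : Ideal.span {(⟨y⁻¹, hy'⟩ : V)} ≠ ⊥ := by
    rw [Ne, Ideal.span_singleton_eq_bot]
    intro h0
    exact inv_ne_zero hy0 (congrArg Subtype.val h0)
  have h06 : IsPrincipalIdealRing V ↔ ∀ I : Ideal V, I ≠ ⊥ → ∃ n : ℕ, I = maximalIdeal V ^ n :=
    (tfae_of_isNoetherianRing_of_isLocalRing_of_isDomain V).out 0 6
  obtain ⟨k, hk⟩ := h06.mp hV (Ideal.span {⟨y⁻¹, hy'⟩}) hyne
  have hpow : (⟨x⁻¹, hx'⟩ : V) ^ k ∈ Ideal.span {(⟨y⁻¹, hy'⟩ : V)} := by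
    rw [hk]
    exact Ideal.pow_mem_pow hxm k
  obtain ⟨v, hv⟩ := Ideal.mem_span_singleton'.mp hpow
  have hv' : (v : F) * y⁻¹ = x⁻¹ ^ k := by
    have := congrArg Subtype.val hv
    simpa using this
  have hyeq : y = (v : F) * x ^ k := by
    have h3 : (v : F) = x⁻¹ ^ k * y := by
      rw [← hv']
      field_simp
    rw [h3, inv_pow]
    field_simp
  rw [hyeq]
  exact W.mul_mem _ _ (hVW v.2) (pow_mem hxW k)

/-- **Two-component form of [INT].**  `R` a noetherian integrally closed domain with fraction
field `F`; `V₁`, `V₂` proper valuation subrings of `F` containing `R` such that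
`R ∩ m_{V₁} ∩ m_{V₂} = τ R` (`hred`: the fibre `τ = 0` is reduced, with components the centres of
`V₁` and `V₂`).  If `x ∈ V₁ ∩ V₂` has no pole along any horizontal (`τ⁻¹ ∈ V`) principal ideal
valuation ring `V` of `F` through the prime `n`, then `x ∈ R_n`. -/
theorem kri_two_val {R F : Type*} [CommRing R] [IsDomain R] [IsNoetherianRing R]
    [IsIntegrallyClosed R] [Field F] [Algebra R F] [IsFractionRing R F]
    (V₁ V₂ : ValuationSubring F) (τ : R)
    (hV₁ : ∀ r : R, algebraMap R F r ∈ V₁) (hV₂ : ∀ r : R, algebraMap R F r ∈ V₂)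
    (hV₁top : V₁ ≠ ⊤) (hV₂top : V₂ ≠ ⊤)
    (hred : ∀ r : R, algebraMap R F r ∈ V₁.nonunits → algebraMap R F r ∈ V₂.nonunits → τ ∣ r)
    (n : Ideal R) [n.IsPrime] (x : F) (hx₁ : x ∈ V₁) (hx₂ : x ∈ V₂)
    (hhor : ∀ V : ValuationSubring F, (∀ r : R, algebraMap R F r ∈ V) →
      (∀ s : R, s ∉ n → (algebraMap R F s)⁻¹ ∈ V) → IsPrincipalIdealRing V → V ≠ ⊤ →
      (algebraMap R F τ)⁻¹ ∈ V → x ∈ V) :
    ∃ a s : R, s ∉ n ∧ x * algebraMap R F s = algebraMap R F a := by
  classical
  have hinj : Function.Injective (algebraMap R F) := IsFractionRing.injective R F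
  by_contra hx
  obtain ⟨P, hP, V, hPn, hpid, hxV, hV⟩ := kri_exists_dvr_le n x hx
  have hne0 : ∀ s : R, s ∉ P → algebraMap R F s ≠ 0 := by
    intro s hs h0
    have : s = 0 := hinj (by rw [h0, map_zero])
    exact hs (this ▸ P.zero_mem)
  have hRV : ∀ r : R, algebraMap R F r ∈ V := by
    intro r
    rw [hV]
    exact ⟨r, 1, fun h => hP.ne_top ((Ideal.eq_top_iff_one P).mpr h), by simp⟩
  have hinvV : ∀ s : R, s ∉ P → (algebraMap R F s)⁻¹ ∈ V := by
    intro s hs
    have hs0 := hne0 s hs
    rw [hV]
    refine ⟨1, s, hs, ?_⟩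
    rw [map_one]
    field_simp
  have hVtop : V ≠ ⊤ := fun htop => hxV (htop ▸ ValuationSubring.mem_top x)
  by_cases hτ : τ ∈ P
  · -- vertical: `V = V₁` or `V = V₂`
    have key : ∀ W : ValuationSubring F, (∀ r : R, algebraMap R F r ∈ W) →
        (∀ r : R, algebraMap R F r ∈ W.nonunits → r ∈ P) → V ≤ W := by
      intro W hW hc v hv
      obtain ⟨a, s, hs, h⟩ := (hV v).mp hv
      have hs0 := hne0 s hs
      have hsW : (algebraMap R F s)⁻¹ ∈ W := by
        by_contra hcon
        apply hs
        apply hc
        rw [ValuationSubring.mem_nonunits_iff_exists_mem_maximalIdeal]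
        refine ⟨hW s, ?_⟩
        rw [mem_maximalIdeal, mem_nonunits_iff]
        intro hu
        obtain ⟨w, hw⟩ := hu.exists_right_inv
        apply hcon
        have hw' : algebraMap R F s * (w : F) = 1 := congrArg Subtype.val hw
        have : (algebraMap R F s)⁻¹ = (w : F) := by
          field_simp
          exact hw'.symm
        rw [this]
        exact w.2
      have hveq : v = algebraMap R F a * (algebraMap R F s)⁻¹ := by
        rw [← h]
        field_simp
      rw [hveq]
      exact W.mul_mem _ _ (hW a) hsW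
    by_cases h1 : ∀ r : R, algebraMap R F r ∈ V₁.nonunits → r ∈ P
    · have : V = V₁ := kri_dvr_maximal V V₁ (key V₁ hV₁ h1) hpid hV₁top
      exact hxV (this ▸ hx₁)
    · by_cases h2 : ∀ r : R, algebraMap R F r ∈ V₂.nonunits → r ∈ P
      · have : V = V₂ := kri_dvr_maximal V V₂ (key V₂ hV₂ h2) hpid hV₂top
        exact hxV (this ▸ hx₂)
      · exfalso
        push Not at h1 h2
        obtain ⟨r₁, hr₁, hr₁P⟩ := h1
        obtain ⟨r₂, hr₂, hr₂P⟩ := h2
        have hm₁ : algebraMap R F (r₁ * r₂) ∈ V₁.nonunits := by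
          rw [map_mul]
          exact kri_nonunits_mul V₁ hr₁ (hV₁ r₂)
        have hm₂ : algebraMap R F (r₁ * r₂) ∈ V₂.nonunits := by
          rw [map_mul]
          rw [mul_comm]
          exact kri_nonunits_mul V₂ hr₂ (hV₂ r₁)
        obtain ⟨d, hd⟩ := hred _ hm₁ hm₂
        have : r₁ * r₂ ∈ P := hd ▸ Ideal.mul_mem_right _ _ hτ
        rcases hP.mem_or_mem this with h3 | h3
        · exact hr₁P h3
        · exact hr₂P h3
  · -- horizontal
    have hτinv : (algebraMap R F τ)⁻¹ ∈ V := hinvV τ hτ
    exact hxV (hhor V hRV (fun s hs => hinvV s (fun h => hs (hPn h))) hpid hVtop hτinv)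

/-- Unit form of `kri_two_val`: if `x ≠ 0` is a unit of `V₁` and of `V₂` and has neither zero nor
pole along any horizontal principal ideal valuation ring through `n`, then `x` is a unit of
`R_n`. -/
theorem kri_two_val_unit {R F : Type*} [CommRing R] [IsDomain R] [IsNoetherianRing R]
    [IsIntegrallyClosed R] [Field F] [Algebra R F] [IsFractionRing R F]
    (V₁ V₂ : ValuationSubring F) (τ : R)
    (hV₁ : ∀ r : R, algebraMap R F r ∈ V₁) (hV₂ : ∀ r : R, algebraMap R F r ∈ V₂)
    (hV₁top : V₁ ≠ ⊤) (hV₂top : V₂ ≠ ⊤)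
    (hred : ∀ r : R, algebraMap R F r ∈ V₁.nonunits → algebraMap R F r ∈ V₂.nonunits → τ ∣ r)
    (n : Ideal R) [n.IsPrime] (x : F) (hx0 : x ≠ 0)
    (hx₁ : x ∈ V₁) (hx₁' : x⁻¹ ∈ V₁) (hx₂ : x ∈ V₂) (hx₂' : x⁻¹ ∈ V₂)
    (hhor : ∀ V : ValuationSubring F, (∀ r : R, algebraMap R F r ∈ V) →
      (∀ s : R, s ∉ n → (algebraMap R F s)⁻¹ ∈ V) → IsPrincipalIdealRing V → V ≠ ⊤ →
      (algebraMap R F τ)⁻¹ ∈ V → x ∈ V ∧ x⁻¹ ∈ V) :
    ∃ a b : R, a ∉ n ∧ b ∉ n ∧ x * algebraMap R F b = algebraMap R F a := by
  have hinj : Function.Injective (algebraMap R F) := IsFractionRing.injective R F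
  obtain ⟨a, s, hs, h1⟩ := kri_two_val V₁ V₂ τ hV₁ hV₂ hV₁top hV₂top hred n x hx₁ hx₂
    (fun V h1 h2 h3 h4 h5 => (hhor V h1 h2 h3 h4 h5).1)
  obtain ⟨a', s', hs', h2⟩ := kri_two_val V₁ V₂ τ hV₁ hV₂ hV₁top hV₂top hred n x⁻¹ hx₁' hx₂'
    (fun V h1 h2 h3 h4 h5 => (hhor V h1 h2 h3 h4 h5).2)
  refine ⟨a, s, ?_, hs, h1⟩
  intro ha
  have hprod : a * a' = s * s' := by
    apply hinj
    rw [map_mul, map_mul, ← h1, ← h2]
    field_simp
  have : s * s' ∈ n := hprod ▸ Ideal.mul_mem_right _ _ ha
  rcases Ideal.IsPrime.mem_or_mem inferInstance this with h3 | h3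
  · exact hs h3
  · exact hs' h3

/-- **Height-one primes are places.**  Let `P` be a prime of the noetherian integrally closed
domain `R` such that every nonzero prime contained in `P` equals `P`.  Then `R_P` is a principal
ideal valuation ring `V` of `F`, with centre `P` on `R`. -/
theorem kri_place_of_prime {R F : Type*} [CommRing R] [IsDomain R] [IsNoetherianRing R]
    [IsIntegrallyClosed R] [Field F] [Algebra R F] [IsFractionRing R F]
    (P : Ideal R) [P.IsPrime]
    (hdim : ∀ Q : Ideal R, Q.IsPrime → Q ≠ ⊥ → Q ≤ P → Q = P) :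
    ∃ V : ValuationSubring F, IsPrincipalIdealRing V ∧
      (∀ v : F, v ∈ V ↔ ∃ a s : R, s ∉ P ∧ v * algebraMap R F s = algebraMap R F a) ∧
      (∀ r : R, algebraMap R F r ∈ V) ∧ (∀ r : R, algebraMap R F r ∈ V.nonunits ↔ r ∈ P) := by
  classical
  have hinj : Function.Injective (algebraMap R F) := IsFractionRing.injective R F
  have hS : P.primeCompl ≤ nonZeroDivisors R := Ideal.primeCompl_le_nonZeroDivisors P
  let S' : Subalgebra R F := Localization.subalgebra.ofField F P.primeCompl hS
  have hloc : IsLocalization.AtPrime S' P := Localization.subalgebra.isLocalization_ofField F _ hS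
  have hlocal : IsLocalRing S' := IsLocalization.AtPrime.isLocalRing S' P
  have hnoeth : IsNoetherianRing S' :=
    IsLocalization.isNoetherianRing P.primeCompl S' inferInstance
  have hic : IsIntegrallyClosed S' := isIntegrallyClosed_of_isLocalization S' P.primeCompl hS
  have h3 : IsIntegrallyClosed S' ∧ ∀ Q' : Ideal S', Q' ≠ ⊥ → Q'.IsPrime → Q' = maximalIdeal S' := by
    refine ⟨hic, fun Q' hQ'0 hQ' => ?_⟩
    have hmc : Ideal.map (algebraMap R S') (Q'.comap (algebraMap R S')) = Q' :=
      IsLocalization.map_under P.primeCompl S' Q'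
    have hQ : Q'.comap (algebraMap R S') = P := by
      refine hdim _ (Ideal.comap_isPrime _ _) ?_ ?_
      · intro h0
        rw [h0, Ideal.map_bot] at hmc
        exact hQ'0 hmc.symm
      · intro r hr
        by_contra hrP
        exact hQ'.ne_top (Ideal.eq_top_of_isUnit_mem _ hr
          (IsLocalization.map_units (M := P.primeCompl) S' ⟨r, hrP⟩))
    rw [← hmc, hQ]
    exact IsLocalization.AtPrime.map_eq_maximalIdeal P S'
  have h30 : (IsIntegrallyClosed S' ∧
      ∀ Q' : Ideal S', Q' ≠ ⊥ → Q'.IsPrime → Q' = maximalIdeal S') ↔ IsPrincipalIdealRing S' :=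
    (tfae_of_isNoetherianRing_of_isLocalRing_of_isDomain S').out 3 0
  have h31 : (IsIntegrallyClosed S' ∧
      ∀ Q' : Ideal S', Q' ≠ ⊥ → Q'.IsPrime → Q' = maximalIdeal S') ↔ ValuationRing S' :=
    (tfae_of_isNoetherianRing_of_isLocalRing_of_isDomain S').out 3 1
  obtain ⟨V, hVpid, hV⟩ := kri_valuationSubring_of_prime (F := F) P (h30.mp h3) (h31.mp h3)
  have hone : (1 : R) ∉ P := fun h => Ideal.IsPrime.ne_top inferInstance ((Ideal.eq_top_iff_one P).mpr h)
  have hRV : ∀ r : R, algebraMap R F r ∈ V := by
    intro r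
    rw [hV]
    exact ⟨r, 1, hone, by simp⟩
  refine ⟨V, hVpid, hV, hRV, ?_⟩
  intro r
  rw [ValuationSubring.mem_nonunits_iff_or]
  constructor
  · intro h
    by_contra hrP
    have hr0 : algebraMap R F r ≠ 0 := by
      intro h0
      have : r = 0 := hinj (by rw [h0, map_zero])
      exact hrP (this ▸ P.zero_mem)
    rcases h with h | h
    · exact hr0 h
    · apply h
      rw [hV]
      refine ⟨1, r, hrP, ?_⟩
      rw [map_one]
      field_simp
  · intro hrP
    by_cases hr0 : algebraMap R F r = 0
    · exact Or.inl hr0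
    · right
      intro hmem
      rw [hV] at hmem
      obtain ⟨a, s, hs, h⟩ := hmem
      apply hs
      have : s = a * r := by
        apply hinj
        rw [map_mul, ← h]
        field_simp
      rw [this]
      exact Ideal.mul_mem_left _ _ hrP

end Fermat.Agent.S34
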