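import Mathlib
import Fermat.Agent.S34.KrullInt

/-!
# S34, leaf [INT], subalgebra form

The statements of `KrullInt.lean` for a chart given as a subalgebra `O : Subalgebra A F` of a
field, with the elementwise hypotheses used by the S18 / S34 chart packages:

* `hfrac : ∀ x : F, ∃ a ∈ O, ∃ s ∈ O, s ≠ 0 ∧ x * s = a` (`F` is the fraction field of `O`);
* `hic : ∀ x : F, IsIntegral ↥O x → x ∈ O` (`O` is integrally closed in `F`);
* `hVτ : ∀ x ∈ O, x ∈ V₁.nonunits → x ∈ V₂.nonunits → ∃ y ∈ O, x = algebraMap A F τ * y`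
  (`O ∩ m_{V₁} ∩ m_{V₂} = τ O`).

* `kri_sub_isFractionRing`, `kri_sub_isIntegrallyClosed` : the instances;
* `kri_sub_mem_localization`, `kri_sub_unit_localization` : no pole (trivial divisor) along the
  principal ideal valuation rings through `𝔫` ⇒ element (unit) of `O_𝔫`;
* `kri_sub_two_val`, `kri_sub_two_val_unit` : the same with the vertical valuation rings replaced
  by `V₁`, `V₂`;
* `kri_sub_place_of_prime` : a height-one prime of `O` is the centre of a principal ideal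
  valuation ring `O_P`.
-/

set_option autoImplicit false

namespace Fermat.Agent.S34

section Sub

variable {A F : Type*} [CommRing A] [Field F] [Algebra A F]

/-- `F` is the fraction field of the subalgebra `O`. -/
theorem kri_sub_isFractionRing (O : Subalgebra A F)
    (hfrac : ∀ x : F, ∃ a ∈ O, ∃ s ∈ O, s ≠ 0 ∧ x * s = a) : IsFractionRing ↥O F := by
  have : FaithfulSMul ↥O F :=
    (faithfulSMul_iff_algebraMap_injective ↥O F).mpr Subtype.val_injective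
  exact IsFractionRing.of_field ↥O F (fun z => by
    obtain ⟨a, ha, s, hs, hs0, h⟩ := hfrac z
    refine ⟨⟨a, ha⟩, ⟨s, hs⟩, ?_⟩
    show z = a / s
    rw [eq_div_iff hs0]; exact h)

/-- A subalgebra of `F` which is integrally closed in `F` and has fraction field `F` is an
integrally closed domain. -/
theorem kri_sub_isIntegrallyClosed (O : Subalgebra A F)
    (hfrac : ∀ x : F, ∃ a ∈ O, ∃ s ∈ O, s ≠ 0 ∧ x * s = a)
    (hic : ∀ x : F, IsIntegral ↥O x → x ∈ O) : IsIntegrallyClosed ↥O := by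
  have := kri_sub_isFractionRing O hfrac
  rw [isIntegrallyClosed_iff F]
  intro x hx
  exact ⟨⟨x, hic x hx⟩, rfl⟩

/-- Subalgebra form of `kri_mem_localization`. -/
theorem kri_sub_mem_localization (O : Subalgebra A F) [IsNoetherianRing ↥O]
    (hfrac : ∀ x : F, ∃ a ∈ O, ∃ s ∈ O, s ≠ 0 ∧ x * s = a)
    (hic : ∀ x : F, IsIntegral ↥O x → x ∈ O)
    (𝔫 : Ideal ↥O) [𝔫.IsPrime] (x : F)
    (h : ∀ V : ValuationSubring F, (∀ y ∈ O, y ∈ V) →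
      (∀ s : ↥O, s ∉ 𝔫 → (s : F)⁻¹ ∈ V) → IsPrincipalIdealRing V → V ≠ ⊤ → x ∈ V) :
    ∃ a s : ↥O, s ∉ 𝔫 ∧ x * (s : F) = (a : F) := by
  have := kri_sub_isFractionRing O hfrac
  have := kri_sub_isIntegrallyClosed O hfrac hic
  exact kri_mem_localization (R := ↥O) (F := F) 𝔫 x
    (fun V h1 h2 h3 h4 => h V (fun y hy => h1 ⟨y, hy⟩) h2 h3 h4)

/-- Subalgebra form of `kri_unit_localization`. -/
theorem kri_sub_unit_localization (O : Subalgebra A F) [IsNoetherianRing ↥O]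
    (hfrac : ∀ x : F, ∃ a ∈ O, ∃ s ∈ O, s ≠ 0 ∧ x * s = a)
    (hic : ∀ x : F, IsIntegral ↥O x → x ∈ O)
    (𝔫 : Ideal ↥O) [𝔫.IsPrime] (x : F) (hx0 : x ≠ 0)
    (h : ∀ V : ValuationSubring F, (∀ y ∈ O, y ∈ V) →
      (∀ s : ↥O, s ∉ 𝔫 → (s : F)⁻¹ ∈ V) → IsPrincipalIdealRing V → V ≠ ⊤ → x ∈ V ∧ x⁻¹ ∈ V) :
    ∃ a b : ↥O, a ∉ 𝔫 ∧ b ∉ 𝔫 ∧ x * (b : F) = (a : F) := by
  have := kri_sub_isFractionRing O hfrac
  have := kri_sub_isIntegrallyClosed O hfrac hic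
  exact kri_unit_localization (R := ↥O) (F := F) 𝔫 x hx0
    (fun V h1 h2 h3 h4 => h V (fun y hy => h1 ⟨y, hy⟩) h2 h3 h4)

/-- A valuation subring with a nonzero nonunit is proper. -/
theorem kri_ne_top_of_nonunits (V : ValuationSubring F) {y : F} (hy : y ∈ V.nonunits)
    (hy0 : y ≠ 0) : V ≠ ⊤ := by
  rintro rfl
  rcases (ValuationSubring.mem_nonunits_iff_or _).mp hy with h | h
  · exact hy0 h
  · exact h (ValuationSubring.mem_top _)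

/-- **[INT], chart form.**  `O` a noetherian subalgebra of `F`, integrally closed in `F`, with
fraction field `F`, whose fibre `τ = 0` is reduced with components cut out by `V₁` and `V₂`
(`hVτ`).  If `x ∈ V₁ ∩ V₂` has no pole along any horizontal (`τ⁻¹ ∈ V`) principal ideal
valuation ring through the prime `𝔫` of `O`, then `x ∈ O_𝔫`. -/
theorem kri_sub_two_val (τ : A) (hτ0 : algebraMap A F τ ≠ 0) (O : Subalgebra A F)
    [IsNoetherianRing ↥O] (hfrac : ∀ x : F, ∃ a ∈ O, ∃ s ∈ O, s ≠ 0 ∧ x * s = a)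
    (hic : ∀ x : F, IsIntegral ↥O x → x ∈ O)
    (V₁ V₂ : ValuationSubring F) (hO₁ : ∀ y ∈ O, y ∈ V₁) (hO₂ : ∀ y ∈ O, y ∈ V₂)
    (hτV₁ : algebraMap A F τ ∈ V₁.nonunits) (hτV₂ : algebraMap A F τ ∈ V₂.nonunits)
    (hVτ : ∀ x ∈ O, x ∈ V₁.nonunits → x ∈ V₂.nonunits → ∃ y ∈ O, x = algebraMap A F τ * y)
    (𝔫 : Ideal ↥O) [𝔫.IsPrime] (x : F) (hx₁ : x ∈ V₁) (hx₂ : x ∈ V₂)
    (hhor : ∀ V : ValuationSubring F, (∀ y ∈ O, y ∈ V) →
      (∀ s : ↥O, s ∉ 𝔫 → (s : F)⁻¹ ∈ V) → IsPrincipalIdealRing V → V ≠ ⊤ →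
      (algebraMap A F τ)⁻¹ ∈ V → x ∈ V) :
    ∃ a s : ↥O, s ∉ 𝔫 ∧ x * (s : F) = (a : F) := by
  have := kri_sub_isFractionRing O hfrac
  have := kri_sub_isIntegrallyClosed O hfrac hic
  refine kri_two_val (R := ↥O) (F := F) V₁ V₂ (algebraMap A ↥O τ) (fun r => hO₁ r.1 r.2)
    (fun r => hO₂ r.1 r.2) (kri_ne_top_of_nonunits V₁ hτV₁ hτ0)
    (kri_ne_top_of_nonunits V₂ hτV₂ hτ0) ?_ 𝔫 x hx₁ hx₂
    (fun V h1 h2 h3 h4 h5 => hhor V (fun y hy => h1 ⟨y, hy⟩) h2 h3 h4 h5)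
  intro r hr1 hr2
  obtain ⟨y, hy, hry⟩ := hVτ r.1 r.2 hr1 hr2
  exact ⟨⟨y, hy⟩, Subtype.ext hry⟩

/-- Unit form of `kri_sub_two_val`. -/
theorem kri_sub_two_val_unit (τ : A) (hτ0 : algebraMap A F τ ≠ 0) (O : Subalgebra A F)
    [IsNoetherianRing ↥O] (hfrac : ∀ x : F, ∃ a ∈ O, ∃ s ∈ O, s ≠ 0 ∧ x * s = a)
    (hic : ∀ x : F, IsIntegral ↥O x → x ∈ O)
    (V₁ V₂ : ValuationSubring F) (hO₁ : ∀ y ∈ O, y ∈ V₁) (hO₂ : ∀ y ∈ O, y ∈ V₂)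
    (hτV₁ : algebraMap A F τ ∈ V₁.nonunits) (hτV₂ : algebraMap A F τ ∈ V₂.nonunits)
    (hVτ : ∀ x ∈ O, x ∈ V₁.nonunits → x ∈ V₂.nonunits → ∃ y ∈ O, x = algebraMap A F τ * y)
    (𝔫 : Ideal ↥O) [𝔫.IsPrime] (x : F) (hx0 : x ≠ 0)
    (hx₁ : x ∈ V₁) (hx₁' : x⁻¹ ∈ V₁) (hx₂ : x ∈ V₂) (hx₂' : x⁻¹ ∈ V₂)
    (hhor : ∀ V : ValuationSubring F, (∀ y ∈ O, y ∈ V) →
      (∀ s : ↥O, s ∉ 𝔫 → (s : F)⁻¹ ∈ V) → IsPrincipalIdealRing V → V ≠ ⊤ →
      (algebraMap A F τ)⁻¹ ∈ V → x ∈ V ∧ x⁻¹ ∈ V) :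
    ∃ a b : ↥O, a ∉ 𝔫 ∧ b ∉ 𝔫 ∧ x * (b : F) = (a : F) := by
  have := kri_sub_isFractionRing O hfrac
  have := kri_sub_isIntegrallyClosed O hfrac hic
  refine kri_two_val_unit (R := ↥O) (F := F) V₁ V₂ (algebraMap A ↥O τ) (fun r => hO₁ r.1 r.2)
    (fun r => hO₂ r.1 r.2) (kri_ne_top_of_nonunits V₁ hτV₁ hτ0)
    (kri_ne_top_of_nonunits V₂ hτV₂ hτ0) ?_ 𝔫 x hx0 hx₁ hx₁' hx₂ hx₂'
    (fun V h1 h2 h3 h4 h5 => hhor V (fun y hy => h1 ⟨y, hy⟩) h2 h3 h4 h5)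
  intro r hr1 hr2
  obtain ⟨y, hy, hry⟩ := hVτ r.1 r.2 hr1 hr2
  exact ⟨⟨y, hy⟩, Subtype.ext hry⟩

/-- Subalgebra form of `kri_place_of_prime`: a prime `P` of `O` without nonzero prime strictly
below it is the centre of the principal ideal valuation ring `O_P`. -/
theorem kri_sub_place_of_prime (O : Subalgebra A F) [IsNoetherianRing ↥O]
    (hfrac : ∀ x : F, ∃ a ∈ O, ∃ s ∈ O, s ≠ 0 ∧ x * s = a)
    (hic : ∀ x : F, IsIntegral ↥O x → x ∈ O)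
    (P : Ideal ↥O) [P.IsPrime]
    (hdim : ∀ Q : Ideal ↥O, Q.IsPrime → Q ≠ ⊥ → Q ≤ P → Q = P) :
    ∃ V : ValuationSubring F, IsPrincipalIdealRing V ∧ (∀ y ∈ O, y ∈ V) ∧
      (∀ y : ↥O, (y : F) ∈ V.nonunits ↔ y ∈ P) ∧
      ∀ v ∈ V, ∃ s : ↥O, s ∉ P ∧ (s : F) * v ∈ O := by
  have := kri_sub_isFractionRing O hfrac
  have := kri_sub_isIntegrallyClosed O hfrac hic
  obtain ⟨V, hpid, hV, hOV, hnon⟩ := kri_place_of_prime (R := ↥O) (F := F) P hdim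
  refine ⟨V, hpid, fun y hy => hOV ⟨y, hy⟩, hnon, ?_⟩
  intro v hv
  obtain ⟨a, s, hs, h⟩ := (hV v).mp hv
  refine ⟨s, hs, ?_⟩
  have h' : v * (s : F) = (a : F) := h
  rw [mul_comm, h']
  exact a.2

end Sub

end Fermat.Agent.S34
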