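import Mathlib
import Fermat.Agent.S34.LocRing
import Fermat.Agent.S34.KrullSub

/-!
# S34, leaf LOC-RING-2: the local ring of the chart below, and the map of local rings

`α : E →ₐ[A] F` an embedding of fields (the level-`M` function field into the level-`M q`
function field), `OE : Subalgebra A E` and `O : Subalgebra A F` charts with `α OE ⊆ O`, and `𝔫`
a prime ideal of `O`.

* `ndbRes α OE O hα : ↥OE →ₐ[A] ↥O`, the restriction of `α` to the charts;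
* `ndbBelow α OE O hα 𝔫 : Ideal ↥OE`, the point below `𝔫` (a prime ideal);
* the carrier of NODE-INST: `Λ₀ := ↥(ndrLoc OE (ndbBelow α OE O hα 𝔫))` (a subalgebra of `E`) and
  `Λ := ↥(ndrLoc O 𝔫)`, with `ndbAlgebra : Algebra Λ₀ Λ` (`x ↦ α x`), `ndbIsScalarTower`,
  `ndb_injective`, `ndb_tau_mem`, `ndb_mem_maximalIdeal_iff` (the map is local),
  `ndb_isIntegrallyClosed`, `ndb_isFractionRing`, `ndb_isFractionRing_top`;
* the tower `Λ₀ → E → F`, `Λ₀ → Λ → F` for the algebra structure `α.toRingHom.toAlgebra` on `F`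
  over `E`: `ndbAlgebraF`, `ndb_tower_E`, `ndb_tower_Λ`.
-/

set_option autoImplicit false

open IsLocalRing Polynomial

namespace Fermat.Agent.S34

section Two

variable {A E F : Type*} [CommRing A] [Field E] [Field F] [Algebra A E] [Algebra A F]
  (α : E →ₐ[A] F) (OE : Subalgebra A E) (O : Subalgebra A F) (hα : ∀ x ∈ OE, α x ∈ O)

/-- The restriction of `α` to the charts. -/
def ndbRes : ↥OE →ₐ[A] ↥O := (α.comp OE.val).codRestrict O (fun x => hα x x.2)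

theorem ndb_coe_res (x : ↥OE) : ((ndbRes α OE O hα x : ↥O) : F) = α (x : E) := rfl

theorem ndb_res_injective : Function.Injective (ndbRes α OE O hα) := by
  intro x y h
  have h1 : α (x : E) = α (y : E) := congrArg (fun z : ↥O => (z : F)) h
  exact Subtype.ext (α.toRingHom.injective h1)

/-- The point of the chart `OE` below the point `𝔫` of the chart `O`. -/
def ndbBelow (𝔫 : Ideal ↥O) : Ideal ↥OE := 𝔫.comap (ndbRes α OE O hα)

instance ndbBelowIsPrime (𝔫 : Ideal ↥O) [h𝔫 : 𝔫.IsPrime] : (ndbBelow α OE O hα 𝔫).IsPrime :=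
  Ideal.comap_isPrime _ 𝔫

theorem ndb_mem_below (𝔫 : Ideal ↥O) (x : ↥OE) :
    x ∈ ndbBelow α OE O hα 𝔫 ↔ ndbRes α OE O hα x ∈ 𝔫 := Iff.rfl

variable (𝔫 : Ideal ↥O) [h𝔫 : 𝔫.IsPrime]

/-- `α` maps the local ring below into the local ring above. -/
theorem ndb_map_mem {x : E} (hx : x ∈ ndrLoc OE (ndbBelow α OE O hα 𝔫)) : α x ∈ ndrLoc O 𝔫 := by
  obtain ⟨a, s, hs, h⟩ := hx
  refine ⟨ndbRes α OE O hα a, ndbRes α OE O hα s, hs, ?_⟩
  rw [ndb_coe_res, ndb_coe_res, ← map_mul, h]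

/-- The map of local rings induced by `α`. -/
def ndbHom : ↥(ndrLoc OE (ndbBelow α OE O hα 𝔫)) →ₐ[A] ↥(ndrLoc O 𝔫) :=
  (α.comp (ndrLoc OE (ndbBelow α OE O hα 𝔫)).val).codRestrict (ndrLoc O 𝔫)
    (fun x => ndb_map_mem α OE O hα 𝔫 x.2)

/-- The local ring above as an algebra over the local ring below. -/
instance ndbAlgebra : Algebra ↥(ndrLoc OE (ndbBelow α OE O hα 𝔫)) ↥(ndrLoc O 𝔫) :=
  (ndbHom α OE O hα 𝔫).toRingHom.toAlgebra

theorem ndb_coe_algebraMap (x : ↥(ndrLoc OE (ndbBelow α OE O hα 𝔫))) :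
    ((algebraMap ↥(ndrLoc OE (ndbBelow α OE O hα 𝔫)) ↥(ndrLoc O 𝔫) x : ↥(ndrLoc O 𝔫)) : F)
      = α (x : E) := rfl

instance ndbIsScalarTower :
    IsScalarTower A ↥(ndrLoc OE (ndbBelow α OE O hα 𝔫)) ↥(ndrLoc O 𝔫) :=
  IsScalarTower.of_algebraMap_eq fun a => by
    apply Subtype.ext
    show algebraMap A F a = α (algebraMap A E a)
    rw [α.commutes]

/-- `hinj` of `ndq_main`. -/
theorem ndb_injective :
    Function.Injective (algebraMap ↥(ndrLoc OE (ndbBelow α OE O hα 𝔫)) ↥(ndrLoc O 𝔫)) := by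
  intro x y h
  have h1 : α (x : E) = α (y : E) := congrArg (fun z : ↥(ndrLoc O 𝔫) => (z : F)) h
  exact Subtype.ext (α.toRingHom.injective h1)

/-- compatibility with the chart inclusions -/
theorem ndb_algebraMap_chart (x : ↥OE) :
    algebraMap ↥(ndrLoc OE (ndbBelow α OE O hα 𝔫)) ↥(ndrLoc O 𝔫)
        (algebraMap ↥OE ↥(ndrLoc OE (ndbBelow α OE O hα 𝔫)) x)
      = algebraMap ↥O ↥(ndrLoc O 𝔫) (ndbRes α OE O hα x) := rfl

/-- The map of local rings is local. -/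
theorem ndb_mem_maximalIdeal_iff (x : ↥(ndrLoc OE (ndbBelow α OE O hα 𝔫))) :
    algebraMap ↥(ndrLoc OE (ndbBelow α OE O hα 𝔫)) ↥(ndrLoc O 𝔫) x ∈
        maximalIdeal ↥(ndrLoc O 𝔫) ↔
      x ∈ maximalIdeal ↥(ndrLoc OE (ndbBelow α OE O hα 𝔫)) := by
  rw [ndr_mem_maximalIdeal_iff, ndr_mem_maximalIdeal_iff]
  constructor
  · rintro ⟨b, r, hb, hr, h⟩
    obtain ⟨a, s, hs, h1⟩ := x.2
    refine ⟨a, s, ?_, hs, h1⟩
    rw [ndb_mem_below]
    have h2 : ndbRes α OE O hα a * r = b * ndbRes α OE O hα s := by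
      apply Subtype.ext
      rw [Subalgebra.coe_mul, Subalgebra.coe_mul, ndb_coe_res, ndb_coe_res, ← h, ← h1, map_mul,
        ndb_coe_algebraMap]
      ring
    have h3 : ndbRes α OE O hα a * r ∈ 𝔫 := by rw [h2]; exact 𝔫.mul_mem_right _ hb
    exact (h𝔫.mem_or_mem h3).resolve_right hr
  · rintro ⟨a, s, ha, hs, h⟩
    refine ⟨ndbRes α OE O hα a, ndbRes α OE O hα s, ha, hs, ?_⟩
    rw [ndb_coe_res, ndb_coe_res, ndb_coe_algebraMap, ← map_mul, h]

theorem ndb_isUnit_iff (x : ↥(ndrLoc OE (ndbBelow α OE O hα 𝔫))) :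
    IsUnit (algebraMap ↥(ndrLoc OE (ndbBelow α OE O hα 𝔫)) ↥(ndrLoc O 𝔫) x) ↔ IsUnit x := by
  rw [← not_iff_not, ← mem_nonunits_iff, ← mem_nonunits_iff, ← IsLocalRing.mem_maximalIdeal,
    ← IsLocalRing.mem_maximalIdeal]
  exact ndb_mem_maximalIdeal_iff α OE O hα 𝔫 x

/-- `hτ0` of `ndq_main`. -/
theorem ndb_tau_mem (τ : A) (hτ : algebraMap A ↥O τ ∈ 𝔫) :
    algebraMap A ↥(ndrLoc OE (ndbBelow α OE O hα 𝔫)) τ ∈
      maximalIdeal ↥(ndrLoc OE (ndbBelow α OE O hα 𝔫)) := by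
  apply ndr_tau_mem
  rw [ndb_mem_below, AlgHom.commutes]
  exact hτ

/-- `E` is the fraction field of the local ring below. -/
theorem ndb_isFractionRing (hfracE : ∀ x : E, ∃ a ∈ OE, ∃ s ∈ OE, s ≠ 0 ∧ x * s = a) :
    IsFractionRing ↥(ndrLoc OE (ndbBelow α OE O hα 𝔫)) E :=
  kri_sub_isFractionRing _ fun x => by
    obtain ⟨a, ha, s, hs, hs0, h⟩ := hfracE x
    exact ⟨a, ndr_le _ _ ha, s, ndr_le _ _ hs, hs0, h⟩

/-- `F` is the fraction field of the local ring above. -/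
theorem ndb_isFractionRing_top (hfrac : ∀ x : F, ∃ a ∈ O, ∃ s ∈ O, s ≠ 0 ∧ x * s = a) :
    IsFractionRing ↥(ndrLoc O 𝔫) F :=
  kri_sub_isFractionRing _ fun x => by
    obtain ⟨a, ha, s, hs, hs0, h⟩ := hfrac x
    exact ⟨a, ndr_le _ _ ha, s, ndr_le _ _ hs, hs0, h⟩

/-- The local ring below is integrally closed. -/
theorem ndb_isIntegrallyClosed (hfracE : ∀ x : E, ∃ a ∈ OE, ∃ s ∈ OE, s ≠ 0 ∧ x * s = a)
    (hicE : ∀ x : E, IsIntegral ↥OE x → x ∈ OE) :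
    IsIntegrallyClosed ↥(ndrLoc OE (ndbBelow α OE O hα 𝔫)) := by
  have h1 : IsIntegrallyClosed ↥OE := kri_sub_isIntegrallyClosed OE hfracE hicE
  exact isIntegrallyClosed_of_isLocalization ↥(ndrLoc OE (ndbBelow α OE O hα 𝔫))
    (ndbBelow α OE O hα 𝔫).primeCompl (Ideal.primeCompl_le_nonZeroDivisors _)

end Two

end Fermat.Agent.S34
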