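import Mathlib
import Fermat.Agent.S34.LocRing2
import Fermat.Agent.S34.NodeDeg

/-!
# S34, leaf LOC-RING-3: the abstract node assembly at the carrier of `LocRing2`

`α : E →ₐ[A] F`, charts `OE ⊆ E`, `O ⊆ F` with `α OE ⊆ O`, `𝔫` a prime of `O`,
`Λ₀ := ndrLoc OE (ndbBelow α OE O hα 𝔫)`, `Λ := ndrLoc O 𝔫`.

* `ndc_main`: `ndd_main` at this carrier.  The towers `Λ₀ → E → F`, `Λ₀ → Λ → F` are built
  inside; the caller supplies an `E`-algebra structure on `F` whose structure map is `α`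
  (`algebraAlong α`), the degree `[F : E] = q + 1`, the chart facts `hfracE`, `hicE`, `hfrac`,
  the finiteness `Module.Finite Λ₀ Λ`, and the geometric hypotheses `hxy`, `hmax`, `hunif` of
  `ndq_main`.
* `ndc_gam`: composition with `ndr_ev`: the hypothesis `hgam` of `lnd_main_pl` /
  `lni_node_swap` at `𝔫`, with `hunif` asked for the `A`-points of `Λ` given with their place.
-/

set_option autoImplicit false

open IsLocalRing Polynomial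

namespace Fermat.Agent.S34

section Carrier

variable {A E F : Type*} [CommRing A] [IsDomain A] [IsDiscreteValuationRing A]
  [Field E] [Field F] [Algebra A E] [Algebra A F]
  (α : E →ₐ[A] F) (OE : Subalgebra A E) (O : Subalgebra A F) (hα : ∀ x ∈ OE, α x ∈ O)

/-- **The abstract node assembly at the carrier** `Λ₀ = ndrLoc OE (ndbBelow α OE O hα 𝔫)`,
`Λ = ndrLoc O 𝔫`: the conclusion of `nda_main` for an `A`-point `ev` of `Λ`. -/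
theorem ndc_main (𝔫 : Ideal ↥O) [h𝔫 : 𝔫.IsPrime] [IsNoetherianRing ↥O]
    [Algebra E F] (hEF : ∀ x : E, algebraMap E F x = α x)
    (hfracE : ∀ x : E, ∃ a ∈ OE, ∃ s ∈ OE, s ≠ 0 ∧ x * s = a)
    (hicE : ∀ x : E, IsIntegral ↥OE x → x ∈ OE)
    (hfrac : ∀ x : F, ∃ a ∈ O, ∃ s ∈ O, s ≠ 0 ∧ x * s = a)
    [Module.Finite ↥(ndrLoc OE (ndbBelow α OE O hα 𝔫)) ↥(ndrLoc O 𝔫)]
    {τ : A} (hτ : Irreducible τ) (hτ𝔫 : algebraMap A ↥O τ ∈ 𝔫)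
    {q : ℕ} (hq : q ≠ 0) (hfin : Module.finrank E F = q + 1)
    (h : ↥(ndrLoc OE (ndbBelow α OE O hα 𝔫))) (θ : ↥(ndrLoc O 𝔫))
    (hxy : ∃ l : ↥(ndrLoc O 𝔫),
      (algebraMap ↥(ndrLoc OE (ndbBelow α OE O hα 𝔫)) ↥(ndrLoc O 𝔫) h ^ q - θ)
        * (algebraMap ↥(ndrLoc OE (ndbBelow α OE O hα 𝔫)) ↥(ndrLoc O 𝔫) h - θ ^ q)
      = algebraMap A ↥(ndrLoc O 𝔫) τ * l)
    (hmax : maximalIdeal ↥(ndrLoc O 𝔫) = Ideal.span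
      {algebraMap A ↥(ndrLoc O 𝔫) τ,
        algebraMap ↥(ndrLoc OE (ndbBelow α OE O hα 𝔫)) ↥(ndrLoc O 𝔫) h ^ q - θ,
        algebraMap ↥(ndrLoc OE (ndbBelow α OE O hα 𝔫)) ↥(ndrLoc O 𝔫) h - θ ^ q})
    (ev : ↥(ndrLoc O 𝔫) →ₐ[A] A)
    (hunif : ∃ s u : ↥(ndrLoc O 𝔫), ev s ≠ 0 ∧
      s * (θ - algebraMap A ↥(ndrLoc O 𝔫) (ev θ))
        = (algebraMap ↥(ndrLoc OE (ndbBelow α OE O hα 𝔫)) ↥(ndrLoc O 𝔫) h
            - algebraMap A ↥(ndrLoc O 𝔫)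
                (ev (algebraMap ↥(ndrLoc OE (ndbBelow α OE O hα 𝔫)) ↥(ndrLoc O 𝔫) h))) * u) :
    ∃ g : ↥(ndrLoc O 𝔫), ev g = 0 ∧ ∃ c : A, c ≠ 0 ∧
      ∀ w : ↥(ndrLoc O 𝔫), ev w = 0 →
        ∃ u : ↥(ndrLoc O 𝔫), algebraMap A ↥(ndrLoc O 𝔫) c * w = g * u := by
  have hic := ndb_isIntegrallyClosed α OE O hα 𝔫 hfracE hicE
  have hfr := ndb_isFractionRing α OE O hα 𝔫 hfracE
  have ht1 : IsScalarTower ↥(ndrLoc OE (ndbBelow α OE O hα 𝔫)) E F := inferInstance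
  have ht2 : IsScalarTower ↥(ndrLoc OE (ndbBelow α OE O hα 𝔫)) ↥(ndrLoc O 𝔫) F :=
    IsScalarTower.of_algebraMap_eq fun x => by
      show algebraMap E F (x : E) = α (x : E)
      exact hEF _
  exact ndd_main (E := E) (F := F) Subtype.val_injective (ndr_hfrac O 𝔫 hfrac)
    (ndb_injective α OE O hα 𝔫) hτ (ndb_tau_mem α OE O hα 𝔫 τ hτ𝔫) hq hfin h θ hxy hmax ev hunif

/-- **The node hypothesis `hgam` of `lnd_main_pl` / `lni_node_swap` at a closed point `𝔫`**, from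
the abstract node assembly at the carrier; `hunif` is asked for the `A`-points of the local ring
`Λ = ndrLoc O 𝔫` given with their place `V` (the shape of `nul_hunif`). -/
theorem ndc_gam (𝔫 : Ideal ↥O) [h𝔫 : 𝔫.IsMaximal] [IsNoetherianRing ↥O]
    [Algebra E F] (hEF : ∀ x : E, algebraMap E F x = α x)
    (hfracE : ∀ x : E, ∃ a ∈ OE, ∃ s ∈ OE, s ≠ 0 ∧ x * s = a)
    (hicE : ∀ x : E, IsIntegral ↥OE x → x ∈ OE)
    (hfrac : ∀ x : F, ∃ a ∈ O, ∃ s ∈ O, s ≠ 0 ∧ x * s = a)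
    [Module.Finite ↥(ndrLoc OE (ndbBelow α OE O hα 𝔫)) ↥(ndrLoc O 𝔫)]
    {τ : A} (hτ : Irreducible τ) (hτ𝔫 : algebraMap A ↥O τ ∈ 𝔫)
    {q : ℕ} (hq : q ≠ 0) (hfin : Module.finrank E F = q + 1)
    (h : ↥(ndrLoc OE (ndbBelow α OE O hα 𝔫))) (θ : ↥(ndrLoc O 𝔫))
    (hxy : ∃ l : ↥(ndrLoc O 𝔫),
      (algebraMap ↥(ndrLoc OE (ndbBelow α OE O hα 𝔫)) ↥(ndrLoc O 𝔫) h ^ q - θ)
        * (algebraMap ↥(ndrLoc OE (ndbBelow α OE O hα 𝔫)) ↥(ndrLoc O 𝔫) h - θ ^ q)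
      = algebraMap A ↥(ndrLoc O 𝔫) τ * l)
    (hmax : maximalIdeal ↥(ndrLoc O 𝔫) = Ideal.span
      {algebraMap A ↥(ndrLoc O 𝔫) τ,
        algebraMap ↥(ndrLoc OE (ndbBelow α OE O hα 𝔫)) ↥(ndrLoc O 𝔫) h ^ q - θ,
        algebraMap ↥(ndrLoc OE (ndbBelow α OE O hα 𝔫)) ↥(ndrLoc O 𝔫) h - θ ^ q})
    (hunif : ∀ (ev : ↥(ndrLoc O 𝔫) →ₐ[A] A) (V : ValuationSubring F),
      IsPrincipalIdealRing V →
      (∀ y : ↥(ndrLoc O 𝔫), (y : F) ∈ V ∧ (y : F) - algebraMap A F (ev y) ∈ V.nonunits) →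
      (∀ x ∈ V, ∃ s : ↥(ndrLoc O 𝔫), ev s ≠ 0 ∧ (s : F) * x ∈ ndrLoc O 𝔫) →
      ∃ s u : ↥(ndrLoc O 𝔫), ev s ≠ 0 ∧
        s * (θ - algebraMap A ↥(ndrLoc O 𝔫) (ev θ))
          = (algebraMap ↥(ndrLoc OE (ndbBelow α OE O hα 𝔫)) ↥(ndrLoc O 𝔫) h
              - algebraMap A ↥(ndrLoc O 𝔫)
                  (ev (algebraMap ↥(ndrLoc OE (ndbBelow α OE O hα 𝔫)) ↥(ndrLoc O 𝔫) h))) * u)
    (ev : ↥O →ₐ[A] A) (V : ValuationSubring F) (hV : IsPrincipalIdealRing V)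
    (hOV : ∀ x ∈ O, x ∈ V)
    (hVO : ∀ x ∈ V, ∃ s : ↥O, ev s ≠ 0 ∧ (s : F) * x ∈ O)
    (hev : ∀ y : ↥O, (y : F) - algebraMap A F (ev y) ∈ V.nonunits)
    (hloc : ∀ x ∈ 𝔫, ¬ IsUnit (ev x)) :
    ∃ g : ↥O, ev g = 0 ∧ ∃ c : A, c ≠ 0 ∧ ∀ w : ↥O, ev w = 0 →
      ∃ s u : ↥O, s ∉ 𝔫 ∧ algebraMap A ↥O c * (s * w) = g * u := by
  obtain ⟨evΛ, -, h2, h3, h4, htr⟩ := ndr_ev O 𝔫 ev V hOV hVO hev hloc
  exact htr (ndc_main α OE O hα 𝔫 hEF hfracE hicE hfrac hτ hτ𝔫 hq hfin h θ hxy hmax evΛ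
    (hunif evΛ V hV (fun y => ⟨h2 y, h3 y⟩) h4))

end Carrier

end Fermat.Agent.S34
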