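import Mathlib
import Fermat.Agent.S18.Charts

/-!
# Transfer of the local hypothesis `(LOC)` along domination and along an automorphism

The local hypothesis `(LOC)` of `ulo_main` (`S34/UnipLoc.lean`) at a maximal ideal `𝔫` of a chart
`O` only depends on the local ring `O_𝔫 ⊆ F`.  If `O'` is a second chart and `w` an `A`-linear
ring endomorphism of `F` with `w(O') ⊆ O_𝔫`, then `𝔫' := {x ∈ O' | w x ∈ 𝔫 O_𝔫}` is a prime ideal
of `O'` (maximal when `O ⧸ 𝔫` is integral over `A`), and `(LOC)` at `(O', 𝔫')` for `f₁` implies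
`(LOC)` at `(O, 𝔫)` for `w f₁`.

* `ultLoc O 𝔫`: the local ring `O_𝔫` as a subalgebra of `F`; `ult_loc_integral_closed`.
* `ultComap O O' 𝔫 w hdom`: the ideal `𝔫'`; `ult_comap_isPrime`, `ult_comap_isMaximal`,
  `ult_not_mem_comap`, `ult_comap_of_nonunits`.
* `ult_transfer`: transfer of `(LOC)`.
-/

set_option autoImplicit false

namespace Fermat.Agent.S34

open Polynomial

section LocTransfer

variable {A F : Type*} [CommRing A] [Field F] [Algebra A F]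

/-- The local ring of the chart `O` at the prime ideal `𝔫`, as a subalgebra of `F`. -/
def ultLoc (O : Subalgebra A F) (𝔫 : Ideal ↥O) [h𝔫 : 𝔫.IsPrime] : Subalgebra A F where
  carrier := {x | ∃ a s : ↥O, s ∉ 𝔫 ∧ x * (s : F) = (a : F)}
  mul_mem' := by
    rintro x y ⟨a, s, hs, hx⟩ ⟨a', s', hs', hy⟩
    refine ⟨a * a', s * s', fun h => (h𝔫.mem_or_mem h).elim hs hs', ?_⟩
    push_cast; rw [← hx, ← hy]; ring
  add_mem' := by
    rintro x y ⟨a, s, hs, hx⟩ ⟨a', s', hs', hy⟩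
    refine ⟨a * s' + a' * s, s * s', fun h => (h𝔫.mem_or_mem h).elim hs hs', ?_⟩
    push_cast; rw [← hx, ← hy]; ring
  algebraMap_mem' := fun r =>
    ⟨algebraMap A ↥O r, 1, fun h => h𝔫.ne_top ((Ideal.eq_top_iff_one _).mpr h), by simp⟩

theorem ult_mem_loc (O : Subalgebra A F) (𝔫 : Ideal ↥O) [𝔫.IsPrime] (x : F) :
    x ∈ ultLoc O 𝔫 ↔ ∃ a s : ↥O, s ∉ 𝔫 ∧ x * (s : F) = (a : F) := Iff.rfl

theorem ult_le_loc (O : Subalgebra A F) (𝔫 : Ideal ↥O) [h𝔫 : 𝔫.IsPrime] : O ≤ ultLoc O 𝔫 :=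
  fun x hx => ⟨⟨x, hx⟩, 1, fun h => h𝔫.ne_top ((Ideal.eq_top_iff_one _).mpr h), by simp⟩

theorem ult_coe_ne_zero (O : Subalgebra A F) (𝔫 : Ideal ↥O) (s : ↥O) (hs : s ∉ 𝔫) :
    (s : F) ≠ 0 := by
  intro h
  apply hs
  have : s = 0 := Subtype.ext h
  rw [this]; exact 𝔫.zero_mem

/-- Inverses of elements outside `𝔫` lie in the local ring. -/
theorem ult_inv_mem_loc (O : Subalgebra A F) (𝔫 : Ideal ↥O) [𝔫.IsPrime] (s : ↥O)
    (hs : s ∉ 𝔫) : ((s : F))⁻¹ ∈ ultLoc O 𝔫 :=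
  ⟨1, s, hs, by rw [inv_mul_cancel₀ (ult_coe_ne_zero O 𝔫 s hs)]; rfl⟩

/-- The numerator of an element of the local ring is well defined modulo `𝔫`. -/
theorem ult_num_mem (O : Subalgebra A F) (𝔫 : Ideal ↥O) [h𝔫 : 𝔫.IsPrime] (x : F)
    (a s a' s' : ↥O) (hs : s ∉ 𝔫) (hx : x * (s : F) = (a : F))
    (hx' : x * (s' : F) = (a' : F)) (ha : a ∈ 𝔫) : a' ∈ 𝔫 := by
  have h1 : a' * s = a * s' := by
    apply Subtype.ext
    push_cast
    rw [← hx, ← hx']; ring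
  have h2 : a' * s ∈ 𝔫 := by rw [h1]; exact 𝔫.mul_mem_right _ ha
  exact (h𝔫.mem_or_mem h2).resolve_right hs

/-- The local ring of an integrally closed chart is integrally closed in `F`. -/
theorem ult_loc_integral_closed (O : Subalgebra A F) (𝔫 : Ideal ↥O) [h𝔫 : 𝔫.IsPrime]
    (hcl : ∀ z : F, IsIntegral ↥O z → z ∈ O) (z : F) (hz : IsIntegral ↥(ultLoc O 𝔫) z) :
    z ∈ ultLoc O 𝔫 := by
  classical
  obtain ⟨P, hPm, hPc, hPz⟩ := (Fermat.Agent.S18.cht_isIntegral_iff (ultLoc O 𝔫) z).mp hz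
  set n := P.natDegree with hn
  -- a common denominator of the coefficients
  have hden : ∀ i : ℕ, ∃ s : ↥O, s ∉ 𝔫 ∧ P.coeff i * (s : F) ∈ O := by
    intro i
    obtain ⟨a, s, hs, h⟩ := hPc i
    exact ⟨s, hs, by rw [h]; exact a.2⟩
  choose d hd hdO using hden
  set s : ↥O := ∏ i ∈ Finset.range n, d i with hs
  have hs𝔫 : s ∉ 𝔫 := by
    intro h
    obtain ⟨i, -, hi⟩ := (h𝔫.prod_mem_iff).mp h
    exact hd i hi
  have hsO : ∀ i < n, P.coeff i * (s : F) ∈ O := by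
    intro i hi
    have h1 : s = d i * ∏ j ∈ (Finset.range n).erase i, d j := by
      rw [hs, Finset.mul_prod_erase _ _ (Finset.mem_range.mpr hi)]
    rw [h1]
    push_cast
    rw [← mul_assoc]
    exact O.mul_mem (hdO i) (Subalgebra.prod_mem _ fun j _ => (d j).2)
  -- `s * z` is integral over `O`
  have hint : IsIntegral ↥O ((s : F) * z) := by
    have hQ : ∀ i, (scaleRoots P (s : F)).coeff i ∈ O := by
      intro i
      rw [coeff_scaleRoots, ← hn]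
      rcases lt_trichotomy i n with hi | hi | hi
      · have h1 : P.coeff i * (s : F) ^ (n - i) =
            (P.coeff i * (s : F)) * (s : F) ^ (n - i - 1) := by
          obtain ⟨k, hk⟩ : ∃ k, n - i = k + 1 := ⟨n - i - 1, by omega⟩
          rw [hk, pow_succ, Nat.add_sub_cancel]; ring
        rw [h1]
        exact O.mul_mem (hsO i hi) (O.pow_mem s.2 _)
      · rw [hi, Nat.sub_self, pow_zero, mul_one, hn]
        have : P.coeff P.natDegree = 1 := hPm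
        rw [this]; exact O.one_mem
      · rw [coeff_eq_zero_of_natDegree_lt (by omega), zero_mul]; exact O.zero_mem
    rw [Fermat.Agent.S18.cht_isIntegral_iff]
    exact ⟨scaleRoots P (s : F), (monic_scaleRoots_iff _).mpr hPm, hQ, by
      rw [scaleRoots_eval_mul, hPz, mul_zero]⟩
  have hsz : (s : F) * z ∈ O := hcl _ hint
  exact ⟨⟨_, hsz⟩, s, hs𝔫, by rw [mul_comm]⟩

/-- The contraction to `O'`, along `w`, of the maximal ideal of the local ring `O_𝔫`. -/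
def ultComap (O O' : Subalgebra A F) (𝔫 : Ideal ↥O) [h𝔫 : 𝔫.IsPrime] (w : F →+* F)
    (hdom : ∀ x ∈ O', w x ∈ ultLoc O 𝔫) : Ideal ↥O' where
  carrier := {x | ∃ a s : ↥O, a ∈ 𝔫 ∧ s ∉ 𝔫 ∧ w (x : F) * (s : F) = (a : F)}
  add_mem' := by
    rintro x y ⟨a, s, ha, hs, hx⟩ ⟨a', s', ha', hs', hy⟩
    refine ⟨a * s' + a' * s, s * s', 𝔫.add_mem (𝔫.mul_mem_right _ ha) (𝔫.mul_mem_right _ ha'),
      fun h => (h𝔫.mem_or_mem h).elim hs hs', ?_⟩
    push_cast; rw [map_add, ← hx, ← hy]; ring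
  zero_mem' := ⟨0, 1, 𝔫.zero_mem, fun h => h𝔫.ne_top ((Ideal.eq_top_iff_one _).mpr h), by simp⟩
  smul_mem' := by
    rintro r x ⟨a, s, ha, hs, hx⟩
    obtain ⟨b, s', hs', hr⟩ := hdom r r.2
    refine ⟨b * a, s' * s, 𝔫.mul_mem_left _ ha, fun h => (h𝔫.mem_or_mem h).elim hs' hs, ?_⟩
    rw [smul_eq_mul]; push_cast; rw [map_mul, ← hx, ← hr]; ring

theorem ult_mem_comap (O O' : Subalgebra A F) (𝔫 : Ideal ↥O) [𝔫.IsPrime] (w : F →+* F)
    (hdom : ∀ x ∈ O', w x ∈ ultLoc O 𝔫) (x : ↥O') :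
    x ∈ ultComap O O' 𝔫 w hdom ↔
      ∃ a s : ↥O, a ∈ 𝔫 ∧ s ∉ 𝔫 ∧ w (x : F) * (s : F) = (a : F) := Iff.rfl

/-- An element outside `𝔫'` has numerators outside `𝔫`. -/
theorem ult_not_mem_comap (O O' : Subalgebra A F) (𝔫 : Ideal ↥O) [𝔫.IsPrime] (w : F →+* F)
    (hdom : ∀ x ∈ O', w x ∈ ultLoc O 𝔫) (x : ↥O') (hx : x ∉ ultComap O O' 𝔫 w hdom)
    (a s : ↥O) (hs : s ∉ 𝔫) (h : w (x : F) * (s : F) = (a : F)) : a ∉ 𝔫 :=
  fun ha => hx ⟨a, s, ha, hs, h⟩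

/-- An element of `𝔫'` has all its numerators in `𝔫`. -/
theorem ult_mem_comap_num (O O' : Subalgebra A F) (𝔫 : Ideal ↥O) [𝔫.IsPrime] (w : F →+* F)
    (hdom : ∀ x ∈ O', w x ∈ ultLoc O 𝔫) (x : ↥O') (hx : x ∈ ultComap O O' 𝔫 w hdom)
    (a s : ↥O) (h : w (x : F) * (s : F) = (a : F)) : a ∈ 𝔫 := by
  obtain ⟨a₀, s₀, ha₀, hs₀, h₀⟩ := hx
  exact ult_num_mem O 𝔫 _ a₀ s₀ a s hs₀ h₀ h ha₀

theorem ult_comap_isPrime (O O' : Subalgebra A F) (𝔫 : Ideal ↥O) [h𝔫 : 𝔫.IsPrime]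
    (w : F →+* F) (hdom : ∀ x ∈ O', w x ∈ ultLoc O 𝔫) :
    (ultComap O O' 𝔫 w hdom).IsPrime := by
  refine ⟨fun htop => ?_, fun {x y} hxy => ?_⟩
  · have h1 : (1 : ↥O') ∈ ultComap O O' 𝔫 w hdom := by rw [htop]; trivial
    obtain ⟨a, s, ha, hs, h⟩ := h1
    apply hs
    have : s = a := Subtype.ext (by rw [← h]; simp)
    rw [this]; exact ha
  · by_contra hcon
    push Not at hcon
    obtain ⟨a, s, hs, hx⟩ := hdom x x.2
    obtain ⟨a', s', hs', hy⟩ := hdom y y.2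
    have ha := ult_not_mem_comap O O' 𝔫 w hdom x hcon.1 a s hs hx
    have ha' := ult_not_mem_comap O O' 𝔫 w hdom y hcon.2 a' s' hs' hy
    have h1 : w ((x * y : ↥O') : F) * ((s * s' : ↥O) : F) = ((a * a' : ↥O) : F) := by
      push_cast; rw [map_mul, ← hx, ← hy]; ring
    have h2 := ult_mem_comap_num O O' 𝔫 w hdom _ hxy _ _ h1
    rcases h𝔫.mem_or_mem h2 with h | h
    · exact ha h
    · exact ha' h

/-- `𝔫'` contains every `x ∈ O'` with `w x` in the `𝔫`-part of a valuation ideal: if `w` maps the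
maximal ideal of `V₁` into that of `V₂`, `O ≤ V₂` and `O ∩ 𝔪_{V₂} ⊆ 𝔫`, then
`O' ∩ 𝔪_{V₁} ⊆ 𝔫'`. -/
theorem ult_comap_of_nonunits (O O' : Subalgebra A F) (𝔫 : Ideal ↥O) [𝔫.IsPrime]
    (w : F →+* F) (hdom : ∀ x ∈ O', w x ∈ ultLoc O 𝔫) (V₁ V₂ : ValuationSubring F)
    (hw : ∀ x ∈ V₁.nonunits, w x ∈ V₂.nonunits) (hOV : ∀ x ∈ O, x ∈ V₂)
    (h𝔭 : ∀ x : ↥O, (x : F) ∈ V₂.nonunits → x ∈ 𝔫) (x : ↥O') (hx : (x : F) ∈ V₁.nonunits) :
    x ∈ ultComap O O' 𝔫 w hdom := by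
  obtain ⟨a, s, hs, h⟩ := hdom x x.2
  refine ⟨a, s, h𝔭 a ?_, hs, h⟩
  rw [← h]
  exact Fermat.Agent.S18.cht_nonunits_mul V₂ (hw _ hx) (hOV _ s.2)

/-- Elements of `A` in `𝔫` stay in `𝔫'`. -/
theorem ult_algebraMap_mem_comap (O O' : Subalgebra A F) (𝔫 : Ideal ↥O) [h𝔫 : 𝔫.IsPrime]
    (w : F →+* F) (hwA : ∀ a : A, w (algebraMap A F a) = algebraMap A F a)
    (hdom : ∀ x ∈ O', w x ∈ ultLoc O 𝔫) (τ : A) (hτ : algebraMap A ↥O τ ∈ 𝔫) :
    algebraMap A ↥O' τ ∈ ultComap O O' 𝔫 w hdom :=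
  ⟨algebraMap A ↥O τ, 1, hτ, fun h => h𝔫.ne_top ((Ideal.eq_top_iff_one _).mpr h), by
    rw [Subalgebra.coe_algebraMap, hwA]; simp⟩

/-- In a field `κ` over a ring `A` whose non-units vanish in `κ`, an element `u ≠ 0` killed by a
monic polynomial over `A` satisfies `u * q(u) + c = 0` with `c` a unit of `A`. -/
theorem ult_inv_poly {κ : Type*} [Field κ] [Algebra A κ]
    (hA : ∀ c : A, ¬ IsUnit c → algebraMap A κ c = 0) (u : κ) (hu : u ≠ 0) :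
    ∀ (n : ℕ) (p : A[X]), p.natDegree ≤ n → p.Monic → aeval u p = 0 →
      ∃ (q : A[X]) (c : A), IsUnit c ∧ u * aeval u q + algebraMap A κ c = 0 := by
  intro n
  induction n with
  | zero =>
    intro p hn hp hpu
    have h1 : p = 1 := eq_one_of_monic_natDegree_zero hp (Nat.le_zero.mp hn)
    rw [h1, map_one] at hpu
    exact absurd hpu one_ne_zero
  | succ n ih =>
    intro p hn hp hpu
    have hdec := congrArg (aeval u) (divX_mul_X_add p)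
    rw [map_add, map_mul, aeval_X, aeval_C, hpu] at hdec
    by_cases hc : IsUnit (p.coeff 0)
    · exact ⟨p.divX, p.coeff 0, hc, by rw [mul_comm]; exact hdec⟩
    · rw [hA _ hc, add_zero] at hdec
      have h2 : aeval u p.divX = 0 := (mul_eq_zero.mp hdec).resolve_right hu
      have hd : p.natDegree ≠ 0 := by
        intro hd
        have h1 : p = 1 := eq_one_of_monic_natDegree_zero hp hd
        apply hc
        rw [h1, coeff_one_zero]; exact isUnit_one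
      refine ih p.divX ?_ ?_ h2
      · rw [natDegree_divX_eq_natDegree_tsub_one]; omega
      · show p.divX.leadingCoeff = 1
        rw [leadingCoeff, natDegree_divX_eq_natDegree_tsub_one, coeff_divX]
        have h3 : p.natDegree - 1 + 1 = p.natDegree := by omega
        rw [h3]; exact hp

/-- `𝔫'` is maximal when `𝔫` is maximal with `O ⧸ 𝔫` integral over `A` and the non-units of `A`
lie in `𝔫`. -/
theorem ult_comap_isMaximal (O O' : Subalgebra A F) (𝔫 : Ideal ↥O) [h𝔫 : 𝔫.IsMaximal]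
    (w : F →+* F) (hwA : ∀ a : A, w (algebraMap A F a) = algebraMap A F a)
    (hdom : ∀ x ∈ O', w x ∈ ultLoc O 𝔫)
    (hA : ∀ c : A, ¬ IsUnit c → algebraMap A ↥O c ∈ 𝔫)
    (halg : ∀ z : ↥O, ∃ p : A[X], p.Monic ∧ aeval z p ∈ 𝔫) :
    (ultComap O O' 𝔫 w hdom).IsMaximal := by
  classical
  have hprime := ult_comap_isPrime O O' 𝔫 w hdom
  rw [Ideal.isMaximal_iff]
  refine ⟨fun h1 => hprime.ne_top ((Ideal.eq_top_iff_one _).mpr h1), ?_⟩
  intro J x hJ hx hxJ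
  suffices h : ∃ y : ↥O', x * y - 1 ∈ ultComap O O' 𝔫 w hdom by
    obtain ⟨y, hy⟩ := h
    have h1 : (1 : ↥O') = x * y - (x * y - 1) := by ring
    rw [h1]; exact J.sub_mem (J.mul_mem_right _ hxJ) (hJ hy)
  obtain ⟨a, s, hs, hxs⟩ := hdom x x.2
  have ha : a ∉ 𝔫 := ult_not_mem_comap O O' 𝔫 w hdom x hx a s hs hxs
  let _ : Field (↥O ⧸ 𝔫) := Ideal.Quotient.field 𝔫
  set mk : ↥O →+* ↥O ⧸ 𝔫 := Ideal.Quotient.mk 𝔫 with hmk
  have hmk0 : ∀ z : ↥O, mk z = 0 ↔ z ∈ 𝔫 := fun z => Ideal.Quotient.eq_zero_iff_mem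
  have hmkA : mk.comp (algebraMap A ↥O) = algebraMap A (↥O ⧸ 𝔫) := rfl
  have hs0 : mk s ≠ 0 := fun h => hs ((hmk0 s).mp h)
  have ha0 : mk a ≠ 0 := fun h => ha ((hmk0 a).mp h)
  set u : ↥O ⧸ 𝔫 := mk a * (mk s)⁻¹ with hu
  have hu0 : u ≠ 0 := mul_ne_zero ha0 (inv_ne_zero hs0)
  have hmka : mk a = mk s * u := by rw [hu]; field_simp
  obtain ⟨z, hz⟩ := Ideal.Quotient.mk_surjective u
  obtain ⟨p, hp, hpz⟩ := halg z
  have hpu : aeval u p = 0 := by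
    have h1 : aeval u p = mk (aeval z p) := by
      rw [← hz, aeval_def, aeval_def, ← hmkA, hom_eval₂]
    rw [h1]; exact (hmk0 _).mpr hpz
  obtain ⟨q, c, hc, hqc⟩ := ult_inv_poly (κ := ↥O ⧸ 𝔫)
    (fun c hc => by rw [← hmkA]; exact (hmk0 _).mpr (hA c hc)) u hu0 p.natDegree p le_rfl hp hpu
  obtain ⟨c', hc'⟩ := hc.exists_left_inv
  -- homogenisation
  set qO : (↥O)[X] := q.map (algebraMap A ↥O) with hqO
  set d := qO.natDegree with hd
  set Qel : ↥O := eval a (scaleRoots qO s) with hQel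
  have hQF : (Qel : F) = (s : F) ^ d * aeval (w (x : F)) q := by
    have h1 : (Qel : F) = eval₂ (algebraMap ↥O F) ((algebraMap ↥O F) a) (scaleRoots qO s) := by
      rw [eval₂_at_apply]; rfl
    have h2 : (algebraMap ↥O F) a = (algebraMap ↥O F) s * w (x : F) := by
      show (a : F) = (s : F) * w (x : F)
      rw [← hxs, mul_comm]
    rw [h1, h2, scaleRoots_eval₂_mul, hqO, eval₂_map, ← IsScalarTower.algebraMap_eq, aeval_def]
    rfl
  have hQκ : mk Qel = mk s ^ d * aeval u q := by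
    have h1 : mk Qel = eval₂ mk (mk a) (scaleRoots qO s) := by
      rw [eval₂_at_apply]
    rw [h1, hmka, scaleRoots_eval₂_mul, hqO, eval₂_map, hmkA, aeval_def]
  set a'' : ↥O := a * Qel + algebraMap A ↥O c * s ^ (d + 1) with ha''
  have ha''𝔫 : a'' ∈ 𝔫 := by
    rw [← hmk0, ha'', map_add, map_mul, map_mul, map_pow, hQκ, hmka]
    have h1 : mk (algebraMap A ↥O c) = algebraMap A (↥O ⧸ 𝔫) c := rfl
    rw [h1]
    have h2 : mk s * u * (mk s ^ d * aeval u q) + algebraMap A (↥O ⧸ 𝔫) c * mk s ^ (d + 1) =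
        mk s ^ (d + 1) * (u * aeval u q + algebraMap A (↥O ⧸ 𝔫) c) := by ring
    rw [h2, hqc, mul_zero]
  -- the element `x * q(x) + c` of `𝔫'`
  let wA : F →ₐ[A] F := { w with commutes' := hwA }
  have hwq : w (aeval (x : F) q) = aeval (w (x : F)) q :=
    (aeval_algHom_apply wA (x : F) q).symm
  have hz' : x * aeval x q + algebraMap A ↥O' c ∈ ultComap O O' 𝔫 w hdom := by
    refine ⟨a'', s ^ (d + 1), ha''𝔫, fun h => hs (h𝔫.isPrime.mem_of_pow_mem _ h), ?_⟩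
    have h1 : ((x * aeval x q + algebraMap A ↥O' c : ↥O') : F) =
        (x : F) * aeval (x : F) q + algebraMap A F c := by
      push_cast
      rw [Subalgebra.aeval_coe]
    rw [h1, map_add, map_mul, hwq, hwA, ha'']
    push_cast
    rw [hQF, ← hxs]
    ring
  refine ⟨-(algebraMap A ↥O' c') * aeval x q, ?_⟩
  have h3 : x * (-(algebraMap A ↥O' c') * aeval x q) - 1 =
      -(algebraMap A ↥O' c') * (x * aeval x q + algebraMap A ↥O' c) := by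
    have h4 : algebraMap A ↥O' c' * algebraMap A ↥O' c = 1 := by
      rw [← map_mul, hc', map_one]
    linear_combination h4
  rw [h3]
  exact Ideal.mul_mem_left _ _ hz'

/-- **Transfer of `(LOC)`.** -/
theorem ult_transfer (m : ℕ) (O O' : Subalgebra A F) (τ : A) (𝔫 : Ideal ↥O) [h𝔫 : 𝔫.IsPrime]
    (w : F →+* F) (hwA : ∀ a : A, w (algebraMap A F a) = algebraMap A F a)
    (hdom : ∀ x ∈ O', w x ∈ ultLoc O 𝔫) (f₁ : F)
    (hloc : ∃ g : F, g ≠ 0 ∧ ∃ (a b s s' : ↥O') (k l : ℕ),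
      s ∉ ultComap O O' 𝔫 w hdom ∧ s' ∉ ultComap O O' 𝔫 w hdom ∧
      f₁ * (s : F) * algebraMap A F τ ^ k = (a : F) * g ^ m ∧
      g ^ m * (s' : F) * algebraMap A F τ ^ l = (b : F) * f₁) :
    ∃ g : F, g ≠ 0 ∧ ∃ (a b s s' : ↥O) (k l : ℕ), s ∉ 𝔫 ∧ s' ∉ 𝔫 ∧
      w f₁ * (s : F) * algebraMap A F τ ^ k = (a : F) * g ^ m ∧
      g ^ m * (s' : F) * algebraMap A F τ ^ l = (b : F) * w f₁ := by
  obtain ⟨g, hg, a, b, s, s', k, l, hs, hs', h1, h2⟩ := hloc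
  obtain ⟨as, ds, hds, hws⟩ := hdom s s.2
  obtain ⟨as', ds', hds', hws'⟩ := hdom s' s'.2
  obtain ⟨aa, da, hda, hwa⟩ := hdom a a.2
  obtain ⟨ab, db, hdb, hwb⟩ := hdom b b.2
  have has := ult_not_mem_comap O O' 𝔫 w hdom s hs as ds hds hws
  have has' := ult_not_mem_comap O O' 𝔫 w hdom s' hs' as' ds' hds' hws'
  have h1' : w f₁ * w (s : F) * algebraMap A F τ ^ k = w (a : F) * w g ^ m := by
    rw [← hwA τ, ← map_pow, ← map_mul, ← map_mul, h1, map_mul, map_pow]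
  have h2' : w g ^ m * w (s' : F) * algebraMap A F τ ^ l = w (b : F) * w f₁ := by
    rw [← hwA τ, ← map_pow, ← map_pow, ← map_mul, ← map_mul, h2, map_mul]
  refine ⟨w g, (map_ne_zero w).mpr hg, aa * ds, ab * ds', as * da, as' * db, k, l,
    fun h => (h𝔫.mem_or_mem h).elim has hda, fun h => (h𝔫.mem_or_mem h).elim has' hdb, ?_, ?_⟩
  · push_cast
    rw [← hws, ← hwa]
    linear_combination ((ds : F) * (da : F)) * h1'
  · push_cast
    rw [← hws', ← hwb]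
    linear_combination ((ds' : F) * (db : F)) * h2'

/-- Domination from generators: if `w` maps the generators `s` of the chart `chtO A s` into the
local ring `O_𝔫` of an integrally closed chart `O`, it maps the whole chart into `O_𝔫`. -/
theorem ult_dom_cht (O : Subalgebra A F) (𝔫 : Ideal ↥O) [𝔫.IsPrime]
    (hcl : ∀ z : F, IsIntegral ↥O z → z ∈ O)
    (w : F →+* F) (hwA : ∀ a : A, w (algebraMap A F a) = algebraMap A F a) (s : Set F)
    (hs : ∀ y ∈ s, w y ∈ ultLoc O 𝔫) :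
    ∀ x ∈ Fermat.Agent.S18.chtO A s, w x ∈ ultLoc O 𝔫 := by
  intro x hx
  let wA : F →ₐ[A] F := { w with commutes' := hwA }
  have hadj : Algebra.adjoin A s ≤ (ultLoc O 𝔫).comap wA :=
    Algebra.adjoin_le fun y hy => hs y hy
  obtain ⟨P, hPm, hPc, hPx⟩ :=
    (Fermat.Agent.S18.cht_isIntegral_iff (Algebra.adjoin A s) x).mp
      (Fermat.Agent.S18.cht_mem_iff.mp hx)
  apply ult_loc_integral_closed O 𝔫 hcl
  rw [Fermat.Agent.S18.cht_isIntegral_iff]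
  refine ⟨P.map w, hPm.map w, fun i => ?_, ?_⟩
  · rw [coeff_map]
    exact hadj (hPc i)
  · rw [eval_map, eval₂_at_apply, hPx, map_zero]

/-- **Transfer of `(LOC)`, bundled.**  `(LOC)` at a maximal ideal `𝔫 ∋ τ` of `O` for `w f₁`
follows from `(LOC)` for `f₁` at all maximal ideals `𝔫' ∋ τ` of `O'` containing
`O' ∩ 𝔪_{V₁}`, when `w(O') ⊆ O_𝔫`, `w(𝔪_{V₁}) ⊆ 𝔪_{V₂}` and `O ∩ 𝔪_{V₂} ⊆ 𝔫`. -/
theorem ult_main (m : ℕ) (O O' : Subalgebra A F) (τ : A) (𝔫 : Ideal ↥O) [h𝔫 : 𝔫.IsMaximal]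
    (w : F →+* F) (hwA : ∀ a : A, w (algebraMap A F a) = algebraMap A F a)
    (hdom : ∀ x ∈ O', w x ∈ ultLoc O 𝔫)
    (hA : ∀ c : A, ¬ IsUnit c → algebraMap A ↥O c ∈ 𝔫)
    (halg : ∀ z : ↥O, ∃ p : A[X], p.Monic ∧ aeval z p ∈ 𝔫)
    (hτ : algebraMap A ↥O τ ∈ 𝔫) (V₁ V₂ : ValuationSubring F)
    (hw : ∀ x ∈ V₁.nonunits, w x ∈ V₂.nonunits) (hOV : ∀ x ∈ O, x ∈ V₂)
    (h𝔭 : ∀ x : ↥O, (x : F) ∈ V₂.nonunits → x ∈ 𝔫) (f₁ : F)
    (hall : ∀ 𝔫' : Ideal ↥O', 𝔫'.IsMaximal → algebraMap A ↥O' τ ∈ 𝔫' →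
      (∀ x : ↥O', (x : F) ∈ V₁.nonunits → x ∈ 𝔫') →
      ∃ g : F, g ≠ 0 ∧ ∃ (a b s s' : ↥O') (k l : ℕ), s ∉ 𝔫' ∧ s' ∉ 𝔫' ∧
        f₁ * (s : F) * algebraMap A F τ ^ k = (a : F) * g ^ m ∧
        g ^ m * (s' : F) * algebraMap A F τ ^ l = (b : F) * f₁) :
    ∃ g : F, g ≠ 0 ∧ ∃ (a b s s' : ↥O) (k l : ℕ), s ∉ 𝔫 ∧ s' ∉ 𝔫 ∧
      w f₁ * (s : F) * algebraMap A F τ ^ k = (a : F) * g ^ m ∧
      g ^ m * (s' : F) * algebraMap A F τ ^ l = (b : F) * w f₁ :=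
  ult_transfer m O O' τ 𝔫 w hwA hdom f₁
    (hall _ (ult_comap_isMaximal O O' 𝔫 w hwA hdom hA halg)
      (ult_algebraMap_mem_comap O O' 𝔫 w hwA hdom τ hτ)
      (ult_comap_of_nonunits O O' 𝔫 w hdom V₁ V₂ hw hOV h𝔭))

end LocTransfer

end Fermat.Agent.S34
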