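import Mathlib
import Fermat.Agent.S18.Charts
import Fermat.Agent.S34.LocRing
import Fermat.Agent.S34.LocRing2
import Fermat.Agent.S34.NodeFin

/-!
# S34, leaf NODE-FIN-INST: finiteness of the local ring at a crossing point, two-level form

`E ⊆ F` two function fields (levels `M` and `M q`), `α : E → F` the inclusion, `OE ⊆ E` and
`O ⊆ F` the chart rings, `𝔫` a crossing point of `O`, `𝔫₀` the point of `OE` below it.  Then the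
local ring `Λ = ndrLoc O 𝔫` is a finite module over the local ring `Λ₀ = ndrLoc OE 𝔫₀`
(`nfi_finite`), for any algebra structure `Λ₀ → Λ` induced by `α`.  This is the hypothesis
`[Module.Finite Λ₀ Λ]` of `ndq_main` / `ndd_main` at the concrete carrier.
-/

set_option autoImplicit false

namespace Fermat.Agent.S34

open IsLocalRing

section TwoLevel

variable {A E F : Type*} [CommRing A] [Field E] [Field F] [Algebra A E] [Algebra A F]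

/-- The local ring of an integrally closed chart with fraction field `E` has fraction field
`E`. -/
theorem nfi_isFractionRing (OE : Subalgebra A E) (𝔫₀ : Ideal ↥OE) [𝔫₀.IsPrime]
    (hfracE : ∀ x : E, ∃ a ∈ OE, ∃ s ∈ OE, s ≠ 0 ∧ x * s = a) :
    IsFractionRing ↥(ndrLoc OE 𝔫₀) E := by
  have : FaithfulSMul ↥(ndrLoc OE 𝔫₀) E :=
    (faithfulSMul_iff_algebraMap_injective _ _).mpr Subtype.coe_injective
  refine IsFractionRing.of_field (R := ↥(ndrLoc OE 𝔫₀)) (K := E) ?_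
  intro z
  obtain ⟨a, ha, s, hs, hs0, h⟩ := hfracE z
  refine ⟨⟨a, ndr_le OE 𝔫₀ ha⟩, ⟨s, ndr_le OE 𝔫₀ hs⟩, ?_⟩
  show z = a / s
  rw [eq_div_iff hs0]
  exact h

/-- The local ring of an integrally closed chart is integrally closed. -/
theorem nfi_isIntegrallyClosed (OE : Subalgebra A E) (𝔫₀ : Ideal ↥OE) [𝔫₀.IsPrime]
    (hicE : ∀ x : E, IsIntegral ↥OE x → x ∈ OE)
    (hfracE : ∀ x : E, ∃ a ∈ OE, ∃ s ∈ OE, s ≠ 0 ∧ x * s = a) :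
    IsIntegrallyClosed ↥(ndrLoc OE 𝔫₀) := by
  have := nfi_isFractionRing OE 𝔫₀ hfracE
  rw [isIntegrallyClosed_iff E]
  intro x hx
  exact ⟨⟨x, ndf_closed OE 𝔫₀ hicE (fun y => y.2) x hx⟩, rfl⟩

/-- **Finiteness of the local ring at a crossing point over the local ring below, two-level
form.**  `α : E → F` the inclusion of the function field of the lower level, `OE`, `O` the two
chart rings (`α OE ⊆ O`, `O` integral over `α OE`, both integrally closed), `𝔫` a maximal ideal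
of `O` on both components (`V₁`, `V₂`), `𝔫₀` the prime of `OE` below `𝔫`.  Inputs from the
geometry: reduced fibre `hVτ`, residue degree one on the first component `hlift1`, pure
inseparability on the second component `hinsep` (any exponent `Q ≠ 0`). -/
theorem nfi_finite (α : E →+* F) (hαA : ∀ a : A, α (algebraMap A E a) = algebraMap A F a)
    [Algebra E F] (halg : ∀ x : E, algebraMap E F x = α x) [FiniteDimensional E F] [CharZero E]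
    (OE : Subalgebra A E) [IsNoetherianRing ↥OE]
    (hicE : ∀ x : E, IsIntegral ↥OE x → x ∈ OE)
    (hfracE : ∀ x : E, ∃ a ∈ OE, ∃ s ∈ OE, s ≠ 0 ∧ x * s = a)
    (O : Subalgebra A F) (hic : ∀ x : F, IsIntegral ↥O x → x ∈ O)
    (hαO : ∀ x ∈ OE, α x ∈ O)
    (hintO : ∀ z ∈ O, ∃ p : Polynomial ↥OE, p.Monic ∧
      Polynomial.eval₂ (α.comp (algebraMap ↥OE E)) z p = 0)
    (𝔫 : Ideal ↥O) [h𝔫 : 𝔫.IsMaximal] (𝔫₀ : Ideal ↥OE) [𝔫₀.IsPrime]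
    (h𝔫₀ : ∀ x : ↥OE, x ∈ 𝔫₀ ↔ (⟨α x, hαO x x.2⟩ : ↥O) ∈ 𝔫)
    (τ : A) (hτ : algebraMap A ↥O τ ∈ 𝔫)
    (V₁ V₂ : ValuationSubring F) (hO₁ : ∀ x ∈ O, x ∈ V₁) (hO₂ : ∀ x ∈ O, x ∈ V₂)
    (hc₁ : ∀ x : ↥O, (x : F) ∈ V₁.nonunits → x ∈ 𝔫)
    (hc₂ : ∀ x : ↥O, (x : F) ∈ V₂.nonunits → x ∈ 𝔫)
    (hVτ : ∀ x ∈ O, x ∈ V₁.nonunits → x ∈ V₂.nonunits → ∃ y ∈ O, x = algebraMap A F τ * y)
    (Q : ℕ) (hQ : Q ≠ 0)
    (hlift1 : ∀ z ∈ O, ∃ z₀ ∈ OE, z - α z₀ ∈ V₁.nonunits)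
    (hinsep : ∀ z ∈ O, ∃ z₀ ∈ OE, z ^ Q - α z₀ ∈ V₂.nonunits)
    [Algebra ↥(ndrLoc OE 𝔫₀) ↥(ndrLoc O 𝔫)]
    (hcoe : ∀ y : ↥(ndrLoc OE 𝔫₀),
      ((algebraMap ↥(ndrLoc OE 𝔫₀) ↥(ndrLoc O 𝔫) y : ↥(ndrLoc O 𝔫)) : F) = α (y : E)) :
    Module.Finite ↥(ndrLoc OE 𝔫₀) ↥(ndrLoc O 𝔫) := by
  classical
  have hfr := nfi_isFractionRing OE 𝔫₀ hfracE
  have hicl := nfi_isIntegrallyClosed OE 𝔫₀ hicE hfracE
  have halgF : ∀ y : ↥(ndrLoc OE 𝔫₀), algebraMap ↥(ndrLoc OE 𝔫₀) F y = α (y : E) :=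
    fun y => halg (y : E)
  have hst2 : IsScalarTower ↥(ndrLoc OE 𝔫₀) ↥(ndrLoc O 𝔫) F :=
    IsScalarTower.of_algebraMap_eq (R := ↥(ndrLoc OE 𝔫₀)) (S := ↥(ndrLoc O 𝔫)) (A := F)
      (fun y => by rw [halgF]; exact (hcoe y).symm)
  -- the two components as ideals of `O`
  have hmemV : ∀ (V : ValuationSubring F) (x : F) (hx : x ∈ V),
      (⟨x, hx⟩ : ↥V) ∈ maximalIdeal ↥V ↔ x ∈ V.nonunits := by
    intro V x hx
    rw [ValuationSubring.mem_nonunits_iff_exists_mem_maximalIdeal]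
    exact ⟨fun h => ⟨hx, h⟩, fun ⟨_, h⟩ => h⟩
  let ι₁ : ↥O →+* ↥V₁ :=
    { toFun := fun z => ⟨(z : F), hO₁ _ z.2⟩
      map_one' := rfl
      map_mul' := fun _ _ => rfl
      map_zero' := rfl
      map_add' := fun _ _ => rfl }
  let ι₂ : ↥O →+* ↥V₂ :=
    { toFun := fun z => ⟨(z : F), hO₂ _ z.2⟩
      map_one' := rfl
      map_mul' := fun _ _ => rfl
      map_zero' := rfl
      map_add' := fun _ _ => rfl }
  have hp₁ : ∀ z : ↥O, z ∈ (maximalIdeal ↥V₁).comap ι₁ ↔ (z : F) ∈ V₁.nonunits := fun z => by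
    rw [Ideal.mem_comap]
    exact hmemV V₁ _ _
  have hp₂ : ∀ z : ↥O, z ∈ (maximalIdeal ↥V₂).comap ι₂ ↔ (z : F) ∈ V₂.nonunits := fun z => by
    rw [Ideal.mem_comap]
    exact hmemV V₂ _ _
  refine ndf_finite (K := E) O 𝔫 hic (α '' (OE : Set E)) ?_ ?_ ?_ (algebraMap A ↥O τ) hτ ?_
    ((maximalIdeal ↥V₁).comap ι₁) ((maximalIdeal ↥V₂).comap ι₂) ?_ ?_ ?_ Q hQ ?_ ?_
    (ndrLoc O 𝔫) (fun _ => Iff.rfl)
  · -- the image of `Λ₀` contains `α OE`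
    rintro z ⟨x, hx, rfl⟩
    exact ⟨⟨x, ndr_le OE 𝔫₀ hx⟩, halg x⟩
  · -- the image of `Λ₀` lies in `O_𝔫`
    intro y
    obtain ⟨a, s, hs, has⟩ := y.2
    refine ⟨⟨α a, hαO a a.2⟩, ⟨α s, hαO s s.2⟩, fun h => hs ((h𝔫₀ s).mpr h), ?_⟩
    rw [halgF]
    show α (y : E) * α (s : E) = α (a : E)
    rw [← map_mul, has]
  · -- `O` is integral over `Λ₀`
    intro z hz
    obtain ⟨p, hp, hpz⟩ := hintO z hz
    refine ⟨p.map (algebraMap ↥OE ↥(ndrLoc OE 𝔫₀)), hp.map _, ?_⟩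
    rw [Polynomial.eval₂_map]
    have hcomp : (algebraMap ↥(ndrLoc OE 𝔫₀) F).comp (algebraMap ↥OE ↥(ndrLoc OE 𝔫₀))
        = α.comp (algebraMap ↥OE E) := RingHom.ext fun x => halg (x : E)
    rw [hcomp]
    exact hpz
  · -- `τ` comes from below
    refine ⟨algebraMap A E τ, OE.algebraMap_mem τ, ?_⟩
    rw [hαA]
    rfl
  · intro z hz
    exact hc₁ z ((hp₁ z).mp hz)
  · intro z hz
    exact hc₂ z ((hp₂ z).mp hz)
  · intro z hz₁ hz₂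
    obtain ⟨y, hy, hzy⟩ := hVτ z z.2 ((hp₁ z).mp hz₁) ((hp₂ z).mp hz₂)
    rw [Ideal.mem_span_singleton']
    exact ⟨⟨y, hy⟩, Subtype.ext (by rw [mul_comm]; exact hzy.symm)⟩
  · intro z
    obtain ⟨z₀, hz₀, h⟩ := hlift1 z z.2
    exact ⟨⟨α z₀, hαO z₀ hz₀⟩, ⟨z₀, hz₀, rfl⟩, (hp₁ _).mpr h⟩
  · intro z
    obtain ⟨z₀, hz₀, h⟩ := hinsep z z.2
    exact ⟨⟨α z₀, hαO z₀ hz₀⟩, ⟨z₀, hz₀, rfl⟩, (hp₂ _).mpr h⟩

/-- **`nfi_finite` at the carrier of `LocRing2`**: `Λ₀ = ndrLoc OE (ndbBelow α OE O hα 𝔫)`,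
`Λ = ndrLoc O 𝔫`, algebra structure `ndbAlgebra`.  This is the instance hypothesis
`[Module.Finite Λ₀ Λ]` of `ndc_main` / `ndc_gam` / `ndq_main` / `ndd_main`.  Integrality of `O`
over `α OE` in polynomial form. -/
theorem nfi_ndb_finite (α : E →ₐ[A] F) [Algebra E F] (hEF : ∀ x : E, algebraMap E F x = α x)
    [FiniteDimensional E F] [CharZero E]
    (OE : Subalgebra A E) [IsNoetherianRing ↥OE]
    (hicE : ∀ x : E, IsIntegral ↥OE x → x ∈ OE)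
    (hfracE : ∀ x : E, ∃ a ∈ OE, ∃ s ∈ OE, s ≠ 0 ∧ x * s = a)
    (O : Subalgebra A F) (hic : ∀ x : F, IsIntegral ↥O x → x ∈ O)
    (hα : ∀ x ∈ OE, α x ∈ O)
    (hintO : ∀ z ∈ O, ∃ p : Polynomial ↥OE, p.Monic ∧
      Polynomial.eval₂ ((α : E →+* F).comp (algebraMap ↥OE E)) z p = 0)
    (𝔫 : Ideal ↥O) [h𝔫 : 𝔫.IsMaximal]
    (τ : A) (hτ : algebraMap A ↥O τ ∈ 𝔫)
    (V₁ V₂ : ValuationSubring F) (hO₁ : ∀ x ∈ O, x ∈ V₁) (hO₂ : ∀ x ∈ O, x ∈ V₂)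
    (hc₁ : ∀ x : ↥O, (x : F) ∈ V₁.nonunits → x ∈ 𝔫)
    (hc₂ : ∀ x : ↥O, (x : F) ∈ V₂.nonunits → x ∈ 𝔫)
    (hVτ : ∀ x ∈ O, x ∈ V₁.nonunits → x ∈ V₂.nonunits → ∃ y ∈ O, x = algebraMap A F τ * y)
    (Q : ℕ) (hQ : Q ≠ 0)
    (hlift1 : ∀ z ∈ O, ∃ z₀ ∈ OE, z - α z₀ ∈ V₁.nonunits)
    (hinsep : ∀ z ∈ O, ∃ z₀ ∈ OE, z ^ Q - α z₀ ∈ V₂.nonunits) :
    Module.Finite ↥(ndrLoc OE (ndbBelow α OE O hα 𝔫)) ↥(ndrLoc O 𝔫) :=
  nfi_finite (α : E →+* F) (fun a => α.commutes a) hEF OE hicE hfracE O hic hα hintO 𝔫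
    (ndbBelow α OE O hα 𝔫) (fun _ => Iff.rfl) τ hτ V₁ V₂ hO₁ hO₂ hc₁ hc₂ hVτ Q hQ hlift1 hinsep
    (fun _ => rfl)

/-- **`nfi_ndb_finite` in the binder shape of the abstract node glue**: `F` an `E`-algebra in a
tower over `A`, `α := IsScalarTower.toAlgHom A E F`, all hypotheses elementwise over the chart
`O` (subtype form), integrality as `IsIntegral ↥OM z`. -/
theorem nfi_glue_finite [Algebra E F] [IsScalarTower A E F] [FiniteDimensional E F] [CharZero E]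
    (τ : A) (OM : Subalgebra A E) (O : Subalgebra A F) [IsNoetherianRing ↥OM]
    (hαO : ∀ x ∈ OM, algebraMap E F x ∈ O)
    (hOMcl : ∀ x : E, IsIntegral ↥OM x → x ∈ OM)
    (hOMfrac : ∀ x : E, ∃ a ∈ OM, ∃ s ∈ OM, s ≠ 0 ∧ x * s = a)
    (hOcl : ∀ x : F, IsIntegral ↥O x → x ∈ O)
    (hint : ∀ z ∈ O, IsIntegral ↥OM z)
    (𝔫 : Ideal ↥O) [𝔫.IsMaximal] (hτ𝔫 : algebraMap A ↥O τ ∈ 𝔫)
    (V₁ V₂ : ValuationSubring F) (hO₁ : ∀ x ∈ O, x ∈ V₁) (hO₂ : ∀ x ∈ O, x ∈ V₂)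
    (hc₁ : ∀ x : ↥O, (x : F) ∈ V₁.nonunits → x ∈ 𝔫)
    (hc₂ : ∀ x : ↥O, (x : F) ∈ V₂.nonunits → x ∈ 𝔫)
    (hred : ∀ x : ↥O, (x : F) ∈ V₁.nonunits → (x : F) ∈ V₂.nonunits →
      ∃ u : ↥O, x = algebraMap A ↥O τ * u)
    (hlift : ∀ z : ↥O, ∃ z₀ ∈ OM, (z : F) - algebraMap E F z₀ ∈ V₁.nonunits)
    (Q : ℕ) (hQ : Q ≠ 0)
    (hinsep : ∀ z : ↥O, ∃ z₀ ∈ OM, (z : F) ^ Q - algebraMap E F z₀ ∈ V₂.nonunits) :
    Module.Finite ↥(ndrLoc OM (ndbBelow (IsScalarTower.toAlgHom A E F) OM O hαO 𝔫))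
      ↥(ndrLoc O 𝔫) := by
  refine nfi_ndb_finite (IsScalarTower.toAlgHom A E F) (fun _ => rfl) OM hOMcl hOMfrac O hOcl hαO
    ?_ 𝔫 τ hτ𝔫 V₁ V₂ hO₁ hO₂ hc₁ hc₂ ?_ Q hQ (fun z hz => hlift ⟨z, hz⟩)
    (fun z hz => hinsep ⟨z, hz⟩)
  · intro z hz
    obtain ⟨p, hp, hpz⟩ := hint z hz
    exact ⟨p, hp, hpz⟩
  · intro x hx h₁ h₂
    obtain ⟨u, hu⟩ := hred ⟨x, hx⟩ h₁ h₂
    exact ⟨u, u.2, congrArg (fun z : ↥O => (z : F)) hu⟩

/-- The chart of the lower level maps into the chart of the upper level. -/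
theorem nfi_map_mem (α : E →ₐ[A] F) (tE : E) (x : E) (hx : x ∈ Fermat.Agent.S18.chtO A {tE}) :
    α x ∈ Fermat.Agent.S18.chtO A {α tE} := by
  rw [Fermat.Agent.S18.cht_mem_iff] at hx ⊢
  obtain ⟨p, hp, hc, hpx⟩ := (Fermat.Agent.S18.cht_isIntegral_iff _ x).mp hx
  refine (Fermat.Agent.S18.cht_isIntegral_iff _ (α x)).mpr
    ⟨p.map (α : E →+* F), hp.map _, fun i => ?_, ?_⟩
  · rw [Polynomial.coeff_map, ← AlgHom.map_adjoin_singleton α tE]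
    exact ⟨p.coeff i, hc i, rfl⟩
  · rw [Polynomial.eval_map]
    have := Polynomial.eval₂_at_apply (p := p) (α : E →+* F) x
    rw [hpx, map_zero] at this
    exact this

/-- The chart of the upper level is integral over the image of the chart of the lower level
(polynomial form, the hypothesis `hintO` of `nfi_finite`). -/
theorem nfi_hint (α : E →ₐ[A] F) (tE : E) (z : F) (hz : z ∈ Fermat.Agent.S18.chtO A {α tE}) :
    ∃ p : Polynomial ↥(Fermat.Agent.S18.chtO A {tE}), p.Monic ∧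
      Polynomial.eval₂ ((α : E →+* F).comp (algebraMap ↥(Fermat.Agent.S18.chtO A {tE}) E))
        z p = 0 := by
  rw [Fermat.Agent.S18.cht_mem_iff] at hz
  obtain ⟨P, hP, hc, hPz⟩ := (Fermat.Agent.S18.cht_isIntegral_iff _ z).mp hz
  have hl : P ∈ Polynomial.lifts
      ((α : E →+* F).comp (algebraMap ↥(Fermat.Agent.S18.chtO A {tE}) E)) := by
    rw [Polynomial.lifts_iff_coeff_lifts]
    intro n
    have h1 := hc n
    rw [← AlgHom.map_adjoin_singleton α tE] at h1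
    obtain ⟨c', hc', hcc⟩ := h1
    have hc'' : c' ∈ Fermat.Agent.S18.chtO A {tE} := by
      rw [Fermat.Agent.S18.cht_mem_iff]
      exact isIntegral_algebraMap (x := (⟨c', hc'⟩ : ↥(Algebra.adjoin A ({tE} : Set E))))
    exact ⟨⟨c', hc''⟩, hcc⟩
  obtain ⟨q, hq, -, hqm⟩ := Polynomial.lifts_and_natDegree_eq_and_monic hl hP
  refine ⟨q, hqm, ?_⟩
  rw [← Polynomial.eval_map, hq]
  exact hPz

end TwoLevel

end Fermat.Agent.S34
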