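/-
S34 [NODE-GLUE-AUX]: the `Λ`-forms of the node hypotheses from their chart-element forms.

`O : Subalgebra A F` a chart, `𝔫` a prime of `O` (a crossing point of the two components
`O ∩ 𝔪_{V₁}`, `O ∩ 𝔪_{V₂}`), `Λ := ndrLoc O 𝔫` the local ring, `H θ : Λ`,
`x := H ^ q - θ`, `y := H - θ ^ q`.

* `nga_loc_le`        : `Λ ⊆ V` for a valuation ring `V ⊇ O` whose centre on `O` lies in `𝔫`;
* `ngaP`, `nga_mem_P` : the ideal `Λ ∩ 𝔪_V` of `Λ`;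
* `nga_P_le`          : `Λ ∩ 𝔪_V ⊆ 𝔪_Λ`;
* `nga_red`           : `Λ ∩ 𝔪_{V₁} ∩ 𝔪_{V₂} ⊆ τ Λ` (reduced fibre, localised);
* `nga_branch`        : the branch condition `𝔪_Λ = (Λ ∩ 𝔪_V) + (x)` in `Λ`-form from its
  chart-element form;
* `nga_max`  (hmax)   : `𝔪_Λ = (τ, H ^ q - θ, H - θ ^ q)`;
* `nga_xy`   (hxy)    : `(H ^ q - θ) * (H - θ ^ q) ∈ τ Λ`;
* `nga_unif` (hunif)  : the uniformiser hypothesis of the node theorem in `Λ`-form from its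
  `F`-form.
-/
import Mathlib
import Fermat.Agent.S34.LocRing
import Fermat.Agent.S34.NodeFin

set_option autoImplicit false

namespace Fermat.Agent.S34

open IsLocalRing

section NodeGlueAux

variable {A F : Type*} [CommRing A] [Field F] [Algebra A F]
  (O : Subalgebra A F) (𝔫 : Ideal ↥O) [h𝔫 : 𝔫.IsPrime]

/-- the local ring at a point of the component `O ∩ 𝔪_V` lies in `V` -/
theorem nga_loc_le (V : ValuationSubring F) (hO : ∀ x ∈ O, x ∈ V)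
    (hc : ∀ x : ↥O, (x : F) ∈ V.nonunits → x ∈ 𝔫) (z : ↥(ndrLoc O 𝔫)) : (z : F) ∈ V := by
  obtain ⟨a, s, hs, h⟩ := z.2
  have hs0 : (s : F) ≠ 0 := by
    intro h0
    have : s = 0 := Subtype.ext h0
    exact hs (this ▸ 𝔫.zero_mem)
  have hsV : (s : F)⁻¹ ∈ V := by
    by_contra hinv
    have hsn : (s : F) ∈ V.nonunits :=
      (ValuationSubring.mem_nonunits_iff_or V).mpr (Or.inr hinv)
    exact hs (hc s hsn)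
  have hz : (z : F) = (a : F) * (s : F)⁻¹ := by
    rw [← h, mul_assoc, mul_inv_cancel₀ hs0, mul_one]
  rw [hz]
  exact V.mul_mem _ _ (hO _ a.2) hsV

/-- the ring homomorphism `Λ → V` -/
def ngaIncl (V : ValuationSubring F) (hO : ∀ x ∈ O, x ∈ V)
    (hc : ∀ x : ↥O, (x : F) ∈ V.nonunits → x ∈ 𝔫) : ↥(ndrLoc O 𝔫) →+* ↥V where
  toFun z := ⟨(z : F), nga_loc_le O 𝔫 V hO hc z⟩
  map_one' := rfl
  map_mul' _ _ := rfl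
  map_zero' := rfl
  map_add' _ _ := rfl

/-- the ideal `Λ ∩ 𝔪_V` of the local ring `Λ` -/
def ngaP (V : ValuationSubring F) (hO : ∀ x ∈ O, x ∈ V)
    (hc : ∀ x : ↥O, (x : F) ∈ V.nonunits → x ∈ 𝔫) : Ideal ↥(ndrLoc O 𝔫) :=
  Ideal.comap (ngaIncl O 𝔫 V hO hc) (maximalIdeal ↥V)

theorem nga_mem_P (V : ValuationSubring F) (hO : ∀ x ∈ O, x ∈ V)
    (hc : ∀ x : ↥O, (x : F) ∈ V.nonunits → x ∈ 𝔫) (z : ↥(ndrLoc O 𝔫)) :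
    z ∈ ngaP O 𝔫 V hO hc ↔ (z : F) ∈ V.nonunits := by
  rw [ValuationSubring.mem_nonunits_iff_exists_mem_maximalIdeal]
  constructor
  · intro hz
    exact ⟨nga_loc_le O 𝔫 V hO hc z, hz⟩
  · rintro ⟨_, hz⟩
    exact hz

/-- a product of a non-unit of `V` with an element of `V` is a non-unit -/
theorem nga_nonunits_mul (V : ValuationSubring F) {x y : F} (hx : x ∈ V.nonunits) (hy : y ∈ V) :
    x * y ∈ V.nonunits := by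
  rw [ValuationSubring.mem_nonunits_iff_exists_mem_maximalIdeal] at hx ⊢
  obtain ⟨hxV, hxm⟩ := hx
  exact ⟨V.mul_mem _ _ hxV hy, Ideal.mul_mem_right (⟨y, hy⟩ : ↥V) _ hxm⟩

/-- `Λ ∩ 𝔪_V ⊆ 𝔪_Λ` -/
theorem nga_P_le (V : ValuationSubring F) (hO : ∀ x ∈ O, x ∈ V)
    (hc : ∀ x : ↥O, (x : F) ∈ V.nonunits → x ∈ 𝔫) :
    ngaP O 𝔫 V hO hc ≤ maximalIdeal ↥(ndrLoc O 𝔫) := by
  intro z hz
  rw [nga_mem_P] at hz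
  obtain ⟨a, s, hs, h⟩ := z.2
  rw [ndr_mem_maximalIdeal_iff]
  refine ⟨a, s, hc a ?_, hs, h⟩
  rw [← h]
  exact nga_nonunits_mul V hz (hO _ s.2)

/-- the inverse of a chart element outside `𝔫`, as an element of `Λ` -/
theorem nga_inv_spec (s : ↥O) (hs : s ∉ 𝔫) : (s : F) ≠ 0 ∧ (s : F)⁻¹ ∈ ndrLoc O 𝔫 := by
  refine ⟨?_, ndr_inv_mem O 𝔫 s hs⟩
  intro h0
  have : s = 0 := Subtype.ext h0
  exact hs (this ▸ 𝔫.zero_mem)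

/-- **reduced fibre, localised**: `Λ ∩ 𝔪_{V₁} ∩ 𝔪_{V₂} ⊆ τ Λ` -/
theorem nga_red (τ : A) (V₁ V₂ : ValuationSubring F) (hO₁ : ∀ x ∈ O, x ∈ V₁)
    (hO₂ : ∀ x ∈ O, x ∈ V₂)
    (hc₁ : ∀ x : ↥O, (x : F) ∈ V₁.nonunits → x ∈ 𝔫)
    (hc₂ : ∀ x : ↥O, (x : F) ∈ V₂.nonunits → x ∈ 𝔫)
    (hred : ∀ x : ↥O, (x : F) ∈ V₁.nonunits → (x : F) ∈ V₂.nonunits →
      ∃ u : ↥O, x = algebraMap A ↥O τ * u)
    (z : ↥(ndrLoc O 𝔫)) (h₁ : z ∈ ngaP O 𝔫 V₁ hO₁ hc₁) (h₂ : z ∈ ngaP O 𝔫 V₂ hO₂ hc₂) :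
    z ∈ Ideal.span {algebraMap A ↥(ndrLoc O 𝔫) τ} := by
  rw [nga_mem_P] at h₁ h₂
  obtain ⟨a, s, hs, h⟩ := z.2
  obtain ⟨hs0, hsinv⟩ := nga_inv_spec O 𝔫 s hs
  have ha₁ : (a : F) ∈ V₁.nonunits := by
    rw [← h]; exact nga_nonunits_mul V₁ h₁ (hO₁ _ s.2)
  have ha₂ : (a : F) ∈ V₂.nonunits := by
    rw [← h]; exact nga_nonunits_mul V₂ h₂ (hO₂ _ s.2)
  obtain ⟨u, hu⟩ := hred a ha₁ ha₂
  rw [Ideal.mem_span_singleton']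
  refine ⟨⟨(u : F) * (s : F)⁻¹, (ndrLoc O 𝔫).mul_mem (ndr_le O 𝔫 u.2) hsinv⟩, ?_⟩
  apply Subtype.ext
  have hu' : (a : F) = algebraMap A F τ * (u : F) := by
    have := congrArg (fun w : ↥O => (w : F)) hu
    simpa using this
  show (u : F) * (s : F)⁻¹ * algebraMap A F τ = (z : F)
  have hz : (z : F) = (a : F) * (s : F)⁻¹ := by
    rw [← h, mul_assoc, mul_inv_cancel₀ hs0, mul_one]
  rw [hz, hu']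
  ring

/-- **branch condition, `Λ`-form** from its chart-element form -/
theorem nga_branch (V : ValuationSubring F) (hO : ∀ x ∈ O, x ∈ V)
    (hc : ∀ x : ↥O, (x : F) ∈ V.nonunits → x ∈ 𝔫) (x : ↥(ndrLoc O 𝔫))
    (hB : ∀ a : ↥O, a ∈ 𝔫 → ∃ b c : ↥O, c ∉ 𝔫 ∧
      (a : F) * (c : F) - (x : F) * (b : F) ∈ V.nonunits)
    (z : ↥(ndrLoc O 𝔫)) (hz : z ∈ maximalIdeal ↥(ndrLoc O 𝔫)) :
    ∃ b : ↥(ndrLoc O 𝔫), z - x * b ∈ ngaP O 𝔫 V hO hc := by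
  rw [ndr_mem_maximalIdeal_iff] at hz
  obtain ⟨a, s, ha, hs, h⟩ := hz
  obtain ⟨b, c, hcn, hbc⟩ := hB a ha
  obtain ⟨hs0, hsinv⟩ := nga_inv_spec O 𝔫 s hs
  obtain ⟨hc0, hcinv⟩ := nga_inv_spec O 𝔫 c hcn
  have hinv : (c : F)⁻¹ * (s : F)⁻¹ ∈ ndrLoc O 𝔫 := (ndrLoc O 𝔫).mul_mem hcinv hsinv
  refine ⟨⟨(b : F) * ((c : F)⁻¹ * (s : F)⁻¹), (ndrLoc O 𝔫).mul_mem (ndr_le O 𝔫 b.2) hinv⟩, ?_⟩
  rw [nga_mem_P]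
  have hz' : (z : F) = (a : F) * (s : F)⁻¹ := by
    rw [← h, mul_assoc, mul_inv_cancel₀ hs0, mul_one]
  have key : ((z - x * ⟨(b : F) * ((c : F)⁻¹ * (s : F)⁻¹),
      (ndrLoc O 𝔫).mul_mem (ndr_le O 𝔫 b.2) hinv⟩ : ↥(ndrLoc O 𝔫)) : F)
      = ((a : F) * (c : F) - (x : F) * (b : F)) * ((c : F)⁻¹ * (s : F)⁻¹) := by
    show (z : F) - (x : F) * ((b : F) * ((c : F)⁻¹ * (s : F)⁻¹)) = _
    rw [hz']
    field_simp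
  rw [key]
  exact nga_nonunits_mul V hbc (nga_loc_le O 𝔫 V hO hc ⟨_, hinv⟩)

variable (τ : A) (V₁ V₂ : ValuationSubring F) (hO₁ : ∀ x ∈ O, x ∈ V₁) (hO₂ : ∀ x ∈ O, x ∈ V₂)
  (hc₁ : ∀ x : ↥O, (x : F) ∈ V₁.nonunits → x ∈ 𝔫)
  (hc₂ : ∀ x : ↥O, (x : F) ∈ V₂.nonunits → x ∈ 𝔫)

include hO₁ hO₂ hc₁ hc₂ in
/-- **hmax**: the maximal ideal of the local ring at a crossing point is `(τ, x, y)`,
`x = H ^ q - θ`, `y = H - θ ^ q`. -/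
theorem nga_max (hτ₁ : algebraMap A F τ ∈ V₁.nonunits)
    (hred : ∀ x : ↥O, (x : F) ∈ V₁.nonunits → (x : F) ∈ V₂.nonunits →
      ∃ u : ↥O, x = algebraMap A ↥O τ * u)
    (q : ℕ) (H θ : ↥(ndrLoc O 𝔫))
    (hk₁ : (H : F) ^ q - (θ : F) ∈ V₁.nonunits) (hk₂ : (H : F) - (θ : F) ^ q ∈ V₂.nonunits)
    (hB₁ : ∀ a : ↥O, a ∈ 𝔫 → ∃ b c : ↥O, c ∉ 𝔫 ∧
      (a : F) * (c : F) - ((H : F) - (θ : F) ^ q) * (b : F) ∈ V₁.nonunits)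
    (hB₂ : ∀ a : ↥O, a ∈ 𝔫 → ∃ b c : ↥O, c ∉ 𝔫 ∧
      (a : F) * (c : F) - ((H : F) ^ q - (θ : F)) * (b : F) ∈ V₂.nonunits) :
    maximalIdeal ↥(ndrLoc O 𝔫)
      = Ideal.span {algebraMap A ↥(ndrLoc O 𝔫) τ, H ^ q - θ, H - θ ^ q} := by
  have hx : H ^ q - θ ∈ ngaP O 𝔫 V₁ hO₁ hc₁ := (nga_mem_P O 𝔫 V₁ hO₁ hc₁ _).mpr hk₁
  have hy : H - θ ^ q ∈ ngaP O 𝔫 V₂ hO₂ hc₂ := (nga_mem_P O 𝔫 V₂ hO₂ hc₂ _).mpr hk₂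
  have hτP : algebraMap A ↥(ndrLoc O 𝔫) τ ∈ ngaP O 𝔫 V₁ hO₁ hc₁ :=
    (nga_mem_P O 𝔫 V₁ hO₁ hc₁ _).mpr hτ₁
  exact (ndf_max (algebraMap A ↥(ndrLoc O 𝔫) τ) (H ^ q - θ) (H - θ ^ q)
    (ngaP O 𝔫 V₁ hO₁ hc₁) (ngaP O 𝔫 V₂ hO₂ hc₂)
    (fun z h1 h2 => nga_red O 𝔫 τ V₁ V₂ hO₁ hO₂ hc₁ hc₂ hred z h1 h2)
    hτP hx (nga_P_le O 𝔫 V₁ hO₁ hc₁) (nga_P_le O 𝔫 V₂ hO₂ hc₂ hy)
    (fun z hz => nga_branch O 𝔫 V₁ hO₁ hc₁ (H - θ ^ q) hB₁ z hz)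
    (fun z hz => nga_branch O 𝔫 V₂ hO₂ hc₂ (H ^ q - θ) hB₂ z hz)).2

include hO₁ hO₂ hc₁ hc₂ in
/-- **hxy**: `x * y ∈ τ Λ`. -/
theorem nga_xy
    (hred : ∀ x : ↥O, (x : F) ∈ V₁.nonunits → (x : F) ∈ V₂.nonunits →
      ∃ u : ↥O, x = algebraMap A ↥O τ * u)
    (q : ℕ) (H θ : ↥(ndrLoc O 𝔫))
    (hk₁ : (H : F) ^ q - (θ : F) ∈ V₁.nonunits) (hk₂ : (H : F) - (θ : F) ^ q ∈ V₂.nonunits) :
    ∃ l : ↥(ndrLoc O 𝔫), (H ^ q - θ) * (H - θ ^ q) = algebraMap A ↥(ndrLoc O 𝔫) τ * l := by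
  have hx : H ^ q - θ ∈ ngaP O 𝔫 V₁ hO₁ hc₁ := (nga_mem_P O 𝔫 V₁ hO₁ hc₁ _).mpr hk₁
  have hy : H - θ ^ q ∈ ngaP O 𝔫 V₂ hO₂ hc₂ := (nga_mem_P O 𝔫 V₂ hO₂ hc₂ _).mpr hk₂
  have h := nga_red O 𝔫 τ V₁ V₂ hO₁ hO₂ hc₁ hc₂ hred ((H ^ q - θ) * (H - θ ^ q))
    (Ideal.mul_mem_right _ _ hx) (Ideal.mul_mem_left _ _ hy)
  rw [Ideal.mem_span_singleton'] at h
  obtain ⟨l, hl⟩ := h
  exact ⟨l, by rw [← hl, mul_comm]⟩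

omit h𝔫 in
/-- **hunif**, `Λ`-form from the `F`-form: `Λ` any subalgebra containing the chart, with an
`A`-point `evΛ` whose values are the residues at the valuation ring `V`. -/
theorem nga_unif (Λ : Subalgebra A F) (hOΛ : O ≤ Λ) (V : ValuationSubring F)
    (evΛ : ↥Λ →ₐ[A] A)
    (hev : ∀ y : ↥Λ, (y : F) - algebraMap A F (evΛ y) ∈ V.nonunits)
    (H θ : ↥Λ)
    (hunif : ∀ a b : A, (H : F) - algebraMap A F a ∈ V.nonunits →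
      (θ : F) - algebraMap A F b ∈ V.nonunits →
      ∃ s u : ↥O, (s : F) ∉ V.nonunits ∧
        (s : F) * ((θ : F) - algebraMap A F b) = ((H : F) - algebraMap A F a) * (u : F)) :
    ∃ s u : ↥Λ, evΛ s ≠ 0 ∧
      s * (θ - algebraMap A ↥Λ (evΛ θ)) = (H - algebraMap A ↥Λ (evΛ H)) * u := by
  obtain ⟨s, u, hs, hsu⟩ := hunif (evΛ H) (evΛ θ) (hev H) (hev θ)
  refine ⟨⟨(s : F), hOΛ s.2⟩, ⟨(u : F), hOΛ u.2⟩, ?_, Subtype.ext hsu⟩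
  intro h0
  have h1 := hev ⟨(s : F), hOΛ s.2⟩
  rw [h0, map_zero, sub_zero] at h1
  exact hs h1

end NodeGlueAux

end Fermat.Agent.S34
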