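/-
S34 [NODE-GLUE-BELOW]: descent of elements to the local ring below.

Carrier of `LocRing2`: `α : E →ₐ[A] F`, charts `OE ⊆ E`, `O ⊆ F` with `α OE ⊆ O`, `𝔫` a prime of
`O`, `Λ₀ := ndrLoc OE (ndbBelow α OE O hα 𝔫)`, `Λ := ndrLoc O 𝔫`, and `Λ` finite over `Λ₀`.

* `ngb_mem`  : an element `x : E` with `α x ∈ Λ` lies in `Λ₀` (`Λ₀` is integrally closed in `E`
  and `Λ` is integral over `Λ₀`);
* `ngb_lift` : the same, as an element `h : Λ₀` with `algebraMap Λ₀ Λ h = ⟨α x, _⟩`.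

This is the step "`h ∈ Λ₀`" of the node assembly: the Hauptmodul of the lower level is regular
at the point below a (non-cuspidal) crossing point.
-/
import Mathlib
import Fermat.Agent.S34.LocRing2

set_option autoImplicit false

namespace Fermat.Agent.S34

open Polynomial

section Below

variable {A E F : Type*} [CommRing A] [Field E] [Field F] [Algebra A E] [Algebra A F]
  (α : E →ₐ[A] F) (OE : Subalgebra A E) (O : Subalgebra A F) (hα : ∀ x ∈ OE, α x ∈ O)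
  (𝔫 : Ideal ↥O) [h𝔫 : 𝔫.IsPrime]

/-- An element of `E` whose image lies in the local ring above lies in the local ring below. -/
theorem ngb_mem [Module.Finite ↥(ndrLoc OE (ndbBelow α OE O hα 𝔫)) ↥(ndrLoc O 𝔫)]
    (hfracE : ∀ x : E, ∃ a ∈ OE, ∃ s ∈ OE, s ≠ 0 ∧ x * s = a)
    (hicE : ∀ x : E, IsIntegral ↥OE x → x ∈ OE)
    (x : E) (hx : α x ∈ ndrLoc O 𝔫) : x ∈ ndrLoc OE (ndbBelow α OE O hα 𝔫) := by
  have hic := ndb_isIntegrallyClosed α OE O hα 𝔫 hfracE hicE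
  have hfr := ndb_isFractionRing α OE O hα 𝔫 hfracE
  have hz : IsIntegral ↥(ndrLoc OE (ndbBelow α OE O hα 𝔫)) (⟨α x, hx⟩ : ↥(ndrLoc O 𝔫)) :=
    Algebra.IsIntegral.isIntegral _
  obtain ⟨p, hp, hpz⟩ := hz
  have hxE : IsIntegral ↥(ndrLoc OE (ndbBelow α OE O hα 𝔫)) x := by
    refine ⟨p, hp, ?_⟩
    apply α.toRingHom.injective
    rw [map_zero]
    have h1 : α.toRingHom (eval₂ (algebraMap ↥(ndrLoc OE (ndbBelow α OE O hα 𝔫)) E) x p)
        = eval₂ (α.toRingHom.comp (algebraMap ↥(ndrLoc OE (ndbBelow α OE O hα 𝔫)) E))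
            (α.toRingHom x) p := hom_eval₂ p _ α.toRingHom x
    have h2 : (ndrLoc O 𝔫).val.toRingHom
          (eval₂ (algebraMap ↥(ndrLoc OE (ndbBelow α OE O hα 𝔫)) ↥(ndrLoc O 𝔫))
            (⟨α x, hx⟩ : ↥(ndrLoc O 𝔫)) p)
        = eval₂ ((ndrLoc O 𝔫).val.toRingHom.comp
            (algebraMap ↥(ndrLoc OE (ndbBelow α OE O hα 𝔫)) ↥(ndrLoc O 𝔫)))
            ((ndrLoc O 𝔫).val.toRingHom (⟨α x, hx⟩ : ↥(ndrLoc O 𝔫))) p :=
      hom_eval₂ p _ (ndrLoc O 𝔫).val.toRingHom _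
    have h3 : α.toRingHom.comp (algebraMap ↥(ndrLoc OE (ndbBelow α OE O hα 𝔫)) E)
        = (ndrLoc O 𝔫).val.toRingHom.comp
            (algebraMap ↥(ndrLoc OE (ndbBelow α OE O hα 𝔫)) ↥(ndrLoc O 𝔫)) :=
      RingHom.ext fun _ => rfl
    rw [h1, h3]
    rw [hpz, map_zero] at h2
    exact h2.symm
  obtain ⟨y, hy⟩ := IsIntegrallyClosed.isIntegral_iff.mp hxE
  have hy' : (y : E) = x := hy
  rw [← hy']
  exact y.2

/-- The lift to the local ring below, with its image above. -/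
theorem ngb_lift [Module.Finite ↥(ndrLoc OE (ndbBelow α OE O hα 𝔫)) ↥(ndrLoc O 𝔫)]
    (hfracE : ∀ x : E, ∃ a ∈ OE, ∃ s ∈ OE, s ≠ 0 ∧ x * s = a)
    (hicE : ∀ x : E, IsIntegral ↥OE x → x ∈ OE)
    (x : E) (hx : α x ∈ ndrLoc O 𝔫) :
    ∃ h : ↥(ndrLoc OE (ndbBelow α OE O hα 𝔫)), (h : E) = x ∧
      algebraMap ↥(ndrLoc OE (ndbBelow α OE O hα 𝔫)) ↥(ndrLoc O 𝔫) h
        = (⟨α x, hx⟩ : ↥(ndrLoc O 𝔫)) :=
  ⟨⟨x, ngb_mem α OE O hα 𝔫 hfracE hicE x hx⟩, rfl, rfl⟩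

end Below

end Fermat.Agent.S34
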