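import Mathlib
import Fermat.Agent.S34.LocRing3

/-!
# S34, leaf NODE-GLUE-C: the node hypothesis at a crossing point from three facts on the local ring

Carrier (that of `LocRing2`): `α : E →ₐ[A] F` an embedding of fields (the level-`M` function
field into the level-`M q` function field), charts `OM ⊆ E`, `O ⊆ F` with `α OM ⊆ O`, `𝔫` a
maximal ideal of `O`, `Λ₀ := ndrLoc OM (ndbBelow α OM O hαO 𝔫)`, `Λ := ndrLoc O 𝔫`.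

* `ngc_h_mem`: `Λ ∩ E = Λ₀` when `Λ` is integral over `Λ₀`.
* `ngc_main`: the conclusion of the hypothesis `hgam` of `lni_node_swap` for an `A`-point `ev` of
  the chart given with its place `V`, from: `Module.Finite Λ₀ Λ`, `𝔪_Λ = (τ, x, y)`,
  `x * y ∈ τ Λ` (`x = h ^ q - θ`, `y = h - θ ^ q`), and the local-parameter hypothesis `hunif`
  in its function-field form.
-/

set_option autoImplicit false

open IsLocalRing Polynomial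

namespace Fermat.Agent.S34

section Glue

variable {A E F : Type*} [CommRing A] [IsDomain A] [IsDiscreteValuationRing A]
  [Field E] [Field F] [Algebra A E] [Algebra A F] (α : E →ₐ[A] F)

omit [IsDomain A] [IsDiscreteValuationRing A] in
/-- `Λ ∩ E = Λ₀`: an element of `E` whose image lies in the local ring above lies in the local
ring below, when the local ring above is integral over the local ring below. -/
theorem ngc_h_mem (OM : Subalgebra A E) (O : Subalgebra A F)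
    (hαO : ∀ x ∈ OM, α x ∈ O)
    (hOMcl : ∀ x : E, IsIntegral ↥OM x → x ∈ OM)
    (hOMfrac : ∀ x : E, ∃ a ∈ OM, ∃ s ∈ OM, s ≠ 0 ∧ x * s = a)
    (𝔫 : Ideal ↥O) [h𝔫 : 𝔫.IsPrime]
    [hint : Algebra.IsIntegral ↥(ndrLoc OM (ndbBelow α OM O hαO 𝔫)) ↥(ndrLoc O 𝔫)]
    (h : E) (hh : α h ∈ ndrLoc O 𝔫) :
    h ∈ ndrLoc OM (ndbBelow α OM O hαO 𝔫) := by
  have hic := ndb_isIntegrallyClosed α OM O hαO 𝔫 hOMfrac hOMcl
  have hfr := ndb_isFractionRing α OM O hαO 𝔫 hOMfrac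
  obtain ⟨p, hp, hp0⟩ := Algebra.IsIntegral.isIntegral
    (R := ↥(ndrLoc OM (ndbBelow α OM O hαO 𝔫))) (⟨α h, hh⟩ : ↥(ndrLoc O 𝔫))
  have h1 : IsIntegral ↥(ndrLoc OM (ndbBelow α OM O hαO 𝔫)) h := by
    refine ⟨p, hp, ?_⟩
    apply (α : E →+* F).injective
    rw [map_zero, Polynomial.hom_eval₂]
    have h2 := congrArg ((ndrLoc O 𝔫).val : ↥(ndrLoc O 𝔫) →+* F) hp0
    rw [Polynomial.hom_eval₂, map_zero] at h2
    exact h2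
  obtain ⟨y, hy⟩ := (IsIntegrallyClosed.isIntegral_iff (K := E)).mp h1
  rw [← hy]
  exact y.2

/-- **The node hypothesis at a crossing point**, function-field form: the conclusion of the
hypothesis `hgam` of `lni_node_swap` / `lnd_main_pl` for an `A`-point `ev` of the chart `O` given
with its place `V`. -/
theorem ngc_main [Algebra E F] (hEF : ∀ x : E, algebraMap E F x = α x)
    {τ : A} (hτ : Irreducible τ) {q : ℕ} (hq : q ≠ 0)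
    (hfr : Module.finrank E F = q + 1)
    (OM : Subalgebra A E) (O : Subalgebra A F) [IsNoetherianRing ↥O]
    (hαO : ∀ x ∈ OM, α x ∈ O)
    (hOMcl : ∀ x : E, IsIntegral ↥OM x → x ∈ OM)
    (hOMfrac : ∀ x : E, ∃ a ∈ OM, ∃ s ∈ OM, s ≠ 0 ∧ x * s = a)
    (hOfrac : ∀ x : F, ∃ a ∈ O, ∃ s ∈ O, s ≠ 0 ∧ x * s = a)
    (𝔫 : Ideal ↥O) [h𝔫 : 𝔫.IsMaximal] (hτ𝔫 : algebraMap A ↥O τ ∈ 𝔫)
    (hfinΛ : Module.Finite ↥(ndrLoc OM (ndbBelow α OM O hαO 𝔫)) ↥(ndrLoc O 𝔫))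
    (h : E) (hh : ∃ a s : ↥O, s ∉ 𝔫 ∧ α h * (s : F) = (a : F))
    (θ : F) (hθ : ∃ a s : ↥O, s ∉ 𝔫 ∧ θ * (s : F) = (a : F))
    (x y : ↥(ndrLoc O 𝔫)) (hx : (x : F) = α h ^ q - θ) (hy : (y : F) = α h - θ ^ q)
    (hmax : maximalIdeal ↥(ndrLoc O 𝔫)
      = Ideal.span {algebraMap A ↥(ndrLoc O 𝔫) τ, x, y})
    (hxy : ∃ l : ↥(ndrLoc O 𝔫), x * y = algebraMap A ↥(ndrLoc O 𝔫) τ * l)
    (ev : ↥O →ₐ[A] A) (V : ValuationSubring F) (hOV : ∀ x ∈ O, x ∈ V)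
    (hVO : ∀ x ∈ V, ∃ s : ↥O, ev s ≠ 0 ∧ (s : F) * x ∈ O)
    (hev : ∀ y : ↥O, (y : F) - algebraMap A F (ev y) ∈ V.nonunits)
    (hloc : ∀ x ∈ 𝔫, ¬ IsUnit (ev x))
    (hunif : ∀ a b : A, α h - algebraMap A F a ∈ V.nonunits →
      θ - algebraMap A F b ∈ V.nonunits →
      ∃ s u : ↥O, (s : F) ∉ V.nonunits ∧
        (s : F) * (θ - algebraMap A F b) = (α h - algebraMap A F a) * (u : F)) :
    ∃ g : ↥O, ev g = 0 ∧ ∃ c : A, c ≠ 0 ∧ ∀ w : ↥O, ev w = 0 →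
      ∃ s u : ↥O, s ∉ 𝔫 ∧ algebraMap A ↥O c * (s * w) = g * u := by
  have := hfinΛ
  have hh0 : h ∈ ndrLoc OM (ndbBelow α OM O hαO 𝔫) :=
    ngc_h_mem α OM O hαO hOMcl hOMfrac 𝔫 h hh
  obtain ⟨evΛ, h1, h2, h3, h4, htr⟩ := ndr_ev O 𝔫 ev V hOV hVO hev hloc
  apply htr
  have hxe : x = algebraMap ↥(ndrLoc OM (ndbBelow α OM O hαO 𝔫)) ↥(ndrLoc O 𝔫) ⟨h, hh0⟩ ^ q
      - (⟨θ, hθ⟩ : ↥(ndrLoc O 𝔫)) := Subtype.ext hx
  have hye : y = algebraMap ↥(ndrLoc OM (ndbBelow α OM O hαO 𝔫)) ↥(ndrLoc O 𝔫) ⟨h, hh0⟩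
      - (⟨θ, hθ⟩ : ↥(ndrLoc O 𝔫)) ^ q := Subtype.ext hy
  refine ndc_main α OM O hαO 𝔫 hEF hOMfrac hOMcl hOfrac
    hτ hτ𝔫 hq hfr ⟨h, hh0⟩ ⟨θ, hθ⟩ (by rw [← hxe, ← hye]; exact hxy)
    (by rw [← hxe, ← hye]; exact hmax) evΛ ?_
  obtain ⟨s, u, hs, hsu⟩ := hunif
    (evΛ (algebraMap ↥(ndrLoc OM (ndbBelow α OM O hαO 𝔫)) ↥(ndrLoc O 𝔫) ⟨h, hh0⟩))
    (evΛ ⟨θ, hθ⟩)
    (h3 (algebraMap ↥(ndrLoc OM (ndbBelow α OM O hαO 𝔫)) ↥(ndrLoc O 𝔫) ⟨h, hh0⟩))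
    (h3 (⟨θ, hθ⟩ : ↥(ndrLoc O 𝔫)))
  refine ⟨algebraMap ↥O ↥(ndrLoc O 𝔫) s, algebraMap ↥O ↥(ndrLoc O 𝔫) u, ?_, Subtype.ext hsu⟩
  rw [h1]
  intro h0
  apply hs
  have h5 := hev s
  rw [h0, map_zero, sub_zero] at h5
  exact h5

end Glue

end Fermat.Agent.S34
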