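import Mathlib
import Fermat.Agent.S34.LocRing
import Fermat.Agent.S34.LocRing2
import Fermat.Agent.S34.NodeFin
import Fermat.Agent.S34.NodePoly
import Fermat.Agent.S34.NodeDeg

/-!
# S34, leaf NODE-GLUE, complete proof: the node statement `hgam` at a crossing point from
elementwise geometric facts

`ngf_main` has VERBATIM the binders of helper28's announced `ngl_main` (msg 1207).  All carriers
and instances are internal: `Λ₀ := ndrLoc OM 𝔫₀ ⊆ E` (`𝔫₀` the point below `𝔫`),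
`Λ := ndrLoc O 𝔫 ⊆ F`, `Algebra Λ₀ Λ` the restriction of `algebraMap E F` (LocRing2), the ideals
`P_i := Λ ∩ 𝔪_{V_i}`.  Chain: `ndf_integral` (`h ∈ Λ₀`), `ndf_finite` (`Λ` finite over `Λ₀`),
`ndf_max` (`𝔪_Λ = (τ, x, y)`), `ndr_ev` (the `A`-point of `Λ`), `ndd_main`
(`= ndg_surj + ndd_natDegree + ndq_main`), and the transfer back to the chart.

* `ngfCut S W hS` : the ideal `S ∩ 𝔪_W` of a subalgebra `S ⊆ W`; `ngf_mem_cut`.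
* `ngf_loc_le` : `O_𝔫 ⊆ W` when `O ⊆ W` and the centre of `W` on `O` lies in `𝔫`.
* `ngf_main` : the conclusion of `hgam` of `lni_node_swap` for one `ev`.
-/

set_option autoImplicit false

namespace Fermat.Agent.S34

open IsLocalRing Polynomial

section Cut

variable {A F : Type*} [CommRing A] [Field F] [Algebra A F]

/-- The ideal of a subalgebra cut out by the nonunits of a valuation subring containing it. -/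
def ngfCut (S : Subalgebra A F) (W : ValuationSubring F) (hS : ∀ x ∈ S, x ∈ W) : Ideal ↥S :=
  (maximalIdeal ↥W).comap ((S.val : ↥S →+* F).codRestrict W.toSubring (fun x => hS x x.2))

theorem ngf_mem_cut (S : Subalgebra A F) (W : ValuationSubring F) (hS : ∀ x ∈ S, x ∈ W)
    (x : ↥S) : x ∈ ngfCut S W hS ↔ (x : F) ∈ W.nonunits := by
  unfold ngfCut
  rw [Ideal.mem_comap]
  exact (ValuationSubring.coe_mem_nonunits_iff (A := W) (a := ⟨x, hS x x.2⟩)).symm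

/-- An element of `W` outside the nonunits has its inverse in `W`. -/
theorem ngf_inv_mem (W : ValuationSubring F) {x : F} (hx' : x ∉ W.nonunits) : x⁻¹ ∈ W := by
  by_contra h
  exact hx' ((ValuationSubring.mem_nonunits_iff_or W).mpr (Or.inr h))

/-- The local ring of the chart at `𝔫` lies in every valuation subring containing the chart
whose centre lies in `𝔫`. -/
theorem ngf_loc_le (O : Subalgebra A F) (𝔫 : Ideal ↥O) [h𝔫 : 𝔫.IsPrime] (W : ValuationSubring F)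
    (hO : ∀ x ∈ O, x ∈ W) (hc : ∀ x : ↥O, (x : F) ∈ W.nonunits → x ∈ 𝔫) :
    ∀ z ∈ ndrLoc O 𝔫, z ∈ W := by
  rintro z ⟨a, s, hs, h⟩
  have hs' : (s : F)⁻¹ ∈ W := ngf_inv_mem W (fun h' => hs (hc s h'))
  have hs0 : (s : F) ≠ 0 := by
    intro h0
    apply hs
    have : s = 0 := Subtype.ext h0
    rw [this]
    exact 𝔫.zero_mem
  have hz : z = (a : F) * (s : F)⁻¹ := by
    rw [← h]
    field_simp
  rw [hz]
  exact W.mul_mem _ _ (hO a a.2) hs'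

end Cut


section Glue

variable {A E F : Type*} [CommRing A] [IsDomain A] [IsDiscreteValuationRing A] [Field E]
  [Field F] [Algebra A E] [Algebra A F] [Algebra E F] [IsScalarTower A E F]
  [FiniteDimensional E F] [CharZero E]

theorem ngf_main {τ : A} (hτ : Irreducible τ) {q : ℕ} (hq : q ≠ 0)
    (hfr : Module.finrank E F = q + 1)
    (OM : Subalgebra A E) (O : Subalgebra A F) [IsNoetherianRing ↥OM] [IsNoetherianRing ↥O]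
    (hαO : ∀ x ∈ OM, algebraMap E F x ∈ O) (hOMcl : ∀ x : E, IsIntegral ↥OM x → x ∈ OM)
    (hOMfrac : ∀ x : E, ∃ a ∈ OM, ∃ s ∈ OM, s ≠ 0 ∧ x * s = a)
    (hOcl : ∀ x : F, IsIntegral ↥O x → x ∈ O)
    (hOfrac : ∀ x : F, ∃ a ∈ O, ∃ s ∈ O, s ≠ 0 ∧ x * s = a)
    (hint : ∀ z ∈ O, IsIntegral ↥OM z)
    (𝔫 : Ideal ↥O) [h𝔫 : 𝔫.IsMaximal] (hτ𝔫 : algebraMap A ↥O τ ∈ 𝔫)
    (V₁ V₂ : ValuationSubring F) (hO₁ : ∀ x ∈ O, x ∈ V₁) (hO₂ : ∀ x ∈ O, x ∈ V₂)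
    (hτ₁ : algebraMap A F τ ∈ V₁.nonunits)
    (hc₁ : ∀ x : ↥O, (x : F) ∈ V₁.nonunits → x ∈ 𝔫)
    (hc₂ : ∀ x : ↥O, (x : F) ∈ V₂.nonunits → x ∈ 𝔫)
    (hred : ∀ x : ↥O, (x : F) ∈ V₁.nonunits → (x : F) ∈ V₂.nonunits →
      ∃ u : ↥O, x = algebraMap A ↥O τ * u)
    (hlift : ∀ z : ↥O, ∃ z₀ ∈ OM, (z : F) - algebraMap E F z₀ ∈ V₁.nonunits)
    (Q : ℕ) (hQ : Q ≠ 0)
    (hinsep : ∀ z : ↥O, ∃ z₀ ∈ OM, (z : F) ^ Q - algebraMap E F z₀ ∈ V₂.nonunits)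
    (h : E) (hh : ∃ a s : ↥O, s ∉ 𝔫 ∧ algebraMap E F h * (s : F) = (a : F))
    (θ : F) (hθ : ∃ a s : ↥O, s ∉ 𝔫 ∧ θ * (s : F) = (a : F))
    (hk₁ : algebraMap E F h ^ q - θ ∈ V₁.nonunits)
    (hk₂ : algebraMap E F h - θ ^ q ∈ V₂.nonunits)
    (hB₁ : ∀ a : ↥O, a ∈ 𝔫 → ∃ b c : ↥O, c ∉ 𝔫 ∧
      (a : F) * (c : F) - (algebraMap E F h - θ ^ q) * (b : F) ∈ V₁.nonunits)
    (hB₂ : ∀ a : ↥O, a ∈ 𝔫 → ∃ b c : ↥O, c ∉ 𝔫 ∧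
      (a : F) * (c : F) - (algebraMap E F h ^ q - θ) * (b : F) ∈ V₂.nonunits)
    (ev : ↥O →ₐ[A] A) (V : ValuationSubring F) (hOV : ∀ x ∈ O, x ∈ V)
    (hVO : ∀ x ∈ V, ∃ s : ↥O, ev s ≠ 0 ∧ (s : F) * x ∈ O)
    (hev : ∀ y : ↥O, (y : F) - algebraMap A F (ev y) ∈ V.nonunits)
    (hloc : ∀ x ∈ 𝔫, ¬ IsUnit (ev x))
    (hunif : ∀ a b : A, algebraMap E F h - algebraMap A F a ∈ V.nonunits →
      θ - algebraMap A F b ∈ V.nonunits →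
      ∃ s u : ↥O, (s : F) ∉ V.nonunits ∧
        (s : F) * (θ - algebraMap A F b) = (algebraMap E F h - algebraMap A F a) * (u : F)) :
    ∃ g : ↥O, ev g = 0 ∧ ∃ c : A, c ≠ 0 ∧ ∀ w : ↥O, ev w = 0 →
      ∃ s u : ↥O, s ∉ 𝔫 ∧ algebraMap A ↥O c * (s * w) = g * u := by
  classical
  have hprime : 𝔫.IsPrime := h𝔫.isPrime
  -- the map `α` and the carriers
  let α : E →ₐ[A] F := IsScalarTower.toAlgHom A E F
  have hα : ∀ x ∈ OM, α x ∈ O := hαO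
  have hαinj : Function.Injective (algebraMap E F) := (algebraMap E F).injective
  -- instances for `Λ₀ = ndrLoc OM (ndbBelow α OM O hα 𝔫)`
  have hΛ₀ic := ndb_isIntegrallyClosed α OM O hα 𝔫 hOMfrac hOMcl
  have hΛ₀fr := ndb_isFractionRing α OM O hα 𝔫 hOMfrac
  have st2 := IsScalarTower.of_algebraMap_eq
    (R := ↥(ndrLoc OM (ndbBelow α OM O hα 𝔫))) (S := ↥(ndrLoc O 𝔫)) (A := F) (fun _ => rfl)
  have st4 := IsScalarTower.of_algebraMap_eq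
    (R := ↥OM) (S := ↥(ndrLoc OM (ndbBelow α OM O hα 𝔫))) (A := F) (fun _ => rfl)
  -- the ideals cut out by `V₁`, `V₂`
  have hΛV₁ := ngf_loc_le O 𝔫 V₁ hO₁ hc₁
  have hΛV₂ := ngf_loc_le O 𝔫 V₂ hO₂ hc₂
  have hs0 : ∀ s : ↥O, s ∉ 𝔫 → (s : F) ≠ 0 := by
    intro s hs h0
    apply hs
    have : s = 0 := Subtype.ext h0
    rw [this]
    exact 𝔫.zero_mem
  have hsV₁ : ∀ s : ↥O, s ∉ 𝔫 → (s : F)⁻¹ ∈ V₁ := fun s hs =>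
    ngf_inv_mem V₁ (fun h' => hs (hc₁ s h'))
  have hsV₂ : ∀ s : ↥O, s ∉ 𝔫 → (s : F)⁻¹ ∈ V₂ := fun s hs =>
    ngf_inv_mem V₂ (fun h' => hs (hc₂ s h'))
  -- the chart ideals
  have hp₁ : ngfCut O V₁ hO₁ ≤ 𝔫 := fun x hx => hc₁ x ((ngf_mem_cut O V₁ hO₁ x).mp hx)
  have hp₂ : ngfCut O V₂ hO₂ ≤ 𝔫 := fun x hx => hc₂ x ((ngf_mem_cut O V₂ hO₂ x).mp hx)
  have hredO : ∀ z ∈ ngfCut O V₁ hO₁, z ∈ ngfCut O V₂ hO₂ →
      z ∈ Ideal.span {algebraMap A ↥O τ} := by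
    intro z h1 h2
    obtain ⟨u, hu⟩ := hred z ((ngf_mem_cut O V₁ hO₁ z).mp h1) ((ngf_mem_cut O V₂ hO₂ z).mp h2)
    rw [Ideal.mem_span_singleton']
    exact ⟨u, by rw [hu, mul_comm]⟩
  have hliftO : ∀ z : ↥O, ∃ z₀ : ↥O, (z₀ : F) ∈ (algebraMap E F) '' (OM : Set E) ∧
      z - z₀ ∈ ngfCut O V₁ hO₁ := by
    intro z
    obtain ⟨z₀, hz₀, hz⟩ := hlift z
    exact ⟨⟨algebraMap E F z₀, hαO z₀ hz₀⟩, ⟨z₀, hz₀, rfl⟩, (ngf_mem_cut O V₁ hO₁ _).mpr hz⟩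
  have hinsepO : ∀ z : ↥O, ∃ z₀ : ↥O, (z₀ : F) ∈ (algebraMap E F) '' (OM : Set E) ∧
      z ^ Q - z₀ ∈ ngfCut O V₂ hO₂ := by
    intro z
    obtain ⟨z₀, hz₀, hz⟩ := hinsep z
    exact ⟨⟨algebraMap E F z₀, hαO z₀ hz₀⟩, ⟨z₀, hz₀, rfl⟩, (ngf_mem_cut O V₂ hO₂ _).mpr hz⟩
  have hΛ₀img : ∀ z ∈ (algebraMap E F) '' (OM : Set E),
      ∃ y : ↥(ndrLoc OM (ndbBelow α OM O hα 𝔫)), algebraMap _ F y = z := by
    rintro z ⟨e, he, rfl⟩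
    exact ⟨⟨e, ndr_le OM _ he⟩, rfl⟩
  have hlocΛ₀ : ∀ y : ↥(ndrLoc OM (ndbBelow α OM O hα 𝔫)),
      ∃ a s : ↥O, s ∉ 𝔫 ∧ algebraMap _ F y * (s : F) = (a : F) := fun y =>
    ndb_map_mem α OM O hα 𝔫 y.2
  have hintΛ₀ : ∀ z ∈ O, IsIntegral ↥(ndrLoc OM (ndbBelow α OM O hα 𝔫)) z := fun z hz =>
    (hint z hz).tower_top
  have hτO₀ : ((algebraMap A ↥O τ : ↥O) : F) ∈ (algebraMap E F) '' (OM : Set E) :=
    ⟨algebraMap A E τ, OM.algebraMap_mem τ, (IsScalarTower.algebraMap_apply A E F τ).symm⟩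
  -- `h` lies in the local ring below
  obtain ⟨h₀, hh₀⟩ : ∃ h₀ : ↥(ndrLoc OM (ndbBelow α OM O hα 𝔫)), (h₀ : E) = h := by
    have h1 : IsIntegral ↥(ndrLoc OM (ndbBelow α OM O hα 𝔫)) (algebraMap E F h) :=
      ndf_integral O 𝔫 _ hΛ₀img hlocΛ₀ hintΛ₀ (algebraMap A ↥O τ) hτ𝔫 hτO₀ _ _ hp₁ hp₂ hredO
        Q hQ hliftO hinsepO _ hh
    have h2 : IsIntegral ↥(ndrLoc OM (ndbBelow α OM O hα 𝔫)) h :=
      (isIntegral_algebraMap_iff hαinj).mp h1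
    obtain ⟨y, hy⟩ := (IsIntegrallyClosed.isIntegral_iff
      (R := ↥(ndrLoc OM (ndbBelow α OM O hα 𝔫))) (K := E)).mp h2
    exact ⟨y, hy⟩
  -- finiteness of the local ring over the local ring below
  have hfin : Module.Finite ↥(ndrLoc OM (ndbBelow α OM O hα 𝔫)) ↥(ndrLoc O 𝔫) :=
    ndf_finite (K := E) O 𝔫 hOcl _ hΛ₀img hlocΛ₀ hintΛ₀ (algebraMap A ↥O τ) hτ𝔫 hτO₀ _ _
      hp₁ hp₂ hredO Q hQ hliftO hinsepO (ndrLoc O 𝔫) (fun z => Iff.rfl)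
  -- the ideals of the local ring
  have hP₁mem := ngf_mem_cut (ndrLoc O 𝔫) V₁ hΛV₁
  have hP₂mem := ngf_mem_cut (ndrLoc O 𝔫) V₂ hΛV₂
  have hPmax : ∀ (W : ValuationSubring F) (hW : ∀ z ∈ ndrLoc O 𝔫, z ∈ W),
      (∀ x : ↥O, (x : F) ∈ W.nonunits → x ∈ 𝔫) →
      ngfCut (ndrLoc O 𝔫) W hW ≤ maximalIdeal ↥(ndrLoc O 𝔫) := by
    intro W hW hc z hz
    rw [ndr_mem_maximalIdeal_iff]
    obtain ⟨a, s, hs, has⟩ := z.2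
    refine ⟨a, s, hc a ?_, hs, has⟩
    rw [← has]
    exact kri_nonunits_mul W ((ngf_mem_cut _ W hW z).mp hz) (hW _ (ndr_le O 𝔫 s.2))
  have hP₁ := hPmax V₁ hΛV₁ hc₁
  have hP₂ := hPmax V₂ hΛV₂ hc₂
  have hredΛ : ∀ z ∈ ngfCut (ndrLoc O 𝔫) V₁ hΛV₁, z ∈ ngfCut (ndrLoc O 𝔫) V₂ hΛV₂ →
      z ∈ Ideal.span {algebraMap A ↥(ndrLoc O 𝔫) τ} := by
    intro z h1 h2
    obtain ⟨a, s, hs, has⟩ := z.2
    have ha1 : (a : F) ∈ V₁.nonunits := by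
      rw [← has]
      exact kri_nonunits_mul V₁ ((hP₁mem z).mp h1) (hO₁ _ s.2)
    have ha2 : (a : F) ∈ V₂.nonunits := by
      rw [← has]
      exact kri_nonunits_mul V₂ ((hP₂mem z).mp h2) (hO₂ _ s.2)
    obtain ⟨u, hu⟩ := hred a ha1 ha2
    have hsne := hs0 s hs
    have hmem : (u : F) * (s : F)⁻¹ ∈ ndrLoc O 𝔫 :=
      ⟨u, s, hs, by field_simp⟩
    rw [Ideal.mem_span_singleton']
    refine ⟨⟨_, hmem⟩, Subtype.ext ?_⟩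
    show (u : F) * (s : F)⁻¹ * algebraMap A F τ = (z : F)
    have hu' : (a : F) = algebraMap A F τ * (u : F) := congrArg Subtype.val hu
    have hz : (z : F) = (a : F) * (s : F)⁻¹ := by
      rw [← has]
      field_simp
    rw [hz, hu']
    ring
  have hτP₁ : algebraMap A ↥(ndrLoc O 𝔫) τ ∈ ngfCut (ndrLoc O 𝔫) V₁ hΛV₁ :=
    (hP₁mem _).mpr hτ₁
  -- `θ` in the local ring, `x` and `y`
  have hx : algebraMap ↥(ndrLoc OM (ndbBelow α OM O hα 𝔫)) ↥(ndrLoc O 𝔫) h₀ ^ q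
      - (⟨θ, hθ⟩ : ↥(ndrLoc O 𝔫)) ∈ ngfCut (ndrLoc O 𝔫) V₁ hΛV₁ := by
    rw [hP₁mem]
    show algebraMap E F (h₀ : E) ^ q - θ ∈ V₁.nonunits
    rw [hh₀]
    exact hk₁
  have hy : algebraMap ↥(ndrLoc OM (ndbBelow α OM O hα 𝔫)) ↥(ndrLoc O 𝔫) h₀
      - (⟨θ, hθ⟩ : ↥(ndrLoc O 𝔫)) ^ q ∈ ngfCut (ndrLoc O 𝔫) V₂ hΛV₂ := by
    rw [hP₂mem]
    show algebraMap E F (h₀ : E) - θ ^ q ∈ V₂.nonunits
    rw [hh₀]
    exact hk₂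
  -- the branch conditions on the local ring
  have hBΛ : ∀ (W : ValuationSubring F) (hW : ∀ z ∈ ndrLoc O 𝔫, z ∈ W)
      (hsW : ∀ s : ↥O, s ∉ 𝔫 → (s : F)⁻¹ ∈ W) (y : ↥(ndrLoc O 𝔫)),
      (∀ a : ↥O, a ∈ 𝔫 → ∃ b c : ↥O, c ∉ 𝔫 ∧
        (a : F) * (c : F) - (y : F) * (b : F) ∈ W.nonunits) →
      ∀ z ∈ maximalIdeal ↥(ndrLoc O 𝔫), ∃ b : ↥(ndrLoc O 𝔫),
        z - y * b ∈ ngfCut (ndrLoc O 𝔫) W hW := by
    intro W hW hsW y hB z hz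
    obtain ⟨a, s, ha, hs, has⟩ := (ndr_mem_maximalIdeal_iff O 𝔫 z).mp hz
    obtain ⟨b, c, hc, hbc⟩ := hB a ha
    have hsne := hs0 s hs
    have hcne := hs0 c hc
    have hcs : c * s ∉ 𝔫 := fun hmem =>
      (hprime.mem_or_mem hmem).elim hc hs
    have hmem : (b : F) * ((c : F) * (s : F))⁻¹ ∈ ndrLoc O 𝔫 :=
      ⟨b, c * s, hcs, by
        show (b : F) * ((c : F) * (s : F))⁻¹ * ((c : F) * (s : F)) = (b : F)
        field_simp⟩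
    refine ⟨⟨_, hmem⟩, ?_⟩
    rw [ngf_mem_cut]
    show (z : F) - (y : F) * ((b : F) * ((c : F) * (s : F))⁻¹) ∈ W.nonunits
    have hz' : (z : F) = (a : F) * (s : F)⁻¹ := by
      rw [← has]
      field_simp
    have hkey : (z : F) - (y : F) * ((b : F) * ((c : F) * (s : F))⁻¹)
        = ((a : F) * (c : F) - (y : F) * (b : F)) * ((c : F)⁻¹ * (s : F)⁻¹) := by
      rw [hz']
      field_simp
    rw [hkey]
    exact kri_nonunits_mul W hbc (W.mul_mem _ _ (hsW c hc) (hsW s hs))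
  have hB₁Λ := hBΛ V₁ hΛV₁ hsV₁
    (algebraMap ↥(ndrLoc OM (ndbBelow α OM O hα 𝔫)) ↥(ndrLoc O 𝔫) h₀
      - (⟨θ, hθ⟩ : ↥(ndrLoc O 𝔫)) ^ q)
    (by
      intro a ha
      obtain ⟨b, c, hc, hbc⟩ := hB₁ a ha
      refine ⟨b, c, hc, ?_⟩
      show (a : F) * (c : F) - (algebraMap E F (h₀ : E) - θ ^ q) * (b : F) ∈ V₁.nonunits
      rw [hh₀]
      exact hbc)
  have hB₂Λ := hBΛ V₂ hΛV₂ hsV₂
    (algebraMap ↥(ndrLoc OM (ndbBelow α OM O hα 𝔫)) ↥(ndrLoc O 𝔫) h₀ ^ q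
      - (⟨θ, hθ⟩ : ↥(ndrLoc O 𝔫)))
    (by
      intro a ha
      obtain ⟨b, c, hc, hbc⟩ := hB₂ a ha
      refine ⟨b, c, hc, ?_⟩
      show (a : F) * (c : F) - (algebraMap E F (h₀ : E) ^ q - θ) * (b : F) ∈ V₂.nonunits
      rw [hh₀]
      exact hbc)
  -- the maximal ideal
  have hmax := (ndf_max (algebraMap A ↥(ndrLoc O 𝔫) τ)
    (algebraMap ↥(ndrLoc OM (ndbBelow α OM O hα 𝔫)) ↥(ndrLoc O 𝔫) h₀ ^ q
      - (⟨θ, hθ⟩ : ↥(ndrLoc O 𝔫)))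
    (algebraMap ↥(ndrLoc OM (ndbBelow α OM O hα 𝔫)) ↥(ndrLoc O 𝔫) h₀
      - (⟨θ, hθ⟩ : ↥(ndrLoc O 𝔫)) ^ q)
    _ _ hredΛ hτP₁ hx hP₁ (hP₂ hy) hB₁Λ hB₂Λ).2
  -- `hxy`
  have hxy : ∃ l : ↥(ndrLoc O 𝔫),
      (algebraMap ↥(ndrLoc OM (ndbBelow α OM O hα 𝔫)) ↥(ndrLoc O 𝔫) h₀ ^ q
        - (⟨θ, hθ⟩ : ↥(ndrLoc O 𝔫))) *
      (algebraMap ↥(ndrLoc OM (ndbBelow α OM O hα 𝔫)) ↥(ndrLoc O 𝔫) h₀
        - (⟨θ, hθ⟩ : ↥(ndrLoc O 𝔫)) ^ q) = algebraMap A ↥(ndrLoc O 𝔫) τ * l := by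
    have h1 := hredΛ _ (Ideal.mul_mem_right _ _ hx) (Ideal.mul_mem_left _ _ hy)
    obtain ⟨l, hl⟩ := Ideal.mem_span_singleton'.mp h1
    exact ⟨l, hl.symm.trans (mul_comm _ _)⟩
  -- the `A`-point of the local ring
  obtain ⟨evΛ, hevΛ, hΛV, hevΛV, hVΛ, htr⟩ := ndr_ev O 𝔫 ev V hOV hVO hev hloc
  apply htr
  -- `hunif`
  have hunifΛ : ∃ s u : ↥(ndrLoc O 𝔫), evΛ s ≠ 0 ∧
      s * ((⟨θ, hθ⟩ : ↥(ndrLoc O 𝔫)) - algebraMap A ↥(ndrLoc O 𝔫) (evΛ ⟨θ, hθ⟩))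
        = (algebraMap ↥(ndrLoc OM (ndbBelow α OM O hα 𝔫)) ↥(ndrLoc O 𝔫) h₀
            - algebraMap A ↥(ndrLoc O 𝔫)
              (evΛ (algebraMap ↥(ndrLoc OM (ndbBelow α OM O hα 𝔫)) ↥(ndrLoc O 𝔫) h₀))) * u := by
    have ha : algebraMap E F h - algebraMap A F
        (evΛ (algebraMap ↥(ndrLoc OM (ndbBelow α OM O hα 𝔫)) ↥(ndrLoc O 𝔫) h₀))
          ∈ V.nonunits := by
      have := hevΛV (algebraMap ↥(ndrLoc OM (ndbBelow α OM O hα 𝔫)) ↥(ndrLoc O 𝔫) h₀)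
      rw [← hh₀]
      exact this
    have hb : θ - algebraMap A F (evΛ ⟨θ, hθ⟩) ∈ V.nonunits := hevΛV ⟨θ, hθ⟩
    obtain ⟨s, u, hs, hsu⟩ := hunif _ _ ha hb
    refine ⟨algebraMap ↥O ↥(ndrLoc O 𝔫) s, algebraMap ↥O ↥(ndrLoc O 𝔫) u, ?_, ?_⟩
    · rw [hevΛ]
      intro h0
      apply hs
      have := hev s
      rw [h0, map_zero, sub_zero] at this
      exact this
    · apply Subtype.ext
      show (s : F) * (θ - algebraMap A F (evΛ ⟨θ, hθ⟩))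
        = (algebraMap E F (h₀ : E) - algebraMap A F
          (evΛ (algebraMap ↥(ndrLoc OM (ndbBelow α OM O hα 𝔫)) ↥(ndrLoc O 𝔫) h₀))) * (u : F)
      rw [hh₀]
      exact hsu
  exact ndd_main (E := E) (F := F) Subtype.val_injective (fun x => ndr_hfrac O 𝔫 hOfrac x)
    (ndb_injective α OM O hα 𝔫) hτ (ndb_tau_mem α OM O hα 𝔫 τ hτ𝔫) hq hfr h₀ ⟨θ, hθ⟩ hxy hmax
    evΛ hunifΛ

end Glue

end Fermat.Agent.S34

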