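import Mathlib
import Fermat.Agent.S34.LocRing3

/-!
# S34, NODE-GLUE, two steps of the abstract glue (`ngl_main`)

Carrier of `LocRing2`: `α : E →ₐ[A] F`, charts `OE ⊆ E`, `O ⊆ F` with `α OE ⊆ O`, `𝔫` a prime
of `O`, `Λ₀ := ndrLoc OE (ndbBelow α OE O hα 𝔫)`, `Λ := ndrLoc O 𝔫`.

* `ngh_h_mem`: `Λ ∩ E = Λ₀` when `Λ` is finite over `Λ₀`: an element `h` of `E` with
  `α h ∈ Λ` lies in `Λ₀` (integral closedness of `Λ₀`).
* `ngh_hunif`: the `Λ`-form of the local-parameter hypothesis `hunif` (as asked by `ndc_main`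
  for an `A`-point `evΛ` of `Λ` given with its valuation ring `V`) from its `F`-form with
  witnesses in the chart `O` (the shape of `ngl_main`).
* `ngh_hunif_carrier`: the same at the carrier, in the exact shape of the hypothesis `hunif` of
  `ndc_main`.
-/

set_option autoImplicit false

open IsLocalRing Polynomial

namespace Fermat.Agent.S34

section Mem

variable {A E F : Type*} [CommRing A] [Field E] [Field F] [Algebra A E] [Algebra A F]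
  (α : E →ₐ[A] F) (OE : Subalgebra A E) (O : Subalgebra A F) (hα : ∀ x ∈ OE, α x ∈ O)

/-- **`Λ ∩ E = Λ₀`.**  If the local ring `Λ = ndrLoc O 𝔫` is finite over the local ring
`Λ₀ = ndrLoc OE (ndbBelow α OE O hα 𝔫)` of the chart below, then every `h : E` with
`α h ∈ Λ` lies in `Λ₀`. -/
theorem ngh_h_mem (𝔫 : Ideal ↥O) [h𝔫 : 𝔫.IsPrime]
    (hfracE : ∀ x : E, ∃ a ∈ OE, ∃ s ∈ OE, s ≠ 0 ∧ x * s = a)
    (hicE : ∀ x : E, IsIntegral ↥OE x → x ∈ OE)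
    [Module.Finite ↥(ndrLoc OE (ndbBelow α OE O hα 𝔫)) ↥(ndrLoc O 𝔫)]
    (h : E) (hh : α h ∈ ndrLoc O 𝔫) : h ∈ ndrLoc OE (ndbBelow α OE O hα 𝔫) := by
  have hfr : IsFractionRing ↥(ndrLoc OE (ndbBelow α OE O hα 𝔫)) E :=
    ndb_isFractionRing α OE O hα 𝔫 hfracE
  have hic : IsIntegrallyClosed ↥(ndrLoc OE (ndbBelow α OE O hα 𝔫)) :=
    ndb_isIntegrallyClosed α OE O hα 𝔫 hfracE hicE
  -- `α h`, as an element of `Λ`, is integral over `Λ₀`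
  have hint : IsIntegral ↥(ndrLoc OE (ndbBelow α OE O hα 𝔫)) (⟨α h, hh⟩ : ↥(ndrLoc O 𝔫)) :=
    Algebra.IsIntegral.isIntegral _
  obtain ⟨p, hp, hpx⟩ := hint
  -- hence `h` is integral over `Λ₀`
  have hint' : IsIntegral ↥(ndrLoc OE (ndbBelow α OE O hα 𝔫)) h := by
    refine ⟨p, hp, ?_⟩
    apply α.toRingHom.injective
    have h1 := congrArg (fun z : ↥(ndrLoc O 𝔫) => (z : F)) hpx
    have h2 : ((Polynomial.eval₂ (algebraMap ↥(ndrLoc OE (ndbBelow α OE O hα 𝔫)) ↥(ndrLoc O 𝔫))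
        (⟨α h, hh⟩ : ↥(ndrLoc O 𝔫)) p : ↥(ndrLoc O 𝔫)) : F)
        = Polynomial.eval₂ ((ndrLoc O 𝔫).val.toRingHom.comp
            (algebraMap ↥(ndrLoc OE (ndbBelow α OE O hα 𝔫)) ↥(ndrLoc O 𝔫))) (α h) p :=
      Polynomial.hom_eval₂ p _ (ndrLoc O 𝔫).val.toRingHom _
    have h3 : α.toRingHom (Polynomial.eval₂
        (algebraMap ↥(ndrLoc OE (ndbBelow α OE O hα 𝔫)) E) h p)
        = Polynomial.eval₂ (α.toRingHom.comp
            (algebraMap ↥(ndrLoc OE (ndbBelow α OE O hα 𝔫)) E)) (α h) p :=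
      Polynomial.hom_eval₂ p _ α.toRingHom _
    have h4 : (ndrLoc O 𝔫).val.toRingHom.comp
          (algebraMap ↥(ndrLoc OE (ndbBelow α OE O hα 𝔫)) ↥(ndrLoc O 𝔫))
        = α.toRingHom.comp (algebraMap ↥(ndrLoc OE (ndbBelow α OE O hα 𝔫)) E) :=
      RingHom.ext fun x => rfl
    rw [h3, ← h4, ← h2, map_zero]
    exact h1
  obtain ⟨y, hy⟩ := IsIntegrallyClosed.isIntegral_iff.mp hint'
  rw [← hy]
  exact y.2

end Mem

section Unif

variable {A F : Type*} [CommRing A] [Field F] [Algebra A F]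

/-- **The `Λ`-form of `hunif` from its `F`-form.**  `Λ ⊇ O` a subalgebra, `evΛ` an `A`-point of
`Λ` with valuation ring `V` (`y - evΛ y ∈ 𝔪_V` for all `y ∈ Λ`), `hΛ, θΛ ∈ Λ`.  If for the values
`a = evΛ hΛ`, `b = evΛ θΛ` there are `s, u ∈ O`, `s` a unit of `V`, with
`s * (θ - b) = (h - a) * u`, then the same holds in `Λ` with `evΛ s ≠ 0`. -/
theorem ngh_hunif (O Λ : Subalgebra A F) (hOΛ : O ≤ Λ) (evΛ : ↥Λ →ₐ[A] A)
    (V : ValuationSubring F)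
    (hΛV : ∀ y : ↥Λ, (y : F) ∈ V ∧ (y : F) - algebraMap A F (evΛ y) ∈ V.nonunits)
    (hΛ θΛ : ↥Λ)
    (hunif : ∀ a b : A, (hΛ : F) - algebraMap A F a ∈ V.nonunits →
      (θΛ : F) - algebraMap A F b ∈ V.nonunits →
      ∃ s u : ↥O, (s : F) ∉ V.nonunits ∧
        (s : F) * ((θΛ : F) - algebraMap A F b) = ((hΛ : F) - algebraMap A F a) * (u : F)) :
    ∃ s u : ↥Λ, evΛ s ≠ 0 ∧
      s * (θΛ - algebraMap A ↥Λ (evΛ θΛ)) = (hΛ - algebraMap A ↥Λ (evΛ hΛ)) * u := by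
  obtain ⟨s, u, hs, hsu⟩ := hunif (evΛ hΛ) (evΛ θΛ) (hΛV hΛ).2 (hΛV θΛ).2
  refine ⟨⟨s, hOΛ s.2⟩, ⟨u, hOΛ u.2⟩, ?_, Subtype.ext hsu⟩
  intro h0
  apply hs
  have h1 := (hΛV ⟨s, hOΛ s.2⟩).2
  rw [h0, map_zero, sub_zero] at h1
  exact h1

end Unif

section Carrier

variable {A E F : Type*} [CommRing A] [Field E] [Field F] [Algebra A E] [Algebra A F]
  (α : E →ₐ[A] F) (OE : Subalgebra A E) (O : Subalgebra A F) (hα : ∀ x ∈ OE, α x ∈ O)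

/-- `ngh_hunif` at the carrier of `LocRing2`, in the exact shape of the hypothesis `hunif` of
`ndc_main` (for one `A`-point `evΛ` of `Λ = ndrLoc O 𝔫` with its valuation ring `V`), from the
`F`-form of `ngl_main` (witnesses in the chart `O`, `s` a unit of `V`). -/
theorem ngh_hunif_carrier (𝔫 : Ideal ↥O) [h𝔫 : 𝔫.IsPrime]
    (h : ↥(ndrLoc OE (ndbBelow α OE O hα 𝔫))) (θ : ↥(ndrLoc O 𝔫))
    (evΛ : ↥(ndrLoc O 𝔫) →ₐ[A] A) (V : ValuationSubring F)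
    (hΛV : ∀ y : ↥(ndrLoc O 𝔫), (y : F) ∈ V ∧ (y : F) - algebraMap A F (evΛ y) ∈ V.nonunits)
    (hunif : ∀ a b : A, α (h : E) - algebraMap A F a ∈ V.nonunits →
      (θ : F) - algebraMap A F b ∈ V.nonunits →
      ∃ s u : ↥O, (s : F) ∉ V.nonunits ∧
        (s : F) * ((θ : F) - algebraMap A F b) = (α (h : E) - algebraMap A F a) * (u : F)) :
    ∃ s u : ↥(ndrLoc O 𝔫), evΛ s ≠ 0 ∧
      s * (θ - algebraMap A ↥(ndrLoc O 𝔫) (evΛ θ))
        = (algebraMap ↥(ndrLoc OE (ndbBelow α OE O hα 𝔫)) ↥(ndrLoc O 𝔫) h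
            - algebraMap A ↥(ndrLoc O 𝔫)
                (evΛ (algebraMap ↥(ndrLoc OE (ndbBelow α OE O hα 𝔫)) ↥(ndrLoc O 𝔫) h))) * u :=
  ngh_hunif O (ndrLoc O 𝔫) (ndr_le O 𝔫) evΛ V hΛV
    (algebraMap ↥(ndrLoc OE (ndbBelow α OE O hα 𝔫)) ↥(ndrLoc O 𝔫) h) θ hunif

end Carrier

end Fermat.Agent.S34
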