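import Mathlib
import Fermat.Agent.S34.NodeInstK0
import Fermat.Agent.S34.BranchInst
import Fermat.Agent.S34.NodeUnifInst
import Fermat.Agent.S34.UnramSeam
import Fermat.Agent.S34.NodeChart

/-!
# S34, NODE-INST-K0, part 2: the branch and local-parameter hypotheses of `nik_imgam`

* `nik_hB1`: the hypothesis `hB₁` of `nik_gam` / `nik_imgam` (first branch at a crossing point)
  from `bri_main` (BRANCH-INST), non-cuspidality of the crossing points (`cni_crossing`) and the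
  seam adapter `unr_seam_hB`; inputs: (SM) `cinstSMChart` and unramifiedness `unrChart` of the
  level-`M` chart of the pair `(c0, c1)`.
* `nik_imgam2`: `S34imGam` from `cinstSMChart`, `unrChart` and the second branch statement
  `hB₂` (the local-parameter hypothesis is `nui_hunif`).
-/

set_option autoImplicit false
set_option linter.unusedSectionVars false

noncomputable section

open ModularCurve AlgebraicCurve Polynomial
open Fermat.Agent.S18 Fermat.Agent.S37

namespace Fermat.Agent.S34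

local notation "Qb" => AlgebraicClosure ℚ

section Field

variable (M q : ℕ) [NeZero M] [hq : Fact q.Prime] (hM : ¬ q ∣ M)
  (K0 : Type*) [Field K0] [Algebra ℚ K0] [Algebra K0 Qb]
  (A0 : ValuationSubring K0) [IsDiscreteValuationRing ↥A0]
  {a2 : ℕ} (H : HauptRec a2 q)

/-- `hB₁` of `nik_gam` / `nik_imgam` from `bri_main`. -/
theorem nik_hB1 (ha2 : a2 ∣ M)
    [Algebra ↥A0 ↥(laurentBaseChange K0 (modularFunctionFieldFull (M * q)))]
    [IsScalarTower ↥A0 K0 ↥(laurentBaseChange K0 (modularFunctionFieldFull (M * q)))]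
    (hA0 : A0.LiesOverPrime q)
    (c0 c1 : A0) (hc : IsLocalRing.residue A0 c0 ≠ IsLocalRing.residue A0 c1)
    (hSM : cinstSMChart K0 A0 M H (c0 : K0) (c1 : K0))
    (huc : unrChart K0 A0 M H c0 c1)
    (t : ↥(laurentBaseChange K0 (modularFunctionFieldFull (M * q))))
    (ht : (t : LaurentSeries K0) = cinstU H K0 (c0 : K0) (c1 : K0))
    (τ : A0) (hτ : Irreducible τ)
    (𝔫 : Ideal ↥(chtO A0 {t})) (h𝔫 : 𝔫.IsMaximal)
    (hc₁ : ∀ x : ↥(chtO A0 {t}),
      (x : ↥(laurentBaseChange K0 (modularFunctionFieldFull (M * q)))) ∈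
        (va2V1 M q K0 A0).nonunits → x ∈ 𝔫)
    (hc₂ : ∀ x : ↥(chtO A0 {t}),
      (x : ↥(laurentBaseChange K0 (modularFunctionFieldFull (M * q)))) ∈
        (va2V2 M q hM K0 A0).nonunits → x ∈ 𝔫)
    (a : ↥(chtO A0 {t})) (ha : a ∈ 𝔫) :
    ∃ b c : ↥(chtO A0 {t}), c ∉ 𝔫 ∧
      (a : ↥(laurentBaseChange K0 (modularFunctionFieldFull (M * q)))) *
          (c : ↥(laurentBaseChange K0 (modularFunctionFieldFull (M * q)))) -
        (heckeAlphaBar K0 M q (nunH K0 M H ha2) -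
          heckeBetaBar K0 M q (nunH K0 M H ha2) ^ q) *
          (b : ↥(laurentBaseChange K0 (modularFunctionFieldFull (M * q))))
        ∈ (va2V1 M q K0 A0).nonunits := by
  have hp : 𝔫.IsPrime := h𝔫.isPrime
  let algE : Algebra ↥A0 ↥(laurentBaseChange K0 (modularFunctionFieldFull M)) :=
    ((algebraMap K0 ↥(laurentBaseChange K0 (modularFunctionFieldFull M))).comp
      A0.subtype).toAlgebra
  have twE : IsScalarTower ↥A0 K0 ↥(laurentBaseChange K0 (modularFunctionFieldFull M)) :=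
    IsScalarTower.of_algebraMap_eq (fun _ => rfl)
  obtain ⟨tM, htM⟩ : ∃ tM : ↥(laurentBaseChange K0 (modularFunctionFieldFull M)),
      (tM : LaurentSeries K0) = cinstU H K0 (c0 : K0) (c1 : K0) :=
    ⟨⟨cinstU H K0 (c0 : K0) (c1 : K0), cinstU_mem H K0 ha2 _ _⟩, rfl⟩
  obtain ⟨hJ, -, -, -⟩ := cni_crossing M q hM K0 A0 H ha2 hA0 c0 c1 hc t ht 𝔫 hc₁ hc₂
  have hbra := bri_main M q hM K0 A0 hA0 H ha2 c0 c1 hc huc tM htM t ht τ hτ
    (hSM tM htM τ hτ) 𝔫 hc₁ hc₂ hJ
  have h := unr_seam_hB (chtO A0 {t}) 𝔫 (va2V1 M q K0 A0)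
    (fun x hx => nch_O1 M q K0 A0 H c0 c1 hc t ht x hx) _ hbra a ha
  have e1 : dmiH K0 (M * q) H (ha2.mul_right q) = heckeAlphaBar K0 M q (nunH K0 M H ha2) :=
    (cni_alpha_h M q K0 H (ha2.mul_right q) ha2).symm
  have e2 : va2Swap M q hq.out hM K0 (heckeAlphaBar K0 M q (nunH K0 M H ha2)) =
      heckeBetaBar K0 M q (nunH K0 M H ha2) := va2Swap_alpha M q hq.out hM K0 _
  rw [e1, e2] at h
  exact h

/-- **NODE-INST at the `K0` level, branch 1 and the local parameter discharged**: the node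
statement `S34imGam` from (SM) and unramifiedness of the level-`M` chart and the second branch
statement. -/
theorem nik_imgam2 (ha2 : a2 ∣ M) [Finite (IsLocalRing.ResidueField ↥A0)]
    (hA0 : A0.LiesOverPrime q)
    (c0 c1 : A0) (hc : IsLocalRing.residue A0 c0 ≠ IsLocalRing.residue A0 c1)
    (hSM : cinstSMChart K0 A0 M H (c0 : K0) (c1 : K0))
    (huc : unrChart K0 A0 M H c0 c1)
    (hB₂ : ∀ t : ↥(laurentBaseChange K0 (modularFunctionFieldFull (M * q))),
      (t : LaurentSeries K0) = cinstU H K0 (c0 : K0) (c1 : K0) →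
      ∀ [Algebra ↥A0 ↥(laurentBaseChange K0 (modularFunctionFieldFull (M * q)))]
        [IsScalarTower ↥A0 K0 ↥(laurentBaseChange K0 (modularFunctionFieldFull (M * q)))]
        (τ : A0), Irreducible τ →
      ∀ 𝔫 : Ideal ↥(chtO A0 {t}), 𝔫.IsMaximal →
      (∀ x : ↥(chtO A0 {t}),
        (x : ↥(laurentBaseChange K0 (modularFunctionFieldFull (M * q)))) ∈
          (va2V1 M q K0 A0).nonunits → x ∈ 𝔫) →
      (∀ x : ↥(chtO A0 {t}),
        (x : ↥(laurentBaseChange K0 (modularFunctionFieldFull (M * q)))) ∈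
          (va2V2 M q hM K0 A0).nonunits → x ∈ 𝔫) →
      ∀ a : ↥(chtO A0 {t}), a ∈ 𝔫 → ∃ b c : ↥(chtO A0 {t}), c ∉ 𝔫 ∧
        (a : ↥(laurentBaseChange K0 (modularFunctionFieldFull (M * q)))) *
            (c : ↥(laurentBaseChange K0 (modularFunctionFieldFull (M * q)))) -
          (heckeAlphaBar K0 M q (nunH K0 M H ha2) ^ q -
            heckeBetaBar K0 M q (nunH K0 M H ha2)) *
            (b : ↥(laurentBaseChange K0 (modularFunctionFieldFull (M * q))))
          ∈ (va2V2 M q hM K0 A0).nonunits) :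
    S34imGam M q hM K0 A0 H (c0 : K0) (c1 : K0) :=
  nik_imgam M q hM K0 A0 H ha2 hA0 c0 c1 hc hSM
    (fun t ht _ _ τ hτ 𝔫 h𝔫 hc₁ hc₂ a ha =>
      nik_hB1 M q hM K0 A0 H ha2 hA0 c0 c1 hc hSM huc t ht τ hτ 𝔫 h𝔫 hc₁ hc₂ a ha)
    hB₂
    (fun t ht _ _ τ hτ 𝔫 h𝔫 hc₁ hc₂ ev V hpir hOV hVO hev hloc =>
      haveI := h𝔫
      nui_hunif M q hM K0 A0 H ha2 hA0 c0 c1 hc t ht τ hτ 𝔫 hc₁ hc₂ ev V hpir hOV hVO hev hloc
        (heckeBetaBar K0 M q (nunH K0 M H ha2)))

end Field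

end Fermat.Agent.S34
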