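import Fermat.Agent.S34.NodeUnif

/-!
# S34, leaf [NODE-UNIF-LAM]: the local-parameter hypothesis `hunif` of `nda_main_unif` on a local
ring `Λ` of the chart, from the data of a rational point

Data (the shape produced by `lnd_main_pl` / `ndr_ev`): a subalgebra `Λ ⊆ F` over the discrete
valuation ring `A0`, an `A0`-point `ev : Λ → A0`, and a principal ideal valuation subring `V` of
`F` with `Λ ⊆ V`, `y - ev y ∈ 𝔪_V` for `y ∈ Λ`, and `V ⊆ Λ_{ker ev}`.

* `nul_tau_inv_mem`: the point is horizontal, `τ⁻¹ ∈ V`;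
* `nul_place`: `V` is the valuation ring of a place of `F / K0`;
* `nul_hunif_abs`, `nul_hunif`: `hunif` of `nda_main_unif`, verbatim, for
  `π r₁ = θ - ev θ` and `π r₀ = h - ev h` (`h` the Hauptmodul, `ev h` a non-cuspidal value).
-/

set_option autoImplicit false

noncomputable section

namespace Fermat.Agent.S34

open ModularCurve AlgebraicCurve Polynomial Fermat.Agent.S18 Fermat.Agent.S24

local notation "Qb" => AlgebraicClosure ℚ

section Abs

variable {A0 K0 F : Type*} [CommRing A0] [IsDomain A0] [IsDiscreteValuationRing A0]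
  [Field K0] [Algebra A0 K0] [IsFractionRing A0 K0]
  [Field F] [Algebra A0 F] [Algebra K0 F] [IsScalarTower A0 K0 F]

omit [IsDomain A0] [IsDiscreteValuationRing A0] in
/-- `ev` kills `y - ev y`. -/
theorem nul_ev_sub (Λ : Subalgebra A0 F) (ev : Λ →ₐ[A0] A0) (y : Λ) :
    ev (y - algebraMap A0 Λ (ev y)) = 0 := by
  rw [map_sub, AlgHom.commutes]
  exact sub_self _

/-- **The point is horizontal.**  If `Λ` is not reduced to the constants, then `τ⁻¹ ∈ V`. -/
theorem nul_tau_inv_mem {τ : A0} (hτ : Irreducible τ) (Λ : Subalgebra A0 F)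
    (ev : Λ →ₐ[A0] A0) (V : ValuationSubring F) (hpir : IsPrincipalIdealRing V)
    (hΛV : ∀ y : Λ, (y : F) ∈ V ∧ (y : F) - algebraMap A0 F (ev y) ∈ V.nonunits)
    (hVΛ : ∀ x ∈ V, ∃ s : Λ, ev s ≠ 0 ∧ (s : F) * x ∈ Λ)
    (y0 : Λ) (hy0 : (y0 : F) ≠ algebraMap A0 F (ev y0)) :
    (algebraMap A0 F τ)⁻¹ ∈ V := by
  by_contra hτV
  have hτF : algebraMap A0 F τ ≠ 0 := by
    intro h0
    apply hτV
    rw [h0, inv_zero]
    exact V.zero_mem
  have hτmem : algebraMap A0 F τ ∈ V := (hΛV (algebraMap A0 Λ τ)).1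
  -- the non-constant element
  set t' : Λ := y0 - algebraMap A0 Λ (ev y0) with ht'
  have ht'F : (t' : F) = (y0 : F) - algebraMap A0 F (ev y0) := rfl
  have ht'0 : (t' : F) ≠ 0 := by
    rw [ht'F]
    exact sub_ne_zero.mpr hy0
  have hevt' : ev t' = 0 := nul_ev_sub Λ ev y0
  -- `t' / τ ^ k ∈ V` for all `k`
  have key : ∀ k : ℕ, (t' : F) * ((algebraMap A0 F τ) ^ k)⁻¹ ∈ V := by
    intro k
    rcases V.mem_or_inv_mem ((t' : F) * ((algebraMap A0 F τ) ^ k)⁻¹) with h | h
    · exact h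
    · exfalso
      obtain ⟨s, hs, hw⟩ := hVΛ _ h
      have h2 : s * algebraMap A0 Λ (τ ^ k) = ⟨_, hw⟩ * t' := by
        apply Subtype.ext
        have hc : ((s * algebraMap A0 Λ (τ ^ k) : Λ) : F) = (s : F) * (algebraMap A0 F τ) ^ k := by
          rw [← map_pow]; rfl
        rw [hc]
        change (s : F) * (algebraMap A0 F τ) ^ k =
          ((s : F) * ((t' : F) * ((algebraMap A0 F τ) ^ k)⁻¹)⁻¹) * (t' : F)
        field_simp
      have h3 := congrArg ev h2
      rw [map_mul, map_mul, hevt', mul_zero, AlgHom.commutes] at h3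
      rcases mul_eq_zero.mp h3 with h4 | h4
      · exact hs h4
      · exact hτ.ne_zero (pow_eq_zero_iff (M₀ := A0) (n := k) (by
          rintro rfl
          rw [pow_zero] at h4
          exact one_ne_zero h4) |>.mp h4)
  -- Krull intersection in the noetherian local ring `V`
  have hnoeth : IsNoetherianRing V := inferInstance
  set τV : V := ⟨algebraMap A0 F τ, hτmem⟩ with hτV'
  have hI : Ideal.span {τV} ≠ ⊤ := by
    intro htop
    rw [Ideal.span_singleton_eq_top] at htop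
    apply hτV
    obtain ⟨u, hu⟩ := htop
    have h2 : ((u : V) : F) * (((u⁻¹ : Vˣ) : V) : F) = 1 := by
      have := congrArg (Subtype.val) (Units.mul_inv u)
      exact this
    rw [hu] at h2
    have h1 : (algebraMap A0 F τ)⁻¹ = (((u⁻¹ : Vˣ) : V) : F) := by
      rw [eq_comm]
      exact eq_inv_of_mul_eq_one_right h2
    rw [h1]
    exact (((u⁻¹ : Vˣ) : V)).2
  have hbot := Ideal.iInf_pow_eq_bot_of_isLocalRing (Ideal.span {τV}) hI
  have hmem : (⟨(t' : F), (hΛV t').1⟩ : V) ∈ ⨅ i, Ideal.span {τV} ^ i := by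
    rw [Ideal.mem_iInf]
    intro k
    rw [Ideal.span_singleton_pow, Ideal.mem_span_singleton]
    refine ⟨⟨_, key k⟩, ?_⟩
    apply Subtype.ext
    change (t' : F) = (algebraMap A0 F τ) ^ k * ((t' : F) * ((algebraMap A0 F τ) ^ k)⁻¹)
    field_simp
  rw [hbot, Ideal.mem_bot] at hmem
  exact ht'0 (congrArg Subtype.val hmem)

/-- **`V` is a place.**  The valuation ring of the rational point is the valuation ring of a place
of `F / K0` (`K0 = Frac A0`). -/
theorem nul_place {τ : A0} (hτ : Irreducible τ) (Λ : Subalgebra A0 F)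
    (ev : Λ →ₐ[A0] A0) (V : ValuationSubring F) (hpir : IsPrincipalIdealRing V)
    (hΛV : ∀ y : Λ, (y : F) ∈ V ∧ (y : F) - algebraMap A0 F (ev y) ∈ V.nonunits)
    (hVΛ : ∀ x ∈ V, ∃ s : Λ, ev s ≠ 0 ∧ (s : F) * x ∈ Λ)
    (y0 : Λ) (hy0 : (y0 : F) ≠ algebraMap A0 F (ev y0)) :
    ∃ P : Place K0 F, P.toValuationSubring = V := by
  have hτinv := nul_tau_inv_mem hτ Λ ev V hpir hΛV hVΛ y0 hy0
  have hA : ∀ a : A0, algebraMap A0 F a ∈ V := fun a => (hΛV (algebraMap A0 Λ a)).1
  refine ⟨⟨V, ?_, ?_, hpir⟩, rfl⟩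
  · intro a
    obtain ⟨x, y, hy, rfl⟩ := IsFractionRing.div_surjective (A := A0) a
    have hy0' : y ≠ 0 := nonZeroDivisors.ne_zero hy
    obtain ⟨n, u, hu⟩ := IsDiscreteValuationRing.associated_pow_irreducible hy0' hτ
    -- `y * u = τ ^ n`
    have h1 : algebraMap K0 F (algebraMap A0 K0 x / algebraMap A0 K0 y) =
        algebraMap A0 F x * (algebraMap A0 F (u : A0) * ((algebraMap A0 F τ)⁻¹) ^ n) := by
      have hyF : algebraMap A0 F y ≠ 0 := by
        rw [IsScalarTower.algebraMap_apply A0 K0 F]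
        exact (_root_.map_ne_zero _).mpr ((map_ne_zero_iff _ (IsFractionRing.injective A0 K0)).mpr hy0')
      have hτF : algebraMap A0 F τ ≠ 0 := by
        rw [IsScalarTower.algebraMap_apply A0 K0 F]
        exact (_root_.map_ne_zero _).mpr
          ((map_ne_zero_iff _ (IsFractionRing.injective A0 K0)).mpr hτ.ne_zero)
      have h2 : algebraMap A0 F y * algebraMap A0 F (u : A0) = (algebraMap A0 F τ) ^ n := by
        rw [← map_mul, hu, map_pow]
      have huF : algebraMap A0 F (u : A0) ≠ 0 := by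
        intro h0
        rw [h0, mul_zero] at h2
        exact pow_ne_zero n hτF h2.symm
      rw [map_div₀, ← IsScalarTower.algebraMap_apply A0 K0 F,
        ← IsScalarTower.algebraMap_apply A0 K0 F, inv_pow, ← h2]
      field_simp
    rw [h1]
    exact V.mul_mem _ _ (hA x) (V.mul_mem _ _ (hA _) (pow_mem hτinv n))
  · intro htop
    have h1 := (hΛV y0).2
    rw [ValuationSubring.mem_nonunits_iff_or] at h1
    rcases h1 with h1 | h1
    · exact hy0 (sub_eq_zero.mp h1)
    · apply h1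
      rw [htop]
      exact ValuationSubring.mem_top _

/-- **`hunif`, abstract form.**  For a place `P` through the point `ev` of `Λ ⊇ chtO A0 {t}`:
if `y ∈ Λ` has order one at `P`, every `x ∈ ker ev` is `y * u / s` with `ev s ≠ 0`. -/
theorem nul_hunif_abs [CharZero K0] {τ : A0} (hτ : Irreducible τ) (t : F)
    (ht : Transcendental K0 t)
    (hfin : ∃ (n : ℕ) (β : Fin n → F), ∀ x : F, ∃ (a : Fin n → A0[X]) (d : A0[X]),
      aeval t d ≠ 0 ∧ aeval t d * x = ∑ i, aeval t (a i) * β i)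
    (Λ : Subalgebra A0 F) (hOΛ : ∀ x ∈ chtO A0 {t}, x ∈ Λ) (ev : Λ →ₐ[A0] A0)
    (P : Place K0 F)
    (hΛV : ∀ y : Λ, (y : F) ∈ P.toValuationSubring ∧
      (y : F) - algebraMap A0 F (ev y) ∈ P.toValuationSubring.nonunits)
    (y : Λ) (hy : P.ord (y : F) = 1) (x : Λ) (hx : ev x = 0) :
    ∃ s u : Λ, ev s ≠ 0 ∧ s * x = y * u := by
  have hker : ∀ z : Λ, ev z = 0 → (z : F) ∈ P.toValuationSubring.nonunits := by
    intro z hz
    have h1 := (hΛV z).2
    rw [hz, map_zero, sub_zero] at h1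
    exact h1
  obtain ⟨s, u, hs, hsu⟩ := nun_unif_abs hτ t ht hfin P
    (fun z hz => (hΛV ⟨z, hOΛ z hz⟩).1) (y : F) hy (x : F) (hker x hx)
  refine ⟨⟨s, hOΛ _ s.2⟩, ⟨u, hOΛ _ u.2⟩, ?_, Subtype.ext hsu⟩
  intro h0
  exact hs (hker _ h0)

omit [IsDiscreteValuationRing A0] in
/-- Non-vanishing of an integer polynomial at the value `ev h` from invertibility in `Λ`
(the non-cuspidality hypothesis `hnc` of `nul_hunif` from `Qrad (h) ∈ Λˣ`). -/
theorem nul_hnc_of_unit (Λ : Subalgebra A0 F) (ev : Λ →ₐ[A0] A0) (p : ℤ[X]) (h v : Λ)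
    (hv : v * aeval h p = 1) : aeval (ev h) p ≠ 0 := by
  have h1 : aeval (ev h) p = ev (aeval h p) :=
    Polynomial.aeval_algHom_apply (ev.toRingHom.toIntAlgHom) h p
  rw [h1]
  intro h0
  have h2 := congrArg ev hv
  rw [map_mul, h0, mul_zero, map_one] at h2
  exact zero_ne_one h2

end Abs

section Main

variable (K0 : Type*) [Field K0] [Algebra ℚ K0] [Algebra K0 Qb]
variable (N : ℕ) [NeZero N] {a2 ℓ : ℕ} (H : HauptRec a2 ℓ) (ha2 : a2 ∣ N)
variable {A0 : Type*} [CommRing A0] [IsDomain A0] [IsDiscreteValuationRing A0]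
  [Algebra A0 K0] [IsFractionRing A0 K0]
  [Algebra A0 ↥(laurentBaseChange K0 (modularFunctionFieldFull N))]
  [IsScalarTower A0 K0 ↥(laurentBaseChange K0 (modularFunctionFieldFull N))]

/-- **[NODE-UNIF-LAM]** = `hunif` of `nda_hz` / `nda_main_unif`, verbatim, on a local ring `Λ` of
the chart.  `Λ ⊇ chtO A0 {t}` a subalgebra of the function field of `X₀(N)` over `K0`,
`ev : Λ → A0` an `A0`-point with its valuation ring `V` (`Λ ⊆ V`, `y - ev y ∈ 𝔪_V`,
`V ⊆ Λ_{ker ev}`), `h ∈ Λ` the Hauptmodul with non-cuspidal value `ev h`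
(`Qrad (ev h) ≠ 0`).  Then for every `θ ∈ Λ`:
`s * (θ - ev θ) = (h - ev h) * u` with `s, u ∈ Λ`, `ev s ≠ 0`. -/
theorem nul_hunif {τ : A0} (hτ : Irreducible τ)
    (t : ↥(laurentBaseChange K0 (modularFunctionFieldFull N))) (ht : Transcendental K0 t)
    (hfin : ∃ (n : ℕ) (β : Fin n → ↥(laurentBaseChange K0 (modularFunctionFieldFull N))),
      ∀ x : ↥(laurentBaseChange K0 (modularFunctionFieldFull N)),
        ∃ (a : Fin n → A0[X]) (d : A0[X]),
          aeval t d ≠ 0 ∧ aeval t d * x = ∑ i, aeval t (a i) * β i)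
    (Λ : Subalgebra A0 ↥(laurentBaseChange K0 (modularFunctionFieldFull N)))
    (hOΛ : ∀ x ∈ chtO A0 {t}, x ∈ Λ) (ev : Λ →ₐ[A0] A0)
    (V : ValuationSubring ↥(laurentBaseChange K0 (modularFunctionFieldFull N)))
    (hpir : IsPrincipalIdealRing V)
    (hΛV : ∀ y : Λ, (y : ↥(laurentBaseChange K0 (modularFunctionFieldFull N))) ∈ V ∧
      (y : ↥(laurentBaseChange K0 (modularFunctionFieldFull N))) -
        algebraMap A0 ↥(laurentBaseChange K0 (modularFunctionFieldFull N)) (ev y) ∈ V.nonunits)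
    (hVΛ : ∀ x ∈ V, ∃ s : Λ, ev s ≠ 0 ∧
      (s : ↥(laurentBaseChange K0 (modularFunctionFieldFull N))) * x ∈ Λ)
    (h : Λ) (hh : (h : ↥(laurentBaseChange K0 (modularFunctionFieldFull N))) = nunH K0 N H ha2)
    (hnc : aeval (ev h) H.Qrad ≠ 0) (θ : Λ) :
    ∃ s u : Λ, ev s ≠ 0 ∧
      s * (θ - algebraMap A0 Λ (ev θ)) = (h - algebraMap A0 Λ (ev h)) * u := by
  have _cz : CharZero K0 := algebraRat.charZero K0
  -- the chart coordinate is not a constant
  have hy0 : ((⟨t, hOΛ t (cht_h1 t).1⟩ : Λ) :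
      ↥(laurentBaseChange K0 (modularFunctionFieldFull N))) ≠
      algebraMap A0 ↥(laurentBaseChange K0 (modularFunctionFieldFull N))
        (ev ⟨t, hOΛ t (cht_h1 t).1⟩) := by
    intro h0
    apply ht
    have h1 : t = algebraMap K0 ↥(laurentBaseChange K0 (modularFunctionFieldFull N))
        (algebraMap A0 K0 (ev ⟨t, hOΛ t (cht_h1 t).1⟩)) := by
      rw [← IsScalarTower.algebraMap_apply]
      exact h0
    rw [h1]
    exact isAlgebraic_algebraMap _
  obtain ⟨P, rfl⟩ := nul_place (K0 := K0) hτ Λ ev V hpir hΛV hVΛ _ hy0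
  -- the non-cuspidal value
  have hc : aeval (algebraMap A0 K0 (ev h)) H.Qrad ≠ 0 := by
    rw [aeval_algebraMap_apply]
    exact (map_ne_zero_iff _ (IsFractionRing.injective A0 K0)).mpr hnc
  have hsubF : ((h - algebraMap A0 Λ (ev h) : Λ) :
      ↥(laurentBaseChange K0 (modularFunctionFieldFull N))) =
      nunH K0 N H ha2 - algebraMap K0 ↥(laurentBaseChange K0 (modularFunctionFieldFull N))
        (algebraMap A0 K0 (ev h)) := by
    rw [← IsScalarTower.algebraMap_apply, ← hh]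
    rfl
  have hker : ∀ z : Λ, ev z = 0 →
      (z : ↥(laurentBaseChange K0 (modularFunctionFieldFull N))) ∈
        P.toValuationSubring.nonunits := by
    intro z hz
    have h1 := (hΛV z).2
    rw [hz, map_zero, sub_zero] at h1
    exact h1
  have hcP : nunH K0 N H ha2 -
      algebraMap K0 ↥(laurentBaseChange K0 (modularFunctionFieldFull N))
        (algebraMap A0 K0 (ev h)) ∈ P.toValuationSubring.nonunits := by
    rw [← hsubF]
    exact hker _ (nul_ev_sub Λ ev h)
  obtain ⟨s, u, hs, hsu⟩ := nun_unif K0 N H ha2 hτ t ht hfin P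
    (fun z hz => (hΛV ⟨z, hOΛ z hz⟩).1) (algebraMap A0 K0 (ev h)) hc hcP
    ((θ - algebraMap A0 Λ (ev θ) : Λ) : ↥(laurentBaseChange K0 (modularFunctionFieldFull N)))
    (hker _ (nul_ev_sub Λ ev θ))
  refine ⟨⟨s, hOΛ _ s.2⟩, ⟨u, hOΛ _ u.2⟩, ?_, ?_⟩
  · intro h0
    exact hs (hker _ h0)
  · apply Subtype.ext
    change (s : ↥(laurentBaseChange K0 (modularFunctionFieldFull N))) *
        ((θ - algebraMap A0 Λ (ev θ) : Λ) :
          ↥(laurentBaseChange K0 (modularFunctionFieldFull N))) =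
      ((h - algebraMap A0 Λ (ev h) : Λ) :
          ↥(laurentBaseChange K0 (modularFunctionFieldFull N))) * (u : _)
    rw [hsu, hsubF]

end Main

end Fermat.Agent.S34
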