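import Mathlib
import Fermat.Agent.S34.DomAbs
import Fermat.Agent.S34.CuspInst
import Fermat.Agent.S18.HauptCusp2

/-!
# S34, work package NONCUSP (unit statements at non-cuspidal points)

Abstract part (`O : Subalgebra A F`, `n` a prime of `O`, `O_n = dmaLoc O n`,
`n O_n = dmaMax O n`):

* `ncv_Q_notMem`: `J, θ ∈ O_n`, `J * Q(θ) = P(θ)`, `U P + V Q = 1 + ℓ W`, `ℓ ∈ n`
  ⟹ `Q(θ) ∉ n O_n`;  `ncv_dvd_notMem`: the same for a divisor of `Q` (`Qrad`);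
* `ncv_sub_one_notMem`: `T (θ - c0) = θ - c1`, `θ ∈ O_n`, `c0 - c1` a unit ⟹ `T - 1 ∉ n O_n`;
* `ncv_hcuNum_notMem`: `hcuNum(T) = (T - 1)^ψ Q(θ) ∉ n O_n`;
* `ncv_mul_notMem`, `ncv_pow_notMem`, `ncv_T_mem`.

Concrete part (the level-`M q` function field over `K0`, `h = nunH`, `w = va2Swap`,
`t = (h - c1) / (h - c0)`, `O = chtO A0 {t}`):

* `ncv_t_rel`, `ncv_wt_rel`, `ncv_relq`, `ncv_q_mem`, `ncv_base`;
* `ncv_alpha`: `j, h ∈ O_𝔫`, `q ∈ 𝔫` ⟹ `Q(h)`, `Qrad(h)`, `t - 1`, `hcuNum(t)` units of `O_𝔫`;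
* `ncv_beta`: `j_q, w h ∈ O_𝔫`, `q ∈ 𝔫` ⟹ `Q(w h)`, `Qrad(w h)` units of `O_𝔫`, and
  `w t - 1`, `hcuNum(w t)` units when `w t ∈ O_𝔫`, resp. `(w t)⁻¹ - 1`,
  `hcuNum_{(c1, c0)}((w t)⁻¹)` units when `(w t)⁻¹ ∈ O_𝔫`;
* `ncv_crossing_alpha`, `ncv_crossing_beta`: the same at the crossing points (hypotheses of
  `s34im_field`'s `hnode₀`), via `cni_crossing`.
-/

set_option autoImplicit false
set_option linter.unusedSectionVars false

noncomputable section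

open ModularCurve AlgebraicCurve Polynomial
open Fermat.Agent.S18 Fermat.Agent.S28

namespace Fermat.Agent.S34

local notation "Qb" => AlgebraicClosure ℚ

/-! ### Units of the local ring at a non-cuspidal point (abstract) -/

section Abs

variable {A F : Type*} [CommRing A] [Field F] [Algebra A F]
variable (O : Subalgebra A F) (n : Ideal O) [n.IsPrime]

/-- a product of two units of `O_n` is not in the maximal ideal -/
theorem ncv_mul_notMem {x y : F} (hx : x ∈ dmaLoc O n) (hx' : x ∉ dmaMax O n)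
    (hy' : y ∉ dmaMax O n) : x * y ∉ dmaMax O n := by
  intro h
  have h1 := dma_max_mul O n (dma_inv_mem O n hx hx') h
  rw [← mul_assoc, inv_mul_cancel₀ (dma_ne_zero O n hx'), one_mul] at h1
  exact hy' h1

/-- a power of a unit of `O_n` is not in the maximal ideal -/
theorem ncv_pow_notMem {x : F} (hx : x ∈ dmaLoc O n) (hx' : x ∉ dmaMax O n) (k : ℕ) :
    x ^ k ∉ dmaMax O n := by
  induction k with
  | zero =>
    rw [pow_zero]
    exact dma_one_notMem_max O n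
  | succ k ih =>
    rw [pow_succ]
    exact ncv_mul_notMem O n ((dmaLoc O n).pow_mem hx k) ih hx'

/-- **`Q(θ)` is a unit at a non-cuspidal point**: if `J, θ ∈ O_n`, `J * Q(θ) = P(θ)` and
`P`, `Q` are coprime modulo a prime number `ℓ ∈ n`, then `Q(θ) ∉ n O_n`. -/
theorem ncv_Q_notMem (ℓ : ℕ) (hℓ : (ℓ : O) ∈ n) (P Q U V W : ℤ[X])
    (hUV : U * P + V * Q = 1 + C (ℓ : ℤ) * W) {J θ : F} (hJ : J ∈ dmaLoc O n)
    (hθ : θ ∈ dmaLoc O n) (hrel : J * aeval θ Q = aeval θ P) :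
    aeval θ Q ∉ dmaMax O n := by
  intro hQ
  have h1 : (aeval θ U * J + aeval θ V) * aeval θ Q ∈ dmaMax O n :=
    dma_max_mul O n ((dmaLoc O n).add_mem ((dmaLoc O n).mul_mem (dma_aeval_mem O n hθ U) hJ)
      (dma_aeval_mem O n hθ V)) hQ
  have h2 : (aeval θ U * J + aeval θ V) * aeval θ Q = 1 + (ℓ : F) * aeval θ W := by
    have h := congrArg (aeval θ) hUV
    rw [map_add, map_mul, map_mul, map_add, map_one, map_mul, aeval_C] at h
    have e : algebraMap ℤ F (ℓ : ℤ) = (ℓ : F) := by simp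
    rw [e] at h
    rw [← h, ← hrel]
    ring
  have h3 : (ℓ : F) * aeval θ W ∈ dmaMax O n := by
    have h4 : (((ℓ : O) : O) : F) ∈ dmaMax O n := dma_max_of_mem O n _ hℓ
    have e : (((ℓ : O) : O) : F) = (ℓ : F) := by simp
    rw [e] at h4
    rw [mul_comm]
    exact dma_max_mul O n (dma_aeval_mem O n hθ W) h4
  rw [h2] at h1
  have h5 := (dmaMax O n).sub_mem h1 h3
  rw [add_sub_cancel_right] at h5
  exact dma_one_notMem_max O n h5

/-- a divisor of a polynomial with unit value has unit value -/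
theorem ncv_dvd_notMem (R Q : ℤ[X]) (hdvd : R ∣ Q) {θ : F} (hθ : θ ∈ dmaLoc O n)
    (hQ : aeval θ Q ∉ dmaMax O n) : aeval θ R ∉ dmaMax O n := by
  obtain ⟨S, rfl⟩ := hdvd
  intro h
  apply hQ
  rw [map_mul, mul_comm]
  exact dma_max_mul O n (dma_aeval_mem O n hθ S) h

/-- **the chart coordinate minus one is a unit where the Hauptmodul is finite**:
`T = (θ - c1) / (θ - c0)`, `θ ∈ O_n`, `c0 - c1` a unit: `T - 1 ∉ n O_n`. -/
theorem ncv_sub_one_notMem {θ T c0 c1 : F} (hc0 : c0 ∈ O) (hc01 : (c0 - c1)⁻¹ ∈ O)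
    (hc : c0 ≠ c1) (hθ : θ ∈ dmaLoc O n) (hT : T * (θ - c0) = θ - c1) :
    T - 1 ∉ dmaMax O n := by
  intro h
  have h1 : (θ - c0) * (T - 1) ∈ dmaMax O n :=
    dma_max_mul O n ((dmaLoc O n).sub_mem hθ (dma_of_mem O n hc0)) h
  have h2 : (θ - c0) * (T - 1) = c0 - c1 := by linear_combination hT
  rw [h2] at h1
  have h3 := dma_max_mul O n (dma_of_mem O n hc01) h1
  rw [inv_mul_cancel₀ (sub_ne_zero.mpr hc)] at h3
  exact dma_one_notMem_max O n h3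

/-- the chart coordinate lies in `O_n` where the Hauptmodul is finite and different from `c0`
modulo `n` -/
theorem ncv_T_mem {θ T c0 c1 : F} (hc0 : c0 ∈ O) (hc1 : c1 ∈ O) (hθ : θ ∈ dmaLoc O n)
    (hθ0 : θ - c0 ∉ dmaMax O n) (hT : T * (θ - c0) = θ - c1) : T ∈ dmaLoc O n := by
  have h0 : θ - c0 ≠ 0 := dma_ne_zero O n hθ0
  have e : T = (θ - c1) * (θ - c0)⁻¹ := by
    rw [← hT, mul_assoc, mul_inv_cancel₀ h0, mul_one]
  rw [e]
  exact (dmaLoc O n).mul_mem ((dmaLoc O n).sub_mem hθ (dma_of_mem O n hc1))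
    (dma_inv_mem O n ((dmaLoc O n).sub_mem hθ (dma_of_mem O n hc0)) hθ0)

/-- **the numerator of `1/j` in the chart coordinate is a unit at a non-cuspidal point**:
`Num(T) = (T - 1)^ψ Q(θ)` for `T = (θ - c1) / (θ - c0)`. -/
theorem ncv_hcuNum_notMem {a2 ℓ : ℕ} (H : HauptRec a2 ℓ) (c0 c1 : A) {θ T : F}
    (hTmem : T ∈ dmaLoc O n)
    (hT : T * (θ - algebraMap A F c0) = θ - algebraMap A F c1)
    (hT1 : T - 1 ∉ dmaMax O n) (hQ : aeval θ H.Q ∉ dmaMax O n) :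
    aeval T (hcuNum H A c0 c1) ∉ dmaMax O n := by
  rw [hcuNum_aeval]
  have e : algebraMap A F c0 * T - algebraMap A F c1 = (T - 1) * θ := by
    linear_combination (-1 : F) * hT
  rw [e, hcuHom_mul _ (hcu_natDegree_Q_le H)]
  have hT1mem : T - 1 ∈ dmaLoc O n := (dmaLoc O n).sub_mem hTmem (dmaLoc O n).one_mem
  exact ncv_mul_notMem O n ((dmaLoc O n).pow_mem hT1mem _) (ncv_pow_notMem O n hT1mem hT1 _) hQ

end Abs

/-! ### The concrete carrier -/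

section Main

variable (M q : ℕ) [NeZero M] [hq : Fact q.Prime] (hM : ¬ q ∣ M)
  (K0 : Type*) [Field K0] [Algebra ℚ K0] [Algebra K0 Qb]
  (A0 : ValuationSubring K0) [IsDiscreteValuationRing ↥A0]
  {a2 : ℕ} (H : HauptRec a2 q)

/-- the chart coordinate and the Hauptmodul: `t * (h - c0) = h - c1` -/
theorem ncv_t_rel (ha2 : a2 ∣ M * q)
    [Algebra A0 ↥(laurentBaseChange K0 (modularFunctionFieldFull (M * q)))]
    [IsScalarTower A0 K0 ↥(laurentBaseChange K0 (modularFunctionFieldFull (M * q)))]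
    (c0 c1 : A0)
    (t : ↥(laurentBaseChange K0 (modularFunctionFieldFull (M * q))))
    (ht : (t : LaurentSeries K0) = cinstU H K0 (c0 : K0) (c1 : K0)) :
    t * (nunH K0 (M * q) H ha2 -
        algebraMap A0 ↥(laurentBaseChange K0 (modularFunctionFieldFull (M * q))) c0)
      = nunH K0 (M * q) H ha2 -
        algebraMap A0 ↥(laurentBaseChange K0 (modularFunctionFieldFull (M * q))) c1 := by
  have hcoe : ∀ a : A0,
      ((algebraMap A0 ↥(laurentBaseChange K0 (modularFunctionFieldFull (M * q))) a :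
        ↥(laurentBaseChange K0 (modularFunctionFieldFull (M * q)))) : LaurentSeries K0)
        = algebraMap K0 (LaurentSeries K0) (a : K0) := by
    intro a
    rw [IsScalarTower.algebraMap_apply A0 K0
      ↥(laurentBaseChange K0 (modularFunctionFieldFull (M * q))) a]
    rfl
  apply Subtype.ext
  rw [MulMemClass.coe_mul, AddSubgroupClass.coe_sub, AddSubgroupClass.coe_sub, hcoe, hcoe, ht,
    nunH_coe, cinstU, div_mul_cancel₀ _ (cinst_h_sub_ne_zero H K0 (c0 : K0))]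

/-- the swapped chart coordinate and the swapped Hauptmodul: `w t * (w h - c0) = w h - c1` -/
theorem ncv_wt_rel (ha2 : a2 ∣ M * q)
    [Algebra A0 ↥(laurentBaseChange K0 (modularFunctionFieldFull (M * q)))]
    [IsScalarTower A0 K0 ↥(laurentBaseChange K0 (modularFunctionFieldFull (M * q)))]
    (c0 c1 : A0)
    (t : ↥(laurentBaseChange K0 (modularFunctionFieldFull (M * q))))
    (ht : (t : LaurentSeries K0) = cinstU H K0 (c0 : K0) (c1 : K0)) :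
    va2Swap M q hq.out hM K0 t * (va2Swap M q hq.out hM K0 (nunH K0 (M * q) H ha2) -
        algebraMap A0 ↥(laurentBaseChange K0 (modularFunctionFieldFull (M * q))) c0)
      = va2Swap M q hq.out hM K0 (nunH K0 (M * q) H ha2) -
        algebraMap A0 ↥(laurentBaseChange K0 (modularFunctionFieldFull (M * q))) c1 := by
  have hw : ∀ a : A0, va2Swap M q hq.out hM K0
      (algebraMap A0 ↥(laurentBaseChange K0 (modularFunctionFieldFull (M * q))) a)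
      = algebraMap A0 ↥(laurentBaseChange K0 (modularFunctionFieldFull (M * q))) a := by
    intro a
    rw [IsScalarTower.algebraMap_apply A0 K0
      ↥(laurentBaseChange K0 (modularFunctionFieldFull (M * q))) a, va2Swap_const]
  have h1 := congrArg (va2Swap M q hq.out hM K0) (ncv_t_rel M q K0 A0 H ha2 c0 c1 t ht)
  rw [map_mul, map_sub, map_sub, hw, hw] at h1
  exact h1

/-- `j_q * Q(w h) = P(w h)` -/
theorem ncv_relq (ha2 : a2 ∣ M * q) :
    va2Jd K0 (M * q) q (dvd_mul_left q M) *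
        aeval (va2Swap M q hq.out hM K0 (nunH K0 (M * q) H ha2)) H.Q
      = aeval (va2Swap M q hq.out hM K0 (nunH K0 (M * q) H ha2)) H.P := by
  have h1 := congrArg (va2Swap M q hq.out hM K0) (cni_rel K0 (M * q) H ha2)
  rw [map_mul, cni_map_aeval, cni_map_aeval, (krv_swap M q hq.out hM K0).1] at h1
  exact h1

/-- the residue characteristic lies in every prime of the chart containing the trace of
`𝔪_{V₁}` -/
theorem ncv_q_mem
    [Algebra A0 ↥(laurentBaseChange K0 (modularFunctionFieldFull (M * q)))]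
    [IsScalarTower A0 K0 ↥(laurentBaseChange K0 (modularFunctionFieldFull (M * q)))]
    (hqA : ((q : ℕ) : K0) ∈ A0.nonunits)
    (V₁ : ValuationSubring ↥(laurentBaseChange K0 (modularFunctionFieldFull (M * q))))
    (hVG : ∀ x : ↥(laurentBaseChange K0 (modularFunctionFieldFull (M * q))),
      x ∈ V₁ ↔ (x : LaurentSeries K0) ∈ grV A0)
    (O : Subalgebra A0 ↥(laurentBaseChange K0 (modularFunctionFieldFull (M * q))))
    (𝔫 : Ideal ↥O)
    (hc₁ : ∀ x : ↥O,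
      (x : ↥(laurentBaseChange K0 (modularFunctionFieldFull (M * q)))) ∈ V₁.nonunits → x ∈ 𝔫) :
    ((q : ℕ) : ↥O) ∈ 𝔫 := by
  have hqmax : ((q : ℕ) : A0) ∈ IsLocalRing.maximalIdeal A0 := by
    rw [IsLocalRing.mem_maximalIdeal]
    refine (A0.coe_mem_nonunits_iff).mp ?_
    rw [show (((q : ℕ) : A0) : K0) = ((q : ℕ) : K0) from by simp]
    exact hqA
  refine hc₁ _ ?_
  have h1 := cinst_algebraMap_mem_nonunits V₁ hVG ((q : ℕ) : A0) hqmax
  have h2 : (((q : ℕ) : ↥O) : ↥(laurentBaseChange K0 (modularFunctionFieldFull (M * q))))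
      = algebraMap K0 ↥(laurentBaseChange K0 (modularFunctionFieldFull (M * q)))
        ((((q : ℕ) : A0)) : K0) := by
    simp
  rw [h2]
  exact h1

/-- the base points: `c0 - c1` is a unit of every `A0`-subalgebra -/
theorem ncv_base
    [Algebra A0 ↥(laurentBaseChange K0 (modularFunctionFieldFull (M * q)))]
    (c0 c1 : A0) (hc : IsLocalRing.residue A0 c0 ≠ IsLocalRing.residue A0 c1)
    (O : Subalgebra A0 ↥(laurentBaseChange K0 (modularFunctionFieldFull (M * q)))) :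
    (algebraMap A0 ↥(laurentBaseChange K0 (modularFunctionFieldFull (M * q))) c0 -
      algebraMap A0 ↥(laurentBaseChange K0 (modularFunctionFieldFull (M * q))) c1)⁻¹ ∈ O ∧
    algebraMap A0 ↥(laurentBaseChange K0 (modularFunctionFieldFull (M * q))) c0 ≠
      algebraMap A0 ↥(laurentBaseChange K0 (modularFunctionFieldFull (M * q))) c1 := by
  have hu : IsUnit (c0 - c1) := by
    by_contra hnu
    have h1 : c0 - c1 ∈ IsLocalRing.maximalIdeal A0 := (IsLocalRing.mem_maximalIdeal _).mpr hnu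
    have h2 := (IsLocalRing.residue_eq_zero_iff _).mpr h1
    rw [map_sub, sub_eq_zero] at h2
    exact hc h2
  obtain ⟨u, hu1⟩ := hu.exists_right_inv
  have hu2 : (algebraMap A0 ↥(laurentBaseChange K0 (modularFunctionFieldFull (M * q))) c0 -
      algebraMap A0 ↥(laurentBaseChange K0 (modularFunctionFieldFull (M * q))) c1) *
      algebraMap A0 ↥(laurentBaseChange K0 (modularFunctionFieldFull (M * q))) u = 1 := by
    rw [← map_sub, ← map_mul, hu1, map_one]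
  refine ⟨?_, ?_⟩
  · rw [inv_eq_of_mul_eq_one_right hu2]
    exact O.algebraMap_mem u
  · intro h
    rw [h, sub_self, zero_mul] at hu2
    exact zero_ne_one hu2

/-- **Non-cuspidal points, `α`-side.**  At a prime `𝔫 ∋ q` of the chart `chtO A0 {t}` with
`j, h ∈ O_𝔫`: `Q(h)`, `Qrad(h)`, `t - 1` and `hcuNum(t)` are units of `O_𝔫`. -/
theorem ncv_alpha (ha2 : a2 ∣ M * q)
    [Algebra A0 ↥(laurentBaseChange K0 (modularFunctionFieldFull (M * q)))]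
    [IsScalarTower A0 K0 ↥(laurentBaseChange K0 (modularFunctionFieldFull (M * q)))]
    (c0 c1 : A0) (hc : IsLocalRing.residue A0 c0 ≠ IsLocalRing.residue A0 c1)
    (t : ↥(laurentBaseChange K0 (modularFunctionFieldFull (M * q))))
    (ht : (t : LaurentSeries K0) = cinstU H K0 (c0 : K0) (c1 : K0))
    (𝔫 : Ideal ↥(chtO A0 {t})) [𝔫.IsPrime] (hqn : ((q : ℕ) : ↥(chtO A0 {t})) ∈ 𝔫)
    (hJ : va2Jd K0 (M * q) 1 (one_dvd _) ∈ dmaLoc (chtO A0 {t}) 𝔫)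
    (hh : nunH K0 (M * q) H ha2 ∈ dmaLoc (chtO A0 {t}) 𝔫) :
    aeval (nunH K0 (M * q) H ha2) H.Q ∉ dmaMax (chtO A0 {t}) 𝔫 ∧
    aeval (nunH K0 (M * q) H ha2) H.Qrad ∉ dmaMax (chtO A0 {t}) 𝔫 ∧
    (aeval (nunH K0 (M * q) H ha2) H.Qrad)⁻¹ ∈ dmaLoc (chtO A0 {t}) 𝔫 ∧
    t - 1 ∉ dmaMax (chtO A0 {t}) 𝔫 ∧
    aeval t (hcuNum H A0 c0 c1) ∉ dmaMax (chtO A0 {t}) 𝔫 := by
  obtain ⟨U, V, W, hUV⟩ := cni_bezout H
  obtain ⟨hc01, hcne⟩ := ncv_base M q K0 A0 c0 c1 hc (chtO A0 {t})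
  have hQ := ncv_Q_notMem (chtO A0 {t}) 𝔫 q hqn H.P H.Q U V W hUV hJ hh
    (cni_rel K0 (M * q) H ha2)
  have hQrad := ncv_dvd_notMem (chtO A0 {t}) 𝔫 H.Qrad H.Q H.Qrad_dvd hh hQ
  have hT := ncv_t_rel M q K0 A0 H ha2 c0 c1 t ht
  have ht1 := ncv_sub_one_notMem (chtO A0 {t}) 𝔫 ((chtO A0 {t}).algebraMap_mem c0) hc01 hcne hh hT
  exact ⟨hQ, hQrad, dma_inv_mem _ _ (dma_aeval_mem _ _ hh _) hQrad, ht1,
    ncv_hcuNum_notMem (chtO A0 {t}) 𝔫 H c0 c1 (dma_of_mem _ _ (cht_h1 t).1) hT ht1 hQ⟩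

/-- **Non-cuspidal points, `β`-side.**  At a prime `𝔫 ∋ q` of the chart `chtO A0 {t}` with
`j_q, w h ∈ O_𝔫`: `Q(w h)`, `Qrad(w h)` are units of `O_𝔫`; if `w t ∈ O_𝔫` then `w t - 1` and
`hcuNum(w t)` are units of `O_𝔫`; if `(w t)⁻¹ ∈ O_𝔫` then `(w t)⁻¹ - 1` and the numerator
`hcuNum` of the opposite chart at `(w t)⁻¹` are units of `O_𝔫`. -/
theorem ncv_beta (ha2 : a2 ∣ M * q)
    [Algebra A0 ↥(laurentBaseChange K0 (modularFunctionFieldFull (M * q)))]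
    [IsScalarTower A0 K0 ↥(laurentBaseChange K0 (modularFunctionFieldFull (M * q)))]
    (c0 c1 : A0) (hc : IsLocalRing.residue A0 c0 ≠ IsLocalRing.residue A0 c1)
    (t : ↥(laurentBaseChange K0 (modularFunctionFieldFull (M * q))))
    (ht : (t : LaurentSeries K0) = cinstU H K0 (c0 : K0) (c1 : K0))
    (𝔫 : Ideal ↥(chtO A0 {t})) [𝔫.IsPrime] (hqn : ((q : ℕ) : ↥(chtO A0 {t})) ∈ 𝔫)
    (hJq : va2Jd K0 (M * q) q (dvd_mul_left q M) ∈ dmaLoc (chtO A0 {t}) 𝔫)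
    (hθ : va2Swap M q hq.out hM K0 (nunH K0 (M * q) H ha2) ∈ dmaLoc (chtO A0 {t}) 𝔫) :
    aeval (va2Swap M q hq.out hM K0 (nunH K0 (M * q) H ha2)) H.Q ∉ dmaMax (chtO A0 {t}) 𝔫 ∧
    aeval (va2Swap M q hq.out hM K0 (nunH K0 (M * q) H ha2)) H.Qrad ∉ dmaMax (chtO A0 {t}) 𝔫 ∧
    (aeval (va2Swap M q hq.out hM K0 (nunH K0 (M * q) H ha2)) H.Qrad)⁻¹
      ∈ dmaLoc (chtO A0 {t}) 𝔫 ∧
    (va2Swap M q hq.out hM K0 t ∈ dmaLoc (chtO A0 {t}) 𝔫 →
      va2Swap M q hq.out hM K0 t - 1 ∉ dmaMax (chtO A0 {t}) 𝔫 ∧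
      aeval (va2Swap M q hq.out hM K0 t) (hcuNum H A0 c0 c1) ∉ dmaMax (chtO A0 {t}) 𝔫) ∧
    ((va2Swap M q hq.out hM K0 t)⁻¹ ∈ dmaLoc (chtO A0 {t}) 𝔫 →
      (va2Swap M q hq.out hM K0 t)⁻¹ - 1 ∉ dmaMax (chtO A0 {t}) 𝔫 ∧
      aeval (va2Swap M q hq.out hM K0 t)⁻¹ (hcuNum H A0 c1 c0) ∉ dmaMax (chtO A0 {t}) 𝔫) := by
  obtain ⟨U, V, W, hUV⟩ := cni_bezout H
  obtain ⟨hc01, hcne⟩ := ncv_base M q K0 A0 c0 c1 hc (chtO A0 {t})
  obtain ⟨hc10, hcne'⟩ := ncv_base M q K0 A0 c1 c0 hc.symm (chtO A0 {t})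
  have hQ := ncv_Q_notMem (chtO A0 {t}) 𝔫 q hqn H.P H.Q U V W hUV hJq hθ
    (ncv_relq M q hM K0 H ha2)
  have hQrad := ncv_dvd_notMem (chtO A0 {t}) 𝔫 H.Qrad H.Q H.Qrad_dvd hθ hQ
  have hT := ncv_wt_rel M q hM K0 A0 H ha2 c0 c1 t ht
  refine ⟨hQ, hQrad, dma_inv_mem _ _ (dma_aeval_mem _ _ hθ _) hQrad, ?_, ?_⟩
  · intro hTmem
    have ht1 := ncv_sub_one_notMem (chtO A0 {t}) 𝔫 ((chtO A0 {t}).algebraMap_mem c0) hc01 hcne
      hθ hT
    exact ⟨ht1, ncv_hcuNum_notMem (chtO A0 {t}) 𝔫 H c0 c1 hTmem hT ht1 hQ⟩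
  · intro hTmem
    have ht0 : t ≠ 0 := by
      intro h0
      have h1 : ((t : ↥(laurentBaseChange K0 (modularFunctionFieldFull (M * q)))) :
          LaurentSeries K0) = 0 := by
        rw [h0]
        rfl
      rw [ht] at h1
      exact cinstU_ne_zero H K0 _ _ h1
    have hT0 : va2Swap M q hq.out hM K0 t ≠ 0 := (_root_.map_ne_zero _).mpr ht0
    have hT' : (va2Swap M q hq.out hM K0 t)⁻¹ *
        (va2Swap M q hq.out hM K0 (nunH K0 (M * q) H ha2) -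
          algebraMap A0 ↥(laurentBaseChange K0 (modularFunctionFieldFull (M * q))) c1)
        = va2Swap M q hq.out hM K0 (nunH K0 (M * q) H ha2) -
          algebraMap A0 ↥(laurentBaseChange K0 (modularFunctionFieldFull (M * q))) c0 := by
      rw [← hT, inv_mul_cancel_left₀ hT0]
    have ht1 := ncv_sub_one_notMem (chtO A0 {t}) 𝔫 ((chtO A0 {t}).algebraMap_mem c1) hc10 hcne'
      hθ hT'
    exact ⟨ht1, ncv_hcuNum_notMem (chtO A0 {t}) 𝔫 H c1 c0 hTmem hT' ht1 hQ⟩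

/-- **`α`-side units at a crossing point** (`V₁ = va2V1`, `V₂ = va2V2`, crossing hypotheses of
`s34im_field`). -/
theorem ncv_crossing_alpha (ha2 : a2 ∣ M)
    [Algebra A0 ↥(laurentBaseChange K0 (modularFunctionFieldFull (M * q)))]
    [IsScalarTower A0 K0 ↥(laurentBaseChange K0 (modularFunctionFieldFull (M * q)))]
    (hA0 : A0.LiesOverPrime q)
    (c0 c1 : A0) (hc : IsLocalRing.residue A0 c0 ≠ IsLocalRing.residue A0 c1)
    (t : ↥(laurentBaseChange K0 (modularFunctionFieldFull (M * q))))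
    (ht : (t : LaurentSeries K0) = cinstU H K0 (c0 : K0) (c1 : K0))
    (𝔫 : Ideal ↥(chtO A0 {t})) [𝔫.IsPrime]
    (hc₁ : ∀ x : ↥(chtO A0 {t}),
      (x : ↥(laurentBaseChange K0 (modularFunctionFieldFull (M * q)))) ∈
        (va2V1 M q K0 A0).nonunits → x ∈ 𝔫)
    (hc₂ : ∀ x : ↥(chtO A0 {t}),
      (x : ↥(laurentBaseChange K0 (modularFunctionFieldFull (M * q)))) ∈
        (va2V2 M q hM K0 A0).nonunits → x ∈ 𝔫) :
    aeval (nunH K0 (M * q) H (ha2.mul_right q)) H.Q ∉ dmaMax (chtO A0 {t}) 𝔫 ∧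
    aeval (nunH K0 (M * q) H (ha2.mul_right q)) H.Qrad ∉ dmaMax (chtO A0 {t}) 𝔫 ∧
    (aeval (nunH K0 (M * q) H (ha2.mul_right q)) H.Qrad)⁻¹ ∈ dmaLoc (chtO A0 {t}) 𝔫 ∧
    t - 1 ∉ dmaMax (chtO A0 {t}) 𝔫 ∧
    aeval t (hcuNum H A0 c0 c1) ∉ dmaMax (chtO A0 {t}) 𝔫 := by
  obtain ⟨hJ, -, hh, -⟩ := cni_crossing M q hM K0 A0 H ha2 hA0 c0 c1 hc t ht 𝔫 hc₁ hc₂
  exact ncv_alpha M q K0 A0 H (ha2.mul_right q) c0 c1 hc t ht 𝔫
    (ncv_q_mem M q K0 A0 hA0 (va2V1 M q K0 A0) (fun _ => Iff.rfl) (chtO A0 {t}) 𝔫 hc₁) hJ hh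

/-- **`β`-side units at a crossing point** (`V₁ = va2V1`, `V₂ = va2V2`, crossing hypotheses of
`s34im_field`). -/
theorem ncv_crossing_beta (ha2 : a2 ∣ M)
    [Algebra A0 ↥(laurentBaseChange K0 (modularFunctionFieldFull (M * q)))]
    [IsScalarTower A0 K0 ↥(laurentBaseChange K0 (modularFunctionFieldFull (M * q)))]
    (hA0 : A0.LiesOverPrime q)
    (c0 c1 : A0) (hc : IsLocalRing.residue A0 c0 ≠ IsLocalRing.residue A0 c1)
    (t : ↥(laurentBaseChange K0 (modularFunctionFieldFull (M * q))))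
    (ht : (t : LaurentSeries K0) = cinstU H K0 (c0 : K0) (c1 : K0))
    (𝔫 : Ideal ↥(chtO A0 {t})) [𝔫.IsPrime]
    (hc₁ : ∀ x : ↥(chtO A0 {t}),
      (x : ↥(laurentBaseChange K0 (modularFunctionFieldFull (M * q)))) ∈
        (va2V1 M q K0 A0).nonunits → x ∈ 𝔫)
    (hc₂ : ∀ x : ↥(chtO A0 {t}),
      (x : ↥(laurentBaseChange K0 (modularFunctionFieldFull (M * q)))) ∈
        (va2V2 M q hM K0 A0).nonunits → x ∈ 𝔫) :
    aeval (va2Swap M q hq.out hM K0 (nunH K0 (M * q) H (ha2.mul_right q))) H.Q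
      ∉ dmaMax (chtO A0 {t}) 𝔫 ∧
    aeval (va2Swap M q hq.out hM K0 (nunH K0 (M * q) H (ha2.mul_right q))) H.Qrad
      ∉ dmaMax (chtO A0 {t}) 𝔫 ∧
    (aeval (va2Swap M q hq.out hM K0 (nunH K0 (M * q) H (ha2.mul_right q))) H.Qrad)⁻¹
      ∈ dmaLoc (chtO A0 {t}) 𝔫 ∧
    (va2Swap M q hq.out hM K0 t ∈ dmaLoc (chtO A0 {t}) 𝔫 →
      va2Swap M q hq.out hM K0 t - 1 ∉ dmaMax (chtO A0 {t}) 𝔫 ∧
      aeval (va2Swap M q hq.out hM K0 t) (hcuNum H A0 c0 c1) ∉ dmaMax (chtO A0 {t}) 𝔫) ∧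
    ((va2Swap M q hq.out hM K0 t)⁻¹ ∈ dmaLoc (chtO A0 {t}) 𝔫 →
      (va2Swap M q hq.out hM K0 t)⁻¹ - 1 ∉ dmaMax (chtO A0 {t}) 𝔫 ∧
      aeval (va2Swap M q hq.out hM K0 t)⁻¹ (hcuNum H A0 c1 c0) ∉ dmaMax (chtO A0 {t}) 𝔫) := by
  obtain ⟨-, hJq, -, hθ⟩ := cni_crossing M q hM K0 A0 H ha2 hA0 c0 c1 hc t ht 𝔫 hc₁ hc₂
  exact ncv_beta M q hM K0 A0 H (ha2.mul_right q) c0 c1 hc t ht 𝔫
    (ncv_q_mem M q K0 A0 hA0 (va2V1 M q K0 A0) (fun _ => Iff.rfl) (chtO A0 {t}) 𝔫 hc₁) hJq hθ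

end Main

end Fermat.Agent.S34
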