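import Mathlib
import Fermat.Agent.S37.TwoValAbs
import Fermat.Agent.S37.FrobSeries
import Fermat.Agent.S34.TwoValSwapExh

/-!
# S34, package A [VAL2], generation: `F = E(β j)` in the abstract Hecke form

The setting of `tvx_exh` (`F` of degree `ℓ + 1` over `α E`, `w` exchanging `α` and `β`, `V₁` a
valuation subring of `F` with residue map `ρ₁`, `ρ₁ ∘ α = ρE`, `ρ₁ ∘ β = φ ∘ ρE`).  The family
`1 - e`, `e * (β j)^i` (`i < ℓ`) of `tvx_family` lies in the subfield generated by `α j` and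
`β j` (`va2g_family`), and it is a basis of `F` over `E`; hence

* `va2g_adjoin_eq_top`: `E(β j) = F`;
* `va2g_adjoin_eq_top_of_mem`: `E(θ) = F` as soon as `β j ∈ E(θ)`;
* `va2g_natDegree`, `va2g_natDegree_of_mem`: the minimal polynomial of `β j` (of `θ`) over `E` has
  degree `ℓ + 1`; `va2g_isIntegral`.

Names are prefixed `va2g_`.
-/

set_option autoImplicit false

namespace Fermat.Agent.S34

open Fermat.Agent.S37

section Core

variable {E F L : Type*} [Field E] [Field F] [Algebra E F] [Field L]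
  (l : ℕ) [Fact l.Prime] [CharP L l]
  (alpha beta : E →+* F) (halg : ∀ a, algebraMap E F a = alpha a)
  (w : F →+* F) (hwa : ∀ a, w (alpha a) = beta a) (hwb : ∀ a, w (beta a) = alpha a)
  (VE : ValuationSubring E) (rhoE : VE →+* L) (hkerE : ∀ a : VE, (a : E)⁻¹ ∉ VE → rhoE a = 0)
  (V1 : ValuationSubring F) (rho1 : V1.toSubring →+* L)
  (hinv : ∀ z : V1.toSubring, rho1 z ≠ 0 → (z : F)⁻¹ ∈ V1)
  (phi : L →+* L)
  (ha : ∀ a (h : a ∈ VE), ∃ h1 : alpha a ∈ V1, rho1 ⟨alpha a, h1⟩ = rhoE ⟨a, h⟩)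
  (hb : ∀ a (h : a ∈ VE), ∃ h1 : beta a ∈ V1, rho1 ⟨beta a, h1⟩ = phi (rhoE ⟨a, h⟩))
  (jE : E) (hjE : jE ∈ VE) (hJphi : (rhoE ⟨jE, hjE⟩) ^ l = phi (rhoE ⟨jE, hjE⟩))
  (hJ : ∀ c, phi c ≠ rhoE ⟨jE, hjE⟩)
  (hdeg : Module.finrank E F = l + 1)

include halg hwa hwb hinv ha hb hJphi hJ in
/-- the family of `tvx_family` (same construction), together with the fact that it lies in every
subfield containing `α j` and `β j` -/
theorem va2g_family :
    ∃ (b : Unit ⊕ Fin l → F) (hb₁ : ∀ i, b i ∈ V1.toSubring)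
      (hb₂ : ∀ i, b i ∈ (V1.comap w).toSubring)
      (hV₁ : ∀ a ∈ VE, algebraMap E F a ∈ V1.toSubring)
      (hV₂ : ∀ a ∈ VE, algebraMap E F a ∈ (V1.comap w).toSubring),
      (∀ (a : E) (h : a ∈ VE), rho1 ⟨algebraMap E F a, hV₁ a h⟩ = (RingHom.id L) (rhoE ⟨a, h⟩)) ∧
      (∀ (a : E) (h : a ∈ VE),
        tvxRho2 w V1 rho1 ⟨algebraMap E F a, hV₂ a h⟩ = phi (rhoE ⟨a, h⟩)) ∧
      (∀ c : Unit ⊕ Fin l → L, ∑ i, (RingHom.id L) (c i) * rho1 ⟨b i, hb₁ i⟩ = 0 →
        ∑ i, phi (c i) * tvxRho2 w V1 rho1 ⟨b i, hb₂ i⟩ = 0 → ∀ i, c i = 0) ∧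
      (∀ S : Subfield F, alpha jE ∈ S → beta jE ∈ S → ∀ i, b i ∈ S) := by
  classical
  have hcongr : ∀ {t t' : F} (h : t = t') (ht : t ∈ V1.toSubring) (ht' : t' ∈ V1.toSubring),
      rho1 ⟨t, ht⟩ = rho1 ⟨t', ht'⟩ := by
    intro t t' h ht ht'
    subst h
    rfl
  have hρ₂a : ∀ (t : F) (ht : t ∈ (V1.comap w).toSubring),
      tvxRho2 w V1 rho1 ⟨t, ht⟩ = rho1 ⟨w t, ht⟩ := fun _ _ => rfl
  set J : L := rhoE ⟨jE, hjE⟩ with hJdef
  set x : F := alpha jE with hx
  set y : F := beta jE with hy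
  obtain ⟨hx1, hρx⟩ := ha jE hjE
  obtain ⟨hy1, hρy'⟩ := hb jE hjE
  have hx1' : x ∈ V1.toSubring := hx1
  have hy1' : y ∈ V1.toSubring := hy1
  have hρy : rho1 ⟨y, hy1'⟩ = J ^ l := hρy'.trans hJphi.symm
  have hwx : w x = y := hwa jE
  have hwy : w y = x := hwb jE
  -- the unit `s`
  set s : F := x ^ l - y + (x - y ^ l) with hs
  have hs1 : s ∈ V1.toSubring :=
    add_mem (sub_mem (pow_mem hx1' l) hy1') (sub_mem hx1' (pow_mem hy1' l))
  have hρs : rho1 ⟨s, hs1⟩ = J - (J ^ l) ^ l := by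
    have h1 : (⟨s, hs1⟩ : V1.toSubring)
        = ⟨x, hx1'⟩ ^ l - ⟨y, hy1'⟩ + (⟨x, hx1'⟩ - ⟨y, hy1'⟩ ^ l) := rfl
    rw [h1, map_add, map_sub, map_sub, map_pow, map_pow, hρx, hρy, sub_self, zero_add]
  have hρs0 : rho1 ⟨s, hs1⟩ ≠ 0 := by
    rw [hρs, sub_ne_zero]
    intro h
    have h2 : (J ^ l) ^ l = phi (phi J) := by rw [hJphi, ← map_pow, hJphi]
    exact hJ (phi J) (h2.symm.trans h.symm)
  have hs0 : s ≠ 0 := by
    intro h0
    apply hρs0
    have : (⟨s, hs1⟩ : V1.toSubring) = 0 := Subtype.ext h0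
    rw [this, map_zero]
  have hsi1 : s⁻¹ ∈ V1.toSubring := hinv ⟨s, hs1⟩ hρs0
  set e : F := (x ^ l - y) * s⁻¹ with he
  have he1 : e ∈ V1.toSubring := mul_mem (sub_mem (pow_mem hx1' l) hy1') hsi1
  have hρe : rho1 ⟨e, he1⟩ = 0 := by
    have h1 : (⟨e, he1⟩ : V1.toSubring) = (⟨x, hx1'⟩ ^ l - ⟨y, hy1'⟩) * ⟨s⁻¹, hsi1⟩ := rfl
    rw [h1, map_mul, map_sub, map_pow, hρx, hρy, sub_self, zero_mul]
  have hws : w s = -s := by
    rw [hs, map_add, map_sub, map_sub, map_pow, map_pow, hwx, hwy]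
    ring
  have hwe : w e = 1 - e := by
    rw [he, map_mul, map_inv₀, hws, map_sub, map_pow, hwx, hwy]
    have h2 : x ^ l - y = s - (x - y ^ l) := by rw [hs]; ring
    rw [h2]
    field_simp
    ring
  have hwe' : w (1 - e) = e := by
    rw [map_sub, map_one, hwe]
    ring
  have he2 : e ∈ (V1.comap w).toSubring := by
    show w e ∈ V1.toSubring
    rw [hwe]
    exact sub_mem (one_mem _) he1
  -- the family
  set b : Unit ⊕ Fin l → F := Sum.elim (fun _ => 1 - e) (fun i => e * y ^ (i : ℕ)) with hbdef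
  have hb₁ : ∀ i, b i ∈ V1.toSubring := by
    rintro (u | i)
    · exact sub_mem (one_mem _) he1
    · exact mul_mem he1 (pow_mem hy1' _)
  have hwb' : ∀ i : Fin l, w (e * y ^ (i : ℕ)) = (1 - e) * x ^ (i : ℕ) := by
    intro i
    rw [map_mul, hwe, map_pow, hwy]
  have hb₂ : ∀ i, b i ∈ (V1.comap w).toSubring := by
    rintro (u | i)
    · show w (1 - e) ∈ V1.toSubring
      rw [hwe']
      exact he1
    · show w (e * y ^ (i : ℕ)) ∈ V1.toSubring
      rw [hwb']
      exact mul_mem (sub_mem (one_mem _) he1) (pow_mem hx1' _)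
  have hρ₁b : ∀ i, rho1 ⟨b i, hb₁ i⟩
      = Sum.elim (fun _ : Unit => (1 : L)) (fun _ : Fin l => 0) i := by
    rintro (u | i)
    · have h1 : (⟨b (Sum.inl u), hb₁ (Sum.inl u)⟩ : V1.toSubring) = 1 - ⟨e, he1⟩ := rfl
      rw [h1, map_sub, map_one, hρe, sub_zero]
      rfl
    · have h1 : (⟨b (Sum.inr i), hb₁ (Sum.inr i)⟩ : V1.toSubring)
          = ⟨e, he1⟩ * ⟨y, hy1'⟩ ^ (i : ℕ) := rfl
      rw [h1, map_mul, hρe, zero_mul]
      rfl
  have hρ₂b : ∀ i, tvxRho2 w V1 rho1 ⟨b i, hb₂ i⟩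
      = Sum.elim (fun _ : Unit => (0 : L)) (fun i : Fin l => J ^ (i : ℕ)) i := by
    rintro (u | i)
    · rw [hρ₂a]
      have h1 : rho1 ⟨w (b (Sum.inl u)), hb₂ (Sum.inl u)⟩ = rho1 ⟨e, he1⟩ :=
        hcongr hwe' _ _
      rw [h1, hρe]
      rfl
    · rw [hρ₂a]
      have h1 : rho1 ⟨w (b (Sum.inr i)), hb₂ (Sum.inr i)⟩
          = rho1 ((1 - ⟨e, he1⟩) * ⟨x, hx1'⟩ ^ (i : ℕ)) :=
        hcongr (hwb' i) _ ((1 - (⟨e, he1⟩ : V1.toSubring)) * ⟨x, hx1'⟩ ^ (i : ℕ)).2
      rw [h1, map_mul, map_sub, map_one, hρe, sub_zero, one_mul, map_pow, hρx]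
      rfl
  have hindJ : ∀ c : Fin l → L, ∑ i, phi (c i) * J ^ (i : ℕ) = 0 → ∀ i, c i = 0 :=
    fun c hc => tvf_indep l phi J ⟨J, hJphi.symm⟩ hJ c hc
  have hV₁ : ∀ a ∈ VE, algebraMap E F a ∈ V1.toSubring := fun a h => by
    rw [halg]
    exact (ha a h).1
  have hV₂ : ∀ a ∈ VE, algebraMap E F a ∈ (V1.comap w).toSubring := fun a h => by
    show w (algebraMap E F a) ∈ V1.toSubring
    rw [halg, hwa]
    exact (hb a h).1
  refine ⟨b, hb₁, hb₂, hV₁, hV₂, ?_, ?_, ?_, ?_⟩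
  · intro a h
    obtain ⟨h1, hh⟩ := ha a h
    rw [RingHom.id_apply, ← hh]
    exact hcongr (halg a) _ _
  · intro a h
    obtain ⟨h1, hh⟩ := hb a h
    rw [hρ₂a, ← hh]
    exact hcongr ((congrArg w (halg a)).trans (hwa a)) _ _
  · intro c h1 h2
    simp only [hρ₁b, Fintype.sum_sum_type, Sum.elim_inl, Sum.elim_inr, mul_zero,
      Finset.sum_const_zero, add_zero, mul_one, RingHom.id_apply] at h1
    simp only [hρ₂b, Fintype.sum_sum_type, Sum.elim_inl, Sum.elim_inr, mul_zero,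
      Finset.sum_const_zero, zero_add] at h2
    have hc1 := hindJ (fun i => c (Sum.inr i)) h2
    rintro (u | i)
    · simpa using h1
    · exact hc1 i
  · intro S hxS hyS
    have hsS : s ∈ S := add_mem (sub_mem (pow_mem hxS l) hyS) (sub_mem hxS (pow_mem hyS l))
    have heS : e ∈ S := mul_mem (sub_mem (pow_mem hxS l) hyS) (inv_mem hsS)
    rintro (u | i)
    · exact sub_mem (one_mem S) heS
    · exact mul_mem heS (pow_mem hyS _)

include halg hwa hwb hinv ha hb hJphi hJ hdeg in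
/-- **Generation, abstract Hecke form**: `F = E(β j)`. -/
theorem va2g_adjoin_eq_top : IntermediateField.adjoin E {beta jE} = ⊤ := by
  classical
  obtain ⟨b, hb₁, hb₂, hV₁, hV₂, hρ₁, hρ₂, hind, hS⟩ := va2g_family l alpha beta halg w hwa hwb VE
    rhoE V1 rho1 hinv phi ha hb jE hjE hJphi hJ
  have hli := tva_linearIndependent VE V1.toSubring (V1.comap w).toSubring hV₁ hV₂ rhoE rho1
    (tvxRho2 w V1 rho1) (RingHom.id L) phi hρ₁ hρ₂ b hb₁ hb₂ hind
  have hcard : Fintype.card (Unit ⊕ Fin l) = Module.finrank E F := by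
    rw [hdeg]
    simp [add_comm]
  have hfin : Module.Finite E F :=
    Module.finite_of_finrank_pos (by rw [hdeg]; exact Nat.succ_pos l)
  have hspan : Submodule.span E (Set.range b) = ⊤ :=
    hli.span_eq_top_of_card_eq_finrank' hcard
  have hbS : ∀ i, b i ∈ IntermediateField.adjoin E {beta jE} := by
    refine hS (IntermediateField.adjoin E {beta jE}).toSubfield ?_ ?_
    · rw [← halg]
      exact (IntermediateField.adjoin E {beta jE}).algebraMap_mem jE
    · exact IntermediateField.subset_adjoin E _ (Set.mem_singleton _)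
  rw [eq_top_iff]
  intro z _
  have hz : z ∈ Submodule.span E (Set.range b) := by
    rw [hspan]
    trivial
  have hle : Submodule.span E (Set.range b) ≤
      (IntermediateField.adjoin E {beta jE}).toSubalgebra.toSubmodule := by
    rw [Submodule.span_le]
    rintro _ ⟨i, rfl⟩
    exact hbS i
  exact hle hz

include halg hwa hwb hinv ha hb hJphi hJ hdeg in
/-- `F = E(θ)` as soon as `β j ∈ E(θ)`. -/
theorem va2g_adjoin_eq_top_of_mem (θ : F) (hθ : beta jE ∈ IntermediateField.adjoin E {θ}) :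
    IntermediateField.adjoin E {θ} = ⊤ := by
  rw [eq_top_iff, ← va2g_adjoin_eq_top l alpha beta halg w hwa hwb VE rhoE V1 rho1 hinv phi ha hb
    jE hjE hJphi hJ hdeg]
  rw [IntermediateField.adjoin_le_iff]
  intro z hz
  rw [Set.mem_singleton_iff] at hz
  rw [hz]
  exact hθ

include hdeg in
omit [Fact l.Prime] in
/-- every element of `F` is integral over `E` -/
theorem va2g_isIntegral (θ : F) : IsIntegral E θ := by
  have hfin : Module.Finite E F :=
    Module.finite_of_finrank_pos (by rw [hdeg]; exact Nat.succ_pos l)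
  exact IsIntegral.of_finite E θ

include hdeg in
omit [Fact l.Prime] in
/-- the minimal polynomial of a generator has degree `ℓ + 1` -/
theorem va2g_natDegree_of_top (θ : F) (hθ : IntermediateField.adjoin E {θ} = ⊤) :
    (minpoly E θ).natDegree = l + 1 := by
  have h1 := IntermediateField.adjoin.finrank (va2g_isIntegral l hdeg θ)
  rw [← h1, hθ, IntermediateField.finrank_top', hdeg]

include halg hwa hwb hinv ha hb hJphi hJ hdeg in
/-- **The degree of the modular equation over `E`**: the minimal polynomial of `θ` over `E` has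
degree `ℓ + 1` as soon as `β j ∈ E(θ)`. -/
theorem va2g_natDegree_of_mem (θ : F) (hθ : beta jE ∈ IntermediateField.adjoin E {θ}) :
    (minpoly E θ).natDegree = l + 1 :=
  va2g_natDegree_of_top l hdeg θ (va2g_adjoin_eq_top_of_mem l alpha beta halg w hwa hwb VE rhoE V1
    rho1 hinv phi ha hb jE hjE hJphi hJ hdeg θ hθ)

include halg hwa hwb hinv ha hb hJphi hJ hdeg in
/-- the minimal polynomial of `β j` over `E` has degree `ℓ + 1` -/
theorem va2g_natDegree : (minpoly E (beta jE)).natDegree = l + 1 :=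
  va2g_natDegree_of_top l hdeg _ (va2g_adjoin_eq_top l alpha beta halg w hwa hwb VE rhoE V1
    rho1 hinv phi ha hb jE hjE hJphi hJ hdeg)

end Core

end Fermat.Agent.S34
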