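import Mathlib

/-!
# S34, D-NODE-INST (d), branch 1 (abstract; Mathlib only)

`O ⊆ F` a chart ring, `𝔫` a prime of `O` lying on the component `V` (`O ∩ 𝔪_V ⊆ 𝔫`),
`OE ⊆ O` the chart of the lower level with `O = OE + (O ∩ 𝔪_V)` (`hlift`), and `g0 ∈ OE` a
local generator, modulo `τ`, of the point `𝔫 ∩ OE` of the lower chart (`hloc`).  If
`g0 ≡ d * y` modulo `𝔪_V` for elements `d, y` of the local ring `O_𝔫`, then

  `𝔫 O_𝔫 = y O_𝔫 + (O_𝔫 ∩ 𝔪_V)`,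

i.e. `y` generates the maximal ideal of the branch `O_𝔫 / (O_𝔫 ∩ 𝔪_V)`:
`unr_branch_abs : ∀ z ∈ 𝔫 O_𝔫, ∃ b ∈ O_𝔫, z - y * b ∈ 𝔪_V`.

Elements of `O_𝔫` are written `x` with `∃ a s : O, s ∉ 𝔫 ∧ x * s = a`.
-/

set_option autoImplicit false

namespace Fermat.Agent.S34

section UnrBranch

variable {F : Type*} [Field F]

theorem unr_br_nonunits_add (V : ValuationSubring F) {x y : F} (hx : x ∈ V.nonunits)
    (hy : y ∈ V.nonunits) : x + y ∈ V.nonunits := by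
  rw [ValuationSubring.mem_nonunits_iff] at hx hy ⊢
  exact lt_of_le_of_lt (V.valuation.map_add x y) (max_lt hx hy)

theorem unr_br_nonunits_mul (V : ValuationSubring F) {x y : F} (hx : x ∈ V.nonunits)
    (hy : y ∈ V) : x * y ∈ V.nonunits := by
  rw [ValuationSubring.mem_nonunits_iff] at hx ⊢
  rw [map_mul]
  exact mul_lt_one_of_lt_of_le hx ((V.valuation_le_one_iff y).mpr hy)

theorem unr_br_inv_mem (V : ValuationSubring F) {x : F} (hx : x ∈ V) (hx' : x ∉ V.nonunits) :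
    x⁻¹ ∈ V := by
  rw [ValuationSubring.mem_nonunits_iff, not_lt] at hx'
  have h1 : V.valuation x = 1 := le_antisymm ((V.valuation_le_one_iff x).mpr hx) hx'
  rw [← V.valuation_le_one_iff, map_inv₀, h1, inv_one]

variable {A : Type*} [CommRing A] [Algebra A F]

/-- **Branch generator.**  See the file header. -/
theorem unr_branch_abs (O : Subalgebra A F) (𝔫 : Ideal ↥O) [𝔫.IsPrime] (V : ValuationSubring F)
    (hOV : ∀ x ∈ O, x ∈ V) (hV𝔫 : ∀ x : ↥O, (x : F) ∈ V.nonunits → x ∈ 𝔫)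
    (OE : Subalgebra A F) (hOE : OE ≤ O)
    (hlift : ∀ x ∈ O, ∃ b ∈ OE, x - b ∈ V.nonunits)
    (τ : A) (hτV : algebraMap A F τ ∈ V.nonunits) (g0 : F)
    (hloc : ∀ a0 : ↥O, (a0 : F) ∈ OE → a0 ∈ 𝔫 → ∃ s0 : ↥O, (s0 : F) ∈ OE ∧ s0 ∉ 𝔫 ∧
      ∃ u ∈ OE, ∃ u' ∈ OE, (s0 : F) * (a0 : F) = algebraMap A F τ * u + g0 * u')
    (y d : F) (hd : ∃ a s : ↥O, s ∉ 𝔫 ∧ d * (s : F) = (a : F))
    (hyd : g0 - d * y ∈ V.nonunits)
    (z : F) (hz : ∃ a s : ↥O, a ∈ 𝔫 ∧ s ∉ 𝔫 ∧ z * (s : F) = (a : F)) :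
    ∃ b : F, (∃ a s : ↥O, s ∉ 𝔫 ∧ b * (s : F) = (a : F)) ∧ z - y * b ∈ V.nonunits := by
  obtain ⟨a, s, ha, hs, hzs⟩ := hz
  obtain ⟨ad, sd, hsd, hdsd⟩ := hd
  obtain ⟨a0, ha0E, hp⟩ := hlift (a : F) a.2
  -- the difference `p = a - a0` lies in `O ∩ 𝔪_V ⊆ 𝔫`
  have hpn : (a - ⟨a0, hOE ha0E⟩ : ↥O) ∈ 𝔫 := hV𝔫 _ hp
  have ha0n : (⟨a0, hOE ha0E⟩ : ↥O) ∈ 𝔫 := by
    have h1 : (⟨a0, hOE ha0E⟩ : ↥O) = a - (a - ⟨a0, hOE ha0E⟩) := by ring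
    rw [h1]
    exact Ideal.sub_mem _ ha hpn
  obtain ⟨s0, hs0E, hs0, u, hu, u', hu', hrel⟩ := hloc ⟨a0, hOE ha0E⟩ ha0E ha0n
  have hsF : (s : F) ≠ 0 := fun h => hs (by
    have : s = 0 := Subtype.ext h
    rw [this]; exact 𝔫.zero_mem)
  have hs0F : (s0 : F) ≠ 0 := fun h => hs0 (by
    have : s0 = 0 := Subtype.ext h
    rw [this]; exact 𝔫.zero_mem)
  have hsV : (s : F)⁻¹ ∈ V := unr_br_inv_mem V (hOV _ s.2) (fun h => hs (hV𝔫 s h))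
  have hs0V : (s0 : F)⁻¹ ∈ V := unr_br_inv_mem V (hOV _ s0.2) (fun h => hs0 (hV𝔫 s0 h))
  refine ⟨d * u' * ((s : F) * (s0 : F))⁻¹,
    ⟨ad * ⟨u', hOE hu'⟩, s * s0 * sd,
      fun h => ((Ideal.IsPrime.mem_or_mem ‹𝔫.IsPrime› h).elim
        (fun h' => (Ideal.IsPrime.mem_or_mem ‹𝔫.IsPrime› h').elim hs hs0) hsd), ?_⟩, ?_⟩
  · show d * u' * ((s : F) * (s0 : F))⁻¹ * ((s : F) * (s0 : F) * (sd : F)) = (ad : F) * u'
    rw [← hdsd]
    field_simp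
  · have hz' : z = (a : F) * (s : F)⁻¹ := by
      rw [← hzs]
      field_simp
    have hkey : z - y * (d * u' * ((s : F) * (s0 : F))⁻¹) =
        (algebraMap A F τ * u + (g0 - d * y) * u' + ((a : F) - a0) * (s0 : F)) *
          ((s : F)⁻¹ * (s0 : F)⁻¹) := by
      have h2 : (a : F) * (s0 : F) = algebraMap A F τ * u + g0 * u' + ((a : F) - a0) * (s0 : F) := by
        have h3 : (s0 : F) * a0 = algebraMap A F τ * u + g0 * u' := hrel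
        rw [← h3]
        ring
      rw [hz', mul_inv]
      have h4 : (a : F) * (s : F)⁻¹ - y * (d * u' * ((s : F)⁻¹ * (s0 : F)⁻¹)) =
          ((a : F) * (s0 : F) - y * d * u') * ((s : F)⁻¹ * (s0 : F)⁻¹) := by
        field_simp
      rw [h4, h2]
      ring
    rw [hkey]
    refine unr_br_nonunits_mul V ?_ (V.mul_mem _ _ hsV hs0V)
    refine unr_br_nonunits_add V (unr_br_nonunits_add V ?_ ?_) ?_
    · exact unr_br_nonunits_mul V hτV (hOV _ (hOE hu))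
    · exact unr_br_nonunits_mul V hyd (hOV _ (hOE hu'))
    · exact unr_br_nonunits_mul V hp (hOV _ s0.2)

end UnrBranch

end Fermat.Agent.S34
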