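import Mathlib
import Fermat.Agent.S34.UnramPack
import Fermat.Agent.S34.BranchPoly
import Fermat.Agent.S34.DomAbs

/-!
# S34, D-UNRAM: the hypothesis `hU` of the abstract branch statement from facts upstairs

Setting: `E := chtO A₀ {tM}` the Hauptmodul chart of the lower level `M` (coordinate
`tM = (h - c1)/(h - c0)`), `β : E →+* F'` a ring homomorphism compatible with the constants
(`alpha` or `beta` restricted to the chart), `O ⊆ F'` a chart of the upper level and `𝔫` a prime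
of `O`.  If, in the local ring `O_𝔫` (`dmaLoc O 𝔫`, maximal ideal `dmaMax O 𝔫`),

* `hcuNum (β tM)` is a unit (the point is not cuspidal),
* `β tM - 1` is a unit,

then `ξ := g(tM)`, `g := brpG c0 c1 (q * q)` (the numerator of `h ^ (q²) - h`), generates modulo
`τ` the prime `P = β⁻¹(𝔫 O_𝔫)` of `E` locally: this is `hU` of `bra_main` verbatim
(`unr_hU_of_upstairs`), also for `ξ := -g(tM)` (`unr_hU_of_upstairs_neg`).
-/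

set_option autoImplicit false
set_option linter.style.haveILetI false
set_option linter.unusedSectionVars false

noncomputable section

open ModularCurve Polynomial

namespace Fermat.Agent.S34

open Fermat.Agent.S18 Fermat.Agent.S28

section UnrUp

variable {K₀ : Type*} [Field K₀] [Algebra ℚ K₀] (A₀ : ValuationSubring K₀)
  [IsDiscreteValuationRing ↥A₀] (M : ℕ) {a2 ℓ : ℕ} (H : HauptRec a2 ℓ) (c0 c1 : A₀)

/-- A ring homomorphism compatible with the constants commutes with polynomial evaluation. -/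
theorem unr_up_aeval {R E F' : Type*} [CommRing R] [CommRing E] [CommRing F'] [Algebra R E]
    [Algebra R F'] (β : E →+* F') (hβ : ∀ a : R, β (algebraMap R E a) = algebraMap R F' a)
    (T : E) (p : R[X]) : β (aeval T p) = aeval (β T) p := by
  rw [aeval_def, aeval_def, Polynomial.hom_eval₂]
  congr 1
  ext a
  exact hβ a

/-- **`hU` of `bra_main` from facts upstairs** (for `ξ := g(tM)`, `g = brpG c0 c1 (q * q)`). -/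
theorem unr_hU_of_upstairs (huc : unrChart K₀ A₀ M H c0 c1)
    (tM : ↥(laurentBaseChange K₀ (modularFunctionFieldFull M)))
    (htM : (tM : LaurentSeries K₀) = cinstU H K₀ (c0 : K₀) (c1 : K₀))
    [Algebra ↥A₀ ↥(laurentBaseChange K₀ (modularFunctionFieldFull M))]
    [IsScalarTower ↥A₀ K₀ ↥(laurentBaseChange K₀ (modularFunctionFieldFull M))]
    (τ : ↥A₀) (hτ : Irreducible τ)
    (q : ℕ) (hq2 : 2 ≤ q) (hqτ : τ ∣ ((q : ℕ) : ↥A₀))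
    (hc : IsLocalRing.residue ↥A₀ c0 ≠ IsLocalRing.residue ↥A₀ c1)
    {F' : Type*} [Field F'] [Algebra ↥A₀ F'] (β : ↥(chtO ↥A₀ {tM}) →+* F')
    (hβ : ∀ a : ↥A₀, β (algebraMap ↥A₀ ↥(chtO ↥A₀ {tM}) a) = algebraMap ↥A₀ F' a)
    (O : Subalgebra ↥A₀ F') (𝔫 : Ideal ↥O) [𝔫.IsPrime]
    (hN : aeval (β ⟨tM, (cht_h1 tM).1⟩) (hcuNum H ↥A₀ c0 c1) ∉ dmaMax O 𝔫)
    (hT1 : β ⟨tM, (cht_h1 tM).1⟩ - 1 ∉ dmaMax O 𝔫)
    (P : Ideal ↥(chtO ↥A₀ {tM})) (hPmax : P.IsMaximal)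
    (hIP : Ideal.span {algebraMap ↥A₀ ↥(chtO ↥A₀ {tM}) τ} ≤ P)
    (hξP : aeval (⟨tM, (cht_h1 tM).1⟩ : ↥(chtO ↥A₀ {tM})) (brpG c0 c1 (q * q)) ∈ P)
    (hchar : ∀ z : ↥(chtO ↥A₀ {tM}), z ∈ P ↔ β z ∈ dmaMax O 𝔫) :
    ∀ z ∈ P, ∃ u : ↥(chtO ↥A₀ {tM}), u ∉ P ∧ ∃ γ : ↥(chtO ↥A₀ {tM}),
      u * z - aeval (⟨tM, (cht_h1 tM).1⟩ : ↥(chtO ↥A₀ {tM})) (brpG c0 c1 (q * q)) * γ ∈
        Ideal.span {algebraMap ↥A₀ ↥(chtO ↥A₀ {tM}) τ} := by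
  haveI : P.IsPrime := hPmax.isPrime
  have hτP : algebraMap ↥A₀ ↥(chtO ↥A₀ {tM}) τ ∈ P := hIP (Ideal.subset_span rfl)
  -- non-cuspidality at `P`
  have hNP : aeval (⟨tM, (cht_h1 tM).1⟩ : ↥(chtO ↥A₀ {tM})) (hcuNum H ↥A₀ c0 c1) ∉ P := by
    rw [hchar, unr_up_aeval β hβ]
    exact hN
  have hT1P : (⟨tM, (cht_h1 tM).1⟩ : ↥(chtO ↥A₀ {tM})) - 1 ∉ P := by
    rw [hchar, map_sub, map_one]
    exact hT1
  -- `q * q ∈ P`
  have hnP : ((q * q : ℕ) : ↥(chtO ↥A₀ {tM})) ∈ P := by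
    obtain ⟨e, he⟩ := hqτ
    have h1 : ((q * q : ℕ) : ↥(chtO ↥A₀ {tM})) =
        algebraMap ↥A₀ ↥(chtO ↥A₀ {tM}) τ * algebraMap ↥A₀ ↥(chtO ↥A₀ {tM}) (e * (q : ↥A₀)) := by
      rw [← map_mul, ← mul_assoc, ← he, ← Nat.cast_mul, map_natCast]
    rw [h1]
    exact P.mul_mem_right _ hτP
  -- `c0 - c1` is a unit
  have hcP : algebraMap ↥A₀ ↥(chtO ↥A₀ {tM}) c0 - algebraMap ↥A₀ ↥(chtO ↥A₀ {tM}) c1 ∉ P := by
    have hu : IsUnit (c0 - c1) := by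
      rw [← IsLocalRing.residue_ne_zero_iff_isUnit, map_sub, sub_ne_zero]
      exact hc
    rw [← map_sub]
    intro hmem
    exact (Ideal.IsPrime.ne_top ‹P.IsPrime›)
      (Ideal.eq_top_of_isUnit_mem _ hmem (hu.map (algebraMap ↥A₀ ↥(chtO ↥A₀ {tM}))))
  have hg' : aeval (⟨tM, (cht_h1 tM).1⟩ : ↥(chtO ↥A₀ {tM}))
      (derivative (brpG c0 c1 (q * q))) ∉ P :=
    brp_derivative_notMem c0 c1 (q * q) (by nlinarith) _ P hnP hcP hT1P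
  exact unr_local_hU A₀ M H c0 c1 huc tM htM τ hτ P hIP hNP (brpG c0 c1 (q * q)) hξP hg'

/-- The same for `ξ := -g(tM)`. -/
theorem unr_hU_of_upstairs_neg (huc : unrChart K₀ A₀ M H c0 c1)
    (tM : ↥(laurentBaseChange K₀ (modularFunctionFieldFull M)))
    (htM : (tM : LaurentSeries K₀) = cinstU H K₀ (c0 : K₀) (c1 : K₀))
    [Algebra ↥A₀ ↥(laurentBaseChange K₀ (modularFunctionFieldFull M))]
    [IsScalarTower ↥A₀ K₀ ↥(laurentBaseChange K₀ (modularFunctionFieldFull M))]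
    (τ : ↥A₀) (hτ : Irreducible τ)
    (q : ℕ) (hq2 : 2 ≤ q) (hqτ : τ ∣ ((q : ℕ) : ↥A₀))
    (hc : IsLocalRing.residue ↥A₀ c0 ≠ IsLocalRing.residue ↥A₀ c1)
    {F' : Type*} [Field F'] [Algebra ↥A₀ F'] (β : ↥(chtO ↥A₀ {tM}) →+* F')
    (hβ : ∀ a : ↥A₀, β (algebraMap ↥A₀ ↥(chtO ↥A₀ {tM}) a) = algebraMap ↥A₀ F' a)
    (O : Subalgebra ↥A₀ F') (𝔫 : Ideal ↥O) [𝔫.IsPrime]
    (hN : aeval (β ⟨tM, (cht_h1 tM).1⟩) (hcuNum H ↥A₀ c0 c1) ∉ dmaMax O 𝔫)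
    (hT1 : β ⟨tM, (cht_h1 tM).1⟩ - 1 ∉ dmaMax O 𝔫)
    (P : Ideal ↥(chtO ↥A₀ {tM})) (hPmax : P.IsMaximal)
    (hIP : Ideal.span {algebraMap ↥A₀ ↥(chtO ↥A₀ {tM}) τ} ≤ P)
    (hξP : -aeval (⟨tM, (cht_h1 tM).1⟩ : ↥(chtO ↥A₀ {tM})) (brpG c0 c1 (q * q)) ∈ P)
    (hchar : ∀ z : ↥(chtO ↥A₀ {tM}), z ∈ P ↔ β z ∈ dmaMax O 𝔫) :
    ∀ z ∈ P, ∃ u : ↥(chtO ↥A₀ {tM}), u ∉ P ∧ ∃ γ : ↥(chtO ↥A₀ {tM}),
      u * z - -aeval (⟨tM, (cht_h1 tM).1⟩ : ↥(chtO ↥A₀ {tM})) (brpG c0 c1 (q * q)) * γ ∈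
        Ideal.span {algebraMap ↥A₀ ↥(chtO ↥A₀ {tM}) τ} := by
  intro z hz
  obtain ⟨u, hu, γ, hγ⟩ := unr_hU_of_upstairs A₀ M H c0 c1 huc tM htM τ hτ q hq2 hqτ hc β hβ O 𝔫
    hN hT1 P hPmax hIP (by simpa using P.neg_mem hξP) hchar z hz
  refine ⟨u, hu, -γ, ?_⟩
  have h1 : u * z - -aeval (⟨tM, (cht_h1 tM).1⟩ : ↥(chtO ↥A₀ {tM})) (brpG c0 c1 (q * q)) * -γ =
      u * z - aeval (⟨tM, (cht_h1 tM).1⟩ : ↥(chtO ↥A₀ {tM})) (brpG c0 c1 (q * q)) * γ := by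
    ring
  rw [h1]
  exact hγ

end UnrUp

end Fermat.Agent.S34
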