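import Mathlib
import Fermat.Agent.S34.TwoValGen
import Fermat.Agent.S34.Val2Exh
import Fermat.Agent.S34.Val2Deg
import Fermat.Agent.S18.HauptRec

/-!
# S34, package A [VAL2], generation at the `K0` level: `K0(X₀(M q)) = α K0(X₀(M)) (θ)`

`K0` a field with an embedding into `ℚ̄`, `A0` a discrete valuation subring of `K0` over the prime
`q ∤ M`, `E = K0(X₀(M))`, `F = K0(X₀(M q))`, `F` an `E`-algebra through `α = heckeAlphaBar`.

* `va2g_adjoin_betaJ`: `F = E(β j)`;
* `va2g_natDegree_betaJ`: the minimal polynomial of `β j = j(t^q)` over `E` has degree `q + 1`;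
* `va2g_rel_theta`: `β j · Q(θ) = P(θ)` for `θ = h(t^q)`, `h` the Hauptmodul of a `HauptRec`;
* `va2g_adjoin_theta`: `F = E(θ)`;
* `va2g_natDegree_theta`: the minimal polynomial of `θ` over `E` has degree `q + 1`;
* `va2g_isIntegral_theta`: `θ` is integral over `E`.

Names are prefixed `va2g_`.
-/

set_option autoImplicit false
set_option linter.unusedSectionVars false

noncomputable section

open AlgebraicCurve ModularCurve Polynomial Fermat.Agent.S18 Fermat.Agent.S37 Fermat.Agent.S28

namespace Fermat.Agent.S34

local notation "Qb" => AlgebraicClosure ℚ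

/-- ring homomorphisms commute with the evaluation of integer polynomials (for any `ℤ`-algebra
structures) -/
theorem va2g_map_aeval_int {R S : Type*} [CommRing R] [CommRing S] [Algebra ℤ R] [Algebra ℤ S]
    (f : R →+* S) (x : R) (p : ℤ[X]) : f (aeval x p) = aeval (f x) p := by
  rw [aeval_def, aeval_def, hom_eval₂]
  congr 1
  exact RingHom.ext_int _ _

/-- values of integer polynomials at an element of a subfield lie in the subfield -/
theorem va2g_aeval_int_mem {F : Type*} [Field F] (S : Subfield F) {x : F} (hx : x ∈ S)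
    (p : ℤ[X]) : aeval x p ∈ S := by
  rw [aeval_eq_sum_range]
  exact sum_mem fun i _ => zsmul_mem (pow_mem hx i) _

section Main

variable (M q : ℕ) [NeZero M] [hq : Fact q.Prime] (hM : ¬ q ∣ M)
  (K0 : Type*) [Field K0] [Algebra ℚ K0] [Algebra K0 Qb]
  (A0 : ValuationSubring K0) [IsDiscreteValuationRing ↥A0]

include hM in
/-- **Generation at the `K0` level**: the level-`M q` function field is generated over the
`α`-image of the level-`M` function field by `β j = j(t^q)`. -/
theorem va2g_adjoin_betaJ (hA0 : A0.LiesOverPrime q) :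
    letI := algebraAlong (heckeAlphaBar K0 M q)
    IntermediateField.adjoin ↥(laurentBaseChange K0 (modularFunctionFieldFull M))
      ({heckeBetaBar K0 M q (grJ K0 M)} :
        Set ↥(laurentBaseChange K0 (modularFunctionFieldFull (M * q)))) = ⊤ := by
  let _ : Algebra ↥(laurentBaseChange K0 (modularFunctionFieldFull M))
      ↥(laurentBaseChange K0 (modularFunctionFieldFull (M * q))) :=
    algebraAlong (heckeAlphaBar K0 M q)
  have hcharA : CharP (IsLocalRing.ResidueField A0) q := grc_charP A0 q hA0
  have hchar := tvf_charP (k := IsLocalRing.ResidueField A0) q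
  have hJmem : grJ K0 M ∈ grO A0 hA0 M hM := gr_jqModC_mem A0
  have hJres : grRes A0 hA0 M hM ⟨_, hJmem⟩ = jqModC (IsLocalRing.ResidueField A0) :=
    grRho_jqModC A0 _
  have hdeg : Module.finrank ↥(laurentBaseChange K0 (modularFunctionFieldFull M))
      ↥(laurentBaseChange K0 (modularFunctionFieldFull (M * q))) = q + 1 :=
    va2d_finrank K0 M hq.out hM
  exact va2g_adjoin_eq_top q (heckeAlphaBar K0 M q).toRingHom (heckeBetaBar K0 M q).toRingHom
    (fun _ => rfl) (va2Swap M q hq.out hM K0) (va2Swap_alpha M q hq.out hM K0)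
    (va2Swap_beta M q hq.out hM K0)
    (grO A0 hA0 M hM) (grRes A0 hA0 M hM)
    (va2V1 M q K0 A0) (va2xRho1 M q K0 A0) (va2x_hinv M q K0 A0)
    (qExpand (IsLocalRing.ResidueField A0) q)
    (va2x_ha M q hM K0 A0 hA0) (va2x_hb M q hM K0 A0 hA0)
    (grJ K0 M) hJmem (by rw [hJres]; exact tvf_jq_pow q) (by rw [hJres]; exact tvf_jq_not_range q)
    hdeg

include hM in
omit [Algebra K0 Qb] in
/-- every element of the level-`M q` function field is integral over the `α`-image of the
level-`M` function field -/
theorem va2g_isIntegral_theta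
    (θ : ↥(laurentBaseChange K0 (modularFunctionFieldFull (M * q)))) :
    letI := algebraAlong (heckeAlphaBar K0 M q)
    IsIntegral ↥(laurentBaseChange K0 (modularFunctionFieldFull M)) θ := by
  let _ : Algebra ↥(laurentBaseChange K0 (modularFunctionFieldFull M))
      ↥(laurentBaseChange K0 (modularFunctionFieldFull (M * q))) :=
    algebraAlong (heckeAlphaBar K0 M q)
  have hdeg : Module.finrank ↥(laurentBaseChange K0 (modularFunctionFieldFull M))
      ↥(laurentBaseChange K0 (modularFunctionFieldFull (M * q))) = q + 1 :=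
    va2d_finrank K0 M hq.out hM
  exact va2g_isIntegral q hdeg θ

include hM in
/-- the minimal polynomial of `β j = j(t^q)` over the `α`-image of the level-`M` function field
has degree `q + 1` -/
theorem va2g_natDegree_betaJ (hA0 : A0.LiesOverPrime q) :
    letI := algebraAlong (heckeAlphaBar K0 M q)
    (minpoly ↥(laurentBaseChange K0 (modularFunctionFieldFull M))
      (heckeBetaBar K0 M q (grJ K0 M))).natDegree = q + 1 := by
  let _ : Algebra ↥(laurentBaseChange K0 (modularFunctionFieldFull M))
      ↥(laurentBaseChange K0 (modularFunctionFieldFull (M * q))) :=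
    algebraAlong (heckeAlphaBar K0 M q)
  have hdeg : Module.finrank ↥(laurentBaseChange K0 (modularFunctionFieldFull M))
      ↥(laurentBaseChange K0 (modularFunctionFieldFull (M * q))) = q + 1 :=
    va2d_finrank K0 M hq.out hM
  exact va2g_natDegree_of_top q hdeg _ (va2g_adjoin_betaJ M q hM K0 A0 hA0)

variable {a2 ℓ' : ℕ} (H : HauptRec a2 ℓ')

omit [NeZero M] in
/-- values of integer polynomials at `θ = h(t^q)`, as Laurent series -/
theorem va2g_coe_aeval_theta (θ : ↥(laurentBaseChange K0 (modularFunctionFieldFull (M * q))))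
    (hθ : (θ : LaurentSeries K0) = qExpand K0 q (H.h K0)) [Algebra ℤ (LaurentSeries K0)]
    (p : ℤ[X]) :
    ((aeval θ p : ↥(laurentBaseChange K0 (modularFunctionFieldFull (M * q)))) :
      LaurentSeries K0) = qExpand K0 q (aeval (H.h K0) p) := by
  have h1 : ((aeval θ p : ↥(laurentBaseChange K0 (modularFunctionFieldFull (M * q)))) :
      LaurentSeries K0) = aeval (θ : LaurentSeries K0) p :=
    va2g_map_aeval_int (laurentBaseChange K0 (modularFunctionFieldFull (M * q))).val.toRingHom θ p
  have h2 : qExpand K0 q (aeval (H.h K0) p) = aeval (qExpand K0 q (H.h K0)) p :=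
    va2g_map_aeval_int (qExpand K0 q) (H.h K0) p
  rw [h1, h2, hθ]

/-- `β j · Q(θ) = P(θ)` for `θ = h(t^q)` -/
theorem va2g_rel_theta (θ : ↥(laurentBaseChange K0 (modularFunctionFieldFull (M * q))))
    (hθ : (θ : LaurentSeries K0) = qExpand K0 q (H.h K0)) :
    heckeBetaBar K0 M q (grJ K0 M) * aeval θ H.Q = aeval θ H.P := by
  apply Subtype.ext
  have hmul : ((heckeBetaBar K0 M q (grJ K0 M) * aeval θ H.Q :
      ↥(laurentBaseChange K0 (modularFunctionFieldFull (M * q)))) : LaurentSeries K0) =
      ((heckeBetaBar K0 M q (grJ K0 M) : ↥(laurentBaseChange K0 (modularFunctionFieldFull (M * q)))) :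
        LaurentSeries K0) *
      ((aeval θ H.Q : ↥(laurentBaseChange K0 (modularFunctionFieldFull (M * q)))) :
        LaurentSeries K0) := rfl
  have hj : ((grJ K0 M : ↥(laurentBaseChange K0 (modularFunctionFieldFull M))) : LaurentSeries K0)
      = jd K0 1 := (jd_one K0).symm
  have hrel := congrArg (qExpand K0 q) (H.rel_map K0)
  rw [map_mul] at hrel
  have hQ := va2g_coe_aeval_theta M q K0 H θ hθ H.Q
  have hP := va2g_coe_aeval_theta M q K0 H θ hθ H.P
  rw [hmul, coe_heckeBetaBar, hj]
  exact (congrArg (fun z => qExpand K0 q (jd K0 1) * z) hQ).trans (hrel.trans hP.symm)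

omit [NeZero M] in
/-- `Q(θ) ≠ 0` for `θ = h(t^q)` -/
theorem va2g_Q_theta_ne_zero (θ : ↥(laurentBaseChange K0 (modularFunctionFieldFull (M * q))))
    (hθ : (θ : LaurentSeries K0) = qExpand K0 q (H.h K0)) :
    aeval θ H.Q ≠ 0 := by
  intro h0
  have h1 := va2g_coe_aeval_theta M q K0 H θ hθ H.Q
  rw [h0] at h1
  have h2 : qExpand K0 q (aeval (H.h K0) H.Q) = 0 := h1.symm
  have h3 : aeval (H.h K0) H.Q = 0 := by
    rw [← map_zero (qExpand K0 q)] at h2
    exact (qExpand K0 q).injective h2
  have hQ0 : H.Q.map (Int.castRingHom K0) ≠ 0 :=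
    (H.Q_monic.map (Int.castRingHom K0)).ne_zero
  refine H.aeval_ne_zero K0 _ hQ0 ?_
  rw [hrec_aeval_map]
  exact h3

include hM in
/-- **Generation by the swapped Hauptmodul**: the level-`M q` function field is generated over
the `α`-image of the level-`M` function field by `θ = h(t^q)`. -/
theorem va2g_adjoin_theta (hA0 : A0.LiesOverPrime q)
    (θ : ↥(laurentBaseChange K0 (modularFunctionFieldFull (M * q))))
    (hθ : (θ : LaurentSeries K0) = qExpand K0 q (H.h K0)) :
    letI := algebraAlong (heckeAlphaBar K0 M q)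
    IntermediateField.adjoin ↥(laurentBaseChange K0 (modularFunctionFieldFull M))
      ({θ} : Set ↥(laurentBaseChange K0 (modularFunctionFieldFull (M * q)))) = ⊤ := by
  let _ : Algebra ↥(laurentBaseChange K0 (modularFunctionFieldFull M))
      ↥(laurentBaseChange K0 (modularFunctionFieldFull (M * q))) :=
    algebraAlong (heckeAlphaBar K0 M q)
  have htop := va2g_adjoin_betaJ M q hM K0 A0 hA0
  rw [eq_top_iff, ← htop, IntermediateField.adjoin_le_iff]
  intro z hz
  rw [Set.mem_singleton_iff] at hz
  rw [hz]
  have hrel := va2g_rel_theta M q K0 H θ hθ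
  have hQ0 := va2g_Q_theta_ne_zero M q K0 H θ hθ
  have hθmem : θ ∈ IntermediateField.adjoin ↥(laurentBaseChange K0 (modularFunctionFieldFull M))
      ({θ} : Set ↥(laurentBaseChange K0 (modularFunctionFieldFull (M * q)))) :=
    IntermediateField.subset_adjoin _ _ (Set.mem_singleton θ)
  have hPm := va2g_aeval_int_mem (IntermediateField.adjoin
    ↥(laurentBaseChange K0 (modularFunctionFieldFull M))
      ({θ} : Set ↥(laurentBaseChange K0 (modularFunctionFieldFull (M * q))))).toSubfield hθmem H.P
  have hQm := va2g_aeval_int_mem (IntermediateField.adjoin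
    ↥(laurentBaseChange K0 (modularFunctionFieldFull M))
      ({θ} : Set ↥(laurentBaseChange K0 (modularFunctionFieldFull (M * q))))).toSubfield hθmem H.Q
  have hj : heckeBetaBar K0 M q (grJ K0 M) = aeval θ H.P * (aeval θ H.Q)⁻¹ := by
    rw [← hrel, mul_assoc, mul_inv_cancel₀ hQ0, mul_one]
  rw [hj]
  exact mul_mem hPm (inv_mem hQm)

include hM in
/-- **The degree of the modular equation for the Hauptmodul**: the minimal polynomial of
`θ = h(t^q)` over the `α`-image of the level-`M` function field has degree `q + 1`. -/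
theorem va2g_natDegree_theta (hA0 : A0.LiesOverPrime q)
    (θ : ↥(laurentBaseChange K0 (modularFunctionFieldFull (M * q))))
    (hθ : (θ : LaurentSeries K0) = qExpand K0 q (H.h K0)) :
    letI := algebraAlong (heckeAlphaBar K0 M q)
    (minpoly ↥(laurentBaseChange K0 (modularFunctionFieldFull M)) θ).natDegree = q + 1 := by
  let _ : Algebra ↥(laurentBaseChange K0 (modularFunctionFieldFull M))
      ↥(laurentBaseChange K0 (modularFunctionFieldFull (M * q))) :=
    algebraAlong (heckeAlphaBar K0 M q)
  have hdeg : Module.finrank ↥(laurentBaseChange K0 (modularFunctionFieldFull M))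
      ↥(laurentBaseChange K0 (modularFunctionFieldFull (M * q))) = q + 1 :=
    va2d_finrank K0 M hq.out hM
  exact va2g_natDegree_of_top q hdeg θ (va2g_adjoin_theta M q hM K0 A0 H hA0 θ hθ)

end Main

end Fermat.Agent.S34
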